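import Fermat.Agent.S18.ValSpec
import Fermat.Agent.S24.PrincipalDiv
import Fermat.Agent.S24.EvDeg

/-!
# S18, package V (helper20), part 6: reduction of S18 to the KEY statement (V5)

* `S18_hPD`, `S18_hconst`: package P0 for `F = ℚ̄(j(q^d) : d ∣ N)` (from the S24 package BG);
* `S18_specModL h`: the specialisation datum attached to `h : ReductionInputsModL A N`;
* `S18_of_key`: S18 from "`deg D = 0`, `m • D` principal, `r_* D` principal `⇒ D` principal";
* `S18_of_key'`: the same in normal form (`r_* D = 0`, `m • D = div u`, `red u = 1`).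
-/

set_option autoImplicit false
set_option synthInstance.maxHeartbeats 400000
set_option maxHeartbeats 1000000

open HahnSeries IntermediateField AlgebraicCurve ModularCurve

namespace Fermat.Agent.S18

variable (N : ℕ) [NeZero N]

/-- **P0** (char. 0): principal divisors exist on `F`. -/
theorem S18_hPD : HasPrincipalDivisors (AlgebraicClosure ℚ) ↥(modularFunctionFieldBar N) := by
  haveI := Fermat.Agent.S24.finiteDimensional_jB N
  exact Fermat.Agent.S24.BG_hasPrincipalDivisors (Fermat.Agent.S24.transcendental_jB N)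

/-- **P0** (char. 0): a function without zeros and poles is constant. -/
theorem S18_hconst (f : ↥(modularFunctionFieldBar N)) (hf : f ≠ 0)
    (h : ∀ P : Place (AlgebraicClosure ℚ) ↥(modularFunctionFieldBar N), P.ord f = 0) :
    ∃ c : AlgebraicClosure ℚ,
      f = algebraMap (AlgebraicClosure ℚ) ↥(modularFunctionFieldBar N) c := by
  by_cases halg : IsAlgebraic (AlgebraicClosure ℚ) f
  · obtain ⟨c, hc⟩ := Fermat.Agent.S24.BL_mem_range_of_isIntegral halg.isIntegral
    exact ⟨c, hc.symm⟩
  · exfalso
    have ht : Transcendental (AlgebraicClosure ℚ) f := halg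
    haveI := Fermat.Agent.S24.BL_finite_of_transcendental
      (Fermat.Agent.S24.finiteDimensional_jB N) ht
    obtain ⟨s, hs, hsum⟩ := Fermat.Agent.S24.BG_zeros_main ht
    have hs0 : s = ∅ := by
      apply Finset.eq_empty_of_forall_notMem
      intro v hv
      have := (hs v).mp hv
      rw [h v] at this
      exact lt_irrefl _ this
    rw [hs0, Finset.sum_empty] at hsum
    have hpos : 0 < Module.finrank ↥((AlgebraicClosure ℚ)⟮f⟯) ↥(modularFunctionFieldBar N) :=
      Module.finrank_pos
    omega

variable (A : ValuationSubring (AlgebraicClosure ℚ)) (h : ReductionInputsModL A N)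

/-- the specialisation datum attached to `h : ReductionInputsModL A N`. -/
noncomputable def S18_specModL : S18_Spec (AlgebraicClosure ℚ) ↥(modularFunctionFieldBar N)
    (IsLocalRing.ResidueField A) ↥(modularFunctionFieldFullC (IsLocalRing.ResidueField A) N) :=
  S18_spec A N (S18_hPD N) (S18_hconst N) h.choose_spec.2 (placeReductionModL h)
    (isPlaceReductionModL_placeReductionModL h)

theorem S18_specModL_r : (S18_specModL N A h).r = placeReductionModL h := rfl

theorem S18_specModL_A : (S18_specModL N A h).A = A := rfl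

/-- **V5**: S18 follows from the KEY statement on divisors. -/
theorem S18_of_key (m : ℕ) (z : JZero N) (hmz : m • z = 0) (hz : reductionModL A N z = 0)
    (KEY : ∀ D : Divisor (AlgebraicClosure ℚ) ↥(modularFunctionFieldBar N),
      Divisor.degree D = 0 →
      (∃ u : ↥(modularFunctionFieldBar N), u ≠ 0 ∧ ∀ P, (m : ℤ) * D P = P.ord u) →
      (∃ w : ↥(modularFunctionFieldFullC (IsLocalRing.ResidueField A) N), w ≠ 0 ∧
        ∀ Q, Finsupp.mapDomain (placeReductionModL h) D Q = Q.ord w) →
      D ∈ Divisor.principal (K := AlgebraicClosure ℚ) (F := ↥(modularFunctionFieldBar N))) :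
    z = 0 := by
  obtain ⟨D, rfl⟩ := Pic0.mk_surjective z
  have h1 : (m • D : Divisor.degZero (K := AlgebraicClosure ℚ)
      (F := ↥(modularFunctionFieldBar N))) ∈
      (Divisor.principal (K := AlgebraicClosure ℚ)
        (F := ↥(modularFunctionFieldBar N))).addSubgroupOf Divisor.degZero := by
    have : Pic0.mk (m • D) = 0 := hmz
    exact (QuotientAddGroup.eq_zero_iff _).mp this
  rw [AddSubgroup.mem_addSubgroupOf] at h1
  obtain ⟨u, hu0, hu⟩ := h1
  have h2 : reductionDegZeroAlong (placeReductionModL h)
      (isPlaceReductionModL_placeReductionModL h).1 D ∈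
      (Divisor.principal (K := IsLocalRing.ResidueField A)
        (F := ↥(modularFunctionFieldFullC (IsLocalRing.ResidueField A) N))).addSubgroupOf
        Divisor.degZero := by
    have := reductionModL_mk h D
    rw [hz] at this
    exact (QuotientAddGroup.eq_zero_iff _).mp this.symm
  rw [AddSubgroup.mem_addSubgroupOf, coe_reductionDegZeroAlong] at h2
  obtain ⟨w, hw0, hw⟩ := h2
  have hD := KEY D.1 D.2 ⟨u, hu0, fun P => by
    rw [← hu P]
    simp⟩ ⟨w, hw0, hw⟩
  exact (QuotientAddGroup.eq_zero_iff _).mpr (AddSubgroup.mem_addSubgroupOf.mpr hD)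

/-- **V5**, normal form: S18 follows from the KEY statement for `D` with `r_* D = 0`,
`m • D = div u`, `u ∈ O`, `red u = 1`.  (`hconstk` = package P0 for `F_k`.) -/
theorem S18_of_key' (m : ℕ) (z : JZero N) (hmz : m • z = 0) (hz : reductionModL A N z = 0)
    (hconstk : ∀ g : ↥(modularFunctionFieldFullC (IsLocalRing.ResidueField A) N), g ≠ 0 →
      (∀ Q : Place (IsLocalRing.ResidueField A)
        ↥(modularFunctionFieldFullC (IsLocalRing.ResidueField A) N), Q.ord g = 0) →
      ∃ c : IsLocalRing.ResidueField A, g = algebraMap (IsLocalRing.ResidueField A)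
        ↥(modularFunctionFieldFullC (IsLocalRing.ResidueField A) N) c)
    (KEY : ∀ D : Divisor (AlgebraicClosure ℚ) ↥(modularFunctionFieldBar N),
      Divisor.degree D = 0 → Finsupp.mapDomain (S18_specModL N A h).r D = 0 →
      ∀ u : (S18_specModL N A h).O, (S18_specModL N A h).red u = 1 →
      (∀ P, (m : ℤ) * D P = P.ord (u : ↥(modularFunctionFieldBar N))) →
      D ∈ Divisor.principal (K := AlgebraicClosure ℚ) (F := ↥(modularFunctionFieldBar N))) :
    z = 0 := by
  refine S18_of_key N A h m z hmz hz ?_
  rintro D hdeg ⟨u, hu0, hu⟩ ⟨w, hw0, hw⟩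
  obtain ⟨D', u', hDD', hdeg', hmap, hred, hu'⟩ :=
    (S18_specModL N A h).normalize (S18_hPD N) hconstk m D u hu0 hu w hw0 hw
  have hD' := KEY D' (by rw [hdeg', hdeg]) hmap u' hred hu'
  have : D = (D - D') + D' := by abel
  rw [this]
  exact AddSubgroup.add_mem _ hDD' hD'

end Fermat.Agent.S18
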