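import Mathlib
import Fermat.Prelude.Def_FLTPrelim_Ramification

/-!
# S18 (helper20): the residue field of a valuation ring of an algebraically closed field

* `S18_residue_isAlgClosed`: it is algebraically closed;
* `S18_residue_charP`: it has characteristic `ℓ` if the valuation ring lies over `ℓ`;
* `S18_residue_natCast_ne_zero`: `(m : k) ≠ 0` if `ℓ ∤ m`.
-/

set_option autoImplicit false

namespace Fermat.Agent.S18

variable {L : Type*} [Field L]

/-- the residue field of a valuation ring of an algebraically closed field is algebraically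
closed. -/
theorem S18_residue_isAlgClosed [IsAlgClosed L] (A : ValuationSubring L) :
    IsAlgClosed (IsLocalRing.ResidueField A) := by
  apply IsAlgClosed.of_exists_root
  intro f hmonic hirr
  have hlift : f ∈ Polynomial.lifts (IsLocalRing.residue A) :=
    (Polynomial.mem_lifts f).mpr
      (Polynomial.map_surjective _ IsLocalRing.residue_surjective f)
  obtain ⟨f', hf', hdeg, hmonic'⟩ := Polynomial.lifts_and_degree_eq_and_monic hlift hmonic
  have hdeg0 : (f'.map (algebraMap A L)).degree ≠ 0 := by
    rw [Polynomial.degree_map_eq_of_injective (FaithfulSMul.algebraMap_injective A L), hdeg]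
    exact Polynomial.degree_ne_of_natDegree_ne hirr.natDegree_pos.ne'
  obtain ⟨x, hx⟩ := IsAlgClosed.exists_root _ hdeg0
  have hint : IsIntegral A x := by
    refine ⟨f', hmonic', ?_⟩
    rw [Polynomial.IsRoot, Polynomial.eval_map] at hx
    exact hx
  obtain ⟨y, rfl⟩ := IsIntegrallyClosed.isIntegral_iff.mp hint
  refine ⟨IsLocalRing.residue A y, ?_⟩
  rw [Polynomial.IsRoot, Polynomial.eval_map_algebraMap, Polynomial.aeval_algebraMap_apply,
    map_eq_zero_iff _ (FaithfulSMul.algebraMap_injective A L)] at hx
  rw [← hf', Polynomial.eval_map, Polynomial.eval₂_hom]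
  have hx' : Polynomial.eval y f' = 0 := by
    rw [← Polynomial.coe_aeval_eq_eval]
    exact hx
  rw [hx', map_zero]

/-- the residue field of a valuation ring lying over `ℓ` has characteristic `ℓ`. -/
theorem S18_residue_charP (A : ValuationSubring L) (ℓ : ℕ) (hℓ : ℓ.Prime)
    (hA : A.LiesOverPrime ℓ) : CharP (IsLocalRing.ResidueField A) ℓ := by
  rw [CharP.charP_iff_prime_eq_zero hℓ]
  have h1 : ((ℓ : A) : L) = (ℓ : L) := by simp
  have h2 : (ℓ : A) ∈ IsLocalRing.maximalIdeal A := by
    rw [A.valuation_lt_one_iff, h1]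
    exact (A.mem_nonunits_iff).mp hA
  have h3 : IsLocalRing.residue A (ℓ : A) = 0 := (IsLocalRing.residue_eq_zero_iff _).2 h2
  rwa [map_natCast] at h3

theorem S18_residue_natCast_ne_zero (A : ValuationSubring L) (ℓ : ℕ) (hℓ : ℓ.Prime)
    (hA : A.LiesOverPrime ℓ) (m : ℕ) (hm : ¬ ℓ ∣ m) : (m : IsLocalRing.ResidueField A) ≠ 0 := by
  have := S18_residue_charP A ℓ hℓ hA
  rw [Ne, CharP.cast_eq_zero_iff (IsLocalRing.ResidueField A) ℓ m]
  exact hm

end Fermat.Agent.S18
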