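import Mathlib

/-!
# S18, package NORM (helper24), part 2: an element whose norm is a uniformizer

Dedekind-level core of Step 3 (Mathlib only).  `R ⊆ S` Dedekind domains, `S` finite and
torsion-free over `R`, `q` a nonzero maximal ideal of `R` such that all primes of `S` over `q`
have inertia degree one.  Then there is `y ∈ S` with `N_{S/R}(y) ∈ q ∖ q²`
(`NM_exists_intNorm`).  No separability or Galois hypothesis.

* `NM_exists_prime_of_relNorm_le` : `relNorm I ≤ q` ⇒ `I` is contained in a prime over `q`.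
* `NM_relNorm_eq` : `relNorm P = q` for every prime `P` over `q` (inertia degrees one).
* `NM_exists_intNorm`.
-/

set_option autoImplicit false

open Ideal Module

namespace Fermat.Agent.S18

variable {R S : Type*} [CommRing R] [IsDedekindDomain R] [CommRing S] [IsDedekindDomain S]
  [Algebra R S] [Module.Finite R S] [Module.IsTorsionFree R S]

/-- if the relative norm of `I` is contained in the maximal ideal `q`, then `I` is contained in
a prime lying over `q`. -/
theorem NM_exists_prime_of_relNorm_le (q : Ideal R) [q.IsMaximal] (I : Ideal S)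
    (h : relNorm R I ≤ q) : ∃ P : Ideal S, P.IsPrime ∧ P.LiesOver q ∧ I ≤ P := by
  have hqprime : q.IsPrime := IsMaximal.isPrime inferInstance
  induction I using UniqueFactorizationMonoid.induction_on_prime with
  | h₁ =>
    obtain ⟨Q, hQ₁, hQ₂⟩ := exists_maximal_ideal_liesOver_of_isIntegral (S := S) q
    exact ⟨Q, hQ₁.isPrime, hQ₂, bot_le⟩
  | h₂ I hI =>
    exfalso
    rw [Ideal.isUnit_iff] at hI
    rw [hI, relNorm_top] at h
    exact (IsMaximal.ne_top inferInstance) (top_le_iff.mp h)
  | h₃ I P hI hP ih =>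
    rw [map_mul] at h
    have hPprime : P.IsPrime := isPrime_of_prime hP
    have hP0 : P ≠ ⊥ := hP.ne_zero
    rcases hqprime.mul_le.mp h with h1 | h1
    · -- `relNorm P ≤ q`, so `P` lies over `q`
      have hunder : (P.under R).IsPrime := inferInstance
      have hunder0 : P.under R ≠ ⊥ := under_ne_bot R hP0
      have hlies : P.LiesOver (P.under R) := ⟨rfl⟩
      obtain ⟨s, hs⟩ := exists_relNorm_eq_pow_of_isPrime P (P.under R)
      rw [hs] at h1
      have h2 : P.under R ≤ q := hqprime.le_of_pow_le h1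
      have hmax : (P.under R).IsMaximal := hunder.isMaximal hunder0
      have h3 : P.under R = q := hmax.eq_of_le (IsMaximal.ne_top inferInstance) h2
      exact ⟨P, hPprime, ⟨h3.symm⟩, mul_le_left⟩
    · obtain ⟨Q, hQ₁, hQ₂, hQ₃⟩ := ih h1
      exact ⟨Q, hQ₁, hQ₂, mul_le_right.trans hQ₃⟩

/-- the exponent of the relative norm of a prime over `q` is positive. -/
theorem NM_exists_relNorm_eq_pow (q : Ideal R) [q.IsMaximal] (P : Ideal S) [P.IsPrime]
    [P.LiesOver q] : ∃ s : ℕ, 1 ≤ s ∧ relNorm R P = q ^ s := by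
  have hqprime : q.IsPrime := IsMaximal.isPrime inferInstance
  obtain ⟨s, hs⟩ := exists_relNorm_eq_pow_of_isPrime P q
  refine ⟨s, ?_, hs⟩
  by_contra h0
  have hs0 : s = 0 := by omega
  rw [hs0, pow_zero, Ideal.one_eq_top] at hs
  have h1 := relNorm_le_comap R P
  rw [hs, top_le_iff] at h1
  have h2 : (P.under R) = ⊤ := h1
  exact (IsPrime.ne_top (inferInstance : (P.under R).IsPrime)) h2

/-- if all primes over `q` have inertia degree one, their relative norm is `q`. -/
theorem NM_relNorm_eq (q : Ideal R) [q.IsMaximal] (hq : q ≠ ⊥)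
    (hf : ∀ P : Ideal S, P.IsPrime → P.LiesOver q → P.inertiaDeg R = 1)
    (P₀ : Ideal S) [hP₀ : P₀.IsPrime] [hP₀q : P₀.LiesOver q] : relNorm R P₀ = q := by
  classical
  have hqprime : q.IsPrime := IsMaximal.isPrime inferInstance
  have hfin : (q.primesOver S).Finite := IsDedekindDomain.primesOver_finite q S
  let _ : Fintype (q.primesOver S) := hfin.fintype
  -- exponents
  have hex : ∀ P : q.primesOver S, ∃ s : ℕ, 1 ≤ s ∧ relNorm R P.1 = q ^ s := by
    intro P
    have : P.1.IsPrime := P.2.1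
    have : P.1.LiesOver q := P.2.2
    exact NM_exists_relNorm_eq_pow q P.1
  choose s hs1 hs using hex
  -- the norm of `q S`
  have h1 : relNorm R (q.map (algebraMap R S)) = q ^ finrank R S := relNorm_algebraMap S q
  have h2 : q.map (algebraMap R S) = ∏ P ∈ q.primesOver S, P ^ P.ramificationIdx R :=
    Ideal.map_algebraMap_eq_finsetProd_pow hq
  have h3 : relNorm R (q.map (algebraMap R S)) =
      q ^ ∑ P : q.primesOver S, s P * P.1.ramificationIdx R := by
    rw [h2, map_prod, ← Finset.prod_pow_eq_pow_sum]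
    rw [← Finset.prod_set_coe (q.primesOver S)]
    refine Finset.prod_congr rfl fun P _ => ?_
    rw [map_pow, hs P, ← pow_mul]
  have h4 : finrank R S = ∑ P : q.primesOver S, s P * P.1.ramificationIdx R := by
    have hinj : Function.Injective (fun n : ℕ => q ^ n) :=
      (IsLeftCancelMulZero.mul_left_cancel_of_ne_zero hq).pow_injective (by
        rw [Ideal.one_eq_top]
        exact IsMaximal.ne_top inferInstance)
    exact hinj (h1.symm.trans h3)
  have h5 : ∑ P : q.primesOver S, P.1.ramificationIdx R * P.1.inertiaDeg R = finrank R S :=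
    Ideal.sum_ramification_inertia_eq_finrank q S
  have h6 : ∑ P : q.primesOver S, P.1.ramificationIdx R = finrank R S := by
    rw [← h5]
    refine Finset.sum_congr rfl fun P _ => ?_
    rw [hf P.1 P.2.1 P.2.2, mul_one]
  -- compare
  have h7 : ∀ P : q.primesOver S, P.1.ramificationIdx R ≤ s P * P.1.ramificationIdx R :=
    fun P => Nat.le_mul_of_pos_left _ (hs1 P)
  have h8 : ∀ P ∈ (Finset.univ : Finset (q.primesOver S)),
      P.1.ramificationIdx R = s P * P.1.ramificationIdx R := by
    rw [← Finset.sum_eq_sum_iff_of_le (fun P _ => h7 P), h6, h4]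
  have hP₀ : P₀ ∈ q.primesOver S := ⟨hP₀, hP₀q⟩
  have h9 := h8 ⟨P₀, hP₀⟩ (Finset.mem_univ _)
  have he : P₀.ramificationIdx R ≠ 0 := (Ideal.ramificationIdx_pos (R := R) (q := P₀)).ne'
  have hs₀ : s ⟨P₀, hP₀⟩ = 1 := by
    have h10 : 1 * P₀.ramificationIdx R = s ⟨P₀, hP₀⟩ * P₀.ramificationIdx R := by
      rw [one_mul]; exact h9
    exact (Nat.eq_of_mul_eq_mul_right (Nat.pos_of_ne_zero he) h10).symm
  have := hs ⟨P₀, hP₀⟩
  rw [hs₀, pow_one] at this
  exact this

/-- **NORM, Dedekind core**: if all primes over the nonzero maximal ideal `q` have inertia degree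
one, some `y ∈ S` has `N_{S/R}(y) ∈ q ∖ q²`. -/
theorem NM_exists_intNorm (q : Ideal R) [q.IsMaximal] (hq : q ≠ ⊥)
    (hf : ∀ P : Ideal S, P.IsPrime → P.LiesOver q → P.inertiaDeg R = 1) :
    ∃ y : S, Algebra.intNorm R S y ∈ q ∧ Algebra.intNorm R S y ∉ q ^ 2 := by
  classical
  have hqprime : q.IsPrime := IsMaximal.isPrime inferInstance
  obtain ⟨P₀, hP₀max, hP₀q⟩ := exists_maximal_ideal_liesOver_of_isIntegral (S := S) q
  have hP₀prime : P₀.IsPrime := hP₀max.isPrime
  have hP₀0 : P₀ ≠ ⊥ := ne_bot_of_liesOver_of_ne_bot hq P₀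
  have hfin : (q.primesOver S).Finite := IsDedekindDomain.primesOver_finite q S
  -- prime avoidance
  set T : Finset (Ideal S) := insert (P₀ ^ 2) (hfin.toFinset.erase P₀) with hT
  have hav : ¬ ((P₀ : Set S) ⊆ ⋃ i ∈ (↑T : Set (Ideal S)), (i : Set S)) := by
    rw [Ideal.subset_union_prime (s := T) (f := fun i => i) (P₀ ^ 2) (P₀ ^ 2) (fun i hi h1 _ => by
      rw [hT, Finset.mem_insert] at hi
      rcases hi with hi | hi
      · exact absurd hi h1
      · have := (Finset.mem_erase.mp hi).2
        rw [Set.Finite.mem_toFinset] at this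
        exact this.1)]
    rintro ⟨i, hi, hle⟩
    rw [hT, Finset.mem_insert] at hi
    rcases hi with hi | hi
    · -- `P₀ ≤ P₀ ^ 2` is impossible
      rw [hi] at hle
      have h1 : P₀ ^ 2 ≤ P₀ ^ 1 := Ideal.pow_le_pow_right (by omega)
      have h2 : P₀ ^ 1 = P₀ ^ 2 := le_antisymm (by rwa [pow_one]) h1
      have hinj : Function.Injective (fun n : ℕ => P₀ ^ n) :=
        (IsLeftCancelMulZero.mul_left_cancel_of_ne_zero hP₀0).pow_injective (by
          rw [Ideal.one_eq_top]
          exact hP₀prime.ne_top)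
      have := hinj h2
      omega
    · obtain ⟨hne, hmem⟩ := Finset.mem_erase.mp hi
      rw [Set.Finite.mem_toFinset] at hmem
      exact hne (hP₀max.eq_of_le hmem.1.ne_top hle).symm
  rw [Set.not_subset] at hav
  obtain ⟨y, hyP₀, hy⟩ := hav
  have hy' : ∀ i ∈ T, y ∉ i := by
    intro i hi hyi
    apply hy
    rw [Set.mem_iUnion₂]
    exact ⟨i, hi, hyi⟩
  have hy2 : y ∉ P₀ ^ 2 := hy' _ (by rw [hT]; exact Finset.mem_insert_self _ _)
  have hyoth : ∀ P : Ideal S, P.IsPrime → P.LiesOver q → P ≠ P₀ → y ∉ P := by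
    intro P hP hPq hne
    refine hy' P ?_
    rw [hT]
    refine Finset.mem_insert_of_mem (Finset.mem_erase.mpr ⟨hne, ?_⟩)
    rw [Set.Finite.mem_toFinset]
    exact ⟨hP, hPq⟩
  -- factor `(y) = P₀ * 𝔞`
  have hdvd : P₀ ∣ span {y} := by
    rw [Ideal.dvd_iff_le, span_le, Set.singleton_subset_iff]
    exact hyP₀
  obtain ⟨𝔞, h𝔞⟩ := hdvd
  have h𝔞not : ∀ P : Ideal S, P.IsPrime → P.LiesOver q → ¬ 𝔞 ≤ P := by
    intro P hP hPq hle
    by_cases hPP : P = P₀
    · subst hPP
      apply hy2
      have : span {y} ≤ P ^ 2 := by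
        rw [h𝔞, pow_two]
        exact Ideal.mul_mono_right hle
      exact this (mem_span_singleton_self y)
    · apply hyoth P hP hPq hPP
      have : span {y} ≤ P := by
        rw [h𝔞]
        exact mul_le_right.trans hle
      exact this (mem_span_singleton_self y)
  -- the norm
  have hN : span {Algebra.intNorm R S y} = q * relNorm R 𝔞 := by
    rw [← relNorm_singleton, h𝔞, map_mul, NM_relNorm_eq q hq hf P₀]
  refine ⟨y, ?_, ?_⟩
  · have : span {Algebra.intNorm R S y} ≤ q := by
      rw [hN]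
      exact mul_le_left
    exact this (mem_span_singleton_self _)
  · intro hmem
    have h1 : q * relNorm R 𝔞 ≤ q * q := by
      rw [← hN, ← pow_two, span_le, Set.singleton_subset_iff]
      exact hmem
    have h2 : relNorm R 𝔞 ≤ q := by
      rw [← Ideal.dvd_iff_le] at h1 ⊢
      exact (mul_dvd_mul_iff_left hq).mp h1
    obtain ⟨P, hP, hPq, hle⟩ := NM_exists_prime_of_relNorm_le q 𝔞 h2
    exact h𝔞not P hP hPq hle

end Fermat.Agent.S18
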