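import Mathlib
import Fermat.Agent.Lib.FFSep
import Fermat.Agent.S24.LocalRing
import Fermat.Agent.S24.GlobalA
import Fermat.Agent.S24.ResidueField
import Fermat.Agent.S18.NormExist

/-!
# S18, package RI-N2 (helper21): the norm–ord formula

`K` algebraically closed (any characteristic), `F / K(x)` finite separable.  For `f ∈ F` integral
over `K[x]` with `N_{F/K(x)}(f) = p(x)`, `p ∈ K[X]`, and `a ∈ K`:
`rootMultiplicity a p = ∑_{P | x = a} ord_P f` (`RIN_norm_ord`).

* `RIN_emultiplicity_relNorm` : Dedekind form (Mathlib only): if all primes over the maximal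
  ideal `q` have inertia degree one, `mult_q (relNorm I) = ∑_{P | q} mult_P I`.
* `RIN_ord_eq_multiplicity` : `ord` at the place of a height one prime is the multiplicity.
-/

set_option autoImplicit false

open Ideal Module

namespace Fermat.Agent.S18

section Dedekind

variable {R S : Type*} [CommRing R] [IsDedekindDomain R] [CommRing S] [IsDedekindDomain S]
  [Algebra R S] [Module.Finite R S] [Module.IsTorsionFree R S]

/-- the multiplicity of a prime in another prime. -/
theorem RIN_emultiplicity_prime (P P' : Ideal S) (hP : Prime P) (hP' : Prime P') :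
    emultiplicity P' P = if P' = P then 1 else 0 := by
  split_ifs with h
  · subst h
    have hfin : FiniteMultiplicity P' P' :=
      FiniteMultiplicity.of_prime_left hP' hP'.ne_zero
    exact hfin.emultiplicity_self
  · rw [emultiplicity_eq_zero]
    intro hdvd
    apply h
    have hP'prime : P'.IsPrime := isPrime_of_prime hP'
    have hPprime : P.IsPrime := isPrime_of_prime hP
    have hPmax : P.IsMaximal := hPprime.isMaximal hP.ne_zero
    exact (hPmax.eq_of_le hP'prime.ne_top (Ideal.le_of_dvd hdvd)).symm

/-- **norm–ord formula, Dedekind form**: if all primes over the maximal ideal `q` have inertia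
degree one, the multiplicity of `q` in the relative norm of `I` is the sum of the multiplicities
in `I` of the primes over `q`. -/
theorem RIN_emultiplicity_relNorm (q : Ideal R) [q.IsMaximal] (hq : q ≠ ⊥)
    (hf : ∀ P : Ideal S, P.IsPrime → P.LiesOver q → P.inertiaDeg R = 1)
    (T : Finset (Ideal S)) (hT : ∀ P, P ∈ T ↔ P.IsPrime ∧ P.LiesOver q)
    (I : Ideal S) (hI : I ≠ ⊥) :
    emultiplicity q (relNorm R I) = ∑ P ∈ T, emultiplicity P I := by
  classical
  have hqisprime : q.IsPrime := IsMaximal.isPrime inferInstance
  have hqprime : Prime q := Ideal.prime_of_isPrime hq hqisprime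
  have hTprime : ∀ P ∈ T, Prime P := by
    intro P hP
    obtain ⟨h1, h2⟩ := (hT P).1 hP
    exact Ideal.prime_of_isPrime (Ideal.ne_bot_of_liesOver_of_ne_bot hq P) h1
  revert hI
  induction I using UniqueFactorizationMonoid.induction_on_prime with
  | h₁ => intro h; exact absurd rfl h
  | h₂ I hI =>
    intro _
    rw [Ideal.isUnit_iff] at hI
    subst hI
    rw [relNorm_top]
    have h1 : emultiplicity q (⊤ : Ideal R) = 0 := by
      rw [emultiplicity_eq_zero]
      intro hdvd
      have := Ideal.le_of_dvd hdvd
      exact hqisprime.ne_top (top_le_iff.1 this)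
    rw [h1]
    symm
    apply Finset.sum_eq_zero
    intro P hP
    rw [emultiplicity_eq_zero]
    intro hdvd
    have := Ideal.le_of_dvd hdvd
    exact (isPrime_of_prime (hTprime P hP)).ne_top (top_le_iff.1 this)
  | h₃ I P hI0 hP ih =>
    intro _
    have hPisprime : P.IsPrime := isPrime_of_prime hP
    rw [map_mul, emultiplicity_mul hqprime, ih hI0]
    have h2 : ∀ P' ∈ T, emultiplicity P' (P * I) = emultiplicity P' P + emultiplicity P' I :=
      fun P' hP' => emultiplicity_mul (hTprime P' hP')
    rw [Finset.sum_congr rfl h2, Finset.sum_add_distrib]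
    congr 1
    have h3 : ∀ P' ∈ T, emultiplicity P' P = if P' = P then 1 else 0 :=
      fun P' hP' => RIN_emultiplicity_prime P P' hP (hTprime P' hP')
    rw [Finset.sum_congr rfl h3, Finset.sum_ite_eq' T P]
    split_ifs with hPT
    · obtain ⟨h1, h2⟩ := (hT P).1 hPT
      rw [NM_relNorm_eq q hq hf P]
      exact (FiniteMultiplicity.of_prime_left hqprime hq).emultiplicity_self
    · rw [emultiplicity_eq_zero]
      intro hdvd
      apply hPT
      rw [hT]
      refine ⟨hPisprime, ?_⟩
      have hunder : (P.under R).IsPrime := inferInstance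
      have hunder0 : P.under R ≠ ⊥ := under_ne_bot R hP.ne_zero
      have hlies : P.LiesOver (P.under R) := ⟨rfl⟩
      obtain ⟨s, hs⟩ := exists_relNorm_eq_pow_of_isPrime P (P.under R)
      rw [hs] at hdvd
      have h4 : P.under R ≤ q := hqisprime.le_of_pow_le (Ideal.le_of_dvd hdvd)
      have hmax : (P.under R).IsMaximal := hunder.isMaximal hunder0
      have h5 : P.under R = q := hmax.eq_of_le hqisprime.ne_top h4
      exact ⟨h5.symm⟩

/-- multiplicities of principal ideals. -/
theorem RIN_emultiplicity_span (u r : R) :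
    emultiplicity (Ideal.span {u}) (Ideal.span {r}) = emultiplicity u r := by
  rw [emultiplicity_eq_emultiplicity_iff]
  intro n
  rw [Ideal.span_singleton_pow, Ideal.dvd_span_singleton, Ideal.mem_span_singleton]

end Dedekind

section places

open AlgebraicCurve IntermediateField IsDedekindDomain
open scoped IntermediateField.algebraAdjoinAdjoin
open Fermat.Agent.S24 Fermat.Agent.Lib

universe u v

variable {K : Type u} {F : Type v} [Field K] [Field F] [Algebra K F]

/-- the order at the place of a height one prime `w` of an element of `B` is its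
`w`-multiplicity. -/
theorem RIN_ord_eq_multiplicity {B : Type*} [CommRing B] [IsDedekindDomain B] [Algebra B F]
    [IsFractionRing B F] [Algebra K B] [IsScalarTower K B F] (w : HeightOneSpectrum B) (b : B)
    (hb : b ≠ 0) :
    (Place.ofHeightOneSpectrum (K := K) (F := F) w).ord (algebraMap B F b) =
      (multiplicity w.asIdeal (Ideal.span {b}) : ℤ) := by
  rw [BG_ord_ofHeightOneSpectrum, HeightOneSpectrum.valuation_of_algebraMap,
    HeightOneSpectrum.intValuation_eq_exp_neg_multiplicity w hb, WithZero.log_exp, neg_neg]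


section main

variable [IsAlgClosed K] {x : F} (hx : Transcendental K x) [FiniteDimensional K⟮x⟯ F]
  [Algebra.IsSeparable K⟮x⟯ F]

set_option maxHeartbeats 800000 in
include hx in
/-- **RI-N2, the norm–ord formula**: for `f` integral over `K[x]` with `N_{F/K(x)}(f) = p(x)`,
the multiplicity of the root `a` of `p` is the sum of the orders of `f` at the places over
`x = a`. -/
theorem RIN_norm_ord (f : F) (hf0 : f ≠ 0)
    (hint : IsIntegral (Algebra.adjoin K ({x} : Set F)) f)
    (p : Polynomial K)
    (hp : algebraMap K⟮x⟯ F (Algebra.norm K⟮x⟯ f) = Polynomial.aeval x p)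
    (a : K) (s : Finset (Place K F))
    (hs : ∀ P, P ∈ s ↔ 0 < P.ord (x - algebraMap K F a)) :
    (p.rootMultiplicity a : ℤ) = ∑ P ∈ s, P.ord f := by
  classical
  have iPID := BG_isPrincipalIdealRing hx
  have iDed := FFS_isDedekindDomain hx
  have iFrac := BG_isFractionRing (K := K) (x := x)
  have iFin := FFS_finite hx
  have iFree := FFS_free hx
  have hF : S24_IsFunctionField1 K F :=
    S24_isFunctionField1_of_isAlgebraic x (Algebra.IsAlgebraic.of_finite _ _)
  -- the element `x - a` of `K[x]`
  set u : Algebra.adjoin K ({x} : Set F) :=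
    BL_gen (K := K) x - algebraMap K (Algebra.adjoin K ({x} : Set F)) a with hu
  have huF : (u : F) = x - algebraMap K F a := rfl
  have hu0F : x - algebraMap K F a ≠ 0 := by
    intro h
    apply hx
    rw [sub_eq_zero] at h
    rw [h]
    exact isAlgebraic_algebraMap a
  have hu0 : u ≠ 0 := by
    intro h
    apply hu0F
    rw [← huF, h]
    rfl
  have hueq : u = BL_equiv hx (Polynomial.X - Polynomial.C a) := by
    apply Subtype.ext
    rw [BL_equiv_coe, huF]
    simp
  set q : Ideal (Algebra.adjoin K ({x} : Set F)) := Ideal.span {u} with hq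
  have hqmax : q.IsMaximal := by
    apply PrincipalIdealRing.isMaximal_of_irreducible
    rw [hueq]
    exact (MulEquiv.irreducible_iff (BL_equiv hx).toMulEquiv).mpr
      (Polynomial.irreducible_X_sub_C a)
  have hq0 : q ≠ ⊥ := by
    rw [hq, Ne, Ideal.span_singleton_eq_bot]
    exact hu0
  -- `f` and `x - a` as elements of `B`
  set b : integralClosure (Algebra.adjoin K ({x} : Set F)) F := ⟨f, hint⟩ with hb
  have hb0 : b ≠ 0 := by
    intro h
    apply hf0
    have := congrArg Subtype.val h
    exact this
  set uB : integralClosure (Algebra.adjoin K ({x} : Set F)) F :=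
    algebraMap (Algebra.adjoin K ({x} : Set F)) _ u with huB
  have huBF : algebraMap (integralClosure (Algebra.adjoin K ({x} : Set F)) F) F uB =
      x - algebraMap K F a := rfl
  -- the primes over `q`
  have hfin : (q.primesOver (integralClosure (Algebra.adjoin K ({x} : Set F)) F)).Finite :=
    IsDedekindDomain.primesOver_finite q _
  set T : Finset (Ideal (integralClosure (Algebra.adjoin K ({x} : Set F)) F)) :=
    hfin.toFinset with hT
  have hTmem : ∀ P, P ∈ T ↔ P.IsPrime ∧ P.LiesOver q := by
    intro P
    rw [hT, Set.Finite.mem_toFinset]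
    rfl
  have hne : ∀ P ∈ T, P ≠ ⊥ := by
    intro P hP
    obtain ⟨h1, h2⟩ := (hTmem P).1 hP
    exact Ideal.ne_bot_of_liesOver_of_ne_bot hq0 P
  have hmemu : ∀ P ∈ T, uB ∈ P := by
    intro P hP
    obtain ⟨h1, h2⟩ := (hTmem P).1 hP
    have : u ∈ q := Ideal.subset_span rfl
    rw [h2.over, Ideal.mem_comap] at this
    exact this
  have hinert : ∀ P : Ideal (integralClosure (Algebra.adjoin K ({x} : Set F)) F),
      P.IsPrime → P.LiesOver q → P.inertiaDeg (Algebra.adjoin K ({x} : Set F)) = 1 := by
    intro P hP hPq
    have hP0 : P ≠ ⊥ := Ideal.ne_bot_of_liesOver_of_ne_bot hq0 P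
    have hPmax : P.IsMaximal := hP.isMaximal hP0
    exact BG_inertiaDeg_eq_one (K := K) q P
      (BG_quotient_surjective (K := K) (F := F) ⟨P, hP, hP0⟩ (S24_residue_surjective hF _))
  -- the Dedekind formula
  have hspan0 : (Ideal.span {b} : Ideal (integralClosure (Algebra.adjoin K ({x} : Set F)) F)) ≠ 0 := by
    rw [Ne, Ideal.zero_eq_bot, Ideal.span_singleton_eq_bot]
    exact hb0
  have hD := RIN_emultiplicity_relNorm q hq0 hinert T hTmem (Ideal.span {b}) hspan0
  rw [Ideal.relNorm_singleton] at hD
  -- the norm is `p(x)`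
  have hnorm : Algebra.intNorm (Algebra.adjoin K ({x} : Set F))
      (integralClosure (Algebra.adjoin K ({x} : Set F)) F) b = BL_equiv hx p := by
    have h := Algebra.algebraMap_intNorm (A := Algebra.adjoin K ({x} : Set F)) (K := K⟮x⟯)
      (L := F) (B := integralClosure (Algebra.adjoin K ({x} : Set F)) F) b
    apply Subtype.ext
    rw [BL_equiv_coe, ← hp]
    have h' := congrArg (algebraMap K⟮x⟯ F) h
    exact h'
  have hp0 : p ≠ 0 := by
    rintro rfl
    rw [map_zero] at hp
    have : Algebra.norm K⟮x⟯ f = 0 := by
      apply (algebraMap K⟮x⟯ F).injective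
      rw [hp, map_zero]
    rw [Algebra.norm_eq_zero_iff] at this
    exact hf0 this
  have hroot : emultiplicity q (Ideal.span {Algebra.intNorm (Algebra.adjoin K ({x} : Set F))
      (integralClosure (Algebra.adjoin K ({x} : Set F)) F) b}) = (p.rootMultiplicity a : ℕ∞) := by
    rw [hq, RIN_emultiplicity_span, hnorm, hueq, emultiplicity_map_eq (BL_equiv hx),
      Polynomial.rootMultiplicity_eq_multiplicity, if_neg hp0]
    exact (Polynomial.finiteMultiplicity_X_sub_C a hp0).emultiplicity_eq_multiplicity
  rw [hroot] at hD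
  have hsum : ∑ P ∈ T, emultiplicity P (Ideal.span {b}) =
      ((∑ P ∈ T, multiplicity P (Ideal.span {b}) : ℕ) : ℕ∞) := by
    rw [Nat.cast_sum]
    apply Finset.sum_congr rfl
    intro P hP
    obtain ⟨h1, h2⟩ := (hTmem P).1 hP
    have hPprime : Prime P := Ideal.prime_of_isPrime (hne P hP) h1
    have hfm : FiniteMultiplicity P (Ideal.span {b}) :=
      FiniteMultiplicity.of_prime_left hPprime hspan0
    exact hfm.emultiplicity_eq_multiplicity
  rw [hsum, ENat.natCast_inj] at hD
  rw [hD, Nat.cast_sum]
  -- the bijection between primes over `q` and places over `x = a`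
  refine Finset.sum_bij
    (fun P hP => Place.ofHeightOneSpectrum (K := K) (F := F)
      (⟨P, ((hTmem P).1 hP).1, hne P hP⟩ :
        HeightOneSpectrum (integralClosure (Algebra.adjoin K ({x} : Set F)) F)))
    ?_ ?_ ?_ ?_
  · intro P hP
    rw [hs, ← BG_mem_nonunits_iff_ord_pos _ hu0F, ← huBF]
    exact (BG_mem_asIdeal_iff (K := K) (F := F) _ uB).mp (hmemu P hP)
  · intro P hP P' hP' h
    have := BG_ofHeightOneSpectrum_injective (K := K) (F := F) h
    exact congrArg HeightOneSpectrum.asIdeal this
  · intro v hv
    rw [hs] at hv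
    have hxv : x ∈ v.toValuationSubring := by
      have h1 : x - algebraMap K F a ∈ v.toValuationSubring :=
        (BG_mem_iff_ord_nonneg v hu0F).mpr hv.le
      have h2 : algebraMap K F a ∈ v.toValuationSubring := by
        rw [← Place.coe_algebraMap v a]
        exact SetLike.coe_mem _
      have := v.toValuationSubring.add_mem _ _ h1 h2
      rwa [sub_add_cancel] at this
    obtain ⟨w, hw⟩ := BG_exists_heightOneSpectrum
      (B := integralClosure (Algebra.adjoin K ({x} : Set F)) F) v
      (fun b => BL_mem_of_isIntegral v hxv (b := (b : F)) b.2)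
    have hxw : uB ∈ w.asIdeal := by
      rw [BG_mem_asIdeal_iff (K := K) (F := F) w, hw, huBF, BG_mem_nonunits_iff_ord_pos _ hu0F]
      exact hv
    have hle : q ≤ w.asIdeal.under (Algebra.adjoin K ({x} : Set F)) := by
      rw [hq, Ideal.span_le, Set.singleton_subset_iff]
      exact hxw
    have hprime : w.asIdeal.IsPrime := w.isPrime
    have hunder : (w.asIdeal.under (Algebra.adjoin K ({x} : Set F))).IsPrime :=
      Ideal.IsPrime.under _ _
    have heq : q = w.asIdeal.under (Algebra.adjoin K ({x} : Set F)) :=
      Ideal.IsMaximal.eq_of_le inferInstance hunder.ne_top hle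
    refine ⟨w.asIdeal, (hTmem _).2 ⟨hprime, ⟨heq⟩⟩, ?_⟩
    exact hw
  · intro P hP
    have := RIN_ord_eq_multiplicity (K := K) (F := F)
      (⟨P, ((hTmem P).1 hP).1, hne P hP⟩ :
        HeightOneSpectrum (integralClosure (Algebra.adjoin K ({x} : Set F)) F)) b hb0
    exact this.symm

end main

end places

end Fermat.Agent.S18
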