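import Mathlib
import Fermat.Prelude.Def_AlgebraicCurve_Repartitions

/-!
# S18, package V (helper20): abstract specialisation data

`S18_Spec L F k Fk`: a function field `F / L`, a function field `Fk / k`, a valuation ring `A ⊂ L`
with residue map `res : A → k`, a valuation ring `O ⊂ F` (the Gauss valuation ring) with residue
map `red : O → Fk` extending `res`, with value group `= ` value group of `A`, and a map of places
`r : Pl(F) → Pl(Fk)` with `r_*(div x) = div (red x)` for units `x` of `O`.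

Everything that the later packages of S18 need from the hypothesis `ReductionInputsModL` is in this
structure (instance for `X₀(N)`: `S18_spec` in `ValSpec.lean`).

Abstract consequences proved here:
* `S18_Spec.r_surjective` (V3),
* `S18_Spec.mapDomain_pos`, `S18_Spec.value_reduction` (V4),
* `S18_Spec.normalize` (V5, normal form of a torsion class with trivial reduction).
-/

set_option autoImplicit false

open AlgebraicCurve

namespace Fermat.Agent.S18

/-- specialisation datum -/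
structure S18_Spec (L F k Fk : Type*) [Field L] [Field F] [Algebra L F] [Field k] [Field Fk]
    [Algebra k Fk] where
  /-- the valuation ring of the base field -/
  A : ValuationSubring L
  /-- its residue map -/
  res : A →+* k
  res_surjective : Function.Surjective res
  res_eq_zero_iff : ∀ a : A, res a = 0 ↔ ¬ IsUnit a
  /-- the Gauss valuation ring -/
  O : ValuationSubring F
  /-- its residue map -/
  red : O →+* Fk
  red_surjective : Function.Surjective red
  red_ne_zero_iff : ∀ x : O, red x ≠ 0 ↔ IsUnit x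
  algebraMap_mem_iff : ∀ a : L, algebraMap L F a ∈ O ↔ a ∈ A
  red_algebraMap : ∀ (a : L) (ha : a ∈ A) (haO : algebraMap L F a ∈ O),
    red ⟨algebraMap L F a, haO⟩ = algebraMap k Fk (res ⟨a, ha⟩)
  exists_const_mul_unit : ∀ f : F, f ≠ 0 →
    ∃ (c : L) (u : O), c ≠ 0 ∧ red u ≠ 0 ∧ f = algebraMap L F c * (u : F)
  /-- the specialisation map on places -/
  r : Place L F → Place k Fk
  deg_r : ∀ P, (r P).deg = P.deg
  mapDomain_div : ∀ x : O, red x ≠ 0 → ∀ D : Divisor L F, (∀ P, D P = P.ord (x : F)) →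
    ∀ Q, Finsupp.mapDomain r D Q = Q.ord (red x)

namespace S18_Spec

variable {L F k Fk : Type*} [Field L] [Field F] [Algebra L F] [Field k] [Field Fk]
  [Algebra k Fk] (S : S18_Spec L F k Fk)

theorem ord_algebraMap (P : Place L F) (a : L) : P.ord (algebraMap L F a) = 0 := by
  rcases eq_or_ne a 0 with rfl | ha
  · simp
  · have hu : IsUnit (algebraMap L P.toValuationSubring a) :=
      (IsUnit.mk0 a ha).map (algebraMap L P.toValuationSubring)
    have := P.ord_coe_unit hu.unit
    simpa using this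

theorem ord_neg_one (Q : Place k Fk) : Q.ord (-1 : Fk) = 0 := by
  have h3 := Q.ord_mul (f := (-1 : Fk)) (g := -1) (neg_ne_zero.mpr one_ne_zero)
    (neg_ne_zero.mpr one_ne_zero)
  rw [neg_mul_neg, one_mul, Place.ord_one] at h3
  omega

theorem ne_zero_of_red_ne_zero {x : S.O} (hx : S.red x ≠ 0) : (x : F) ≠ 0 := by
  intro h0
  apply hx
  have : x = 0 := Subtype.ext h0
  rw [this, map_zero]

theorem res_inv_eq_zero {a : L} (ha : a ∉ S.A) (hai : a⁻¹ ∈ S.A) : S.res ⟨a⁻¹, hai⟩ = 0 := by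
  rw [S.res_eq_zero_iff]
  rintro ⟨u, hu'⟩
  apply ha
  have ha0 : a ≠ 0 := fun h0 => ha (h0 ▸ S.A.zero_mem)
  have h5 : ((u : S.A) : L) * (((u⁻¹ : S.Aˣ) : S.A) : L) = 1 := by
    exact_mod_cast congrArg (fun z : S.A => (z : L)) u.mul_inv
  have h6 : ((u : S.A) : L) = a⁻¹ := congrArg Subtype.val hu'
  rw [h6] at h5
  have h7 : (((u⁻¹ : S.Aˣ) : S.A) : L) = a := by
    have := congrArg (fun z => a * z) h5
    simp only [mul_one, ← mul_assoc, mul_inv_cancel₀ ha0, one_mul] at this
    exact this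
  rw [← h7]
  exact ((u⁻¹ : S.Aˣ) : S.A).2

/-- positivity of a fibre sum. -/
theorem mapDomain_pos {α β : Type*} (r : α → β) (D : α →₀ ℤ) (Q : β)
    (hnn : ∀ P, r P = Q → 0 ≤ D P) (P₀ : α) (hP₀ : r P₀ = Q) (hpos : 0 < D P₀) :
    0 < Finsupp.mapDomain r D Q := by
  classical
  rw [Finsupp.mapDomain, Finsupp.sum_apply, Finsupp.sum]
  have hmem : P₀ ∈ D.support := Finsupp.mem_support_iff.mpr hpos.ne'
  refine Finset.sum_pos' (fun P _ => ?_) ⟨P₀, hmem, ?_⟩
  · rw [Finsupp.single_apply]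
    split_ifs with h
    · exact hnn P h
    · exact le_refl _
  · rw [Finsupp.single_apply, if_pos hP₀]
    exact hpos

/-- a fibre sum over an empty fibre vanishes. -/
theorem mapDomain_eq_zero_of_empty {α β : Type*} (r : α → β) (D : α →₀ ℤ) (Q : β)
    (hQ : ∀ P, r P ≠ Q) : Finsupp.mapDomain r D Q = 0 := by
  classical
  rw [Finsupp.mapDomain, Finsupp.sum_apply, Finsupp.sum]
  refine Finset.sum_eq_zero fun P _ => ?_
  rw [Finsupp.single_apply, if_neg (hQ P)]

variable (hPD : HasPrincipalDivisors L F)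

include hPD

/-- **V3**: the specialisation map on places is onto. -/
theorem r_surjective : Function.Surjective S.r := by
  intro Q
  obtain ⟨ϖ, hϖ⟩ := IsDiscreteValuationRing.exists_irreducible Q.toValuationSubring
  have hord := Q.ord_coe_irreducible hϖ
  obtain ⟨x, hxϖ⟩ := S.red_surjective (ϖ : Fk)
  have hϖ0 : (ϖ : Fk) ≠ 0 := by
    intro h0
    rw [h0, Place.ord_zero] at hord
    exact zero_ne_one hord
  have hred : S.red x ≠ 0 := by rw [hxϖ]; exact hϖ0
  obtain ⟨D, hD, -⟩ := hPD.exists_divisor (x : F) (S.ne_zero_of_red_ne_zero hred)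
  have h1 := S.mapDomain_div x hred D hD Q
  rw [hxϖ, hord] at h1
  by_contra hQ
  push Not at hQ
  rw [mapDomain_eq_zero_of_empty S.r D Q hQ] at h1
  exact zero_ne_one h1

/-- **V4**: if `x ∈ O` is regular on the residue disc of `Q` and takes the value `a` at a point
`P₀` of the disc, then `a ∈ A` and `red x` takes the value `res a` at `Q`. -/
theorem value_reduction (x : S.O) (Q : Place k Fk)
    (hreg : ∀ P, S.r P = Q → 0 ≤ P.ord (x : F))
    (P₀ : Place L F) (hP₀ : S.r P₀ = Q) (a : L)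
    (ha : 0 < P₀.ord ((x : F) - algebraMap L F a)) :
    ∃ haA : a ∈ S.A,
      S.red x = algebraMap k Fk (S.res ⟨a, haA⟩) ∨
      0 < Q.ord (S.red x - algebraMap k Fk (S.res ⟨a, haA⟩)) := by
  have hz0 : (x : F) - algebraMap L F a ≠ 0 := by
    intro h0
    rw [h0, Place.ord_zero] at ha
    exact lt_irrefl _ ha
  -- regularity of `x - a` on the disc
  have hregz : ∀ P, S.r P = Q → 0 ≤ P.ord ((x : F) - algebraMap L F a) := by
    intro P hP
    have h1 : P.adicValuation (x : F) ≤ 1 := P.adicValuation_le_one_iff.mpr (Or.inr (hreg P hP))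
    have h2 : P.adicValuation (algebraMap L F a) ≤ 1 := P.adicValuation_algebraMap_le_one a
    have h3 : P.adicValuation ((x : F) - algebraMap L F a) ≤ 1 :=
      (Valuation.map_sub _ _ _).trans (max_le h1 h2)
    exact (P.adicValuation_le_one_iff.mp h3).resolve_left hz0
  have haA : a ∈ S.A := by
    by_contra haA
    have ha0 : a ≠ 0 := fun h0 => haA (h0 ▸ S.A.zero_mem)
    have hci : a⁻¹ ∈ S.A := (S.A.mem_or_inv_mem a).resolve_left haA
    have hres := S.res_inv_eq_zero haA hci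
    have hcO : algebraMap L F a⁻¹ ∈ S.O := (S.algebraMap_mem_iff _).mpr hci
    -- `y = a⁻¹ x - 1`
    set y : S.O := ⟨algebraMap L F a⁻¹, hcO⟩ * x - 1 with hy
    have hyred : S.red y = -1 := by
      rw [hy, map_sub, map_mul, map_one, S.red_algebraMap a⁻¹ hci hcO, hres, map_zero, zero_mul,
        zero_sub]
    have hyF : (y : F) = algebraMap L F a⁻¹ * ((x : F) - algebraMap L F a) := by
      show algebraMap L F a⁻¹ * (x : F) - 1 = _
      rw [mul_sub, ← map_mul, inv_mul_cancel₀ ha0, map_one]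
    have hc0 : algebraMap L F a⁻¹ ≠ 0 := by
      rw [Ne, map_eq_zero]
      exact inv_ne_zero ha0
    have hy0 : (y : F) ≠ 0 := by
      rw [hyF]
      exact mul_ne_zero hc0 hz0
    have hordy : ∀ P : Place L F, P.ord (y : F) = P.ord ((x : F) - algebraMap L F a) := by
      intro P
      rw [hyF, P.ord_mul hc0 hz0, ord_algebraMap, zero_add]
    obtain ⟨D, hD, -⟩ := hPD.exists_divisor _ hy0
    have h1 := S.mapDomain_div y (by rw [hyred]; exact neg_ne_zero.mpr one_ne_zero) D hD Q
    rw [hyred, ord_neg_one] at h1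
    have h3 := mapDomain_pos S.r D Q (fun P hP => by rw [hD P, hordy P]; exact hregz P hP) P₀ hP₀
      (by rw [hD P₀, hordy P₀]; exact ha)
    rw [h1] at h3
    exact lt_irrefl _ h3
  refine ⟨haA, ?_⟩
  have hcO : algebraMap L F a ∈ S.O := (S.algebraMap_mem_iff _).mpr haA
  set z : S.O := x - ⟨algebraMap L F a, hcO⟩ with hz
  have hzred : S.red z = S.red x - algebraMap k Fk (S.res ⟨a, haA⟩) := by
    rw [hz, map_sub, S.red_algebraMap a haA hcO]
  have hzF : (z : F) = (x : F) - algebraMap L F a := rfl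
  by_cases hz' : S.red z = 0
  · left
    rw [hzred, sub_eq_zero] at hz'
    exact hz'
  · right
    obtain ⟨D, hD, -⟩ := hPD.exists_divisor _ hz0
    have h1 := S.mapDomain_div z hz' D (fun P => by rw [hD P, hzF]) Q
    have h3 := mapDomain_pos S.r D Q (fun P hP => by rw [hD P]; exact hregz P hP) P₀ hP₀
      (by rw [hD P₀]; exact ha)
    rw [h1, hzred] at h3
    exact h3

/-- **V5** (normal form): a divisor `D` with `m • D = div u` and `r_* D = div w` is linearly
equivalent to a divisor `D'` with `r_* D' = 0` and `m • D' = div u'`, where `u' ∈ O` and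
`red u' = 1`. -/
theorem normalize
    (hconstk : ∀ g : Fk, g ≠ 0 → (∀ Q : Place k Fk, Q.ord g = 0) → ∃ c : k, g = algebraMap k Fk c)
    (m : ℕ) (D : Divisor L F) (u : F) (hu0 : u ≠ 0) (hu : ∀ P, (m : ℤ) * D P = P.ord u)
    (w : Fk) (hw0 : w ≠ 0) (hw : ∀ Q, Finsupp.mapDomain S.r D Q = Q.ord w) :
    ∃ (D' : Divisor L F) (u' : S.O), D - D' ∈ Divisor.principal (K := L) (F := F) ∧
      Divisor.degree D' = Divisor.degree D ∧ Finsupp.mapDomain S.r D' = 0 ∧ S.red u' = 1 ∧
      ∀ P, (m : ℤ) * D' P = P.ord (u' : F) := by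
  obtain ⟨G, hG⟩ := S.red_surjective w
  have hGred : S.red G ≠ 0 := by rw [hG]; exact hw0
  have hG0 : (G : F) ≠ 0 := S.ne_zero_of_red_ne_zero hGred
  obtain ⟨DG, hDG, hDGdeg⟩ := hPD.exists_divisor _ hG0
  have hmap' : Finsupp.mapDomain S.r (D - DG) = 0 := by
    ext Q
    rw [Finsupp.mapDomain_sub, Finsupp.sub_apply, hw Q, S.mapDomain_div G hGred DG hDG Q, hG]
    simp
  -- the function `u₁ = u / G^m`
  have hu1 : u * ((G : F) ^ m)⁻¹ ≠ 0 := mul_ne_zero hu0 (inv_ne_zero (pow_ne_zero _ hG0))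
  have hordu1 : ∀ P : Place L F, P.ord (u * ((G : F) ^ m)⁻¹) = (m : ℤ) * (D - DG) P := by
    intro P
    rw [P.ord_mul hu0 (inv_ne_zero (pow_ne_zero _ hG0)), P.ord_inv, ← zpow_natCast, P.ord_zpow,
      ← hu P, ← hDG P, Finsupp.sub_apply]
    ring
  obtain ⟨c, u₂, hc, hu2red, hu2⟩ := S.exists_const_mul_unit _ hu1
  have hu20 : (u₂ : F) ≠ 0 := S.ne_zero_of_red_ne_zero hu2red
  have hcF : algebraMap L F c ≠ 0 := by rwa [Ne, map_eq_zero]
  have hordu2 : ∀ P : Place L F, P.ord (u₂ : F) = (m : ℤ) * (D - DG) P := by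
    intro P
    rw [← hordu1 P, hu2, P.ord_mul hcF hu20, ord_algebraMap, zero_add]
  -- the reduction of `u₂` is a constant
  have hredconst : ∀ Q : Place k Fk, Q.ord (S.red u₂) = 0 := by
    intro Q
    have h1 := S.mapDomain_div u₂ hu2red ((m : ℤ) • (D - DG)) (fun P => by
      rw [Finsupp.smul_apply, smul_eq_mul, hordu2 P]) Q
    rw [← h1, Finsupp.mapDomain_smul, hmap']
    simp
  obtain ⟨cbar, hcbar⟩ := hconstk _ hu2red hredconst
  obtain ⟨a, rfl⟩ := S.res_surjective cbar
  have ha : IsUnit a := by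
    by_contra hnu
    apply hu2red
    rw [hcbar, (S.res_eq_zero_iff a).mpr hnu, map_zero]
  obtain ⟨v, rfl⟩ := ha
  have hvO : algebraMap L F (((v⁻¹ : S.Aˣ) : S.A) : L) ∈ S.O :=
    (S.algebraMap_mem_iff _).mpr ((v⁻¹ : S.Aˣ) : S.A).2
  have hv0 : algebraMap L F (((v⁻¹ : S.Aˣ) : S.A) : L) ≠ 0 := by
    rw [Ne, map_eq_zero]
    intro h0
    have h5 : ((v : S.A) : L) * (((v⁻¹ : S.Aˣ) : S.A) : L) = 1 := by
      exact_mod_cast congrArg (fun z : S.A => (z : L)) v.mul_inv
    rw [h0, mul_zero] at h5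
    exact zero_ne_one h5
  refine ⟨D - DG, ⟨_, hvO⟩ * u₂, ?_, ?_, hmap', ?_, fun P => ?_⟩
  · rw [sub_sub_cancel]
    exact ⟨_, hG0, hDG⟩
  · rw [map_sub, hDGdeg, sub_zero]
  · rw [map_mul, S.red_algebraMap _ ((v⁻¹ : S.Aˣ) : S.A).2 hvO, hcbar, ← map_mul, ← map_mul]
    have : (⟨(((v⁻¹ : S.Aˣ) : S.A) : L), ((v⁻¹ : S.Aˣ) : S.A).2⟩ : S.A) * (v : S.A) = 1 := by
      show ((v⁻¹ : S.Aˣ) : S.A) * (v : S.A) = 1
      exact v.inv_mul
    rw [this, map_one, map_one]
  · show (m : ℤ) * (D - DG) P = P.ord (algebraMap L F (((v⁻¹ : S.Aˣ) : S.A) : L) * (u₂ : F))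
    rw [P.ord_mul hv0 hu20, ord_algebraMap, zero_add, hordu2 P]

end S18_Spec

end Fermat.Agent.S18
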