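import Mathlib
import Fermat.Agent.S18.Spec

/-!
# S18: abstract Gauss datum (helper4)

`S18_Gauss L F k Fk` is `S18_Spec L F k Fk` without the specialisation map of places: a function
field `F / L`, a function field `Fk / k`, a valuation ring `A ⊂ L` with residue map
`res : A → k`, a valuation ring `O ⊂ F` (the Gauss valuation ring) with residue map
`red : O → Fk` extending `res`, whose value group is the value group of `A`.

It is the common interface of the packages that do not use the hypothesis
`ReductionInputsModL` (auxiliary fields `F' = F(μ)`, Deuring's inequality, norms).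
-/

set_option autoImplicit false

open AlgebraicCurve

namespace Fermat.Agent.S18

/-- Gauss datum: `S18_Spec` without the map of places. -/
structure S18_Gauss (L F k Fk : Type*) [Field L] [Field F] [Algebra L F] [Field k] [Field Fk]
    [Algebra k Fk] where
  /-- the valuation ring of the base field -/
  A : ValuationSubring L
  /-- its residue map -/
  res : A →+* k
  res_surjective : Function.Surjective res
  res_eq_zero_iff : ∀ a : A, res a = 0 ↔ ¬ IsUnit a
  /-- the Gauss valuation ring -/
  O : ValuationSubring F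
  /-- its residue map -/
  red : O →+* Fk
  red_surjective : Function.Surjective red
  red_ne_zero_iff : ∀ x : O, red x ≠ 0 ↔ IsUnit x
  algebraMap_mem_iff : ∀ a : L, algebraMap L F a ∈ O ↔ a ∈ A
  red_algebraMap : ∀ (a : L) (ha : a ∈ A) (haO : algebraMap L F a ∈ O),
    red ⟨algebraMap L F a, haO⟩ = algebraMap k Fk (res ⟨a, ha⟩)
  exists_const_mul_unit : ∀ f : F, f ≠ 0 →
    ∃ (c : L) (u : O), c ≠ 0 ∧ red u ≠ 0 ∧ f = algebraMap L F c * (u : F)

variable {L F k Fk : Type*} [Field L] [Field F] [Algebra L F] [Field k] [Field Fk]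
  [Algebra k Fk]

/-- the Gauss datum underlying a specialisation datum -/
def S18_Spec.toGauss (S : S18_Spec L F k Fk) : S18_Gauss L F k Fk where
  A := S.A
  res := S.res
  res_surjective := S.res_surjective
  res_eq_zero_iff := S.res_eq_zero_iff
  O := S.O
  red := S.red
  red_surjective := S.red_surjective
  red_ne_zero_iff := S.red_ne_zero_iff
  algebraMap_mem_iff := S.algebraMap_mem_iff
  red_algebraMap := S.red_algebraMap
  exists_const_mul_unit := S.exists_const_mul_unit

namespace S18_Gauss

variable (G : S18_Gauss L F k Fk)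

theorem red_eq_zero_iff (x : G.O) : G.red x = 0 ↔ ¬ IsUnit x := by
  rw [← not_iff_not, not_not]
  exact G.red_ne_zero_iff x

theorem ne_zero_of_red_ne_zero {x : G.O} (hx : G.red x ≠ 0) : (x : F) ≠ 0 := by
  intro h0
  apply hx
  have : x = 0 := Subtype.ext h0
  rw [this, map_zero]

/-- constants of `A` lie in `O` -/
theorem algebraMap_mem {a : L} (ha : a ∈ G.A) : algebraMap L F a ∈ G.O :=
  (G.algebraMap_mem_iff a).2 ha

/-- an element of `F` is in `O` or its inverse is a non-unit element of `O` -/
theorem mem_or_inv_mem (f : F) : f ∈ G.O ∨ f⁻¹ ∈ G.O :=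
  G.O.mem_or_inv_mem f

/-- every nonzero element of `O` with zero reduction is `c * u` with `c` a non-unit of `A`
and `u` a unit of `O`. -/
theorem exists_nonunit_mul_unit {x : G.O} (hx0 : (x : F) ≠ 0) (hx : G.red x = 0) :
    ∃ (c : L) (hc : c ∈ G.A) (u : G.O), c ≠ 0 ∧ G.res ⟨c, hc⟩ = 0 ∧ G.red u ≠ 0 ∧
      (x : F) = algebraMap L F c * (u : F) := by
  obtain ⟨c, u, hc0, hu, hxu⟩ := G.exists_const_mul_unit (x : F) hx0
  have huU : IsUnit u := (G.red_ne_zero_iff u).1 hu
  have hu0 : (u : F) ≠ 0 := G.ne_zero_of_red_ne_zero hu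
  -- `algebraMap c = x * u⁻¹ ∈ O`
  obtain ⟨v, hv⟩ := huU.exists_right_inv
  have hcO : algebraMap L F c ∈ G.O := by
    have h1 : algebraMap L F c = (x : F) * (v : F) := by
      have h2 : (u : F) * (v : F) = 1 := by exact_mod_cast congrArg Subtype.val hv
      rw [hxu, mul_assoc, h2, mul_one]
    rw [h1]
    exact G.O.mul_mem _ _ x.2 v.2
  have hcA : c ∈ G.A := (G.algebraMap_mem_iff c).1 hcO
  refine ⟨c, hcA, u, hc0, ?_, hu, hxu⟩
  -- `red x = res c * red u = 0` and `red u ≠ 0`
  have hx' : x = ⟨algebraMap L F c, hcO⟩ * u := Subtype.ext (by simpa using hxu)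
  rw [hx', map_mul, G.red_algebraMap c hcA hcO] at hx
  rcases mul_eq_zero.1 hx with h | h
  · exact (algebraMap k Fk).injective (by rw [h, map_zero])
  · exact absurd h hu

end S18_Gauss

end Fermat.Agent.S18
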