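import Fermat.Agent.S18.Reduce
import Fermat.Agent.S18.Gauss

/-!
# S18 / RI, package RI-BR (helper20), part 1: the Gauss datum of `X₀(N)` WITHOUT a reduction map

`S18_gauss A N hPD hconst hgen : S18_Gauss L F k F_k`: the Gauss valuation ring `O ⊂ F` of
`F = L(j(q^d) : d ∣ N)` and its reduction map `red : O → F_k`, from part (3) of
`ReductionInputsModL` only (`hgen : PrincipalGeneratedByIntegral`), no map of places.

`S18_gaussModL N A hgen` is the instance `L = ℚ̄`; for `h : ReductionInputsModL A N`
`(S18_specModL N A h).toGauss = S18_gaussModL N A h.choose_spec.2` holds by `rfl`.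
-/

set_option autoImplicit false
set_option synthInstance.maxHeartbeats 400000
set_option maxHeartbeats 1000000

open HahnSeries IntermediateField AlgebraicCurve ModularCurve

namespace Fermat.Agent.S18

section General

variable {L : Type*} [Field L] [Algebra ℚ L] (A : ValuationSubring L) (N : ℕ) [NeZero N]
  (hPD : HasPrincipalDivisors L ↥(laurentBaseChange L (modularFunctionFieldFull N)))
  (hconst : ∀ f : ↥(laurentBaseChange L (modularFunctionFieldFull N)), f ≠ 0 →
    (∀ P : Place L ↥(laurentBaseChange L (modularFunctionFieldFull N)), P.ord f = 0) →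
    ∃ c : L, f = algebraMap L ↥(laurentBaseChange L (modularFunctionFieldFull N)) c)
  (hgen : PrincipalGeneratedByIntegral A (IsLocalRing.residue A) N)

/-- **RI-BR**: the Gauss datum of `X₀(N)`, from `hgen` only. -/
noncomputable def S18_gauss : S18_Gauss L ↥(laurentBaseChange L (modularFunctionFieldFull N))
    (IsLocalRing.ResidueField A) ↥(modularFunctionFieldFullC (IsLocalRing.ResidueField A) N) where
  A := A
  res := IsLocalRing.residue A
  res_surjective := IsLocalRing.residue_surjective
  res_eq_zero_iff a := by
    rw [IsLocalRing.residue_eq_zero_iff, IsLocalRing.mem_maximalIdeal, mem_nonunits_iff]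
  O := S18_Ov A N hPD hconst hgen
  red := S18_redv A N hPD hconst hgen
  red_surjective := by
    intro y
    obtain ⟨x, hx⟩ := S18_red_surjective A N y
    exact ⟨⟨x.1, x.2⟩, hx⟩
  red_ne_zero_iff := by
    intro x
    constructor
    · intro hx
      have hx0 : (x : ↥(laurentBaseChange L (modularFunctionFieldFull N))) ≠ 0 := by
        intro h0
        apply hx
        have : x = 0 := Subtype.ext h0
        rw [this, map_zero]
      have hinv := S18_inv_mem_O A N x.2 hx
      refine ⟨⟨x, ⟨_, hinv⟩, ?_, ?_⟩, rfl⟩
      · exact Subtype.ext (mul_inv_cancel₀ hx0)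
      · exact Subtype.ext (inv_mul_cancel₀ hx0)
    · intro hx
      exact (hx.map (S18_redv A N hPD hconst hgen)).ne_zero
  algebraMap_mem_iff := S18_algebraMap_mem_O_iff A N
  red_algebraMap := by
    intro a ha haO
    exact S18_red_algebraMap A N ⟨a, ha⟩
  exists_const_mul_unit := by
    intro f hf
    obtain ⟨c, u, hu, hc, hred, h⟩ := S18_exists_const_mul_unit A N hPD hconst hgen f hf
    exact ⟨c, ⟨u, hu⟩, hc, hred, h⟩

theorem S18_gauss_A : (S18_gauss A N hPD hconst hgen).A = A := rfl

theorem S18_gauss_O : (S18_gauss A N hPD hconst hgen).O = S18_Ov A N hPD hconst hgen := rfl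

theorem S18_gauss_red : (S18_gauss A N hPD hconst hgen).red = S18_redv A N hPD hconst hgen := rfl

theorem S18_gauss_res : (S18_gauss A N hPD hconst hgen).res = IsLocalRing.residue A := rfl

/-- the Gauss datum of the specialisation datum `S18_spec` is `S18_gauss`. -/
theorem S18_spec_toGauss
    (r : Place L ↥(laurentBaseChange L (modularFunctionFieldFull N)) →
      Place (IsLocalRing.ResidueField A)
        ↥(modularFunctionFieldFullC (IsLocalRing.ResidueField A) N))
    (hr : IsPlaceReductionAlong A (IsLocalRing.residue A) N r) :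
    (S18_spec A N hPD hconst hgen r hr).toGauss = S18_gauss A N hPD hconst hgen := rfl

end General

section ModL

variable (N : ℕ) [NeZero N] (A : ValuationSubring (AlgebraicClosure ℚ))
  (hgen : PrincipalGeneratedByIntegral A (IsLocalRing.residue A) N)

/-- **RI-BR**: the Gauss datum of `X₀(N)` over `ℚ̄`, from `hgen` only. -/
noncomputable def S18_gaussModL :
    S18_Gauss (AlgebraicClosure ℚ) ↥(modularFunctionFieldBar N)
      (IsLocalRing.ResidueField A) ↥(modularFunctionFieldFullC (IsLocalRing.ResidueField A) N) :=
  S18_gauss A N (S18_hPD N) (S18_hconst N) hgen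

theorem S18_gaussModL_A : (S18_gaussModL N A hgen).A = A := rfl

theorem S18_gaussModL_res : (S18_gaussModL N A hgen).res = IsLocalRing.residue A := rfl

theorem S18_mem_gaussModL_O {f : ↥(modularFunctionFieldBar N)} :
    f ∈ (S18_gaussModL N A hgen).O ↔ f ∈ S18_O A N := Iff.rfl

/-- the Gauss datum underlying `S18_specModL`. -/
theorem S18_specModL_toGauss (h : ReductionInputsModL A N) :
    (S18_specModL N A h).toGauss = S18_gaussModL N A h.choose_spec.2 := rfl

theorem S18_specModL_O (h : ReductionInputsModL A N) :
    (S18_specModL N A h).O = (S18_gaussModL N A h.choose_spec.2).O := rfl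

theorem S18_specModL_red (h : ReductionInputsModL A N) :
    (S18_specModL N A h).red = (S18_gaussModL N A h.choose_spec.2).red := rfl

end ModL

end Fermat.Agent.S18
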