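import Fermat.Agent.S18.AuxField
import Fermat.Agent.S18.GaussModL

/-!
# S18, package FP2 (helper9): the auxiliary field of `X₀(N)`, concrete form

`K = ℚ̄`, `F = modularFunctionFieldBar N`, `A ⊂ K` a valuation ring over `ℓ`, `k` its residue
field, `F_k = modularFunctionFieldFullC k N`,
`h : PrincipalGeneratedByIntegral A (IsLocalRing.residue A) N` (part (3) of `ReductionInputsModL`;
NO map of places is used: pass `h.choose_spec.2` for `h : ReductionInputsModL A N`, or
`RIG_hgen N A hℓ hA hℓN` of `S18/RIGen.lean`).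

* `AX_M ℓ`: the auxiliary level (`3` if `ℓ = 2`, else `2`); `AX_M_ne_zero`: it is nonzero in `k`.
* `AX_G N A h := S18_gaussModL N A h` (`= (S18_specModL N A h').toGauss` by `rfl`).
* `AX_jB_mem`: `j ∈ O`;  `AX_red_jB`: `red j = j̄` (the series `jqModC k`);
  `AX_red_jB_transcendental`.
* `AX_FN N ℓ := AX_F' F (AX_M ℓ) j`, and the instances of `AX_mu_mem`, `AX_mubar_eval`,
  `AX_mubar_transcendental`, `AX_gauss` for it.
-/

set_option autoImplicit false
set_option synthInstance.maxHeartbeats 400000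
set_option maxHeartbeats 1000000

open HahnSeries IntermediateField AlgebraicCurve ModularCurve Fermat.Agent.Lib

namespace Fermat.Agent.S18

/-- `j̄` is transcendental over `k` (as a Laurent series), for every field `k`. -/
theorem AX_transcendental_jqModC (k : Type*) [Field k] : Transcendental k (jqModC k) := by
  rw [transcendental_iff]
  intro p hp
  by_contra hp0
  set n := p.natDegree with hn
  have hcoeff : (Polynomial.aeval (jqModC k) p).coeff (-(n : ℤ)) = p.coeff n := by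
    rw [Polynomial.aeval_def, Polynomial.eval₂_eq_sum_range, HahnSeries.coeff_sum,
      Finset.sum_eq_single n]
    · rw [algebraMap_laurentSeries_eq_single, HahnSeries.coeff_single_zero_mul,
        coeff_jqModC_pow_self, mul_one]
    · intro i hi hin
      have hilt : i < n := lt_of_le_of_ne (Nat.lt_succ_iff.mp (Finset.mem_range.mp hi)) hin
      rw [algebraMap_laurentSeries_eq_single, HahnSeries.coeff_single_zero_mul,
        coeff_jqModC_pow_of_lt, mul_zero]
      omega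
    · intro hn'
      exact absurd (Finset.self_mem_range_succ n) hn'
  rw [hp] at hcoeff
  simp only [HahnSeries.coeff_zero] at hcoeff
  exact hp0 (Polynomial.leadingCoeff_eq_zero.mp hcoeff.symm)

/-- the auxiliary level: `3` if `ℓ = 2`, and `2` otherwise. -/
def AX_M (ℓ : ℕ) : ℕ := if ℓ = 2 then 3 else 2

theorem AX_M_eq (ℓ : ℕ) : AX_M ℓ = 2 ∨ AX_M ℓ = 3 := by
  unfold AX_M
  split_ifs
  · exact Or.inr rfl
  · exact Or.inl rfl

theorem AX_M_prime (ℓ : ℕ) : (AX_M ℓ).Prime := by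
  rcases AX_M_eq ℓ with h | h <;> rw [h] <;> norm_num

theorem AX_M_ne (ℓ : ℕ) : AX_M ℓ ≠ ℓ := by
  unfold AX_M
  split_ifs with h
  · omega
  · exact fun h2 => h h2.symm

section residue

variable {L : Type*} [Field L] (A : ValuationSubring L)

/-- the residue field of a valuation ring over `ℓ` has characteristic `ℓ`. -/
theorem AX_natCast_residue_eq_zero {ℓ : ℕ} (hA : A.LiesOverPrime ℓ) :
    ((ℓ : ℕ) : IsLocalRing.ResidueField A) = 0 := by
  have h1 : ((ℓ : ℕ) : IsLocalRing.ResidueField A) = IsLocalRing.residue A (ℓ : A) := by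
    rw [map_natCast]
  rw [h1, IsLocalRing.residue_eq_zero_iff]
  have h2 : (ℓ : L) ∈ A.nonunits := hA
  rw [ValuationSubring.mem_nonunits_iff_exists_mem_maximalIdeal] at h2
  obtain ⟨hmem, h3⟩ := h2
  have : (⟨(ℓ : L), hmem⟩ : A) = (ℓ : A) := Subtype.ext (by simp)
  rwa [this] at h3

/-- the auxiliary level is invertible in the residue field. -/
theorem AX_M_ne_zero {ℓ : ℕ} [Fact ℓ.Prime] (hA : A.LiesOverPrime ℓ) :
    ((AX_M ℓ : ℕ) : IsLocalRing.ResidueField A) ≠ 0 := by
  intro h0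
  have hℓ := AX_natCast_residue_eq_zero A hA
  have hcop : Nat.Coprime (AX_M ℓ) ℓ :=
    (Nat.coprime_primes (AX_M_prime ℓ) Fact.out).mpr (AX_M_ne ℓ)
  have h1 : ((Nat.gcd (AX_M ℓ) ℓ : ℕ) : IsLocalRing.ResidueField A) = 0 := by
    have hb := Nat.gcd_eq_gcd_ab (AX_M ℓ) ℓ
    have := congrArg (fun z : ℤ => (z : IsLocalRing.ResidueField A)) hb
    simp only [Int.cast_natCast, Int.cast_add, Int.cast_mul] at this
    rw [this, h0, hℓ, zero_mul, zero_mul, add_zero]
  rw [hcop.gcd_eq_one, Nat.cast_one] at h1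
  exact one_ne_zero h1

end residue

variable (N : ℕ) [NeZero N] (A : ValuationSubring (AlgebraicClosure ℚ))
  (h : PrincipalGeneratedByIntegral A (IsLocalRing.residue A) N)

/-- the Gauss datum of `X₀(N)`. -/
noncomputable def AX_G : S18_Gauss (AlgebraicClosure ℚ) ↥(modularFunctionFieldBar N)
    (IsLocalRing.ResidueField A) ↥(modularFunctionFieldFullC (IsLocalRing.ResidueField A) N) :=
  S18_gaussModL N A h

/-- for `h' : ReductionInputsModL A N`: `AX_G` is the Gauss datum of `S18_specModL`. -/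
theorem AX_G_eq_toGauss (h' : ReductionInputsModL A N) :
    AX_G N A h'.choose_spec.2 = (S18_specModL N A h').toGauss := rfl

/-- `j` as an element of `B`. -/
noncomputable def AX_jBB : S18_B A N := ⟨jqNModC A 1, S18_jqN_mem_B A N (one_dvd N)⟩

theorem AX_Bι_jBB : S18_Bι A N (AX_jBB N A) = Fermat.Agent.S24.jB N := by
  apply Subtype.ext
  rw [Fermat.Agent.S24.S24_deg_jB_val]
  show coeffMap A.subtype (jqNModC A 1) = _
  rw [coeffMap_jqNModC, jqNModC_one]

/-- `j` is Gauss-integral. -/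
theorem AX_jB_mem : Fermat.Agent.S24.jB N ∈ (AX_G N A h).O := by
  rw [← AX_Bι_jBB N A]
  exact S18_Bι_mem_O A N (AX_jBB N A)

/-- `red j = j̄`. -/
theorem AX_red_jB :
    (((AX_G N A h).red ⟨Fermat.Agent.S24.jB N, AX_jB_mem N A h⟩ :
      ↥(modularFunctionFieldFullC (IsLocalRing.ResidueField A) N)) :
        LaurentSeries (IsLocalRing.ResidueField A)) = jqModC (IsLocalRing.ResidueField A) := by
  have h1 : (AX_G N A h).red ⟨Fermat.Agent.S24.jB N, AX_jB_mem N A h⟩ =
      S18_red A N ⟨S18_Bι A N (AX_jBB N A), S18_Bι_mem_O A N (AX_jBB N A)⟩ := by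
    show S18_red A N ⟨Fermat.Agent.S24.jB N, _⟩ = _
    congr 1
    exact Subtype.ext (AX_Bι_jBB N A).symm
  rw [h1, S18_red_Bι]
  show coeffMap (IsLocalRing.residue A) (jqNModC A 1) = _
  rw [coeffMap_jqNModC, jqNModC_one]

/-- `red j` is transcendental over `k`. -/
theorem AX_red_jB_transcendental :
    Transcendental (IsLocalRing.ResidueField A)
      ((AX_G N A h).red ⟨Fermat.Agent.S24.jB N, AX_jB_mem N A h⟩) := by
  intro halg
  have h2 : IsAlgebraic (IsLocalRing.ResidueField A)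
      ((modularFunctionFieldFullC (IsLocalRing.ResidueField A) N).val
        ((AX_G N A h).red ⟨Fermat.Agent.S24.jB N, AX_jB_mem N A h⟩)) := halg.algHom _
  have h3 : (modularFunctionFieldFullC (IsLocalRing.ResidueField A) N).val
        ((AX_G N A h).red ⟨Fermat.Agent.S24.jB N, AX_jB_mem N A h⟩) =
      jqModC (IsLocalRing.ResidueField A) := AX_red_jB N A h
  rw [h3] at h2
  exact AX_transcendental_jqModC _ h2


/-! ### The auxiliary field of `X₀(N)` -/

variable (ℓ : ℕ)

/-- the auxiliary field `F' = F(μ)`, `R_M(μ) = j`, `M = AX_M ℓ`. -/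
abbrev AX_FN : Type := AX_F' ↥(modularFunctionFieldBar N) (AX_M ℓ) (Fermat.Agent.S24.jB N)

/-- `μ ∈ F'`. -/
noncomputable abbrev AX_muN : AX_FN N ℓ :=
  AX_mu ↥(modularFunctionFieldBar N) (AX_M ℓ) (Fermat.Agent.S24.jB N)

/-- the residue field of the Gauss valuation ring of `F'`. -/
abbrev AX_EN : Type := GX_Ek (AX_G N A h) (AX_FN N ℓ)

/-- the Gauss datum of `F'`. -/
noncomputable def AX_GN : S18_Gauss (AlgebraicClosure ℚ) (AX_FN N ℓ)
    (IsLocalRing.ResidueField A) (AX_EN N A h ℓ) :=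
  AX_gauss (AX_G N A h) (AX_M ℓ) (Fermat.Agent.S24.jB N)

/-- `μ̄ ∈ E_k`. -/
noncomputable abbrev AX_mubarN : AX_EN N A h ℓ :=
  AX_mubar (AX_G N A h) (AX_M ℓ) (Fermat.Agent.S24.jB N)

/-- `j̄` as an element of `F_k`. -/
noncomputable abbrev AX_jbarN : ↥(modularFunctionFieldFullC (IsLocalRing.ResidueField A) N) :=
  (AX_G N A h).red ⟨Fermat.Agent.S24.jB N, AX_jB_mem N A h⟩

variable {ℓ} [Fact ℓ.Prime] (hA : A.LiesOverPrime ℓ)

include hA

omit [NeZero N] in
theorem AX_lead_ne_zeroN :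
    ((AX_lead (AX_M ℓ) : ℕ) : IsLocalRing.ResidueField A) ≠ 0 := by
  have hM := AX_M_ne_zero A hA
  rcases AX_M_eq ℓ with h2 | h3
  · rw [h2] at hM ⊢
    have : ((AX_lead 2 : ℕ) : IsLocalRing.ResidueField A) =
        ((2 : ℕ) : IsLocalRing.ResidueField A) ^ 8 := by
      rw [AX_lead, if_pos rfl]; norm_num
    rw [this]
    exact pow_ne_zero _ hM
  · rw [h3] at hM ⊢
    have : ((AX_lead 3 : ℕ) : IsLocalRing.ResidueField A) =
        ((3 : ℕ) : IsLocalRing.ResidueField A) ^ 3 := by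
      rw [AX_lead, if_neg (by norm_num)]; norm_num
    rw [this]
    exact pow_ne_zero _ hM

omit hA [Fact ℓ.Prime] in
/-- `R_M(μ) = j` in `F'`. -/
theorem AX_muN_eval :
    (AX_poly (AX_FN N ℓ) (AX_M ℓ)
      (algebraMap ↥(modularFunctionFieldBar N) (AX_FN N ℓ) (Fermat.Agent.S24.jB N))).eval
        (AX_muN N ℓ) = 0 := by
  have : CharZero ↥(modularFunctionFieldBar N) :=
    charZero_of_injective_algebraMap
      (algebraMap (AlgebraicClosure ℚ) ↥(modularFunctionFieldBar N)).injective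
  refine AX_mu_eval _ _ _ ?_
  have h0 : AX_lead (AX_M ℓ) ≠ 0 := by
    unfold AX_lead
    split_ifs <;> norm_num
  exact_mod_cast h0

/-- `μ` is Gauss-integral. -/
theorem AX_muN_mem : AX_muN N ℓ ∈ (AX_GN N A h ℓ).O :=
  AX_mu_mem (AX_G N A h) (AX_M ℓ) (AX_jB_mem N A h) (AX_lead_ne_zeroN A hA)

/-- `red' μ = μ̄`. -/
theorem AX_red_muN :
    (AX_GN N A h ℓ).red ⟨AX_muN N ℓ, AX_muN_mem N A h hA⟩ = AX_mubarN N A h ℓ :=
  (AX_mubar_eq (AX_G N A h) (AX_M ℓ) (AX_jB_mem N A h) (AX_lead_ne_zeroN A hA)).symm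

/-- `R̄_M(μ̄) = j̄` in `E_k`. -/
theorem AX_mubarN_eval :
    (AX_poly (AX_EN N A h ℓ) (AX_M ℓ)
      (algebraMap ↥(modularFunctionFieldFullC (IsLocalRing.ResidueField A) N)
        (AX_EN N A h ℓ) (AX_jbarN N A h))).eval (AX_mubarN N A h ℓ) = 0 :=
  AX_mubar_eval (AX_G N A h) (AX_M ℓ) (AX_jB_mem N A h) (AX_lead_ne_zeroN A hA)

/-- `μ̄` is transcendental over `k`. -/
theorem AX_mubarN_transcendental :
    Transcendental (IsLocalRing.ResidueField A) (AX_mubarN N A h ℓ) :=
  AX_mubar_transcendental (AX_G N A h) (AX_M ℓ) (AX_M_eq ℓ) (AX_jB_mem N A h)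
    (AX_M_ne_zero A hA) (AX_red_jB_transcendental N A h)

omit hA in
/-- `[E_k : F_k] ≤ [F' : F]`. -/
theorem AX_finrank_leN :
    Module.finrank ↥(modularFunctionFieldFullC (IsLocalRing.ResidueField A) N)
      (AX_EN N A h ℓ) ≤ Module.finrank ↥(modularFunctionFieldBar N) (AX_FN N ℓ) :=
  AX_finrank_le (AX_G N A h) (AX_M ℓ) (Fermat.Agent.S24.jB N)

end Fermat.Agent.S18
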