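import Fermat.Agent.S18.CuspK
import Fermat.Agent.S28.Conj
import Fermat.Agent.S28.Rank
import Fermat.Agent.S28.IntRel

/-!
# S18, package CUSP, half B, part B2: the K-core hypotheses over `ℂ` and over the residue
fields of the valuation rings of `ℂ`

* `KE_hyp_complex N : KE_Hyp N ℂ (zetaC N)`;
* `KE_hyp_residue N ℓ V … : KE_Hyp N (ResidueField V) (residue ζ)` for a valuation ring `V ⊂ ℂ`
  over `ℓ ∤ N`.
-/

set_option autoImplicit false
set_option linter.unusedSectionVars false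
set_option linter.style.haveILetI false

open ModularCurve
open scoped MatrixGroups
open CongruenceSubgroup
open Fermat.Agent.S28

noncomputable section

namespace Fermat.Agent.S18

/-- (Rank)+(Conj) over `ℂ`. -/
theorem KE_Rl_complex (N : ℕ) [NeZero N] :
    @kcRl N _ ℂ _ (zetaC N) (Fintype.ofFinite _) := by
  classical
  letI : Fintype (Cos N) := Fintype.ofFinite _
  intro m P hP
  have hcard : Nat.card (Cos N) + 1 = Fintype.card (Cos N) + 1 := by
    rw [Nat.card_eq_fintype_card]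
  obtain ⟨s, c, hch, ⟨i₀, hi₀⟩, hc⟩ := ac2 N m (fun i => P (Fin.cast hcard i)) (fun i => hP _)
  refine ⟨s, fun i => c (Fin.cast hcard.symm i), fun i => hch _, ⟨Fin.cast hcard i₀, ?_⟩,
    fun α => ?_⟩
  · simpa using hi₀
  · have hT : (∑ i, MvPolynomial.rename (gen1 N) (c i) * P (Fin.cast hcard i)).IsHomogeneous
        (s + m) :=
      MvPolynomial.IsHomogeneous.sum _ _ _ fun i _ =>
        ((hch i).rename_isHomogeneous).mul (hP _)
    have h1 := ac1 N (s + m) _ hT (by rw [map_sum]; exact hc) α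
    rw [map_sum] at h1
    rw [← h1]
    refine (Fintype.sum_equiv (finCongr hcard) _ _ fun x => ?_).symm
    simp

/-- the integrality relations over `ℂ`, at every conjugate. -/
theorem KE_intRel_complex (N : ℕ) [NeZero N] (A B : Gen N) (h : IntRel N A B) :
    kcIntRel N ℂ (zetaC N) A B := by
  obtain ⟨n, r, -, hrel⟩ := h
  refine ⟨n, r, fun α => ?_⟩
  have h0 : MvPolynomial.aeval (csC N (cos0 N)) (kcT3_poly N A B n r) = 0 := by
    rw [kcT3_aeval]; exact hrel
  have h1 := ac1 N (n + n) _ (kcT3_poly_isHomogeneous N A B n r) h0 α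
  rw [kcT3_aeval] at h1
  exact h1

/-- **B2, characteristic zero**: the K-core hypotheses hold over `ℂ`. -/
theorem KE_hyp_complex (N : ℕ) [NeZero N] : KE_Hyp N ℂ (zetaC N) where
  hz := kcT1_isPrimitiveRoot_zetaC N
  hR := KE_Rl_complex N
  hI := fun d => ⟨KE_intRel_complex N _ _ (ac3 N d).1, KE_intRel_complex N _ _ (ac3 N d).2.1,
    KE_intRel_complex N _ _ (ac3 N d).2.2⟩

section residue

variable (N : ℕ) [NeZero N] (ℓ : ℕ) (hℓ : ℓ.Prime) (hℓN : ¬ ℓ ∣ N)
  (V : ValuationSubring ℂ) (hV : ((ℓ : ℂ))⁻¹ ∉ V)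

/-- `ζ_N ∈ V` for every valuation ring `V` of `ℂ`. -/
theorem KE_zetaC_mem (V : ValuationSubring ℂ) : zetaC N ∈ V := by
  refine mem_valuationSubring_of_isIntegral V _ ?_
  refine ⟨Polynomial.X ^ N - 1, Polynomial.monic_X_pow_sub_C 1 (NeZero.ne N), ?_⟩
  have hpow : zetaC N ^ N = 1 := (kcT1_isPrimitiveRoot_zetaC N).pow_eq_one
  simp [hpow]

/-- `ζ_N` as an element of `V`. -/
def KE_zetaV (V : ValuationSubring ℂ) : V := ⟨zetaC N, KE_zetaC_mem N V⟩

/-- the reduction of `ζ_N` in the residue field of `V`. -/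
def KE_zbar (V : ValuationSubring ℂ) : IsLocalRing.ResidueField V :=
  IsLocalRing.residue V (KE_zetaV N V)

include hℓ hℓN hV in
/-- **B2, characteristic `ℓ`**: the K-core hypotheses hold over the residue field of a
valuation ring `V ⊂ ℂ` over `ℓ ∤ N`. -/
theorem KE_hyp_residue : KE_Hyp N (IsLocalRing.ResidueField V) (KE_zbar N V) where
  hz := kc_primitive N ℓ hℓ hℓN V hV (KE_zetaV N V) rfl
  hR := @kc_Rl_of_AC N _ (Fintype.ofFinite _) V (KE_zetaV N V) rfl (ac1 N) (ac2 N)
  hI := kc_Il_of_AC N V (inv_natCast_mem_valuationSubring V ℓ hℓ hV N hℓN) (KE_zetaV N V) rfl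
    (ac1 N) (ac3 N)

end residue

end Fermat.Agent.S18
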