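import Fermat.Agent.S18.CuspKB
import Fermat.Agent.S18.CuspKC
import Fermat.Agent.S24.EvDefs
import Fermat.Prelude.Def_FLTPrelim_Ramification

/-!
# S18, package CUSP, half B, part B3 (characteristic `ℓ`): the embeddings of
`F_k = modularFunctionFieldFullC k N` into `k_V((t))`

`A ⊂ ℚ̄` a valuation ring over `ℓ ∤ N`, `k` its residue field.  `KE_V A ⊂ ℂ` is a valuation ring
dominating `kEmb A`, `k_V` its residue field, a `k`-algebra through `KE_algkV A` (a `def`).

* `KE_embk N hℓ hℓN A hA α : ↥(modularFunctionFieldFullC k N) →ₐ[k] LaurentSeries k_V`;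
* `KE_embk_jd`, `KE_embk_j`, `KE_embk_injective`.
-/

set_option autoImplicit false
set_option linter.unusedSectionVars false
set_option linter.style.haveILetI false
set_option synthInstance.maxHeartbeats 400000
set_option maxHeartbeats 1000000

open ModularCurve
open scoped MatrixGroups
open CongruenceSubgroup
open Fermat.Agent.S28 Fermat.Agent.Lib Fermat.Agent.S24

noncomputable section

namespace Fermat.Agent.S18

section V

variable (A : ValuationSubring (AlgebraicClosure ℚ))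

theorem KE_exists_V : ∃ (V : ValuationSubring ℂ) (h : ∀ x : A, (kEmb.comp A.subtype) x ∈ V.toSubring),
    IsLocalHom ((kEmb.comp A.subtype).codRestrict V.toSubring h) :=
  IsLocalRing.exists_factor_valuationRing (kEmb.comp A.subtype)

/-- a valuation ring of `ℂ` dominating (the image of) `A`. -/
def KE_V : ValuationSubring ℂ := Classical.choose (KE_exists_V A)

theorem KE_V_mem (x : A) : (kEmb.comp A.subtype) x ∈ (KE_V A).toSubring :=
  Classical.choose (Classical.choose_spec (KE_exists_V A)) x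

/-- the inclusion `A → V`. -/
def KE_incl : A →+* KE_V A :=
  (kEmb.comp A.subtype).codRestrict (KE_V A).toSubring (KE_V_mem A)

theorem KE_incl_coe (x : A) : ((KE_incl A x : KE_V A) : ℂ) = kEmb (x : AlgebraicClosure ℚ) := rfl

instance KE_incl_isLocalHom : IsLocalHom (KE_incl A) :=
  Classical.choose_spec (Classical.choose_spec (KE_exists_V A))

/-- the map of residue fields `k → k_V`. -/
def KE_resMap : IsLocalRing.ResidueField A →+* IsLocalRing.ResidueField (KE_V A) :=
  IsLocalRing.ResidueField.map (KE_incl A)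

theorem KE_resMap_residue (x : A) :
    KE_resMap A (IsLocalRing.residue A x) = IsLocalRing.residue (KE_V A) (KE_incl A x) := rfl

/-- `k_V` as a `k`-algebra. -/
@[reducible] def KE_algkV :
    Algebra (IsLocalRing.ResidueField A) (IsLocalRing.ResidueField (KE_V A)) :=
  (KE_resMap A).toAlgebra

variable {A}

/-- `V` lies over `ℓ` if `A` does. -/
theorem KE_hV {ℓ : ℕ} (hℓ : ℓ.Prime) (hA : A.LiesOverPrime ℓ) : ((ℓ : ℂ))⁻¹ ∉ KE_V A := by
  intro hinv
  have h2 : (ℓ : AlgebraicClosure ℚ) ∈ A.nonunits := hA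
  rw [ValuationSubring.mem_nonunits_iff_exists_mem_maximalIdeal] at h2
  obtain ⟨hmem, h3⟩ := h2
  have hnu : ¬ IsUnit (⟨(ℓ : AlgebraicClosure ℚ), hmem⟩ : A) := by
    rwa [IsLocalRing.mem_maximalIdeal, mem_nonunits_iff] at h3
  apply hnu
  apply (KE_incl_isLocalHom A).map_nonunit
  have hc : ((KE_incl A ⟨(ℓ : AlgebraicClosure ℚ), hmem⟩ : KE_V A) : ℂ) = (ℓ : ℂ) := by
    rw [KE_incl_coe]
    exact map_natCast kEmb ℓ
  have hℓ0 : (ℓ : ℂ) ≠ 0 := by exact_mod_cast hℓ.ne_zero
  refine isUnit_iff_exists_inv.mpr ⟨⟨((ℓ : ℂ))⁻¹, hinv⟩, ?_⟩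
  apply Subtype.ext
  show ((KE_incl A ⟨(ℓ : AlgebraicClosure ℚ), hmem⟩ : KE_V A) : ℂ) * ((ℓ : ℂ))⁻¹ = 1
  rw [hc, mul_inv_cancel₀ hℓ0]

end V

section emb

variable (N : ℕ) [NeZero N] {ℓ : ℕ} (hℓ : ℓ.Prime) (hℓN : ¬ ℓ ∣ N)
  (A : ValuationSubring (AlgebraicClosure ℚ)) (hA : A.LiesOverPrime ℓ)

include hℓ hℓN hA in
/-- the K-core hypotheses over `k_V`. -/
theorem KE_hyp_kV : KE_Hyp N (IsLocalRing.ResidueField (KE_V A)) (KE_zbar N (KE_V A)) :=
  KE_hyp_residue N ℓ hℓ hℓN (KE_V A) (KE_hV hℓ hA)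

/-- **the embeddings of `F_k = modularFunctionFieldFullC k N` into `k_V((t))`**. -/
def KE_embk (α : Cos N) :
    letI := KE_algkV A
    ↥(modularFunctionFieldFullC (IsLocalRing.ResidueField A) N) →ₐ[IsLocalRing.ResidueField A]
      LaurentSeries (IsLocalRing.ResidueField (KE_V A)) :=
  letI := KE_algkV A
  KE_embB (IsLocalRing.ResidueField A) (KE_hyp_kV N hℓ hℓN A hA) α

theorem KE_embk_jd (α : Cos N) (d : ℕ) [NeZero d] (hd : d ∣ N) :
    letI := KE_algkV A
    KE_embk N hℓ hℓN A hA α ⟨qExpand (IsLocalRing.ResidueField A) d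
        (jqModC (IsLocalRing.ResidueField A)),
        jqModCd_mem_full (IsLocalRing.ResidueField A) N hd⟩ =
      kcJ N (IsLocalRing.ResidueField (KE_V A)) (KE_zbar N (KE_V A))
        ⟨d, Nat.mem_divisors.2 ⟨hd, NeZero.ne N⟩⟩ α := by
  letI := KE_algkV A
  exact KE_embB_jd (IsLocalRing.ResidueField A) (KE_hyp_kV N hℓ hℓN A hA) α d hd

theorem KE_embk_j (α : Cos N) :
    letI := KE_algkV A
    KE_embk N hℓ hℓN A hA α ⟨jqModC (IsLocalRing.ResidueField A),
        jqModC_mem_full (IsLocalRing.ResidueField A) N⟩ =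
      kcj N (IsLocalRing.ResidueField (KE_V A)) := by
  letI := KE_algkV A
  exact KE_embB_j (IsLocalRing.ResidueField A) (KE_hyp_kV N hℓ hℓN A hA) α

theorem KE_embk_j_inv (α : Cos N) :
    letI := KE_algkV A
    KE_embk N hℓ hℓN A hA α (⟨jqModC (IsLocalRing.ResidueField A),
        jqModC_mem_full (IsLocalRing.ResidueField A) N⟩)⁻¹ =
      (kcj N (IsLocalRing.ResidueField (KE_V A)))⁻¹ := by
  letI := KE_algkV A
  exact KE_embB_j_inv (IsLocalRing.ResidueField A) (KE_hyp_kV N hℓ hℓN A hA) α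

theorem KE_embk_cos0 (f : ↥(modularFunctionFieldFullC (IsLocalRing.ResidueField A) N)) :
    letI := KE_algkV A
    KE_embk N hℓ hℓN A hA (cos0 N) f =
      qExpand (IsLocalRing.ResidueField (KE_V A)) N
        (coeffMap (KE_resMap A) (f : LaurentSeries (IsLocalRing.ResidueField A))) := by
  letI := KE_algkV A
  exact KE_embB_cos0 (IsLocalRing.ResidueField A) (KE_hyp_kV N hℓ hℓN A hA) f

theorem KE_embk_injective :
    letI := KE_algkV A
    Function.Injective (KE_embk N hℓ hℓN A hA) := by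
  letI := KE_algkV A
  exact KE_embB_injective (IsLocalRing.ResidueField A) (KE_hyp_kV N hℓ hℓN A hA)

end emb

end Fermat.Agent.S18
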