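import Mathlib

/-!
# S18, package FP2 (helper9): the polynomials `num R_M (T) − x · den R_M (T)`

`R_2(T) = 256 (T² − T + 1)³ / (T² (T − 1)²)` (`j` as a function of the Legendre `λ`) and
`R_3(T) = 27 T³ (T³ + 8)³ / (T³ − 1)³` (`j` as a function of the Hesse parameter `μ`).
`AX_poly R M x` is `num R_2 − x · den R_2` for `M = 2` and `num R_3 − x · den R_3` otherwise.
-/

set_option autoImplicit false

open Polynomial

namespace Fermat.Agent.S18

section poly

variable (R : Type*) [CommRing R]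

/-- the leading coefficient of `AX_poly` -/
def AX_lead (M : ℕ) : ℕ := if M = 2 then 256 else 27

/-- the degree of `AX_poly` -/
def AX_deg (M : ℕ) : ℕ := if M = 2 then 6 else 12

/-- `num R_M (T) − x · den R_M (T)`, where `R_2 = 256 (T² − T + 1)³ / (T² (T − 1)²)` and
`R_3 = 27 T³ (T³ + 8)³ / (T³ − 1)³`. -/
noncomputable def AX_poly (M : ℕ) (x : R) : R[X] :=
  if M = 2 then 256 * (X ^ 2 - X + 1) ^ 3 - C x * (X ^ 2 * (X - 1) ^ 2)
  else 27 * (X ^ 3 * (X ^ 3 + 8) ^ 3) - C x * (X ^ 3 - 1) ^ 3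

theorem AX_poly_two (x : R) :
    AX_poly R 2 x = 256 * (X ^ 2 - X + 1) ^ 3 - C x * (X ^ 2 * (X - 1) ^ 2) := by
  rw [AX_poly, if_pos rfl]

theorem AX_poly_of_ne {M : ℕ} (hM : M ≠ 2) (x : R) :
    AX_poly R M x = 27 * (X ^ 3 * (X ^ 3 + 8) ^ 3) - C x * (X ^ 3 - 1) ^ 3 := by
  rw [AX_poly, if_neg hM]

variable {R} in
theorem AX_poly_map {S : Type*} [CommRing S] (f : R →+* S) (M : ℕ) (x : R) :
    (AX_poly R M x).map f = AX_poly S M (f x) := by
  by_cases hM : M = 2
  · subst hM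
    simp [AX_poly_two]
  · simp [AX_poly_of_ne _ hM]

theorem AX_poly_eval (M : ℕ) (x t : R) :
    (AX_poly R M x).eval t =
      if M = 2 then 256 * (t ^ 2 - t + 1) ^ 3 - x * (t ^ 2 * (t - 1) ^ 2)
      else 27 * (t ^ 3 * (t ^ 3 + 8) ^ 3) - x * (t ^ 3 - 1) ^ 3 := by
  by_cases hM : M = 2
  · subst hM
    simp [AX_poly_two]
  · simp [AX_poly_of_ne _ hM, hM]

theorem AX_poly_natDegree_le (M : ℕ) (x : R) : (AX_poly R M x).natDegree ≤ AX_deg M := by
  by_cases hM : M = 2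
  · subst hM
    rw [AX_poly_two, AX_deg, if_pos rfl]
    compute_degree
  · rw [AX_poly_of_ne _ hM, AX_deg, if_neg hM]
    compute_degree

theorem AX_aux_monic2 : ((X ^ 2 - X + 1 : R[X]) ^ 3).Monic := by
  nontriviality R
  apply Monic.pow
  monicity!

theorem AX_aux_monic3 : ((X ^ 3 * (X ^ 3 + 8) ^ 3 : R[X])).Monic := by
  nontriviality R
  apply Monic.mul (monic_X_pow 3)
  apply Monic.pow
  monicity!

theorem AX_aux_deg2 [Nontrivial R] : ((X ^ 2 - X + 1 : R[X]) ^ 3).natDegree = 6 := by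
  compute_degree!

theorem AX_aux_deg3 [Nontrivial R] : ((X ^ 3 * (X ^ 3 + 8) ^ 3 : R[X])).natDegree = 12 := by
  compute_degree!

theorem AX_poly_coeff_deg (M : ℕ) (x : R) : (AX_poly R M x).coeff (AX_deg M) = AX_lead M := by
  nontriviality R
  by_cases hM : M = 2
  · subst hM
    rw [AX_poly_two, AX_deg, if_pos rfl, AX_lead, if_pos rfl, coeff_sub]
    have h1 : (256 * (X ^ 2 - X + 1 : R[X]) ^ 3).coeff 6 = 256 := by
      have := (AX_aux_monic2 R).coeff_natDegree
      rw [AX_aux_deg2] at this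
      rw [show (256 : R[X]) = C 256 from rfl, coeff_C_mul, this, mul_one]
    have h2 : (C x * (X ^ 2 * (X - 1) ^ 2 : R[X])).coeff 6 = 0 := by
      apply coeff_eq_zero_of_natDegree_lt
      refine lt_of_le_of_lt (?_ : _ ≤ 4) (by norm_num)
      compute_degree
    rw [h1, h2, sub_zero]
    norm_num
  · rw [AX_poly_of_ne _ hM, AX_deg, if_neg hM, AX_lead, if_neg hM, coeff_sub]
    have h1 : (27 * (X ^ 3 * (X ^ 3 + 8) ^ 3 : R[X])).coeff 12 = 27 := by
      have := (AX_aux_monic3 R).coeff_natDegree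
      rw [AX_aux_deg3] at this
      rw [show (27 : R[X]) = C 27 from rfl, coeff_C_mul, this, mul_one]
    have h2 : (C x * (X ^ 3 - 1 : R[X]) ^ 3).coeff 12 = 0 := by
      apply coeff_eq_zero_of_natDegree_lt
      refine lt_of_le_of_lt (?_ : _ ≤ 9) (by norm_num)
      compute_degree
    rw [h1, h2, sub_zero]
    norm_num

end poly

end Fermat.Agent.S18
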