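import Mathlib
import Fermat.Agent.Lib.GaussExt
import Fermat.Agent.S18.AuxPoly

/-!
# S18, package FP2 (helper9): the auxiliary field `F' = F(μ)`, abstract form

Abstract over a field `F`, an element `x : F` (for S18: `x = j`) and `M` (`2` or `3`).

* `AX_poly R M x` (`AuxPoly.lean`): `num R_M (T) − x · den R_M (T)`, where
  `R_2 = 256 (T² − T + 1)³ / (T² (T − 1)²)`, `R_3 = 27 T³ (T³ + 8)³ / (T³ − 1)³`.
* `AX_F' F M x`: the splitting field of `AX_poly F M x` over `F` (an `abbrev`, so all instances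
  of `Polynomial.SplittingField` apply: `Field`, `Algebra F`, `Algebra L` for `[Algebra L F]`,
  `IsScalarTower L F`, `FiniteDimensional F`); `AX_isGalois` in characteristic zero.
* `AX_mu F M x : AX_F' F M x` with `AX_mu_root`, `AX_mu_eval`: `R_M(μ) = x`.
* For a Gauss datum `G : S18_Gauss L F k Fk` with `x ∈ G.O` and `M ≠ 0` in `k`:
  `AX_mu_mem` (`μ ∈ O' = GX_O G F'`), `AX_mubar G M x : GX_Ek G F'` (the reduction of `μ`),
  `AX_mubar_eval` (`R̄_M(μ̄) = x̄`), `AX_mubar_transcendental` (if `x̄` is transcendental over `k`).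
* `AX_gauss G M x : S18_Gauss L F' k (GX_Ek G F')`, `AX_finrank_le : [E_k : F_k] ≤ [F' : F]`.
-/

set_option autoImplicit false

open Polynomial Fermat.Agent.Lib

namespace Fermat.Agent.S18

section field

variable (F : Type*) [Field F] (M : ℕ) (x : F)

/-- the auxiliary field `F' = F(μ)`: the splitting field over `F` of
`num R_M (T) − x · den R_M (T)`. -/
abbrev AX_F' : Type _ := (AX_poly F M x).SplittingField

theorem AX_poly_natDegree (hM : (AX_lead M : F) ≠ 0) : (AX_poly F M x).natDegree = AX_deg M := by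
  apply le_antisymm (AX_poly_natDegree_le F M x)
  apply le_natDegree_of_ne_zero
  rw [AX_poly_coeff_deg]
  exact hM

theorem AX_deg_pos (M : ℕ) : 0 < AX_deg M := by
  unfold AX_deg
  split_ifs <;> norm_num

theorem AX_poly_ne_zero (hM : (AX_lead M : F) ≠ 0) : AX_poly F M x ≠ 0 := by
  intro h
  have := AX_poly_natDegree F M x hM
  rw [h, natDegree_zero] at this
  exact (AX_deg_pos M).ne this

theorem AX_exists_root (hM : (AX_lead M : F) ≠ 0) :
    ∃ t : AX_F' F M x, aeval t (AX_poly F M x) = 0 := by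
  have hs : ((AX_poly F M x).map (algebraMap F (AX_F' F M x))).Splits :=
    SplittingField.splits (AX_poly F M x)
  have hd : ((AX_poly F M x).map (algebraMap F (AX_F' F M x))).degree ≠ 0 := by
    rw [degree_map]
    intro h
    have h1 := natDegree_eq_of_degree_eq_some h
    rw [AX_poly_natDegree F M x hM] at h1
    exact (AX_deg_pos M).ne' h1
  obtain ⟨t, ht⟩ := hs.exists_eval_eq_zero hd
  refine ⟨t, ?_⟩
  rw [aeval_def, eval₂_eq_eval_map]
  exact ht

open Classical in
/-- the element `μ ∈ F'` with `R_M(μ) = x` -/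
noncomputable def AX_mu : AX_F' F M x :=
  if h : ∃ t : AX_F' F M x, aeval t (AX_poly F M x) = 0 then h.choose else 0

theorem AX_mu_root (hM : (AX_lead M : F) ≠ 0) : aeval (AX_mu F M x) (AX_poly F M x) = 0 := by
  rw [AX_mu, dif_pos (AX_exists_root F M x hM)]
  exact (AX_exists_root F M x hM).choose_spec

theorem AX_mu_eval (hM : (AX_lead M : F) ≠ 0) :
    (AX_poly (AX_F' F M x) M (algebraMap F (AX_F' F M x) x)).eval (AX_mu F M x) = 0 := by
  have := AX_mu_root F M x hM
  rwa [aeval_def, eval₂_eq_eval_map, AX_poly_map] at this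

end field


section gauss

variable {L F k Fk : Type*} [Field L] [Field F] [Algebra L F] [Field k] [Field Fk]
  [Algebra k Fk] (G : S18_Gauss L F k Fk) (M : ℕ) (x : F)

/-- a natural number that is nonzero in `k` is a unit of `O'`. -/
theorem AX_natCast_isUnit (F' : Type*) [Field F'] [Algebra F F'] {n : ℕ} (hn : (n : k) ≠ 0) :
    IsUnit ((n : ℕ) : GX_O G F') := by
  rw [← GX_red_ne_zero_iff, map_natCast]
  have : ((n : ℕ) : GX_Ek G F') = algebraMap k (GX_Ek G F') (n : k) := by
    rw [map_natCast]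
  rw [this]
  exact fun h => hn ((algebraMap k (GX_Ek G F')).injective (by rw [h, map_zero]))

include G in
theorem AX_lead_ne_zero (F' : Type*) [Field F'] [Algebra F F'] {n : ℕ} (hn : (n : k) ≠ 0) :
    ((n : ℕ) : F') ≠ 0 := by
  have h := AX_natCast_isUnit G F' hn
  intro h0
  have : ((n : ℕ) : GX_O G F') = 0 := Subtype.ext (by simpa using h0)
  rw [this] at h
  exact not_isUnit_zero h

include G in
theorem AX_lead_ne_zero' {n : ℕ} (hn : (n : k) ≠ 0) : ((n : ℕ) : F) ≠ 0 := by
  have h := AX_lead_ne_zero G (AX_F' F 2 0) hn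
  intro h0
  apply h
  have : ((n : ℕ) : AX_F' F 2 0) = algebraMap F (AX_F' F 2 0) (n : F) := by rw [map_natCast]
  rw [this, h0, map_zero]

variable {x} in
/-- **FP2**: `μ` is Gauss-integral. -/
theorem AX_mu_mem (hx : x ∈ G.O) (hMk : (AX_lead M : k) ≠ 0) :
    AX_mu F M x ∈ GX_O G (AX_F' F M x) := by
  set O' := GX_O G (AX_F' F M x) with hO'
  have hxO' : algebraMap F (AX_F' F M x) x ∈ O' := (GX_mem_O_iff G _ x).2 hx
  have hF : (AX_lead M : F) ≠ 0 := AX_lead_ne_zero' G hMk
  obtain ⟨u, hu⟩ := AX_natCast_isUnit G (AX_F' F M x) hMk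
  set P' : Polynomial O' := AX_poly O' M ⟨algebraMap F (AX_F' F M x) x, hxO'⟩ with hP'
  have hmap : P'.map O'.subtype = AX_poly (AX_F' F M x) M (algebraMap F (AX_F' F M x) x) := by
    rw [hP', AX_poly_map]
    rfl
  have hcoeff : P'.coeff (AX_deg M) = ((AX_lead M : ℕ) : O') := AX_poly_coeff_deg _ M _
  have hdeg : P'.natDegree = AX_deg M := by
    apply le_antisymm (AX_poly_natDegree_le _ M _)
    apply le_natDegree_of_ne_zero
    rw [hcoeff, ← hu]
    exact u.ne_zero
  have hlc : P'.leadingCoeff = (u : O') := by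
    rw [leadingCoeff, hdeg, hcoeff, hu]
  have hmonic : (C ((u⁻¹ : O'ˣ) : O') * P').Monic := by
    apply monic_C_mul_of_mul_leadingCoeff_eq_one
    rw [hlc]
    exact u.inv_mul
  have hint : IsIntegral O' (AX_mu F M x) := by
    refine ⟨C ((u⁻¹ : O'ˣ) : O') * P', hmonic, ?_⟩
    rw [eval₂_mul, eval₂_eq_eval_map (f := algebraMap O' (AX_F' F M x)) (p := P')]
    have : P'.map (algebraMap O' (AX_F' F M x)) =
        AX_poly (AX_F' F M x) M (algebraMap F (AX_F' F M x) x) := hmap
    rw [this, AX_mu_eval F M x hF, mul_zero]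
  obtain ⟨y, hy⟩ := IsIntegrallyClosed.isIntegral_iff.mp hint
  rw [← hy]
  exact y.2


open Classical in
/-- the reduction `μ̄ ∈ E_k` of `μ` (junk value `0` if `μ` is not Gauss-integral). -/
noncomputable def AX_mubar : GX_Ek G (AX_F' F M x) :=
  if h : AX_mu F M x ∈ GX_O G (AX_F' F M x) then GX_red G (AX_F' F M x) ⟨AX_mu F M x, h⟩ else 0

variable {x} in
theorem AX_mubar_eq (hx : x ∈ G.O) (hMk : (AX_lead M : k) ≠ 0) :
    AX_mubar G M x = GX_red G (AX_F' F M x) ⟨AX_mu F M x, AX_mu_mem G M hx hMk⟩ := by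
  rw [AX_mubar, dif_pos (AX_mu_mem G M hx hMk)]

variable {x} in
/-- **FP2**: `R̄_M(μ̄) = x̄` (in polynomial form). -/
theorem AX_mubar_eval (hx : x ∈ G.O) (hMk : (AX_lead M : k) ≠ 0) :
    (AX_poly (GX_Ek G (AX_F' F M x)) M
      (algebraMap Fk (GX_Ek G (AX_F' F M x)) (G.red ⟨x, hx⟩))).eval (AX_mubar G M x) = 0 := by
  set O' := GX_O G (AX_F' F M x) with hO'
  have hxO' : algebraMap F (AX_F' F M x) x ∈ O' := (GX_mem_O_iff G _ x).2 hx
  have hF : (AX_lead M : F) ≠ 0 := AX_lead_ne_zero' G hMk
  have hμ := AX_mu_mem G M hx hMk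
  have h1 : (AX_poly O' M ⟨algebraMap F (AX_F' F M x) x, hxO'⟩).eval
      (⟨AX_mu F M x, hμ⟩ : O') = 0 := by
    apply Subtype.ext
    have h2 := AX_mu_eval F M x hF
    show O'.subtype ((AX_poly O' M ⟨algebraMap F (AX_F' F M x) x, hxO'⟩).eval
      (⟨AX_mu F M x, hμ⟩ : O')) = 0
    rw [← eval_map_apply, AX_poly_map]
    exact h2
  have h3 := congrArg (GX_red G (AX_F' F M x)) h1
  rw [map_zero, ← eval_map_apply, AX_poly_map] at h3
  rw [AX_mubar_eq G M hx hMk, GX_algebraMap_red]
  exact h3

variable {x} in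
/-- **FP2**: `μ̄` is transcendental over `k`. -/
theorem AX_mubar_transcendental (hM : M = 2 ∨ M = 3) (hx : x ∈ G.O) (hMk : (M : k) ≠ 0)
    (hxt : Transcendental k (G.red ⟨x, hx⟩)) : Transcendental k (AX_mubar G M x) := by
  have hlead : (AX_lead M : k) ≠ 0 := by
    rcases hM with rfl | rfl
    · have : ((AX_lead 2 : ℕ) : k) = ((2 : ℕ) : k) ^ 8 := by
        rw [AX_lead, if_pos rfl]; norm_num
      rw [this]
      exact pow_ne_zero _ hMk
    · have : ((AX_lead 3 : ℕ) : k) = ((3 : ℕ) : k) ^ 3 := by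
        rw [AX_lead, if_neg (by norm_num)]; norm_num
      rw [this]
      exact pow_ne_zero _ hMk
  have heq := AX_mubar_eval G M hx hlead
  set E := GX_Ek G (AX_F' F M x) with hE
  set t := AX_mubar G M x with ht
  set y := algebraMap Fk E (G.red ⟨x, hx⟩) with hy
  have hyt : Transcendental k y := by
    intro halg
    apply hxt
    exact (isAlgebraic_algebraMap_iff (algebraMap Fk E).injective).mp halg
  intro halg
  apply hyt
  have hMF : ((M : ℕ) : E) ≠ 0 := by
    have : ((M : ℕ) : E) = algebraMap k E (M : k) := by rw [map_natCast]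
    rw [this]
    exact fun h => hMk ((algebraMap k E).injective (by rw [h, map_zero]))
  rw [AX_poly_eval] at heq
  rcases hM with rfl | rfl
  · rw [if_pos rfl] at heq
    have h2 : ((2 : ℕ) : E) ≠ 0 := hMF
    by_cases hb : t ^ 2 * (t - 1) ^ 2 = 0
    · exfalso
      rw [hb, mul_zero, sub_zero] at heq
      have h256 : (256 : E) ≠ 0 := by
        have : (256 : E) = ((2 : ℕ) : E) ^ 8 := by norm_num
        rw [this]; exact pow_ne_zero _ h2
      have ha : t ^ 2 - t + 1 = 0 := by
        rcases mul_eq_zero.mp heq with h | h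
        · exact absurd h h256
        · exact pow_eq_zero_iff (by norm_num) |>.mp h
      rcases mul_eq_zero.mp hb with h | h
      · have ht0 : t = 0 := pow_eq_zero_iff (by norm_num) |>.mp h
        rw [ht0] at ha
        norm_num at ha
      · have ht1 : t = 1 := by
          have := pow_eq_zero_iff (by norm_num) |>.mp h
          linear_combination this
        rw [ht1] at ha
        norm_num at ha
    · have hyeq : y = 256 * (t ^ 2 - t + 1) ^ 3 / (t ^ 2 * (t - 1) ^ 2) := by
        rw [eq_div_iff hb]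
        linear_combination -heq
      rw [hyeq]
      have h256 : IsAlgebraic k (256 : E) := by
        have : (256 : E) = algebraMap k E 256 := (map_ofNat (algebraMap k E) 256).symm
        rw [this]; exact isAlgebraic_algebraMap _
      have h1 : IsAlgebraic k (1 : E) := isAlgebraic_one
      exact (h256.mul (((halg.pow 2).sub halg).add h1 |>.pow 3)).mul
        (((halg.pow 2).mul ((halg.sub h1).pow 2)).inv)
  · rw [if_neg (by norm_num)] at heq
    have h3 : ((3 : ℕ) : E) ≠ 0 := hMF
    have h3' : (3 : E) ≠ 0 := by exact_mod_cast h3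
    by_cases hb : (t ^ 3 - 1) ^ 3 = 0
    · exfalso
      rw [hb, mul_zero, sub_zero] at heq
      have ht3 : t ^ 3 = 1 := by
        have := pow_eq_zero_iff (by norm_num) |>.mp hb
        linear_combination this
      rw [ht3] at heq
      have : (27 : E) * (1 * (1 + 8) ^ 3) = (3 : E) ^ 9 := by norm_num
      rw [this] at heq
      exact pow_ne_zero _ h3' heq
    · have hyeq : y = 27 * (t ^ 3 * (t ^ 3 + 8) ^ 3) / (t ^ 3 - 1) ^ 3 := by
        rw [eq_div_iff hb]
        linear_combination -heq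
      rw [hyeq]
      have hnum : ∀ n : ℕ, IsAlgebraic k ((n : ℕ) : E) := by
        intro n
        have : ((n : ℕ) : E) = algebraMap k E n := (map_natCast (algebraMap k E) n).symm
        rw [this]; exact isAlgebraic_algebraMap _
      have h27 : IsAlgebraic k (27 : E) := by exact_mod_cast hnum 27
      have h8 : IsAlgebraic k (8 : E) := by exact_mod_cast hnum 8
      have h1 : IsAlgebraic k (1 : E) := isAlgebraic_one
      exact (h27.mul ((halg.pow 3).mul (((halg.pow 3).add h8).pow 3))).mul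
        ((((halg.pow 3).sub h1).pow 3).inv)


/-- **FP2**: the Gauss datum of the auxiliary field `F'`. -/
noncomputable def AX_gauss [IsAlgClosed L] :
    S18_Gauss L (AX_F' F M x) k (GX_Ek G (AX_F' F M x)) :=
  GX_gauss G (AX_F' F M x)

theorem AX_gauss_O [IsAlgClosed L] : (AX_gauss G M x).O = GX_O G (AX_F' F M x) := rfl

theorem AX_gauss_A [IsAlgClosed L] : (AX_gauss G M x).A = G.A := rfl

theorem AX_gauss_red [IsAlgClosed L] : (AX_gauss G M x).red = GX_red G (AX_F' F M x) := rfl

/-- `F'/F` is Galois in characteristic zero. -/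
theorem AX_isGalois [CharZero F] : IsGalois F (AX_F' F M x) := by
  have : Normal F (AX_F' F M x) := Normal.of_isSplittingField (AX_poly F M x)
  exact ⟨⟩

theorem AX_finrank_le : Module.finrank Fk (GX_Ek G (AX_F' F M x)) ≤
    Module.finrank F (AX_F' F M x) :=
  GX_finrank_le G (AX_F' F M x)

end gauss

end Fermat.Agent.S18
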