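import Mathlib
import Fermat.Agent.S18.AuxField

/-!
# S18, package MU (helper16), part K1 "MU-roots": the polynomial `AX_poly` splits

For a field `E` and a root `μ ∈ E` of `AX_poly E M x = num R_M − x · den R_M`:

* `MU_poly_eq_two`: `M = 2`, `2 ≠ 0` in `E`:
  `AX_poly E 2 x = 256 · ∏ (X − r)`, `r ∈ MU_orbit2 μ = [μ, 1−μ, 1/μ, 1/(1−μ), μ/(μ−1), (μ−1)/μ]`;
* `MU_poly_eq_three`: `M = 3`, `3 ≠ 0` in `E`, `ω² + ω + 1 = 0`:
  `AX_poly E 3 x = 27 · ∏ (X − r)`, `r ∈ MU_orbit3 ω μ` = the twelve elements `ω^a μ`,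
  `ω^a (ω^b μ + 2)/(ω^b μ − 1)`;
* `MU_poly_eq` (both cases, `MU_orbit M ω μ`), `MU_roots`, `MU_splits`, `MU_mem_orbit_of_root`,
  `MU_eval_orbit` (every element of the orbit is a root);
* `MU_orbit_mem_adjoin`: the orbit lies in `F⟮μ⟯` if `ω ∈ F`;
* for `F' = AX_F' F M x` (the splitting field) and `μ = AX_mu F M x`:
  `MU_adjoin_eq_top : F⟮μ⟯ = ⊤`, `MU_finrank_le : [F' : F] ≤ AX_deg M`,
  `MU_exists_aeval : ∀ y : F', ∃ p : F[X], aeval μ p = y`.
-/

set_option autoImplicit false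

open Polynomial

namespace Fermat.Agent.S18

section ids

variable {R : Type*} [CommRing R]

theorem MU_id_two (μ T : R) :
    (T ^ 2 - T + 1) ^ 3 * (μ ^ 2 * (μ - 1) ^ 2) - (μ ^ 2 - μ + 1) ^ 3 * (T ^ 2 * (T - 1) ^ 2) =
    -((T - μ) * (T - (1 - μ)) * (μ * T - 1) * ((1 - μ) * T - 1) * ((μ - 1) * T - μ) *
        (μ * T - (μ - 1))) := by
  ring

theorem MU_id_three_main (m Y : R) :
    (m - 1) ^ 3 * (Y * (Y + 8) ^ 3) - m * (m + 8) ^ 3 * (Y - 1) ^ 3 =
    (Y - m) * (((m - 1) * Y - (m + 8)) ^ 3 + m * (3 * Y - 12) ^ 3 - m ^ 2 * (3 * Y + 6) ^ 3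
      + 3 * m * ((m - 1) * Y - (m + 8)) * (3 * Y - 12) * (3 * Y + 6)) := by
  ring

theorem MU_omega_cube {ω : R} (hω : ω ^ 2 + ω + 1 = 0) : ω ^ 3 = 1 := by
  linear_combination (ω - 1) * hω

theorem MU_norm_three {ω : R} (hω : ω ^ 2 + ω + 1 = 0) (a b c : R) :
    (a + b + c) * (a + ω * b + ω ^ 2 * c) * (a + ω ^ 2 * b + ω * c) =
      a ^ 3 + b ^ 3 + c ^ 3 - 3 * a * b * c := by
  have h3 := MU_omega_cube hω
  have h4 : ω ^ 4 = ω := by rw [pow_succ, h3, one_mul]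
  have : (a + b + c) * (a + ω * b + ω ^ 2 * c) * (a + ω ^ 2 * b + ω * c) =
      (a + b + c) * (a ^ 2 + ω ^ 3 * b ^ 2 + ω ^ 3 * c ^ 2 + (ω ^ 2 + ω) * a * b
        + (ω ^ 2 + ω) * a * c + (ω ^ 4 + ω ^ 2) * b * c) := by ring
  rw [this, h4, h3]
  have h5 : ω ^ 2 + ω = -1 := by linear_combination hω
  have h6 : ω + ω ^ 2 = -1 := by linear_combination hω
  rw [h5, h6]
  ring

theorem MU_cube_factor {ω : R} (hω : ω ^ 2 + ω + 1 = 0) (T s : R) :
    (T - s) * (T - ω * s) * (T - ω ^ 2 * s) = T ^ 3 - s ^ 3 := by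
  linear_combination (-s * T ^ 2 + ω * s ^ 2 * T - (ω - 1) * s ^ 3) * hω

end ids

section two

variable {E : Type*} [Field E]

/-- the six Möbius images of `μ` under `S₃ = ⟨μ ↦ 1 - μ, μ ↦ 1/μ⟩`. -/
def MU_orbit2 (μ : E) : List E := [μ, 1 - μ, μ⁻¹, (1 - μ)⁻¹, μ / (μ - 1), (μ - 1) / μ]

theorem MU_ne_two (h2 : (2 : E) ≠ 0) {x μ : E} (hμ : (AX_poly E 2 x).eval μ = 0) :
    μ ≠ 0 ∧ 1 - μ ≠ 0 := by
  rw [AX_poly_eval, if_pos rfl] at hμ
  have h256 : (256 : E) ≠ 0 := by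
    have : (256 : E) = 2 ^ 8 := by norm_num
    rw [this]; exact pow_ne_zero _ h2
  constructor
  · rintro rfl
    apply h256
    linear_combination hμ
  · intro h
    have h1 : μ = 1 := by linear_combination -h
    subst h1
    apply h256
    linear_combination hμ

theorem MU_x_eq_two (h2 : (2 : E) ≠ 0) {x μ : E} (hμ : (AX_poly E 2 x).eval μ = 0) :
    x = 256 * (μ ^ 2 - μ + 1) ^ 3 / (μ ^ 2 * (μ - 1) ^ 2) := by
  obtain ⟨h0, h1⟩ := MU_ne_two h2 hμ
  rw [AX_poly_eval, if_pos rfl] at hμ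
  have h1' : μ - 1 ≠ 0 := fun h => h1 (by linear_combination -h)
  rw [eq_div_iff (mul_ne_zero (pow_ne_zero _ h0) (pow_ne_zero _ h1'))]
  linear_combination -hμ

/-- **MU-roots, `M = 2`**: `num R_2 − x · den R_2 = 256 ∏ (X − σ μ)`, `σ ∈ S₃`. -/
theorem MU_poly_eq_two (h2 : (2 : E) ≠ 0) {x μ : E} (hμ : (AX_poly E 2 x).eval μ = 0) :
    AX_poly E 2 x = C 256 * ((MU_orbit2 μ).map (fun r => X - C r)).prod := by
  obtain ⟨h0, h1⟩ := MU_ne_two h2 hμ
  have hμ' := hμ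
  rw [AX_poly_eval, if_pos rfl] at hμ'
  have hd : μ ^ 2 * (1 - μ) ^ 2 ≠ 0 := mul_ne_zero (pow_ne_zero _ h0) (pow_ne_zero _ h1)
  have hCd : (C (μ ^ 2 * (1 - μ) ^ 2) : E[X]) ≠ 0 := by
    rw [Ne, C_eq_zero]; exact hd
  apply mul_left_cancel₀ hCd
  set a : E[X] := C μ with ha
  set b : E[X] := C μ⁻¹ with hb
  set c : E[X] := C (1 - μ) with hc
  set c' : E[X] := C (1 - μ)⁻¹ with hc'
  have hab : a * b = 1 := by rw [ha, hb, ← C_mul, mul_inv_cancel₀ h0, C_1]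
  have hcc : c * c' = 1 := by rw [hc, hc', ← C_mul, mul_inv_cancel₀ h1, C_1]
  have hca : c = 1 - a := by rw [hc, ha, C_sub, C_1]
  have e3 : (C (μ / (μ - 1)) : E[X]) = - (a * c') := by
    rw [ha, hc', ← C_mul, ← C_neg]
    congr 1
    have h1' : μ - 1 ≠ 0 := fun h => h1 (by linear_combination -h)
    field_simp
    ring
  have e4 : (C ((μ - 1) / μ) : E[X]) = - (c * b) := by
    rw [hc, hb, ← C_mul, ← C_neg]
    congr 1
    field_simp
    ring
  have hx : (C x : E[X]) * (a ^ 2 * c ^ 2) = 256 * (a ^ 2 - a + 1) ^ 3 := by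
    rw [ha, hc, show (256 : E[X]) = C 256 from (map_ofNat C 256).symm]
    simp only [← C_pow, ← C_mul, ← C_sub, ← C_add, ← C_1]
    congr 1
    linear_combination -hμ'
  have hCd' : (C (μ ^ 2 * (1 - μ) ^ 2) : E[X]) = a ^ 2 * c ^ 2 := by
    rw [ha, hc]; simp only [C_mul, C_pow]
  rw [hCd', AX_poly_two, MU_orbit2]
  simp only [List.map_cons, List.map_nil, List.prod_cons, List.prod_nil, mul_one]
  rw [e3, e4, show (C (256 : E) : E[X]) = 256 from map_ofNat C 256]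
  have key := MU_id_two a (X : E[X])
  have k1 : a * (X - b) = a * X - 1 := by rw [mul_sub, hab]
  have k2 : c * (X - c') = c * X - 1 := by rw [mul_sub, hcc]
  have k3 : c * (X - -(a * c')) = c * X + a := by
    rw [sub_neg_eq_add, mul_add, mul_left_comm, hcc, mul_one]
  have k4 : a * (X - -(c * b)) = a * X + c := by
    rw [sub_neg_eq_add, mul_add, mul_left_comm, hab, mul_one]
  have lhs : a ^ 2 * c ^ 2 * (256 * (X ^ 2 - X + 1) ^ 3 - C x * (X ^ 2 * (X - 1) ^ 2)) =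
      256 * ((X ^ 2 - X + 1) ^ 3 * (a ^ 2 * (a - 1) ^ 2)
        - (a ^ 2 - a + 1) ^ 3 * (X ^ 2 * (X - 1) ^ 2)) := by
    rw [hca] at hx ⊢
    linear_combination (- (X ^ 2 * (X - 1) ^ 2)) * hx
  have rhs : a ^ 2 * c ^ 2 * (256 * ((X - a) * ((X - c) * ((X - b) * ((X - c') *
      ((X - -(a * c')) * (X - -(c * b)))))))) =
      256 * ((X - a) * (X - c) * (a * (X - b)) * (c * (X - c')) * (c * (X - -(a * c'))) *
        (a * (X - -(c * b)))) := by ring
  rw [lhs, rhs, k1, k2, k3, k4, key, hca]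
  ring

end two

section three

variable {E : Type*} [Field E]

/-- the Möbius map `μ ↦ (μ + 2)/(μ - 1)` -/
def MU_S (u : E) : E := (u + 2) / (u - 1)

/-- `[s, ωs, ω²s]` -/
def MU_tri (ω s : E) : List E := [s, ω * s, ω ^ 2 * s]

/-- the twelve Möbius images of `μ` under `A₄ = ⟨μ ↦ ωμ, μ ↦ (μ+2)/(μ-1)⟩`. -/
def MU_orbit3 (ω μ : E) : List E :=
  MU_tri ω μ ++ (MU_tri ω (MU_S μ) ++ (MU_tri ω (MU_S (ω * μ)) ++ MU_tri ω (MU_S (ω ^ 2 * μ))))

theorem MU_tri_prod {ω : E} (hω : ω ^ 2 + ω + 1 = 0) (s : E) :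
    ((MU_tri ω s).map (fun r => X - C r)).prod = X ^ 3 - C (s ^ 3) := by
  rw [MU_tri]
  simp only [List.map_cons, List.map_nil, List.prod_cons, List.prod_nil, mul_one]
  have hw : (C ω : E[X]) ^ 2 + C ω + 1 = 0 := by
    rw [← C_pow, ← C_add, ← C_1, ← C_add, hω, C_0]
  have := MU_cube_factor hw (X : E[X]) (C s)
  rw [C_pow, ← this, C_mul, C_mul, C_pow]
  ring

theorem MU_ne_three (h3 : (3 : E) ≠ 0) {x μ : E} (hμ : (AX_poly E 3 x).eval μ = 0) :
    μ ^ 3 - 1 ≠ 0 := by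
  rw [AX_poly_eval, if_neg (by norm_num)] at hμ
  intro h
  have h1 : μ ^ 3 = 1 := by linear_combination h
  rw [h1] at hμ
  have : (3 : E) ^ 9 = 0 := by linear_combination hμ
  exact h3 (pow_eq_zero_iff (by norm_num) |>.mp this)

theorem MU_x_eq_three (h3 : (3 : E) ≠ 0) {x μ : E} (hμ : (AX_poly E 3 x).eval μ = 0) :
    x = 27 * (μ ^ 3 * (μ ^ 3 + 8) ^ 3) / (μ ^ 3 - 1) ^ 3 := by
  have h1 := MU_ne_three h3 hμ
  rw [AX_poly_eval, if_neg (by norm_num)] at hμ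
  rw [eq_div_iff (pow_ne_zero _ h1)]
  linear_combination -hμ

theorem MU_block {u : E} (hu : u - 1 ≠ 0) {ω : E} (hω : ω ^ 2 + ω + 1 = 0) :
    C ((u - 1) ^ 3) * ((MU_tri ω (MU_S u)).map (fun r => X - C r)).prod =
      C ((u - 1) ^ 3) * X ^ 3 - C ((u + 2) ^ 3) := by
  rw [MU_tri_prod hω, mul_sub, ← C_mul]
  congr 2
  rw [MU_S, div_pow, mul_div_cancel₀ _ (pow_ne_zero _ hu)]

/-- **MU-roots, `M = 3`**: `num R_3 − x · den R_3 = 27 ∏ (X − σ μ)`, `σ ∈ A₄`. -/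
theorem MU_poly_eq_three (h3 : (3 : E) ≠ 0) {ω : E} (hω : ω ^ 2 + ω + 1 = 0) {x μ : E}
    (hμ : (AX_poly E 3 x).eval μ = 0) :
    AX_poly E 3 x = C 27 * ((MU_orbit3 ω μ).map (fun r => X - C r)).prod := by
  have hm := MU_ne_three h3 hμ
  have hω3 := MU_omega_cube hω
  have hμ' := hμ
  rw [AX_poly_eval, if_neg (by norm_num)] at hμ'
  -- the three `u_b`
  have hu0 : μ - 1 ≠ 0 := by
    intro h
    apply hm
    have : μ = 1 := by linear_combination h
    rw [this]; ring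
  have hu1 : ω * μ - 1 ≠ 0 := by
    intro h
    apply hm
    have : μ ^ 3 = (ω * μ) ^ 3 := by rw [mul_pow, hω3, one_mul]
    rw [this]
    have : ω * μ = 1 := by linear_combination h
    rw [this]; ring
  have hu2 : ω ^ 2 * μ - 1 ≠ 0 := by
    intro h
    apply hm
    have : μ ^ 3 = (ω ^ 2 * μ) ^ 3 := by
      rw [mul_pow, ← pow_mul, mul_comm 2 3, pow_mul, hω3, one_pow, one_mul]
    rw [this]
    have : ω ^ 2 * μ = 1 := by linear_combination h
    rw [this]; ring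
  have hprod : (μ - 1) ^ 3 * ((ω * μ - 1) ^ 3 * (ω ^ 2 * μ - 1) ^ 3) = (μ ^ 3 - 1) ^ 3 := by
    have : (μ - 1) * ((ω * μ - 1) * (ω ^ 2 * μ - 1)) = μ ^ 3 - 1 := by
      linear_combination (μ - 1) * (μ ^ 2 * (ω - 1) - μ) * hω
    rw [← this]; ring
  have hCd : (C ((μ ^ 3 - 1) ^ 3) : E[X]) ≠ 0 := by
    rw [Ne, C_eq_zero]; exact pow_ne_zero _ hm
  apply mul_left_cancel₀ hCd
  rw [MU_orbit3]
  simp only [List.map_append, List.prod_append]
  have b0 := MU_block hu0 hω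
  have b1 := MU_block hu1 hω
  have b2 := MU_block hu2 hω
  have t0 := MU_tri_prod hω μ
  set P0 := ((MU_tri ω (MU_S μ)).map (fun r => X - C r)).prod with hP0
  set P1 := ((MU_tri ω (MU_S (ω * μ))).map (fun r => X - C r)).prod with hP1
  set P2 := ((MU_tri ω (MU_S (ω ^ 2 * μ))).map (fun r => X - C r)).prod with hP2
  rw [t0]
  have rhs : C ((μ ^ 3 - 1) ^ 3) * (C 27 * ((X ^ 3 - C (μ ^ 3)) * (P0 * (P1 * P2)))) =
      C 27 * ((X ^ 3 - C (μ ^ 3)) * ((C ((μ - 1) ^ 3) * P0) * ((C ((ω * μ - 1) ^ 3) * P1) *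
        (C ((ω ^ 2 * μ - 1) ^ 3) * P2)))) := by
    rw [← hprod]
    simp only [C_mul]
    ring
  rw [rhs, b0, b1, b2]
  set w : E[X] := C ω with hw
  set a : E[X] := C μ with ha
  have hw0 : w ^ 2 + w + 1 = 0 := by
    rw [hw, ← C_pow, ← C_add, ← C_1, ← C_add, hω, C_0]
  have hw3 := MU_omega_cube hw0
  set Y : E[X] := X ^ 3 with hY
  set m : E[X] := a ^ 3 with hm'
  set P : E[X] := (m - 1) * Y - (m + 8) with hP
  set Q : E[X] := 3 * Y - 12 with hQ
  set R' : E[X] := -(3 * Y + 6) with hR'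
  have f0 : C ((μ - 1) ^ 3) * Y - C ((μ + 2) ^ 3) = P + Q * a + R' * a ^ 2 := by
    simp only [C_pow, C_sub, C_add, C_1, C_ofNat]
    rw [hP, hQ, hR', hm']
    ring
  have f1 : C ((ω * μ - 1) ^ 3) * Y - C ((ω * μ + 2) ^ 3) =
      P + w * (Q * a) + w ^ 2 * (R' * a ^ 2) := by
    simp only [C_pow, C_sub, C_add, C_1, C_ofNat, C_mul]
    rw [hP, hQ, hR', hm']
    linear_combination (a ^ 3 * Y - a ^ 3) * hw3
  have f2 : C ((ω ^ 2 * μ - 1) ^ 3) * Y - C ((ω ^ 2 * μ + 2) ^ 3) =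
      P + w ^ 2 * (Q * a) + w * (R' * a ^ 2) := by
    simp only [C_pow, C_sub, C_add, C_1, C_ofNat, C_mul]
    rw [hP, hQ, hR', hm']
    linear_combination ((a ^ 3 * Y - a ^ 3) * (w ^ 3 + 1) + (-3 * Y - 6) * a ^ 2 * w) * hw3
  have nrm := MU_norm_three hw0 P (Q * a) (R' * a ^ 2)
  have hx : (C x : E[X]) * (m - 1) ^ 3 = 27 * (m * (m + 8) ^ 3) := by
    rw [hm', ha, show (27 : E[X]) = C 27 from (map_ofNat C 27).symm,
      show (8 : E[X]) = C 8 from (map_ofNat C 8).symm]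
    simp only [← C_pow, ← C_mul, ← C_sub, ← C_add, ← C_1]
    congr 1
    linear_combination -hμ'
  have hCm : (C ((μ ^ 3 - 1) ^ 3) : E[X]) = (m - 1) ^ 3 := by
    rw [hm', ha]; simp only [C_pow, C_sub, C_1]
  have hCm3 : (C (μ ^ 3) : E[X]) = m := by rw [hm', ha, C_pow]
  rw [f0, f1, f2, hCm, hCm3, AX_poly_of_ne _ (by norm_num : (3 : ℕ) ≠ 2),
    show (C (27 : E) : E[X]) = 27 from map_ofNat C 27]
  have main := MU_id_three_main m Y
  have lhs : (m - 1) ^ 3 * (27 * (X ^ 3 * (X ^ 3 + 8) ^ 3) - C x * (X ^ 3 - 1) ^ 3) =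
      27 * ((m - 1) ^ 3 * (Y * (Y + 8) ^ 3) - m * (m + 8) ^ 3 * (Y - 1) ^ 3) := by
    rw [hY]
    linear_combination (-(X ^ 3 - 1) ^ 3) * hx
  rw [lhs, main]
  have nrm' : (P + Q * a + R' * a ^ 2) * ((P + w * (Q * a) + w ^ 2 * (R' * a ^ 2)) *
      (P + w ^ 2 * (Q * a) + w * (R' * a ^ 2))) =
      P ^ 3 + (Q * a) ^ 3 + (R' * a ^ 2) ^ 3 - 3 * P * (Q * a) * (R' * a ^ 2) := by
    rw [← nrm]; ring
  rw [nrm', hP, hQ, hR', hm']
  ring

end three

section both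

variable {E : Type*} [Field E]

/-- the orbit of `μ` under the Möbius group (`S₃` for `M = 2`, `A₄` otherwise). -/
def MU_orbit (M : ℕ) (ω μ : E) : List E := if M = 2 then MU_orbit2 μ else MU_orbit3 ω μ

theorem MU_orbit_two (ω μ : E) : MU_orbit 2 ω μ = MU_orbit2 μ := by
  rw [MU_orbit, if_pos rfl]

theorem MU_orbit_three (ω μ : E) : MU_orbit 3 ω μ = MU_orbit3 ω μ := by
  rw [MU_orbit, if_neg (by norm_num)]

theorem MU_orbit_length {M : ℕ} (hM : M = 2 ∨ M = 3) (ω μ : E) :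
    (MU_orbit M ω μ).length = AX_deg M := by
  rcases hM with rfl | rfl
  · rw [MU_orbit_two]; rfl
  · rw [MU_orbit_three]; rfl

theorem MU_lead_ne_zero {M : ℕ} (hM : M = 2 ∨ M = 3) (hME : (M : E) ≠ 0) :
    (AX_lead M : E) ≠ 0 := by
  rcases hM with rfl | rfl
  · have : ((AX_lead 2 : ℕ) : E) = ((2 : ℕ) : E) ^ 8 := by
      rw [AX_lead, if_pos rfl]; norm_num
    rw [this]
    exact pow_ne_zero _ hME
  · have : ((AX_lead 3 : ℕ) : E) = ((3 : ℕ) : E) ^ 3 := by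
      rw [AX_lead, if_neg (by norm_num)]; norm_num
    rw [this]
    exact pow_ne_zero _ hME

/-- **MU-roots**: `AX_poly E M x = lead · ∏_{r ∈ orbit} (X − r)`. -/
theorem MU_poly_eq {M : ℕ} (hM : M = 2 ∨ M = 3) (hME : (M : E) ≠ 0) {ω : E}
    (hω : M = 3 → ω ^ 2 + ω + 1 = 0) {x μ : E} (hμ : (AX_poly E M x).eval μ = 0) :
    AX_poly E M x = C (AX_lead M : E) * ((MU_orbit M ω μ).map (fun r => X - C r)).prod := by
  rcases hM with rfl | rfl
  · rw [MU_orbit_two, MU_poly_eq_two (by exact_mod_cast hME) hμ, AX_lead, if_pos rfl]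
    norm_num
  · rw [MU_orbit_three, MU_poly_eq_three (by exact_mod_cast hME) (hω rfl) hμ, AX_lead,
      if_neg (by norm_num)]
    norm_num

theorem MU_roots {M : ℕ} (hM : M = 2 ∨ M = 3) (hME : (M : E) ≠ 0) {ω : E}
    (hω : M = 3 → ω ^ 2 + ω + 1 = 0) {x μ : E} (hμ : (AX_poly E M x).eval μ = 0) :
    (AX_poly E M x).roots = (MU_orbit M ω μ : Multiset E) := by
  rw [MU_poly_eq hM hME hω hμ, roots_C_mul _ (MU_lead_ne_zero hM hME)]
  have := roots_multiset_prod_X_sub_C (MU_orbit M ω μ : Multiset E)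
  rw [Multiset.map_coe, Multiset.prod_coe] at this
  exact this

theorem MU_mem_orbit_of_root {M : ℕ} (hM : M = 2 ∨ M = 3) (hME : (M : E) ≠ 0) {ω : E}
    (hω : M = 3 → ω ^ 2 + ω + 1 = 0) {x μ : E} (hμ : (AX_poly E M x).eval μ = 0) {r : E}
    (hr : (AX_poly E M x).eval r = 0) : r ∈ MU_orbit M ω μ := by
  have h1 : r ∈ (AX_poly E M x).roots := by
    rw [mem_roots (AX_poly_ne_zero E M x (MU_lead_ne_zero hM hME))]
    exact hr
  rw [MU_roots hM hME hω hμ] at h1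
  exact Multiset.mem_coe.mp h1

theorem MU_eval_orbit {M : ℕ} (hM : M = 2 ∨ M = 3) (hME : (M : E) ≠ 0) {ω : E}
    (hω : M = 3 → ω ^ 2 + ω + 1 = 0) {x μ : E} (hμ : (AX_poly E M x).eval μ = 0) {r : E}
    (hr : r ∈ MU_orbit M ω μ) : (AX_poly E M x).eval r = 0 := by
  have h1 : r ∈ (AX_poly E M x).roots := by
    rw [MU_roots hM hME hω hμ]
    exact Multiset.mem_coe.mpr hr
  exact (mem_roots (AX_poly_ne_zero E M x (MU_lead_ne_zero hM hME))).mp h1

theorem MU_splits {M : ℕ} (hM : M = 2 ∨ M = 3) (hME : (M : E) ≠ 0) {ω : E}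
    (hω : M = 3 → ω ^ 2 + ω + 1 = 0) {x μ : E} (hμ : (AX_poly E M x).eval μ = 0) :
    (AX_poly E M x).Splits := by
  rw [MU_poly_eq hM hME hω hμ]
  apply Splits.mul (Splits.C _)
  apply Splits.listProd
  intro f hf
  obtain ⟨r, -, rfl⟩ := List.mem_map.mp hf
  exact Splits.X_sub_C r

end both

section adjoin

variable {F F' : Type*} [Field F] [Field F'] [Algebra F F']

/-- the orbit of `μ` lies in `F⟮μ⟯` (if `ω ∈ F`). -/
theorem MU_orbit_mem_adjoin (M : ℕ) (ω : F) (μ : F') {r : F'}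
    (hr : r ∈ MU_orbit M (algebraMap F F' ω) μ) : r ∈ IntermediateField.adjoin F {μ} := by
  set L := IntermediateField.adjoin F ({μ} : Set F') with hL
  have hμL : μ ∈ L := IntermediateField.mem_adjoin_simple_self F μ
  have hωL : algebraMap F F' ω ∈ L := L.algebraMap_mem ω
  have h1 : (1 : F') ∈ L := L.one_mem
  have h2 : (2 : F') ∈ L := by
    have : (2 : F') = 1 + 1 := by norm_num
    rw [this]; exact L.add_mem h1 h1
  have hS : ∀ u : F', u ∈ L → MU_S u ∈ L := fun u hu =>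
    L.div_mem (L.add_mem hu h2) (L.sub_mem hu h1)
  have htri : ∀ s : F', s ∈ L → ∀ r ∈ MU_tri (algebraMap F F' ω) s, r ∈ L := by
    intro s hs r hr
    rw [MU_tri] at hr
    simp only [List.mem_cons, List.not_mem_nil, or_false] at hr
    rcases hr with rfl | rfl | rfl
    · exact hs
    · exact L.mul_mem hωL hs
    · exact L.mul_mem (pow_mem hωL 2) hs
  by_cases hM : M = 2
  · rw [MU_orbit, if_pos hM, MU_orbit2] at hr
    simp only [List.mem_cons, List.not_mem_nil, or_false] at hr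
    rcases hr with rfl | rfl | rfl | rfl | rfl | rfl
    · exact hμL
    · exact L.sub_mem h1 hμL
    · exact L.inv_mem hμL
    · exact L.inv_mem (L.sub_mem h1 hμL)
    · exact L.div_mem hμL (L.sub_mem hμL h1)
    · exact L.div_mem (L.sub_mem hμL h1) hμL
  · rw [MU_orbit, if_neg hM, MU_orbit3] at hr
    simp only [List.mem_append] at hr
    rcases hr with hr | hr | hr | hr
    · exact htri _ hμL r hr
    · exact htri _ (hS _ hμL) r hr
    · exact htri _ (hS _ (L.mul_mem hωL hμL)) r hr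
    · exact htri _ (hS _ (L.mul_mem (pow_mem hωL 2) hμL)) r hr

end adjoin

section splittingField

variable (F : Type*) [Field F] (M : ℕ) (x : F)

/-- **MU-roots**: `F' = F(μ)`. -/
theorem MU_adjoin_eq_top (hM : M = 2 ∨ M = 3) (hMF : (M : F) ≠ 0) {ω : F}
    (hω : M = 3 → ω ^ 2 + ω + 1 = 0) :
    IntermediateField.adjoin F {AX_mu F M x} = ⊤ := by
  set F' := AX_F' F M x with hF'
  set μ := AX_mu F M x with hμdef
  have hlead : (AX_lead M : F) ≠ 0 := MU_lead_ne_zero hM hMF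
  have hMF' : (M : F') ≠ 0 := by
    have : ((M : ℕ) : F') = algebraMap F F' (M : F) := by rw [map_natCast]
    rw [this]
    exact fun h => hMF ((algebraMap F F').injective (by rw [h, map_zero]))
  have hω' : M = 3 → (algebraMap F F' ω) ^ 2 + algebraMap F F' ω + 1 = 0 := by
    intro h
    rw [← map_pow, ← map_add, ← map_one (algebraMap F F'), ← map_add, hω h, map_zero]
  have hμ : (AX_poly F' M (algebraMap F F' x)).eval μ = 0 := AX_mu_eval F M x hlead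
  have hroot : (AX_poly F M x).rootSet F' ⊆ (IntermediateField.adjoin F ({μ} : Set F') : Set F') := by
    intro r hr
    rw [mem_rootSet] at hr
    have hr' : (AX_poly F' M (algebraMap F F' x)).eval r = 0 := by
      have := hr.2
      rwa [aeval_def, eval₂_eq_eval_map, AX_poly_map] at this
    exact MU_orbit_mem_adjoin M ω μ (MU_mem_orbit_of_root hM hMF' hω' hμ hr')
  have h1 : Algebra.adjoin F ((AX_poly F M x).rootSet F') = ⊤ :=
    SplittingField.adjoin_rootSet (AX_poly F M x)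
  rw [eq_top_iff]
  intro y _
  have hy : y ∈ Algebra.adjoin F ((AX_poly F M x).rootSet F') := by rw [h1]; trivial
  have h2 : Algebra.adjoin F ((AX_poly F M x).rootSet F') ≤
      (IntermediateField.adjoin F ({μ} : Set F')).toSubalgebra :=
    Algebra.adjoin_le hroot
  exact h2 hy

theorem MU_isIntegral_mu (hlead : (AX_lead M : F) ≠ 0) : IsIntegral F (AX_mu F M x) :=
  (isAlgebraic_iff_isIntegral).mp ⟨AX_poly F M x, AX_poly_ne_zero F M x hlead,
    AX_mu_root F M x hlead⟩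

/-- **MU-roots**: `[F' : F] ≤ deg R_M` (`6` resp. `12`). -/
theorem MU_finrank_le (hM : M = 2 ∨ M = 3) (hMF : (M : F) ≠ 0) {ω : F}
    (hω : M = 3 → ω ^ 2 + ω + 1 = 0) :
    Module.finrank F (AX_F' F M x) ≤ AX_deg M := by
  have hlead : (AX_lead M : F) ≠ 0 := MU_lead_ne_zero hM hMF
  have h1 := MU_adjoin_eq_top F M x hM hMF hω
  have h2 := IntermediateField.adjoin.finrank (MU_isIntegral_mu F M x hlead)
  rw [h1, IntermediateField.finrank_top'] at h2
  rw [h2, ← AX_poly_natDegree F M x hlead]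
  exact natDegree_le_of_dvd (minpoly.dvd F _ (AX_mu_root F M x hlead))
    (AX_poly_ne_zero F M x hlead)

/-- **MU-roots**: every element of `F'` is a polynomial in `μ`. -/
theorem MU_exists_aeval (hM : M = 2 ∨ M = 3) (hMF : (M : F) ≠ 0) {ω : F}
    (hω : M = 3 → ω ^ 2 + ω + 1 = 0) (y : AX_F' F M x) :
    ∃ p : F[X], aeval (AX_mu F M x) p = y := by
  have hlead : (AX_lead M : F) ≠ 0 := MU_lead_ne_zero hM hMF
  have h1 := MU_adjoin_eq_top F M x hM hMF hω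
  have halg : IsAlgebraic F (AX_mu F M x) := (MU_isIntegral_mu F M x hlead).isAlgebraic
  have h2 := (IntermediateField.adjoin_simple_eq_top_iff_of_isAlgebraic halg).mp h1
  have hy : y ∈ Algebra.adjoin F ({AX_mu F M x} : Set (AX_F' F M x)) := by rw [h2]; trivial
  rw [Algebra.adjoin_singleton_eq_range_aeval] at hy
  obtain ⟨p, hp⟩ := hy
  exact ⟨p, hp⟩

end splittingField

end Fermat.Agent.S18
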