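import Mathlib
import Fermat.Prelude.Def_ModularCurve_X0
import Fermat.Agent.Lib.CuspExt
import Fermat.Agent.S18.AuxPoly
import Fermat.Agent.S18.MuRoots

/-!
# S18, package CUSP: the extension step for `F' = F(μ)`, `R_M(μ) = j`

* `CU_qExpandAlg`, `CU_subst_*` : the substitution `t ↦ s^M` on a family of Laurent embeddings.
* `CU_hsp_of_adjoin` : splitting of all minimal polynomials of `E' = E(μ)` from the splitting of
  one polynomial `P` with `P(μ) = 0`.
* `CU_ax_count` : `#{places of F' over j = ∞} = [F' : F] · ∑_{γ} 1 / lcm(|⟨τ⟩ γ|, M)`.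
* `CU_cusp_le` : the comparison `#cusps(E_k) ≤ #cusps(F')`.
-/

set_option autoImplicit false
set_option linter.unusedSectionVars false

open AlgebraicCurve IntermediateField Polynomial

namespace Fermat.Agent.S18

open Fermat.Agent.Lib Fermat.Agent.S24 ModularCurve

section Subst

variable {K E L : Type*} [Field K] [Field E] [Algebra K E] [Field L] [Algebra K L]

/-- the substitution `t ↦ s^M` as a `K`-algebra homomorphism of `L((t))`. -/
noncomputable def CU_qExpandAlg (K : Type*) [Field K] (L : Type*) [Field L] [Algebra K L]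
    (M : ℕ) [NeZero M] : LaurentSeries L →ₐ[K] LaurentSeries L where
  __ := qExpand L M
  commutes' c := by
    show qExpand L M (algebraMap K (LaurentSeries L) c) = algebraMap K (LaurentSeries L) c
    rw [CU_algebraMap_eq_C, qExpand_C]

@[simp]
theorem CU_qExpandAlg_apply (M : ℕ) [NeZero M] (f : LaurentSeries L) :
    CU_qExpandAlg K L M f = qExpand L M f := rfl

theorem CU_qExpand_ne_zero (M : ℕ) [NeZero M] {f : LaurentSeries L} (hf : f ≠ 0) :
    qExpand L M f ≠ 0 := fun h => hf (qExpand_injective M (by rw [h, map_zero]))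

/-- the order of `f(s^M)`. -/
theorem CU_order_qExpand (M : ℕ) [NeZero M] (f : LaurentSeries L) :
    (qExpand L M f).order = (M : ℤ) * f.order := by
  by_cases hf : f = 0
  · subst hf
    simp
  have hMpos : (0 : ℤ) < M := by exact_mod_cast Nat.pos_of_ne_zero (NeZero.ne M)
  have hq : qExpand L M f ≠ 0 := CU_qExpand_ne_zero M hf
  apply le_antisymm
  · apply HahnSeries.order_le_of_coeff_ne_zero
    rw [qExpand_coeff_mul]
    exact fun h0 => hf (HahnSeries.coeff_order_eq_zero.mp h0)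
  · have hc : (qExpand L M f).coeff (qExpand L M f).order ≠ 0 :=
      fun h0 => hq (HahnSeries.coeff_order_eq_zero.mp h0)
    by_cases hd : (M : ℤ) ∣ (qExpand L M f).order
    · obtain ⟨m, hm⟩ := hd
      rw [hm, qExpand_coeff_mul] at hc
      rw [hm]
      exact mul_le_mul_of_nonneg_left (HahnSeries.order_le_of_coeff_ne_zero hc) hMpos.le
    · exact absurd (qExpand_coeff_of_not_dvd M f hd) hc

/-- the twist relation after the substitution `t ↦ s^M`. -/
theorem CU_subst_htw {X : Type*} (emb : X → (E →ₐ[K] LaurentSeries L)) (M : ℕ) [NeZero M]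
    (τ : Equiv.Perm X) (ζ : L)
    (htw : ∀ γ f (n : ℤ), (emb (τ γ) f).coeff n = (ζ ^ M) ^ n * (emb γ f).coeff n) :
    ∀ γ f (n : ℤ), (((CU_qExpandAlg K L M).comp (emb (τ γ))) f).coeff n =
      ζ ^ n * (((CU_qExpandAlg K L M).comp (emb γ)) f).coeff n := by
  intro γ f n
  simp only [AlgHom.comp_apply, CU_qExpandAlg_apply]
  by_cases hd : (M : ℤ) ∣ n
  · obtain ⟨m, rfl⟩ := hd
    rw [qExpand_coeff_mul, qExpand_coeff_mul, htw, ← zpow_natCast, ← zpow_mul]
  · rw [qExpand_coeff_of_not_dvd M _ hd, qExpand_coeff_of_not_dvd M _ hd, mul_zero]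

theorem CU_subst_injective {X : Type*} (emb : X → (E →ₐ[K] LaurentSeries L)) (M : ℕ)
    [NeZero M] (hinj : Function.Injective emb) :
    Function.Injective (fun γ => (CU_qExpandAlg K L M).comp (emb γ)) := by
  intro γ γ' h
  apply hinj
  ext f : 1
  have := congrArg (fun φ : E →ₐ[K] LaurentSeries L => φ f) h
  exact qExpand_injective M this

end Subst

section Splits

variable {E E' Ω : Type*} [Field E] [Field E'] [Field Ω] [Algebra E E']

/-- if `E' = E(μ)`, `P(μ) = 0` and `P^σ` splits in `Ω`, then all minimal polynomials over `E`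
of elements of `E'` split in `Ω` (through `σ`). -/
theorem CU_hsp_of_adjoin (σ : E →+* Ω) (P : E[X]) (hP : P.map σ ≠ 0) (hsplit : (P.map σ).Splits)
    {μ : E'} (hμ : aeval μ P = 0) (hgen : IntermediateField.adjoin E {μ} = ⊤) (y : E') :
    ((minpoly E y).map σ).Splits := by
  let _ : Algebra E Ω := σ.toAlgebra
  have hP0 : P ≠ 0 := fun h => hP (by rw [h, Polynomial.map_zero])
  have hint : IsIntegral E μ := ⟨P * C (P.leadingCoeff)⁻¹,
    Polynomial.monic_mul_leadingCoeff_inv hP0, by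
      rw [← aeval_def, map_mul, hμ, zero_mul]⟩
  have h1 : ((minpoly E μ).map (algebraMap E Ω)).Splits := by
    have hdvd : minpoly E μ ∣ P := minpoly.dvd E μ hμ
    exact Polynomial.Splits.of_dvd hsplit hP (Polynomial.map_dvd σ hdvd)
  have hy : y ∈ IntermediateField.adjoin E ({μ} : Set E') := hgen ▸ IntermediateField.mem_top
  exact IntermediateField.splits_of_mem_adjoin (F := E) (K := E') (L := Ω) (S := {μ})
    (fun x hx => by
      rw [Set.mem_singleton_iff] at hx
      subst hx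
      exact ⟨hint, h1⟩) hy

end Splits

section AxCount

variable {K F F' L : Type} [Field K] [IsAlgClosed K] [Field F] [Algebra K F] [Field F']
  [Algebra K F'] [Algebra F F'] [IsScalarTower K F F'] [Field L] [Algebra K L]

/-- **CUSP, the extension step for `F' = F(μ)`, `R_M(μ) = j`.** -/
theorem CU_ax_count (M N : ℕ) (hM : M = 2 ∨ M = 3) (hN : 0 < N) (hML : (M : L) ≠ 0)
    {j : F}
    [FiniteDimensional K⟮j⁻¹⟯ F] [Algebra.IsSeparable K⟮j⁻¹⟯ F]
    (hx' : Transcendental K (algebraMap F F' j⁻¹))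
    [FiniteDimensional K⟮algebraMap F F' j⁻¹⟯ F']
    [Algebra.IsSeparable K⟮algebraMap F F' j⁻¹⟯ F']
    [FiniteDimensional F F'] [Algebra.IsSeparable F F']
    {μ : F'} (hμ : (AX_poly F' M (algebraMap F F' j)).eval μ = 0)
    (hgen : IntermediateField.adjoin F {μ} = ⊤)
    {X : Type} [Finite X] (emb : X → (F →ₐ[K] LaurentSeries L))
    (hinj : Function.Injective emb)
    (y₀ : LaurentSeries L) (hy₀ : ∀ γ, emb γ j = y₀) (hy₀ord : y₀.order = -((M * N : ℕ) : ℤ))
    (hcard : Nat.card X = Module.finrank K⟮j⁻¹⟯ F)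
    (τ : Equiv.Perm X) (ζ : L) (hζ : IsPrimitiveRoot ζ (M * N))
    (htw : ∀ γ f (n : ℤ), (emb (τ γ) f).coeff n = ζ ^ n * (emb γ f).coeff n)
    (hsplit : (AX_poly (LaurentSeries L) M y₀).Splits)
    (hroot : ∀ a : LaurentSeries L, (AX_poly (LaurentSeries L) M y₀).eval a = 0 →
      ∀ (ζ' : L) (hζ' : ζ' ≠ 0), ζ' ^ (M * N) = 1 → (CU_twist ζ' hζ' a = a ↔ ζ' ^ N = 1)) :
    (Nat.card {v : Place K F' // v.ord (algebraMap F F' j) < 0} : ℚ) =
      (Module.finrank F F' : ℚ) * ∑ᶠ γ : X, (1 : ℚ) /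
        ((Nat.lcm (Nat.card (MulAction.orbit (Subgroup.zpowers τ) γ)) M : ℕ) : ℚ) := by
  have hMpos : 0 < M := by rcases hM with rfl | rfl <;> norm_num
  have hMN : 0 < M * N := Nat.mul_pos hMpos hN
  have hζ0 : ζ ≠ 0 := hζ.ne_zero hMN.ne'
  have hy₀0 : y₀ ≠ 0 := by
    intro h
    rw [h, HahnSeries.order_zero] at hy₀ord
    have : (0 : ℤ) < ((M * N : ℕ) : ℤ) := by exact_mod_cast hMN
    omega
  -- the family at `x = j⁻¹`
  have hx₀ : ∀ γ, emb γ j⁻¹ = y₀⁻¹ := fun γ => by rw [map_inv₀, hy₀]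
  have hx₀ord : (y₀⁻¹).order = ((M * N : ℕ) : ℤ) := by
    have h1 : y₀ * y₀⁻¹ = 1 := mul_inv_cancel₀ hy₀0
    have h2 := HahnSeries.order_mul hy₀0 (inv_ne_zero hy₀0)
    rw [h1, HahnSeries.order_one, hy₀ord] at h2
    omega
  -- the polynomial
  have hlead : (AX_lead M : LaurentSeries L) ≠ 0 := by
    have h := MU_lead_ne_zero (E := L) hM hML
    have h2 : (AX_lead M : LaurentSeries L) = HahnSeries.C ((AX_lead M : ℕ) : L) := by
      rw [map_natCast]
    rw [h2]
    exact (map_ne_zero (HahnSeries.C : L →+* LaurentSeries L)).mpr h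
  have hPne : AX_poly (LaurentSeries L) M y₀ ≠ 0 := by
    intro h
    have := AX_poly_coeff_deg (LaurentSeries L) M y₀
    rw [h, Polynomial.coeff_zero] at this
    exact hlead this.symm
  have hPmap : ∀ γ, (AX_poly F M j).map (emb γ : F →+* LaurentSeries L) =
      AX_poly (LaurentSeries L) M y₀ := fun γ => by
    rw [AX_poly_map]
    congr 1
    exact hy₀ γ
  have hμ' : aeval μ (AX_poly F M j) = 0 := by
    rw [aeval_def, ← Polynomial.eval_map, AX_poly_map]
    exact hμ
  have hsp : ∀ γ (y : F'), ((minpoly F y).map (emb γ : F →+* LaurentSeries L)).Splits :=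
    fun γ y => CU_hsp_of_adjoin (emb γ : F →+* LaurentSeries L) (AX_poly F M j)
      (by rw [hPmap]; exact hPne) (by rw [hPmap]; exact hsplit) hμ' hgen y
  -- freeness
  have hfree : ∀ σ' : F' →ₐ[K] LaurentSeries L, σ' (algebraMap F F' j⁻¹) = y₀⁻¹ →
      ∀ s ∈ ({μ} : Set F'), ∀ i : ℕ,
        (∀ n : ℤ, ζ ^ ((i : ℤ) * n) * (σ' s).coeff n = (σ' s).coeff n) ↔ M ∣ i := by
    intro σ' hσ' s hs i
    rw [Set.mem_singleton_iff] at hs
    subst hs
    have hσj : σ' (algebraMap F F' j) = y₀ := by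
      have h := hσ'
      rw [map_inv₀, map_inv₀] at h
      exact inv_injective h
    have ha : (AX_poly (LaurentSeries L) M y₀).eval (σ' s) = 0 := by
      have h1 : (AX_poly F' M (algebraMap F F' j)).map (σ' : F' →+* LaurentSeries L) =
          AX_poly (LaurentSeries L) M y₀ := by
        rw [AX_poly_map]
        congr 1
      rw [← h1, Polynomial.eval_map]
      have h2 := Polynomial.eval₂_hom (p := AX_poly F' M (algebraMap F F' j))
        (σ' : F' →+* LaurentSeries L) s
      rw [hμ, map_zero] at h2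
      exact h2
    have hζi0 : ζ ^ i ≠ 0 := pow_ne_zero _ hζ0
    have hζiMN : (ζ ^ i) ^ (M * N) = 1 := by
      rw [← pow_mul, mul_comm, pow_mul, hζ.pow_eq_one, one_pow]
    have h3 := hroot (σ' s) ha (ζ ^ i) hζi0 hζiMN
    have h4 : (∀ n : ℤ, ζ ^ ((i : ℤ) * n) * (σ' s).coeff n = (σ' s).coeff n) ↔
        CU_twist (ζ ^ i) hζi0 (σ' s) = σ' s := by
      constructor
      · intro h
        ext n
        rw [CU_twist_coeff, ← zpow_natCast, ← zpow_mul]
        exact h n
      · intro h n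
        have := congrArg (fun g : LaurentSeries L => g.coeff n) h
        simp only [CU_twist_coeff] at this
        rw [← zpow_natCast, ← zpow_mul] at this
        exact this
    rw [h4, h3, ← pow_mul, hζ.pow_eq_one_iff_dvd]
    constructor
    · intro h
      exact (Nat.mul_dvd_mul_iff_right hN).mp h
    · intro h
      exact Nat.mul_dvd_mul_right h N
  have hcount := CU_ext_count (K := K) (E := F) (E' := F') (L := L) (x := j⁻¹) hx' emb hinj
    y₀⁻¹ hx₀ (M * N) hMN hx₀ord hcard τ ζ hζ htw hsp {μ} hgen (Set.singleton_nonempty μ) M hfree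
  rw [← hcount]
  congr 1
  apply Nat.card_congr
  exact Equiv.subtypeEquivRight (fun v => by rw [map_inv₀, v.ord_inv]; omega)

end AxCount

section Compare

/-- **CUSP, comparison.**  Two towers with the same index set, the same twist permutation and
`[E_k : F_k] ≤ [F' : F]`:  `#cusps(E_k) ≤ #cusps(F')`. -/
theorem CU_cusp_le_of_counts {K F' k Ek : Type} [Field K] [Field F'] [Algebra K F'] [Field k]
    [Field Ek] [Algebra k Ek] {X : Type} [Finite X] (c : X → ℕ) (hK hk : ℕ) (hle : hk ≤ hK)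
    (j' : F') (jk' : Ek)
    (h1 : (Nat.card {v : Place K F' // v.ord j' < 0} : ℚ) =
      (hK : ℚ) * ∑ᶠ γ : X, (1 : ℚ) / ((c γ : ℕ) : ℚ))
    (h2 : (Nat.card {v : Place k Ek // v.ord jk' < 0} : ℚ) =
      (hk : ℚ) * ∑ᶠ γ : X, (1 : ℚ) / ((c γ : ℕ) : ℚ)) :
    Set.ncard {w : Place k Ek | w.ord jk' < 0} ≤ Set.ncard {w : Place K F' | w.ord j' < 0} := by
  have hS : (0 : ℚ) ≤ ∑ᶠ γ : X, (1 : ℚ) / ((c γ : ℕ) : ℚ) :=
    finsum_nonneg (fun γ => by positivity)
  have h3 : (Nat.card {v : Place k Ek // v.ord jk' < 0} : ℚ) ≤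
      (Nat.card {v : Place K F' // v.ord j' < 0} : ℚ) := by
    rw [h1, h2]
    exact mul_le_mul_of_nonneg_right (by exact_mod_cast hle) hS
  have h4 : Nat.card {v : Place k Ek // v.ord jk' < 0} ≤
      Nat.card {v : Place K F' // v.ord j' < 0} := by exact_mod_cast h3
  exact h4

end Compare

end Fermat.Agent.S18
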