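import Mathlib

/-!
# S18, package DEG: the abstract Galois step

Inside a big field `Ω` over `K₀`, let `K₁/K₀` be finite Galois and `B` an intermediate field
which is fixed pointwise by an automorphism `σ` of `Ω`.  If the fixed field `E₁` of `σ` in `K₁`
has no proper intermediate field over `K₀` and is not contained in `B`, then `K₁ ∩ B = K₀`, so
`K₁` and `B` are linearly disjoint over `K₀` and `[K₁ B : K₀] = [K₁ : K₀] [B : K₀]`.
-/

set_option autoImplicit false

open IntermediateField Module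

namespace Fermat.Agent.S18

section
variable {K₀ Ω : Type*} [Field K₀] [Field Ω] [Algebra K₀ Ω]

/-- the elements of `K₁` fixed by `σ`, as an intermediate field. -/
def DG_fix (K₁ : IntermediateField K₀ Ω) (σ : Ω ≃ₐ[K₀] Ω) : IntermediateField K₀ Ω :=
  K₁ ⊓ IntermediateField.fixedField (Subgroup.zpowers σ)

theorem DG_mem_fix {K₁ : IntermediateField K₀ Ω} {σ : Ω ≃ₐ[K₀] Ω} {x : Ω} :
    x ∈ DG_fix K₁ σ ↔ x ∈ K₁ ∧ σ x = x := by
  unfold DG_fix
  rw [IntermediateField.mem_inf]
  refine and_congr Iff.rfl ?_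
  constructor
  · intro h
    exact h ⟨σ, Subgroup.mem_zpowers σ⟩
  · rintro h ⟨τ, hτ⟩
    obtain ⟨n, rfl⟩ := Subgroup.mem_zpowers_iff.mp hτ
    change (σ ^ n) x = x
    clear hτ
    induction n using Int.induction_on with
    | zero => simp
    | succ n ih =>
      rw [zpow_add_one, AlgEquiv.mul_apply, h, ih]
    | pred n ih =>
      rw [zpow_sub_one, AlgEquiv.mul_apply]
      have : σ⁻¹ x = x := by
        rw [AlgEquiv.aut_inv, AlgEquiv.symm_apply_eq, h]
      rw [this, ih]

theorem DG_fix_le (K₁ : IntermediateField K₀ Ω) (σ : Ω ≃ₐ[K₀] Ω) : DG_fix K₁ σ ≤ K₁ :=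
  inf_le_left

/-- **DEG, abstract Galois step**: `K₁ ⊓ B = ⊥`. -/
theorem DG_inf_eq_bot (K₁ B : IntermediateField K₀ Ω) (σ : Ω ≃ₐ[K₀] Ω)
    (hσ : ∀ b ∈ B, σ b = b)
    (hmax : ∀ E : IntermediateField K₀ Ω, E ≤ DG_fix K₁ σ → E = ⊥ ∨ E = DG_fix K₁ σ)
    (hnot : ¬ DG_fix K₁ σ ≤ B) : K₁ ⊓ B = ⊥ := by
  have hle : K₁ ⊓ B ≤ DG_fix K₁ σ := by
    intro x hx
    rw [IntermediateField.mem_inf] at hx
    exact DG_mem_fix.mpr ⟨hx.1, hσ x hx.2⟩
  rcases hmax _ hle with h | h
  · exact h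
  · exact absurd (h ▸ inf_le_right) hnot

/-- **DEG, abstract Galois step**: the degree of the compositum. -/
theorem DG_finrank_sup (K₁ B : IntermediateField K₀ Ω) [IsGalois K₀ K₁]
    [FiniteDimensional K₀ K₁] [FiniteDimensional K₀ B] (σ : Ω ≃ₐ[K₀] Ω)
    (hσ : ∀ b ∈ B, σ b = b)
    (hmax : ∀ E : IntermediateField K₀ Ω, E ≤ DG_fix K₁ σ → E = ⊥ ∨ E = DG_fix K₁ σ)
    (hnot : ¬ DG_fix K₁ σ ≤ B) :
    finrank K₀ ↥(K₁ ⊔ B) = finrank K₀ K₁ * finrank K₀ B :=
  (IntermediateField.LinearDisjoint.of_inf_eq_bot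
    (DG_inf_eq_bot K₁ B σ hσ hmax hnot)).finrank_sup

/-- In general (no maximality): `K₁ ⊓ B ≤ DG_fix K₁ σ`. -/
theorem DG_inf_le_fix (K₁ B : IntermediateField K₀ Ω) (σ : Ω ≃ₐ[K₀] Ω)
    (hσ : ∀ b ∈ B, σ b = b) : K₁ ⊓ B ≤ DG_fix K₁ σ := by
  intro x hx
  rw [IntermediateField.mem_inf] at hx
  exact DG_mem_fix.mpr ⟨hx.1, hσ x hx.2⟩

/-- prime degree ⇒ no proper intermediate field. -/
theorem DG_hmax_of_prime (E₁ : IntermediateField K₀ Ω) [FiniteDimensional K₀ E₁]
    (hp : (finrank K₀ E₁).Prime) (E : IntermediateField K₀ Ω) (hE : E ≤ E₁) :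
    E = ⊥ ∨ E = E₁ := by
  have : FiniteDimensional K₀ E := by
    exact FiniteDimensional.of_injective (IntermediateField.inclusion hE).toLinearMap
      (IntermediateField.inclusion hE).injective
  have hdvd : finrank K₀ E ∣ finrank K₀ E₁ := by
    let E' : IntermediateField K₀ E₁ := E.restrict hE
    have h1 : finrank K₀ E' = finrank K₀ E := by
      exact (IntermediateField.restrictAlgEquiv hE).symm.toLinearEquiv.finrank_eq
    rw [← h1]
    exact ⟨finrank E' E₁, (finrank_mul_finrank K₀ E' E₁).symm⟩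
  rcases (Nat.dvd_prime hp).mp hdvd with h | h
  · left
    exact IntermediateField.finrank_eq_one_iff.mp h
  · right
    exact IntermediateField.eq_of_le_of_finrank_eq hE h

end

end Fermat.Agent.S18

namespace Fermat.Agent.S18

section conj
variable {K₀ E Ω : Type*} [Field K₀] [Field E] [Field Ω] [Algebra K₀ E] [Algebra K₀ Ω]

/-- **DEG, abstract Galois step (conjugates form)**.  If all conjugates in `Ω` of the elements of
`B` are fixed by `σ`, and the only elements of `K₁` all of whose images in `Ω` are fixed by `σ` are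
those of `K₀`, then `K₁ ⊓ B = K₀`. -/
theorem DG_inf_eq_bot' (K₁ B : IntermediateField K₀ E) (σ : Ω → Ω)
    (hCU : ∀ e ∈ B, ∀ r : Ω, Polynomial.aeval r (minpoly K₀ e) = 0 → σ r = r)
    (hX : ∀ e : K₁, (∀ ψ : K₁ →ₐ[K₀] Ω, σ (ψ e) = ψ e) →
      (e : E) ∈ (⊥ : IntermediateField K₀ E)) :
    K₁ ⊓ B = ⊥ := by
  apply le_antisymm _ bot_le
  intro x hx
  rw [IntermediateField.mem_inf] at hx
  refine hX ⟨x, hx.1⟩ fun ψ => hCU x hx.2 _ ?_
  have h1 : minpoly K₀ x = minpoly K₀ (⟨x, hx.1⟩ : K₁) :=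
    (IntermediateField.minpoly_eq (⟨x, hx.1⟩ : K₁)).symm
  rw [h1, Polynomial.aeval_algHom_apply, minpoly.aeval, map_zero]

/-- **DEG, abstract Galois step**: the degree bound `[K₁ : K₀] ≤ [E : B']`. -/
theorem DG_finrank_le_of_inf_eq_bot (B' : Type*) [Field B'] [Algebra K₀ B'] [Algebra B' E]
    [IsScalarTower K₀ B' E] [FiniteDimensional K₀ B'] [FiniteDimensional B' E]
    (K₁ : IntermediateField K₀ E) [IsGalois K₀ K₁] [FiniteDimensional K₀ K₁]
    (h : K₁ ⊓ (IsScalarTower.toAlgHom K₀ B' E).fieldRange = ⊥) :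
    finrank K₀ K₁ ≤ finrank B' E := by
  set B : IntermediateField K₀ E := (IsScalarTower.toAlgHom K₀ B' E).fieldRange with hB
  have eqv : B' ≃ₐ[K₀] B := AlgEquiv.ofInjectiveField (IsScalarTower.toAlgHom K₀ B' E)
  have hBfin : FiniteDimensional K₀ B := eqv.toLinearEquiv.finiteDimensional
  have hEfin : FiniteDimensional K₀ E := FiniteDimensional.trans K₀ B' E
  have e1 : finrank K₀ B = finrank K₀ B' := eqv.symm.toLinearEquiv.finrank_eq
  have h1 := (IntermediateField.LinearDisjoint.of_inf_eq_bot h).finrank_sup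
  have h2 : finrank K₀ ↥(K₁ ⊔ B) ≤ finrank K₀ E :=
    Submodule.finrank_le (K₁ ⊔ B).toSubalgebra.toSubmodule
  have h3 : finrank K₀ E = finrank K₀ B' * finrank B' E := (finrank_mul_finrank K₀ B' E).symm
  have hpos : 0 < finrank K₀ B' := finrank_pos
  rw [h1, e1, h3, mul_comm] at h2
  exact Nat.le_of_mul_le_mul_left h2 hpos

end conj

section orbit

/-- **DEG, case `M ∣ N`**: a finite set stable under a map `σ` with `σ^[p] = id` on it and without
fixed points has cardinality divisible by the prime `p`. -/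
theorem DG_dvd_card_of_no_fixed {α : Type*} [DecidableEq α] (S : Finset α) (σ : α → α) (p : ℕ)
    [hp : Fact p.Prime] (hS : ∀ r ∈ S, σ r ∈ S) (hσ : ∀ r ∈ S, σ^[p] r = r)
    (hfix : ∀ r ∈ S, σ r ≠ r) : p ∣ S.card := by
  classical
  -- the restriction of `σ` to `S` as a permutation
  have hiter : ∀ n : ℕ, ∀ r ∈ S, σ^[n] r ∈ S := by
    intro n
    induction n with
    | zero => intro r hr; simpa using hr
    | succ n ih =>
      intro r hr
      rw [Function.iterate_succ_apply']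
      exact hS _ (ih r hr)
  have hp1 : 1 ≤ p := hp.out.one_le
  let τ : Equiv.Perm S :=
    { toFun := fun r => ⟨σ r.1, hS _ r.2⟩
      invFun := fun r => ⟨σ^[p - 1] r.1, hiter _ _ r.2⟩
      left_inv := by
        intro r
        apply Subtype.ext
        change σ^[p - 1] (σ r.1) = r.1
        rw [← Function.iterate_succ_apply, Nat.succ_eq_add_one, Nat.sub_add_cancel hp1]
        exact hσ _ r.2
      right_inv := by
        intro r
        apply Subtype.ext
        change σ (σ^[p - 1] r.1) = r.1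
        have h1 := Function.iterate_succ_apply' σ (p - 1) r.1
        rw [Nat.succ_eq_add_one, Nat.sub_add_cancel hp1] at h1
        rw [← h1]
        exact hσ _ r.2 }
  have hτn : ∀ n : ℕ, ∀ r : S, ((τ ^ n) r : α) = σ^[n] r.1 := by
    intro n
    induction n with
    | zero => intro r; rfl
    | succ n ih =>
      intro r
      rw [pow_succ', Equiv.Perm.mul_apply, Function.iterate_succ_apply']
      change σ ((τ ^ n) r : α) = _
      rw [ih]
  have hτp : τ ^ p ^ 1 = 1 := by
    rw [pow_one]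
    ext r
    rw [hτn, hσ _ r.2]
    rfl
  by_contra hnd
  have hnd' : ¬ p ∣ Fintype.card S := by rwa [Fintype.card_coe]
  obtain ⟨r, hr⟩ := Equiv.Perm.exists_fixed_point_of_prime hnd' hτp
  exact hfix _ r.2 (congrArg Subtype.val hr)

end orbit

end Fermat.Agent.S18
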