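import Mathlib
import Fermat.Agent.S18.MuRoots

/-!
# S18, package MU (helper16): derivative of `AX_poly`, separability

* `MU_wronskian_two/three`: at a root `a` of `AX_poly E M x`:
  `a (a − 1) · P'(a) = 256 (2a − 1)(a² − a + 1)² (a − 2)(a + 1)`  (`M = 2`),
  `(a³ − 1) · P'(a) = 81 a² (a³ + 8)² (a⁶ − 20 a³ − 8)`  (`M = 3`);
* `MU_sub_1728_two/three`: `(x − 1728) · den(a) = 64 ((a+1)(a−2)(2a−1))²` resp. `27 (a⁶−20a³−8)²`;
* `MU_derivative_ne_zero`: `x ≠ 0, 1728` ⇒ every root is simple;
* `MU_separable`: `x ≠ 0, 1728`, `M ≠ 0` in `E` ⇒ `AX_poly E M x` is separable (any characteristic).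
-/

set_option autoImplicit false

open Polynomial

namespace Fermat.Agent.S18

section deriv

variable {E : Type*} [Field E]

theorem MU_derivative_two (x : E) :
    derivative (AX_poly E 2 x) =
      768 * (X ^ 2 - X + 1) ^ 2 * (2 * X - 1) - C x * (2 * X * (X - 1) * (2 * X - 1)) := by
  rw [AX_poly_two]
  simp only [derivative_sub, derivative_mul, derivative_pow, derivative_X, derivative_C,
    derivative_add, derivative_one, derivative_ofNat]
  norm_num
  rw [show (C (3 : E) : E[X]) = 3 from map_ofNat C 3, show (C (2 : E) : E[X]) = 2 from map_ofNat C 2]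
  ring

theorem MU_derivative_three (x : E) :
    derivative (AX_poly E 3 x) =
      81 * X ^ 2 * (X ^ 3 + 8) ^ 2 * (4 * X ^ 3 + 8) - C x * (9 * X ^ 2 * (X ^ 3 - 1) ^ 2) := by
  rw [AX_poly_of_ne _ (by norm_num : (3 : ℕ) ≠ 2)]
  simp only [derivative_sub, derivative_mul, derivative_pow, derivative_X, derivative_C,
    derivative_add, derivative_one, derivative_ofNat]
  norm_num
  rw [show (C (3 : E) : E[X]) = 3 from map_ofNat C 3]
  ring

/-- the Wronskian identity, `M = 2` -/
theorem MU_wronskian_two {x a : E} (ha : (AX_poly E 2 x).eval a = 0) :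
    a * (a - 1) * (derivative (AX_poly E 2 x)).eval a =
      256 * ((2 * a - 1) * (a ^ 2 - a + 1) ^ 2 * (a - 2) * (a + 1)) := by
  rw [AX_poly_eval, if_pos rfl] at ha
  rw [MU_derivative_two]
  simp only [eval_sub, eval_mul, eval_pow, eval_X, eval_C, eval_add, eval_one, eval_ofNat]
  linear_combination (2 * (2 * a - 1)) * ha

/-- the Wronskian identity, `M = 3` -/
theorem MU_wronskian_three {x a : E} (ha : (AX_poly E 3 x).eval a = 0) :
    (a ^ 3 - 1) * (derivative (AX_poly E 3 x)).eval a =
      81 * (a ^ 2 * (a ^ 3 + 8) ^ 2 * (a ^ 6 - 20 * a ^ 3 - 8)) := by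
  rw [AX_poly_eval, if_neg (by norm_num)] at ha
  rw [MU_derivative_three]
  simp only [eval_sub, eval_mul, eval_pow, eval_X, eval_C, eval_add, eval_one, eval_ofNat]
  linear_combination (9 * a ^ 2) * ha

/-- `(x − 1728) · den = 64 ((a+1)(a−2)(2a−1))²`, `M = 2` -/
theorem MU_sub_1728_two {x a : E} (ha : (AX_poly E 2 x).eval a = 0) :
    (x - 1728) * (a ^ 2 * (a - 1) ^ 2) = 64 * ((a + 1) * (a - 2) * (2 * a - 1)) ^ 2 := by
  rw [AX_poly_eval, if_pos rfl] at ha
  linear_combination -ha

/-- `(x − 1728) · den = 27 (a⁶ − 20a³ − 8)²`, `M = 3` -/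
theorem MU_sub_1728_three {x a : E} (ha : (AX_poly E 3 x).eval a = 0) :
    (x - 1728) * (a ^ 3 - 1) ^ 3 = 27 * (a ^ 6 - 20 * a ^ 3 - 8) ^ 2 := by
  rw [AX_poly_eval, if_neg (by norm_num)] at ha
  linear_combination -ha

/-- at a root `a` of `AX_poly E M x` with `x ≠ 0, 1728` the derivative does not vanish. -/
theorem MU_derivative_ne_zero {M : ℕ} (hM : M = 2 ∨ M = 3) (hME : (M : E) ≠ 0) {x a : E}
    (hx0 : x ≠ 0) (hx1 : x ≠ 1728) (ha : (AX_poly E M x).eval a = 0) :
    (derivative (AX_poly E M x)).eval a ≠ 0 := by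
  intro hd
  rcases hM with rfl | rfl
  · have h2 : (2 : E) ≠ 0 := by exact_mod_cast hME
    obtain ⟨h0, h1⟩ := MU_ne_two h2 ha
    have h1' : a - 1 ≠ 0 := fun h => h1 (by linear_combination -h)
    have hden : a ^ 2 * (a - 1) ^ 2 ≠ 0 := mul_ne_zero (pow_ne_zero _ h0) (pow_ne_zero _ h1')
    have hw := MU_wronskian_two ha
    rw [hd, mul_zero] at hw
    have h256 : (256 : E) ≠ 0 := by
      have : (256 : E) = 2 ^ 8 := by norm_num
      rw [this]; exact pow_ne_zero _ h2
    have hw' : (2 * a - 1) * (a ^ 2 - a + 1) ^ 2 * (a - 2) * (a + 1) = 0 := by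
      rcases mul_eq_zero.mp hw.symm with h | h
      · exact absurd h h256
      · exact h
    have hcase : a ^ 2 - a + 1 = 0 ∨ (a + 1) * (a - 2) * (2 * a - 1) = 0 := by
      rcases mul_eq_zero.mp hw' with h | h
      · rcases mul_eq_zero.mp h with h | h
        · rcases mul_eq_zero.mp h with h | h
          · right; rw [h, mul_zero]
          · left; exact pow_eq_zero_iff (by norm_num) |>.mp h
        · right; rw [h, mul_zero, zero_mul]
      · right; rw [h, zero_mul, zero_mul]
    rcases hcase with h | h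
    · apply hx0
      have hx := MU_x_eq_two h2 ha
      rw [hx, h]
      simp
    · apply hx1
      have := MU_sub_1728_two ha
      rw [h] at this
      have h3 : (x - 1728) * (a ^ 2 * (a - 1) ^ 2) = 0 := by rw [this]; ring
      rcases mul_eq_zero.mp h3 with h4 | h4
      · linear_combination h4
      · exact absurd h4 hden
  · have h3 : (3 : E) ≠ 0 := by exact_mod_cast hME
    have hm := MU_ne_three h3 ha
    have hw := MU_wronskian_three ha
    rw [hd, mul_zero] at hw
    have h81 : (81 : E) ≠ 0 := by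
      have : (81 : E) = 3 ^ 4 := by norm_num
      rw [this]; exact pow_ne_zero _ h3
    have hw' : a ^ 2 * (a ^ 3 + 8) ^ 2 * (a ^ 6 - 20 * a ^ 3 - 8) = 0 := by
      rcases mul_eq_zero.mp hw.symm with h | h
      · exact absurd h h81
      · exact h
    have hcase : a ^ 3 * (a ^ 3 + 8) ^ 3 = 0 ∨ a ^ 6 - 20 * a ^ 3 - 8 = 0 := by
      rcases mul_eq_zero.mp hw' with h | h
      · left
        rcases mul_eq_zero.mp h with h | h
        · have : a = 0 := pow_eq_zero_iff (by norm_num) |>.mp h
          rw [this]; ring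
        · have : a ^ 3 + 8 = 0 := pow_eq_zero_iff (by norm_num) |>.mp h
          rw [this]; ring
      · right; exact h
    rcases hcase with h | h
    · apply hx0
      have hx := MU_x_eq_three h3 ha
      rw [hx, h]
      simp
    · apply hx1
      have := MU_sub_1728_three ha
      rw [h] at this
      have h3 : (x - 1728) * (a ^ 3 - 1) ^ 3 = 0 := by rw [this]; ring
      rcases mul_eq_zero.mp h3 with h4 | h4
      · linear_combination h4
      · exact absurd h4 (pow_ne_zero _ hm)

/-- **MU, separability**: for `x ≠ 0, 1728` (and `M ≠ 0` in `E`) the polynomial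
`num R_M − x · den R_M` is separable.  Any characteristic. -/
theorem MU_separable {M : ℕ} (hM : M = 2 ∨ M = 3) (hME : (M : E) ≠ 0) {x : E}
    (hx0 : x ≠ 0) (hx1 : x ≠ 1728) : (AX_poly E M x).Separable := by
  rw [separable_def]
  refine (isCoprime_iff_aeval_ne_zero_of_isAlgClosed (k := E) (AlgebraicClosure E) _ _).mpr ?_
  intro a
  by_cases h : aeval a (AX_poly E M x) = 0
  · right
    set ι := algebraMap E (AlgebraicClosure E) with hι
    have hME' : (M : AlgebraicClosure E) ≠ 0 := by
      have : ((M : ℕ) : AlgebraicClosure E) = ι (M : E) := by rw [map_natCast]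
      rw [this]
      exact fun h => hME (ι.injective (by rw [h, map_zero]))
    have hx0' : ι x ≠ 0 := fun h => hx0 (ι.injective (by rw [h, map_zero]))
    have hx1' : ι x ≠ 1728 := fun h => hx1 (ι.injective (by rw [h, map_ofNat]))
    have ha : (AX_poly (AlgebraicClosure E) M (ι x)).eval a = 0 := by
      rwa [aeval_def, eval₂_eq_eval_map, AX_poly_map] at h
    have := MU_derivative_ne_zero hM hME' hx0' hx1' ha
    rwa [← AX_poly_map, derivative_map, ← eval₂_eq_eval_map, ← aeval_def] at this
  · left; exact h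

end deriv

end Fermat.Agent.S18
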