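import Mathlib
import Fermat.Agent.S18.AuxPoly
import Fermat.Agent.S18.MuRoots
import Fermat.Agent.S18.MuSep

/-!
# S18, package DEG-k, part k2 (GAL): `k(μ)/k(x)` is Galois of degree `AX_deg M`

`k` a field with `M ≠ 0` in `k` (`M = 2` or `3`), `K₀ = k(x₀)` a purely transcendental extension
and `μ` (in an extension `Ω` of `K₀`) a root of `AX_poly K₀ M x₀ = num R_M − x₀ · den R_M`.

* `DG_gal_irreducible` : `AX_poly K₀ M x₀` is irreducible over `K₀` (Lüroth / Gauss lemma).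
* `DG_gal_separable` : it is separable.
* `DG_gal_finrank` : `[K₀(μ) : K₀] = AX_deg M`.
* `DG_gal_isGalois` : `K₀(μ) / K₀` is Galois (if `k` contains a primitive cube root of unity when
  `M = 3`).
-/

set_option autoImplicit false
set_option linter.style.haveILetI false

open Polynomial IntermediateField

namespace Fermat.Agent.S18

section numden

variable (R : Type*) [CommRing R]

/-- the numerator of `R_M`. -/
noncomputable def DG_num (M : ℕ) : R[X] :=
  if M = 2 then 256 * (X ^ 2 - X + 1) ^ 3 else 27 * (X ^ 3 * (X ^ 3 + 8) ^ 3)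

/-- the denominator of `R_M`. -/
noncomputable def DG_den (M : ℕ) : R[X] :=
  if M = 2 then X ^ 2 * (X - 1) ^ 2 else (X ^ 3 - 1) ^ 3

theorem DG_poly_eq (M : ℕ) (x : R) : AX_poly R M x = DG_num R M - C x * DG_den R M := by
  unfold AX_poly DG_num DG_den
  split_ifs <;> rfl

variable {R} in
theorem DG_num_map {S : Type*} [CommRing S] (f : R →+* S) (M : ℕ) :
    (DG_num R M).map f = DG_num S M := by
  unfold DG_num
  split_ifs <;> simp

variable {R} in
theorem DG_den_map {S : Type*} [CommRing S] (f : R →+* S) (M : ℕ) :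
    (DG_den R M).map f = DG_den S M := by
  unfold DG_den
  split_ifs <;> simp

theorem DG_den_monic (M : ℕ) : (DG_den R M).Monic := by
  nontriviality R
  unfold DG_den
  split_ifs
  · apply Monic.mul (monic_X_pow 2)
    apply Monic.pow
    exact monic_X_sub_C 1
  · apply Monic.pow
    monicity!

theorem DG_den_natDegree_lt [Nontrivial R] (M : ℕ) : (DG_den R M).natDegree < AX_deg M := by
  unfold DG_den AX_deg
  split_ifs
  · refine lt_of_le_of_lt (?_ : _ ≤ 4) (by norm_num)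
    compute_degree
  · refine lt_of_le_of_lt (?_ : _ ≤ 9) (by norm_num)
    compute_degree

theorem DG_num_natDegree_le (M : ℕ) : (DG_num R M).natDegree ≤ AX_deg M := by
  unfold DG_num AX_deg
  split_ifs
  · compute_degree
  · compute_degree

theorem DG_num_coeff (M : ℕ) : (DG_num R M).coeff (AX_deg M) = AX_lead M := by
  have h := AX_poly_coeff_deg R M 0
  rw [DG_poly_eq, C_0, zero_mul, sub_zero] at h
  exact h

theorem DG_num_natDegree {M : ℕ} (hlead : (AX_lead M : R) ≠ 0) :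
    (DG_num R M).natDegree = AX_deg M := by
  apply le_antisymm (DG_num_natDegree_le R M)
  apply le_natDegree_of_ne_zero
  rw [DG_num_coeff]
  exact hlead

end numden

section coprime

variable (k : Type*) [Field k]

theorem DG_coprime {M : ℕ} (hM : M = 2 ∨ M = 3) (hMk : (M : k) ≠ 0) :
    IsCoprime (DG_num k M) (DG_den k M) := by
  rcases hM with rfl | rfl
  · have h2 : (2 : k) ≠ 0 := by exact_mod_cast hMk
    have h256 : (256 : k) ≠ 0 := by
      have : (256 : k) = 2 ^ 8 := by norm_num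
      rw [this]; exact pow_ne_zero _ h2
    have hu : IsUnit (256 : k[X]) := by
      have : (256 : k[X]) = C 256 := (map_ofNat C 256).symm
      rw [this]
      exact (isUnit_C).mpr h256.isUnit
    have h1 : IsCoprime (X ^ 2 - X + 1 : k[X]) X := ⟨1, -(X - 1), by ring⟩
    have h3 : IsCoprime (X ^ 2 - X + 1 : k[X]) (X - 1) := ⟨1, -X, by ring⟩
    have h4 : IsCoprime ((X ^ 2 - X + 1 : k[X]) ^ 3) (X ^ 2 * (X - 1) ^ 2) :=
      IsCoprime.pow_left (IsCoprime.mul_right h1.pow_right h3.pow_right)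
    simp only [DG_num, DG_den, if_true]
    exact (isCoprime_mul_unit_left_left hu _ _).mpr h4
  · have h3 : (3 : k) ≠ 0 := by exact_mod_cast hMk
    have h27 : (27 : k) ≠ 0 := by
      have : (27 : k) = 3 ^ 3 := by norm_num
      rw [this]; exact pow_ne_zero _ h3
    have h9 : (9 : k) ≠ 0 := by
      have : (9 : k) = 3 ^ 2 := by norm_num
      rw [this]; exact pow_ne_zero _ h3
    have hu : IsUnit (27 : k[X]) := by
      have : (27 : k[X]) = C 27 := (map_ofNat C 27).symm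
      rw [this]
      exact (isUnit_C).mpr h27.isUnit
    have h1 : IsCoprime (X : k[X]) (X ^ 3 - 1) := ⟨X ^ 2, -1, by ring⟩
    have h2 : IsCoprime (X ^ 3 + 8 : k[X]) (X ^ 3 - 1) := by
      refine ⟨C (9 : k)⁻¹, -C (9 : k)⁻¹, ?_⟩
      have : (C (9 : k)⁻¹ : k[X]) * 9 = 1 := by
        have h : (9 : k[X]) = C 9 := (map_ofNat C 9).symm
        rw [h, ← C_mul, inv_mul_cancel₀ h9, C_1]
      linear_combination this
    have h4 : IsCoprime ((X : k[X]) ^ 3 * (X ^ 3 + 8) ^ 3) ((X ^ 3 - 1) ^ 3) :=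
      IsCoprime.pow_right (IsCoprime.mul_left h1.pow_left h2.pow_left)
    simp only [DG_num, DG_den, if_neg (show ¬ (3 = 2) by norm_num)]
    exact (isCoprime_mul_unit_left_left hu _ _).mpr h4

end coprime

section ratfunc

open scoped IntermediateField.algebraAdjoinAdjoin

variable {k : Type*} [Field k]

/-- numerator and denominator of `p / q` for coprime `p`, `q` with `q` monic. -/
theorem DG_ratfunc_num_denom {p q : k[X]} (hq : q.Monic) (hpq : IsCoprime p q) :
    (algebraMap k[X] (RatFunc k) p / algebraMap k[X] (RatFunc k) q).num = p ∧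
      (algebraMap k[X] (RatFunc k) p / algebraMap k[X] (RatFunc k) q).denom = q := by
  set f : RatFunc k := algebraMap k[X] (RatFunc k) p / algebraMap k[X] (RatFunc k) q with hf
  have hq0 : q ≠ 0 := hq.ne_zero
  have hdvd : f.denom ∣ q := RatFunc.denom_div_dvd _ _
  have hcross : f.num * q = p * f.denom := by
    have h := RatFunc.num_div_denom f
    have hd0 : algebraMap k[X] (RatFunc k) f.denom ≠ 0 :=
      RatFunc.algebraMap_ne_zero (RatFunc.denom_ne_zero _)
    have hq0' : algebraMap k[X] (RatFunc k) q ≠ 0 := RatFunc.algebraMap_ne_zero hq0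
    rw [hf, div_eq_div_iff hd0 hq0', ← hf, ← map_mul, ← map_mul] at h
    exact RatFunc.algebraMap_injective k h
  have hdvd' : q ∣ f.denom := by
    have : q ∣ p * f.denom := ⟨f.num, by rw [← hcross, mul_comm]⟩
    exact hpq.symm.dvd_of_dvd_mul_left this
  have hden : f.denom = q :=
    eq_of_monic_of_associated (RatFunc.monic_denom f) hq (associated_of_dvd_dvd hdvd hdvd')
  refine ⟨?_, hden⟩
  rw [hden] at hcross
  exact mul_right_cancel₀ hq0 hcross

variable (k) in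
/-- `R_M(X)` as an element of `k(X)`. -/
noncomputable def DG_f (M : ℕ) : RatFunc k :=
  algebraMap k[X] (RatFunc k) (DG_num k M) / algebraMap k[X] (RatFunc k) (DG_den k M)

theorem DG_f_num {M : ℕ} (hM : M = 2 ∨ M = 3) (hMk : (M : k) ≠ 0) :
    (DG_f k M).num = DG_num k M :=
  (DG_ratfunc_num_denom (DG_den_monic k M) (DG_coprime k hM hMk)).1

theorem DG_f_denom {M : ℕ} (hM : M = 2 ∨ M = 3) (hMk : (M : k) ≠ 0) :
    (DG_f k M).denom = DG_den k M :=
  (DG_ratfunc_num_denom (DG_den_monic k M) (DG_coprime k hM hMk)).2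

theorem DG_f_ne_C {M : ℕ} (hM : M = 2 ∨ M = 3) (hMk : (M : k) ≠ 0) :
    ¬ ∃ c, DG_f k M = RatFunc.C c := by
  rintro ⟨c, hc⟩
  have h1 := DG_f_num hM hMk
  rw [hc, RatFunc.num_C] at h1
  have h2 : (DG_num k M).natDegree = AX_deg M := DG_num_natDegree k (MU_lead_ne_zero hM hMk)
  rw [← h1, natDegree_C] at h2
  exact (AX_deg_pos M).ne h2

/-- the minimal polynomial of `X` over `k(R_M(X))` is `AX_poly`. -/
theorem DG_f_minpolyX {M : ℕ} (hM : M = 2 ∨ M = 3) (hMk : (M : k) ≠ 0) :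
    (DG_f k M).minpolyX k⟮DG_f k M⟯ = AX_poly k⟮DG_f k M⟯ M (AdjoinSimple.gen k (DG_f k M)) := by
  rw [RatFunc.minpolyX, DG_f_num hM hMk, DG_f_denom hM hMk, DG_num_map, DG_den_map, DG_poly_eq]
  rfl

theorem DG_f_irreducible {M : ℕ} (hM : M = 2 ∨ M = 3) (hMk : (M : k) ≠ 0) :
    Irreducible (AX_poly k⟮DG_f k M⟯ M (AdjoinSimple.gen k (DG_f k M))) := by
  rw [← DG_f_minpolyX hM hMk]
  exact RatFunc.irreducible_minpolyX _ (DG_f_ne_C hM hMk)

end ratfunc

section transport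

variable {k K₀ : Type*} [Field k] [Field K₀] [Algebra k K₀] {M : ℕ}

/-- **Lüroth step**: `AX_poly K₀ M x₀ = num R_M − x₀ · den R_M` is irreducible over
`K₀ = k(x₀)`, `x₀` transcendental over `k`. -/
theorem DG_gal_irreducible (hM : M = 2 ∨ M = 3) (hMk : (M : k) ≠ 0) {x₀ : K₀}
    (hx : Transcendental k x₀) (htop : IntermediateField.adjoin k {x₀} = ⊤) :
    Irreducible (AX_poly K₀ M x₀) := by
  have hf : Transcendental k (DG_f k M) :=
    RatFunc.transcendental_of_ne_C _ (DG_f_ne_C hM hMk)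
  let e₁ : RatFunc k ≃ₐ[k] k⟮DG_f k M⟯ := RatFunc.algEquivOfTranscendental (DG_f k M) hf
  let e₂ : RatFunc k ≃ₐ[k] k⟮x₀⟯ := RatFunc.algEquivOfTranscendental x₀ hx
  let e₃ : k⟮x₀⟯ ≃ₐ[k] K₀ := (IntermediateField.equivOfEq htop).trans IntermediateField.topEquiv
  let φ : k⟮DG_f k M⟯ ≃ₐ[k] K₀ := (e₁.symm.trans e₂).trans e₃
  have hφ : φ (AdjoinSimple.gen k (DG_f k M)) = x₀ := by
    change e₃ (e₂ (e₁.symm (AdjoinSimple.gen k (DG_f k M)))) = x₀
    rw [RatFunc.algEquivOfTranscendental_symm_gen]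
    change ((e₂ RatFunc.X : k⟮x₀⟯) : K₀) = x₀
    exact RatFunc.algEquivOfTranscendental_X x₀ hx
  have h := DG_f_irreducible hM hMk
  have hmap : (AX_poly k⟮DG_f k M⟯ M (AdjoinSimple.gen k (DG_f k M))).map
      (φ.toRingEquiv : k⟮DG_f k M⟯ →+* K₀) = AX_poly K₀ M x₀ := by
    rw [AX_poly_map]
    congr 1
  rw [← hmap]
  exact (MulEquiv.irreducible_iff (Polynomial.mapEquiv φ.toRingEquiv).toMulEquiv).mpr h

end transport

section galois

variable {k K₀ Ω : Type*} [Field k] [Field K₀] [Algebra k K₀] [Field Ω] [Algebra K₀ Ω] {M : ℕ}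

theorem DG_gal_natCast_ne_zero (hMk : (M : k) ≠ 0) : (M : K₀) ≠ 0 := by
  have : ((M : ℕ) : K₀) = algebraMap k K₀ (M : k) := by rw [map_natCast]
  rw [this]
  exact fun h => hMk ((algebraMap k K₀).injective (by rw [h, map_zero]))

theorem DG_gal_ne_of_transcendental {x₀ : K₀} (hx : Transcendental k x₀) (c : ℕ) :
    x₀ ≠ (c : K₀) := by
  intro h
  apply hx
  rw [h]
  have : ((c : ℕ) : K₀) = algebraMap k K₀ (c : k) := by rw [map_natCast]
  rw [this]
  exact isAlgebraic_algebraMap _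

/-- `AX_poly K₀ M x₀` is separable (`x₀` transcendental). -/
theorem DG_gal_separable (hM : M = 2 ∨ M = 3) (hMk : (M : k) ≠ 0) {x₀ : K₀}
    (hx : Transcendental k x₀) : (AX_poly K₀ M x₀).Separable := by
  refine MU_separable hM (DG_gal_natCast_ne_zero hMk) ?_ ?_
  · have := DG_gal_ne_of_transcendental hx 0
    simpa using this
  · have := DG_gal_ne_of_transcendental hx 1728
    simpa using this

theorem DG_gal_isIntegral (hM : M = 2 ∨ M = 3) (hMk : (M : k) ≠ 0) {x₀ : K₀} {μ : Ω}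
    (hμ : aeval μ (AX_poly K₀ M x₀) = 0) : IsIntegral K₀ μ :=
  isAlgebraic_iff_isIntegral.mp
    ⟨_, AX_poly_ne_zero K₀ M x₀ (MU_lead_ne_zero hM (DG_gal_natCast_ne_zero hMk)), hμ⟩

theorem DG_gal_minpoly (hM : M = 2 ∨ M = 3) (hMk : (M : k) ≠ 0) {x₀ : K₀}
    (hx : Transcendental k x₀) (htop : IntermediateField.adjoin k {x₀} = ⊤) {μ : Ω}
    (hμ : aeval μ (AX_poly K₀ M x₀) = 0) :
    minpoly K₀ μ = AX_poly K₀ M x₀ * C (AX_poly K₀ M x₀).leadingCoeff⁻¹ :=
  (minpoly.eq_of_irreducible (DG_gal_irreducible hM hMk hx htop) hμ).symm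

/-- **k2, degree**: `[K₀(μ) : K₀] = AX_deg M`. -/
theorem DG_gal_finrank (hM : M = 2 ∨ M = 3) (hMk : (M : k) ≠ 0) {x₀ : K₀}
    (hx : Transcendental k x₀) (htop : IntermediateField.adjoin k {x₀} = ⊤) {μ : Ω}
    (hμ : aeval μ (AX_poly K₀ M x₀) = 0) :
    Module.finrank K₀ K₀⟮μ⟯ = AX_deg M := by
  have hlead : (AX_lead M : K₀) ≠ 0 := MU_lead_ne_zero hM (DG_gal_natCast_ne_zero hMk)
  have h0 : AX_poly K₀ M x₀ ≠ 0 := AX_poly_ne_zero K₀ M x₀ hlead
  rw [IntermediateField.adjoin.finrank (DG_gal_isIntegral hM hMk hμ),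
    DG_gal_minpoly hM hMk hx htop hμ,
    natDegree_mul_C (inv_ne_zero (leadingCoeff_ne_zero.mpr h0)),
    AX_poly_natDegree K₀ M x₀ hlead]

/-- `K₀(μ)/K₀` is separable. -/
theorem DG_gal_isSeparable (hM : M = 2 ∨ M = 3) (hMk : (M : k) ≠ 0) {x₀ : K₀}
    (hx : Transcendental k x₀) {μ : Ω} (hμ : aeval μ (AX_poly K₀ M x₀) = 0) :
    Algebra.IsSeparable K₀ K₀⟮μ⟯ := by
  rw [IntermediateField.isSeparable_adjoin_simple_iff_isSeparable]
  exact (DG_gal_separable hM hMk hx).of_dvd (minpoly.dvd K₀ μ hμ)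

/-- `K₀(μ)/K₀` is normal: `K₀(μ)` is the splitting field of `AX_poly K₀ M x₀`. -/
theorem DG_gal_normal (hM : M = 2 ∨ M = 3) (hMk : (M : k) ≠ 0) {ω : K₀}
    (hω : M = 3 → ω ^ 2 + ω + 1 = 0) {x₀ : K₀} {μ : Ω}
    (hμ : aeval μ (AX_poly K₀ M x₀) = 0) : Normal K₀ K₀⟮μ⟯ := by
  have hMΩ : (M : Ω) ≠ 0 := by
    have : ((M : ℕ) : Ω) = algebraMap K₀ Ω (M : K₀) := by rw [map_natCast]
    rw [this]
    exact fun h => DG_gal_natCast_ne_zero (K₀ := K₀) hMk
      ((algebraMap K₀ Ω).injective (by rw [h, map_zero]))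
  have hω' : M = 3 → (algebraMap K₀ Ω ω) ^ 2 + algebraMap K₀ Ω ω + 1 = 0 := by
    intro h
    rw [← map_pow, ← map_add, ← map_one (algebraMap K₀ Ω), ← map_add, hω h, map_zero]
  have hμ' : (AX_poly Ω M (algebraMap K₀ Ω x₀)).eval μ = 0 := by
    rwa [aeval_def, eval₂_eq_eval_map, AX_poly_map] at hμ
  have hlead : (AX_lead M : K₀) ≠ 0 := MU_lead_ne_zero hM (DG_gal_natCast_ne_zero hMk)
  have h0 : AX_poly K₀ M x₀ ≠ 0 := AX_poly_ne_zero K₀ M x₀ hlead
  have hsplit : ((AX_poly K₀ M x₀).map (algebraMap K₀ Ω)).Splits := by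
    rw [AX_poly_map]
    exact MU_splits hM hMΩ hω' hμ'
  have hroot : IntermediateField.adjoin K₀ ((AX_poly K₀ M x₀).rootSet Ω) = K₀⟮μ⟯ := by
    apply le_antisymm
    · rw [IntermediateField.adjoin_le_iff]
      intro r hr
      rw [mem_rootSet] at hr
      have hr' : (AX_poly Ω M (algebraMap K₀ Ω x₀)).eval r = 0 := by
        have := hr.2
        rwa [aeval_def, eval₂_eq_eval_map, AX_poly_map] at this
      exact MU_orbit_mem_adjoin M ω μ (MU_mem_orbit_of_root hM hMΩ hω' hμ' hr')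
    · rw [IntermediateField.adjoin_simple_le_iff]
      apply IntermediateField.subset_adjoin
      rw [mem_rootSet]
      exact ⟨h0, hμ⟩
  have hsf := IntermediateField.adjoin_rootSet_isSplittingField hsplit
  rw [← hroot]
  exact Normal.of_isSplittingField (AX_poly K₀ M x₀)

/-- **k2, Galois**: `K₀(μ)/K₀` is Galois. -/
theorem DG_gal_isGalois (hM : M = 2 ∨ M = 3) (hMk : (M : k) ≠ 0) {ω : K₀}
    (hω : M = 3 → ω ^ 2 + ω + 1 = 0) {x₀ : K₀} (hx : Transcendental k x₀) {μ : Ω}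
    (hμ : aeval μ (AX_poly K₀ M x₀) = 0) : IsGalois K₀ K₀⟮μ⟯ :=
  haveI := DG_gal_isSeparable hM hMk hx hμ
  haveI := DG_gal_normal hM hMk hω hμ
  IsGalois.mk

end galois

section simple

variable {k Ω : Type*} [Field k] [Field Ω] [Algebra k Ω] {M : ℕ}

theorem DG_gal_gen_transcendental {x : Ω} (hx : Transcendental k x) :
    Transcendental k (AdjoinSimple.gen k x) := by
  intro h
  apply hx
  have := h.algHom (k⟮x⟯.val)
  simpa using this

theorem DG_gal_adjoin_gen_eq_top (x : Ω) :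
    IntermediateField.adjoin k {AdjoinSimple.gen k x} = (⊤ : IntermediateField k k⟮x⟯) := by
  apply IntermediateField.map_injective (k⟮x⟯.val)
  rw [IntermediateField.adjoin_map, Set.image_singleton, ← AlgHom.fieldRange_eq_map,
    IntermediateField.fieldRange_val]
  rfl

/-- **k2** for `K₀ = k(x) ⊆ Ω`, `μ ∈ Ω`, `x` transcendental over `k`, `R_M(μ) = x`:
`[k(x)(μ) : k(x)] = AX_deg M`. -/
theorem DG_gal_finrank_simple (hM : M = 2 ∨ M = 3) (hMk : (M : k) ≠ 0) {x μ : Ω}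
    (hx : Transcendental k x) (hμ : (AX_poly Ω M x).eval μ = 0) :
    Module.finrank k⟮x⟯ (k⟮x⟯⟮μ⟯) = AX_deg M := by
  refine DG_gal_finrank hM hMk (DG_gal_gen_transcendental hx) (DG_gal_adjoin_gen_eq_top x) ?_
  rw [aeval_def, eval₂_eq_eval_map, AX_poly_map]
  exact hμ

/-- **k2** for `K₀ = k(x) ⊆ Ω`: `k(x)(μ)/k(x)` is Galois. -/
theorem DG_gal_isGalois_simple (hM : M = 2 ∨ M = 3) (hMk : (M : k) ≠ 0) {ω : k}
    (hω : M = 3 → ω ^ 2 + ω + 1 = 0) {x μ : Ω}
    (hx : Transcendental k x) (hμ : (AX_poly Ω M x).eval μ = 0) :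
    IsGalois k⟮x⟯ (k⟮x⟯⟮μ⟯) := by
  refine DG_gal_isGalois (k := k) (ω := algebraMap k k⟮x⟯ ω) hM hMk ?_
    (DG_gal_gen_transcendental hx) ?_
  · intro h
    rw [← map_pow, ← map_add, ← map_one (algebraMap k k⟮x⟯), ← map_add, hω h, map_zero]
  · rw [aeval_def, eval₂_eq_eval_map, AX_poly_map]
    exact hμ

/-- if `μ` is transcendental over `k` and `R_M(μ) = x`, then `x` is transcendental over `k`. -/
theorem DG_gal_transcendental_of_root (hM : M = 2 ∨ M = 3) (hMk : (M : k) ≠ 0) {x μ : Ω}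
    (hμt : Transcendental k μ) (hμ : (AX_poly Ω M x).eval μ = 0) : Transcendental k x := by
  intro hx
  apply hμt
  have h1 : Algebra.IsAlgebraic k k⟮x⟯ :=
    IntermediateField.isAlgebraic_adjoin_simple hx.isIntegral
  have h2 : IsAlgebraic k⟮x⟯ μ := by
    refine ⟨AX_poly k⟮x⟯ M (AdjoinSimple.gen k x), ?_, ?_⟩
    · exact AX_poly_ne_zero _ M _ (MU_lead_ne_zero hM (DG_gal_natCast_ne_zero hMk))
    · rw [aeval_def, eval₂_eq_eval_map, AX_poly_map]
      exact hμ
  exact IsAlgebraic.restrictScalars (R := k) (S := k⟮x⟯) h2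

end simple

end Fermat.Agent.S18
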