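import Mathlib
import Fermat.Agent.S18.AuxPoly
import Fermat.Agent.S18.MuRoots
import Fermat.Agent.S18.MuSep
import Fermat.Agent.S18.DegGal

/-!
# S18, package DEG-k: maximality of `C₃` in the Galois group of `K₀(μ)/K₀` for `M = 3`

`K₁/K₀` Galois of degree `12`, `K₁ = K₀(μ)`, `μ` a root of `AX_poly K₀ 3 x₀`
(`27 μ³ (μ³ + 8)³ = x₀ (μ³ − 1)³`), `ω ∈ K₀` a primitive cube root of unity, `c ∈ Gal(K₁/K₀)` with
`c μ = ω μ`.  Then every subgroup of `Gal(K₁/K₀)` containing `c` is `⟨c⟩` or the whole group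
(`Gal ≅ A₄` has no subgroup of order `6`).

* `DG_max_group` : the abstract group theory (order `12`, `c` of order `3`, `⟨c⟩` not normal).
* `DG_max_three` : the statement for `Gal(K₁/K₀)`.
* `DG_max_three_field` : the same for intermediate fields `L ≤ K₁^⟨c⟩`.
-/

set_option autoImplicit false
set_option linter.style.haveILetI false
set_option linter.unusedSectionVars false

open Polynomial IntermediateField

namespace Fermat.Agent.S18

section group

/-- a group of order `12` in which `⟨c⟩` (of order `3`) is not normal: every subgroup containing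
`c` is `⟨c⟩` or the whole group. -/
theorem DG_max_group {G : Type*} [Group G] [Finite G] (hG : Nat.card G = 12) {c : G}
    (hc : orderOf c = 3) (hconj : ∃ g : G, g * c * g⁻¹ ∉ Subgroup.zpowers c)
    (H : Subgroup G) (hcH : c ∈ H) : H = Subgroup.zpowers c ∨ H = ⊤ := by
  have hPH : Subgroup.zpowers c ≤ H := Subgroup.zpowers_le.mpr hcH
  have hP : Nat.card (Subgroup.zpowers c) = 3 := by rw [Nat.card_zpowers, hc]
  have h3 : 3 ∣ Nat.card H := by
    rw [← hP]; exact Subgroup.card_dvd_of_le hPH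
  have h12 : Nat.card H ∣ 12 := by
    rw [← hG]; exact Subgroup.card_subgroup_dvd_card H
  have hcases : Nat.card H = 3 ∨ Nat.card H = 6 ∨ Nat.card H = 12 := by
    have hle : Nat.card H ≤ 12 := Nat.le_of_dvd (by norm_num) h12
    have hpos : 0 < Nat.card H := Nat.card_pos
    interval_cases h : Nat.card H <;> simp_all
  rcases hcases with h | h | h
  · left
    exact (Subgroup.eq_of_le_of_card_ge hPH (by rw [h, hP])).symm
  · exfalso
    have hidx : H.index = 2 := by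
      have := H.card_mul_index
      rw [h, hG] at this
      omega
    have hn : H.Normal := Subgroup.normal_of_index_eq_two hidx
    obtain ⟨g, hg⟩ := hconj
    have hyH : g * c * g⁻¹ ∈ H := hn.conj_mem c hcH g
    have hy3 : (g * c * g⁻¹) ^ 3 = 1 := by
      rw [conj_pow, ← hc, pow_orderOf_eq_one, mul_one, mul_inv_cancel]
    -- `⟨c⟩` has index `2` in `H`
    have hrel : (Subgroup.zpowers c).relIndex H = 2 := by
      have h1 := Subgroup.relIndex_mul_index hPH
      have h2 := (Subgroup.zpowers c).card_mul_index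
      rw [hP, hG] at h2
      rw [hidx] at h1
      omega
    have hsq : (⟨g * c * g⁻¹, hyH⟩ : H) ^ 2 ∈ (Subgroup.zpowers c).subgroupOf H :=
      Subgroup.sq_mem_of_index_two hrel _
    have hsq' : (g * c * g⁻¹) ^ 2 ∈ Subgroup.zpowers c := by
      rw [Subgroup.mem_subgroupOf] at hsq
      simpa using hsq
    apply hg
    have : g * c * g⁻¹ = ((g * c * g⁻¹) ^ 2) ^ 2 := by
      rw [← pow_mul]
      calc g * c * g⁻¹ = (g * c * g⁻¹) ^ 3 * (g * c * g⁻¹) := by rw [hy3, one_mul]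
        _ = (g * c * g⁻¹) ^ (2 * 2) := by rw [← pow_succ]
    rw [this]
    exact Subgroup.pow_mem _ hsq' 2
  · right
    exact Subgroup.eq_top_of_card_eq H (by rw [h, hG])

end group

section moebius

variable {E : Type*} [Field E]

/-- `S (S u) = u`. -/
theorem DG_max_S_S (h3 : (3 : E) ≠ 0) {u : E} (hu : u - 1 ≠ 0) : MU_S (MU_S u) = u := by
  have h1 : MU_S u - 1 = 3 / (u - 1) := by
    rw [MU_S]; field_simp; ring
  have h2 : MU_S u - 1 ≠ 0 := by
    rw [h1]; exact div_ne_zero h3 hu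
  rw [MU_S, div_eq_iff h2, MU_S]
  field_simp
  ring

/-- the Möbius identity `S (ω · S u) = ω² · S (ω² · u)`. -/
theorem DG_max_S_w_S {w : E} (hw : w ^ 2 + w + 1 = 0) {u : E} (hu : u - 1 ≠ 0)
    (h1 : w * MU_S u - 1 ≠ 0) (h2 : w ^ 2 * u - 1 ≠ 0) :
    MU_S (w * MU_S u) = w ^ 2 * MU_S (w ^ 2 * u) := by
  have hd : w * MU_S u - 1 = ((w - 1) * u + 2 * w + 1) / (u - 1) := by
    rw [MU_S]; field_simp; ring
  have hd' : (w - 1) * u + 2 * w + 1 ≠ 0 := by
    intro h
    apply h1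
    rw [hd, h, zero_div]
  have hn : w * MU_S u + 2 = ((w + 2) * u + 2 * w - 2) / (u - 1) := by
    rw [MU_S]; field_simp; ring
  have hL : MU_S (w * MU_S u) = ((w + 2) * u + 2 * w - 2) / ((w - 1) * u + 2 * w + 1) := by
    rw [MU_S, hd, hn]
    field_simp
  have hR : w ^ 2 * MU_S (w ^ 2 * u) = w ^ 2 * (w ^ 2 * u + 2) / (w ^ 2 * u - 1) := by
    rw [MU_S, mul_div_assoc]
  rw [hL, hR, div_eq_div_iff hd' h2]
  linear_combination ((-w ^ 3 + 2 * w ^ 2) * u ^ 2 + (-2 * w ^ 3 + w ^ 2 + w - 2) * u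
    + (-4 * w + 2)) * hw

end moebius

section three

variable {K₀ K₁ : Type*} [Field K₀] [Field K₁] [Algebra K₀ K₁] {ω x₀ : K₀} {μ : K₁}

/-- an automorphism is determined by its value at a generator. -/
theorem DG_max_ext (hμ : aeval μ (AX_poly K₀ 3 x₀) = 0) (h3 : (3 : K₀) ≠ 0)
    (hgen : K₀⟮μ⟯ = ⊤) {g g' : K₁ ≃ₐ[K₀] K₁} (h : g μ = g' μ) : g = g' := by
  have hlead : (AX_lead 3 : K₀) ≠ 0 := MU_lead_ne_zero (Or.inr rfl) (by exact_mod_cast h3)
  have halg : IsAlgebraic K₀ μ := ⟨_, AX_poly_ne_zero K₀ 3 x₀ hlead, hμ⟩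
  have htop : Algebra.adjoin K₀ {μ} = ⊤ :=
    (IntermediateField.adjoin_simple_eq_top_iff_of_isAlgebraic halg).mp hgen
  have : g.toAlgHom = g'.toAlgHom := by
    apply AlgHom.ext_of_adjoin_eq_top htop
    intro x hx
    rw [Set.mem_singleton_iff] at hx
    subst hx
    exact h
  exact AlgEquiv.coe_toAlgHom_injective this

variable [FiniteDimensional K₀ K₁] [IsGalois K₀ K₁]

/-- the Galois group acts transitively on the roots of `AX_poly` (degree `12`). -/
theorem DG_max_trans (hμ : aeval μ (AX_poly K₀ 3 x₀) = 0) (h3 : (3 : K₀) ≠ 0)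
    (hgen : K₀⟮μ⟯ = ⊤) (hfr : Module.finrank K₀ K₁ = 12) {r : K₁}
    (hr : aeval r (AX_poly K₀ 3 x₀) = 0) : ∃ g : K₁ ≃ₐ[K₀] K₁, g μ = r := by
  have hlead : (AX_lead 3 : K₀) ≠ 0 := MU_lead_ne_zero (Or.inr rfl) (by exact_mod_cast h3)
  have h0 : AX_poly K₀ 3 x₀ ≠ 0 := AX_poly_ne_zero K₀ 3 x₀ hlead
  have hint : IsIntegral K₀ μ := isAlgebraic_iff_isIntegral.mp ⟨_, h0, hμ⟩
  have hdeg : (minpoly K₀ μ).natDegree = 12 := by
    rw [← IntermediateField.adjoin.finrank hint, hgen, IntermediateField.finrank_top', hfr]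
  have hdvd : minpoly K₀ μ ∣ AX_poly K₀ 3 x₀ := minpoly.dvd K₀ μ hμ
  obtain ⟨q, hq⟩ := hdvd
  have hqdeg : q.natDegree = 0 := by
    have hq0 : q ≠ 0 := by
      rintro rfl
      rw [mul_zero] at hq
      exact h0 hq
    have := congrArg natDegree hq
    rw [natDegree_mul (minpoly.ne_zero hint) hq0, hdeg, AX_poly_natDegree K₀ 3 x₀ hlead] at this
    simp only [AX_deg] at this
    norm_num at this
    omega
  have hroot : aeval r (minpoly K₀ μ) = 0 := by
    rw [hq, map_mul] at hr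
    rcases mul_eq_zero.mp hr with h | h
    · exact h
    · exfalso
      rw [natDegree_eq_zero] at hqdeg
      obtain ⟨a, rfl⟩ := hqdeg
      rw [aeval_C] at h
      have ha : a = 0 := (algebraMap K₀ K₁).injective (by rw [h, map_zero])
      rw [ha, C_0, mul_zero] at hq
      exact h0 hq
  obtain ⟨σ, hσ⟩ := (isConjRoot_of_aeval_eq_zero hint hroot).exists_algEquiv
  exact ⟨σ.symm, by rw [← hσ, AlgEquiv.symm_apply_apply]⟩

/-- **hmax, `M = 3`**: every subgroup of `Gal(K₁/K₀)` containing `c : μ ↦ ω μ` is `⟨c⟩` or `⊤`. -/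
theorem DG_max_three (hμ : aeval μ (AX_poly K₀ 3 x₀) = 0) (h3 : (3 : K₀) ≠ 0)
    (hω : ω ^ 2 + ω + 1 = 0) (hsep : (AX_poly K₀ 3 x₀).Separable)
    (hgen : K₀⟮μ⟯ = ⊤) (hfr : Module.finrank K₀ K₁ = 12)
    {c : K₁ ≃ₐ[K₀] K₁} (hc : c μ = algebraMap K₀ K₁ ω * μ)
    (H : Subgroup (K₁ ≃ₐ[K₀] K₁)) (hcH : c ∈ H) : H = Subgroup.zpowers c ∨ H = ⊤ := by
  set w : K₁ := algebraMap K₀ K₁ ω with hwdef
  have hw : w ^ 2 + w + 1 = 0 := by
    rw [hwdef, ← map_pow, ← map_add, ← map_one (algebraMap K₀ K₁), ← map_add, hω, map_zero]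
  have hw3 : w ^ 3 = 1 := MU_omega_cube hw
  have h3' : (3 : K₁) ≠ 0 := by
    have : (3 : K₁) = algebraMap K₀ K₁ 3 := by rw [map_ofNat]
    rw [this]
    exact fun h => h3 ((algebraMap K₀ K₁).injective (by rw [h, map_zero]))
  have h3N : ((3 : ℕ) : K₁) ≠ 0 := by exact_mod_cast h3'
  have hμ' : (AX_poly K₁ 3 (algebraMap K₀ K₁ x₀)).eval μ = 0 := by
    rwa [aeval_def, eval₂_eq_eval_map, AX_poly_map] at hμ
  have hω' : (3 : ℕ) = 3 → w ^ 2 + w + 1 = 0 := fun _ => hw
  -- roots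
  have hroot_of_mem : ∀ r ∈ MU_orbit3 w μ, aeval r (AX_poly K₀ 3 x₀) = 0 := by
    intro r hr
    rw [aeval_def, eval₂_eq_eval_map, AX_poly_map]
    exact MU_eval_orbit (Or.inr rfl) h3N hω' hμ' (by rw [MU_orbit_three]; exact hr)
  have hne_of_mem : ∀ r ∈ MU_orbit3 w μ, r - 1 ≠ 0 := by
    intro r hr
    have h1 := hroot_of_mem r hr
    rw [aeval_def, eval₂_eq_eval_map, AX_poly_map] at h1
    have h2 := MU_ne_three h3' h1
    intro h
    apply h2
    have : r = 1 := by linear_combination h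
    rw [this]; ring
  -- the list of roots has no duplicates
  have hnd : (MU_orbit3 w μ).Nodup := by
    have h1 : ((AX_poly K₀ 3 x₀).map (algebraMap K₀ K₁)).Separable := hsep.map
    rw [AX_poly_map] at h1
    have h2 := nodup_roots h1
    rw [MU_roots (Or.inr rfl) h3N hω' hμ', MU_orbit_three] at h2
    exact Multiset.coe_nodup.mp h2
  -- membership facts
  have hm_Sμ : MU_S μ ∈ MU_orbit3 w μ := by simp [MU_orbit3, MU_tri]
  have hm_wSμ : w * MU_S μ ∈ MU_orbit3 w μ := by simp [MU_orbit3, MU_tri]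
  have hm_μ : μ ∈ MU_orbit3 w μ := by simp [MU_orbit3, MU_tri]
  have hm_w2μ : w ^ 2 * μ ∈ MU_orbit3 w μ := by simp [MU_orbit3, MU_tri]
  -- the involution `s`
  obtain ⟨s, hs⟩ := DG_max_trans hμ h3 hgen hfr (hroot_of_mem _ hm_Sμ)
  have hgS : ∀ (g : K₁ ≃ₐ[K₀] K₁) (u : K₁), g (MU_S u) = MU_S (g u) := by
    intro g u
    simp only [MU_S, map_div₀, map_add, map_sub, map_one, map_ofNat]
  have hgw : ∀ (g : K₁ ≃ₐ[K₀] K₁) (u : K₁), g (w * u) = w * g u := by
    intro g u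
    rw [map_mul, hwdef, AlgEquiv.commutes]
  have hss : s * s = 1 := by
    apply DG_max_ext hμ h3 hgen
    rw [AlgEquiv.mul_apply, hs, hgS, hs, AlgEquiv.one_apply]
    exact DG_max_S_S h3' (hne_of_mem _ hm_μ)
  have hsinv : s⁻¹ = s := inv_eq_of_mul_eq_one_left hss
  -- `c` has order `3`
  have hcpow : ∀ n : ℕ, (c ^ n) μ = w ^ n * μ := by
    intro n
    induction n with
    | zero => simp
    | succ n ih => rw [pow_succ, AlgEquiv.mul_apply, hc, hgw, ih]; ring
  have hc3 : c ^ 3 = 1 := by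
    apply DG_max_ext hμ h3 hgen
    rw [hcpow, hw3, one_mul, AlgEquiv.one_apply]
  have hnd' := hnd
  simp only [MU_orbit3, MU_tri, List.cons_append, List.nil_append, List.nodup_cons,
    List.mem_cons, List.not_mem_nil, or_false, not_or] at hnd'
  have hc1 : c ≠ 1 := by
    intro h
    have := hc
    rw [h, AlgEquiv.one_apply] at this
    exact hnd'.1.1 this
  have hord : orderOf c = 3 := by
    haveI : Fact (Nat.Prime 3) := ⟨by norm_num⟩
    exact orderOf_eq_prime hc3 hc1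
  have hcard : Nat.card (K₁ ≃ₐ[K₀] K₁) = 12 := by
    rw [IsGalois.card_aut_eq_finrank, hfr]
  refine DG_max_group hcard hord ⟨s, ?_⟩ H hcH
  -- `s c s⁻¹ μ = ω² S(ω² μ)` is not of the form `ωⁿ μ`
  have hy : (s * c * s⁻¹) μ = w ^ 2 * MU_S (w ^ 2 * μ) := by
    rw [hsinv, AlgEquiv.mul_apply, AlgEquiv.mul_apply, hs, hgS, hc, hgS, hgw, hs]
    exact DG_max_S_w_S hw (hne_of_mem _ hm_μ) (hne_of_mem _ hm_wSμ) (hne_of_mem _ hm_w2μ)
  intro hmem
  obtain ⟨n, hn⟩ := (Submonoid.mem_powers_iff _ _).mp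
    ((isOfFinOrder_of_finite c).mem_powers_iff_mem_zpowers.mpr hmem)
  have hval : w ^ 2 * MU_S (w ^ 2 * μ) = w ^ n * μ := by
    rw [← hy, ← hn, hcpow]
  have hmod : w ^ n = w ^ (n % 3) := by
    conv_lhs => rw [← Nat.mod_add_div n 3, pow_add, pow_mul, hw3, one_pow, mul_one]
  rw [hmod] at hval
  have hlt : n % 3 < 3 := Nat.mod_lt _ (by norm_num)
  obtain ⟨⟨-, -, -, -, -, -, -, -, -, -, e1⟩, ⟨-, -, -, -, -, -, -, -, -, e2⟩,
    ⟨-, -, -, -, -, -, -, -, e3⟩, -⟩ := hnd'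
  interval_cases h : n % 3
  · rw [pow_zero, one_mul] at hval
    exact e1 hval.symm
  · rw [pow_one] at hval
    exact e2 hval.symm
  · exact e3 hval.symm

/-- **hmax, `M = 3`, field form**: there is no field strictly between `K₀` and `K₁^⟨c⟩`. -/
theorem DG_max_three_field (hμ : aeval μ (AX_poly K₀ 3 x₀) = 0) (h3 : (3 : K₀) ≠ 0)
    (hω : ω ^ 2 + ω + 1 = 0) (hsep : (AX_poly K₀ 3 x₀).Separable)
    (hgen : K₀⟮μ⟯ = ⊤) (hfr : Module.finrank K₀ K₁ = 12)
    {c : K₁ ≃ₐ[K₀] K₁} (hc : c μ = algebraMap K₀ K₁ ω * μ)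
    (L : IntermediateField K₀ K₁) (hL : L ≤ IntermediateField.fixedField (Subgroup.zpowers c)) :
    L = ⊥ ∨ L = IntermediateField.fixedField (Subgroup.zpowers c) := by
  have hcL : c ∈ L.fixingSubgroup := by
    have := IntermediateField.fixingSubgroup_antitone hL
    rw [IntermediateField.fixingSubgroup_fixedField] at this
    exact this (Subgroup.mem_zpowers c)
  rcases DG_max_three hμ h3 hω hsep hgen hfr hc L.fixingSubgroup hcL with h | h
  · right
    rw [← h, IsGalois.fixedField_fixingSubgroup]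
  · left
    have := IsGalois.fixedField_fixingSubgroup L
    rw [h, IsGalois.fixedField_top] at this
    exact this.symm

end three

section prime

/-- if `[G : ⟨c⟩]` is prime, every subgroup containing `c` is `⟨c⟩` or the whole group. -/
theorem DG_max_group_prime {G : Type*} [Group G] [Finite G] {c : G} {p : ℕ} (hp : p.Prime)
    (hG : Nat.card G = p * orderOf c) (H : Subgroup G) (hcH : c ∈ H) :
    H = Subgroup.zpowers c ∨ H = ⊤ := by
  have hPH : Subgroup.zpowers c ≤ H := Subgroup.zpowers_le.mpr hcH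
  have hP : Nat.card (Subgroup.zpowers c) = orderOf c := Nat.card_zpowers c
  have hpos : 0 < orderOf c := orderOf_pos c
  have h1 := Subgroup.relIndex_mul_index hPH
  have h2 := (Subgroup.zpowers c).card_mul_index
  rw [hP, hG] at h2
  have hidx : (Subgroup.zpowers c).index = p := by
    have : orderOf c * (Subgroup.zpowers c).index = orderOf c * p := by rw [h2, mul_comm]
    exact Nat.eq_of_mul_eq_mul_left hpos this
  rw [hidx] at h1
  have hdvd : H.index ∣ p := ⟨_, by rw [← h1, mul_comm]⟩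
  rcases (Nat.dvd_prime hp).mp hdvd with h | h
  · right
    exact Subgroup.index_eq_one.mp h
  · left
    have hrel : (Subgroup.zpowers c).relIndex H = 1 := by
      rw [h] at h1
      have : (Subgroup.zpowers c).relIndex H * p = 1 * p := by rw [h1, one_mul]
      exact Nat.eq_of_mul_eq_mul_right hp.pos this
    exact le_antisymm (Subgroup.relIndex_eq_one.mp hrel) hPH

end prime

section adjoin

variable {k K₀ Ω : Type*} [Field k] [Field K₀] [Algebra k K₀] [Field Ω] [Algebra K₀ Ω]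

/-- **hmax, `M = 3`** for `K₁ = K₀(μ) ⊆ Ω`, `K₀ = k(x₀)`: every subgroup of `Gal(K₀(μ)/K₀)`
containing `c : μ ↦ ω μ` is `⟨c⟩` or `⊤`. -/
theorem DG_max_three_adjoin (h3k : ((3 : ℕ) : k) ≠ 0) {ω x₀ : K₀} (hω : ω ^ 2 + ω + 1 = 0)
    (hx : Transcendental k x₀) (htop : IntermediateField.adjoin k {x₀} = ⊤) {μ : Ω}
    (hμ : aeval μ (AX_poly K₀ 3 x₀) = 0) {c : K₀⟮μ⟯ ≃ₐ[K₀] K₀⟮μ⟯}
    (hc : c (AdjoinSimple.gen K₀ μ) = algebraMap K₀ K₀⟮μ⟯ ω * AdjoinSimple.gen K₀ μ)
    (H : Subgroup (K₀⟮μ⟯ ≃ₐ[K₀] K₀⟮μ⟯)) (hcH : c ∈ H) : H = Subgroup.zpowers c ∨ H = ⊤ := by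
  have hM : (3 : ℕ) = 2 ∨ (3 : ℕ) = 3 := Or.inr rfl
  have h3 : (3 : K₀) ≠ 0 := by
    have := DG_gal_natCast_ne_zero (K₀ := K₀) h3k
    exact_mod_cast this
  haveI : FiniteDimensional K₀ K₀⟮μ⟯ :=
    IntermediateField.adjoin.finiteDimensional (DG_gal_isIntegral hM h3k hμ)
  haveI : IsGalois K₀ K₀⟮μ⟯ := DG_gal_isGalois hM h3k (fun _ => hω) hx hμ
  have hμ' : aeval (AdjoinSimple.gen K₀ μ) (AX_poly K₀ 3 x₀) = 0 := by
    apply (algebraMap K₀⟮μ⟯ Ω).injective
    rw [map_zero, ← aeval_algebraMap_apply]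
    exact hμ
  have hfr : Module.finrank K₀ K₀⟮μ⟯ = 12 := by
    rw [DG_gal_finrank hM h3k hx htop hμ]
    rfl
  exact DG_max_three hμ' h3 hω (DG_gal_separable hM h3k hx) (DG_gal_adjoin_gen_eq_top μ) hfr hc
    H hcH

end adjoin

end Fermat.Agent.S18
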