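import Mathlib
import Fermat.Agent.S18.AuxPoly
import Fermat.Agent.S18.MuRoots
import Fermat.Agent.S18.MuSep
import Fermat.Agent.S18.DegGal
import Fermat.Agent.S18.DegMax

/-!
# S18, package DEG-k, part k4 (group part): `DG_gal_hX`

`K₀ = k(x₀)`, `K₁ = K₀(μ)` with `R_M(μ) = x₀` (Galois over `K₀` with group `S₃` resp. `A₄`),
`σ` a ring endomorphism of a field `Ω ⊇ K₀` fixing `K₀`, moving every root of `AX_poly` in `Ω` and
with `σ^M` fixing these roots.  If `e ∈ K₁` has all its images in `Ω` fixed by `σ`, then `e ∈ K₀`.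

Proof: `σ` induces an element `c` of order `M` of `G = Gal(K₁/K₀)`; the stabiliser of `e` contains
all conjugates of `c`, and the normal closure of `c` is `G`.
-/

set_option autoImplicit false
set_option linter.style.haveILetI false
set_option linter.unusedSectionVars false
set_option linter.unusedVariables false

open Polynomial IntermediateField

namespace Fermat.Agent.S18

section group

variable {G : Type*} [Group G]

/-- a cyclic subgroup is normal as soon as the conjugates of its generator lie in it. -/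
theorem DG_galX_zpowers_normal {c : G} (h : ∀ g : G, g * c * g⁻¹ ∈ Subgroup.zpowers c) :
    (Subgroup.zpowers c).Normal := by
  constructor
  intro x hx g
  obtain ⟨n, rfl⟩ := Subgroup.mem_zpowers_iff.mp hx
  have : g * c ^ n * g⁻¹ = (g * c * g⁻¹) ^ n := by
    rw [conj_zpow]
  rw [this]
  exact Subgroup.zpow_mem _ (h g) n

variable [Finite G]

/-- an element whose order is prime to the index of a normal subgroup lies in it. -/
theorem DG_galX_mem_of_coprime (P : Subgroup G) [P.Normal] {y : G} {m : ℕ} (hy : y ^ m = 1)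
    (hcop : Nat.Coprime m P.index) : y ∈ P := by
  have h1 : (QuotientGroup.mk y : G ⧸ P) ^ m = 1 := by
    rw [← QuotientGroup.mk_pow, hy]; rfl
  have h2 : (QuotientGroup.mk y : G ⧸ P) ^ P.index = 1 := by
    rw [Subgroup.index_eq_card]
    exact pow_card_eq_one'
  have h3 : orderOf (QuotientGroup.mk y : G ⧸ P) ∣ Nat.gcd m P.index :=
    Nat.dvd_gcd (orderOf_dvd_of_pow_eq_one h1) (orderOf_dvd_of_pow_eq_one h2)
  rw [hcop.gcd_eq_one, Nat.dvd_one, orderOf_eq_one_iff] at h3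
  exact (QuotientGroup.eq_one_iff y).mp h3

/-- **group lemma**: if some subgroup of prime order `M` (index prime to `M`) is not normal, and
subgroups containing an element `c` of order `M` are `⟨c⟩` or `⊤` (maximality), then the normal
closure of every element of order `M` is the whole group. -/
theorem DG_galX_normalClosure {M q : ℕ} (hG : Nat.card G = q * M) (hcop : Nat.Coprime M q)
    (hmax : ∀ c : G, orderOf c = M → (∃ g : G, g * c * g⁻¹ ∉ Subgroup.zpowers c) →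
      ∀ H : Subgroup G, c ∈ H → H = Subgroup.zpowers c ∨ H = ⊤)
    {c₁ : G} (hc₁ : orderOf c₁ = M) (hw : ∃ g : G, g * c₁ * g⁻¹ ∉ Subgroup.zpowers c₁)
    {c : G} (hc : orderOf c = M) : Subgroup.normalClosure {c} = ⊤ := by
  have hex : ∃ g : G, g * c * g⁻¹ ∉ Subgroup.zpowers c := by
    by_contra hcon
    simp only [not_exists, not_not] at hcon
    haveI : (Subgroup.zpowers c).Normal := DG_galX_zpowers_normal hcon
    have hidx : (Subgroup.zpowers c).index = q := by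
      have h2 := (Subgroup.zpowers c).card_mul_index
      rw [Nat.card_zpowers, hc, hG, mul_comm] at h2
      have hMpos : 0 < M := by rw [← hc]; exact orderOf_pos c
      exact Nat.eq_of_mul_eq_mul_right hMpos h2
    have hmem : c₁ ∈ Subgroup.zpowers c := by
      refine DG_galX_mem_of_coprime (Subgroup.zpowers c) (m := M) ?_ (by rw [hidx]; exact hcop)
      rw [← hc₁]; exact pow_orderOf_eq_one c₁
    have heq : Subgroup.zpowers c₁ = Subgroup.zpowers c :=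
      Subgroup.eq_of_le_of_card_ge (Subgroup.zpowers_le.mpr hmem)
        (by rw [Nat.card_zpowers, Nat.card_zpowers, hc, hc₁])
    obtain ⟨g, hg⟩ := hw
    apply hg
    rw [heq]
    exact this.conj_mem c₁ hmem g
  have hcN : c ∈ Subgroup.normalClosure {c} :=
    Subgroup.subset_normalClosure (Set.mem_singleton c)
  rcases hmax c hc hex _ hcN with h | h
  · exfalso
    obtain ⟨g, hg⟩ := hex
    apply hg
    rw [← h]
    exact (Subgroup.normalClosure_normal).conj_mem c hcN g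
  · exact h

end group

section galois

variable {K₀ K₁ : Type*} [Field K₀] [Field K₁] [Algebra K₀ K₁] {M : ℕ} {ω x₀ : K₀} {μ : K₁}

/-- an automorphism is determined by its value at a generator. -/
theorem DG_galX_ext (hM : M = 2 ∨ M = 3) (hMK : (M : K₀) ≠ 0)
    (hμ : aeval μ (AX_poly K₀ M x₀) = 0)
    (hgen : K₀⟮μ⟯ = ⊤) {g g' : K₁ ≃ₐ[K₀] K₁} (h : g μ = g' μ) : g = g' := by
  have hlead : (AX_lead M : K₀) ≠ 0 := MU_lead_ne_zero hM hMK
  have halg : IsAlgebraic K₀ μ := ⟨_, AX_poly_ne_zero K₀ M x₀ hlead, hμ⟩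
  have htop : Algebra.adjoin K₀ {μ} = ⊤ :=
    (IntermediateField.adjoin_simple_eq_top_iff_of_isAlgebraic halg).mp hgen
  have : g.toAlgHom = g'.toAlgHom := by
    apply AlgHom.ext_of_adjoin_eq_top htop
    intro x hx
    rw [Set.mem_singleton_iff] at hx
    subst hx
    exact h
  exact AlgEquiv.coe_toAlgHom_injective this

/-- the roots of `AX_poly` are the roots of the minimal polynomial of `μ` (degree `AX_deg M`). -/
theorem DG_galX_minpoly_root (hM : M = 2 ∨ M = 3) (hMK : (M : K₀) ≠ 0)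
    (hμ : aeval μ (AX_poly K₀ M x₀) = 0)
    (hgen : K₀⟮μ⟯ = ⊤) (hfr : Module.finrank K₀ K₁ = AX_deg M) {Ω : Type*} [Field Ω]
    [Algebra K₀ Ω] {r : Ω}
    (hr : aeval r (AX_poly K₀ M x₀) = 0) : aeval r (minpoly K₀ μ) = 0 := by
  have hlead : (AX_lead M : K₀) ≠ 0 := MU_lead_ne_zero hM hMK
  have h0 : AX_poly K₀ M x₀ ≠ 0 := AX_poly_ne_zero K₀ M x₀ hlead
  have hint : IsIntegral K₀ μ := isAlgebraic_iff_isIntegral.mp ⟨_, h0, hμ⟩
  have hdeg : (minpoly K₀ μ).natDegree = AX_deg M := by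
    rw [← IntermediateField.adjoin.finrank hint, hgen, IntermediateField.finrank_top', hfr]
  have hdvd : minpoly K₀ μ ∣ AX_poly K₀ M x₀ := minpoly.dvd K₀ μ hμ
  obtain ⟨q, hq⟩ := hdvd
  have hqdeg : q.natDegree = 0 := by
    have hq0 : q ≠ 0 := by
      rintro rfl
      rw [mul_zero] at hq
      exact h0 hq
    have := congrArg natDegree hq
    rw [natDegree_mul (minpoly.ne_zero hint) hq0, hdeg, AX_poly_natDegree K₀ M x₀ hlead] at this
    omega
  rw [hq, map_mul] at hr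
  rcases mul_eq_zero.mp hr with h | h
  · exact h
  · exfalso
    rw [natDegree_eq_zero] at hqdeg
    obtain ⟨a, rfl⟩ := hqdeg
    rw [aeval_C] at h
    have ha : a = 0 := (algebraMap K₀ Ω).injective (by rw [h, map_zero])
    rw [ha, C_0, mul_zero] at hq
    exact h0 hq

variable [FiniteDimensional K₀ K₁] [IsGalois K₀ K₁]

/-- the Galois group acts transitively on the roots of `AX_poly`. -/
theorem DG_galX_trans (hM : M = 2 ∨ M = 3) (hMK : (M : K₀) ≠ 0)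
    (hμ : aeval μ (AX_poly K₀ M x₀) = 0)
    (hgen : K₀⟮μ⟯ = ⊤) (hfr : Module.finrank K₀ K₁ = AX_deg M) {r : K₁}
    (hr : aeval r (AX_poly K₀ M x₀) = 0) : ∃ g : K₁ ≃ₐ[K₀] K₁, g μ = r := by
  have hlead : (AX_lead M : K₀) ≠ 0 := MU_lead_ne_zero hM hMK
  have h0 : AX_poly K₀ M x₀ ≠ 0 := AX_poly_ne_zero K₀ M x₀ hlead
  have hint : IsIntegral K₀ μ := isAlgebraic_iff_isIntegral.mp ⟨_, h0, hμ⟩
  have hroot := DG_galX_minpoly_root hM hMK hμ hgen hfr hr
  obtain ⟨σ, hσ⟩ := (isConjRoot_of_aeval_eq_zero hint hroot).exists_algEquiv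
  exact ⟨σ.symm, by rw [← hσ, AlgEquiv.symm_apply_apply]⟩

/-- the list of roots has no duplicates. -/
theorem DG_galX_nodup (hM : M = 2 ∨ M = 3) (hMK : (M : K₀) ≠ 0)
    (hω : M = 3 → ω ^ 2 + ω + 1 = 0) (hsep : (AX_poly K₀ M x₀).Separable)
    (hμ : aeval μ (AX_poly K₀ M x₀) = 0) :
    (MU_orbit M (algebraMap K₀ K₁ ω) μ).Nodup := by
  have hMK₁ : (M : K₁) ≠ 0 := by
    have : ((M : ℕ) : K₁) = algebraMap K₀ K₁ (M : K₀) := by rw [map_natCast]
    rw [this]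
    exact fun h => hMK ((algebraMap K₀ K₁).injective (by rw [h, map_zero]))
  have hω' : M = 3 → (algebraMap K₀ K₁ ω) ^ 2 + algebraMap K₀ K₁ ω + 1 = 0 := by
    intro h
    rw [← map_pow, ← map_add, ← map_one (algebraMap K₀ K₁), ← map_add, hω h, map_zero]
  have hμ' : (AX_poly K₁ M (algebraMap K₀ K₁ x₀)).eval μ = 0 := by
    rwa [aeval_def, eval₂_eq_eval_map, AX_poly_map] at hμ
  have h1 : ((AX_poly K₀ M x₀).map (algebraMap K₀ K₁)).Separable := hsep.map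
  rw [AX_poly_map] at h1
  have h2 := nodup_roots h1
  rw [MU_roots hM hMK₁ hω' hμ'] at h2
  exact Multiset.coe_nodup.mp h2

/-- every element of the orbit is a root. -/
theorem DG_galX_root_of_mem (hM : M = 2 ∨ M = 3) (hMK : (M : K₀) ≠ 0)
    (hω : M = 3 → ω ^ 2 + ω + 1 = 0)
    (hμ : aeval μ (AX_poly K₀ M x₀) = 0) {r : K₁}
    (hr : r ∈ MU_orbit M (algebraMap K₀ K₁ ω) μ) : aeval r (AX_poly K₀ M x₀) = 0 := by
  have hMK₁ : (M : K₁) ≠ 0 := by
    have : ((M : ℕ) : K₁) = algebraMap K₀ K₁ (M : K₀) := by rw [map_natCast]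
    rw [this]
    exact fun h => hMK ((algebraMap K₀ K₁).injective (by rw [h, map_zero]))
  have hω' : M = 3 → (algebraMap K₀ K₁ ω) ^ 2 + algebraMap K₀ K₁ ω + 1 = 0 := by
    intro h
    rw [← map_pow, ← map_add, ← map_one (algebraMap K₀ K₁), ← map_add, hω h, map_zero]
  have hμ' : (AX_poly K₁ M (algebraMap K₀ K₁ x₀)).eval μ = 0 := by
    rwa [aeval_def, eval₂_eq_eval_map, AX_poly_map] at hμ
  rw [aeval_def, eval₂_eq_eval_map, AX_poly_map]
  exact MU_eval_orbit hM hMK₁ hω' hμ' hr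

end galois

section witness

variable {K₀ K₁ : Type*} [Field K₀] [Field K₁] [Algebra K₀ K₁] {ω x₀ : K₀} {μ : K₁}
  [FiniteDimensional K₀ K₁] [IsGalois K₀ K₁]

/-- **witness, `M = 2`**: the subgroup generated by `c₁ : μ ↦ 1 − μ` has order `2` and is not
normal (conjugate it by `μ ↦ 1/μ`). -/
theorem DG_galX_witness_two (h2 : ((2 : ℕ) : K₀) ≠ 0) (hsep : (AX_poly K₀ 2 x₀).Separable)
    (hμ : aeval μ (AX_poly K₀ 2 x₀) = 0) (hgen : K₀⟮μ⟯ = ⊤)
    (hfr : Module.finrank K₀ K₁ = AX_deg 2) :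
    ∃ c₁ : K₁ ≃ₐ[K₀] K₁, orderOf c₁ = 2 ∧ ∃ g : K₁ ≃ₐ[K₀] K₁,
      g * c₁ * g⁻¹ ∉ Subgroup.zpowers c₁ := by
  have hM : (2 : ℕ) = 2 ∨ (2 : ℕ) = 3 := Or.inl rfl
  have hω0 : (2 : ℕ) = 3 → (0 : K₀) ^ 2 + 0 + 1 = 0 := fun h => absurd h (by norm_num)
  have hnd := DG_galX_nodup (ω := (0 : K₀)) hM h2 hω0 hsep hμ
  rw [MU_orbit_two] at hnd
  have hmem : ∀ r ∈ MU_orbit2 μ, aeval r (AX_poly K₀ 2 x₀) = 0 := by
    intro r hr
    refine DG_galX_root_of_mem (ω := (0 : K₀)) hM h2 hω0 hμ ?_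
    rw [MU_orbit_two]; exact hr
  have h2' : (2 : K₁) ≠ 0 := by
    have : (2 : K₁) = algebraMap K₀ K₁ ((2 : ℕ) : K₀) := by
      rw [map_natCast]; norm_num
    rw [this]
    exact fun h => h2 ((algebraMap K₀ K₁).injective (by rw [h, map_zero]))
  have hμ' : (AX_poly K₁ 2 (algebraMap K₀ K₁ x₀)).eval μ = 0 := by
    rwa [aeval_def, eval₂_eq_eval_map, AX_poly_map] at hμ
  obtain ⟨hμ0, hμ1⟩ := MU_ne_two h2' hμ'
  obtain ⟨c₁, hc₁⟩ := DG_galX_trans hM h2 hμ hgen hfr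
    (hmem (1 - μ) (by simp [MU_orbit2]))
  obtain ⟨g, hg⟩ := DG_galX_trans hM h2 hμ hgen hfr
    (hmem μ⁻¹ (by simp [MU_orbit2]))
  simp only [MU_orbit2, List.nodup_cons, List.mem_cons, List.not_mem_nil, or_false,
    not_or] at hnd
  obtain ⟨⟨e12, -, -, e15, -⟩, ⟨-, -, e25, -⟩, -⟩ := hnd
  have hcc : c₁ * c₁ = 1 := by
    apply DG_galX_ext hM h2 hμ hgen
    rw [AlgEquiv.mul_apply, hc₁, map_sub, map_one, hc₁, AlgEquiv.one_apply]
    ring
  have hc1 : c₁ ≠ 1 := by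
    intro h
    rw [h, AlgEquiv.one_apply] at hc₁
    exact e12 hc₁
  have hord : orderOf c₁ = 2 := by
    haveI : Fact (Nat.Prime 2) := ⟨by norm_num⟩
    exact orderOf_eq_prime (by rw [pow_two, hcc]) hc1
  have hgg : g * g = 1 := by
    apply DG_galX_ext hM h2 hμ hgen
    rw [AlgEquiv.mul_apply, hg, map_inv₀, hg, inv_inv, AlgEquiv.one_apply]
  have hginv : g⁻¹ = g := inv_eq_of_mul_eq_one_left hgg
  refine ⟨c₁, hord, g, ?_⟩
  have hy : (g * c₁ * g⁻¹) μ = μ / (μ - 1) := by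
    rw [hginv, AlgEquiv.mul_apply, AlgEquiv.mul_apply, hg, map_inv₀, hc₁, map_inv₀, map_sub,
      map_one, hg]
    have h1 : μ - 1 ≠ 0 := fun h => hμ1 (by linear_combination -h)
    field_simp
  intro hmemz
  obtain ⟨n, hn⟩ := (Submonoid.mem_powers_iff _ _).mp
    ((isOfFinOrder_of_finite c₁).mem_powers_iff_mem_zpowers.mpr hmemz)
  have hc2 : c₁ ^ 2 = 1 := by rw [pow_two, hcc]
  have hmod : c₁ ^ n = c₁ ^ (n % 2) := by
    conv_lhs => rw [← Nat.mod_add_div n 2, pow_add, pow_mul, hc2, one_pow, mul_one]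
  rw [hmod] at hn
  have hlt : n % 2 < 2 := Nat.mod_lt _ (by norm_num)
  interval_cases h : n % 2
  · rw [pow_zero] at hn
    have := hy
    rw [← hn, AlgEquiv.one_apply] at this
    exact e15 this
  · rw [pow_one] at hn
    have := hy
    rw [← hn, hc₁] at this
    exact e25 this

/-- **witness, `M = 3`**: the subgroup generated by `c₁ : μ ↦ ω μ` has order `3` and is not
normal (conjugate it by `μ ↦ (μ + 2)/(μ − 1)`). -/
theorem DG_galX_witness_three (h3N : ((3 : ℕ) : K₀) ≠ 0) (hω : ω ^ 2 + ω + 1 = 0)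
    (hsep : (AX_poly K₀ 3 x₀).Separable)
    (hμ : aeval μ (AX_poly K₀ 3 x₀) = 0) (hgen : K₀⟮μ⟯ = ⊤)
    (hfr : Module.finrank K₀ K₁ = AX_deg 3) :
    ∃ c₁ : K₁ ≃ₐ[K₀] K₁, orderOf c₁ = 3 ∧ ∃ g : K₁ ≃ₐ[K₀] K₁,
      g * c₁ * g⁻¹ ∉ Subgroup.zpowers c₁ := by
  have hM : (3 : ℕ) = 2 ∨ (3 : ℕ) = 3 := Or.inr rfl
  have hω3 : (3 : ℕ) = 3 → ω ^ 2 + ω + 1 = 0 := fun _ => hω
  set w : K₁ := algebraMap K₀ K₁ ω with hwdef
  have hw : w ^ 2 + w + 1 = 0 := by
    rw [hwdef, ← map_pow, ← map_add, ← map_one (algebraMap K₀ K₁), ← map_add, hω, map_zero]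
  have hw3 : w ^ 3 = 1 := MU_omega_cube hw
  have h3' : (3 : K₁) ≠ 0 := by
    have : (3 : K₁) = algebraMap K₀ K₁ ((3 : ℕ) : K₀) := by
      rw [map_natCast]; norm_num
    rw [this]
    exact fun h => h3N ((algebraMap K₀ K₁).injective (by rw [h, map_zero]))
  have hnd := DG_galX_nodup hM h3N hω3 hsep hμ
  rw [MU_orbit_three] at hnd
  have hroot_of_mem : ∀ r ∈ MU_orbit3 w μ, aeval r (AX_poly K₀ 3 x₀) = 0 := by
    intro r hr
    refine DG_galX_root_of_mem hM h3N hω3 hμ ?_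
    rw [MU_orbit_three]; exact hr
  have hne_of_mem : ∀ r ∈ MU_orbit3 w μ, r - 1 ≠ 0 := by
    intro r hr
    have h1 := hroot_of_mem r hr
    rw [aeval_def, eval₂_eq_eval_map, AX_poly_map] at h1
    have h2 := MU_ne_three h3' h1
    intro h
    apply h2
    have : r = 1 := by linear_combination h
    rw [this]; ring
  have hm_Sμ : MU_S μ ∈ MU_orbit3 w μ := by simp [MU_orbit3, MU_tri]
  have hm_wSμ : w * MU_S μ ∈ MU_orbit3 w μ := by simp [MU_orbit3, MU_tri]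
  have hm_μ : μ ∈ MU_orbit3 w μ := by simp [MU_orbit3, MU_tri]
  have hm_wμ : w * μ ∈ MU_orbit3 w μ := by simp [MU_orbit3, MU_tri]
  have hm_w2μ : w ^ 2 * μ ∈ MU_orbit3 w μ := by simp [MU_orbit3, MU_tri]
  obtain ⟨c, hc⟩ := DG_galX_trans hM h3N hμ hgen hfr (hroot_of_mem _ hm_wμ)
  obtain ⟨s, hs⟩ := DG_galX_trans hM h3N hμ hgen hfr (hroot_of_mem _ hm_Sμ)
  have hgS : ∀ (g : K₁ ≃ₐ[K₀] K₁) (u : K₁), g (MU_S u) = MU_S (g u) := by
    intro g u
    simp only [MU_S, map_div₀, map_add, map_sub, map_one, map_ofNat]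
  have hgw : ∀ (g : K₁ ≃ₐ[K₀] K₁) (u : K₁), g (w * u) = w * g u := by
    intro g u
    rw [map_mul, hwdef, AlgEquiv.commutes]
  have hss : s * s = 1 := by
    apply DG_galX_ext hM h3N hμ hgen
    rw [AlgEquiv.mul_apply, hs, hgS, hs, AlgEquiv.one_apply]
    exact DG_max_S_S h3' (hne_of_mem _ hm_μ)
  have hsinv : s⁻¹ = s := inv_eq_of_mul_eq_one_left hss
  have hcpow : ∀ n : ℕ, (c ^ n) μ = w ^ n * μ := by
    intro n
    induction n with
    | zero => simp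
    | succ n ih => rw [pow_succ, AlgEquiv.mul_apply, hc, hgw, ih]; ring
  have hc3 : c ^ 3 = 1 := by
    apply DG_galX_ext hM h3N hμ hgen
    rw [hcpow, hw3, one_mul, AlgEquiv.one_apply]
  have hnd' := hnd
  simp only [MU_orbit3, MU_tri, List.cons_append, List.nil_append, List.nodup_cons,
    List.mem_cons, List.not_mem_nil, or_false, not_or] at hnd'
  have hc1 : c ≠ 1 := by
    intro h
    have := hc
    rw [h, AlgEquiv.one_apply] at this
    exact hnd'.1.1 this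
  have hord : orderOf c = 3 := by
    haveI : Fact (Nat.Prime 3) := ⟨by norm_num⟩
    exact orderOf_eq_prime hc3 hc1
  refine ⟨c, hord, s, ?_⟩
  have hy : (s * c * s⁻¹) μ = w ^ 2 * MU_S (w ^ 2 * μ) := by
    rw [hsinv, AlgEquiv.mul_apply, AlgEquiv.mul_apply, hs, hgS, hc, hgS, hgw, hs]
    exact DG_max_S_w_S hw (hne_of_mem _ hm_μ) (hne_of_mem _ hm_wSμ) (hne_of_mem _ hm_w2μ)
  intro hmem
  obtain ⟨n, hn⟩ := (Submonoid.mem_powers_iff _ _).mp
    ((isOfFinOrder_of_finite c).mem_powers_iff_mem_zpowers.mpr hmem)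
  have hval : w ^ 2 * MU_S (w ^ 2 * μ) = w ^ n * μ := by
    rw [← hy, ← hn, hcpow]
  have hmod : w ^ n = w ^ (n % 3) := by
    conv_lhs => rw [← Nat.mod_add_div n 3, pow_add, pow_mul, hw3, one_pow, mul_one]
  rw [hmod] at hval
  have hlt : n % 3 < 3 := Nat.mod_lt _ (by norm_num)
  obtain ⟨⟨-, -, -, -, -, -, -, -, -, -, e1⟩, ⟨-, -, -, -, -, -, -, -, -, e2⟩,
    ⟨-, -, -, -, -, -, -, -, e3⟩, -⟩ := hnd'
  interval_cases h : n % 3
  · rw [pow_zero, one_mul] at hval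
    exact e1 hval.symm
  · rw [pow_one] at hval
    exact e2 hval.symm
  · exact e3 hval.symm

/-- **normal closure**: in `G = Gal(K₁/K₀)` the normal closure of any element of order `M` is
`G`. -/
theorem DG_galX_normalClosure_gal {M : ℕ} (hM : M = 2 ∨ M = 3) (hMK : (M : K₀) ≠ 0)
    (hω : M = 3 → ω ^ 2 + ω + 1 = 0) (hsep : (AX_poly K₀ M x₀).Separable)
    (hμ : aeval μ (AX_poly K₀ M x₀) = 0) (hgen : K₀⟮μ⟯ = ⊤)
    (hfr : Module.finrank K₀ K₁ = AX_deg M) {c : K₁ ≃ₐ[K₀] K₁} (hc : orderOf c = M) :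
    Subgroup.normalClosure {c} = ⊤ := by
  have hcard : Nat.card (K₁ ≃ₐ[K₀] K₁) = AX_deg M := by
    rw [IsGalois.card_aut_eq_finrank, hfr]
  rcases hM with rfl | rfl
  · obtain ⟨c₁, hc₁, hw⟩ := DG_galX_witness_two hMK hsep hμ hgen hfr
    have hG : Nat.card (K₁ ≃ₐ[K₀] K₁) = 3 * 2 := by rw [hcard]; rfl
    refine DG_galX_normalClosure hG (by norm_num) ?_ hc₁ hw hc
    intro c' hc' _ H hH
    exact DG_max_group_prime (p := 3) (by norm_num) (by rw [hG, hc']) H hH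
  · obtain ⟨c₁, hc₁, hw⟩ := DG_galX_witness_three hMK (hω rfl) hsep hμ hgen hfr
    have hG : Nat.card (K₁ ≃ₐ[K₀] K₁) = 4 * 3 := by rw [hcard]; rfl
    refine DG_galX_normalClosure hG (by norm_num) ?_ hc₁ hw hc
    intro c' hc' hex H hH
    exact DG_max_group (by rw [hG]) hc' hex H hH

end witness

section main

/-- **k4, group part** (`hX` of `DG_inf_eq_bot'` for `K₁ = K₀(μ)`): if all images in `Ω` of
`e ∈ K₀(μ)` are fixed by `σ`, then `e ∈ K₀`. -/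
theorem DG_gal_hX {k K₀ E Ω : Type*} [Field k] [Field K₀] [Algebra k K₀] [Field E] [Algebra K₀ E]
    [Field Ω] [Algebra K₀ Ω] {M : ℕ} (hM : M = 2 ∨ M = 3) (hMk : (M : k) ≠ 0)
    {x₀ : K₀} (hx : Transcendental k x₀) (htop : IntermediateField.adjoin k {x₀} = ⊤)
    {ω : K₀} (hω : M = 3 → ω ^ 2 + ω + 1 = 0)
    {μ : E} (hμ : Polynomial.aeval μ (AX_poly K₀ M x₀) = 0)
    (σ : Ω →+* Ω) (hσ₀ : ∀ a : K₀, σ (algebraMap K₀ Ω a) = algebraMap K₀ Ω a)
    (hroot : ∃ a : Ω, Polynomial.aeval a (AX_poly K₀ M x₀) = 0)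
    (hfix : ∀ a : Ω, Polynomial.aeval a (AX_poly K₀ M x₀) = 0 → σ a ≠ a)
    (hσM : ∀ a : Ω, Polynomial.aeval a (AX_poly K₀ M x₀) = 0 → σ^[M] a = a)
    (e : K₀⟮μ⟯) (he : ∀ ψ : K₀⟮μ⟯ →ₐ[K₀] Ω, σ (ψ e) = ψ e) :
    (e : E) ∈ (⊥ : IntermediateField K₀ E) := by
  have hMK : (M : K₀) ≠ 0 := DG_gal_natCast_ne_zero hMk
  have hMprime : M.Prime := by
    rcases hM with rfl | rfl <;> norm_num
  haveI : Fact M.Prime := ⟨hMprime⟩
  have hlead : (AX_lead M : K₀) ≠ 0 := MU_lead_ne_zero hM hMK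
  have h0 : AX_poly K₀ M x₀ ≠ 0 := AX_poly_ne_zero K₀ M x₀ hlead
  have hint : IsIntegral K₀ μ := DG_gal_isIntegral hM hMk hμ
  haveI : FiniteDimensional K₀ K₀⟮μ⟯ := IntermediateField.adjoin.finiteDimensional hint
  haveI : IsGalois K₀ K₀⟮μ⟯ := DG_gal_isGalois hM hMk hω hx hμ
  have hfr : Module.finrank K₀ K₀⟮μ⟯ = AX_deg M := DG_gal_finrank hM hMk hx htop hμ
  have hsep : (AX_poly K₀ M x₀).Separable := DG_gal_separable hM hMk hx
  set μ₁ : K₀⟮μ⟯ := AdjoinSimple.gen K₀ μ with hμ₁def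
  have hμ₁ : aeval μ₁ (AX_poly K₀ M x₀) = 0 := by
    apply (algebraMap K₀⟮μ⟯ E).injective
    rw [map_zero, ← aeval_algebraMap_apply]
    exact hμ
  have hgen : K₀⟮μ₁⟯ = ⊤ := DG_gal_adjoin_gen_eq_top μ
  -- an embedding `ψ₁`
  obtain ⟨a, ha⟩ := hroot
  have hint₁ : IsIntegral K₀ μ₁ := isAlgebraic_iff_isIntegral.mp ⟨_, h0, hμ₁⟩
  have halg₁ : IsAlgebraic K₀ μ₁ := ⟨_, h0, hμ₁⟩
  have hadj : Algebra.adjoin K₀ {μ₁} = ⊤ :=
    (IntermediateField.adjoin_simple_eq_top_iff_of_isAlgebraic halg₁).mp hgen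
  have hext : ∀ φ₁ φ₂ : K₀⟮μ⟯ →ₐ[K₀] Ω, φ₁ μ₁ = φ₂ μ₁ → φ₁ = φ₂ := by
    intro φ₁ φ₂ h
    apply AlgHom.ext_of_adjoin_eq_top hadj
    intro x hx
    rw [Set.mem_singleton_iff] at hx
    subst hx
    exact h
  let pb : PowerBasis K₀ K₀⟮μ⟯ := IntermediateField.adjoin.powerBasis hint
  have hpbgen : pb.gen = μ₁ := IntermediateField.adjoin.powerBasis_gen hint
  have hamin : aeval a (minpoly K₀ pb.gen) = 0 := by
    rw [hpbgen]
    exact DG_galX_minpoly_root hM hMK hμ₁ hgen hfr ha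
  let ψ₁ : K₀⟮μ⟯ →ₐ[K₀] Ω := pb.lift a hamin
  have hψ₁ : ψ₁ μ₁ = a := by
    rw [← hpbgen]
    exact pb.lift_gen a hamin
  -- `σ ∘ ψ₁`
  let ψ₂ : K₀⟮μ⟯ →ₐ[K₀] Ω :=
    { toRingHom := σ.comp ψ₁.toRingHom
      commutes' := fun r => by
        change σ (ψ₁ (algebraMap K₀ K₀⟮μ⟯ r)) = algebraMap K₀ Ω r
        rw [ψ₁.commutes, hσ₀] }
  have hψ₂ : ∀ y, ψ₂ y = σ (ψ₁ y) := fun y => rfl
  -- `σ a = ψ₁ r` for a root `r ∈ K₁`
  have hσa : aeval (σ a) (AX_poly K₀ M x₀) = 0 := by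
    rw [← hψ₁, ← hψ₂, aeval_algHom_apply, hμ₁, map_zero]
  have hsplit : ((AX_poly K₀ M x₀).map (algebraMap K₀ K₀⟮μ⟯)).Splits := by
    rw [AX_poly_map]
    have hMK₁ : (M : K₀⟮μ⟯) ≠ 0 := by
      have : ((M : ℕ) : K₀⟮μ⟯) = algebraMap K₀ K₀⟮μ⟯ (M : K₀) := by rw [map_natCast]
      rw [this]
      exact fun h => hMK ((algebraMap K₀ K₀⟮μ⟯).injective (by rw [h, map_zero]))
    have hω' : M = 3 → (algebraMap K₀ K₀⟮μ⟯ ω) ^ 2 + algebraMap K₀ K₀⟮μ⟯ ω + 1 = 0 := by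
      intro h
      rw [← map_pow, ← map_add, ← map_one (algebraMap K₀ K₀⟮μ⟯), ← map_add, hω h, map_zero]
    have hμ' : (AX_poly K₀⟮μ⟯ M (algebraMap K₀ K₀⟮μ⟯ x₀)).eval μ₁ = 0 := by
      have := hμ₁
      rwa [aeval_def, eval₂_eq_eval_map, AX_poly_map] at this
    exact MU_splits hM hMK₁ hω' hμ'
  obtain ⟨r, hr, hrσ⟩ : ∃ r : K₀⟮μ⟯, aeval r (AX_poly K₀ M x₀) = 0 ∧ ψ₁ r = σ a := by
    have h1 : σ a ∈ ((AX_poly K₀ M x₀).map (algebraMap K₀ Ω)).roots := by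
      rw [mem_roots (map_ne_zero h0), IsRoot.def, ← eval₂_eq_eval_map, ← aeval_def]
      exact hσa
    have h2 : (AX_poly K₀ M x₀).map (algebraMap K₀ Ω) =
        ((AX_poly K₀ M x₀).map (algebraMap K₀ K₀⟮μ⟯)).map (ψ₁ : K₀⟮μ⟯ →+* Ω) := by
      rw [Polynomial.map_map]
      congr 1
      exact (ψ₁.comp_algebraMap).symm
    rw [h2, hsplit.roots_map] at h1
    obtain ⟨r, hr, hr'⟩ := Multiset.mem_map.mp h1
    refine ⟨r, ?_, hr'⟩
    have := (mem_roots (map_ne_zero h0)).mp hr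
    rwa [IsRoot.def, ← eval₂_eq_eval_map, ← aeval_def] at this
  obtain ⟨c, hc⟩ := DG_galX_trans hM hMK hμ₁ hgen hfr hr
  -- key relation
  have hR : ∀ y : K₀⟮μ⟯, σ (ψ₁ y) = ψ₁ (c y) := by
    have : ψ₂ = ψ₁.comp (c : K₀⟮μ⟯ →ₐ[K₀] K₀⟮μ⟯) := by
      apply hext
      rw [hψ₂, hψ₁, AlgHom.comp_apply]
      change σ a = ψ₁ (c μ₁)
      rw [hc, hrσ]
    intro y
    rw [← hψ₂, this]
    rfl
  have hRpow : ∀ (j : ℕ) (y : K₀⟮μ⟯), σ^[j] (ψ₁ y) = ψ₁ ((c ^ j) y) := by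
    intro j
    induction j with
    | zero => intro y; simp
    | succ j ih =>
      intro y
      rw [Function.iterate_succ_apply', ih, hR, pow_succ', AlgEquiv.mul_apply]
  have hinj : Function.Injective ψ₁ := ψ₁.toRingHom.injective
  -- `c` has order `M`
  have hc1 : c ≠ 1 := by
    intro h
    apply hfix a ha
    rw [← hψ₁, hR, h, AlgEquiv.one_apply]
  have hcM : c ^ M = 1 := by
    apply DG_galX_ext hM hMK hμ₁ hgen
    apply hinj
    rw [← hRpow, hψ₁, hσM a ha, AlgEquiv.one_apply, hψ₁]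
  have hord : orderOf c = M := orderOf_eq_prime hcM hc1
  have hN : Subgroup.normalClosure {c} = ⊤ :=
    DG_galX_normalClosure_gal hM hMK hω hsep hμ₁ hgen hfr hord
  -- the stabiliser of `e` contains all conjugates of `c`
  have hconj : ∀ g : K₀⟮μ⟯ ≃ₐ[K₀] K₀⟮μ⟯, (g * c * g⁻¹) e = e := by
    intro g
    have h1 := he (ψ₁.comp ((g⁻¹ : K₀⟮μ⟯ ≃ₐ[K₀] K₀⟮μ⟯) : K₀⟮μ⟯ →ₐ[K₀] K₀⟮μ⟯))
    rw [AlgHom.comp_apply] at h1
    change σ (ψ₁ (g⁻¹ e)) = ψ₁ (g⁻¹ e) at h1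
    rw [hR] at h1
    have h2 : c (g⁻¹ e) = g⁻¹ e := hinj h1
    rw [AlgEquiv.mul_apply, AlgEquiv.mul_apply, h2]
    change g (g.symm e) = e
    exact g.apply_symm_apply e
  have hstab : ∀ g : K₀⟮μ⟯ ≃ₐ[K₀] K₀⟮μ⟯, g e = e := by
    intro g
    have hle : Subgroup.normalClosure {c} ≤ MulAction.stabilizer (K₀⟮μ⟯ ≃ₐ[K₀] K₀⟮μ⟯) e := by
      rw [Subgroup.normalClosure, Subgroup.closure_le]
      intro y hy
      rw [Group.mem_conjugatesOfSet_iff] at hy
      obtain ⟨c', hc', hcy⟩ := hy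
      rw [Set.mem_singleton_iff] at hc'
      subst hc'
      obtain ⟨g', hg'⟩ := isConj_iff.mp hcy
      rw [SetLike.mem_coe, MulAction.mem_stabilizer_iff, ← hg']
      exact hconj g'
    have hg : g ∈ MulAction.stabilizer (K₀⟮μ⟯ ≃ₐ[K₀] K₀⟮μ⟯) e := by
      apply hle
      rw [hN]
      trivial
    exact MulAction.mem_stabilizer_iff.mp hg
  -- conclusion
  have hbot : e ∈ (⊥ : IntermediateField K₀ K₀⟮μ⟯) := by
    rw [← IsGalois.fixedField_top, IntermediateField.mem_fixedField_iff]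
    intro g _
    exact hstab g
  obtain ⟨y, hy⟩ := IntermediateField.mem_bot.mp hbot
  rw [IntermediateField.mem_bot]
  refine ⟨y, ?_⟩
  rw [← hy]
  rfl

end main

end Fermat.Agent.S18
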