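import Mathlib
import Fermat.Prelude.Def_ModularCurve_X0
import Fermat.Agent.S18.MuRoots
import Fermat.Agent.Lib.CuspTwist

/-!
# S18, package MUL = MUQ (helper16): Laurent roots of `AX_poly`

`L` a field, `M ∈ {2, 3}`, `M ≠ 0` in `L`, `n > 0`, `y ∈ L((s))` with `ord y = −M n`, leading
coefficient `1` and exponents divisible by `n` (application: `y = j(s^{M N})`, `n = N`).

* `ML_hensel_two/three`: Hensel's lemma in `L⟦u⟧` for the polynomial
  `lead⁻¹ · u^d · AX_poly(u^{−M} Y₀)(T/u)` (monic in `T`), root `T ≡ 1/16` resp. `1/3`;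
* `ML_exists_root`: a root `a₀ = qExpand n (T/u)` of `AX_poly L((s)) M y`, with exponents divisible
  by `n` and `a₀.coeff (−n) ≠ 0`;
* `ML_splits`: `AX_poly L((s)) M y` splits in `L((s))`;
* `ML_root_coeff`: every root has exponents divisible by `n`;
* `ML_twist_root`: for a root `a`: `CU_twist ζ a = a ↔ ζ ^ n = 1`.
-/

set_option autoImplicit false

open Polynomial ModularCurve

namespace Fermat.Agent.S18

open Fermat.Agent.Lib

section hensel

variable {L : Type*} [Field L]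

/-- the Hensel polynomial for `M = 2`: `256⁻¹ · u⁶ · AX_poly(u⁻² Y₀)(T / u)`. -/
noncomputable def ML_G2 (Y₀ : PowerSeries L) : (PowerSeries L)[X] :=
  (X ^ 2 - C PowerSeries.X * X + C PowerSeries.X ^ 2) ^ 3
    - C (PowerSeries.C (256 : L)⁻¹ * Y₀) * (X ^ 2 * (X - C PowerSeries.X) ^ 2)

/-- the Hensel polynomial for `M = 3`: `27⁻¹ · u¹² · AX_poly(u⁻³ Y₀)(T / u)`. -/
noncomputable def ML_G3 (Y₀ : PowerSeries L) : (PowerSeries L)[X] :=
  X ^ 3 * (X ^ 3 + C (8 * PowerSeries.X ^ 3)) ^ 3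
    - C (PowerSeries.C (27 : L)⁻¹ * Y₀) * (X ^ 3 - C PowerSeries.X ^ 3) ^ 3

theorem ML_G2_monic (Y₀ : PowerSeries L) : (ML_G2 Y₀).Monic := by
  unfold ML_G2
  have hp : (X ^ 2 - C PowerSeries.X * X + C PowerSeries.X ^ 2 : (PowerSeries L)[X]).Monic := by
    monicity!
  have hp2 : (X ^ 2 - C PowerSeries.X * X + C PowerSeries.X ^ 2 : (PowerSeries L)[X]).natDegree
      = 2 := by compute_degree!
  apply Monic.sub_of_left (hp.pow 3)
  apply degree_lt_degree
  rw [hp.natDegree_pow, hp2]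
  refine lt_of_le_of_lt (?_ : _ ≤ 4) (by norm_num)
  compute_degree

theorem ML_G3_monic (Y₀ : PowerSeries L) : (ML_G3 Y₀).Monic := by
  unfold ML_G3
  have hp : (X ^ 3 + C (8 * PowerSeries.X ^ 3) : (PowerSeries L)[X]).Monic := by
    monicity!
  have hp2 : (X ^ 3 + C (8 * PowerSeries.X ^ 3) : (PowerSeries L)[X]).natDegree = 3 := by
    compute_degree!
  have hq : (X ^ 3 * (X ^ 3 + C (8 * PowerSeries.X ^ 3)) ^ 3 : (PowerSeries L)[X]).Monic :=
    (monic_X_pow 3).mul (hp.pow 3)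
  apply Monic.sub_of_left hq
  apply degree_lt_degree
  rw [((monic_X_pow 3).natDegree_mul (hp.pow 3)), natDegree_X_pow, hp.natDegree_pow, hp2]
  refine lt_of_le_of_lt (?_ : _ ≤ 9) (by norm_num)
  compute_degree

theorem ML_G2_eval (Y₀ T : PowerSeries L) :
    (ML_G2 Y₀).eval T = (T ^ 2 - PowerSeries.X * T + PowerSeries.X ^ 2) ^ 3
      - (PowerSeries.C (256 : L)⁻¹ * Y₀) * (T ^ 2 * (T - PowerSeries.X) ^ 2) := by
  unfold ML_G2
  simp only [eval_sub, eval_mul, eval_pow, eval_add, eval_X, eval_C]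

theorem ML_G3_eval (Y₀ T : PowerSeries L) :
    (ML_G3 Y₀).eval T = T ^ 3 * (T ^ 3 + 8 * PowerSeries.X ^ 3) ^ 3
      - (PowerSeries.C (27 : L)⁻¹ * Y₀) * (T ^ 3 - PowerSeries.X ^ 3) ^ 3 := by
  unfold ML_G3
  simp only [eval_sub, eval_mul, eval_pow, eval_add, eval_X, eval_C]

theorem ML_G2_derivative_eval (Y₀ T : PowerSeries L) :
    (derivative (ML_G2 Y₀)).eval T =
      3 * (T ^ 2 - PowerSeries.X * T + PowerSeries.X ^ 2) ^ 2 * (2 * T - PowerSeries.X)
      - (PowerSeries.C (256 : L)⁻¹ * Y₀) * (2 * T * (T - PowerSeries.X) ^ 2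
          + T ^ 2 * (2 * (T - PowerSeries.X))) := by
  unfold ML_G2
  simp only [derivative_sub, derivative_mul, derivative_pow, derivative_X, derivative_C,
    derivative_add, eval_sub, eval_mul, eval_pow, eval_add, eval_X, eval_C, eval_zero,
    eval_one, Nat.cast_ofNat]
  ring

theorem ML_G3_derivative_eval (Y₀ T : PowerSeries L) :
    (derivative (ML_G3 Y₀)).eval T =
      3 * T ^ 2 * (T ^ 3 + 8 * PowerSeries.X ^ 3) ^ 3
        + T ^ 3 * (3 * (T ^ 3 + 8 * PowerSeries.X ^ 3) ^ 2 * (3 * T ^ 2))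
      - (PowerSeries.C (27 : L)⁻¹ * Y₀) * (3 * (T ^ 3 - PowerSeries.X ^ 3) ^ 2 * (3 * T ^ 2)) := by
  unfold ML_G3
  simp only [derivative_sub, derivative_mul, derivative_pow, derivative_X, derivative_C,
    derivative_add, eval_sub, eval_mul, eval_pow, eval_add, eval_X, eval_C, eval_zero,
    eval_one, Nat.cast_ofNat]
  ring

theorem ML_mem_span_X_iff (f : PowerSeries L) :
    f ∈ Ideal.span {(PowerSeries.X : PowerSeries L)} ↔ PowerSeries.constantCoeff f = 0 := by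
  rw [Ideal.mem_span_singleton, PowerSeries.X_dvd_iff]

theorem ML_isUnit_mk {f : PowerSeries L} (hf : PowerSeries.constantCoeff f ≠ 0) :
    IsUnit (Ideal.Quotient.mk (Ideal.span {(PowerSeries.X : PowerSeries L)}) f) := by
  apply IsUnit.map
  rw [PowerSeries.isUnit_iff_constantCoeff]
  exact IsUnit.mk0 _ hf

/-- **Hensel**, `M = 2`. -/
theorem ML_hensel_two (h2 : (2 : L) ≠ 0) (Y₀ : PowerSeries L)
    (hY₀ : PowerSeries.constantCoeff Y₀ = 1) :
    ∃ T : PowerSeries L, (ML_G2 Y₀).eval T = 0 ∧ PowerSeries.constantCoeff T = (16 : L)⁻¹ := by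
  have h16 : (16 : L) ≠ 0 := by
    have : (16 : L) = 2 ^ 4 := by norm_num
    rw [this]; exact pow_ne_zero _ h2
  have h256 : (256 : L) ≠ 0 := by
    have : (256 : L) = 2 ^ 8 := by norm_num
    rw [this]; exact pow_ne_zero _ h2
  obtain ⟨T, hT, hT0⟩ := HenselianRing.is_henselian (R := PowerSeries L)
    (I := Ideal.span {(PowerSeries.X : PowerSeries L)}) (ML_G2 Y₀) (ML_G2_monic Y₀)
    (PowerSeries.C (16 : L)⁻¹)
    (by
      rw [ML_mem_span_X_iff, ML_G2_eval]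
      simp only [map_sub, map_mul, map_pow, map_add, PowerSeries.constantCoeff_C,
        PowerSeries.constantCoeff_X, hY₀]
      field_simp
      norm_num)
    (by
      apply ML_isUnit_mk
      rw [ML_G2_derivative_eval]
      simp only [map_sub, map_mul, map_pow, map_add, PowerSeries.constantCoeff_C,
        PowerSeries.constantCoeff_X, hY₀, map_ofNat]
      have e : (3 : L) * ((16 : L)⁻¹ ^ 2 - 0 * (16 : L)⁻¹ + 0 ^ 2) ^ 2 * (2 * (16 : L)⁻¹ - 0) -
          (256 : L)⁻¹ * 1 * (2 * (16 : L)⁻¹ * ((16 : L)⁻¹ - 0) ^ 2 +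
            (16 : L)⁻¹ ^ 2 * (2 * ((16 : L)⁻¹ - 0))) = 2 * (16 : L)⁻¹ ^ 5 := by
        field_simp
        norm_num
      rw [e]
      exact mul_ne_zero h2 (pow_ne_zero _ (inv_ne_zero h16)))
  refine ⟨T, hT, ?_⟩
  rw [ML_mem_span_X_iff, map_sub, PowerSeries.constantCoeff_C] at hT0
  exact sub_eq_zero.mp hT0

/-- **Hensel**, `M = 3`. -/
theorem ML_hensel_three (h3 : (3 : L) ≠ 0) (Y₀ : PowerSeries L)
    (hY₀ : PowerSeries.constantCoeff Y₀ = 1) :
    ∃ T : PowerSeries L, (ML_G3 Y₀).eval T = 0 ∧ PowerSeries.constantCoeff T = (3 : L)⁻¹ := by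
  have h27 : (27 : L) ≠ 0 := by
    have : (27 : L) = 3 ^ 3 := by norm_num
    rw [this]; exact pow_ne_zero _ h3
  obtain ⟨T, hT, hT0⟩ := HenselianRing.is_henselian (R := PowerSeries L)
    (I := Ideal.span {(PowerSeries.X : PowerSeries L)}) (ML_G3 Y₀) (ML_G3_monic Y₀)
    (PowerSeries.C (3 : L)⁻¹)
    (by
      rw [ML_mem_span_X_iff, ML_G3_eval]
      simp only [map_sub, map_mul, map_pow, map_add, PowerSeries.constantCoeff_C,
        PowerSeries.constantCoeff_X, hY₀, map_ofNat]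
      field_simp
      norm_num)
    (by
      apply ML_isUnit_mk
      rw [ML_G3_derivative_eval]
      simp only [map_sub, map_mul, map_pow, map_add, PowerSeries.constantCoeff_C,
        PowerSeries.constantCoeff_X, hY₀, map_ofNat]
      have e : (3 : L) * (3 : L)⁻¹ ^ 2 * ((3 : L)⁻¹ ^ 3 + 8 * 0 ^ 3) ^ 3 +
          (3 : L)⁻¹ ^ 3 * (3 * ((3 : L)⁻¹ ^ 3 + 8 * 0 ^ 3) ^ 2 * (3 * (3 : L)⁻¹ ^ 2)) -
          (27 : L)⁻¹ * 1 * (3 * ((3 : L)⁻¹ ^ 3 - 0 ^ 3) ^ 2 * (3 * (3 : L)⁻¹ ^ 2)) =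
          (3 : L)⁻¹ ^ 10 := by
        field_simp
        norm_num
      rw [e]
      exact pow_ne_zero _ (inv_ne_zero h3))
  refine ⟨T, hT, ?_⟩
  rw [ML_mem_span_X_iff, map_sub, PowerSeries.constantCoeff_C] at hT0
  exact sub_eq_zero.mp hT0

end hensel

section orbit

variable {E E' : Type*} [Field E] [Field E']

/-- a field homomorphism maps the Möbius orbit to the Möbius orbit. -/
theorem ML_orbit_map (f : E →+* E') (M : ℕ) (ω μ : E) :
    (MU_orbit M ω μ).map f = MU_orbit M (f ω) (f μ) := by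
  unfold MU_orbit
  split_ifs
  · simp only [MU_orbit2, List.map_cons, List.map_nil, map_sub, map_one, map_inv₀, map_div₀]
  · simp only [MU_orbit3, MU_tri, MU_S, List.map_cons, List.map_nil, List.map_append, map_sub,
      map_one, map_div₀, map_mul, map_pow, map_add, map_ofNat]

/-- an endomorphism fixing `ω` and `μ` fixes the Möbius orbit of `μ` pointwise. -/
theorem ML_orbit_fixed (f : E →+* E) (M : ℕ) {ω μ : E} (hω : f ω = ω) (hμ : f μ = μ) {r : E}
    (hr : r ∈ MU_orbit M ω μ) : f r = r := by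
  have h := ML_orbit_map f M ω μ
  rw [hω, hμ] at h
  obtain ⟨i, hi, rfl⟩ := List.mem_iff_getElem.mp hr
  have h2 : ((MU_orbit M ω μ).map f)[i]'(by rw [List.length_map]; exact hi) =
      (MU_orbit M ω μ)[i] := by
    simp only [h]
  rw [List.getElem_map] at h2
  exact h2

end orbit

section laurent

variable {L : Type*} [Field L]

/-- descent along `q ↦ q ^ n`. -/
theorem ML_descend (n : ℕ) [NeZero n] (y : LaurentSeries L)
    (hy : ∀ m : ℤ, y.coeff m ≠ 0 → (n : ℤ) ∣ m) :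
    ∃ Y : LaurentSeries L, qExpand L n Y = y ∧ ∀ k : ℤ, Y.coeff k = y.coeff (n * k) := by
  have hn : (0 : ℤ) < n := by exact_mod_cast Nat.pos_of_ne_zero (NeZero.ne n)
  have hbdd : BddBelow (Function.support (fun k : ℤ => y.coeff (n * k))) := by
    refine ⟨min y.order 0, fun k hk => ?_⟩
    have h1 : y.order ≤ n * k := HahnSeries.order_le_of_coeff_ne_zero hk
    rcases le_or_gt 0 k with h | h
    · exact le_trans (min_le_right _ _) h
    · have : (n : ℤ) * k ≤ k := by nlinarith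
      exact le_trans (min_le_left _ _) (le_trans h1 this)
  refine ⟨HahnSeries.ofSuppBddBelow _ hbdd, ?_, fun k => rfl⟩
  ext m
  by_cases hm : (n : ℤ) ∣ m
  · obtain ⟨k, rfl⟩ := hm
    rw [qExpand_coeff_mul]
    rfl
  · rw [qExpand_coeff_of_not_dvd _ _ hm]
    by_contra h
    exact hm (hy m (Ne.symm h))

theorem ML_single_ne_zero : (HahnSeries.single (1 : ℤ) (1 : L)) ≠ 0 :=
  HahnSeries.single_ne_zero one_ne_zero

theorem ML_single_inv :
    (HahnSeries.single (1 : ℤ) (1 : L))⁻¹ = HahnSeries.single (-1 : ℤ) (1 : L) := by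
  apply inv_eq_of_mul_eq_one_left
  rw [HahnSeries.single_mul_single]
  simp

/-- the image of `Y₀ = u^M Y` in `L((u))`. -/
theorem ML_ofPowerSeries_part (Y : LaurentSeries L) (M : ℕ) (hord : Y.order = -(M : ℤ)) :
    HahnSeries.ofPowerSeries ℤ L Y.powerSeriesPart = (HahnSeries.single (1 : ℤ) (1 : L)) ^ M * Y := by
  rw [LaurentSeries.ofPowerSeries_powerSeriesPart, hord, neg_neg, HahnSeries.single_pow]
  simp

theorem ML_constantCoeff_part (Y : LaurentSeries L) (M : ℕ) (hord : Y.order = -(M : ℤ))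
    (hlead : Y.coeff (-(M : ℤ)) = 1) : PowerSeries.constantCoeff Y.powerSeriesPart = 1 := by
  rw [← PowerSeries.coeff_zero_eq_constantCoeff, LaurentSeries.powerSeriesPart_coeff, hord]
  simpa using hlead

theorem ML_coeff_div_single (T : PowerSeries L) :
    (HahnSeries.ofPowerSeries ℤ L T / HahnSeries.single (1 : ℤ) (1 : L)).coeff (-1) =
      PowerSeries.constantCoeff T := by
  rw [div_eq_mul_inv, ML_single_inv, HahnSeries.coeff_mul_single, mul_one,
    ← PowerSeries.coeff_zero_eq_constantCoeff]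
  have := HahnSeries.ofPowerSeries_apply_coeff (Γ := ℤ) T 0
  simpa using this

/-- **MUL, one root, variable `u`**: `Y ∈ L((u))` of order `−M` with leading coefficient `1`. -/
theorem ML_exists_root_u {M : ℕ} (hM : M = 2 ∨ M = 3) (hML : (M : L) ≠ 0) (Y : LaurentSeries L)
    (hord : Y.order = -(M : ℤ)) (hlead : Y.coeff (-(M : ℤ)) = 1) :
    ∃ μ₀ : LaurentSeries L, (AX_poly (LaurentSeries L) M Y).eval μ₀ = 0 ∧ μ₀.coeff (-1) ≠ 0 := by
  set φ := HahnSeries.ofPowerSeries ℤ L with hφ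
  set u : LaurentSeries L := HahnSeries.single (1 : ℤ) (1 : L) with hu
  have hu0 : u ≠ 0 := ML_single_ne_zero
  have hφX : φ PowerSeries.X = u := HahnSeries.ofPowerSeries_X
  have hφC : ∀ c : L, φ (PowerSeries.C c) = HahnSeries.C c := fun c =>
    HahnSeries.ofPowerSeries_C c
  have hY₀ := ML_constantCoeff_part Y M hord hlead
  have hφY := ML_ofPowerSeries_part Y M hord
  rcases hM with rfl | rfl
  · have h2 : (2 : L) ≠ 0 := by exact_mod_cast hML
    have h16 : (16 : L) ≠ 0 := by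
      have : (16 : L) = 2 ^ 4 := by norm_num
      rw [this]; exact pow_ne_zero _ h2
    have h256 : (256 : L) ≠ 0 := by
      have : (256 : L) = 2 ^ 8 := by norm_num
      rw [this]; exact pow_ne_zero _ h2
    obtain ⟨T, hT, hT0⟩ := ML_hensel_two h2 Y.powerSeriesPart hY₀
    refine ⟨φ T / u, ?_, ?_⟩
    · have h1 := congrArg φ hT
      rw [ML_G2_eval, map_zero] at h1
      simp only [map_sub, map_mul, map_pow, map_add, hφX, hφC] at h1
      rw [hφY] at h1
      have hc : (HahnSeries.C (256 : L)⁻¹ : LaurentSeries L) * 256 = 1 := by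
        have : (256 : LaurentSeries L) = HahnSeries.C (256 : L) := (map_ofNat HahnSeries.C 256).symm
        rw [this, ← map_mul, inv_mul_cancel₀ h256, map_one]
      rw [AX_poly_eval, if_pos rfl]
      set t := φ T
      set c : LaurentSeries L := HahnSeries.C (256 : L)⁻¹
      field_simp
      linear_combination (256 : LaurentSeries L) * h1 + (Y * t ^ 2 * (t - u) ^ 2 * u ^ 2) * hc
    · rw [ML_coeff_div_single, hT0]
      exact inv_ne_zero h16
  · have h3 : (3 : L) ≠ 0 := by exact_mod_cast hML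
    have h27 : (27 : L) ≠ 0 := by
      have : (27 : L) = 3 ^ 3 := by norm_num
      rw [this]; exact pow_ne_zero _ h3
    obtain ⟨T, hT, hT0⟩ := ML_hensel_three h3 Y.powerSeriesPart hY₀
    refine ⟨φ T / u, ?_, ?_⟩
    · have h1 := congrArg φ hT
      rw [ML_G3_eval, map_zero] at h1
      simp only [map_sub, map_mul, map_pow, map_add, hφX, hφC, map_ofNat] at h1
      rw [hφY] at h1
      have hc : (HahnSeries.C (27 : L)⁻¹ : LaurentSeries L) * 27 = 1 := by
        have : (27 : LaurentSeries L) = HahnSeries.C (27 : L) := (map_ofNat HahnSeries.C 27).symm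
        rw [this, ← map_mul, inv_mul_cancel₀ h27, map_one]
      rw [AX_poly_eval, if_neg (by norm_num)]
      set t := φ T
      set c : LaurentSeries L := HahnSeries.C (27 : L)⁻¹
      field_simp
      linear_combination (27 : LaurentSeries L) * h1 + (Y * (t ^ 3 - u ^ 3) ^ 3 * u ^ 3) * hc
    · rw [ML_coeff_div_single, hT0]
      exact inv_ne_zero h3

/-- **MUL, one root**: `AX_poly L((s)) M y` has a root `a₀ ∈ L((s^n))` with `a₀.coeff (−n) ≠ 0`. -/
theorem ML_exists_root' {M : ℕ} (hM : M = 2 ∨ M = 3) (hML : (M : L) ≠ 0) (n : ℕ) [NeZero n]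
    (y : LaurentSeries L) (hord : y.order = -((M * n : ℕ) : ℤ)) (hlead : y.coeff y.order = 1)
    (hexp : ∀ m : ℤ, y.coeff m ≠ 0 → (n : ℤ) ∣ m) :
    ∃ μ₀ : LaurentSeries L, (AX_poly (LaurentSeries L) M y).eval (qExpand L n μ₀) = 0 ∧
      μ₀.coeff (-1) ≠ 0 := by
  have hn : (0 : ℤ) < n := by exact_mod_cast Nat.pos_of_ne_zero (NeZero.ne n)
  obtain ⟨Y, hY, hYc⟩ := ML_descend n y hexp
  have hYlead : Y.coeff (-(M : ℤ)) = 1 := by
    rw [hYc, ← hlead, hord]
    congr 1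
    push_cast
    ring
  have hY0 : Y ≠ 0 := by
    intro h0
    rw [h0] at hYlead
    simp at hYlead
  have hYord : Y.order = -(M : ℤ) := by
    apply le_antisymm
    · exact HahnSeries.order_le_of_coeff_ne_zero (by rw [hYlead]; exact one_ne_zero)
    · have h1 : Y.coeff Y.order ≠ 0 := fun h => hY0 (HahnSeries.coeff_order_eq_zero.mp h)
      rw [hYc] at h1
      have h2 : y.order ≤ n * Y.order := HahnSeries.order_le_of_coeff_ne_zero h1
      rw [hord] at h2
      push_cast at h2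
      nlinarith
  obtain ⟨μ₀, hμ₀, hc⟩ := ML_exists_root_u hM hML Y hYord hYlead
  refine ⟨μ₀, ?_, hc⟩
  rw [← hY, ← AX_poly_map, eval_map_apply, hμ₀, map_zero]

theorem ML_natCast_ne_zero {M : ℕ} (hML : (M : L) ≠ 0) : (M : LaurentSeries L) ≠ 0 := by
  have : ((M : ℕ) : LaurentSeries L) = HahnSeries.C (M : L) := (map_natCast HahnSeries.C M).symm
  rw [this]
  exact fun h => hML (HahnSeries.C_injective (by rw [h, map_zero]))

theorem ML_omega {M : ℕ} {ω : L} (hω : M = 3 → ω ^ 2 + ω + 1 = 0) :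
    M = 3 → (HahnSeries.C ω : LaurentSeries L) ^ 2 + HahnSeries.C ω + 1 = 0 := by
  intro h
  rw [← map_pow, ← map_add, ← map_one (HahnSeries.C : L →+* LaurentSeries L), ← map_add, hω h,
    map_zero]

/-- **MUL**: `AX_poly L((s)) M y` splits in `L((s))`. -/
theorem ML_splits {M : ℕ} (hM : M = 2 ∨ M = 3) (hML : (M : L) ≠ 0) {ω : L}
    (hω : M = 3 → ω ^ 2 + ω + 1 = 0) (n : ℕ) (hn : 0 < n)
    (y : LaurentSeries L) (hord : y.order = -((M * n : ℕ) : ℤ)) (hlead : y.coeff y.order = 1)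
    (hexp : ∀ m : ℤ, y.coeff m ≠ 0 → ((M * n : ℕ) : ℤ) ∣ m) :
    (AX_poly (LaurentSeries L) M y).Splits := by
  have : NeZero n := ⟨hn.ne'⟩
  have hexp' : ∀ m : ℤ, y.coeff m ≠ 0 → (n : ℤ) ∣ m := fun m hm =>
    dvd_trans ⟨(M : ℤ), by push_cast; ring⟩ (hexp m hm)
  obtain ⟨μ₀, hμ₀, -⟩ := ML_exists_root' hM hML n y hord hlead hexp'
  exact MU_splits hM (ML_natCast_ne_zero hML) (ML_omega hω) hμ₀

/-- **MUL**: every root of `AX_poly L((s)) M y` lies in `L((s^n))`. -/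
theorem ML_root_coeff {M : ℕ} (hM : M = 2 ∨ M = 3) (hML : (M : L) ≠ 0) {ω : L}
    (hω : M = 3 → ω ^ 2 + ω + 1 = 0) (n : ℕ) (hn : 0 < n)
    (y : LaurentSeries L) (hord : y.order = -((M * n : ℕ) : ℤ)) (hlead : y.coeff y.order = 1)
    (hexp : ∀ m : ℤ, y.coeff m ≠ 0 → (n : ℤ) ∣ m)
    (a : LaurentSeries L) (ha : (AX_poly (LaurentSeries L) M y).eval a = 0)
    (m : ℤ) (hm : a.coeff m ≠ 0) : (n : ℤ) ∣ m := by
  have : NeZero n := ⟨hn.ne'⟩
  obtain ⟨μ₀, hμ₀, -⟩ := ML_exists_root' hM hML n y hord hlead hexp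
  have hmem := MU_mem_orbit_of_root hM (ML_natCast_ne_zero hML) (ML_omega hω) hμ₀ ha
  have hmap := ML_orbit_map (qExpand L n) M (HahnSeries.C ω) μ₀
  rw [qExpand_C] at hmap
  rw [← hmap] at hmem
  obtain ⟨a', -, rfl⟩ := List.mem_map.mp hmem
  by_contra hnd
  exact hm (qExpand_coeff_of_not_dvd n a' hnd)

/-- **MUL, twist**: the twist `s ↦ ζ s` fixes a root of `AX_poly L((s)) M y` iff `ζ ^ n = 1`. -/
theorem ML_twist_root' {M : ℕ} (hM : M = 2 ∨ M = 3) (hML : (M : L) ≠ 0) {ω : L}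
    (hω : M = 3 → ω ^ 2 + ω + 1 = 0) (n : ℕ) (hn : 0 < n)
    (y : LaurentSeries L) (hord : y.order = -((M * n : ℕ) : ℤ)) (hlead : y.coeff y.order = 1)
    (hexp : ∀ m : ℤ, y.coeff m ≠ 0 → (n : ℤ) ∣ m)
    (a : LaurentSeries L) (ha : (AX_poly (LaurentSeries L) M y).eval a = 0)
    (ζ : L) (hζ0 : ζ ≠ 0) : CU_twist ζ hζ0 a = a ↔ ζ ^ n = 1 := by
  have : NeZero n := ⟨hn.ne'⟩
  constructor
  · intro hfix
    obtain ⟨μ₀, hμ₀, hc⟩ := ML_exists_root' hM hML n y hord hlead hexp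
    have hmem := MU_mem_orbit_of_root hM (ML_natCast_ne_zero hML) (ML_omega hω) ha hμ₀
    have h1 := ML_orbit_fixed (CU_twist ζ hζ0) M (CU_twist_C ζ hζ0 ω) hfix hmem
    have h2 := (CU_twist_eq_self_iff ζ hζ0 _).mp h1 (n * (-1)) (by
      rw [qExpand_coeff_mul]; exact hc)
    have h3 : ζ ^ ((n : ℤ) * -1) = (ζ ^ n)⁻¹ := by
      rw [mul_neg_one, zpow_neg, zpow_natCast]
    rw [h3, inv_eq_one] at h2
    exact h2
  · intro hζ
    rw [CU_twist_eq_self_iff]
    intro m hm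
    obtain ⟨k, rfl⟩ := ML_root_coeff hM hML hω n hn y hord hlead hexp a ha m hm
    rw [zpow_mul, zpow_natCast, hζ, one_zpow]

/-- **MUL, twist**, in the shape asked for by CUSP / DEG-k (helper28, helper12). -/
theorem ML_twist_root {M : ℕ} (hM : M = 2 ∨ M = 3) (hML : (M : L) ≠ 0) {ω : L}
    (hω : M = 3 → ω ^ 2 + ω + 1 = 0) (n : ℕ) (hn : 0 < n)
    (y : LaurentSeries L) (hord : y.order = -((M * n : ℕ) : ℤ)) (hlead : y.coeff y.order = 1)
    (hexp : ∀ m : ℤ, y.coeff m ≠ 0 → ((M * n : ℕ) : ℤ) ∣ m)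
    (a : LaurentSeries L) (ha : (AX_poly (LaurentSeries L) M y).eval a = 0)
    (ζ : L) (hζ0 : ζ ≠ 0) (_hζ : ζ ^ (M * n) = 1) : CU_twist ζ hζ0 a = a ↔ ζ ^ n = 1 :=
  ML_twist_root' hM hML hω n hn y hord hlead
    (fun m hm => dvd_trans ⟨(M : ℤ), by push_cast; ring⟩ (hexp m hm)) a ha ζ hζ0

/-- **MUL, one root**, in the shape asked for by CUSP / DEG-k. -/
theorem ML_exists_root {M : ℕ} (hM : M = 2 ∨ M = 3) (hML : (M : L) ≠ 0) (n : ℕ) (hn : 0 < n)
    (y : LaurentSeries L) (hord : y.order = -((M * n : ℕ) : ℤ)) (hlead : y.coeff y.order = 1)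
    (hexp : ∀ m : ℤ, y.coeff m ≠ 0 → ((M * n : ℕ) : ℤ) ∣ m) :
    ∃ a₀ : LaurentSeries L, (AX_poly (LaurentSeries L) M y).eval a₀ = 0 ∧
      (∀ m : ℤ, a₀.coeff m ≠ 0 → (n : ℤ) ∣ m) ∧ a₀.coeff (-(n : ℤ)) ≠ 0 := by
  have : NeZero n := ⟨hn.ne'⟩
  have hexp' : ∀ m : ℤ, y.coeff m ≠ 0 → (n : ℤ) ∣ m := fun m hm =>
    dvd_trans ⟨(M : ℤ), by push_cast; ring⟩ (hexp m hm)
  obtain ⟨μ₀, hμ₀, hc⟩ := ML_exists_root' hM hML n y hord hlead hexp'
  refine ⟨qExpand L n μ₀, hμ₀, fun m hm => ?_, ?_⟩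
  · by_contra hnd
    exact hm (qExpand_coeff_of_not_dvd n μ₀ hnd)
  · have : -(n : ℤ) = (n : ℤ) * (-1) := by ring
    rw [this, qExpand_coeff_mul]
    exact hc

end laurent

end Fermat.Agent.S18
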