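import Mathlib
import Fermat.Agent.S18.DegGalX
import Fermat.Agent.S18.DegAbs
import Fermat.Agent.S18.MuLaurent
import Fermat.Agent.S18.CuspAx
import Fermat.Agent.Lib.CuspEmb
import Fermat.Agent.Lib.CuspTwist

/-!
# S18, package DEG-k, piece (B): the case `M ∤ N`

Abstract over a complete family of Laurent embeddings `emb γ : F_k → L((u))` over `k(j̄)` (all with
`emb γ j̄ = x₀`, `ord x₀ = −N`, leading coefficient `1`, exponents in `N ℤ`): for a root `μ` of
`AX_poly M j̄` in a finite extension `E` of `F_k` we get `AX_deg M ≤ [E : F_k]` when `M ∤ N`.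

Proof: in `Ω = L((v))`, `v^M = u`, the twist `σ : v ↦ ζ v` (`ζ` a primitive `M`-th root of unity)
fixes the images of all conjugates of the elements of `F_k`, and moves every root of `AX_poly`
(`ML_twist_root`, `ζ^N ≠ 1`).  Hence `k(j̄)(μ) ∩ F_k = k(j̄)` by `DG_gal_hX` + `DG_inf_eq_bot'`, and
the degree bound is `DG_finrank_le_of_inf_eq_bot` + `DG_gal_finrank`.
-/

set_option autoImplicit false

open Polynomial IntermediateField ModularCurve

namespace Fermat.Agent.S18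

open Fermat.Agent.Lib

section twist

variable {L : Type*} [Field L]

/-- the twist by an `M`-th root of unity fixes the series in `v^M`. -/
theorem DG_B_twist_qExpand (M : ℕ) [NeZero M] (ζ : L) (hζ : ζ ≠ 0) (hζM : ζ ^ M = 1)
    (f : LaurentSeries L) : CU_twist ζ hζ (qExpand L M f) = qExpand L M f := by
  rw [CU_twist_eq_self_iff]
  intro n hn
  by_cases hd : (M : ℤ) ∣ n
  · obtain ⟨m, rfl⟩ := hd
    rw [zpow_mul, zpow_natCast, hζM, one_zpow]
  · exact absurd (qExpand_coeff_of_not_dvd M f hd) hn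

theorem DG_B_twist_iterate (ζ : L) (hζ : ζ ≠ 0) (j : ℕ) (a : LaurentSeries L) (n : ℤ) :
    ((CU_twist ζ hζ)^[j] a).coeff n = (ζ ^ n) ^ j * a.coeff n := by
  induction j with
  | zero => simp
  | succ j ih =>
    rw [Function.iterate_succ_apply', CU_twist_coeff, ih, pow_succ]
    ring

theorem DG_B_twist_iterate_eq (ζ : L) (hζ : ζ ≠ 0) (M : ℕ) (hζM : ζ ^ M = 1)
    (a : LaurentSeries L) : (CU_twist ζ hζ)^[M] a = a := by
  ext n
  have h1 : (ζ ^ n) ^ M = 1 := by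
    rw [← zpow_natCast, ← zpow_mul, mul_comm, zpow_mul, zpow_natCast, hζM, one_zpow]
  rw [DG_B_twist_iterate, h1, one_mul]

/-- a primitive `M`-th root of unity `ζ` with `ζ ^ N ≠ 1` for `M ∤ N`. -/
theorem DG_B_exists_zeta {M : ℕ} (hM : M = 2 ∨ M = 3) (hML : (M : L) ≠ 0) {ω : L}
    (hω : M = 3 → ω ^ 2 + ω + 1 = 0) {N : ℕ} (hMN : ¬ M ∣ N) :
    ∃ ζ : L, ζ ≠ 0 ∧ ζ ^ M = 1 ∧ ζ ^ N ≠ 1 := by
  rcases hM with rfl | rfl
  · refine ⟨-1, by simp, by simp, ?_⟩
    have hodd : Odd N := Nat.not_even_iff_odd.mp (fun h => hMN h.two_dvd)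
    rw [hodd.neg_one_pow]
    intro h
    apply hML
    have : (2 : L) = 1 - (-1) := by ring
    push_cast
    rw [this, h, sub_self]
  · have hω3 := hω rfl
    have h3 : (3 : L) ≠ 0 := by exact_mod_cast hML
    have hω0 : ω ≠ 0 := by
      intro h
      rw [h] at hω3
      simp at hω3
    have hcube : ω ^ 3 = 1 := by
      have : ω ^ 3 - 1 = (ω - 1) * (ω ^ 2 + ω + 1) := by ring
      rw [hω3, mul_zero] at this
      exact sub_eq_zero.mp this
    have hω1 : ω ≠ 1 := by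
      intro h
      rw [h] at hω3
      apply h3
      rw [← hω3]
      ring
    have hω2 : ω ^ 2 ≠ 1 := by
      intro h
      -- ω = -2, then 4 = 1
      have h1 : ω = -2 := by
        have : ω ^ 2 + ω + 1 = ω + 2 := by rw [h]; ring
        rw [this] at hω3
        exact eq_neg_of_add_eq_zero_left hω3
      rw [h1] at h
      apply h3
      have : (3 : L) = (-2) ^ 2 - 1 := by ring
      rw [this, h, sub_self]
    refine ⟨ω, hω0, hcube, ?_⟩
    have hdiv := Nat.div_add_mod N 3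
    have hmod : N % 3 = 1 ∨ N % 3 = 2 := by
      have : N % 3 ≠ 0 := fun h => hMN (Nat.dvd_of_mod_eq_zero h)
      omega
    rw [← hdiv, pow_add, pow_mul, hcube, one_pow, one_mul]
    rcases hmod with h | h <;> rw [h]
    · rwa [pow_one]
    · exact hω2

end twist

section caseB

/-- **DEG-k, piece (B)**: the case `M ∤ N`, abstract over a complete family of Laurent
embeddings. -/
theorem DG_le_finrank_caseB {k Fk E L : Type*} [Field k] [Field Fk] [Algebra k Fk] [Field E]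
    [Algebra Fk E] [FiniteDimensional Fk E] [Field L] [Algebra k L]
    {M : ℕ} (hM : M = 2 ∨ M = 3) (hMk : (M : k) ≠ 0) {ω : k} (hω : M = 3 → ω ^ 2 + ω + 1 = 0)
    {N : ℕ} (hN : 0 < N) (hMN : ¬ M ∣ N)
    {jbar : Fk} (hj : Transcendental k jbar) [FiniteDimensional k⟮jbar⟯ Fk]
    [Algebra.IsSeparable k⟮jbar⟯ Fk]
    {X : Type*} [Finite X] [Nonempty X] (emb : X → (Fk →ₐ[k] LaurentSeries L))
    (hinj : Function.Injective emb)
    (x₀ : LaurentSeries L) (hx₀ : ∀ γ, emb γ jbar = x₀)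
    (hcard : Nat.card X = Module.finrank k⟮jbar⟯ Fk)
    (hord : x₀.order = -(N : ℤ)) (hlead : x₀.coeff x₀.order = 1)
    (hexp : ∀ m : ℤ, x₀.coeff m ≠ 0 → (N : ℤ) ∣ m)
    (μ : E) (hμ : (AX_poly E M (algebraMap Fk E jbar)).eval μ = 0) :
    AX_deg M ≤ Module.finrank Fk E := by
  classical
  have hMpos : 0 < M := by rcases hM with rfl | rfl <;> norm_num
  have : NeZero M := ⟨hMpos.ne'⟩
  have : NeZero N := ⟨hN.ne'⟩
  obtain ⟨γ₀⟩ := ‹Nonempty X›
  have hML : (M : L) ≠ 0 := by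
    intro h
    apply hMk
    apply (algebraMap k L).injective
    rw [map_natCast, map_zero, h]
  have hωL : M = 3 → (algebraMap k L ω) ^ 2 + algebraMap k L ω + 1 = 0 := by
    intro h
    rw [← map_pow, ← map_add, ← map_one (algebraMap k L), ← map_add, hω h, map_zero]
  obtain ⟨ζ, hζ0, hζM, hζN⟩ := DG_B_exists_zeta hM hML hωL hMN
  -- the base field `K₀ = k(j̄)` and its generator
  have hgt : Transcendental k (AdjoinSimple.gen k jbar) := DG_gal_gen_transcendental hj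
  have htop : IntermediateField.adjoin k {AdjoinSimple.gen k jbar} =
      (⊤ : IntermediateField k k⟮jbar⟯) := DG_gal_adjoin_gen_eq_top jbar
  have hμ' : aeval μ (AX_poly k⟮jbar⟯ M (AdjoinSimple.gen k jbar)) = 0 := by
    rw [aeval_def, eval₂_eq_eval_map, AX_poly_map]
    exact hμ
  have hωK : M = 3 → (algebraMap k k⟮jbar⟯ ω) ^ 2 + algebraMap k k⟮jbar⟯ ω + 1 = 0 := by
    intro h
    rw [← map_pow, ← map_add, ← map_one (algebraMap k k⟮jbar⟯), ← map_add, hω h, map_zero]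
  -- the big field `Ω = L((v))`
  let ι₀ : k⟮jbar⟯ →+* LaurentSeries L :=
    (emb γ₀ : Fk →+* LaurentSeries L).comp (algebraMap k⟮jbar⟯ Fk)
  let algΩ : Algebra k⟮jbar⟯ (LaurentSeries L) := ((qExpand L M).comp ι₀).toAlgebra
  have halg : ∀ a : k⟮jbar⟯, algebraMap k⟮jbar⟯ (LaurentSeries L) a =
      qExpand L M (emb γ₀ (a : Fk)) := fun a => rfl
  -- the series `y = x₀(v^M)`
  have hx₀0 : x₀ ≠ 0 := by
    intro h
    rw [h] at hlead
    simp at hlead
  have hyord : (qExpand L M x₀).order = -((M * N : ℕ) : ℤ) := by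
    rw [CU_order_qExpand, hord]
    push_cast
    ring
  have hylead : (qExpand L M x₀).coeff (qExpand L M x₀).order = 1 := by
    rw [CU_order_qExpand, qExpand_coeff_mul, hlead]
  have hyexp : ∀ m : ℤ, (qExpand L M x₀).coeff m ≠ 0 → ((M * N : ℕ) : ℤ) ∣ m := by
    intro m hm
    by_cases hd : (M : ℤ) ∣ m
    · obtain ⟨m', rfl⟩ := hd
      rw [qExpand_coeff_mul] at hm
      obtain ⟨c, rfl⟩ := hexp m' hm
      exact ⟨c, by push_cast; ring⟩
    · exact absurd (qExpand_coeff_of_not_dvd M x₀ hd) hm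
  have hpolyΩ : (AX_poly k⟮jbar⟯ M (AdjoinSimple.gen k jbar)).map
      (algebraMap k⟮jbar⟯ (LaurentSeries L)) = AX_poly (LaurentSeries L) M (qExpand L M x₀) := by
    rw [AX_poly_map, halg]
    congr 2
    exact hx₀ γ₀
  have haeval : ∀ a : LaurentSeries L,
      aeval a (AX_poly k⟮jbar⟯ M (AdjoinSimple.gen k jbar)) = 0 ↔
      (AX_poly (LaurentSeries L) M (qExpand L M x₀)).eval a = 0 := by
    intro a
    rw [aeval_def, eval₂_eq_eval_map, hpolyΩ]
  -- the hypotheses of `DG_gal_hX`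
  have hσ₀ : ∀ a : k⟮jbar⟯, CU_twist ζ hζ0 (algebraMap k⟮jbar⟯ (LaurentSeries L) a) =
      algebraMap k⟮jbar⟯ (LaurentSeries L) a := by
    intro a
    rw [halg]
    exact DG_B_twist_qExpand M ζ hζ0 hζM _
  have hroot : ∃ a : LaurentSeries L,
      aeval a (AX_poly k⟮jbar⟯ M (AdjoinSimple.gen k jbar)) = 0 := by
    obtain ⟨a₀, ha₀, -⟩ := ML_exists_root hM hML N hN (qExpand L M x₀) hyord hylead hyexp
    exact ⟨a₀, (haeval a₀).mpr ha₀⟩
  have hfix : ∀ a : LaurentSeries L,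
      aeval a (AX_poly k⟮jbar⟯ M (AdjoinSimple.gen k jbar)) = 0 → CU_twist ζ hζ0 a ≠ a := by
    intro a ha h
    have hζMN : ζ ^ (M * N) = 1 := by rw [pow_mul, hζM, one_pow]
    exact hζN ((ML_twist_root hM hML hωL N hN (qExpand L M x₀) hyord hylead hyexp a
      ((haeval a).mp ha) ζ hζ0 hζMN).mp h)
  have hσM : ∀ a : LaurentSeries L,
      aeval a (AX_poly k⟮jbar⟯ M (AdjoinSimple.gen k jbar)) = 0 →
      (CU_twist ζ hζ0)^[M] a = a := fun a _ => DG_B_twist_iterate_eq ζ hζ0 M hζM a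
  -- the hypothesis `hCU` of `DG_inf_eq_bot'`
  have hCU : ∀ e ∈ (IsScalarTower.toAlgHom k⟮jbar⟯ Fk E).fieldRange, ∀ r : LaurentSeries L,
      aeval r (minpoly k⟮jbar⟯ e) = 0 → CU_twist ζ hζ0 r = r := by
    rintro e ⟨f, rfl⟩ r hr
    have hmin : minpoly k⟮jbar⟯ ((IsScalarTower.toAlgHom k⟮jbar⟯ Fk E) f) =
        minpoly k⟮jbar⟯ f :=
      minpoly.algHom_eq _ (IsScalarTower.toAlgHom k⟮jbar⟯ Fk E).injective f
    replace hr : aeval r (minpoly k⟮jbar⟯ f) = 0 := by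
      rw [← hmin]
      exact hr
    obtain ⟨hsplit, hroots⟩ := CU_emb_splits emb hinj x₀ hx₀ hcard γ₀ f
    have hint : IsIntegral k⟮jbar⟯ f := Algebra.IsIntegral.isIntegral f
    have hne : (minpoly k⟮jbar⟯ f).map ι₀ ≠ 0 :=
      (Polynomial.map_ne_zero_iff ι₀.injective).mpr (minpoly.ne_zero hint)
    have hne' : ((minpoly k⟮jbar⟯ f).map ι₀).map (qExpand L M) ≠ 0 :=
      (Polynomial.map_ne_zero_iff (qExpand L M).injective).mpr hne
    have hr' : r ∈ (((minpoly k⟮jbar⟯ f).map ι₀).map (qExpand L M)).roots := by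
      rw [mem_roots hne', IsRoot.def, Polynomial.map_map, ← eval₂_eq_eval_map]
      exact hr
    rw [hsplit.roots_map (qExpand L M)] at hr'
    obtain ⟨a, ha, rfl⟩ := Multiset.mem_map.mp hr'
    exact DG_B_twist_qExpand M ζ hζ0 hζM a
  have hX : ∀ e : k⟮jbar⟯⟮μ⟯,
      (∀ ψ : k⟮jbar⟯⟮μ⟯ →ₐ[k⟮jbar⟯] LaurentSeries L, CU_twist ζ hζ0 (ψ e) = ψ e) →
      (e : E) ∈ (⊥ : IntermediateField k⟮jbar⟯ E) := fun e he =>
    DG_gal_hX hM hMk hgt htop hωK hμ' (CU_twist ζ hζ0) hσ₀ hroot hfix hσM e he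
  have hbot := DG_inf_eq_bot' (k⟮jbar⟯⟮μ⟯) (IsScalarTower.toAlgHom k⟮jbar⟯ Fk E).fieldRange
    (CU_twist ζ hζ0) hCU hX
  have hint : IsIntegral k⟮jbar⟯ μ := DG_gal_isIntegral hM hMk hμ'
  have : FiniteDimensional k⟮jbar⟯ k⟮jbar⟯⟮μ⟯ := IntermediateField.adjoin.finiteDimensional hint
  have : IsGalois k⟮jbar⟯ k⟮jbar⟯⟮μ⟯ := DG_gal_isGalois hM hMk hωK hgt hμ'
  have hle := DG_finrank_le_of_inf_eq_bot Fk (k⟮jbar⟯⟮μ⟯) hbot
  rw [DG_gal_finrank hM hMk hgt htop hμ'] at hle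
  exact hle

end caseB

end Fermat.Agent.S18
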