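import Mathlib
import Fermat.Agent.S18.MuSep

/-!
# S18, package MU (helper16): local factorisation of `num R_M − x₀ · den R_M`

`E` a field with `2 ≠ 0`, `3 ≠ 0`; `a ∈ E` a root of `AX_poly E M x₀` (so `R_M(a) = x₀`).  Then
`AX_poly E M x₀ = (X − a)^e · W` with `W(a) ≠ 0`, where `e = MU_e x₀` is `3` for `x₀ = 0`,
`2` for `x₀ = 1728` and `1` otherwise (`MU_local_factor`, `MU_rootMultiplicity`).

The relations in the shape consumed by `ABH_local` / `ABH_ord_rel` (helper4, `S18/AbhLocal.lean`),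
for `μ, j` in any field `E ⊇ K` with `R_M(μ) = j`:
* `MU_rel`: non-cuspidal `c ∈ K`, `x₀ = R_M(c)`: `(j − x₀) · D(s) = s ^ (MU_e x₀) · W(s)`, `s = μ − c`;
* `MU_rel_cusp`: `den R_M (c) = 0`: `j⁻¹ · D(s) = s ^ M · W(s)`, `s = μ − c` (any char `∤ M`);
* `MU_rel_infty`: `j⁻¹ · D(s) = s ^ M · W(s)`, `s = μ⁻¹` (any char `∤ M`);
always with `D(0) ≠ 0`, `W(0) ≠ 0`.
-/

set_option autoImplicit false

open Polynomial

namespace Fermat.Agent.S18

section local_factor

variable {E : Type*} [Field E]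

open Classical in
/-- the ramification index of `K(μ) / K(j)` over `j = x₀` (at finite places), in
characteristic `≠ 2, 3`. -/
noncomputable def MU_e (x₀ : E) : ℕ := if x₀ = 0 then 3 else if x₀ = 1728 then 2 else 1

theorem MU_e_zero : MU_e (0 : E) = 3 := by rw [MU_e, if_pos rfl]

theorem MU_1728_ne_zero (h2 : (2 : E) ≠ 0) (h3 : (3 : E) ≠ 0) : (1728 : E) ≠ 0 := by
  have : (1728 : E) = 2 ^ 6 * 3 ^ 3 := by norm_num
  rw [this]
  exact mul_ne_zero (pow_ne_zero _ h2) (pow_ne_zero _ h3)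

theorem MU_e_1728 (h2 : (2 : E) ≠ 0) (h3 : (3 : E) ≠ 0) : MU_e (1728 : E) = 2 := by
  rw [MU_e, if_neg (MU_1728_ne_zero h2 h3), if_pos rfl]

theorem MU_e_generic {x₀ : E} (h0 : x₀ ≠ 0) (h1 : x₀ ≠ 1728) : MU_e x₀ = 1 := by
  rw [MU_e, if_neg h0, if_neg h1]

theorem MU_e_pos (x₀ : E) : 0 < MU_e x₀ := by
  unfold MU_e
  split_ifs <;> norm_num

theorem MU_e_cases (x₀ : E) : MU_e x₀ = 1 ∨ (x₀ = 1728 ∧ MU_e x₀ = 2) ∨ (x₀ = 0 ∧ MU_e x₀ = 3) := by
  unfold MU_e
  split_ifs with h0 h1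
  · exact Or.inr (Or.inr ⟨h0, rfl⟩)
  · exact Or.inr (Or.inl ⟨h1, rfl⟩)
  · exact Or.inl rfl

/-- generic case: a simple root. -/
theorem MU_local_factor_generic {M : ℕ} (hM : M = 2 ∨ M = 3) (hME : (M : E) ≠ 0) {x a : E}
    (hx0 : x ≠ 0) (hx1 : x ≠ 1728) (ha : (AX_poly E M x).eval a = 0) :
    ∃ W : E[X], AX_poly E M x = (X - C a) ^ 1 * W ∧ W.eval a ≠ 0 := by
  obtain ⟨W, hW⟩ := dvd_iff_isRoot.mpr (show (AX_poly E M x).IsRoot a from ha)
  refine ⟨W, by rw [pow_one]; exact hW, ?_⟩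
  have hd := MU_derivative_ne_zero hM hME hx0 hx1 ha
  rw [hW] at hd
  simpa using hd

theorem MU_local_factor_zero_two (h2 : (2 : E) ≠ 0) (h3 : (3 : E) ≠ 0) {a : E}
    (ha : (AX_poly E 2 0).eval a = 0) :
    ∃ W : E[X], AX_poly E 2 0 = (X - C a) ^ 3 * W ∧ W.eval a ≠ 0 := by
  have h256 : (256 : E) ≠ 0 := by
    have : (256 : E) = 2 ^ 8 := by norm_num
    rw [this]; exact pow_ne_zero _ h2
  rw [AX_poly_eval, if_pos rfl] at ha
  have hq : a ^ 2 - a + 1 = 0 := by
    have : (256 : E) * (a ^ 2 - a + 1) ^ 3 = 0 := by linear_combination ha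
    rcases mul_eq_zero.mp this with h | h
    · exact absurd h h256
    · exact pow_eq_zero_iff (by norm_num) |>.mp h
  refine ⟨256 * (X - C (1 - a)) ^ 3, ?_, ?_⟩
  · rw [AX_poly_two, C_0, zero_mul, sub_zero]
    have : (X ^ 2 - X + 1 : E[X]) = (X - C a) * (X - C (1 - a)) := by
      have hC : (C (a ^ 2 - a + 1) : E[X]) = 0 := by rw [hq, C_0]
      simp only [C_sub, C_add, C_pow, C_1] at hC ⊢
      linear_combination hC
    rw [this]
    ring
  · simp only [eval_mul, eval_pow, eval_sub, eval_X, eval_C, eval_ofNat]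
    apply mul_ne_zero h256
    apply pow_ne_zero
    intro h
    have : (3 : E) = 0 := by linear_combination 4 * hq - (2 * a - 1) * h
    exact h3 this

theorem MU_local_factor_zero_three (h2 : (2 : E) ≠ 0) (h3 : (3 : E) ≠ 0) {a : E}
    (ha : (AX_poly E 3 0).eval a = 0) :
    ∃ W : E[X], AX_poly E 3 0 = (X - C a) ^ 3 * W ∧ W.eval a ≠ 0 := by
  have h27 : (27 : E) ≠ 0 := by
    have : (27 : E) = 3 ^ 3 := by norm_num
    rw [this]; exact pow_ne_zero _ h3
  have h8 : (8 : E) ≠ 0 := by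
    have : (8 : E) = 2 ^ 3 := by norm_num
    rw [this]; exact pow_ne_zero _ h2
  rw [AX_poly_eval, if_neg (by norm_num)] at ha
  have hq : a = 0 ∨ a ^ 3 + 8 = 0 := by
    have : (27 : E) * (a ^ 3 * (a ^ 3 + 8) ^ 3) = 0 := by linear_combination ha
    rcases mul_eq_zero.mp this with h | h
    · exact absurd h h27
    · rcases mul_eq_zero.mp h with h | h
      · left; exact pow_eq_zero_iff (by norm_num) |>.mp h
      · right; exact pow_eq_zero_iff (by norm_num) |>.mp h
  rcases hq with rfl | hq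
  · refine ⟨27 * (X ^ 3 + 8) ^ 3, ?_, ?_⟩
    · rw [AX_poly_of_ne _ (by norm_num : (3 : ℕ) ≠ 2), C_0, zero_mul, sub_zero, sub_zero]
      ring
    · simp only [eval_mul, eval_pow, eval_add, eval_X, eval_ofNat]
      apply mul_ne_zero h27
      apply pow_ne_zero
      rw [zero_pow (by norm_num), zero_add]
      exact h8
  · have ha0 : a ≠ 0 := by
      rintro rfl
      apply h8
      linear_combination hq
    refine ⟨27 * (X ^ 3 * (X ^ 2 + C a * X + C a ^ 2) ^ 3), ?_, ?_⟩
    · rw [AX_poly_of_ne _ (by norm_num : (3 : ℕ) ≠ 2), C_0, zero_mul, sub_zero]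
      have : (X ^ 3 + 8 : E[X]) = (X - C a) * (X ^ 2 + C a * X + C a ^ 2) := by
        have hC : (C (a ^ 3 + 8) : E[X]) = 0 := by rw [hq, C_0]
        simp only [C_add, C_pow, C_ofNat] at hC
        linear_combination hC
      rw [this]
      ring
    · simp only [eval_mul, eval_pow, eval_add, eval_X, eval_C, eval_ofNat]
      apply mul_ne_zero h27
      apply mul_ne_zero (pow_ne_zero _ ha0)
      apply pow_ne_zero
      have : a ^ 2 + a * a + a ^ 2 = 3 * a ^ 2 := by ring
      rw [this]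
      exact mul_ne_zero h3 (pow_ne_zero _ ha0)

theorem MU_poly_1728_two :
    AX_poly E 2 1728 = 64 * ((X + 1) * (X - 2) * (2 * X - 1)) ^ 2 := by
  rw [AX_poly_two, show (C (1728 : E) : E[X]) = 1728 from map_ofNat C 1728]
  ring

theorem MU_poly_1728_three :
    AX_poly E 3 1728 = 27 * (X ^ 6 - 20 * X ^ 3 - 8) ^ 2 := by
  rw [AX_poly_of_ne _ (by norm_num : (3 : ℕ) ≠ 2),
    show (C (1728 : E) : E[X]) = 1728 from map_ofNat C 1728]
  ring

theorem MU_local_factor_1728_two (h2 : (2 : E) ≠ 0) (h3 : (3 : E) ≠ 0) {a : E}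
    (ha : (AX_poly E 2 1728).eval a = 0) :
    ∃ W : E[X], AX_poly E 2 1728 = (X - C a) ^ 2 * W ∧ W.eval a ≠ 0 := by
  have h64 : (64 : E) ≠ 0 := by
    have : (64 : E) = 2 ^ 6 := by norm_num
    rw [this]; exact pow_ne_zero _ h2
  have h9 : (9 : E) ≠ 0 := by
    have : (9 : E) = 3 ^ 2 := by norm_num
    rw [this]; exact pow_ne_zero _ h3
  have hq : a + 1 = 0 ∨ a - 2 = 0 ∨ 2 * a - 1 = 0 := by
    rw [MU_poly_1728_two] at ha
    simp only [eval_mul, eval_pow, eval_add, eval_sub, eval_X, eval_one, eval_ofNat] at ha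
    rcases mul_eq_zero.mp ha with h | h
    · exact absurd h h64
    · have := pow_eq_zero_iff (by norm_num) |>.mp h
      rcases mul_eq_zero.mp this with h | h
      · rcases mul_eq_zero.mp h with h | h
        · exact Or.inl h
        · exact Or.inr (Or.inl h)
      · exact Or.inr (Or.inr h)
  rw [MU_poly_1728_two]
  rcases hq with hq | hq | hq
  · have hCa : (C a : E[X]) = -1 := by
      have : a = -1 := by linear_combination hq
      rw [this, C_neg, C_1]
    refine ⟨64 * ((X - 2) * (2 * X - 1)) ^ 2, by rw [hCa]; ring, ?_⟩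
    simp only [eval_mul, eval_pow, eval_sub, eval_X, eval_one, eval_ofNat]
    have : a = -1 := by linear_combination hq
    rw [this]
    apply mul_ne_zero h64
    apply pow_ne_zero
    have : ((-1 : E) - 2) * (2 * -1 - 1) = 9 := by ring
    rw [this]; exact h9
  · have hCa : (C a : E[X]) = 2 := by
      have : a = 2 := by linear_combination hq
      rw [this]; exact map_ofNat C 2
    refine ⟨64 * ((X + 1) * (2 * X - 1)) ^ 2, by rw [hCa]; ring, ?_⟩
    simp only [eval_mul, eval_pow, eval_add, eval_sub, eval_X, eval_one, eval_ofNat]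
    have : a = 2 := by linear_combination hq
    rw [this]
    apply mul_ne_zero h64
    apply pow_ne_zero
    have : ((2 : E) + 1) * (2 * 2 - 1) = 9 := by ring
    rw [this]; exact h9
  · have hCa : (2 * X - 1 : E[X]) = 2 * (X - C a) := by
      have hC : (C (2 * a - 1) : E[X]) = 0 := by rw [hq, C_0]
      simp only [C_sub, C_mul, C_1, C_ofNat] at hC
      linear_combination hC
    refine ⟨256 * ((X + 1) * (X - 2)) ^ 2, by rw [hCa]; ring, ?_⟩
    simp only [eval_mul, eval_pow, eval_add, eval_sub, eval_X, eval_one, eval_ofNat]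
    have h256 : (256 : E) ≠ 0 := by
      have : (256 : E) = 2 ^ 8 := by norm_num
      rw [this]; exact pow_ne_zero _ h2
    apply mul_ne_zero h256
    apply pow_ne_zero
    intro h
    apply h9
    linear_combination (-4 : E) * h + (2 * a - 1) * hq

theorem MU_local_factor_1728_three (h2 : (2 : E) ≠ 0) (h3 : (3 : E) ≠ 0) {a : E}
    (ha : (AX_poly E 3 1728).eval a = 0) :
    ∃ W : E[X], AX_poly E 3 1728 = (X - C a) ^ 2 * W ∧ W.eval a ≠ 0 := by
  have h27 : (27 : E) ≠ 0 := by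
    have : (27 : E) = 3 ^ 3 := by norm_num
    rw [this]; exact pow_ne_zero _ h3
  have h8 : (8 : E) ≠ 0 := by
    have : (8 : E) = 2 ^ 3 := by norm_num
    rw [this]; exact pow_ne_zero _ h2
  have hq : a ^ 6 - 20 * a ^ 3 - 8 = 0 := by
    rw [MU_poly_1728_three] at ha
    simp only [eval_mul, eval_pow, eval_sub, eval_X, eval_ofNat] at ha
    rcases mul_eq_zero.mp ha with h | h
    · exact absurd h h27
    · exact pow_eq_zero_iff (by norm_num) |>.mp h
  have ha0 : a ≠ 0 := by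
    rintro rfl
    apply h8
    linear_combination -hq
  rw [MU_poly_1728_three]
  refine ⟨27 * (X ^ 5 + C a * X ^ 4 + C a ^ 2 * X ^ 3 + (C a ^ 3 - 20) * X ^ 2
    + (C a ^ 4 - 20 * C a) * X + (C a ^ 5 - 20 * C a ^ 2)) ^ 2, ?_, ?_⟩
  · have : (X ^ 6 - 20 * X ^ 3 - 8 : E[X]) = (X - C a) * (X ^ 5 + C a * X ^ 4 + C a ^ 2 * X ^ 3
        + (C a ^ 3 - 20) * X ^ 2 + (C a ^ 4 - 20 * C a) * X + (C a ^ 5 - 20 * C a ^ 2)) := by
      have hC : (C (a ^ 6 - 20 * a ^ 3 - 8) : E[X]) = 0 := by rw [hq, C_0]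
      simp only [C_sub, C_mul, C_pow, C_ofNat] at hC
      linear_combination hC
    rw [this]
    ring
  · simp only [eval_mul, eval_pow, eval_add, eval_sub, eval_X, eval_C, eval_ofNat]
    apply mul_ne_zero h27
    apply pow_ne_zero
    have e1 : a ^ 5 + a * a ^ 4 + a ^ 2 * a ^ 3 + (a ^ 3 - 20) * a ^ 2 + (a ^ 4 - 20 * a) * a
        + (a ^ 5 - 20 * a ^ 2) = 6 * a ^ 2 * (a ^ 3 - 10) := by ring
    rw [e1]
    have h6 : (6 : E) ≠ 0 := by
      have : (6 : E) = 2 * 3 := by norm_num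
      rw [this]; exact mul_ne_zero h2 h3
    apply mul_ne_zero (mul_ne_zero h6 (pow_ne_zero _ ha0))
    intro h
    have : (108 : E) = 0 := by linear_combination (a ^ 3 - 10) * h - hq
    have h108 : (108 : E) ≠ 0 := by
      have : (108 : E) = 2 ^ 2 * 3 ^ 3 := by norm_num
      rw [this]; exact mul_ne_zero (pow_ne_zero _ h2) (pow_ne_zero _ h3)
    exact h108 this

/-- **MU, local factorisation**: `num R_M − x₀ · den R_M = (X − a)^e · W`, `W(a) ≠ 0`,
`e = 3, 2, 1` for `x₀ = 0`, `x₀ = 1728`, other `x₀` (characteristic `≠ 2, 3`). -/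
theorem MU_local_factor (h2 : (2 : E) ≠ 0) (h3 : (3 : E) ≠ 0) {M : ℕ} (hM : M = 2 ∨ M = 3)
    {x a : E} (ha : (AX_poly E M x).eval a = 0) :
    ∃ W : E[X], AX_poly E M x = (X - C a) ^ MU_e x * W ∧ W.eval a ≠ 0 := by
  have hME : (M : E) ≠ 0 := by
    rcases hM with rfl | rfl
    · exact_mod_cast h2
    · exact_mod_cast h3
  by_cases hx0 : x = 0
  · subst hx0
    rw [MU_e_zero]
    rcases hM with rfl | rfl
    · exact MU_local_factor_zero_two h2 h3 ha
    · exact MU_local_factor_zero_three h2 h3 ha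
  by_cases hx1 : x = 1728
  · subst hx1
    rw [MU_e_1728 h2 h3]
    rcases hM with rfl | rfl
    · exact MU_local_factor_1728_two h2 h3 ha
    · exact MU_local_factor_1728_three h2 h3 ha
  rw [MU_e_generic hx0 hx1]
  exact MU_local_factor_generic hM hME hx0 hx1 ha

/-- the multiplicity form of `MU_local_factor`. -/
theorem MU_rootMultiplicity (h2 : (2 : E) ≠ 0) (h3 : (3 : E) ≠ 0) {M : ℕ} (hM : M = 2 ∨ M = 3)
    {x a : E} (ha : (AX_poly E M x).eval a = 0) :
    (AX_poly E M x).rootMultiplicity a = MU_e x := by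
  obtain ⟨W, hW, hWa⟩ := MU_local_factor h2 h3 hM ha
  have hME : (M : E) ≠ 0 := by
    rcases hM with rfl | rfl
    · exact_mod_cast h2
    · exact_mod_cast h3
  have hne : AX_poly E M x ≠ 0 := AX_poly_ne_zero E M x (MU_lead_ne_zero hM hME)
  have hW0 : W ≠ 0 := by
    rintro rfl
    simp at hWa
  rw [hW, rootMultiplicity_mul (by rw [← hW]; exact hne), rootMultiplicity_X_sub_C_pow,
    rootMultiplicity_eq_zero (by simpa using hWa), add_zero]

end local_factor

section numden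

variable {R : Type*} [CommRing R]

/-- the numerator of `R_M` at `t` -/
def MU_numE (M : ℕ) (t : R) : R :=
  if M = 2 then 256 * (t ^ 2 - t + 1) ^ 3 else 27 * (t ^ 3 * (t ^ 3 + 8) ^ 3)

/-- the denominator of `R_M` at `t` -/
def MU_denE (M : ℕ) (t : R) : R := if M = 2 then t ^ 2 * (t - 1) ^ 2 else (t ^ 3 - 1) ^ 3

theorem MU_eval_eq (M : ℕ) (x t : R) :
    (AX_poly R M x).eval t = MU_numE M t - x * MU_denE M t := by
  rw [AX_poly_eval, MU_numE, MU_denE]
  split_ifs <;> rfl

theorem MU_map_numE {S : Type*} [CommRing S] (f : R →+* S) (M : ℕ) (t : R) :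
    f (MU_numE M t) = MU_numE M (f t) := by
  unfold MU_numE
  split_ifs <;> simp [map_ofNat]

theorem MU_map_denE {S : Type*} [CommRing S] (f : R →+* S) (M : ℕ) (t : R) :
    f (MU_denE M t) = MU_denE M (f t) := by
  unfold MU_denE
  split_ifs <;> simp

variable (R) in
/-- the numerator of `R_M` as a polynomial -/
noncomputable def MU_numP (M : ℕ) : R[X] := MU_numE M X

variable (R) in
/-- the denominator of `R_M` as a polynomial -/
noncomputable def MU_denP (M : ℕ) : R[X] := MU_denE M X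

theorem MU_poly_eq_num_sub (M : ℕ) (x : R) : AX_poly R M x = MU_numP R M - C x * MU_denP R M := by
  rw [MU_numP, MU_denP, MU_numE, MU_denE, AX_poly]
  split_ifs <;> rfl

theorem MU_eval_numP (M : ℕ) (t : R) : (MU_numP R M).eval t = MU_numE M t := by
  rw [MU_numP, ← coe_evalRingHom, MU_map_numE, coe_evalRingHom, eval_X]

theorem MU_eval_denP (M : ℕ) (t : R) : (MU_denP R M).eval t = MU_denE M t := by
  rw [MU_denP, ← coe_evalRingHom, MU_map_denE, coe_evalRingHom, eval_X]

theorem MU_aeval_numP {S : Type*} [CommRing S] [Algebra R S] (M : ℕ) (t : S) :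
    aeval t (MU_numP R M) = MU_numE M t := by
  rw [MU_numP, ← AlgHom.coe_toRingHom, MU_map_numE, AlgHom.coe_toRingHom, aeval_X]

theorem MU_aeval_denP {S : Type*} [CommRing S] [Algebra R S] (M : ℕ) (t : S) :
    aeval t (MU_denP R M) = MU_denE M t := by
  rw [MU_denP, ← AlgHom.coe_toRingHom, MU_map_denE, AlgHom.coe_toRingHom, aeval_X]

end numden

section rel

variable {K E : Type*} [Field K] [Field E] [Algebra K E]

/-- a root of `AX_poly` is not a cusp. -/
theorem MU_denE_ne_zero {M : ℕ} (hM : M = 2 ∨ M = 3) (hMK : (M : K) ≠ 0) {x a : K}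
    (ha : (AX_poly K M x).eval a = 0) : MU_denE M a ≠ 0 := by
  rcases hM with rfl | rfl
  · obtain ⟨h0, h1⟩ := MU_ne_two (by exact_mod_cast hMK) ha
    have h1' : a - 1 ≠ 0 := fun h => h1 (by linear_combination -h)
    rw [MU_denE, if_pos rfl]
    exact mul_ne_zero (pow_ne_zero _ h0) (pow_ne_zero _ h1')
  · have := MU_ne_three (by exact_mod_cast hMK) ha
    rw [MU_denE, if_neg (by norm_num)]
    exact pow_ne_zero _ this

/-- over a non-cusp `c` there is exactly one `x₀ = R_M(c)`. -/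
theorem MU_exists_x₀ (M : ℕ) {c : K} (hc : MU_denE M c ≠ 0) :
    ∃ x₀ : K, (AX_poly K M x₀).eval c = 0 := by
  refine ⟨MU_numE M c / MU_denE M c, ?_⟩
  rw [MU_eval_eq, div_mul_cancel₀ _ hc, sub_self]

/-- **MU, the relation at a non-cuspidal point** `μ = c`, in the shape of `ABH_local`:
`(j − x₀) · D(s) = s ^ e · W(s)` for `s = μ − c`, `x₀ = R_M(c)`, `e = MU_e x₀`, `D(0), W(0) ≠ 0`. -/
theorem MU_rel (h2 : (2 : K) ≠ 0) (h3 : (3 : K) ≠ 0) {M : ℕ} (hM : M = 2 ∨ M = 3)
    {μ j : E} (hμ : (AX_poly E M j).eval μ = 0) {c x₀ : K}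
    (hc : (AX_poly K M x₀).eval c = 0) :
    ∃ D W : K[X], D.eval 0 ≠ 0 ∧ W.eval 0 ≠ 0 ∧
      (j - algebraMap K E x₀) * aeval (μ - algebraMap K E c) D =
        (μ - algebraMap K E c) ^ MU_e x₀ * aeval (μ - algebraMap K E c) W := by
  have hMK : (M : K) ≠ 0 := by
    rcases hM with rfl | rfl
    · exact_mod_cast h2
    · exact_mod_cast h3
  obtain ⟨W₀, hW₀, hW₀c⟩ := MU_local_factor h2 h3 hM hc
  refine ⟨(MU_denP K M).comp (X + C c), W₀.comp (X + C c), ?_, ?_, ?_⟩
  · rw [eval_comp, eval_add, eval_X, eval_C, zero_add, MU_eval_denP]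
    exact MU_denE_ne_zero hM hMK hc
  · rw [eval_comp, eval_add, eval_X, eval_C, zero_add]
    exact hW₀c
  · have hs : aeval (μ - algebraMap K E c) (X + C c : K[X]) = μ := by
      rw [map_add, aeval_X, aeval_C, sub_add_cancel]
    rw [aeval_comp, aeval_comp, hs, MU_aeval_denP]
    have h1 : aeval μ (AX_poly K M x₀) = MU_numE M μ - algebraMap K E x₀ * MU_denE M μ := by
      rw [aeval_def, eval₂_eq_eval_map, AX_poly_map, MU_eval_eq]
    have h2' : aeval μ (AX_poly K M x₀) = (μ - algebraMap K E c) ^ MU_e x₀ * aeval μ W₀ := by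
      rw [hW₀, map_mul, map_pow, map_sub, aeval_X, aeval_C]
    rw [MU_eval_eq] at hμ
    rw [← h2', h1]
    linear_combination -hμ

/-- **MU, the relation at a finite cusp** `μ = c` (`den R_M (c) = 0`):
`j⁻¹ · D(s) = s ^ M · W(s)` for `s = μ − c`, `D(0), W(0) ≠ 0`.  Any characteristic `∤ M`. -/
theorem MU_rel_cusp {M : ℕ} (hM : M = 2 ∨ M = 3) (hMK : (M : K) ≠ 0)
    {μ j : E} (hj : j ≠ 0) (hμ : (AX_poly E M j).eval μ = 0) {c : K} (hc : MU_denE M c = 0) :
    ∃ D W : K[X], D.eval 0 ≠ 0 ∧ W.eval 0 ≠ 0 ∧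
      j⁻¹ * aeval (μ - algebraMap K E c) D =
        (μ - algebraMap K E c) ^ M * aeval (μ - algebraMap K E c) W := by
  have hs : aeval (μ - algebraMap K E c) (X + C c : K[X]) = μ := by
    rw [map_add, aeval_X, aeval_C, sub_add_cancel]
  rw [MU_eval_eq] at hμ
  have hnum : MU_numE M μ = j * MU_denE M μ := by linear_combination hμ
  rcases hM with rfl | rfl
  · have h2 : (2 : K) ≠ 0 := by exact_mod_cast hMK
    have h256 : (256 : K) ≠ 0 := by
      have : (256 : K) = 2 ^ 8 := by norm_num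
      rw [this]; exact pow_ne_zero _ h2
    rw [MU_denE, if_pos rfl] at hc
    have hc' : c = 0 ∨ c = 1 := by
      rcases mul_eq_zero.mp hc with h | h
      · left; exact pow_eq_zero_iff (by norm_num) |>.mp h
      · right
        have := pow_eq_zero_iff (by norm_num) |>.mp h
        linear_combination this
    refine ⟨(MU_numP K 2).comp (X + C c), (X + C (2 * c - 1)) ^ 2, ?_, ?_, ?_⟩
    · rw [eval_comp, eval_add, eval_X, eval_C, zero_add, MU_eval_numP, MU_numE, if_pos rfl]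
      apply mul_ne_zero h256
      apply pow_ne_zero
      rcases hc' with rfl | rfl <;> norm_num
    · rw [eval_pow, eval_add, eval_X, eval_C, zero_add]
      apply pow_ne_zero
      rcases hc' with rfl | rfl <;> norm_num
    · rw [aeval_comp, hs, MU_aeval_numP, hnum, ← mul_assoc, inv_mul_cancel₀ hj, one_mul,
        MU_denE, if_pos rfl]
      simp only [map_pow, map_add, aeval_X, aeval_C, map_sub, map_one, map_mul, map_ofNat]
      rcases hc' with rfl | rfl
      · simp only [map_zero]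
        ring
      · simp only [map_one]
        ring
  · have h3 : (3 : K) ≠ 0 := by exact_mod_cast hMK
    have h27 : (27 : K) ≠ 0 := by
      have : (27 : K) = 3 ^ 3 := by norm_num
      rw [this]; exact pow_ne_zero _ h3
    rw [MU_denE, if_neg (by norm_num)] at hc
    have hc3 : c ^ 3 = 1 := by
      have := pow_eq_zero_iff (by norm_num) |>.mp hc
      linear_combination this
    have hc0 : c ≠ 0 := by
      rintro rfl
      norm_num at hc3
    refine ⟨(MU_numP K 3).comp (X + C c), (X ^ 2 + 3 * C c * X + 3 * C c ^ 2) ^ 3, ?_, ?_, ?_⟩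
    · rw [eval_comp, eval_add, eval_X, eval_C, zero_add, MU_eval_numP, MU_numE,
        if_neg (by norm_num), hc3]
      have : (27 : K) * (1 * (1 + 8) ^ 3) = 3 ^ 9 := by norm_num
      rw [this]
      exact pow_ne_zero _ h3
    · simp only [eval_pow, eval_add, eval_mul, eval_X, eval_C, eval_ofNat]
      apply pow_ne_zero
      have : (0 : K) ^ 2 + 3 * c * 0 + 3 * c ^ 2 = 3 * c ^ 2 := by ring
      rw [this]
      exact mul_ne_zero h3 (pow_ne_zero _ hc0)
    · rw [aeval_comp, hs, MU_aeval_numP, hnum, ← mul_assoc, inv_mul_cancel₀ hj, one_mul,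
        MU_denE, if_neg (by norm_num)]
      simp only [map_pow, map_add, map_mul, aeval_X, aeval_C, map_ofNat]
      have hc3' : (algebraMap K E c) ^ 3 = 1 := by rw [← map_pow, hc3, map_one]
      linear_combination (exp := 1) (3 * (μ ^ 3 - 1) ^ 2 - 3 * (μ ^ 3 - 1) * (algebraMap K E c ^ 3 - 1)
        + (algebraMap K E c ^ 3 - 1) ^ 2) * hc3'

/-- **MU, the relation at the cusp** `μ = ∞`: `j⁻¹ · D(s) = s ^ M · W(s)` for `s = μ⁻¹`. -/
theorem MU_rel_infty {M : ℕ} (hM : M = 2 ∨ M = 3) (hMK : (M : K) ≠ 0)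
    {μ j : E} (hj : j ≠ 0) (hμ0 : μ ≠ 0) (hμ : (AX_poly E M j).eval μ = 0) :
    ∃ D W : K[X], D.eval 0 ≠ 0 ∧ W.eval 0 ≠ 0 ∧
      j⁻¹ * aeval μ⁻¹ D = μ⁻¹ ^ M * aeval μ⁻¹ W := by
  rw [MU_eval_eq] at hμ
  have hnum : MU_numE M μ = j * MU_denE M μ := by linear_combination hμ
  rcases hM with rfl | rfl
  · have h2 : (2 : K) ≠ 0 := by exact_mod_cast hMK
    have h256 : (256 : K) ≠ 0 := by
      have : (256 : K) = 2 ^ 8 := by norm_num
      rw [this]; exact pow_ne_zero _ h2
    refine ⟨256 * (1 - X + X ^ 2) ^ 3, (1 - X) ^ 2, ?_, ?_, ?_⟩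
    · simp only [eval_mul, eval_pow, eval_add, eval_sub, eval_X, eval_one, eval_ofNat]
      norm_num
      exact h256
    · simp
    · simp only [map_mul, map_pow, map_add, map_sub, aeval_X, map_one, map_ofNat]
      rw [MU_numE, MU_denE, if_pos rfl, if_pos rfl] at hnum
      rw [inv_mul_eq_iff_eq_mul₀ hj]
      field_simp
      linear_combination hnum
  · have h3 : (3 : K) ≠ 0 := by exact_mod_cast hMK
    have h27 : (27 : K) ≠ 0 := by
      have : (27 : K) = 3 ^ 3 := by norm_num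
      rw [this]; exact pow_ne_zero _ h3
    refine ⟨27 * (1 + 8 * X ^ 3) ^ 3, (1 - X ^ 3) ^ 3, ?_, ?_, ?_⟩
    · simp only [eval_mul, eval_pow, eval_add, eval_X, eval_one, eval_ofNat]
      norm_num
      exact h27
    · simp
    · simp only [map_mul, map_pow, map_add, map_sub, aeval_X, map_one, map_ofNat]
      rw [MU_numE, MU_denE, if_neg (by norm_num), if_neg (by norm_num)] at hnum
      rw [inv_mul_eq_iff_eq_mul₀ hj]
      field_simp
      linear_combination hnum

end rel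

end Fermat.Agent.S18
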