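import Mathlib
import Fermat.Agent.S24.FFBasic
import Fermat.Agent.S24.ResidueField
import Fermat.Agent.Lib.RiemannCharZero
import Fermat.Agent.S18.MuLocal

/-!
# S18, package ABH (helper4): the auxiliary field `F' = F(μ)` is a function field

`K ⊆ F` a function field of one variable (`F / K(x)` finite, `x` transcendental),
`F' = AX_F' F M x` the splitting field of `num R_M − x · den R_M`, `μ = AX_mu F M x`.

* `ABH_isFunctionField1`: an algebraic extension of a function field of one variable is one.
* `ABH_finite_tower`: `F' / K(x)` is finite if `F / K(x)` and `F' / F` are.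
* `ABH_mu_transcendental`, `ABH_finite_mu`: `μ` is transcendental over `K`, `F' / K(μ)` is finite.
* `ABH_rrHyp`: the hypotheses of Riemann's theorem for `F'` (characteristic zero).
-/

set_option autoImplicit false

open Polynomial AlgebraicCurve IntermediateField Cardinal

namespace Fermat.Agent.S18

open Fermat.Agent.Lib Fermat.Agent.S24

universe u v w

section general

open scoped IntermediateField.algebraAdjoinAdjoin in
theorem ABH_trdeg_le_one {K : Type u} {E : Type v} [Field K] [Field E] [Algebra K E]
    (hE : S24_IsFunctionField1 K E) : Algebra.trdeg K E ≤ 1 := by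
  by_cases h : ∃ x : E, Transcendental K x
  · obtain ⟨x, hx⟩ := h
    have h1 := hE x hx
    have halg : Algebra.IsAlgebraic (Algebra.adjoin K {x}) E :=
      ⟨fun z => (IsFractionRing.isAlgebraic_iff (Algebra.adjoin K {x}) K⟮x⟯ E).mpr
        (h1.isAlgebraic z)⟩
    have := Algebra.IsAlgebraic.trdeg_le_cardinalMk K ({x} : Set E)
    simpa using this
  · push Not at h
    have : Algebra.IsAlgebraic K E := ⟨fun z => by
      by_contra hz
      exact h z hz⟩
    rw [trdeg_eq_zero]
    exact zero_le_one

/-- an algebraic extension of a function field of one variable is a function field of one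
variable. -/
theorem ABH_isFunctionField1 {K : Type u} {E : Type v} {E' : Type w} [Field K] [Field E]
    [Field E'] [Algebra K E] [Algebra K E'] [Algebra E E'] [IsScalarTower K E E']
    [Algebra.IsAlgebraic E E'] (hE : S24_IsFunctionField1 K E) : S24_IsFunctionField1 K E' := by
  intro y hy
  have h1 := ABH_trdeg_le_one hE
  have h2 : Algebra.trdeg E E' = 0 := trdeg_eq_zero
  have h3 := lift_trdeg_add_eq K E E'
  rw [h2, lift_zero, add_zero] at h3
  have hind : AlgebraicIndependent K (fun _ : Unit => y) :=
    algebraicIndependent_unique_type_iff.mpr hy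
  have hB : IsTranscendenceBasis K (fun _ : Unit => y) := by
    refine hind.isTranscendenceBasis_of_lift_trdeg_le_of_finite ?_
    have h4 : Cardinal.lift.{w} (Algebra.trdeg K E) ≤ 1 := by
      have := Cardinal.lift_le.{w, v}.2 h1
      rwa [Cardinal.lift_one] at this
    rw [h3] at h4
    have h5 : Algebra.trdeg K E' ≤ 1 := by
      have h6 : Cardinal.lift.{v} (Algebra.trdeg K E') ≤ Cardinal.lift.{v} 1 := by
        rwa [Cardinal.lift_one]
      exact Cardinal.lift_le.1 h6
    simp only [mk_fintype, Fintype.card_unit, Nat.cast_one, Cardinal.lift_one]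
    have h7 := Cardinal.lift_le.{0, w}.2 h5
    rwa [Cardinal.lift_one] at h7
  have := hB.isAlgebraic_field
  have hr : Set.range (fun _ : Unit => y) = {y} := Set.range_const
  rwa [hr] at this

/-- `F' / K(x)` is finite if `F / K(x)` and `F' / F` are. -/
theorem ABH_finite_tower {K : Type u} {F : Type v} {F' : Type w} [Field K] [Field F] [Field F']
    [Algebra K F] [Algebra K F'] [Algebra F F'] [IsScalarTower K F F'] (x : F)
    [FiniteDimensional K⟮x⟯ F] [FiniteDimensional F F'] :
    FiniteDimensional K⟮algebraMap F F' x⟯ F' := by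
  set φ : F →ₐ[K] F' := IsScalarTower.toAlgHom K F F' with hφ
  have hmap : K⟮x⟯.map φ = K⟮algebraMap F F' x⟯ := by
    rw [IntermediateField.adjoin_map, Set.image_singleton]
    rfl
  have hfin : Module.Finite K⟮x⟯ F' := Module.Finite.trans F F'
  set e : K⟮x⟯ ≃ₐ[K] K⟮algebraMap F F' x⟯ :=
    (IntermediateField.equivMap K⟮x⟯ φ).trans (IntermediateField.equivOfEq hmap) with he
  have hcoe : ∀ r : K⟮x⟯, ((e r : K⟮algebraMap F F' x⟯) : F') = algebraMap F F' (r : F) := by
    intro r
    rfl
  have hrank := rank_eq_of_equiv_equiv (R := K⟮x⟯) (R' := K⟮algebraMap F F' x⟯) (M := F')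
    (M₁ := F') e (AddEquiv.refl F') e.bijective (by
      intro r m
      simp only [AddEquiv.refl_apply]
      rw [IntermediateField.smul_def, IntermediateField.smul_def, hcoe, Algebra.smul_def,
        smul_eq_mul])
  have h1 : Module.rank K⟮x⟯ F' < ℵ₀ := Module.rank_lt_aleph0_iff.2 hfin
  rw [hrank] at h1
  exact Module.rank_lt_aleph0_iff.1 h1

end general

section aux

variable {K : Type*} {F : Type*} [Field K] [Field F] [Algebra K F] (M : ℕ) (x : F)

/-- `x = num R_M (μ) / den R_M (μ)` lies in `K(μ)`. -/
theorem ABH_x_mem_adjoin_mu (hM : M = 2 ∨ M = 3) (hMF : (M : F) ≠ 0) :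
    algebraMap F (AX_F' F M x) x ∈ K⟮AX_mu F M x⟯ := by
  set F' := AX_F' F M x with hF'
  set μ := AX_mu F M x with hμ
  have hlead : (AX_lead M : F) ≠ 0 := MU_lead_ne_zero hM hMF
  have hMF' : (M : F') ≠ 0 := by
    have : ((M : ℕ) : F') = algebraMap F F' (M : F) := by rw [map_natCast]
    rw [this]
    exact fun h => hMF ((algebraMap F F').injective (by rw [h, map_zero]))
  have h0 : (AX_poly F' M (algebraMap F F' x)).eval μ = 0 := AX_mu_eval F M x hlead
  have hden : MU_denE M μ ≠ 0 := MU_denE_ne_zero hM hMF' h0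
  rw [MU_eval_eq] at h0
  have hx : algebraMap F F' x = MU_numE M μ / MU_denE M μ := by
    rw [eq_div_iff hden]
    linear_combination -h0
  rw [hx, IntermediateField.mem_adjoin_simple_iff]
  exact ⟨MU_numP K M, MU_denP K M, by rw [MU_aeval_numP, MU_aeval_denP]⟩

/-- `μ` is transcendental over `K`. -/
theorem ABH_mu_transcendental (hM : M = 2 ∨ M = 3) (hMF : (M : F) ≠ 0)
    (hx : Transcendental K x) : Transcendental K (AX_mu F M x) := by
  intro halg
  have h1 : Algebra.IsAlgebraic K K⟮AX_mu F M x⟯ :=
    IntermediateField.isAlgebraic_adjoin_simple halg.isIntegral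
  have h2 := ABH_x_mem_adjoin_mu (K := K) M x hM hMF
  have h3 : IsAlgebraic K (⟨_, h2⟩ : K⟮AX_mu F M x⟯) := h1.isAlgebraic _
  have h4 : IsAlgebraic K (algebraMap F (AX_F' F M x) x) := by
    have := h3.algHom (K⟮AX_mu F M x⟯.val)
    exact this
  exact hx ((isAlgebraic_algebraMap_iff (algebraMap F (AX_F' F M x)).injective).1 h4)

/-- `F' / K(μ)` is finite. -/
theorem ABH_finite_mu (hM : M = 2 ∨ M = 3) (hMF : (M : F) ≠ 0)
    (hx : Transcendental K x) [FiniteDimensional K⟮x⟯ F] :
    FiniteDimensional K⟮AX_mu F M x⟯ (AX_F' F M x) :=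
  BL_finite_of_transcendental (ABH_finite_tower (K := K) (F' := AX_F' F M x) x)
    (ABH_mu_transcendental M x hM hMF hx)

/-- `F'` is a function field of one variable. -/
theorem ABH_isFunctionField1_aux [FiniteDimensional K⟮x⟯ F] :
    S24_IsFunctionField1 K (AX_F' F M x) :=
  ABH_isFunctionField1 (E := F)
    (S24_isFunctionField1_of_isAlgebraic x (Algebra.IsAlgebraic.of_finite _ _))

/-- the hypotheses of Riemann's theorem hold for `F'` (characteristic zero). -/
theorem ABH_rrHyp [IsAlgClosed K] [CharZero K] (hM : M = 2 ∨ M = 3) (hMF : (M : F) ≠ 0)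
    (hx : Transcendental K x) [FiniteDimensional K⟮x⟯ F] : RR_Hyp K (AX_F' F M x) := by
  have := ABH_finite_mu (K := K) M x hM hMF hx
  exact RR_hyp_of_charZero (ABH_mu_transcendental M x hM hMF hx)

end aux

end Fermat.Agent.S18
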