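import Mathlib
import Fermat.Agent.Lib.LocalEtale
import Fermat.Agent.S24.ResidueField

/-!
# S18, package ABH (helper4): Abhyankar's lemma, local form

`K ⊆ E ⊆ E' = E[s]` function fields of one variable over an algebraically closed field `K` of
characteristic zero, `w` a place of `E'`, `P` its restriction to `E`.  Let `y ∈ E`, `s ∈ E'` with
`ord_w s > 0` be related by `y · D(s) = s ^ e · W(s)` with polynomials `D, W` over `K`,
`D(0) ≠ 0`, `W(0) ≠ 0`.  If `ord_P y = e` or `ord_P y = 1`, then `ord_w s = 1`.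

* `ord_P y = e` (`ABH_caseI`): `z = s / t` (`t` a uniformizer at `P`) is a root of
  `G(Z) = Z ^ e · W(tZ) − u · D(tZ)`, `u = y / t ^ e`, and `G'(z)` is a unit: the local étale
  lemma `LE_ramificationIndex_eq_one` applies.
* `ord_P y = 1` (`ABH_caseII`): `y` is a uniformizer at `P` and `y ∈ K(s)`, so `K(s)` is dense
  in `E[s]` at `w`; hence some element of `K(s)` has order `1` at `w`, while the order of every
  element of `K(s)` is a multiple of `ord_w s`.
-/

set_option autoImplicit false

open Polynomial AlgebraicCurve IntermediateField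

namespace Fermat.Agent.S18

open Fermat.Agent.Lib Fermat.Agent.S24

section Basic

variable {K F : Type*} [Field K] [Field F] [Algebra K F]

/-- every element of `O_v` is congruent to a constant -/
theorem ABH_exists_const [IsAlgClosed K] (hF : S24_IsFunctionField1 K F) (v : Place K F)
    {u : F} (hu : u ∈ v.toValuationSubring) :
    ∃ a : K, u - algebraMap K F a ∈ v.toValuationSubring.nonunits := by
  obtain ⟨a, ha⟩ := S24_residue_surjective hF v
    (IsLocalRing.residue v.toValuationSubring ⟨u, hu⟩)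
  refine ⟨a, ?_⟩
  have hmem : (⟨u, hu⟩ : v.toValuationSubring) - algebraMap K v.toValuationSubring a ∈
      IsLocalRing.maximalIdeal v.toValuationSubring := by
    rw [← Ideal.Quotient.eq_zero_iff_mem]
    show IsLocalRing.residue v.toValuationSubring
      ((⟨u, hu⟩ : v.toValuationSubring) - algebraMap K v.toValuationSubring a) = 0
    rw [map_sub, ← ha]
    exact sub_eq_zero.2 rfl
  rw [ValuationSubring.mem_nonunits_iff_exists_mem_maximalIdeal]
  exact ⟨v.toValuationSubring.sub_mem hu (v.algebraMap_mem' a), hmem⟩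

theorem ABH_aeval_mem (v : Place K F) {s : F} (hs : s ∈ v.toValuationSubring) (A : K[X]) :
    aeval s A ∈ v.toValuationSubring := by
  rw [aeval_eq_sum_range]
  refine sum_mem fun i _ => ?_
  rw [Algebra.smul_def]
  exact mul_mem (v.algebraMap_mem' _) (pow_mem hs i)

theorem ABH_aeval_sub_mem_nonunits (v : Place K F) {s : F}
    (hs : s ∈ v.toValuationSubring.nonunits) (A : K[X]) :
    aeval s A - algebraMap K F (A.eval 0) ∈ v.toValuationSubring.nonunits := by
  have hsO : s ∈ v.toValuationSubring := ValuationSubring.nonunits_subset hs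
  have h1 : aeval s A = s * aeval s A.divX + algebraMap K F (A.eval 0) := by
    conv_lhs => rw [← Polynomial.divX_mul_X_add A]
    rw [map_add, map_mul, aeval_X, aeval_C, Polynomial.coeff_zero_eq_eval_zero, mul_comm]
  rw [h1, add_sub_cancel_right]
  exact S24_mul_mem_nonunits _ hs (ABH_aeval_mem v hsO _)

/-- a polynomial with nonzero constant term takes a unit value at an element of the maximal
ideal. -/
theorem ABH_aeval_unit (v : Place K F) {s : F} (hs : s ∈ v.toValuationSubring.nonunits)
    (A : K[X]) (hA : A.eval 0 ≠ 0) :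
    aeval s A ≠ 0 ∧ aeval s A ∈ v.toValuationSubring ∧ (aeval s A)⁻¹ ∈ v.toValuationSubring ∧
      v.ord (aeval s A) = 0 := by
  have hc0 : algebraMap K F (A.eval 0) ≠ 0 := by
    intro h0
    exact hA ((algebraMap K F).injective (by rw [h0, map_zero]))
  have hc : algebraMap K F (A.eval 0) ∈ v.toValuationSubring := v.algebraMap_mem' _
  have hc' : (algebraMap K F (A.eval 0))⁻¹ ∈ v.toValuationSubring := by
    rw [← map_inv₀]
    exact v.algebraMap_mem' _
  obtain ⟨h1, h2, h3⟩ := LE_unit_add v.toValuationSubring hc0 hc hc'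
    (ABH_aeval_sub_mem_nonunits v hs A)
  rw [add_sub_cancel] at h1 h2 h3
  refine ⟨h3, h1, h2, ?_⟩
  have h4 := (BG_mem_iff_ord_nonneg v h3).1 h1
  have h5 := (BG_mem_iff_ord_nonneg v (inv_ne_zero h3)).1 h2
  rw [v.ord_inv] at h5
  omega

/-- the order of a polynomial in `s` is a multiple of the order of `s`. -/
theorem ABH_ord_aeval (v : Place K F) {s : F} (hs0 : s ≠ 0) (hs : 0 < v.ord s)
    (A : K[X]) (hA : A ≠ 0) :
    aeval s A ≠ 0 ∧ v.ord (aeval s A) = (A.rootMultiplicity 0 : ℤ) * v.ord s := by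
  obtain ⟨q, hq, hnd⟩ := Polynomial.exists_eq_pow_rootMultiplicity_mul_and_not_dvd A hA 0
  rw [map_zero, sub_zero] at hq hnd
  have hq0 : q.eval 0 ≠ 0 := by
    intro h0
    apply hnd
    rw [Polynomial.X_dvd_iff, Polynomial.coeff_zero_eq_eval_zero]
    exact h0
  have hsn : s ∈ v.toValuationSubring.nonunits := (BG_mem_nonunits_iff_ord_pos v hs0).2 hs
  obtain ⟨hu0, -, -, hu⟩ := ABH_aeval_unit v hsn q hq0
  have hA' : aeval s A = s ^ A.rootMultiplicity 0 * aeval s q := by
    conv_lhs => rw [hq]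
    rw [map_mul, map_pow, aeval_X]
  have hp0 : s ^ A.rootMultiplicity 0 ≠ 0 := pow_ne_zero _ hs0
  refine ⟨by rw [hA']; exact mul_ne_zero hp0 hu0, ?_⟩
  rw [hA', v.ord_mul hp0 hu0, hu, add_zero]
  have := v.ord_zpow s (A.rootMultiplicity 0 : ℤ)
  rwa [zpow_natCast] at this

/-- the order of every nonzero element of `K(s)` is a multiple of the order of `s`. -/
theorem ABH_ord_field (v : Place K F) {s : F} (hs0 : s ≠ 0) (hs : 0 < v.ord s)
    {b : F} (hb : b ∈ K⟮s⟯) (hb0 : b ≠ 0) : v.ord s ∣ v.ord b := by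
  obtain ⟨A, B, rfl⟩ := (IntermediateField.mem_adjoin_simple_iff K b).1 hb
  have hB0 : aeval s B ≠ 0 := by
    intro h0
    rw [h0, div_zero] at hb0
    exact hb0 rfl
  have hA0 : aeval s A ≠ 0 := by
    intro h0
    rw [h0, zero_div] at hb0
    exact hb0 rfl
  have hA : A ≠ 0 := by
    rintro rfl
    exact hA0 (map_zero _)
  have hB : B ≠ 0 := by
    rintro rfl
    exact hB0 (map_zero _)
  obtain ⟨-, h1⟩ := ABH_ord_aeval v hs0 hs A hA
  obtain ⟨-, h2⟩ := ABH_ord_aeval v hs0 hs B hB
  rw [div_eq_mul_inv, v.ord_mul hA0 (inv_ne_zero hB0), v.ord_inv, h1, h2]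
  exact ⟨(A.rootMultiplicity 0 : ℤ) - (B.rootMultiplicity 0 : ℤ), by ring⟩

/-- **Taylor expansion** at a place with residue field `K` with respect to a uniformizer `y`. -/
theorem ABH_taylor [IsAlgClosed K] (hF : S24_IsFunctionField1 K F) (v : Place K F) {y : F}
    (hy : v.ord y = 1) {c : F} (hc : c ∈ v.toValuationSubring) (m : ℕ) :
    ∃ q : K[X], ∃ r : F, r ∈ v.toValuationSubring ∧ c = aeval y q + y ^ m * r := by
  have hy0 : y ≠ 0 := by
    rintro rfl
    rw [Place.ord_zero] at hy
    exact zero_ne_one hy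
  induction m with
  | zero => exact ⟨0, c, hc, by simp⟩
  | succ m ih =>
    obtain ⟨q, r, hr, hqr⟩ := ih
    obtain ⟨κ, hκ⟩ := ABH_exists_const hF v hr
    refine ⟨q + C κ * X ^ m, (r - algebraMap K F κ) / y, ?_, ?_⟩
    · by_cases h0 : r - algebraMap K F κ = 0
      · rw [h0, zero_div]
        exact zero_mem _
      · have h1 := (BG_mem_nonunits_iff_ord_pos v h0).1 hκ
        rw [BG_mem_iff_ord_nonneg v (div_ne_zero h0 hy0), div_eq_mul_inv,
          v.ord_mul h0 (inv_ne_zero hy0), v.ord_inv, hy]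
        omega
    · rw [hqr, map_add, map_mul, aeval_C, map_pow, aeval_X]
      field_simp
      ring

end Basic

section CaseII

variable {K E E' : Type*} [Field K] [Field E] [Field E'] [Algebra K E] [Algebra K E']
  [Algebra E E'] [IsScalarTower K E E']

omit [Algebra K E] [IsScalarTower K E E'] in
/-- the relation `y · D(s) = s ^ e · W(s)` determines the order of `y`. -/
theorem ABH_ord_rel (w : Place K E') (y : E) (s : E') (e : ℕ) (D W : K[X])
    (hD : D.eval 0 ≠ 0) (hW : W.eval 0 ≠ 0)
    (hrel : algebraMap E E' y * aeval s D = s ^ e * aeval s W) (hs : 0 < w.ord s) :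
    s ≠ 0 ∧ algebraMap E E' y ≠ 0 ∧ w.ord (algebraMap E E' y) = e * w.ord s ∧
      algebraMap E E' y = s ^ e * aeval s W / aeval s D := by
  have hs0 : s ≠ 0 := by
    rintro rfl
    rw [Place.ord_zero] at hs
    exact lt_irrefl _ hs
  have hsn : s ∈ w.toValuationSubring.nonunits := (BG_mem_nonunits_iff_ord_pos w hs0).2 hs
  obtain ⟨hD0, -, -, hDu⟩ := ABH_aeval_unit w hsn D hD
  obtain ⟨hW0, -, -, hWu⟩ := ABH_aeval_unit w hsn W hW
  have hse : s ^ e ≠ 0 := pow_ne_zero _ hs0
  have hy0 : algebraMap E E' y ≠ 0 := by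
    intro h0
    rw [h0, zero_mul] at hrel
    exact mul_ne_zero hse hW0 hrel.symm
  refine ⟨hs0, hy0, ?_, ?_⟩
  · have h1 := congrArg w.ord hrel
    rw [w.ord_mul hy0 hD0, w.ord_mul hse hW0, hDu, hWu, add_zero, add_zero] at h1
    rw [h1]
    have := w.ord_zpow s (e : ℤ)
    rwa [zpow_natCast] at this
  · rw [eq_div_iff hD0]
    exact hrel

variable [Algebra.IsIntegral E E']

/-- **Abhyankar's lemma, case `e_P = 1`** (any characteristic). -/
theorem ABH_caseII [IsAlgClosed K] (hE : S24_IsFunctionField1 K E)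
    (w : Place K E') (y : E) (s : E') (e : ℕ) (D W : K[X])
    (hD : D.eval 0 ≠ 0) (hW : W.eval 0 ≠ 0)
    (hrel : algebraMap E E' y * aeval s D = s ^ e * aeval s W) (hs : 0 < w.ord s)
    (hgen : ∀ z : E', ∃ p : E[X], aeval s p = z)
    (hy : (w.restrict E).ord y = 1) : w.ord s = 1 := by
  classical
  obtain ⟨hs0, hy0', hordy, hyeq⟩ := ABH_ord_rel w y s e D W hD hW hrel hs
  set y' := algebraMap E E' y with hy'
  set a : ℤ := (Place.ramificationIndex (F := E) w : ℤ) with ha
  have hapos : 0 < a := by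
    rw [ha]
    exact_mod_cast w.ramificationIndex_pos (F := E)
  have hya : w.ord y' = a := by
    rw [hy', w.ord_restrict y, hy, mul_one]
  have hsO : s ∈ w.toValuationSubring := (BG_mem_iff_ord_nonneg w hs0).2 hs.le
  -- `y' ∈ K(s)`
  have hsK : s ∈ K⟮s⟯ := IntermediateField.mem_adjoin_simple_self K s
  have haevK : ∀ A : K[X], aeval s A ∈ K⟮s⟯ := by
    intro A
    rw [IntermediateField.mem_adjoin_simple_iff]
    exact ⟨A, 1, by simp⟩
  have hyK : y' ∈ K⟮s⟯ := by
    rw [hyeq]
    exact div_mem (mul_mem (pow_mem hsK e) (haevK W)) (haevK D)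
  -- a uniformizer
  obtain ⟨π, hπ⟩ := IsDiscreteValuationRing.exists_irreducible w.toValuationSubring
  have hπ1 : w.ord (π : E') = 1 := w.ord_coe_irreducible hπ
  have hπ0 : (π : E') ≠ 0 := by
    intro h0
    rw [h0, Place.ord_zero] at hπ1
    exact zero_ne_one hπ1
  obtain ⟨p, hp⟩ := hgen (π : E')
  obtain ⟨k, hk⟩ := LE_exists_scale w y (by rw [← hy', hya]; exact hapos) p
  -- Taylor expansions of the scaled coefficients
  have hT : ∀ n : ℕ, ∃ q : K[X], ∃ r : E, r ∈ (w.restrict E).toValuationSubring ∧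
      y ^ k * p.coeff n = aeval y q + y ^ (k + 2) * r := fun n =>
    ABH_taylor hE (w.restrict E) hy (c := y ^ k * p.coeff n) (hk n) (k + 2)
  choose q r hr hqr using hT
  set b : E' := ∑ n ∈ Finset.range (p.natDegree + 1), aeval y' (q n) * s ^ n with hb
  set ρ : E' := ∑ n ∈ Finset.range (p.natDegree + 1), algebraMap E E' (r n) * s ^ n with hρ
  have hbK : b ∈ K⟮s⟯ := by
    rw [hb]
    refine sum_mem fun n _ => mul_mem ?_ (pow_mem hsK n)
    rw [aeval_eq_sum_range]
    refine sum_mem fun i _ => ?_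
    rw [Algebra.smul_def]
    exact mul_mem (K⟮s⟯.algebraMap_mem _) (pow_mem hyK i)
  have hρO : ρ ∈ w.toValuationSubring := by
    rw [hρ]
    exact sum_mem fun n _ => mul_mem (hr n) (pow_mem hsO n)
  have hsum : y' ^ k * (π : E') = b + y' ^ (k + 2) * ρ := by
    rw [← hp, aeval_eq_sum_range, Finset.mul_sum, hb, hρ, Finset.mul_sum, ← Finset.sum_add_distrib]
    refine Finset.sum_congr rfl fun n _ => ?_
    rw [Algebra.smul_def, ← mul_assoc, ← mul_assoc, ← add_mul]
    congr 1
    have h1 := congrArg (algebraMap E E') (hqr n)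
    rw [map_mul, map_pow, map_add, map_mul, map_pow] at h1
    rw [← hy'] at h1
    rw [h1]
    congr 1
    exact (Polynomial.aeval_algebraMap_apply E' y (q n)).symm
  have hyk0 : y' ^ k ≠ 0 := pow_ne_zero _ hy0'
  have hordk : w.ord (y' ^ k * (π : E')) = k * a + 1 := by
    rw [w.ord_mul hyk0 hπ0, hπ1]
    have := w.ord_zpow y' (k : ℤ)
    rw [zpow_natCast] at this
    rw [this, hya]
  -- `b` has order `k a + 1`
  have hbord : b ≠ 0 ∧ w.ord b = k * a + 1 := by
    by_cases hρ0 : ρ = 0
    · rw [hρ0, mul_zero, add_zero] at hsum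
      rw [← hsum]
      exact ⟨mul_ne_zero hyk0 hπ0, hordk⟩
    · have hm0 : y' ^ (k + 2) * ρ ≠ 0 := mul_ne_zero (pow_ne_zero _ hy0') hρ0
      have hordm : (k + 2 : ℤ) * a ≤ w.ord (y' ^ (k + 2) * ρ) := by
        rw [w.ord_mul (pow_ne_zero _ hy0') hρ0]
        have := w.ord_zpow y' ((k + 2 : ℕ) : ℤ)
        rw [zpow_natCast] at this
        rw [this, hya]
        have := (BG_mem_iff_ord_nonneg w hρ0).1 hρO
        push_cast
        omega
      have hbeq : b = y' ^ k * (π : E') + -(y' ^ (k + 2) * ρ) := by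
        rw [hsum]; ring
      have hlt : w.ord (y' ^ k * (π : E')) < w.ord (-(y' ^ (k + 2) * ρ)) := by
        rw [(S24_isVal_ord w).neg hm0, hordk]
        nlinarith
      obtain ⟨h1, h2⟩ := LE_ord_add_eq w (mul_ne_zero hyk0 hπ0) (neg_ne_zero.2 hm0) hlt
      rw [← hbeq] at h1 h2
      exact ⟨h1, by rw [h2, hordk]⟩
  obtain ⟨c, hc⟩ := ABH_ord_field w hs0 hs hbK hbord.1
  rw [hbord.2] at hc
  -- `ord s` divides `1`
  have hdvd : w.ord s ∣ 1 := by
    refine ⟨c - k * e, ?_⟩
    have h3 : a = e * w.ord s := by rw [← hya, hordy]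
    rw [h3] at hc
    linear_combination hc
  exact Int.eq_one_of_dvd_one hs.le hdvd

end CaseII

section CaseI

variable {K E E' : Type*} [Field K] [Field E] [Field E'] [Algebra K E] [Algebra K E']
  [Algebra E E'] [IsScalarTower K E E']

/-- the polynomial `A(tZ)` has coefficients in `O_v` if `t ∈ O_v`. -/
theorem ABH_comp_mem_lifts (v : Place K E) {t : E} (ht : t ∈ v.toValuationSubring) (A : K[X]) :
    (A.map (algebraMap K E)).comp (C t * X) ∈ Polynomial.lifts v.toValuationSubring.subtype := by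
  have h1 : A.map (algebraMap K E) ∈ Polynomial.lifts v.toValuationSubring.subtype := by
    rw [Polynomial.lifts_iff_coeff_lifts]
    intro n
    rw [Polynomial.coeff_map]
    exact ⟨⟨_, v.algebraMap_mem' _⟩, rfl⟩
  have h2 : (C t * X : E[X]) ∈ Polynomial.lifts v.toValuationSubring.subtype :=
    mul_mem (Polynomial.C_mem_lifts v.toValuationSubring.subtype ⟨t, ht⟩)
      (Polynomial.X_mem_lifts _)
  obtain ⟨P, hP⟩ := (Polynomial.mem_lifts _).1 h1
  obtain ⟨Q, hQ⟩ := (Polynomial.mem_lifts _).1 h2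
  rw [Polynomial.mem_lifts]
  exact ⟨P.comp Q, by rw [Polynomial.map_comp, hP, hQ]⟩

variable [Algebra.IsIntegral E E']

/-- **Abhyankar's lemma, case `e_P = e`** (tame: `e ≠ 0` in `K`). -/
theorem ABH_caseI [IsAlgClosed K] (hE' : S24_IsFunctionField1 K E')
    (w : Place K E') (y : E) (s : E') (e : ℕ) (he : (e : K) ≠ 0) (D W : K[X])
    (hD : D.eval 0 ≠ 0) (hW : W.eval 0 ≠ 0)
    (hrel : algebraMap E E' y * aeval s D = s ^ e * aeval s W) (hs : 0 < w.ord s)
    (hgen : ∀ z : E', ∃ p : E[X], aeval s p = z)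
    (hy : (w.restrict E).ord y = e) : w.ord s = 1 := by
  classical
  obtain ⟨hs0, hy0', hordy, -⟩ := ABH_ord_rel w y s e D W hD hW hrel hs
  have he0 : e ≠ 0 := by
    rintro rfl
    exact he (by simp)
  have hepos : (0 : ℤ) < e := by exact_mod_cast Nat.pos_of_ne_zero he0
  have hy0 : y ≠ 0 := by
    rintro rfl
    exact hy0' (map_zero _)
  set v := w.restrict E with hv
  set a : ℤ := (Place.ramificationIndex (F := E) w : ℤ) with ha
  have hapos : 0 < a := by
    rw [ha]
    exact_mod_cast w.ramificationIndex_pos (F := E)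
  -- `ord_w s = a`
  have hsa : w.ord s = a := by
    have h1 : w.ord (algebraMap E E' y) = a * e := by
      rw [w.ord_restrict y, hy]
    rw [hordy] at h1
    have h2 : (e : ℤ) * (w.ord s - a) = 0 := by linear_combination h1
    rcases mul_eq_zero.1 h2 with h3 | h3
    · omega
    · omega
  -- a uniformizer `t` of `v`
  obtain ⟨π, hπ⟩ := IsDiscreteValuationRing.exists_irreducible v.toValuationSubring
  set t : E := (π : E) with ht
  have ht1 : v.ord t = 1 := v.ord_coe_irreducible hπ
  have ht0 : t ≠ 0 := by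
    intro h0
    rw [h0, Place.ord_zero] at ht1
    exact zero_ne_one ht1
  have htO : t ∈ v.toValuationSubring := π.2
  set t' := algebraMap E E' t with ht'
  have ht'0 : t' ≠ 0 := by
    intro h0
    exact ht0 ((algebraMap E E').injective (by rw [← ht', h0, map_zero]))
  have ht'a : w.ord t' = a := by
    rw [ht', w.ord_restrict t, ← hv, ht1, mul_one]
  have ht'n : t' ∈ w.toValuationSubring.nonunits :=
    (BG_mem_nonunits_iff_ord_pos w ht'0).2 (by rw [ht'a]; exact hapos)
  -- `z = s / t` is a unit at `w`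
  set z : E' := s / t' with hz
  have hz0 : z ≠ 0 := div_ne_zero hs0 ht'0
  have hzord : w.ord z = 0 := by
    rw [hz, div_eq_mul_inv, w.ord_mul hs0 (inv_ne_zero ht'0), w.ord_inv, hsa, ht'a]
    ring
  have hzO : z ∈ w.toValuationSubring := (BG_mem_iff_ord_nonneg w hz0).2 hzord.ge
  have hzO' : z⁻¹ ∈ w.toValuationSubring := by
    rw [BG_mem_iff_ord_nonneg w (inv_ne_zero hz0), w.ord_inv, hzord]
    simp
  have htz : t' * z = s := by
    rw [hz]
    field_simp
  -- `u = y / t ^ e` is a unit at `v`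
  set u : E := y / t ^ e with hu
  have hu0 : u ≠ 0 := div_ne_zero hy0 (pow_ne_zero _ ht0)
  have huord : v.ord u = 0 := by
    rw [hu, div_eq_mul_inv, v.ord_mul hy0 (inv_ne_zero (pow_ne_zero _ ht0)), v.ord_inv, hy]
    have := v.ord_zpow t (e : ℤ)
    rw [zpow_natCast] at this
    rw [this, ht1]
    ring
  have huO : u ∈ v.toValuationSubring := (BG_mem_iff_ord_nonneg v hu0).2 huord.ge
  have hut : algebraMap E E' u * t' ^ e = algebraMap E E' y := by
    rw [ht', ← map_pow, ← map_mul, hu]
    congr 1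
    field_simp
  -- the polynomial `G`
  set Wc : E[X] := (W.map (algebraMap K E)).comp (C t * X) with hWc
  set Dc : E[X] := (D.map (algebraMap K E)).comp (C t * X) with hDc
  set G : E[X] := X ^ e * Wc + C (-u) * Dc with hG
  have haevtz : aeval z (C t * X : E[X]) = s := by
    rw [map_mul, aeval_C, aeval_X, ← ht', htz]
  have haevc : ∀ A : K[X], aeval z ((A.map (algebraMap K E)).comp (C t * X)) = aeval s A := by
    intro A
    rw [Polynomial.aeval_comp, haevtz, Polynomial.aeval_map_algebraMap]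
  have hdtX : derivative (C t * X : E[X]) = C t := by
    rw [Polynomial.derivative_C_mul, Polynomial.derivative_X, mul_one]
  have haevc' : ∀ A : K[X], aeval z (derivative ((A.map (algebraMap K E)).comp (C t * X))) =
      t' * aeval s (derivative A) := by
    intro A
    rw [Polynomial.derivative_comp, hdtX, map_mul, aeval_C, Polynomial.aeval_comp, haevtz,
      Polynomial.derivative_map, Polynomial.aeval_map_algebraMap]
  have hGL : G ∈ Polynomial.lifts v.toValuationSubring.subtype := by
    rw [hG]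
    refine add_mem (mul_mem (Polynomial.X_pow_mem_lifts _ e) (ABH_comp_mem_lifts v htO W))
      (mul_mem ?_ (ABH_comp_mem_lifts v htO D))
    exact Polynomial.C_mem_lifts v.toValuationSubring.subtype
      ⟨-u, v.toValuationSubring.neg_mem _ huO⟩
  have hGcoeff : ∀ n, algebraMap E E' (G.coeff n) ∈ w.toValuationSubring := by
    intro n
    obtain ⟨c, hc⟩ := (Polynomial.lifts_iff_coeff_lifts G).1 hGL n
    rw [← hc]
    exact c.2
  have hGz : aeval z G = 0 := by
    rw [hG, map_add, map_mul, map_mul, map_pow, aeval_X, aeval_C, haevc, haevc, map_neg]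
    have h1 : z ^ e * t' ^ e = s ^ e := by rw [← mul_pow, mul_comm, htz]
    have h2 : t' ^ e ≠ 0 := pow_ne_zero _ ht'0
    have h3 : (z ^ e * aeval s W + -algebraMap E E' u * aeval s D) * t' ^ e = 0 := by
      have : (z ^ e * aeval s W + -algebraMap E E' u * aeval s D) * t' ^ e =
          z ^ e * t' ^ e * aeval s W - algebraMap E E' u * t' ^ e * aeval s D := by ring
      rw [this, h1, hut, hrel, sub_self]
    exact (mul_eq_zero.1 h3).resolve_right h2
  -- the derivative at `z`
  have hsn : s ∈ w.toValuationSubring.nonunits := (BG_mem_nonunits_iff_ord_pos w hs0).2 hs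
  have hsO : s ∈ w.toValuationSubring := ValuationSubring.nonunits_subset hsn
  obtain ⟨hW0, hWO, hWO', -⟩ := ABH_aeval_unit w hsn W hW
  have hder : aeval z (derivative G) = (e : E') * z ^ (e - 1) * aeval s W +
      t' * (z ^ e * aeval s (derivative W) + -algebraMap E E' u * aeval s (derivative D)) := by
    rw [hG, Polynomial.derivative_add, Polynomial.derivative_mul, Polynomial.derivative_mul,
      Polynomial.derivative_C, zero_mul, zero_add, Polynomial.derivative_X_pow, map_add, map_add,
      map_mul, map_mul, map_mul, map_mul, map_pow, map_pow, aeval_X, aeval_C, aeval_C, haevc,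
      haevc', haevc', map_neg, map_natCast]
    ring
  set U : E' := (e : E') * z ^ (e - 1) * aeval s W with hU
  have heE' : (e : E') ≠ 0 := by
    have h1 : (algebraMap K E') (e : K) = (e : E') := map_natCast _ _
    rw [← h1]
    intro h0
    exact he ((algebraMap K E').injective (by rw [h0, map_zero]))
  have heO : (e : E') ∈ w.toValuationSubring := by
    have h1 : (algebraMap K E') (e : K) = (e : E') := map_natCast _ _
    rw [← h1]
    exact w.algebraMap_mem' _
  have heO' : ((e : E'))⁻¹ ∈ w.toValuationSubring := by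
    have h1 : (algebraMap K E') ((e : K)⁻¹) = ((e : E'))⁻¹ := by
      rw [map_inv₀, map_natCast]
    rw [← h1]
    exact w.algebraMap_mem' _
  have hU0 : U ≠ 0 := mul_ne_zero (mul_ne_zero heE' (pow_ne_zero _ hz0)) hW0
  have hUO : U ∈ w.toValuationSubring := mul_mem (mul_mem heO (pow_mem hzO _)) hWO
  have hUO' : U⁻¹ ∈ w.toValuationSubring := by
    rw [hU, mul_inv, mul_inv, ← inv_pow]
    exact mul_mem (mul_mem heO' (pow_mem hzO' _)) hWO'
  have hR : t' * (z ^ e * aeval s (derivative W) +
      -algebraMap E E' u * aeval s (derivative D)) ∈ w.toValuationSubring.nonunits := by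
    refine S24_mul_mem_nonunits _ ht'n ?_
    refine add_mem (mul_mem (pow_mem hzO _) (ABH_aeval_mem w hsO _))
      (mul_mem (w.toValuationSubring.neg_mem _ huO) (ABH_aeval_mem w hsO _))
  obtain ⟨hd1, hd2, hd3⟩ := LE_unit_add w.toValuationSubring hU0 hUO hUO' hR
  rw [← hder] at hd1 hd2 hd3
  -- the value of `z` at `w`
  obtain ⟨κ, hκ⟩ := ABH_exists_const hE' w hzO
  have hκ' : z - algebraMap E E' (algebraMap K E κ) ∈ w.toValuationSubring.nonunits := by
    rw [← IsScalarTower.algebraMap_apply]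
    exact hκ
  -- `E' = E[z]`
  have hgen' : ∀ x : E', ∃ p : E[X], aeval z p = x := by
    intro x
    obtain ⟨p, hp⟩ := hgen x
    refine ⟨p.comp (C t * X), ?_⟩
    rw [Polynomial.aeval_comp, haevtz, hp]
  have hram := LE_ramificationIndex_eq_one w z hzO hgen' G hGcoeff hGz hd3 hd1 hd2
    (algebraMap K E κ) hκ'
  rw [hsa, ha, hram]
  rfl

/-- **Abhyankar's lemma, local form.** -/
theorem ABH_local [IsAlgClosed K] [CharZero K] (hE : S24_IsFunctionField1 K E)
    (hE' : S24_IsFunctionField1 K E')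
    (w : Place K E') (y : E) (s : E') (e : ℕ) (he : 0 < e) (D W : K[X])
    (hD : D.eval 0 ≠ 0) (hW : W.eval 0 ≠ 0)
    (hrel : algebraMap E E' y * aeval s D = s ^ e * aeval s W) (hs : 0 < w.ord s)
    (hgen : ∀ z : E', ∃ p : E[X], aeval s p = z)
    (hy : (w.restrict E).ord y = 1 ∨ (w.restrict E).ord y = e) : w.ord s = 1 := by
  rcases hy with hy | hy
  · exact ABH_caseII hE w y s e D W hD hW hrel hs hgen hy
  · exact ABH_caseI hE' w y s e (by exact_mod_cast he.ne') D W hD hW hrel hs hgen hy

end CaseI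

end Fermat.Agent.S18
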