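import Mathlib
import Fermat.Agent.S18.MuLocal
import Fermat.Agent.S18.AbhLocal

/-!
# S18, package MU (helper16): the cover `μ ↦ j = R_M(μ)` at the places of a function field

`K ⊆ E` fields, `μ, j ∈ E` with `R_M(μ) = j` (`hμ : (AX_poly E M j).eval μ = 0`), `w` a place of
`E / K`.

* `MU_cusps M ω : Finset K` — the finite cusps of the `μ`-line (`{0, 1}` resp. `{1, ω, ω²}`),
  `MU_mem_cusps`, `MU_card_cusps` (`= M`; with `∞` there are `M + 1` cusps);
* `MU_ord_noncusp`: `ord_w (j − x₀) = MU_e x₀ · ord_w (μ − c)` at a non-cusp `c`, `x₀ = R_M(c)`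
  (characteristic `≠ 2, 3`);
* `MU_regular`: `j` is regular at the places over a non-cusp (any characteristic);
* `MU_ord_cusp`: `ord_w j = − M · ord_w (μ − c)` at a finite cusp `c`;
* `MU_ord_infty`: `ord_w j = M · ord_w μ` at the poles of `μ`;
* `MU_pole_iff`: `ord_w j < 0 ↔ ord_w μ < 0 ∨ ∃ c ∈ MU_cusps M ω, 0 < ord_w (μ − c)`.
-/

set_option autoImplicit false

open Polynomial AlgebraicCurve

namespace Fermat.Agent.S18

open Fermat.Agent.Lib Fermat.Agent.S24

section cusps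

variable {K : Type*} [Field K] [DecidableEq K]

/-- the finite cusps of the `μ`-line: the zeros of `den R_M`. -/
def MU_cusps (M : ℕ) (ω : K) : Finset K := if M = 2 then {0, 1} else {1, ω, ω ^ 2}

theorem MU_mem_cusps {M : ℕ} (hM : M = 2 ∨ M = 3) {ω : K} (hω : M = 3 → ω ^ 2 + ω + 1 = 0)
    (c : K) : c ∈ MU_cusps M ω ↔ MU_denE M c = 0 := by
  rcases hM with rfl | rfl
  · rw [MU_cusps, if_pos rfl, MU_denE, if_pos rfl]
    simp only [Finset.mem_insert, Finset.mem_singleton, mul_eq_zero, pow_eq_zero_iff, ne_eq,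
      OfNat.ofNat_ne_zero, not_false_eq_true, sub_eq_zero]
  · rw [MU_cusps, if_neg (by norm_num), MU_denE, if_neg (by norm_num)]
    have hfac := MU_cube_factor (hω rfl) c 1
    simp only [Finset.mem_insert, Finset.mem_singleton]
    rw [pow_eq_zero_iff (by norm_num)]
    have : c ^ 3 - 1 = (c - 1) * (c - ω) * (c - ω ^ 2) := by
      rw [← one_pow 3, ← hfac]; ring
    rw [this, mul_eq_zero, mul_eq_zero, sub_eq_zero, sub_eq_zero, sub_eq_zero, or_assoc]

theorem MU_card_cusps {M : ℕ} (hM : M = 2 ∨ M = 3) (hMK : (M : K) ≠ 0) {ω : K}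
    (hω : M = 3 → ω ^ 2 + ω + 1 = 0) : (MU_cusps M ω).card = M := by
  rcases hM with rfl | rfl
  · rw [MU_cusps, if_pos rfl]
    rw [Finset.card_pair zero_ne_one]
  · rw [MU_cusps, if_neg (by norm_num)]
    have h3 : (3 : K) ≠ 0 := by exact_mod_cast hMK
    have hω' := hω rfl
    have hω3 := MU_omega_cube hω'
    have h1 : (1 : K) ≠ ω := by
      intro h
      rw [← h] at hω'
      apply h3
      linear_combination hω'
    have h2 : (1 : K) ≠ ω ^ 2 := by
      intro h
      apply h1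
      have : ω ^ 3 = ω := by rw [pow_succ, ← h, one_mul]
      rw [← this, hω3]
    have h4 : ω ≠ ω ^ 2 := by
      intro h
      apply h2
      calc (1 : K) = ω ^ 3 := hω3.symm
        _ = ω * ω ^ 2 := by ring
        _ = ω * ω := by rw [← h]
        _ = ω ^ 2 := by ring
    rw [Finset.card_insert_of_notMem (by simp [h1, h2]), Finset.card_pair h4]

end cusps

section ord

variable {K E : Type*} [Field K] [Field E] [Algebra K E]

/-- `ABH_ord_rel` inside one field. -/
theorem MU_ord_of_rel (w : Place K E) (y s : E) (e : ℕ) (D W : K[X])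
    (hD : D.eval 0 ≠ 0) (hW : W.eval 0 ≠ 0)
    (hrel : y * aeval s D = s ^ e * aeval s W) (hs : 0 < w.ord s) :
    y ≠ 0 ∧ w.ord y = e * w.ord s := by
  obtain ⟨-, h1, h2, -⟩ := ABH_ord_rel (E := E) (E' := E) w y s e D W hD hW hrel hs
  exact ⟨h1, h2⟩

/-- **MU at a non-cuspidal place** (characteristic `≠ 2, 3`):
`ord_w (j − x₀) = e · ord_w (μ − c)`, `e = MU_e x₀`. -/
theorem MU_ord_noncusp (h2 : (2 : K) ≠ 0) (h3 : (3 : K) ≠ 0) {M : ℕ} (hM : M = 2 ∨ M = 3)
    {μ j : E} (hμ : (AX_poly E M j).eval μ = 0) (w : Place K E) {c x₀ : K}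
    (hc : (AX_poly K M x₀).eval c = 0) (hw : 0 < w.ord (μ - algebraMap K E c)) :
    j - algebraMap K E x₀ ≠ 0 ∧
      w.ord (j - algebraMap K E x₀) = MU_e x₀ * w.ord (μ - algebraMap K E c) := by
  obtain ⟨D, W, hD, hW, hrel⟩ := MU_rel h2 h3 hM hμ hc
  exact MU_ord_of_rel w _ _ _ D W hD hW hrel hw

/-- **MU**: `j` is regular at the places over a non-cusp (any characteristic). -/
theorem MU_regular {M : ℕ} {μ j : E} (hμ : (AX_poly E M j).eval μ = 0) (w : Place K E) {c : K}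
    (hc : MU_denE M c ≠ 0) (hw : 0 < w.ord (μ - algebraMap K E c)) :
    j ∈ w.toValuationSubring := by
  set s := μ - algebraMap K E c with hs
  have hs0 : s ≠ 0 := by
    intro h0
    rw [h0, Place.ord_zero] at hw
    exact lt_irrefl _ hw
  have hsn : s ∈ w.toValuationSubring.nonunits := (BG_mem_nonunits_iff_ord_pos w hs0).2 hw
  have hsO : s ∈ w.toValuationSubring := ValuationSubring.nonunits_subset hsn
  have hsμ : aeval s (X + C c : K[X]) = μ := by
    rw [map_add, aeval_X, aeval_C, hs, sub_add_cancel]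
  have hD : ((MU_denP K M).comp (X + C c)).eval 0 ≠ 0 := by
    rw [eval_comp, eval_add, eval_X, eval_C, zero_add, MU_eval_denP]
    exact hc
  obtain ⟨hd0, -, hdinv, -⟩ := ABH_aeval_unit w hsn _ hD
  have hnum := ABH_aeval_mem w hsO ((MU_numP K M).comp (X + C c))
  rw [aeval_comp, hsμ, MU_aeval_denP] at hd0 hdinv
  rw [aeval_comp, hsμ, MU_aeval_numP] at hnum
  rw [MU_eval_eq] at hμ
  have hj : j = MU_numE M μ * (MU_denE M μ)⁻¹ := by
    rw [eq_mul_inv_iff_mul_eq₀ hd0]
    linear_combination -hμ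
  rw [hj]
  exact mul_mem hnum hdinv

/-- **MU at a finite cusp**: `ord_w j = − M · ord_w (μ − c)`. -/
theorem MU_ord_cusp {M : ℕ} (hM : M = 2 ∨ M = 3) (hMK : (M : K) ≠ 0) {μ j : E} (hj : j ≠ 0)
    (hμ : (AX_poly E M j).eval μ = 0) (w : Place K E) {c : K} (hc : MU_denE M c = 0)
    (hw : 0 < w.ord (μ - algebraMap K E c)) :
    w.ord j = -(M * w.ord (μ - algebraMap K E c)) := by
  obtain ⟨D, W, hD, hW, hrel⟩ := MU_rel_cusp hM hMK hj hμ hc
  obtain ⟨-, h1⟩ := MU_ord_of_rel w _ _ _ D W hD hW hrel hw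
  rw [w.ord_inv] at h1
  omega

/-- **MU at `μ = ∞`**: `ord_w j = M · ord_w μ`. -/
theorem MU_ord_infty {M : ℕ} (hM : M = 2 ∨ M = 3) (hMK : (M : K) ≠ 0) {μ j : E} (hj : j ≠ 0)
    (hμ : (AX_poly E M j).eval μ = 0) (w : Place K E) (hw : w.ord μ < 0) :
    w.ord j = M * w.ord μ := by
  have hμ0 : μ ≠ 0 := by
    rintro rfl
    rw [Place.ord_zero] at hw
    exact lt_irrefl _ hw
  obtain ⟨D, W, hD, hW, hrel⟩ := MU_rel_infty (K := K) hM hMK hj hμ0 hμ
  have hs : 0 < w.ord μ⁻¹ := by rw [w.ord_inv]; omega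
  obtain ⟨-, h1⟩ := MU_ord_of_rel w _ _ _ D W hD hW hrel hs
  rw [w.ord_inv, w.ord_inv] at h1
  linarith

/-- `j ≠ 0` if `μ` is transcendental. -/
theorem MU_j_ne_zero {M : ℕ} (hM : M = 2 ∨ M = 3) (hMK : (M : K) ≠ 0) {μ j : E}
    (hμt : Transcendental K μ) (hμ : (AX_poly E M j).eval μ = 0) : j ≠ 0 := by
  rintro rfl
  apply hμt
  refine ⟨AX_poly K M 0, AX_poly_ne_zero K M 0 (MU_lead_ne_zero hM hMK), ?_⟩
  rw [aeval_def, eval₂_eq_eval_map, AX_poly_map, map_zero]
  exact hμ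

variable [DecidableEq K]

/-- **MU, cusps**: the poles of `j` are the places over the cusps of the `μ`-line. -/
theorem MU_pole_iff [IsAlgClosed K] (hE : S24_IsFunctionField1 K E) {M : ℕ}
    (hM : M = 2 ∨ M = 3) (hMK : (M : K) ≠ 0) {ω : K} (hω : M = 3 → ω ^ 2 + ω + 1 = 0)
    {μ j : E} (hμt : Transcendental K μ) (hμ : (AX_poly E M j).eval μ = 0) (w : Place K E) :
    w.ord j < 0 ↔
      (w.ord μ < 0 ∨ ∃ c ∈ MU_cusps M ω, 0 < w.ord (μ - algebraMap K E c)) := by
  have hj := MU_j_ne_zero hM hMK hμt hμ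
  have hMpos : (0 : ℤ) < M := by
    rcases hM with rfl | rfl <;> norm_num
  constructor
  · intro hpole
    by_contra hcon
    push Not at hcon
    obtain ⟨h1, h2⟩ := hcon
    have hμ0 : μ ≠ 0 := fun h => hμt (h ▸ isAlgebraic_zero)
    have hμO : μ ∈ w.toValuationSubring := (BG_mem_iff_ord_nonneg w hμ0).2 h1
    obtain ⟨c, hc⟩ := ABH_exists_const hE w hμO
    have hne : μ - algebraMap K E c ≠ 0 := by
      intro h0
      apply hμt
      have : μ = algebraMap K E c := by linear_combination h0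
      rw [this]
      exact isAlgebraic_algebraMap c
    have hpos : 0 < w.ord (μ - algebraMap K E c) := (BG_mem_nonunits_iff_ord_pos w hne).1 hc
    have hden : MU_denE M c ≠ 0 := by
      intro h0
      exact absurd hpos (not_lt.2 (h2 c ((MU_mem_cusps hM hω c).2 h0)))
    have hreg := MU_regular hμ w hden hpos
    have := (BG_mem_iff_ord_nonneg w hj).1 hreg
    omega
  · rintro (h | ⟨c, hc, hpos⟩)
    · rw [MU_ord_infty hM hMK hj hμ w h]
      exact mul_neg_of_pos_of_neg hMpos h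
    · rw [MU_ord_cusp hM hMK hj hμ w ((MU_mem_cusps hM hω c).1 hc) hpos]
      have := mul_pos hMpos hpos
      omega

end ord

end Fermat.Agent.S18
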