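import Mathlib
import Fermat.Agent.S18.MuOrd

/-!
# S18 (TRACK 3), package DEG-K, part (b): Abhyankar's lemma at every place of `E(μ)`

Abstract setting: `K ⊆ E ⊆ E' = E[μ]` function fields of one variable over an algebraically closed
field `K` of characteristic `0`, `j ∈ E`, `μ ∈ E'` with `R_M(μ) = j` (`M = 2, 3`; in the form
`(AX_poly E' M (algebraMap E E' j)).eval μ = 0`).

* `DK_abh_finite`: if `E / K(j)` has the ramification of a modular function field at the finite
  places (hypothesis `hfin`, in the shape of `X0_ramification`), then `ord_w (μ − c) = 1` at every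
  place `w` with `μ(w) = c`, `c` not a cusp of the `μ`-line (`MU_denE M c ≠ 0`).
* `DK_abh_cusp`: if `ord_P (1/j) ∈ {1, M}` at every pole `P` of `j` (hypothesis `hinf`, in the shape
  of `DK_cusp_ord_prime`), then `ord_w (μ − c) = 1` at every place `w` with `μ(w) = c`,
  `c` a finite cusp (`MU_denE M c = 0`).
* `DK_abh_pole`: under `hinf`, `ord_w μ = −1` at every pole `w` of `μ`.
* `DK_abh_all`: all places: `E' / K(μ)` is unramified everywhere.

Inputs: `MU_rel`, `MU_rel_cusp`, `MU_rel_infty` (helper16) and `ABH_local` (helper4).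
-/

set_option autoImplicit false

open Polynomial AlgebraicCurve IntermediateField

namespace Fermat.Agent.S18

open Fermat.Agent.Lib Fermat.Agent.S24

section

variable {K E E' : Type*} [Field K] [Field E] [Field E'] [Algebra K E] [Algebra K E']
  [Algebra E E'] [IsScalarTower K E E']

/-- `E' = E[μ]` implies `E' = E[μ − c]`. -/
theorem DK_gen_shift (μ : E') (c : K) (hgen : ∀ z : E', ∃ p : E[X], aeval μ p = z) :
    ∀ z : E', ∃ p : E[X], aeval (μ - algebraMap K E' c) p = z := by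
  intro z
  obtain ⟨p, hp⟩ := hgen z
  refine ⟨p.comp (X + C (algebraMap K E c)), ?_⟩
  rw [aeval_comp, map_add, aeval_X, aeval_C, ← IsScalarTower.algebraMap_apply, sub_add_cancel, hp]

omit [Algebra K E] [Algebra K E'] [IsScalarTower K E E'] in
/-- `E' = E[μ]` implies `E' = E[μ⁻¹]`. -/
theorem DK_gen_inv [Algebra.IsIntegral E E'] (μ : E')
    (hgen : ∀ z : E', ∃ p : E[X], aeval μ p = z) :
    ∀ z : E', ∃ p : E[X], aeval μ⁻¹ p = z := by
  have hint : IsIntegral E μ⁻¹ := Algebra.IsIntegral.isIntegral _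
  have hmem : μ ∈ Algebra.adjoin E ({μ⁻¹} : Set E') := by
    rw [← IntermediateField.adjoin_simple_toSubalgebra_of_isAlgebraic hint.isAlgebraic]
    have h1 : μ⁻¹ ∈ E⟮μ⁻¹⟯ := IntermediateField.mem_adjoin_simple_self E _
    have h2 := E⟮μ⁻¹⟯.inv_mem h1
    rw [inv_inv] at h2
    exact h2
  rw [Algebra.adjoin_singleton_eq_range_aeval] at hmem
  obtain ⟨q, hq⟩ := hmem
  intro z
  obtain ⟨p, hp⟩ := hgen z
  refine ⟨p.comp q, ?_⟩
  rw [aeval_comp]
  have : (aeval μ⁻¹) q = μ := hq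
  rw [this, hp]

omit [Algebra K E] [Algebra K E'] [IsScalarTower K E E'] in
/-- positivity descends along `ord_restrict`. -/
theorem DK_restrict_pos [Algebra.IsIntegral E E'] [Algebra K E] [Algebra K E']
    [IsScalarTower K E E'] (w : Place K E') (y : E)
    (h : 0 < w.ord (algebraMap E E' y)) : 0 < (w.restrict E).ord y := by
  rw [w.ord_restrict (F := E) y] at h
  have h2 : (0 : ℤ) < (Place.ramificationIndex (F := E) w : ℤ) := by
    exact_mod_cast w.ramificationIndex_pos (F := E)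
  exact (mul_pos_iff_of_pos_left h2).mp h

variable [Algebra.IsIntegral E E'] [IsAlgClosed K] [CharZero K]

/-- **(b), finite non-cuspidal places.** -/
theorem DK_abh_finite (hE : S24_IsFunctionField1 K E) (hE' : S24_IsFunctionField1 K E')
    {M : ℕ} (hM : M = 2 ∨ M = 3) (j : E) (μ : E')
    (hrel : (AX_poly E' M (algebraMap E E' j)).eval μ = 0)
    (hgen : ∀ z : E', ∃ p : E[X], aeval μ p = z)
    (hfin : ∀ (c : K) (P : Place K E), 0 < P.ord (j - algebraMap K E c) →
      P.ord (j - algebraMap K E c) = 1 ∨ (c = 1728 ∧ P.ord (j - algebraMap K E c) = 2) ∨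
        (c = 0 ∧ P.ord (j - algebraMap K E c) = 3))
    (w : Place K E') (c : K) (hw : 0 < w.ord (μ - algebraMap K E' c))
    (hden : MU_denE M c ≠ 0) :
    w.ord (μ - algebraMap K E' c) = 1 := by
  have h2 : (2 : K) ≠ 0 := two_ne_zero
  have h3 : (3 : K) ≠ 0 := three_ne_zero
  obtain ⟨x₀, hx₀⟩ := MU_exists_x₀ M hden
  obtain ⟨D, W, hD, hW, hDW⟩ := MU_rel (E := E') h2 h3 hM hrel hx₀
  set s : E' := μ - algebraMap K E' c with hs
  set y : E := j - algebraMap K E x₀ with hy
  have hy_map : algebraMap E E' y = algebraMap E E' j - algebraMap K E' x₀ := by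
    rw [hy, map_sub, ← IsScalarTower.algebraMap_apply]
  have hrel' : algebraMap E E' y * aeval s D = s ^ MU_e x₀ * aeval s W := by
    rw [hy_map]
    exact hDW
  obtain ⟨hs0, hy0, hord, -⟩ := ABH_ord_rel w y s (MU_e x₀) D W hD hW hrel' hw
  have hpos : 0 < (w.restrict E).ord y := by
    apply DK_restrict_pos w y
    rw [hord]
    have : (0 : ℤ) < (MU_e x₀ : ℤ) := by exact_mod_cast MU_e_pos x₀
    positivity
  have hyy : (w.restrict E).ord y = 1 ∨ (w.restrict E).ord y = MU_e x₀ := by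
    rcases hfin x₀ (w.restrict E) hpos with h | ⟨h, h'⟩ | ⟨h, h'⟩
    · exact Or.inl h
    · right
      rw [h', h, MU_e_1728 h2 h3]
      rfl
    · right
      rw [h', h, MU_e_zero]
      rfl
  exact ABH_local hE hE' w y s (MU_e x₀) (MU_e_pos x₀) D W hD hW hrel' hw
    (DK_gen_shift μ c hgen) hyy

/-- **(b), finite cusps of the `μ`-line.** -/
theorem DK_abh_cusp (hE : S24_IsFunctionField1 K E) (hE' : S24_IsFunctionField1 K E')
    {M : ℕ} (hM : M = 2 ∨ M = 3) (j : E) (hj : j ≠ 0) (μ : E')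
    (hrel : (AX_poly E' M (algebraMap E E' j)).eval μ = 0)
    (hgen : ∀ z : E', ∃ p : E[X], aeval μ p = z)
    (hinf : ∀ P : Place K E, P.ord j < 0 → P.ord j⁻¹ = 1 ∨ P.ord j⁻¹ = M)
    (w : Place K E') (c : K) (hw : 0 < w.ord (μ - algebraMap K E' c))
    (hden : MU_denE M c = 0) :
    w.ord (μ - algebraMap K E' c) = 1 := by
  have hMK : (M : K) ≠ 0 := by
    rcases hM with rfl | rfl <;> norm_num
  have hMpos : 0 < M := by rcases hM with rfl | rfl <;> norm_num
  have hj' : algebraMap E E' j ≠ 0 := by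
    rwa [Ne, map_eq_zero]
  obtain ⟨D, W, hD, hW, hDW⟩ := MU_rel_cusp (E := E') hM hMK hj' hrel hden
  set s : E' := μ - algebraMap K E' c with hs
  have hrel' : algebraMap E E' j⁻¹ * aeval s D = s ^ M * aeval s W := by
    rw [map_inv₀]
    exact hDW
  obtain ⟨hs0, hy0, hord, -⟩ := ABH_ord_rel w j⁻¹ s M D W hD hW hrel' hw
  have hpos : 0 < (w.restrict E).ord j⁻¹ := by
    apply DK_restrict_pos w j⁻¹
    rw [hord]
    have : (0 : ℤ) < (M : ℤ) := by exact_mod_cast hMpos
    positivity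
  have hneg : (w.restrict E).ord j < 0 := by
    rw [Place.ord_inv] at hpos
    omega
  exact ABH_local hE hE' w j⁻¹ s M hMpos D W hD hW hrel' hw (DK_gen_shift μ c hgen)
    (hinf _ hneg)

/-- **(b), the poles of `μ`.** -/
theorem DK_abh_pole (hE : S24_IsFunctionField1 K E) (hE' : S24_IsFunctionField1 K E')
    {M : ℕ} (hM : M = 2 ∨ M = 3) (j : E) (hj : j ≠ 0) (μ : E')
    (hrel : (AX_poly E' M (algebraMap E E' j)).eval μ = 0)
    (hgen : ∀ z : E', ∃ p : E[X], aeval μ p = z)
    (hinf : ∀ P : Place K E, P.ord j < 0 → P.ord j⁻¹ = 1 ∨ P.ord j⁻¹ = M)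
    (w : Place K E') (hw : w.ord μ < 0) :
    w.ord μ = -1 := by
  have hMK : (M : K) ≠ 0 := by
    rcases hM with rfl | rfl <;> norm_num
  have hMpos : 0 < M := by rcases hM with rfl | rfl <;> norm_num
  have hj' : algebraMap E E' j ≠ 0 := by
    rwa [Ne, map_eq_zero]
  have hμ0 : μ ≠ 0 := by
    rintro rfl
    rw [Place.ord_zero] at hw
    exact lt_irrefl _ hw
  obtain ⟨D, W, hD, hW, hDW⟩ := MU_rel_infty (K := K) (E := E') hM hMK hj' hμ0 hrel
  have hs : 0 < w.ord μ⁻¹ := by
    rw [Place.ord_inv]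
    omega
  have hrel' : algebraMap E E' j⁻¹ * aeval μ⁻¹ D = μ⁻¹ ^ M * aeval μ⁻¹ W := by
    rw [map_inv₀]
    exact hDW
  obtain ⟨hs0, hy0, hord, -⟩ := ABH_ord_rel w j⁻¹ μ⁻¹ M D W hD hW hrel' hs
  have hpos : 0 < (w.restrict E).ord j⁻¹ := by
    apply DK_restrict_pos w j⁻¹
    rw [hord]
    have : (0 : ℤ) < (M : ℤ) := by exact_mod_cast hMpos
    positivity
  have hneg : (w.restrict E).ord j < 0 := by
    rw [Place.ord_inv] at hpos
    omega
  have h1 := ABH_local hE hE' w j⁻¹ μ⁻¹ M hMpos D W hD hW hrel' hs (DK_gen_inv μ hgen)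
    (hinf _ hneg)
  rw [Place.ord_inv] at h1
  omega

/-- **(b), all places: `E' = E(μ)` is unramified over `K(μ)`.** -/
theorem DK_abh_all (hE : S24_IsFunctionField1 K E) (hE' : S24_IsFunctionField1 K E')
    {M : ℕ} (hM : M = 2 ∨ M = 3) (j : E) (hj : j ≠ 0) (μ : E')
    (hrel : (AX_poly E' M (algebraMap E E' j)).eval μ = 0)
    (hgen : ∀ z : E', ∃ p : E[X], aeval μ p = z)
    (hfin : ∀ (c : K) (P : Place K E), 0 < P.ord (j - algebraMap K E c) →
      P.ord (j - algebraMap K E c) = 1 ∨ (c = 1728 ∧ P.ord (j - algebraMap K E c) = 2) ∨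
        (c = 0 ∧ P.ord (j - algebraMap K E c) = 3))
    (hinf : ∀ P : Place K E, P.ord j < 0 → P.ord j⁻¹ = 1 ∨ P.ord j⁻¹ = M) :
    (∀ (w : Place K E') (c : K), 0 < w.ord (μ - algebraMap K E' c) →
        w.ord (μ - algebraMap K E' c) = 1) ∧
      (∀ w : Place K E', w.ord μ < 0 → w.ord μ = -1) := by
  refine ⟨fun w c hw => ?_, fun w hw => DK_abh_pole hE hE' hM j hj μ hrel hgen hinf w hw⟩
  by_cases hden : MU_denE M c = 0
  · exact DK_abh_cusp hE hE' hM j hj μ hrel hgen hinf w c hw hden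
  · exact DK_abh_finite hE hE' hM j μ hrel hgen hfin w c hw hden

end

end Fermat.Agent.S18
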