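import Fermat.Agent.S18.X0
import Fermat.Agent.S24.CuspCount

/-!
# S18 (TRACK 3), package DEG-K, part (a): ramification of `F / K(j)` at the cusps

`F = modularFunctionFieldBar N`, `K = ℚ̄`, `j = jB N`.  For every place `v` of `F` over `j = ∞`:

* `DK_cusp_ord_dvd`: `ord_v (1/j) ∣ N`;
* `DK_cusp_ord_prime`: if `N = M` is prime, `ord_v (1/j) = 1 ∨ ord_v (1/j) = M`;
* `DK_e_data`: summary for the level-`M` field (`M` prime): at EVERY place `v`, either `v` is a
  finite place over some `c` with `e = ord_v (j − c) ∈ {1, e_c}` (`e_c = 2` for `c = 1728`,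
  `e_c = 3` for `c = 0`, `e_c = 1` otherwise), or `v` is a pole of `j` with `ord_v (1/j) ∈ {1, M}`.

The finite part is `X0_ramification` (package X0); the cusps re-run Step 2 of the S24 place count
with the cusp valuations `cuspW γ` (`cuspW γ (1/j) = N` for every `γ`).
-/

set_option autoImplicit false
set_option maxHeartbeats 400000

open UpperHalfPlane hiding I
open scoped MatrixGroups Manifold ModularForm
open CongruenceSubgroup ModularCurve IntermediateField AlgebraicCurve
open Fermat.Agent.S20 Fermat.Agent.S24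

noncomputable section

namespace Fermat.Agent.S18

variable (N : ℕ) [NeZero N]

/-- **cusps**: at a place over `j = ∞` the ramification index `ord_v (1/j)` divides `N`. -/
theorem DK_cusp_ord_dvd
    (v : Place (AlgebraicClosure ℚ) ↥(modularFunctionFieldBar N)) (hv : v.ord (jB N) < 0) :
    v.ord (jB N)⁻¹ ∣ (N : ℤ) := by
  classical
  have he := isEv_ev N
  have hinv := S24_hinv N (ev N) (isEv_ev N)
  have hfd := finiteDimensional_jB N
  have hdeg : Module.finrank (AlgebraicClosure ℚ)⟮jB N⟯ ↥(modularFunctionFieldBar N) =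
      Nat.card (S20_Q N) := (finrank_eq_psi N).trans (S20_card_Q N).symm
  obtain ⟨hw, -, -, -, hnorm⟩ := S24_cusp_inputs he hinv hdeg.le
  have hfd' := W_finite_inv (K := AlgebraicClosure ℚ) (jB N)
  have htr := BG_transcendental_inv (transcendental_jB N)
  have hx0 : (jB N)⁻¹ ≠ 0 := fun h => htr (h ▸ isAlgebraic_zero)
  have hXne : Nonempty (S20_Q N) := by
    have : 0 < Nat.card (S20_Q N) := by rw [← hdeg]; exact Module.finrank_pos
    exact (Nat.card_pos_iff.mp this).1
  have hXfin : Finite (S20_Q N) := by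
    have : 0 < Nat.card (S20_Q N) := by rw [← hdeg]; exact Module.finrank_pos
    exact (Nat.card_pos_iff.mp this).2
  have hv' : 0 < v.ord (jB N)⁻¹ := by rw [v.ord_inv]; omega
  exact (X0_ord_dvd_abs _ hx0 (BG_approx htr) (BG_norm htr)
    (cuspW N (ev N)) hw (N : ℤ) (by exact_mod_cast Nat.pos_of_ne_zero (NeZero.ne N))
    (cuspW_jB_inv he)
    (fun f hf γ₀ => by rw [W_norm_inv (jB N) f]; exact hnorm f hf γ₀)
    v hv').1

/-- **cusps, prime level**: `ord_v (1/j) ∈ {1, M}`. -/
theorem DK_cusp_ord_prime (hN : N.Prime)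
    (v : Place (AlgebraicClosure ℚ) ↥(modularFunctionFieldBar N)) (hv : v.ord (jB N) < 0) :
    v.ord (jB N)⁻¹ = 1 ∨ v.ord (jB N)⁻¹ = N := by
  have hv' : 0 < v.ord (jB N)⁻¹ := by rw [v.ord_inv]; omega
  exact X0_int_dvd_prime hN hv' (DK_cusp_ord_dvd N v hv)

end Fermat.Agent.S18
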