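import Mathlib
import Fermat.Agent.S18.MuRoots

/-!
# S18 (TRACK 3), package DEG-K, part (d): degree arithmetic for `M ∣ N`

Abstract setting: `K ⊆ E ⊆ F` fields (`ι : E →ₐ[K] F`), `jE : E`, `M ∈ {2, 3}` invertible in `F`,
`F' = AX_F' F M j` the splitting field of `R_M(μ) = j` over `F` (`j = ι jE`), `μ = AX_mu F M j`.

If `[E : K(jE)] ≥ M + 1` and the image of `E` in `F'` lies in `K(μ)`, then `[F' : F] ≤ M`:
`[K(μ) : K(j)] ≤ deg R_M = M (M + 1)`, so `[K(μ) : E] ≤ M`, and `F' = F(μ)`.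

* `DK_natDegree_minpoly_le` : the tower arithmetic (`relfinrank`).
* `DK_finrank_le` : the statement above.
-/

set_option autoImplicit false

open IntermediateField Polynomial

namespace Fermat.Agent.S18

section abstract

variable {K Ω : Type*} [Field K] [Field Ω] [Algebra K Ω]

/-- tower arithmetic: `A ≤ B ≤ K(μ)`, `[A(μ):A] ≤ n·m`, `n ≤ [B:A]`, `0 < n` ⇒ the minimal
polynomial of `μ` over `B` has degree `≤ m`. -/
theorem DK_natDegree_minpoly_le (A B : IntermediateField K Ω) (μ : Ω) (hAB : A ≤ B)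
    (hB : B ≤ K⟮μ⟯) (hμ : IsIntegral A μ) (n m : ℕ) (hn0 : 0 < n)
    (hA : (minpoly A μ).natDegree ≤ n * m) (hn : n ≤ A.relfinrank B) :
    IsIntegral B μ ∧ (minpoly B μ).natDegree ≤ m := by
  have hAC : A ≤ K⟮μ⟯ := hAB.trans hB
  have hμB : IsIntegral B μ := by
    let _ : Algebra A B := (IntermediateField.inclusion hAB).toRingHom.toAlgebra
    have : IsScalarTower A B Ω := IsScalarTower.of_algebraMap_eq fun x => rfl
    exact hμ.tower_top
  refine ⟨hμB, ?_⟩
  have h1 : A.relfinrank K⟮μ⟯ = (minpoly A μ).natDegree := by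
    rw [relfinrank_eq_finrank_of_le hAC, extendScalars_adjoin hAC]
    exact adjoin.finrank hμ
  have h2 : B.relfinrank K⟮μ⟯ = (minpoly B μ).natDegree := by
    rw [relfinrank_eq_finrank_of_le hB, extendScalars_adjoin hB]
    exact adjoin.finrank hμB
  have h3 := relfinrank_mul_relfinrank hAB hB
  rw [h1, h2] at h3
  by_contra hcon
  have hcon' : m + 1 ≤ (minpoly B μ).natDegree := by omega
  have h4 : n * (m + 1) ≤ A.relfinrank B * (minpoly B μ).natDegree :=
    Nat.mul_le_mul hn hcon'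
  have h5 : n * (m + 1) ≤ n * m := by rw [h3] at h4; exact h4.trans hA
  have : n * m < n * (m + 1) := by nlinarith
  omega

end abstract

section main

variable {K F E : Type*} [Field K] [Field F] [Field E] [Algebra K F] [Algebra K E]

theorem DK_deg_eq {M : ℕ} (hM : M = 2 ∨ M = 3) : AX_deg M = (M + 1) * M := by
  rcases hM with rfl | rfl <;> simp [AX_deg]

/-- **DEG-K (d)**: if the image of `E` in `F' = F(μ)` lies in `K(μ)` and `[E : K(jE)] ≥ M + 1`,
then `[F' : F] ≤ M`. -/
theorem DK_finrank_le (ι : E →ₐ[K] F) (jE : E) {M : ℕ} (hM : M = 2 ∨ M = 3) (hMF : (M : F) ≠ 0)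
    {ω : F} (hω : M = 3 → ω ^ 2 + ω + 1 = 0) (hdeg : M + 1 ≤ Module.finrank K⟮jE⟯ E)
    (hsub : ∀ y : E, algebraMap F (AX_F' F M (ι jE)) (ι y) ∈ K⟮AX_mu F M (ι jE)⟯) :
    Module.finrank F (AX_F' F M (ι jE)) ≤ M := by
  set j : F := ι jE with hj
  set Ω := AX_F' F M j with hΩ
  set μ : Ω := AX_mu F M j with hμdef
  have hlead : (AX_lead M : F) ≠ 0 := MU_lead_ne_zero hM hMF
  -- the embedding of `E` into `Ω`
  let ψ : E →ₐ[K] Ω := (IsScalarTower.toAlgHom K F Ω).comp ι
  have hψ : ∀ y : E, ψ y = algebraMap F Ω (ι y) := fun y => rfl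
  let A : IntermediateField K Ω := K⟮ψ jE⟯
  let B : IntermediateField K Ω := ψ.fieldRange
  have hAB : A ≤ B := by
    rw [adjoin_simple_le_iff]
    exact ⟨jE, rfl⟩
  have hB : B ≤ K⟮μ⟯ := by
    rintro _ ⟨y, rfl⟩
    exact hsub y
  -- `[B : A] = [E : K(jE)]`
  have hrel : A.relfinrank B = Module.finrank K⟮jE⟯ E := by
    have h1 : A = (K⟮jE⟯).map ψ := by
      rw [adjoin_map, Set.image_singleton]
    have h2 : B = (⊤ : IntermediateField K E).map ψ := AlgHom.fieldRange_eq_map ψ
    rw [h1, h2, relfinrank_map_map, relfinrank_top_right]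
  -- `μ` is a root of `R_M - j` over `A`
  have hjA : ψ jE ∈ A := mem_adjoin_simple_self K _
  have hleadA : (AX_lead M : A) ≠ 0 := by
    intro h
    apply hlead
    have h' : ((AX_lead M : ℕ) : Ω) = 0 := by
      have := congrArg (algebraMap A Ω) h
      simpa using this
    have h'' : algebraMap F Ω ((AX_lead M : ℕ) : F) = 0 := by rw [map_natCast]; exact h'
    exact (map_eq_zero (algebraMap F Ω)).mp h''
  have hrootA : aeval μ (AX_poly A M ⟨ψ jE, hjA⟩) = 0 := by
    rw [aeval_def, eval₂_eq_eval_map, AX_poly_map]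
    exact AX_mu_eval F M j hlead
  have hneA : AX_poly A M ⟨ψ jE, hjA⟩ ≠ 0 := AX_poly_ne_zero A M _ hleadA
  have hμA : IsIntegral A μ := (isAlgebraic_iff_isIntegral).mp ⟨_, hneA, hrootA⟩
  have hdegA : (minpoly A μ).natDegree ≤ (M + 1) * M := by
    rw [← DK_deg_eq hM, ← AX_poly_natDegree A M ⟨ψ jE, hjA⟩ hleadA]
    exact natDegree_le_of_dvd (minpoly.dvd A μ hrootA) hneA
  obtain ⟨hμB, hdegB⟩ := DK_natDegree_minpoly_le A B μ hAB hB hμA (M + 1) M (Nat.succ_pos M)
    hdegA (hrel ▸ hdeg)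
  -- lift the minimal polynomial over `B` to `F`
  have hlift : (minpoly B μ).map (algebraMap B Ω) ∈ lifts (algebraMap F Ω) := by
    rw [lifts_iff_coeff_lifts]
    intro n
    rw [coeff_map]
    obtain ⟨y, hy⟩ := ((minpoly B μ).coeff n).2
    exact ⟨ι y, by rw [← hψ y]; exact hy⟩
  obtain ⟨P, hP⟩ := (mem_lifts _).mp hlift
  have hP0 : P ≠ 0 := by
    intro h
    rw [h, Polynomial.map_zero] at hP
    have : minpoly B μ = 0 :=
      Polynomial.map_injective _ (algebraMap B Ω).injective (by rw [← hP, Polynomial.map_zero])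
    exact minpoly.ne_zero hμB this
  have hPdeg : P.natDegree ≤ M := by
    have h1 : P.natDegree = (P.map (algebraMap F Ω)).natDegree :=
      (natDegree_map_eq_of_injective (algebraMap F Ω).injective P).symm
    rw [h1, hP, natDegree_map_eq_of_injective (algebraMap B Ω).injective]
    exact hdegB
  have hPμ : aeval μ P = 0 := by
    rw [aeval_def, eval₂_eq_eval_map, hP, ← eval₂_eq_eval_map, ← aeval_def]
    exact minpoly.aeval B μ
  -- `Ω = F(μ)`
  have htop := MU_adjoin_eq_top F M j hM hMF hω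
  have hint : IsIntegral F μ := MU_isIntegral_mu F M j hlead
  have h2 := IntermediateField.adjoin.finrank hint
  rw [htop, IntermediateField.finrank_top'] at h2
  rw [h2]
  exact (natDegree_le_of_dvd (minpoly.dvd F μ hPμ) hP0).trans hPdeg

end main

end Fermat.Agent.S18
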