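import Mathlib
import Fermat.Agent.S24.Wiring

/-!
# S18 (TRACK 3), package DEG-K, part (c): an everywhere unramified cover of the line is trivial

`K` algebraically closed of characteristic `0`, `E'` a function field of one variable over `K`,
`μ : E'` transcendental with `E' / K(μ)` finite.  If every local parameter `μ − c` (resp. `1/μ`)
of the `μ`-line has order `1` at every place of `E'` over it, then `div(dμ)` has degree
`−2·[E' : K(μ)]`; by Hurwitz (`deg div(dμ) = 2g − 2`, `g ≥ 0`, an explicit hypothesis here, to be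
discharged by `HW_hurwitz`) this forces `[E' : K(μ)] = 1`, i.e. `E' = K(μ)`.

* `DK_degree_dmu` : `deg div(dμ) = −2·[E' : K(μ)]`.
* `DK_finrank_eq_one`, `DK_adjoin_eq_top`.
-/

set_option autoImplicit false

open AlgebraicCurve IntermediateField KaehlerDifferential
open Fermat.Agent.S24

namespace Fermat.Agent.S18

variable {K E' : Type*} [Field K] [Field E'] [Algebra K E'] [IsAlgClosed K] [CharZero K]

/-- the divisor of `dμ` for an everywhere unramified `E' / K(μ)` has degree `−2·[E' : K(μ)]`. -/
theorem DK_degree_dmu (μ : E') (hμ : Transcendental K μ) [FiniteDimensional K⟮μ⟯ E']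
    (W : Divisor K E') (hW : ∀ v : Place K E', W v = v.ordDifferential (D K E' μ))
    (hfin : ∀ (w : Place K E') (c : K), 0 < w.ord (μ - algebraMap K E' c) →
      w.ord (μ - algebraMap K E' c) = 1)
    (hinf : ∀ w : Place K E', w.ord μ < 0 → w.ord μ = -1) :
    Divisor.degree W = -2 * (Module.finrank K⟮μ⟯ E' : ℤ) := by
  classical
  obtain ⟨s, hs, hsum⟩ := W_hG2inf hμ
  have hF1 : S24_IsFunctionField1 K E' := BL_isFunctionField1 (K := K) μ
  have hdeg1 : ∀ v : Place K E', v.deg = 1 := S24_deg_eq_one hF1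
  have hWpole : ∀ v ∈ s, W v = -2 := by
    intro v hv
    have hneg := (hs v).mp hv
    rw [hW v, BL_ordDifferential_D_of_neg μ v hneg, hinf v hneg]
    norm_num
  have hWfin : ∀ v, v ∉ s → W v = 0 := by
    intro v hv
    have hnn : 0 ≤ v.ord μ := by
      by_contra h
      exact hv ((hs v).mpr (by omega))
    obtain ⟨c, hc, hord⟩ := BL_ordDifferential_D_of_nonneg μ v hμ hnn
    rw [hW v, hord, hfin v c hc]
    norm_num
  have hdegree : Divisor.degree W = ∑ v ∈ s, W v := by
    have h1 : Divisor.degree W = ∑ v ∈ W.support, W v := by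
      simp only [Divisor.degree, Finsupp.liftAddHom_apply, Finsupp.sum,
        AddMonoidHom.coe_mulRight, hdeg1]
      simp
    rw [h1]
    apply Finset.sum_subset
    · intro v hv
      by_contra hvT
      exact (Finsupp.mem_support_iff.mp hv) (hWfin v hvT)
    · intro v _ hv
      exact Finsupp.notMem_support_iff.mp hv
  have hcard : (s.card : ℤ) = (Module.finrank K⟮μ⟯ E' : ℤ) := by
    rw [← hsum]
    have : ∀ v ∈ s, - v.ord μ = 1 := fun v hv => by rw [hinf v ((hs v).mp hv)]; norm_num
    rw [Finset.sum_congr rfl this]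
    simp
  rw [hdegree, Finset.sum_congr rfl hWpole, Finset.sum_const, ← hcard]
  simp
  ring

/-- **DEG-K (c)**, degree form. -/
theorem DK_finrank_eq_one (μ : E') (hμ : Transcendental K μ) [FiniteDimensional K⟮μ⟯ E']
    (hHW : ∃ (g : ℕ) (W : Divisor K E'),
      (∀ v : Place K E', W v = v.ordDifferential (D K E' μ)) ∧
        Divisor.degree W = 2 * (g : ℤ) - 2)
    (hfin : ∀ (w : Place K E') (c : K), 0 < w.ord (μ - algebraMap K E' c) →
      w.ord (μ - algebraMap K E' c) = 1)
    (hinf : ∀ w : Place K E', w.ord μ < 0 → w.ord μ = -1) :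
    Module.finrank K⟮μ⟯ E' = 1 := by
  obtain ⟨g, W, hW, hdeg⟩ := hHW
  have h1 := DK_degree_dmu μ hμ W hW hfin hinf
  have hpos : 0 < Module.finrank K⟮μ⟯ E' := Module.finrank_pos
  rw [hdeg] at h1
  omega

/-- **DEG-K (c)**: an everywhere unramified (finite, char `0`) cover of the `μ`-line is trivial:
`E' = K(μ)`. -/
theorem DK_adjoin_eq_top (μ : E') (hμ : Transcendental K μ) [FiniteDimensional K⟮μ⟯ E']
    (hHW : ∃ (g : ℕ) (W : Divisor K E'),
      (∀ v : Place K E', W v = v.ordDifferential (D K E' μ)) ∧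
        Divisor.degree W = 2 * (g : ℤ) - 2)
    (hfin : ∀ (w : Place K E') (c : K), 0 < w.ord (μ - algebraMap K E' c) →
      w.ord (μ - algebraMap K E' c) = 1)
    (hinf : ∀ w : Place K E', w.ord μ < 0 → w.ord μ = -1) :
    K⟮μ⟯ = ⊤ :=
  IntermediateField.finrank_eq_one_iff_eq_top.mp (DK_finrank_eq_one μ hμ hHW hfin hinf)

end Fermat.Agent.S18
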