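import Mathlib
import Fermat.Agent.S18.DegKAbh
import Fermat.Agent.S18.DegKCusp
import Fermat.Agent.S18.DegKHur
import Fermat.Agent.S18.DegKDeg
import Fermat.Agent.S18.AbhField
import Fermat.Agent.Lib.Hurwitz

/-!
# S18 (TRACK 3), package DEG-K, K2: concrete wiring (helper1)

For `M ∈ {2, 3}` with `M ∣ N`:  `[F(μ) : F] ≤ M`, where `F = modularFunctionFieldBar N` and
`F(μ) = AX_F' F M (jB N)`.

* level `M`: `E = modularFunctionFieldBar M`, `E₁ = AX_F' E M (jB M) = E(μ₀)`.  By (a) + (b)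
  (`X0_ramification`, `DK_cusp_ord_prime`, `DK_abh_all`) `E₁ / K(μ₀)` is unramified everywhere,
  so by Hurwitz (helper9's `DK_adjoin_eq_top`) `E₁ = K(μ₀)`: `DK_levelM_adjoin_eq_top`.
* transfer to level `N`: `E ⊆ F` (`DK_incl`), the splitting field `E₁` embeds in
  `Ω = AX_F' F M (jB N)` over `E`, and the image of `μ₀` is a root of the same polynomial as
  `μ = AX_mu F M (jB N)`, hence a Möbius transform of `μ`: `ι E ⊆ K(μ)` (`DK_sub`).
* degree count: helper9's `DK_finrank_le`.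
-/

set_option autoImplicit false

open Polynomial AlgebraicCurve IntermediateField ModularCurve

namespace Fermat.Agent.S18

open Fermat.Agent.Lib Fermat.Agent.S24

section

variable (M N : ℕ) [NeZero M] [NeZero N]

/-- `M ∣ N` implies `ℚ̄(X₀(M)) ⊆ ℚ̄(X₀(N))` (inside `ℚ̄((q))`). -/
theorem DK_bar_le (h : M ∣ N) : modularFunctionFieldBar M ≤ modularFunctionFieldBar N := by
  show laurentBaseChange (AlgebraicClosure ℚ) (modularFunctionFieldFull M) ≤
    laurentBaseChange (AlgebraicClosure ℚ) (modularFunctionFieldFull N)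
  rw [laurentBaseChange, IntermediateField.adjoin_le_iff]
  rintro _ ⟨y, hy, rfl⟩
  exact coeffEmb_mem_laurentBaseChange (AlgebraicClosure ℚ) (full_degeneracy_le h hy)

/-- the inclusion of function fields. -/
noncomputable def DK_incl (h : M ∣ N) :
    ↥(modularFunctionFieldBar M) →ₐ[AlgebraicClosure ℚ] ↥(modularFunctionFieldBar N) :=
  IntermediateField.inclusion (DK_bar_le M N h)

theorem DK_incl_jB (h : M ∣ N) : DK_incl M N h (jB M) = jB N := rfl

/-- a primitive cube root of unity in an algebraically closed field. -/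
theorem DK_exists_omega (K : Type*) [Field K] [IsAlgClosed K] : ∃ ω : K, ω ^ 2 + ω + 1 = 0 := by
  obtain ⟨ω, hω⟩ := IsAlgClosed.exists_root (X ^ 2 + X + 1 : K[X]) (by
    rw [degree_eq_natDegree (by
      intro h
      have := congrArg (fun p => coeff p 2) h
      simp [coeff_X, coeff_one] at this)]
    have : (X ^ 2 + X + 1 : K[X]).natDegree = 2 := by compute_degree!
    rw [this]
    norm_num)
  refine ⟨ω, ?_⟩
  simpa using hω

/-- **level `M`**: `E(μ₀) = K(μ₀)` for `E = ℚ̄(X₀(M))`, `M ∈ {2, 3}`. -/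
theorem DK_levelM_adjoin_eq_top (hM : M = 2 ∨ M = 3) :
    (AlgebraicClosure ℚ)⟮AX_mu ↥(modularFunctionFieldBar M) M (jB M)⟯ = ⊤ := by
  have hMprime : M.Prime := by rcases hM with rfl | rfl <;> norm_num
  have hME : (M : ↥(modularFunctionFieldBar M)) ≠ 0 := by
    exact_mod_cast (NeZero.ne M)
  have hlead : (AX_lead M : ↥(modularFunctionFieldBar M)) ≠ 0 := MU_lead_ne_zero hM hME
  have hjt : Transcendental (AlgebraicClosure ℚ) (jB M) := transcendental_jB M
  have := finiteDimensional_jB M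
  have hμt := ABH_mu_transcendental (K := AlgebraicClosure ℚ) M (jB M) hM hME hjt
  have := ABH_finite_mu (K := AlgebraicClosure ℚ) M (jB M) hM hME hjt
  have hrr : RR_Hyp (AlgebraicClosure ℚ) (AX_F' ↥(modularFunctionFieldBar M) M (jB M)) :=
    ABH_rrHyp M (jB M) hM hME hjt
  obtain ⟨W, hW, hdeg⟩ := HW_hurwitz hrr (AX_mu ↥(modularFunctionFieldBar M) M (jB M)) hμt
  have hE : S24_IsFunctionField1 (AlgebraicClosure ℚ) ↥(modularFunctionFieldBar M) :=
    S24_isFunctionField1_of_isAlgebraic (jB M) (Algebra.IsAlgebraic.of_finite _ _)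
  have hE' : S24_IsFunctionField1 (AlgebraicClosure ℚ)
      (AX_F' ↥(modularFunctionFieldBar M) M (jB M)) := ABH_isFunctionField1_aux M (jB M)
  obtain ⟨ω₀, hω₀⟩ := DK_exists_omega (AlgebraicClosure ℚ)
  have hω : M = 3 → (algebraMap (AlgebraicClosure ℚ) ↥(modularFunctionFieldBar M) ω₀) ^ 2 +
      algebraMap (AlgebraicClosure ℚ) ↥(modularFunctionFieldBar M) ω₀ + 1 = 0 := by
    intro _
    rw [← map_pow, ← map_add, ← map_one (algebraMap (AlgebraicClosure ℚ)
      ↥(modularFunctionFieldBar M)), ← map_add, hω₀, map_zero]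
  have hgen := MU_exists_aeval ↥(modularFunctionFieldBar M) M (jB M) hM hME hω
  have hrel := AX_mu_eval ↥(modularFunctionFieldBar M) M (jB M) hlead
  have hj : jB M ≠ 0 := fun h => hjt (h ▸ isAlgebraic_zero)
  obtain ⟨hfin, hinf⟩ := DK_abh_all hE hE' hM (jB M) hj
    (AX_mu ↥(modularFunctionFieldBar M) M (jB M)) hrel hgen
    (fun c P hP => X0_ramification M c P hP) (fun P hP => DK_cusp_ord_prime M hMprime P hP)
  exact DK_adjoin_eq_top _ hμt ⟨RR_genus (AlgebraicClosure ℚ) _, W, hW, hdeg⟩ hfin hinf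

end

section transfer

variable {K E F : Type*} [Field K] [Field E] [Field F] [Algebra K E] [Algebra K F]

/-- **transfer** (abstract): if `E(μ₀) = K(μ₀)` for the auxiliary field of `E` and `ι : E → F` is
a `K`-embedding, then `ι E ⊆ K(μ)` inside the auxiliary field of `F`. -/
theorem DK_transfer [IsAlgClosed K] (ι : E →ₐ[K] F) (jE : E) {M : ℕ} (hM : M = 2 ∨ M = 3)
    (hME : (M : E) ≠ 0) (hMF : (M : F) ≠ 0)
    (htop : K⟮AX_mu E M jE⟯ = ⊤) (y : E) :
    algebraMap F (AX_F' F M (ι jE)) (ι y) ∈ K⟮AX_mu F M (ι jE)⟯ := by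
  have hMΩ : (M : AX_F' F M (ι jE)) ≠ 0 := by
    have : ((M : ℕ) : AX_F' F M (ι jE)) = algebraMap F (AX_F' F M (ι jE)) (M : F) := by
      rw [map_natCast]
    rw [this]
    exact fun h => hMF ((algebraMap F (AX_F' F M (ι jE))).injective (by rw [h, map_zero]))
  have hleadE : (AX_lead M : E) ≠ 0 := MU_lead_ne_zero hM hME
  have hleadF : (AX_lead M : F) ≠ 0 := MU_lead_ne_zero hM hMF
  obtain ⟨ω₀, hω₀⟩ := DK_exists_omega K
  have hω : M = 3 → (algebraMap K (AX_F' F M (ι jE)) ω₀) ^ 2 +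
      algebraMap K (AX_F' F M (ι jE)) ω₀ + 1 = 0 := by
    intro _
    rw [← map_pow, ← map_add, ← map_one (algebraMap K (AX_F' F M (ι jE))), ← map_add, hω₀,
      map_zero]
  -- `μ` is a root in `Ω`
  have hμroot : (AX_poly (AX_F' F M (ι jE)) M (algebraMap F (AX_F' F M (ι jE)) (ι jE))).eval
      (AX_mu F M (ι jE)) = 0 := AX_mu_eval F M (ι jE) hleadF
  -- `Ω` as an `E`-algebra
  let algEΩ : Algebra E (AX_F' F M (ι jE)) :=
    ((algebraMap F (AX_F' F M (ι jE))).comp (ι : E →+* F)).toAlgebra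
  have halg : ∀ z : E, algebraMap E (AX_F' F M (ι jE)) z =
      algebraMap F (AX_F' F M (ι jE)) (ι z) := fun z => rfl
  have towerKEΩ : IsScalarTower K E (AX_F' F M (ι jE)) :=
    IsScalarTower.of_algebraMap_eq (fun c => by
      rw [halg, AlgHom.commutes, ← IsScalarTower.algebraMap_apply])
  -- the splitting field `E₁` embeds into `Ω`
  have hsplit : ((AX_poly E M jE).map (algebraMap E (AX_F' F M (ι jE)))).Splits := by
    rw [AX_poly_map, halg]
    exact MU_splits hM hMΩ hω hμroot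
  let φ : AX_F' E M jE →ₐ[E] AX_F' F M (ι jE) := SplittingField.lift (AX_poly E M jE) hsplit
  let φK : AX_F' E M jE →ₐ[K] AX_F' F M (ι jE) := φ.restrictScalars K
  -- `φ μ₀` is a root, hence in the orbit of `μ`
  have hroot₀ : (AX_poly (AX_F' F M (ι jE)) M (algebraMap F (AX_F' F M (ι jE)) (ι jE))).eval
      (φ (AX_mu E M jE)) = 0 := by
    have h1 : aeval (AX_mu E M jE) (AX_poly E M jE) = 0 := AX_mu_root E M jE hleadE
    have h2 := congrArg φ h1
    rw [← aeval_algHom_apply, map_zero, aeval_def, eval₂_eq_eval_map, AX_poly_map, halg] at h2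
    exact h2
  have horb := MU_mem_orbit_of_root hM hMΩ hω hμroot hroot₀
  have hmem : φ (AX_mu E M jE) ∈ K⟮AX_mu F M (ι jE)⟯ :=
    MU_orbit_mem_adjoin M ω₀ (AX_mu F M (ι jE)) horb
  -- `y ∈ K(μ₀) = ⊤`
  have hy : algebraMap E (AX_F' E M jE) y ∈ K⟮AX_mu E M jE⟯ := by
    rw [htop]
    exact IntermediateField.mem_top
  have h3 : φK (algebraMap E (AX_F' E M jE) y) ∈ (K⟮AX_mu E M jE⟯).map φK :=
    ⟨_, hy, rfl⟩
  rw [IntermediateField.adjoin_map, Set.image_singleton] at h3
  have h4 : K⟮φK (AX_mu E M jE)⟯ ≤ K⟮AX_mu F M (ι jE)⟯ := by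
    rw [IntermediateField.adjoin_simple_le_iff]
    exact hmem
  have h5 : φK (algebraMap E (AX_F' E M jE) y) = algebraMap F (AX_F' F M (ι jE)) (ι y) := by
    show φ (algebraMap E (AX_F' E M jE) y) = _
    rw [AlgHom.commutes, halg]
  rw [← h5]
  exact h4 h3

end transfer

section

variable (M N : ℕ) [NeZero M] [NeZero N]

theorem DK_dedekindPsi_prime {p : ℕ} (hp : p.Prime) : dedekindPsi p = p + 1 := by
  rw [dedekindPsi, Nat.Prime.divisors hp, Finset.filter_true_of_mem, Finset.sum_pair hp.one_lt.ne]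
  · simp [Nat.div_self hp.pos]
  · intro d hd
    simp only [Finset.mem_insert, Finset.mem_singleton] at hd
    rcases hd with rfl | rfl
    · exact squarefree_one
    · exact hp.squarefree

/-- **DEG-K, K2**: for `M ∈ {2, 3}` with `M ∣ N`: `[F(μ) : F] ≤ M`. -/
theorem DK_finrank_le_of_dvd (hM : M = 2 ∨ M = 3) (hMN : M ∣ N) :
    Module.finrank ↥(modularFunctionFieldBar N)
      (AX_F' ↥(modularFunctionFieldBar N) M (jB N)) ≤ M := by
  have hMprime : M.Prime := by rcases hM with rfl | rfl <;> norm_num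
  have hME : (M : ↥(modularFunctionFieldBar M)) ≠ 0 := by exact_mod_cast (NeZero.ne M)
  have hMF : (M : ↥(modularFunctionFieldBar N)) ≠ 0 := by exact_mod_cast (NeZero.ne M)
  obtain ⟨ω₀, hω₀⟩ := DK_exists_omega (AlgebraicClosure ℚ)
  have hω : M = 3 → (algebraMap (AlgebraicClosure ℚ) ↥(modularFunctionFieldBar N) ω₀) ^ 2 +
      algebraMap (AlgebraicClosure ℚ) ↥(modularFunctionFieldBar N) ω₀ + 1 = 0 := by
    intro _
    rw [← map_pow, ← map_add, ← map_one (algebraMap (AlgebraicClosure ℚ)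
      ↥(modularFunctionFieldBar N)), ← map_add, hω₀, map_zero]
  have hdeg : M + 1 ≤ Module.finrank (AlgebraicClosure ℚ)⟮jB M⟯ ↥(modularFunctionFieldBar M) := by
    rw [finrank_eq_psi M, DK_dedekindPsi_prime hMprime]
  exact DK_finrank_le (DK_incl M N hMN) (jB M) hM hMF hω hdeg
    (DK_transfer (DK_incl M N hMN) (jB M) hM hME hMF (DK_levelM_adjoin_eq_top M hM))

end

end Fermat.Agent.S18
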