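import Fermat.Agent.S18.SepRel
import Fermat.Agent.S28.KCore.Main
import Fermat.Agent.S28.Conj
import Fermat.Agent.S28.Rank
import Fermat.Agent.S28.Data
import Fermat.Agent.S24.FFBasic

/-!
# S18, package P0/SEP (helper2), part 3: numeric DEG for `F` itself

`ψ(N) = #(SL₂(ℤ)/Γ₀(N)) ≤ [F_k : k(j̄)]` for every field `k` of characteristic `ℓ ∤ N`:
the `ψ(N)` monomials in the `j(q^d)` of the S28 K-core stay linearly independent over `k[j̄]`.

* `S18_hind_zmod`   : the K-core independence over `ZMod ℓ`, with explicit exponents;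
* `S18_indep_baseChange` : base change of such an independence statement along a field extension;
* `S18_card_cos_le_finrank` : `#Cos N ≤ [F_k : k(j̄)]`.
-/

set_option autoImplicit false
set_option synthInstance.maxHeartbeats 400000
set_option maxHeartbeats 1000000

open HahnSeries IntermediateField ModularCurve

namespace Fermat.Agent.S18

open Fermat.Agent.S28

/-- the K-core of S28 with explicit exponents: `#Cos N` monomials in the `j(q^d)` whose reductions
modulo `ℓ` are linearly independent over `𝔽_ℓ[j]`. -/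
theorem S18_hind_zmod (N : ℕ) [NeZero N] (ℓ : ℕ) [Fact ℓ.Prime] (hℓN : ¬ ℓ ∣ N) :
    ∃ e : Fin (Nat.card (Cos N)) → (N.divisors → ℕ),
      ∀ c : Fin (Nat.card (Cos N)) → Polynomial (ZMod ℓ),
        ∑ i, Polynomial.aeval (jA' (ZMod ℓ)) (c i) *
          (kcMono N ℤ (e i)).map (Int.castRingHom (ZMod ℓ)) = 0 → ∀ i, c i = 0 := by
  classical
  have hℓ : ℓ.Prime := Fact.out
  let _ : Fintype (Cos N) := Fintype.ofFinite _
  have hcard : Nat.card (Cos N) = Fintype.card (Cos N) := Nat.card_eq_fintype_card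
  obtain ⟨V, -, hV⟩ := exists_valuationSubring_prime ℓ hℓ
  have hζV : zetaC N ∈ V := by
    refine mem_valuationSubring_of_isIntegral V _ ?_
    exact ((kcT1_isPrimitiveRoot_zetaC N).isIntegral (Nat.pos_of_ne_zero (NeZero.ne N)))
  have hNV := inv_natCast_mem_valuationSubring V ℓ hℓ hV N hℓN
  have := charP_residueField_valuationSubring V ℓ hℓ hV
  set ζ : V := ⟨zetaC N, hζV⟩
  have hz := kc_primitive N ℓ hℓ hℓN V hV ζ rfl
  have hR := kc_Rl_of_AC N V ζ rfl (ac1 N) (ac2 N)
  have hI := kc_Il_of_AC N V hNV ζ rfl (ac1 N) (ac3 N)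
  obtain ⟨e, he⟩ := kcT9_hind_k_of hz (ac4 N)
    (fun y hy => kc_hdim N _ _ hz hR y hy)
    (fun d α => kc_integral N _ _ hz hI d α)
  have key := kc_hind N _ _ ℓ hz _ e he
  rw [hcard]
  exact ⟨e, key⟩

section BaseChange

variable {𝔽 k : Type*} [Field 𝔽] [Field k] [Algebra 𝔽 k]

/-- apply an `𝔽`-linear functional to the coefficients of a polynomial. -/
noncomputable def S18_polyDual (φ : k →ₗ[𝔽] 𝔽) (p : Polynomial k) : Polynomial 𝔽 :=
  ∑ m ∈ Finset.range (p.natDegree + 1), Polynomial.monomial m (φ (p.coeff m))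

theorem S18_polyDual_coeff (φ : k →ₗ[𝔽] 𝔽) (p : Polynomial k) (m : ℕ) :
    (S18_polyDual φ p).coeff m = φ (p.coeff m) := by
  rw [S18_polyDual, Polynomial.finsetSum_coeff]
  simp only [Polynomial.coeff_monomial]
  rw [Finset.sum_ite_eq' (Finset.range (p.natDegree + 1)) m]
  split_ifs with h
  · rfl
  · rw [Finset.mem_range, not_lt] at h
    rw [Polynomial.coeff_eq_zero_of_natDegree_lt (by omega), map_zero]

theorem S18_polyDual_natDegree_le (φ : k →ₗ[𝔽] 𝔽) (p : Polynomial k) :
    (S18_polyDual φ p).natDegree ≤ p.natDegree := by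
  rw [Polynomial.natDegree_le_iff_coeff_eq_zero]
  intro m hm
  rw [S18_polyDual_coeff, Polynomial.coeff_eq_zero_of_natDegree_lt hm, map_zero]

/-- coefficients of `aeval J p * X` for Laurent series. -/
theorem S18_coeff_aeval_mul {R : Type*} [Field R] (J X : LaurentSeries R) (p : Polynomial R)
    {M : ℕ} (hM : p.natDegree < M) (r : ℤ) :
    (Polynomial.aeval J p * X).coeff r =
      ∑ m ∈ Finset.range M, p.coeff m * (J ^ m * X).coeff r := by
  rw [Polynomial.aeval_eq_sum_range' hM, Finset.sum_mul, HahnSeries.coeff_sum]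
  refine Finset.sum_congr rfl fun m _ => ?_
  rw [Algebra.smul_def, Fermat.Agent.Lib.LT_algebraMap_eq, mul_assoc,
    HahnSeries.coeff_single_zero_mul]

/-- **base change of a `k[j]`-independence statement** along a field extension `𝔽 ⊆ k`. -/
theorem S18_indep_baseChange {n : ℕ} (J : LaurentSeries 𝔽) (X : Fin n → LaurentSeries 𝔽)
    (h : ∀ c : Fin n → Polynomial 𝔽, ∑ i, Polynomial.aeval J (c i) * X i = 0 → ∀ i, c i = 0)
    (c : Fin n → Polynomial k)
    (hc : ∑ i, Polynomial.aeval (coeffMap (algebraMap 𝔽 k) J) (c i) *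
      coeffMap (algebraMap 𝔽 k) (X i) = 0) : ∀ i, c i = 0 := by
  classical
  -- a common degree bound
  obtain ⟨M, hM⟩ : ∃ M : ℕ, ∀ i, (c i).natDegree < M :=
    ⟨(Finset.univ.sup fun i => (c i).natDegree) + 1, fun i =>
      Nat.lt_succ_of_le (Finset.le_sup (f := fun i => (c i).natDegree) (Finset.mem_univ i))⟩
  have hφ : ∀ φ : k →ₗ[𝔽] 𝔽, ∀ i, S18_polyDual φ (c i) = 0 := by
    intro φ
    apply h
    ext r
    rw [HahnSeries.coeff_zero, HahnSeries.coeff_sum]
    have h1 := congrArg (fun z : LaurentSeries k => φ (z.coeff r)) hc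
    simp only [HahnSeries.coeff_zero, map_zero, HahnSeries.coeff_sum, map_sum] at h1
    rw [← h1]
    refine Finset.sum_congr rfl fun i _ => ?_
    rw [S18_coeff_aeval_mul J (X i) _
        (lt_of_le_of_lt (S18_polyDual_natDegree_le φ (c i)) (hM i)) r,
      S18_coeff_aeval_mul _ _ _ (hM i) r, map_sum]
    refine Finset.sum_congr rfl fun m _ => ?_
    rw [S18_polyDual_coeff, ← map_pow, ← map_mul, coeffMap_coeff, mul_comm ((c i).coeff m),
      ← Algebra.smul_def, map_smul, smul_eq_mul, mul_comm]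
  intro i
  ext m
  rw [Polynomial.coeff_zero, ← Module.forall_dual_apply_eq_zero_iff 𝔽]
  intro φ
  have := congrArg (fun p : Polynomial 𝔽 => p.coeff m) (hφ φ i)
  simpa [S18_polyDual_coeff] using this

end BaseChange

section Deg

open scoped IntermediateField.algebraAdjoinAdjoin

variable (N : ℕ) [NeZero N] (ℓ : ℕ) [Fact ℓ.Prime] (hℓN : ¬ ℓ ∣ N)
  {k : Type*} [Field k] [CharP k ℓ]

/-- the monomial `∏_d j̄(q^d)^(e d)` in `F_k`. -/
noncomputable def S18_monoF (k : Type*) [Field k] (e : N.divisors → ℕ) :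
    ↥(modularFunctionFieldFullC k N) :=
  ∏ d : N.divisors, S18_jdbar N k d ^ e d

theorem S18_monoF_coe (k : Type*) [Field k] (e : N.divisors → ℕ) :
    ((S18_monoF N k e : ↥(modularFunctionFieldFullC k N)) : LaurentSeries k) =
      coeffMap (Int.castRingHom k) (kcMono N ℤ e) := by
  rw [S18_monoF, kcMono, map_prod, IntermediateField.coe_prod]
  refine Finset.prod_congr rfl fun d _ => ?_
  have := kc_neZero_of_mem_divisors N d
  rw [IntermediateField.coe_pow, map_pow]
  congr 1
  show qExpand k (d : ℕ) (jqModC k) = coeffMap _ (qExpand ℤ (d : ℕ) (jqModC ℤ))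
  rw [coeffMap_qExpand, coeffMap_jqModC]

include hℓN in
/-- the K-core independence over any field of characteristic `ℓ`. -/
theorem S18_indep_k :
    ∃ e : Fin (Nat.card (Cos N)) → (N.divisors → ℕ),
      ∀ c : Fin (Nat.card (Cos N)) → Polynomial k,
        ∑ i, Polynomial.aeval (jqModC k) (c i) *
          ((S18_monoF N k (e i) : ↥(modularFunctionFieldFullC k N)) : LaurentSeries k) = 0 →
        ∀ i, c i = 0 := by
  let _ := ZMod.algebra k ℓ
  obtain ⟨e, he⟩ := S18_hind_zmod N ℓ hℓN
  refine ⟨e, fun c hc => ?_⟩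
  refine S18_indep_baseChange (𝔽 := ZMod ℓ) (jA' (ZMod ℓ))
    (fun i => (kcMono N ℤ (e i)).map (Int.castRingHom (ZMod ℓ))) he c ?_
  rw [← hc]
  refine Finset.sum_congr rfl fun i _ => ?_
  have h1 : coeffMap (algebraMap (ZMod ℓ) k) (jA' (ZMod ℓ)) = jqModC k :=
    coeffMap_jqModC (R := ZMod ℓ) (algebraMap (ZMod ℓ) k)
  have h2 : coeffMap (algebraMap (ZMod ℓ) k)
      ((kcMono N ℤ (e i)).map (Int.castRingHom (ZMod ℓ))) =
      coeffMap (Int.castRingHom k) (kcMono N ℤ (e i)) := by
    show coeffMap _ (coeffMap _ (kcMono N ℤ (e i))) = _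
    rw [coeffMap_coeffMap]
    exact coeffMap_congr (RingHom.ext_int _ _) _
  rw [h1, h2, S18_monoF_coe]

include hℓN in
/-- the monomials are linearly independent over `k(j̄)`. -/
theorem S18_linearIndependent_mono :
    ∃ e : Fin (Nat.card (Cos N)) → (N.divisors → ℕ),
      LinearIndependent k⟮S18_jbar N k⟯ (fun i => S18_monoF N k (e i)) := by
  obtain ⟨e, he⟩ := S18_indep_k N ℓ hℓN (k := k)
  refine ⟨e, ?_⟩
  rw [← LinearIndependent.iff_fractionRing (R := Algebra.adjoin k
    ({S18_jbar N k} : Set ↥(modularFunctionFieldFullC k N))) (K := k⟮S18_jbar N k⟯),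
    Fintype.linearIndependent_iff]
  intro g hg
  have hp : ∀ i, ∃ p : Polynomial k,
      g i = Polynomial.aeval (Fermat.Agent.S24.BL_gen (K := k) (S18_jbar N k)) p :=
    fun i => Fermat.Agent.S24.BL_exists_aeval _ (g i)
  choose p hp using hp
  have hp0 : ∀ i, p i = 0 := by
    apply he
    have h1 := congrArg (fun z : ↥(modularFunctionFieldFullC k N) => (z : LaurentSeries k)) hg
    simp only [IntermediateField.coe_sum, IntermediateField.coe_zero] at h1
    rw [← h1]
    refine Finset.sum_congr rfl fun i _ => ?_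
    have h2 : ((g i • S18_monoF N k (e i) : ↥(modularFunctionFieldFullC k N)) :
        LaurentSeries k) = ((g i : ↥(modularFunctionFieldFullC k N)) : LaurentSeries k) *
        (S18_monoF N k (e i) : LaurentSeries k) := rfl
    rw [h2]
    congr 1
    rw [hp i]
    have h3 : ((Polynomial.aeval (Fermat.Agent.S24.BL_gen (K := k) (S18_jbar N k)) (p i) :
        Algebra.adjoin k ({S18_jbar N k} : Set ↥(modularFunctionFieldFullC k N))) :
        ↥(modularFunctionFieldFullC k N)) = Polynomial.aeval (S18_jbar N k) (p i) :=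
      (Polynomial.aeval_algHom_apply (Algebra.adjoin k
        ({S18_jbar N k} : Set ↥(modularFunctionFieldFullC k N))).val _ (p i)).symm
    rw [h3]
    exact Polynomial.aeval_algHom_apply (modularFunctionFieldFullC k N).val (S18_jbar N k) (p i)
  intro i
  rw [hp i, hp0 i, map_zero]

include hℓN in
/-- **numeric DEG for `F` itself**: `#(SL₂(ℤ)/Γ₀(N)) ≤ [F_k : k(j̄)]`. -/
theorem S18_card_cos_le_finrank (ψ : ↥(GaloisRep.ratLocalizedAt ℓ) →+* k) :
    Nat.card (Cos N) ≤
      Module.finrank k⟮S18_jbar N k⟯ ↥(modularFunctionFieldFullC k N) := by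
  have hfin := S18_finite_jbar N (Fact.out : ℓ.Prime) hℓN ψ
  obtain ⟨e, he⟩ := S18_linearIndependent_mono N ℓ hℓN (k := k)
  have := he.fintype_card_le_finrank
  simpa using this

end Deg

end Fermat.Agent.S18
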