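import Fermat.Agent.Lib.GaussRep
import Fermat.Agent.S18.SepDeg
import Fermat.Agent.S18.Reduce
import Fermat.Agent.S18.ResField

/-!
# S18 / RI, package RI-7 (helper2): `PrincipalGeneratedByIntegral`, without the hypothesis `h`

`K = ℚ̄`, `A ⊂ K` a valuation ring over `ℓ ∤ N`, `k` its residue field,
`F = modularFunctionFieldBar N`, `F_k = modularFunctionFieldFullC k N`,
`B = S18_B A N` the ring of integral series lying in `F` with reduction in `F_k`.

* `RIG_exists_rep_X0` : every `f ∈ F^×` is `c · ι s₁ / ι s₂`, `c ∈ K^×`, `s_i ∈ B`, `ρ s_i ≠ 0`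
  (= V1 of package V, `S18_exists_rep`, WITHOUT `hgen`);
* `RIG_hgen` : `PrincipalGeneratedByIntegral A (IsLocalRing.residue A) N`.

Proof: the `ψ(N)` monomials of the S28 K-core are linearly independent modulo `ℓ`
(`S18_indep_k`), hence in characteristic `0`, hence a `K(j)`-basis of `F` (degree `≤ ψ(N)`:
S24); content scaling in the valuation ring `A` (`Lib/GaussRep.lean`).
-/

set_option autoImplicit false
set_option synthInstance.maxHeartbeats 400000
set_option maxHeartbeats 1000000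

open HahnSeries IntermediateField AlgebraicCurve ModularCurve

namespace Fermat.Agent.S18

open Fermat.Agent.Lib Fermat.Agent.S24 Fermat.Agent.S28

section

variable (N : ℕ) [NeZero N] (A : ValuationSubring (AlgebraicClosure ℚ))

/-- constants, as a ring homomorphism `A → B`. -/
noncomputable def RIG_cst : A →+* S18_B A N where
  toFun a := S18_BC A N a
  map_one' := Subtype.ext (map_one _)
  map_mul' a b := Subtype.ext (map_mul _ a b)
  map_zero' := Subtype.ext (map_zero _)
  map_add' a b := Subtype.ext (map_add _ a b)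

theorem RIG_cst_apply (a : A) : RIG_cst N A a = S18_BC A N a := rfl

/-- `j(q^d)` as an element of `B`. -/
noncomputable def RIG_jd (d : N.divisors) : S18_B A N :=
  haveI := kc_neZero_of_mem_divisors N d
  ⟨jqNModC A d, S18_jqN_mem_B A N (Nat.dvd_of_mem_divisors d.2)⟩

/-- `j` as an element of `B`. -/
noncomputable def RIG_j : S18_B A N := ⟨jqNModC A 1, S18_jqN_mem_B A N (one_dvd N)⟩

/-- the monomial `∏_d j(q^d)^(e d)` as an element of `B`. -/
noncomputable def RIG_mono (e : N.divisors → ℕ) : S18_B A N :=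
  ∏ d : N.divisors, RIG_jd N A d ^ e d

theorem RIG_Bι_j : S18_Bι A N (RIG_j N A) = jB N := by
  apply Subtype.ext
  rw [S24_deg_jB_val]
  show coeffMap A.subtype (jqNModC A 1) = _
  rw [coeffMap_jqNModC, jqNModC_one]

theorem RIG_Bρ_j : S18_Bρ A N (RIG_j N A) = S18_jbar N (IsLocalRing.ResidueField A) := by
  apply Subtype.ext
  show coeffMap (IsLocalRing.residue A) (jqNModC A 1) = jqModC _
  rw [coeffMap_jqNModC, jqNModC_one]

theorem RIG_Bρ_jd (d : N.divisors) :
    S18_Bρ A N (RIG_jd N A d) = S18_jdbar N (IsLocalRing.ResidueField A) d := by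
  have := kc_neZero_of_mem_divisors N d
  apply Subtype.ext
  show coeffMap (IsLocalRing.residue A) (jqNModC A d) = qExpand _ (d : ℕ) (jqModC _)
  rw [coeffMap_jqNModC]
  rfl

theorem RIG_Bρ_mono (e : N.divisors → ℕ) :
    S18_Bρ A N (RIG_mono N A e) = S18_monoF N (IsLocalRing.ResidueField A) e := by
  rw [RIG_mono, S18_monoF, map_prod]
  refine Finset.prod_congr rfl fun d _ => ?_
  rw [map_pow, RIG_Bρ_jd]

variable {ℓ : ℕ} (hℓ : ℓ.Prime) (hA : A.LiesOverPrime ℓ) (hℓN : ¬ ℓ ∣ N)

include hℓ hA hℓN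

/-- the K-core independence, in the form needed by `RIG_exists_rep`. -/
theorem RIG_hind :
    ∃ e : Fin (Nat.card (Cos N)) → (N.divisors → ℕ),
      ∀ c : Fin (Nat.card (Cos N)) → Polynomial (IsLocalRing.ResidueField A),
        ∑ i, Polynomial.aeval (S18_Bρ A N (RIG_j N A)) (c i) *
          S18_Bρ A N (RIG_mono N A (e i)) = 0 → ∀ i, c i = 0 := by
  have : CharP (IsLocalRing.ResidueField A) ℓ := S18_residue_charP A ℓ hℓ hA
  have : Fact ℓ.Prime := ⟨hℓ⟩
  obtain ⟨e, he⟩ := S18_indep_k N ℓ hℓN (k := IsLocalRing.ResidueField A)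
  refine ⟨e, fun c hc => he c ?_⟩
  have h1 := congrArg (fun z : ↥(modularFunctionFieldFullC (IsLocalRing.ResidueField A) N) =>
    (z : LaurentSeries (IsLocalRing.ResidueField A))) hc
  simp only [IntermediateField.coe_sum, IntermediateField.coe_zero,
    IntermediateField.coe_mul] at h1
  rw [← h1]
  refine Finset.sum_congr rfl fun i _ => ?_
  rw [RIG_Bρ_mono, RIG_Bρ_j]
  congr 1
  exact Polynomial.aeval_algHom_apply
    (modularFunctionFieldFullC (IsLocalRing.ResidueField A) N).val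
    (S18_jbar N (IsLocalRing.ResidueField A)) (c i)

/-- **V1 without `hgen`**: every `f ∈ F^×` is `c · s₁ / s₂` with `c ∈ K^×`, `s_i ∈ B`,
`ρ s_i ≠ 0`. -/
theorem RIG_exists_rep_X0 (f : ↥(modularFunctionFieldBar N)) (hf : f ≠ 0) :
    ∃ (c : AlgebraicClosure ℚ) (s₁ s₂ : S18_B A N), c ≠ 0 ∧ S18_Bρ A N s₁ ≠ 0 ∧
      S18_Bρ A N s₂ ≠ 0 ∧
      f * S18_Bι A N s₂ =
        algebraMap (AlgebraicClosure ℚ) ↥(modularFunctionFieldBar N) c * S18_Bι A N s₁ := by
  obtain ⟨e, he⟩ := RIG_hind N A hℓ hA hℓN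
  have hfd : FiniteDimensional (AlgebraicClosure ℚ)⟮S18_Bι A N (RIG_j N A)⟯
      ↥(modularFunctionFieldBar N) := by
    rw [RIG_Bι_j]
    exact finiteDimensional_jB N
  have hn : Module.finrank (AlgebraicClosure ℚ)⟮S18_Bι A N (RIG_j N A)⟯
      ↥(modularFunctionFieldBar N) ≤ Nat.card (Cos N) := by
    rw [RIG_Bι_j]
    exact finrank_le_card_cos N
  exact RIG_exists_rep A (IsLocalRing.residue A) (S18_Bι A N) (S18_Bρ A N) (RIG_cst N A)
    (fun a => S18_Bι_BC A N a) (fun a => S18_Bρ_BC A N a) (RIG_j N A)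
    (fun i => RIG_mono N A (e i)) he (S18_Bι_injective A N)
    (by rw [map_one]; exact one_ne_zero) hn f hf

/-- **RI-7**: `PrincipalGeneratedByIntegral`, without any reduction hypothesis. -/
theorem RIG_hgen : PrincipalGeneratedByIntegral A (IsLocalRing.residue A) N := by
  intro D hD
  obtain ⟨f, hf, hDf⟩ := hD
  obtain ⟨c, s₁, s₂, hc, h1, h2, hrep⟩ := RIG_exists_rep_X0 N A hℓ hA hℓN f hf
  have hs1 := S18_Bι_ne_zero A N h1
  have hs2 := S18_Bι_ne_zero A N h2
  obtain ⟨D₁, hD₁, -⟩ := (S18_hPD N).exists_divisor _ hs1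
  obtain ⟨D₂, hD₂, -⟩ := (S18_hPD N).exists_divisor _ hs2
  have hmem : ∀ (s : S18_B A N) (E : Divisor (AlgebraicClosure ℚ) ↥(modularFunctionFieldBar N)),
      S18_Bρ A N s ≠ 0 → (∀ P, E P = P.ord (S18_Bι A N s)) →
      E ∈ integralPrincipalDivisors A (IsLocalRing.residue A) N := fun s E hs hE =>
    ⟨s.1, s.2.1, s.2.2, fun h => hs (Subtype.ext h), hE⟩
  have hDeq : D = D₁ - D₂ := by
    ext P
    rw [Finsupp.sub_apply, hDf P, hD₁ P, hD₂ P]
    have hcF : algebraMap (AlgebraicClosure ℚ) ↥(modularFunctionFieldBar N) c ≠ 0 := by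
      rwa [Ne, map_eq_zero]
    have h3 := congrArg P.ord hrep
    rw [P.ord_mul hf hs2, P.ord_mul hcF hs1, S18_Spec.ord_algebraMap] at h3
    omega
  rw [hDeq]
  exact AddSubgroup.sub_mem _ (AddSubgroup.subset_closure (hmem s₁ D₁ h1 hD₁))
    (AddSubgroup.subset_closure (hmem s₂ D₂ h2 hD₂))

/-- the same statement in the Prelude's abbreviation. -/
theorem RIG_hgen' :
    Divisor.principal (K := AlgebraicClosure ℚ) (F := modularFunctionFieldBar N) ≤
      AddSubgroup.closure (integralPrincipalDivisors A (IsLocalRing.residue A) N) :=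
  RIG_hgen N A hℓ hA hℓN

end

end Fermat.Agent.S18
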