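import Fermat.Agent.Lib.GaussSpan
import Fermat.Agent.S18.RIGen
import Fermat.Agent.S24.EvDegEq

/-!
# S18 / RI (helper2): `[F_k : k(j̄)] = [F : K(j)] = ψ(N)`, without the hypothesis `h`

`K = ℚ̄`, `A ⊂ K` a valuation ring over `ℓ ∤ N`, `k` its residue field.

* `RIG_span_mono`     : the `ψ(N)` K-core monomials are a `k(j̄)`-basis of `F_k`
                        (linearly independent and spanning);
* `RIG_finrank_le_X0` : `[F_k : k(j̄)] ≤ #Cos N`;
* `RIG_finrank_eq`    : `[F_k : k(j̄)] = [F : K(j)]`;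
* `RIG_finrank_eq_psi`: `[F_k : k(j̄)] = ψ(N)`.
-/

set_option autoImplicit false
set_option synthInstance.maxHeartbeats 400000
set_option maxHeartbeats 1000000

open HahnSeries IntermediateField AlgebraicCurve ModularCurve

namespace Fermat.Agent.S18

open Fermat.Agent.Lib Fermat.Agent.S24 Fermat.Agent.S28

section

variable (N : ℕ) [NeZero N] (A : ValuationSubring (AlgebraicClosure ℚ))
  {ℓ : ℕ} (hℓ : ℓ.Prime) (hA : A.LiesOverPrime ℓ) (hℓN : ¬ ℓ ∣ N)

include hℓ hA hℓN

/-- the K-core monomials span `F_k` over `k(j̄)`. -/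
theorem RIG_span_mono :
    ∃ e : Fin (Nat.card (Cos N)) → (N.divisors → ℕ),
      LinearIndependent (IsLocalRing.ResidueField A)⟮S18_jbar N (IsLocalRing.ResidueField A)⟯
        (fun i => S18_monoF N (IsLocalRing.ResidueField A) (e i)) ∧
      Submodule.span (IsLocalRing.ResidueField A)⟮S18_jbar N (IsLocalRing.ResidueField A)⟯
        (Set.range fun i => S18_monoF N (IsLocalRing.ResidueField A) (e i)) = ⊤ := by
  have hchar : CharP (IsLocalRing.ResidueField A) ℓ := S18_residue_charP A ℓ hℓ hA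
  have hfact : Fact ℓ.Prime := ⟨hℓ⟩
  obtain ⟨e, he⟩ := RIG_hind N A hℓ hA hℓN
  have hfd : FiniteDimensional (AlgebraicClosure ℚ)⟮S18_Bι A N (RIG_j N A)⟯
      ↥(modularFunctionFieldBar N) := by
    rw [RIG_Bι_j]
    exact finiteDimensional_jB N
  have hn : Module.finrank (AlgebraicClosure ℚ)⟮S18_Bι A N (RIG_j N A)⟯
      ↥(modularFunctionFieldBar N) ≤ Nat.card (Cos N) := by
    rw [RIG_Bι_j]
    exact finrank_le_card_cos N
  have hfin : FiniteDimensional
      (IsLocalRing.ResidueField A)⟮S18_Bρ A N (RIG_j N A)⟯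
      ↥(modularFunctionFieldFullC (IsLocalRing.ResidueField A) N) := by
    rw [RIG_Bρ_j]
    exact S18_finite_jbar N hℓ hℓN (S18_ψ A hℓ hA)
  have halg : Algebra.IsAlgebraic
      (IsLocalRing.ResidueField A)⟮S18_Bρ A N (RIG_j N A)⟯
      ↥(modularFunctionFieldFullC (IsLocalRing.ResidueField A) N) :=
    Algebra.IsAlgebraic.of_finite _ _
  have hgen : IntermediateField.adjoin
      (IsLocalRing.ResidueField A)⟮S18_Bρ A N (RIG_j N A)⟯
      (Set.range fun d => S18_Bρ A N (RIG_jd N A d)) = ⊤ := by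
    have h1 : (fun d => S18_Bρ A N (RIG_jd N A d)) =
        S18_jdbar N (IsLocalRing.ResidueField A) := funext fun d => RIG_Bρ_jd N A d
    rw [h1, RIG_Bρ_j]
    exact S18_adjoin_eq_top N (IsLocalRing.ResidueField A)
  have hspan := RIG_span_eq_top A (IsLocalRing.residue A) (S18_Bι A N) (S18_Bρ A N)
    (RIG_cst N A) (fun a => S18_Bι_BC A N a) (fun a => S18_Bρ_BC A N a) (RIG_j N A)
    (fun i => RIG_mono N A (e i)) he (S18_Bι_injective A N)
    (by rw [map_one]; exact one_ne_zero)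
    (fun a ha => (IsLocalRing.residue_eq_zero_iff a).mpr
      ((IsLocalRing.mem_maximalIdeal a).mpr ha)) hn (RIG_jd N A) hgen
  have h2 : (fun i => S18_Bρ A N (RIG_mono N A (e i))) =
      fun i => S18_monoF N (IsLocalRing.ResidueField A) (e i) :=
    funext fun i => RIG_Bρ_mono N A (e i)
  rw [h2, RIG_Bρ_j] at hspan
  refine ⟨e, ?_, hspan⟩
  -- independence (as in `S18_linearIndependent_mono`, with the same exponents)
  rw [linearIndependent_iff_card_eq_finrank_span, Set.finrank, hspan, finrank_top]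
  have h3 := S18_card_cos_le_finrank N ℓ hℓN (S18_ψ A hℓ hA)
  have h4 := finrank_range_le_card
    (R := (IsLocalRing.ResidueField A)⟮S18_jbar N (IsLocalRing.ResidueField A)⟯)
    (fun i => S18_monoF N (IsLocalRing.ResidueField A) (e i))
  rw [Set.finrank, hspan, finrank_top, Fintype.card_fin] at h4
  rw [Fintype.card_fin]
  exact le_antisymm h3 h4

/-- `[F_k : k(j̄)] ≤ #(SL₂(ℤ)/Γ₀(N))`. -/
theorem RIG_finrank_le_X0 :
    Module.finrank (IsLocalRing.ResidueField A)⟮S18_jbar N (IsLocalRing.ResidueField A)⟯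
      ↥(modularFunctionFieldFullC (IsLocalRing.ResidueField A) N) ≤ Nat.card (Cos N) := by
  obtain ⟨e, -, hspan⟩ := RIG_span_mono N A hℓ hA hℓN
  have h4 := finrank_range_le_card
    (R := (IsLocalRing.ResidueField A)⟮S18_jbar N (IsLocalRing.ResidueField A)⟯)
    (fun i => S18_monoF N (IsLocalRing.ResidueField A) (e i))
  rw [Set.finrank, hspan, finrank_top, Fintype.card_fin] at h4
  exact h4

/-- `#(SL₂(ℤ)/Γ₀(N)) ≤ [F : K(j)]` (from the independence modulo `ℓ`). -/
theorem RIG_card_cos_le :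
    Nat.card (Cos N) ≤
      Module.finrank (AlgebraicClosure ℚ)⟮jB N⟯ ↥(modularFunctionFieldBar N) := by
  obtain ⟨e, he⟩ := RIG_hind N A hℓ hA hℓN
  have hfd : FiniteDimensional (AlgebraicClosure ℚ)⟮S18_Bι A N (RIG_j N A)⟯
      ↥(modularFunctionFieldBar N) := by
    rw [RIG_Bι_j]
    exact finiteDimensional_jB N
  have hli := RIG_linearIndependent A (IsLocalRing.residue A) (S18_Bι A N) (S18_Bρ A N)
    (RIG_cst N A) (fun a => S18_Bι_BC A N a) (fun a => S18_Bρ_BC A N a) (RIG_j N A)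
    (fun i => RIG_mono N A (e i)) he (S18_Bι_injective A N)
    (by rw [map_one]; exact one_ne_zero)
  have h1 := hli.fintype_card_le_finrank
  rw [Fintype.card_fin, RIG_Bι_j] at h1
  exact h1

/-- **`[F_k : k(j̄)] = #(SL₂(ℤ)/Γ₀(N))`**. -/
theorem RIG_finrank_eq_card :
    Module.finrank (IsLocalRing.ResidueField A)⟮S18_jbar N (IsLocalRing.ResidueField A)⟯
      ↥(modularFunctionFieldFullC (IsLocalRing.ResidueField A) N) = Nat.card (Cos N) := by
  have hchar : CharP (IsLocalRing.ResidueField A) ℓ := S18_residue_charP A ℓ hℓ hA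
  have hfact : Fact ℓ.Prime := ⟨hℓ⟩
  exact le_antisymm (RIG_finrank_le_X0 N A hℓ hA hℓN)
    (S18_card_cos_le_finrank N ℓ hℓN (S18_ψ A hℓ hA))

/-- **`[F_k : k(j̄)] = [F : K(j)]`**. -/
theorem RIG_finrank_eq :
    Module.finrank (IsLocalRing.ResidueField A)⟮S18_jbar N (IsLocalRing.ResidueField A)⟯
      ↥(modularFunctionFieldFullC (IsLocalRing.ResidueField A) N) =
    Module.finrank (AlgebraicClosure ℚ)⟮jB N⟯ ↥(modularFunctionFieldBar N) := by
  rw [RIG_finrank_eq_card N A hℓ hA hℓN]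
  exact le_antisymm (RIG_card_cos_le N A hℓ hA hℓN) (finrank_le_card_cos N)

/-- **`[F_k : k(j̄)] = ψ(N)`**. -/
theorem RIG_finrank_eq_psi :
    Module.finrank (IsLocalRing.ResidueField A)⟮S18_jbar N (IsLocalRing.ResidueField A)⟯
      ↥(modularFunctionFieldFullC (IsLocalRing.ResidueField A) N) = dedekindPsi N := by
  rw [RIG_finrank_eq N A hℓ hA hℓN, finrank_eq_psi]

end

end Fermat.Agent.S18
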