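import Fermat.Agent.S18.SepRel
import Fermat.Agent.S18.ResField
import Fermat.Agent.Lib.SepField

/-!
# S18, package P0/SEP (helper2), part 2: the function field `F_k` in characteristic `ℓ`

`k` algebraically closed of characteristic `ℓ ∤ N` (receiving `ℤ_(ℓ)`),
`F_k = modularFunctionFieldFullC k N ⊂ k((q))`, `j̄ = S18_jbar N k`.

* `S18_theta_jbar_ne_zero` : `θ j̄ ≠ 0`; `S18_transcendental_jbar`;
* `S18_finite_jbar` (SepRel), `S18_isSeparable_jbar` : `F_k / k(j̄)` is finite separable;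
* `S18_RR_hyp_k` : `RR_Hyp k F_k`;  `S18_hasPrincipalDivisors_k`, `S18_const_k`, `S18_deg_one_k`;
* `S18_hk` : `RR_Hyp` for `k` = the residue field of a valuation ring `A ⊂ ℚ̄` over `ℓ`
  (the hypothesis `hk` of `S18_of_GC`).
-/

set_option autoImplicit false
set_option synthInstance.maxHeartbeats 400000
set_option maxHeartbeats 1000000

open HahnSeries IntermediateField AlgebraicCurve ModularCurve

namespace Fermat.Agent.S18

open Fermat.Agent.Lib

section General

variable (N : ℕ) [NeZero N] {ℓ : ℕ} (k : Type*) [Field k]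

/-- `θ j̄ ≠ 0` (in any characteristic): the coefficient of `q⁻¹` is `-1`. -/
theorem S18_theta_jq_ne_zero : LT_theta (jqModC k) ≠ 0 := by
  apply LT_theta_ne_zero_of_coeff (-1)
  rw [coeff_jqModC_neg_one]
  simp

theorem S18_theta_jbar_ne_zero :
    LT_theta ((S18_jbar N k : ↥(modularFunctionFieldFullC k N)) : LaurentSeries k) ≠ 0 :=
  S18_theta_jq_ne_zero k

variable {k}
variable [IsAlgClosed k]

theorem S18_transcendental_jbar : Transcendental k (S18_jbar N k) :=
  SF_transcendental (S18_theta_jbar_ne_zero N k)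

variable [hℓ : Fact ℓ.Prime] [CharP k ℓ] (hℓN : ¬ ℓ ∣ N)
  (ψ : ↥(GaloisRep.ratLocalizedAt ℓ) →+* k)

include hℓN ψ

/-- **`F_k / k(j̄)` is separable.** -/
theorem S18_isSeparable_jbar :
    Algebra.IsSeparable k⟮S18_jbar N k⟯ ↥(modularFunctionFieldFullC k N) :=
  haveI := S18_finite_jbar N hℓ.out hℓN ψ
  SF_isSeparable' ℓ (x := S18_jbar N k) (S18_theta_jbar_ne_zero N k)

/-- **`RR_Hyp k F_k`.** -/
theorem S18_RR_hyp_k : RR_Hyp k ↥(modularFunctionFieldFullC k N) :=
  haveI := S18_finite_jbar N hℓ.out hℓN ψ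
  SF_RR_hyp ℓ (S18_theta_jbar_ne_zero N k)

theorem S18_hasPrincipalDivisors_k : HasPrincipalDivisors k ↥(modularFunctionFieldFullC k N) :=
  haveI := S18_finite_jbar N hℓ.out hℓN ψ
  SF_hasPrincipalDivisors ℓ (S18_theta_jbar_ne_zero N k)

theorem S18_deg_one_k (v : Place k ↥(modularFunctionFieldFullC k N)) : v.deg = 1 :=
  haveI := S18_finite_jbar N hℓ.out hℓN ψ
  SF_deg_one (x := S18_jbar N k) v

/-- a function on `F_k` without zeros is constant. -/
theorem S18_const_k (g : ↥(modularFunctionFieldFullC k N))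
    (hord : ∀ Q : Place k ↥(modularFunctionFieldFullC k N), Q.ord g = 0) :
    ∃ c : k, g = algebraMap k ↥(modularFunctionFieldFullC k N) c :=
  haveI := S18_finite_jbar N hℓ.out hℓN ψ
  SF_const ℓ (S18_theta_jbar_ne_zero N k) g hord

/-- every `g ∈ F_k` with `θ g ≠ 0` is a separating element. -/
theorem S18_isSeparable_of_theta {g : ↥(modularFunctionFieldFullC k N)}
    (hg : LT_theta (g : LaurentSeries k) ≠ 0) :
    FiniteDimensional k⟮g⟯ ↥(modularFunctionFieldFullC k N) ∧
      Algebra.IsSeparable k⟮g⟯ ↥(modularFunctionFieldFullC k N) :=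
  haveI := S18_finite_jbar N hℓ.out hℓN ψ
  ⟨SF_finite (x := S18_jbar N k) hg, SF_isSeparable' ℓ (x := S18_jbar N k) hg⟩

end General

section Residue

variable (N : ℕ) [NeZero N] (A : ValuationSubring (AlgebraicClosure ℚ)) {ℓ : ℕ}

/-- **hk**: `RR_Hyp` for the reduction of the modular function field at a place over `ℓ ∤ N`. -/
theorem S18_hk (hℓ : ℓ.Prime) (hA : A.LiesOverPrime ℓ) (hℓN : ¬ ℓ ∣ N) :
    RR_Hyp (IsLocalRing.ResidueField A)
      ↥(modularFunctionFieldFullC (IsLocalRing.ResidueField A) N) :=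
  haveI : IsAlgClosed (IsLocalRing.ResidueField A) := S18_residue_isAlgClosed A
  haveI : CharP (IsLocalRing.ResidueField A) ℓ := S18_residue_charP A ℓ hℓ hA
  haveI : Fact ℓ.Prime := ⟨hℓ⟩
  S18_RR_hyp_k N hℓN (S18_ψ A hℓ hA)

end Residue

end Fermat.Agent.S18
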