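import Fermat.Agent.S18.DegCaseA
import Fermat.Agent.S18.DegCaseB
import Fermat.Agent.S18.AuxX0
import Fermat.Agent.S18.ResField
import Fermat.Agent.S18.CuspKR
import Fermat.Agent.S18.Sep
import Fermat.Agent.S18.RIDeg
import Fermat.Agent.S18.DegKFinal

/-!
# S18, package DEG: the glue to the auxiliary field of `X₀(N)`

`k = ResidueField A`, `F_k = modularFunctionFieldFullC k N`, `E_k = AX_EN N A h ℓ` the residue
field of the Gauss valuation ring of `F' = F(μ)`, `μ̄ = AX_mubarN`, `M = AX_M ℓ`.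

* `DG_caseA_gen` : `M ≤ [E : F_k]` for every finite extension `E ∋ μ̄`, `R_M(μ̄) = j̄` (every `N`).
* `DG_caseB_gen` : `AX_deg M ≤ [E : F_k]` for every such `E`, if `M ∤ N`.
* `DG_lower_gen` : `[F' : F] ≤ [E : F_k]` for every such `E`.
* `DG_finrank_eq` : `[E_k : F_k] = [F' : F]`.
* `DG_hle` : `[F' : F] ≤ [F_k(μ̄) : F_k]` (the input `hle` of package SEPP).
* `DG_adjoin_mubar_eq_top` : `E_k = F_k(μ̄)`.
* `DG_natDegree_minpoly` : `deg (minpoly F_k μ̄) = [F' : F]`.
-/

set_option autoImplicit false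
set_option synthInstance.maxHeartbeats 400000
set_option maxHeartbeats 1000000
set_option linter.style.haveILetI false

open HahnSeries IntermediateField AlgebraicCurve ModularCurve Fermat.Agent.Lib
open Fermat.Agent.S28 Fermat.Agent.S24

namespace Fermat.Agent.S18

/-- a root of `X² + X + 1` in an algebraically closed field. -/
theorem DG_exists_omega (k : Type*) [Field k] [IsAlgClosed k] : ∃ ω : k, ω ^ 2 + ω + 1 = 0 := by
  have hdeg : (Polynomial.X ^ 2 + Polynomial.X + 1 : Polynomial k).degree ≠ 0 := by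
    have : (Polynomial.X ^ 2 + Polynomial.X + 1 : Polynomial k).degree = 2 := by
      compute_degree!
    rw [this]
    norm_num
  obtain ⟨ω, hω⟩ := IsAlgClosed.exists_root _ hdeg
  refine ⟨ω, ?_⟩
  simpa using hω

variable (N : ℕ) [NeZero N] (A : ValuationSubring (AlgebraicClosure ℚ))

/-- `kcj = j(t^N)`. -/
theorem DG_kcj_eq {L : Type} [Field L] {z : L} (hyp : KE_Hyp N L z) :
    kcj N L = qExpand L N (jqModC L) := by
  rw [← KE_emb_j hyp (cos0 N), KE_emb_cos0]

section gen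

variable {ℓ : ℕ} [Fact ℓ.Prime] (hA : A.LiesOverPrime ℓ) (hℓN : ¬ ℓ ∣ N)
  {E : Type*} [Field E] [Algebra ↥(modularFunctionFieldFullC (IsLocalRing.ResidueField A) N) E]
  [FiniteDimensional ↥(modularFunctionFieldFullC (IsLocalRing.ResidueField A) N) E]
  (μ : E)
  (hμ : (AX_poly E (AX_M ℓ)
    (algebraMap ↥(modularFunctionFieldFullC (IsLocalRing.ResidueField A) N) E
      (S18_jbar N (IsLocalRing.ResidueField A)))).eval μ = 0)

include hA hμ in
/-- **DEG-k, case (A)**: `M ≤ [E : F_k]`. -/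
theorem DG_caseA_gen :
    AX_M ℓ ≤ Module.finrank ↥(modularFunctionFieldFullC (IsLocalRing.ResidueField A) N) E := by
  have : IsAlgClosed (IsLocalRing.ResidueField A) := S18_residue_isAlgClosed A
  obtain ⟨ω, hω⟩ := DG_exists_omega (IsLocalRing.ResidueField A)
  exact DG_le_finrank_caseA (IsLocalRing.ResidueField A) N (AX_M_eq ℓ) (AX_M_ne_zero A hA)
    (ω := ω) (fun _ => hω) (S18_jbar N (IsLocalRing.ResidueField A)) rfl μ hμ

include hA hℓN hμ in
/-- **DEG-k, case (B)**: `AX_deg M ≤ [E : F_k]` if `M ∤ N`. -/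
theorem DG_caseB_gen (hMN : ¬ AX_M ℓ ∣ N) :
    AX_deg (AX_M ℓ) ≤
      Module.finrank ↥(modularFunctionFieldFullC (IsLocalRing.ResidueField A) N) E := by
  have hℓ : ℓ.Prime := Fact.out
  have hcard := RIG_finrank_eq_card N A hℓ hA hℓN
  have : IsAlgClosed (IsLocalRing.ResidueField A) := S18_residue_isAlgClosed A
  have : CharP (IsLocalRing.ResidueField A) ℓ := S18_residue_charP A ℓ hℓ hA
  letI := KE_algkV A
  have := S18_finite_jbar N hℓ hℓN (S18_ψ A hℓ hA)
  have := S18_isSeparable_jbar N hℓN (S18_ψ A hℓ hA)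
  obtain ⟨ω, hω⟩ := DG_exists_omega (IsLocalRing.ResidueField A)
  have hyp := KE_hyp_kV N hℓ hℓN A hA
  have : Nonempty (Cos N) := ⟨cos0 N⟩
  have hkcj := DG_kcj_eq N hyp
  have hord := KE_order_kcj N (IsLocalRing.ResidueField (KE_V A))
  have hlead : (kcj N (IsLocalRing.ResidueField (KE_V A))).coeff
      (kcj N (IsLocalRing.ResidueField (KE_V A))).order = 1 := by
    rw [hord, hkcj]
    have : -(N : ℤ) = (N : ℤ) * (-1) := by ring
    rw [this, qExpand_coeff_mul, coeff_jqModC_neg_one]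
  have hexp : ∀ m : ℤ, (kcj N (IsLocalRing.ResidueField (KE_V A))).coeff m ≠ 0 → (N : ℤ) ∣ m := by
    intro m hm
    by_contra hnd
    apply hm
    rw [hkcj]
    exact qExpand_coeff_of_not_dvd N _ hnd
  exact DG_le_finrank_caseB (AX_M_eq ℓ) (AX_M_ne_zero A hA) (ω := ω) (fun _ => hω)
    (Nat.pos_of_ne_zero (NeZero.ne N)) hMN (S18_transcendental_jbar N)
    (KE_embk N hℓ hℓN A hA) (KE_embk_injective N hℓ hℓN A hA)
    (kcj N (IsLocalRing.ResidueField (KE_V A))) (KE_embk_j N hℓ hℓN A hA) hcard.symm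
    hord hlead hexp μ hμ

include hA hℓN hμ in
/-- **DEG-k**: `[F' : F] ≤ [E : F_k]` for every finite extension `E` of `F_k` containing a root
of `AX_poly M j̄`. -/
theorem DG_lower_gen :
    Module.finrank ↥(modularFunctionFieldBar N) (AX_FN N ℓ) ≤
      Module.finrank ↥(modularFunctionFieldFullC (IsLocalRing.ResidueField A) N) E := by
  have hM := AX_M_eq ℓ
  have hMne : NeZero (AX_M ℓ) := ⟨(AX_M_prime ℓ).ne_zero⟩
  by_cases hMN : AX_M ℓ ∣ N
  · exact (DK_finrank_le_of_dvd (AX_M ℓ) N hM hMN).trans (DG_caseA_gen N A hA μ hμ)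
  · obtain ⟨ω₀, hω₀⟩ := DG_exists_omega (AlgebraicClosure ℚ)
    have hMF : ((AX_M ℓ : ℕ) : ↥(modularFunctionFieldBar N)) ≠ 0 := by
      exact_mod_cast (AX_M_prime ℓ).ne_zero
    have hω : AX_M ℓ = 3 →
        (algebraMap (AlgebraicClosure ℚ) ↥(modularFunctionFieldBar N) ω₀) ^ 2 +
          algebraMap (AlgebraicClosure ℚ) ↥(modularFunctionFieldBar N) ω₀ + 1 = 0 := by
      intro _
      rw [← map_pow, ← map_add, ← map_one (algebraMap (AlgebraicClosure ℚ)
        ↥(modularFunctionFieldBar N)), ← map_add, hω₀, map_zero]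
    exact (MU_finrank_le ↥(modularFunctionFieldBar N) (AX_M ℓ) (jB N) hM hMF hω).trans
      (DG_caseB_gen N A hA hℓN μ hμ hMN)

end gen

section final

variable (h : PrincipalGeneratedByIntegral A (IsLocalRing.residue A) N) (ℓ : ℕ)

/-- `E_k / F_k` is finite. -/
theorem DG_finite_EN :
    FiniteDimensional ↥(modularFunctionFieldFullC (IsLocalRing.ResidueField A) N)
      (AX_EN N A h ℓ) :=
  GX_finite (AX_G N A h) (AX_FN N ℓ)

variable {ℓ} [Fact ℓ.Prime] (hA : A.LiesOverPrime ℓ) (hℓN : ¬ ℓ ∣ N)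

theorem DG_jbarN_eq : AX_jbarN N A h = S18_jbar N (IsLocalRing.ResidueField A) :=
  Subtype.ext (AX_red_jB N A h)

include hA in
/-- `R̄_M(μ̄) = j̄` with `j̄ = S18_jbar`. -/
theorem DG_mubarN_eval :
    (AX_poly (AX_EN N A h ℓ) (AX_M ℓ)
      (algebraMap ↥(modularFunctionFieldFullC (IsLocalRing.ResidueField A) N)
        (AX_EN N A h ℓ) (S18_jbar N (IsLocalRing.ResidueField A)))).eval
      (AX_mubarN N A h ℓ) = 0 := by
  have hμ := AX_mubarN_eval N A h hA
  rwa [DG_jbarN_eq] at hμ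

include hA hℓN in
/-- **DEG** for `X₀(N)`: `[E_k : F_k] = [F' : F]`: the residue field of the Gauss valuation of
`F' = F(μ)` has full degree over `F_k`. -/
theorem DG_finrank_eq :
    Module.finrank ↥(modularFunctionFieldFullC (IsLocalRing.ResidueField A) N)
        (AX_EN N A h ℓ) =
      Module.finrank ↥(modularFunctionFieldBar N) (AX_FN N ℓ) := by
  have := DG_finite_EN N A h ℓ
  exact le_antisymm (AX_finrank_leN N A h)
    (DG_lower_gen N A hA hℓN (AX_mubarN N A h ℓ) (DG_mubarN_eval N A h hA))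

include hA hℓN in
/-- **DEG-k** for `X₀(N)` (the hypothesis `hle` of package SEPP): `[F' : F] ≤ [F_k(μ̄) : F_k]`. -/
theorem DG_hle :
    Module.finrank ↥(modularFunctionFieldBar N) (AX_FN N ℓ) ≤
      Module.finrank ↥(modularFunctionFieldFullC (IsLocalRing.ResidueField A) N)
        ↥((↥(modularFunctionFieldFullC (IsLocalRing.ResidueField A) N))⟮AX_mubarN N A h ℓ⟯) := by
  have hfin := DG_finite_EN N A h ℓ
  set Fk := ↥(modularFunctionFieldFullC (IsLocalRing.ResidueField A) N) with hFk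
  set K₁ : IntermediateField Fk (AX_EN N A h ℓ) := Fk⟮AX_mubarN N A h ℓ⟯ with hK₁
  have hmem : AX_mubarN N A h ℓ ∈ K₁ := mem_adjoin_simple_self Fk _
  have hμ' : (AX_poly K₁ (AX_M ℓ)
      (algebraMap Fk K₁ (S18_jbar N (IsLocalRing.ResidueField A)))).eval
      (⟨AX_mubarN N A h ℓ, hmem⟩ : K₁) = 0 := by
    apply (algebraMap K₁ (AX_EN N A h ℓ)).injective
    rw [map_zero, ← Polynomial.eval_map_apply, AX_poly_map, ← IsScalarTower.algebraMap_apply]
    exact DG_mubarN_eval N A h hA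
  exact DG_lower_gen N A hA hℓN (E := K₁) ⟨AX_mubarN N A h ℓ, hmem⟩ hμ'

include hA hℓN in
/-- **DEG** for `X₀(N)`: `E_k = F_k(μ̄)`. -/
theorem DG_adjoin_mubar_eq_top :
    (↥(modularFunctionFieldFullC (IsLocalRing.ResidueField A) N))⟮AX_mubarN N A h ℓ⟯ = ⊤ := by
  have hfin := DG_finite_EN N A h ℓ
  have h1 := DG_hle N A h hA hℓN
  have h2 := DG_finrank_eq N A h hA hℓN
  apply IntermediateField.eq_of_le_of_finrank_le le_top
  rw [IntermediateField.finrank_top', h2]
  exact h1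

include hA hℓN in
/-- **DEG** for `X₀(N)`: `deg (minpoly F_k μ̄) = [F' : F]`. -/
theorem DG_natDegree_minpoly :
    (minpoly ↥(modularFunctionFieldFullC (IsLocalRing.ResidueField A) N)
      (AX_mubarN N A h ℓ)).natDegree =
      Module.finrank ↥(modularFunctionFieldBar N) (AX_FN N ℓ) := by
  have hfin := DG_finite_EN N A h ℓ
  have hint : IsIntegral ↥(modularFunctionFieldFullC (IsLocalRing.ResidueField A) N)
      (AX_mubarN N A h ℓ) := IsIntegral.of_finite _ _
  rw [← IntermediateField.adjoin.finrank hint, DG_adjoin_mubar_eq_top N A h hA hℓN,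
    IntermediateField.finrank_top', DG_finrank_eq N A h hA hℓN]

end final

end Fermat.Agent.S18
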