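import Mathlib
import Fermat.Agent.Lib.DiffLocal
import Fermat.Agent.S18.AbhLocal
import Fermat.Agent.S18.AbhField
import Fermat.Agent.S18.MuOrd

/-!
# S18, package ABH (helper4): `F(μ) / K(μ)` is unramified outside the cusps

`K` algebraically closed of characteristic zero, `F / K(x)` a function field whose ramification
over `K(x)` at the finite places is of type `(3, 2)` over `(0, 1728)` (hypothesis `hX0`, the shape
of `X0_ramification`), `F' = AX_F' F M x = F(μ)` with `R_M(μ) = x`.  Then at every place `w` of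
`F'` which is not over a cusp of the `μ`-line, `μ − μ(w)` is a uniformizer (`ABH_ord_mu`) and `dμ`
has neither zero nor pole (`ABH_ordDifferential`).
-/

set_option autoImplicit false

open Polynomial AlgebraicCurve IntermediateField KaehlerDifferential

namespace Fermat.Agent.S18

open Fermat.Agent.Lib Fermat.Agent.S24

section abh

variable {K : Type*} {F : Type*} [Field K] [Field F] [Algebra K F] [IsAlgClosed K] [CharZero K]
  [DecidableEq K]

/-- **ABH**: at a place `w` of `F' = F(μ)` which does not lie over a cusp of the `μ`-line,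
`μ − μ(w)` is a uniformizer. -/
theorem ABH_ord_mu {M : ℕ} (hM : M = 2 ∨ M = 3) (ω : K) (hω : M = 3 → ω ^ 2 + ω + 1 = 0)
    (x : F) (hx : Transcendental K x) [FiniteDimensional K⟮x⟯ F]
    (hX0 : ∀ (c : K) (v : Place K F), 0 < v.ord (x - algebraMap K F c) →
      v.ord (x - algebraMap K F c) = 1 ∨ (c = 1728 ∧ v.ord (x - algebraMap K F c) = 2) ∨
        (c = 0 ∧ v.ord (x - algebraMap K F c) = 3))
    (w : Place K (AX_F' F M x)) (hw : 0 ≤ w.ord (AX_mu F M x))
    (hcusp : ∀ c ∈ MU_cusps M ω, ¬ 0 < w.ord (AX_mu F M x - algebraMap K (AX_F' F M x) c)) :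
    ∃ c : K, w.ord (AX_mu F M x - algebraMap K (AX_F' F M x) c) = 1 := by
  set F' := AX_F' F M x with hF'
  set μ := AX_mu F M x with hμdef
  have hcharF : CharZero F := charZero_of_injective_algebraMap (algebraMap K F).injective
  have hMK : (M : K) ≠ 0 := by
    rcases hM with rfl | rfl <;> norm_num
  have hMF : (M : F) ≠ 0 := by
    rcases hM with rfl | rfl <;> norm_num
  have h2 : (2 : K) ≠ 0 := by norm_num
  have h3 : (3 : K) ≠ 0 := by norm_num
  have hlead : (AX_lead M : F) ≠ 0 := MU_lead_ne_zero hM hMF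
  have hμ : (AX_poly F' M (algebraMap F F' x)).eval μ = 0 := AX_mu_eval F M x hlead
  have hμt : Transcendental K μ := ABH_mu_transcendental M x hM hMF hx
  have hE : S24_IsFunctionField1 K F :=
    S24_isFunctionField1_of_isAlgebraic x (Algebra.IsAlgebraic.of_finite _ _)
  have hE' : S24_IsFunctionField1 K F' := ABH_isFunctionField1_aux M x
  -- the value `c` of `μ` at `w`
  have hμ0 : μ ≠ 0 := fun h => hμt (h ▸ isAlgebraic_zero)
  have hμO : μ ∈ w.toValuationSubring := (BG_mem_iff_ord_nonneg w hμ0).2 hw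
  obtain ⟨c, hc⟩ := ABH_exists_const hE' w hμO
  refine ⟨c, ?_⟩
  set s := μ - algebraMap K F' c with hs
  have hs0 : s ≠ 0 := by
    intro h0
    apply hμt
    have : μ = algebraMap K F' c := by linear_combination h0
    rw [this]
    exact isAlgebraic_algebraMap c
  have hspos : 0 < w.ord s := (BG_mem_nonunits_iff_ord_pos w hs0).1 hc
  have hden : MU_denE M c ≠ 0 := by
    intro h0
    exact hcusp c ((MU_mem_cusps hM hω c).2 h0) hspos
  obtain ⟨x₀, hx₀⟩ := MU_exists_x₀ M hden
  obtain ⟨D, W, hD, hW, hrel⟩ := MU_rel (E := F') h2 h3 hM hμ hx₀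
  set y : F := x - algebraMap K F x₀ with hy
  have hy' : algebraMap F F' y = algebraMap F F' x - algebraMap K F' x₀ := by
    rw [hy, map_sub, ← IsScalarTower.algebraMap_apply]
  rw [← hy'] at hrel
  obtain ⟨-, hy0', hordy, -⟩ := ABH_ord_rel w y s (MU_e x₀) D W hD hW hrel hspos
  -- the order of `y` at the place below
  have hvpos : 0 < (w.restrict F).ord y := by
    have h1 := w.ord_restrict (F := F) y
    rw [hordy] at h1
    have h4 : (0 : ℤ) < MU_e x₀ * w.ord s :=
      mul_pos (by exact_mod_cast MU_e_pos x₀) hspos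
    rw [h1] at h4
    have hapos : (0 : ℤ) < (Place.ramificationIndex (F := F) w : ℤ) := by
      exact_mod_cast w.ramificationIndex_pos (F := F)
    exact (mul_pos_iff_of_pos_left hapos).1 h4
  have hcase : (w.restrict F).ord y = 1 ∨ (w.restrict F).ord y = MU_e x₀ := by
    rcases hX0 x₀ (w.restrict F) hvpos with h | ⟨h1, h⟩ | ⟨h1, h⟩
    · exact Or.inl h
    · right
      rw [h1, MU_e_1728 h2 h3]
      exact_mod_cast h
    · right
      rw [h1, MU_e_zero]
      exact_mod_cast h
  -- `F' = F[s]`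
  have hωF : M = 3 → (algebraMap K F ω) ^ 2 + algebraMap K F ω + 1 = 0 := by
    intro h
    rw [← map_pow, ← map_add, ← map_one (algebraMap K F), ← map_add, hω h, map_zero]
  have hgen : ∀ z : F', ∃ p : F[X], aeval s p = z := by
    intro z
    obtain ⟨p, hp⟩ := MU_exists_aeval F M x hM hMF hωF z
    refine ⟨p.comp (X + C (algebraMap K F c)), ?_⟩
    rw [Polynomial.aeval_comp, map_add, aeval_X, aeval_C, ← IsScalarTower.algebraMap_apply, hs,
      sub_add_cancel]
    exact hp
  exact ABH_local hE hE' w y s (MU_e x₀) (MU_e_pos x₀) D W hD hW hrel hspos hgen hcase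

/-- **ABH**: `dμ` has neither zero nor pole outside the cusps. -/
theorem ABH_ordDifferential {M : ℕ} (hM : M = 2 ∨ M = 3) (ω : K)
    (hω : M = 3 → ω ^ 2 + ω + 1 = 0)
    (x : F) (hx : Transcendental K x) [FiniteDimensional K⟮x⟯ F]
    (hX0 : ∀ (c : K) (v : Place K F), 0 < v.ord (x - algebraMap K F c) →
      v.ord (x - algebraMap K F c) = 1 ∨ (c = 1728 ∧ v.ord (x - algebraMap K F c) = 2) ∨
        (c = 0 ∧ v.ord (x - algebraMap K F c) = 3))
    (w : Place K (AX_F' F M x)) (hw : 0 ≤ w.ord (AX_mu F M x))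
    (hcusp : ∀ c ∈ MU_cusps M ω, ¬ 0 < w.ord (AX_mu F M x - algebraMap K (AX_F' F M x) c)) :
    w.ordDifferential (D K (AX_F' F M x) (AX_mu F M x)) = 0 := by
  obtain ⟨c, hc⟩ := ABH_ord_mu hM ω hω x hx hX0 w hw hcusp
  have hcharF : CharZero F := charZero_of_injective_algebraMap (algebraMap K F).injective
  have hMF : (M : F) ≠ 0 := by
    rcases hM with rfl | rfl <;> norm_num
  have hfin : FiniteDimensional K⟮AX_mu F M x⟯ (AX_F' F M x) :=
    ABH_finite_mu (K := K) M x hM hMF hx
  have h1 := FD_ordDifferential_D_of_sub (AX_mu F M x) w (FD_deg_one (AX_mu F M x) w)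
    (y := AX_mu F M x) (c := c) (by rw [hc]; norm_num)
  rw [h1, hc]
  norm_num

end abh

end Fermat.Agent.S18
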