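import Fermat.Agent.S24.FinCountFinal
import Fermat.Agent.Lib.RiemannCharZero

/-!
# S18 (TRACK 3), package X0: ramification of `F / K(j)` in characteristic zero

`F = modularFunctionFieldBar N`, `K = ℚ̄`, `j = jB N`.  For every place `v` of `F` over `j = c`:

* `X0_ord_generic`: `ord_v (j - c) = 1` if `c ≠ 0, 1728`;
* `X0_ord_1728`: `ord_v (j - 1728) ∣ 2`;
* `X0_ord_zero`: `ord_v (j - 0) ∣ 3`.
* `X0_rrHyp`: the hypotheses `RR_Hyp` of Riemann's theorem (package R) hold for `F`.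
* `X0_exists_const`: every finite place lies over some `c`.

The proof re-runs Step 2 of the S24 place count: every place over `x = 0` is the place of one of
the analytic valuations `w γ`, and `w γ = m • ord_v` with `w γ x = e₀`.
-/

set_option autoImplicit false
set_option maxHeartbeats 400000

open UpperHalfPlane hiding I
open scoped MatrixGroups Manifold ModularForm
open CongruenceSubgroup ModularCurve IntermediateField AlgebraicCurve
open Fermat.Agent.S20 Fermat.Agent.S24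

noncomputable section

namespace Fermat.Agent.S18

section Abstract

variable {K F : Type*} [Field K] [Field F] [Algebra K F]

/-- every place over `x = 0` is the place of one of the valuations `w γ`
(Step 2 of `S24_placeCount_of`). -/
theorem X0_exists_place_eq (x : F) (hx0 : x ≠ 0) [FiniteDimensional K⟮x⟯ F]
    (happrox : ∀ (v₀ : Place K F) (s : Finset (Place K F)), 0 < v₀.ord x →
      (∀ v ∈ s, 0 < v.ord x) → v₀ ∉ s →
      ∃ b : F, b ≠ 0 ∧ IsIntegral (Algebra.adjoin K {x}) b ∧ 0 < v₀.ord b ∧ ∀ v ∈ s, v.ord b = 0)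
    (hnormpos : ∀ (v : Place K F), 0 < v.ord x → ∀ b : F,
      IsIntegral (Algebra.adjoin K {x}) b → 0 < v.ord b →
      ∃ p : Polynomial K, algebraMap K⟮x⟯ F (Algebra.norm K⟮x⟯ b) = x * Polynomial.aeval x p)
    {X : Type*} [Finite X] [Nonempty X]
    (w : X → F → ℤ) (hw : ∀ γ, IsVal (K := K) (w γ)) (hwx : ∀ γ, 0 < w γ x)
    (hnorm : ∀ f : F, f ≠ 0 → ∀ γ₀,
      ∑ᶠ γ, w γ f = w γ₀ (algebraMap K⟮x⟯ F (Algebra.norm K⟮x⟯ f)))
    (v : Place K F) (hv : 0 < v.ord x) :
    ∃ γ, (hw γ).place x hx0 (hwx γ) = v := by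
  classical
  have : Fintype X := Fintype.ofFinite X
  set pl : X → Place K F := fun γ => (hw γ).place x hx0 (hwx γ) with hpl
  have hm : ∀ γ, ∃ m : ℤ, 0 < m ∧ (∃ π : F, π ≠ 0 ∧ w γ π = m) ∧
      ∀ f : F, f ≠ 0 → w γ f = m * (pl γ).ord f := fun γ =>
    (hw γ).exists_mul_ord x hx0 (hwx γ)
  have hplx : ∀ γ, 0 < (pl γ).ord x := by
    intro γ
    obtain ⟨m, hm0, -, hmf⟩ := hm γ
    have h := hwx γ
    rw [hmf x hx0] at h
    exact (mul_pos_iff_of_pos_left hm0).mp h
  by_contra hcon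
  push Not at hcon
  have hnotin : v ∉ Finset.univ.image pl := by
    intro h
    obtain ⟨γ, -, hγ⟩ := Finset.mem_image.mp h
    exact hcon γ hγ
  obtain ⟨b, hb0, hbint, hbv, hbs⟩ := happrox v (Finset.univ.image pl) hv
    (fun u hu => by
      obtain ⟨γ, -, rfl⟩ := Finset.mem_image.mp hu
      exact hplx γ) hnotin
  have hwb : ∀ γ, w γ b = 0 := by
    intro γ
    obtain ⟨m, -, -, hmf⟩ := hm γ
    rw [hmf b hb0, hbs (pl γ) (Finset.mem_image_of_mem pl (Finset.mem_univ γ)), mul_zero]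
  obtain ⟨p, hp⟩ := hnormpos v hv b hbint hbv
  obtain ⟨γ₀⟩ := ‹Nonempty X›
  have hN := hnorm b hb0 γ₀
  rw [finsum_eq_zero_of_forall_eq_zero hwb, hp] at hN
  have hnm0 : algebraMap K⟮x⟯ F (Algebra.norm K⟮x⟯ b) ≠ 0 := by
    rw [Ne, map_eq_zero_iff _ (algebraMap K⟮x⟯ F).injective, Algebra.norm_eq_zero_iff]
    exact hb0
  rw [hp] at hnm0
  have hp0 : Polynomial.aeval x p ≠ 0 := right_ne_zero_of_mul hnm0
  rw [(hw γ₀).mul x _ hx0 hp0] at hN
  have hpmem : Polynomial.aeval x p ∈ (hw γ₀).valuationSubring :=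
    S24_aeval_mem_valuationSubring _ (pl γ₀).algebraMap_mem'
      (((hw γ₀).mem_valuationSubring_of_ne hx0).mpr (hwx γ₀).le) p
  have hpnn : 0 ≤ w γ₀ (Polynomial.aeval x p) :=
    ((hw γ₀).mem_valuationSubring_of_ne hp0).mp hpmem
  have := hwx γ₀
  omega

/-- if all `w γ x` are equal to `e₀`, every place over `x = 0` has `ord_v x ∣ e₀`; moreover
`e₀ • ord_v f = ord_v x • w γ f` for the attached `γ`. -/
theorem X0_ord_dvd_abs (x : F) (hx0 : x ≠ 0) [FiniteDimensional K⟮x⟯ F]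
    (happrox : ∀ (v₀ : Place K F) (s : Finset (Place K F)), 0 < v₀.ord x →
      (∀ v ∈ s, 0 < v.ord x) → v₀ ∉ s →
      ∃ b : F, b ≠ 0 ∧ IsIntegral (Algebra.adjoin K {x}) b ∧ 0 < v₀.ord b ∧ ∀ v ∈ s, v.ord b = 0)
    (hnormpos : ∀ (v : Place K F), 0 < v.ord x → ∀ b : F,
      IsIntegral (Algebra.adjoin K {x}) b → 0 < v.ord b →
      ∃ p : Polynomial K, algebraMap K⟮x⟯ F (Algebra.norm K⟮x⟯ b) = x * Polynomial.aeval x p)
    {X : Type*} [Finite X] [Nonempty X]
    (w : X → F → ℤ) (hw : ∀ γ, IsVal (K := K) (w γ)) (e₀ : ℤ) (he₀ : 0 < e₀)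
    (hwx : ∀ γ, w γ x = e₀)
    (hnorm : ∀ f : F, f ≠ 0 → ∀ γ₀,
      ∑ᶠ γ, w γ f = w γ₀ (algebraMap K⟮x⟯ F (Algebra.norm K⟮x⟯ f)))
    (v : Place K F) (hv : 0 < v.ord x) :
    v.ord x ∣ e₀ ∧ ∃ γ, ∀ f : F, f ≠ 0 → e₀ * v.ord f = v.ord x * w γ f := by
  have hwx' : ∀ γ, 0 < w γ x := fun γ => by rw [hwx]; exact he₀
  obtain ⟨γ, hγ⟩ := X0_exists_place_eq x hx0 happrox hnormpos w hw hwx' hnorm v hv
  obtain ⟨m, hm0, -, hmf⟩ := (hw γ).exists_mul_ord x hx0 (hwx' γ)
  rw [hγ] at hmf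
  have h1 := hmf x hx0
  rw [hwx] at h1
  refine ⟨⟨m, by rw [h1]; ring⟩, γ, fun f hf => ?_⟩
  rw [hmf f hf, h1]
  ring

end Abstract

variable (N : ℕ) [NeZero N]

/-- the places of `F` over `j = c`: `ord_v (j - c)` divides the order `e₀` of `j - c` at a base
point `τ₀` over `c`. -/
theorem X0_ord_dvd (c : AlgebraicClosure ℚ) (τ₀ : ℍ) (e₀ : ℕ) (he₀ : 0 < e₀)
    (hord : S24_ordM τ₀ (algebraMap Hol Mer (jHol 1) - algebraMap ℂ Mer (kEmb c)) = e₀)
    (v : Place (AlgebraicClosure ℚ) ↥(modularFunctionFieldBar N))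
    (hv : 0 < v.ord (jB N - algebraMap (AlgebraicClosure ℚ) ↥(modularFunctionFieldBar N) c)) :
    v.ord (jB N - algebraMap (AlgebraicClosure ℚ) ↥(modularFunctionFieldBar N) c) ∣ (e₀ : ℤ) := by
  classical
  have he := isEv_ev N
  have hinv := S24_hinv N (ev N) (isEv_ev N)
  have hfd := finiteDimensional_jB N
  have hdeg : Module.finrank (AlgebraicClosure ℚ)⟮jB N⟯ ↥(modularFunctionFieldBar N) =
      Nat.card (S20_Q N) := (finrank_eq_psi N).trans (S20_card_Q N).symm
  have hadj := S24_adjoin_sub_const (K := AlgebraicClosure ℚ) (jB N) c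
  have hfd' : FiniteDimensional (AlgebraicClosure ℚ)⟮jB N - algebraMap (AlgebraicClosure ℚ)
      ↥(modularFunctionFieldBar N) c⟯ ↥(modularFunctionFieldBar N) :=
    S24_finiteDimensional_congr hadj.symm hfd
  have htr := W_transcendental_sub (transcendental_jB N) c
  set w : S20_Q N → ↥(modularFunctionFieldBar N) → ℤ :=
    fun γ f => S24_ordM τ₀ (S24_sig N (ev N) γ f) with hw
  have hne : ∀ γ (f : ↥(modularFunctionFieldBar N)), f ≠ 0 → S24_sig N (ev N) γ f ≠ 0 :=
    fun γ f hf => (map_ne_zero (S24_sig N (ev N) γ)).mpr hf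
  have hval : ∀ γ, IsVal (K := AlgebraicClosure ℚ) (w γ) :=
    fun γ => S24_isVal_ordM kEmb (S24_sig N (ev N) γ) (S24_sig_const he γ) τ₀
  have hwx : ∀ γ, w γ (jB N - algebraMap (AlgebraicClosure ℚ) ↥(modularFunctionFieldBar N) c)
      = (e₀ : ℤ) := by
    intro γ
    show S24_ordM τ₀ (S24_sig N (ev N) γ _) = _
    rw [map_sub, S24_sig_jB he, S24_sig_const he, hord]
  have hXne : Nonempty (S20_Q N) := by
    have : 0 < Nat.card (S20_Q N) := by rw [← hdeg]; exact Module.finrank_pos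
    exact (Nat.card_pos_iff.mp this).1
  have hXfin : Finite (S20_Q N) := by
    have : 0 < Nat.card (S20_Q N) := by rw [← hdeg]; exact Module.finrank_pos
    exact (Nat.card_pos_iff.mp this).2
  have hx0 : jB N - algebraMap (AlgebraicClosure ℚ) ↥(modularFunctionFieldBar N) c ≠ 0 :=
    fun h => htr (h ▸ isAlgebraic_zero)
  exact (X0_ord_dvd_abs _ hx0 (BG_approx htr) (BG_norm htr)
    w hval (e₀ : ℤ) (by exact_mod_cast he₀) hwx
    (fun f hf γ₀ => by
      rw [S24_norm_congr hadj f]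
      show ∑ᶠ γ, S24_ordM τ₀ (S24_sig N (ev N) γ f) = S24_ordM τ₀ (S24_sig N (ev N) γ₀ _)
      rw [S24_sig_norm he hinv hdeg.le f γ₀, S24_ordM_finprod _ (fun γ => hne γ f hf)])
    v hv).1

/-- **X0, generic point**: `F / K(j)` is unramified over `c ≠ 0, 1728`. -/
theorem X0_ord_generic (c : AlgebraicClosure ℚ) (hc0 : c ≠ 0) (hc1 : c ≠ 1728)
    (v : Place (AlgebraicClosure ℚ) ↥(modularFunctionFieldBar N))
    (hv : 0 < v.ord (jB N - algebraMap (AlgebraicClosure ℚ) ↥(modularFunctionFieldBar N) c)) :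
    v.ord (jB N - algebraMap (AlgebraicClosure ℚ) ↥(modularFunctionFieldBar N) c) = 1 := by
  have hk0 : kEmb c ≠ 0 := fun h => hc0 (kEmb_injective (by rw [h, map_zero]))
  have hk1 : kEmb c ≠ 1728 := fun h => hc1 (kEmb_injective (by rw [h, S24_kEmb_ofNat]))
  obtain ⟨τ₀, -, h | h | h⟩ := S24_exists_basepoint (kEmb c)
  · exact absurd h.1 hk1
  · exact absurd h.1 hk0
  · obtain ⟨-, -, -, -, hord⟩ := h
    have h1 := X0_ord_dvd N c τ₀ 1 Nat.one_pos
      (by
        have := S24_ordM_j_sub (kEmb c) τ₀ 1 (by rw [hord]; rfl)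
        rw [this]; rfl) v hv
    have h2 : v.ord (jB N - algebraMap (AlgebraicClosure ℚ) ↥(modularFunctionFieldBar N) c) ∣ 1 := by
      exact_mod_cast h1
    exact Int.eq_one_of_dvd_one hv.le h2

/-- **X0 over `1728`**: the ramification index divides `2`. -/
theorem X0_ord_1728
    (v : Place (AlgebraicClosure ℚ) ↥(modularFunctionFieldBar N))
    (hv : 0 < v.ord (jB N - algebraMap (AlgebraicClosure ℚ) ↥(modularFunctionFieldBar N) 1728)) :
    v.ord (jB N - algebraMap (AlgebraicClosure ℚ) ↥(modularFunctionFieldBar N) 1728) ∣ 2 := by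
  have h1 := X0_ord_dvd N 1728 UpperHalfPlane.I 2 (by norm_num)
    (by
      have := S24_ordM_j_sub (kEmb 1728) UpperHalfPlane.I 2
        (by rw [S24_kEmb_ofNat, S24_order_I]; rfl)
      rw [this]; rfl) v hv
  exact_mod_cast h1

/-- **X0 over `0`**: the ramification index divides `3`. -/
theorem X0_ord_zero
    (v : Place (AlgebraicClosure ℚ) ↥(modularFunctionFieldBar N))
    (hv : 0 < v.ord (jB N - algebraMap (AlgebraicClosure ℚ) ↥(modularFunctionFieldBar N) 0)) :
    v.ord (jB N - algebraMap (AlgebraicClosure ℚ) ↥(modularFunctionFieldBar N) 0) ∣ 3 := by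
  have h1 := X0_ord_dvd N 0 Fermat.Agent.S20.rho 3 (by norm_num)
    (by
      have h3 : meromorphicOrderAt ((fun z : ℍ => S24_jfun z - kEmb 0) ∘ ofComplex)
          ((Fermat.Agent.S20.rho : ℍ) : ℂ) = ((3 : ℤ) : WithTop ℤ) := by
        have hf : (fun z : ℍ => S24_jfun z - kEmb 0) = S24_jfun := by
          funext z
          rw [map_zero, sub_zero]
        rw [hf, S24_order_rho]
        rfl
      have := S24_ordM_j_sub (kEmb 0) Fermat.Agent.S20.rho 3 h3
      rw [this]; rfl) v hv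
  exact_mod_cast h1

/-- the hypotheses of Riemann's theorem hold for the function field of `X₀(N)` over `ℚ̄`. -/
theorem X0_rrHyp :
    Fermat.Agent.Lib.RR_Hyp (AlgebraicClosure ℚ) ↥(modularFunctionFieldBar N) := by
  have hfd := finiteDimensional_jB N
  exact Fermat.Agent.Lib.RR_hyp_of_charZero (transcendental_jB N)

/-- every place of `F` which is not a pole of `j` lies over some `c ∈ ℚ̄`. -/
theorem X0_exists_const (v : Place (AlgebraicClosure ℚ) ↥(modularFunctionFieldBar N))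
    (hv : 0 ≤ v.ord (jB N)) :
    ∃ c : AlgebraicClosure ℚ,
      0 < v.ord (jB N - algebraMap (AlgebraicClosure ℚ) ↥(modularFunctionFieldBar N) c) := by
  have hfd := finiteDimensional_jB N
  exact W_hres (transcendental_jB N) v hv

theorem X0_int_dvd_prime {a : ℤ} {p : ℕ} (hp : p.Prime) (ha : 0 < a) (h : a ∣ (p : ℤ)) :
    a = 1 ∨ a = p := by
  have h1 : a.natAbs ∣ p := by
    have := Int.natAbs_dvd_natAbs.mpr h
    simpa using this
  rcases (Nat.dvd_prime hp).1 h1 with h2 | h2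
  · left; omega
  · right; omega

/-- **X0, summary**: at a finite place `v` over `c`, the ramification index `e = ord_v (j - c)`
satisfies `e = 1`, or `c = 1728 ∧ e = 2`, or `c = 0 ∧ e = 3`. -/
theorem X0_ramification (c : AlgebraicClosure ℚ)
    (v : Place (AlgebraicClosure ℚ) ↥(modularFunctionFieldBar N))
    (hv : 0 < v.ord (jB N - algebraMap (AlgebraicClosure ℚ) ↥(modularFunctionFieldBar N) c)) :
    v.ord (jB N - algebraMap (AlgebraicClosure ℚ) ↥(modularFunctionFieldBar N) c) = 1 ∨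
      (c = 1728 ∧
        v.ord (jB N - algebraMap (AlgebraicClosure ℚ) ↥(modularFunctionFieldBar N) c) = 2) ∨
      (c = 0 ∧
        v.ord (jB N - algebraMap (AlgebraicClosure ℚ) ↥(modularFunctionFieldBar N) c) = 3) := by
  by_cases h0 : c = 0
  · subst h0
    rcases X0_int_dvd_prime Nat.prime_three hv (by exact_mod_cast X0_ord_zero N v hv) with h | h
    · exact Or.inl h
    · exact Or.inr (Or.inr ⟨rfl, by exact_mod_cast h⟩)
  by_cases h1 : c = 1728
  · subst h1
    rcases X0_int_dvd_prime Nat.prime_two hv (by exact_mod_cast X0_ord_1728 N v hv) with h | h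
    · exact Or.inl h
    · exact Or.inr (Or.inl ⟨rfl, by exact_mod_cast h⟩)
  · exact Or.inl (X0_ord_generic N c h0 h1 v hv)

end Fermat.Agent.S18
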