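import Mathlib
import Fermat.Agent.S18.Abh
import Fermat.Agent.S18.X0
import Fermat.Agent.S18.AuxX0

/-!
# S18, package ABH (helper4): the auxiliary field of `X₀(N)` in characteristic zero

`F = modularFunctionFieldBar N`, `F' = AX_FN N ℓ = F(μ)`, `μ = AX_muN N ℓ`, `M = AX_M ℓ`.

* `ABH_N_transcendental`, `ABH_N_finite`, `ABH_N_rrHyp`: `F'` is a function field over `ℚ̄`, finite
  over `ℚ̄(μ)`, and satisfies the hypotheses of Riemann's theorem.
* `ABH_N_ordDifferential`: `dμ` has no zero and no pole outside the cusps (the hypothesis `habh`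
  of `SQ_degree_eq`).
-/

set_option autoImplicit false

open Polynomial AlgebraicCurve IntermediateField KaehlerDifferential ModularCurve

namespace Fermat.Agent.S18

open Fermat.Agent.Lib Fermat.Agent.S24

section concrete

variable (N : ℕ) [NeZero N] (ℓ : ℕ)

omit [NeZero N] in
theorem ABH_N_M_ne_zero : ((AX_M ℓ : ℕ) : ↥(modularFunctionFieldBar N)) ≠ 0 := by
  have : CharZero ↥(modularFunctionFieldBar N) :=
    charZero_of_injective_algebraMap
      (algebraMap (AlgebraicClosure ℚ) ↥(modularFunctionFieldBar N)).injective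
  rcases AX_M_eq ℓ with h | h <;> rw [h] <;> norm_num

/-- `μ` is transcendental over `ℚ̄`. -/
theorem ABH_N_transcendental : Transcendental (AlgebraicClosure ℚ) (AX_muN N ℓ) :=
  ABH_mu_transcendental (AX_M ℓ) (jB N) (AX_M_eq ℓ) (ABH_N_M_ne_zero N ℓ) (transcendental_jB N)

/-- `F' / ℚ̄(μ)` is finite. -/
theorem ABH_N_finite : FiniteDimensional (AlgebraicClosure ℚ)⟮AX_muN N ℓ⟯ (AX_FN N ℓ) := by
  have := finiteDimensional_jB N
  exact ABH_finite_mu (AX_M ℓ) (jB N) (AX_M_eq ℓ) (ABH_N_M_ne_zero N ℓ) (transcendental_jB N)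

/-- `F'` is a function field of one variable over `ℚ̄`. -/
theorem ABH_N_isFunctionField1 : S24_IsFunctionField1 (AlgebraicClosure ℚ) (AX_FN N ℓ) := by
  have := finiteDimensional_jB N
  exact ABH_isFunctionField1_aux (AX_M ℓ) (jB N)

/-- the hypotheses of Riemann's theorem hold for `F'`. -/
theorem ABH_N_rrHyp : RR_Hyp (AlgebraicClosure ℚ) (AX_FN N ℓ) := by
  have := finiteDimensional_jB N
  exact ABH_rrHyp (AX_M ℓ) (jB N) (AX_M_eq ℓ) (ABH_N_M_ne_zero N ℓ) (transcendental_jB N)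

variable [DecidableEq (AlgebraicClosure ℚ)]

/-- **ABH for `X₀(N)`**: `μ − μ(w)` is a uniformizer at every non-cuspidal place of `F'`. -/
theorem ABH_N_ord_mu (ω : AlgebraicClosure ℚ) (hω : AX_M ℓ = 3 → ω ^ 2 + ω + 1 = 0)
    (w : Place (AlgebraicClosure ℚ) (AX_FN N ℓ)) (hw : 0 ≤ w.ord (AX_muN N ℓ))
    (hcusp : ∀ c ∈ MU_cusps (AX_M ℓ) ω,
      ¬ 0 < w.ord (AX_muN N ℓ - algebraMap (AlgebraicClosure ℚ) (AX_FN N ℓ) c)) :
    ∃ c : AlgebraicClosure ℚ,
      w.ord (AX_muN N ℓ - algebraMap (AlgebraicClosure ℚ) (AX_FN N ℓ) c) = 1 := by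
  have := finiteDimensional_jB N
  exact ABH_ord_mu (AX_M_eq ℓ) ω hω (jB N) (transcendental_jB N)
    (fun c v hv => X0_ramification N c v hv) w hw hcusp

/-- **ABH for `X₀(N)`**: `dμ` has neither zero nor pole outside the cusps. -/
theorem ABH_N_ordDifferential (ω : AlgebraicClosure ℚ) (hω : AX_M ℓ = 3 → ω ^ 2 + ω + 1 = 0)
    (w : Place (AlgebraicClosure ℚ) (AX_FN N ℓ)) (hw : 0 ≤ w.ord (AX_muN N ℓ))
    (hcusp : ∀ c ∈ MU_cusps (AX_M ℓ) ω,
      ¬ 0 < w.ord (AX_muN N ℓ - algebraMap (AlgebraicClosure ℚ) (AX_FN N ℓ) c)) :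
    w.ordDifferential (D (AlgebraicClosure ℚ) (AX_FN N ℓ) (AX_muN N ℓ)) = 0 := by
  have := finiteDimensional_jB N
  exact ABH_ordDifferential (AX_M_eq ℓ) ω hω (jB N) (transcendental_jB N)
    (fun c v hv => X0_ramification N c v hv) w hw hcusp

end concrete

end Fermat.Agent.S18
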