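import Fermat.Agent.S18.AsmFinal
import Fermat.Agent.Lib.Hurwitz

/-!
# S18, assembly: the Hurwitz inputs (package H, helper26)

`HW_hurwitz` instantiated at `x = j` on `F = ℚ̄(X₀(N))` and at `x = j̄` on `F_k`; hence the frozen
statement S18 from NORM only (`S18_asm_N`).
-/

set_option autoImplicit false
set_option synthInstance.maxHeartbeats 400000
set_option maxHeartbeats 1000000

open HahnSeries IntermediateField AlgebraicCurve ModularCurve KaehlerDifferential

namespace Fermat.Agent.S18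

open Fermat.Agent.Lib Fermat.Agent.S24

variable (N : ℕ) [NeZero N] (A : ValuationSubring (AlgebraicClosure ℚ)) {ℓ : ℕ}

/-- **Hurwitz on `F`**: `deg (dj) = 2 g - 2`. -/
theorem S18_hurwitz_F :
    ∃ W : Divisor (AlgebraicClosure ℚ) ↥(modularFunctionFieldBar N),
      (∀ P, W P = P.ordDifferential
        (D (AlgebraicClosure ℚ) ↥(modularFunctionFieldBar N) (jB N))) ∧
      Divisor.degree W =
        2 * (RR_genus (AlgebraicClosure ℚ) ↥(modularFunctionFieldBar N) : ℤ) - 2 := by
  have := Fermat.Agent.S24.finiteDimensional_jB N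
  exact HW_hurwitz (S18_hRR N) (jB N) (Fermat.Agent.S24.transcendental_jB N)

/-- **Hurwitz on `F_k`**: `deg (dj̄) = 2 g_k - 2`. -/
theorem S18_hurwitz_k (hℓ : ℓ.Prime) (hℓN : ¬ ℓ ∣ N) (hA : A.LiesOverPrime ℓ) :
    ∃ Wk : Divisor (IsLocalRing.ResidueField A)
        ↥(modularFunctionFieldFullC (IsLocalRing.ResidueField A) N),
      (∀ Q, Wk Q = Q.ordDifferential
        (D (IsLocalRing.ResidueField A)
          ↥(modularFunctionFieldFullC (IsLocalRing.ResidueField A) N)
          (S18_jbar N (IsLocalRing.ResidueField A)))) ∧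
      Divisor.degree Wk = 2 * (RR_genus (IsLocalRing.ResidueField A)
        ↥(modularFunctionFieldFullC (IsLocalRing.ResidueField A) N) : ℤ) - 2 := by
  have : IsAlgClosed (IsLocalRing.ResidueField A) := S18_residue_isAlgClosed A
  have : CharP (IsLocalRing.ResidueField A) ℓ := S18_residue_charP A ℓ hℓ hA
  have : Fact ℓ.Prime := ⟨hℓ⟩
  have := S18_finite_jbar N hℓ hℓN (S18_ψ A hℓ hA)
  have := S18_isSeparable_jbar N hℓN (S18_ψ A hℓ hA)
  exact HW_hurwitz (S18_hk N A hℓ hA hℓN) (S18_jbar N (IsLocalRing.ResidueField A))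
    (S18_transcendental_jbar (k := IsLocalRing.ResidueField A) N)

/-- **S18 from NORM only.** -/
theorem S18_asm_N (hℓ : ℓ.Prime) (hℓN : ¬ ℓ ∣ N) (hA : A.LiesOverPrime ℓ)
    (h : ReductionInputsModL A N)
    (hNORM : ∀ Q : Place (IsLocalRing.ResidueField A)
        ↥(modularFunctionFieldFullC (IsLocalRing.ResidueField A) N),
      0 ≤ Q.ord (S18_jbar N (IsLocalRing.ResidueField A)) →
      ∃ n : (S18_specModL N A h).O,
        (∀ P : Place (AlgebraicClosure ℚ) ↥(modularFunctionFieldBar N),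
          0 ≤ P.ord (jB N) → 0 ≤ P.ord (n : ↥(modularFunctionFieldBar N))) ∧
        Q.ord ((S18_specModL N A h).red n) = 1)
    (m : ℕ) (hm : ¬ ℓ ∣ m) (z : JZero N) (hmz : m • z = 0) (hz : reductionModL A N z = 0) :
    z = 0 :=
  S18_asm_HN N A hℓ hℓN hA (S18_hurwitz_F N) (S18_hurwitz_k N A hℓ hℓN hA) h hNORM
    m hm z hmz hz

end Fermat.Agent.S18
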