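import Mathlib

/-!
# S18, package NORM (helper24), part 1: norm and trace commute with reduction

Abstract setting (no function fields, no places): a finite field extension `F'/F`, valuation
rings `O ⊂ F`, `O' ⊂ F'` with `O' ∩ F = O`, residue maps `red : O → Fk`, `red' : O' → Fk'`
(onto, kernel = non-units) compatible with an algebra structure `Fk → Fk'`, and
**degree preservation** `[Fk' : Fk] = [F' : F]`.

Then every lift `b` of an `Fk`-basis of `Fk'` is an `F`-basis of `F'` which is *orthonormal*:
`∑ cᵢ bᵢ ∈ O' ↔ ∀ i, cᵢ ∈ O` (`S18_nr_coeff_mem`), the matrix of multiplication by `x ∈ O'` has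
entries in `O` and reduces to the matrix of multiplication by `red' x`; hence

* `S18_norm_red`  : `Algebra.norm F x ∈ O` and `red (norm x) = Algebra.norm Fk (red' x)`,
* `S18_trace_red` : the same for the trace.

Use in G23 (note `NOTES/items/17_G23_norm_helper24.md`, Step 3): `n := N_{F'/F}(x')` for a lift
`x'` of a function which is a uniformizer at exactly one place over `Q` is an integral lift of a
uniformizer at `Q`.
-/

set_option autoImplicit false

open Module

namespace Fermat.Agent.S18

variable {F F' Fk Fk' : Type*} [Field F] [Field F'] [Field Fk] [Field Fk']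
  [Algebra F F'] [Algebra Fk Fk']

/-- compatibility of two valuation rings with residue maps along a field extension -/
structure S18_NormData (O : ValuationSubring F) (red : O →+* Fk) (O' : ValuationSubring F')
    (red' : O' →+* Fk') : Prop where
  red_ne_zero_iff : ∀ x : O, red x ≠ 0 ↔ IsUnit x
  red'_surjective : Function.Surjective red'
  red'_ne_zero_iff : ∀ x : O', red' x ≠ 0 ↔ IsUnit x
  algebraMap_mem_iff : ∀ x : F, algebraMap F F' x ∈ O' ↔ x ∈ O
  red'_algebraMap : ∀ (x : O) (h : algebraMap F F' (x : F) ∈ O'),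
    red' ⟨algebraMap F F' (x : F), h⟩ = algebraMap Fk Fk' (red x)

namespace S18_NormData

variable {O : ValuationSubring F} {red : O →+* Fk} {O' : ValuationSubring F'}
  {red' : O' →+* Fk'} (hd : S18_NormData O red O' red')

include hd

/-- the inclusion `O → O'` -/
def incl (x : O) : O' := ⟨algebraMap F F' (x : F), (hd.algebraMap_mem_iff _).mpr x.2⟩

omit hd in
@[simp] theorem coe_incl (hd : S18_NormData O red O' red') (x : O) :
    ((hd.incl x : O') : F') = algebraMap F F' (x : F) := rfl

theorem red'_incl (x : O) : red' (hd.incl x) = algebraMap Fk Fk' (red x) :=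
  hd.red'_algebraMap x _

/-- an element of `F` outside `O` has inverse in `O` with reduction `0`, also in `O'`. -/
theorem red'_inv_eq_zero {c : F} (hc : c ∉ O) :
    ∃ h : algebraMap F F' c⁻¹ ∈ O', red' ⟨algebraMap F F' c⁻¹, h⟩ = 0 := by
  have hci : c⁻¹ ∈ O := (O.mem_or_inv_mem c).resolve_left hc
  refine ⟨(hd.algebraMap_mem_iff _).mpr hci, ?_⟩
  by_contra hne
  have hu : IsUnit (⟨algebraMap F F' c⁻¹, (hd.algebraMap_mem_iff _).mpr hci⟩ : O') :=
    (hd.red'_ne_zero_iff _).mp hne
  obtain ⟨u, hu'⟩ := hu
  have h1 : ((u⁻¹ : O'ˣ) : O') * ⟨algebraMap F F' c⁻¹, (hd.algebraMap_mem_iff _).mpr hci⟩ = 1 := by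
    rw [← hu']; exact u.inv_mul
  have h2 : (((u⁻¹ : O'ˣ) : O') : F') * algebraMap F F' c⁻¹ = 1 := by
    have := congrArg (fun z : O' => (z : F')) h1
    simpa using this
  have hc0 : c ≠ 0 := by
    rintro rfl
    exact hc O.zero_mem
  have h3 : (((u⁻¹ : O'ˣ) : O') : F') = algebraMap F F' c := by
    have h4 : algebraMap F F' c⁻¹ ≠ 0 := by
      simpa using hc0
    have h5 : algebraMap F F' c * algebraMap F F' c⁻¹ = 1 := by
      rw [← map_mul, mul_inv_cancel₀ hc0, map_one]
    exact mul_right_cancel₀ h4 (h2.trans h5.symm)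
  have h6 : algebraMap F F' c ∈ O' := h3 ▸ ((u⁻¹ : O'ˣ) : O').2
  exact hc ((hd.algebraMap_mem_iff _).mp h6)

end S18_NormData

/-- in a valuation ring, a finite nonempty family has an element of maximal valuation -/
theorem S18_nr_exists_max (O : ValuationSubring F) {ι : Type*} [Fintype ι] [Nonempty ι]
    (c : ι → F) : ∃ j, ∀ i, O.valuation (c i) ≤ O.valuation (c j) := by
  obtain ⟨j, -, hj⟩ := Finset.exists_max_image Finset.univ (fun i => O.valuation (c i))
    Finset.univ_nonempty
  exact ⟨j, fun i => hj i (Finset.mem_univ i)⟩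

theorem S18_nr_div_mem (O : ValuationSubring F) {a b : F} (hb : b ≠ 0)
    (h : O.valuation a ≤ O.valuation b) : a / b ∈ O := by
  rw [← O.valuation_le_one_iff, map_div₀]
  have hb' : O.valuation b ≠ 0 := (O.valuation.ne_zero_iff).mpr hb
  have hpos : 0 < O.valuation b := zero_lt_iff.mpr hb'
  exact (div_le_one₀ hpos).mpr h

section basis

variable {O : ValuationSubring F} {red : O →+* Fk} {O' : ValuationSubring F'}
  {red' : O' →+* Fk'} (hd : S18_NormData O red O' red')
  {ι : Type*} [Fintype ι]

include hd

/-- reduction of a linear combination with coefficients in `O` -/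
theorem S18_nr_red_sum (b : ι → O') (a : ι → O) :
    red' (∑ i, hd.incl (a i) * b i) = ∑ i, red (a i) • red' (b i) := by
  rw [map_sum]
  refine Finset.sum_congr rfl fun i _ => ?_
  rw [map_mul, hd.red'_incl, Algebra.smul_def]

/-- **key step**: a nontrivial relation / non-integral coefficient gives, after dividing by the
coefficient of maximal valuation, a combination with coefficients in `O`, `j`-th coefficient `1`. -/
theorem S18_nr_normalize (bb : Basis ι Fk Fk') (b : ι → O') (hb : ∀ i, red' (b i) = bb i)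
    (c : ι → F) (j : ι) (hj : ∀ i, O.valuation (c i) ≤ O.valuation (c j)) (hcj : c j ≠ 0)
    (y : O') (hy : (y : F') = algebraMap F F' (c j)⁻¹ * ∑ i, c i • (b i : F')) :
    red' y ≠ 0 := by
  classical
  have ha : ∀ i, c i / c j ∈ O := fun i => S18_nr_div_mem O hcj (hj i)
  set a : ι → O := fun i => ⟨c i / c j, ha i⟩ with ha_def
  have hsum : y = ∑ i, hd.incl (a i) * b i := by
    apply Subtype.ext
    have hcoe : ((∑ i, hd.incl (a i) * b i : O') : F') =
        ∑ i, algebraMap F F' (c i / c j) * (b i : F') := by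
      rw [show ((∑ i, hd.incl (a i) * b i : O') : F') = O'.subtype (∑ i, hd.incl (a i) * b i)
        from rfl, map_sum]
      rfl
    rw [hy, hcoe, Finset.mul_sum]
    refine Finset.sum_congr rfl fun i _ => ?_
    rw [Algebra.smul_def, ← mul_assoc, ← map_mul]
    congr 2
    rw [div_eq_inv_mul]
  rw [hsum, S18_nr_red_sum hd]
  intro h0
  have h1 : (∑ i, red (a i) • red' (b i)) = ∑ i, red (a i) • bb i := by
    refine Finset.sum_congr rfl fun i _ => by rw [hb]
  rw [h1] at h0
  have h2 := (Fintype.linearIndependent_iff.mp bb.linearIndependent) (fun i => red (a i)) h0 j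
  have h3 : a j = 1 := by
    apply Subtype.ext
    simp [ha_def, div_self hcj]
  rw [h3, map_one] at h2
  exact one_ne_zero h2

/-- lifts of a basis of `Fk'/Fk` are linearly independent over `F` -/
theorem S18_nr_linearIndependent (bb : Basis ι Fk Fk') (b : ι → O')
    (hb : ∀ i, red' (b i) = bb i) : LinearIndependent F (fun i => (b i : F')) := by
  classical
  rw [Fintype.linearIndependent_iff]
  intro c hc
  by_contra hne
  obtain ⟨i₀, hi₀⟩ := not_forall.mp hne
  have : Nonempty ι := ⟨i₀⟩
  obtain ⟨j, hj⟩ := S18_nr_exists_max O c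
  have hcj : c j ≠ 0 := by
    intro h0
    have := hj i₀
    rw [h0, map_zero] at this
    exact hi₀ ((O.valuation.zero_iff).mp (le_antisymm this zero_le))
  have := S18_nr_normalize hd bb b hb c j hj hcj 0 (by rw [hc]; simp)
  exact this (map_zero _)

/-- **orthonormality**: if `∑ cᵢ bᵢ ∈ O'` then all `cᵢ ∈ O`. -/
theorem S18_nr_coeff_mem (bb : Basis ι Fk Fk') (b : ι → O') (hb : ∀ i, red' (b i) = bb i)
    (c : ι → F) (hc : (∑ i, c i • (b i : F')) ∈ O') : ∀ i, c i ∈ O := by
  classical
  by_contra hne
  obtain ⟨i₀, hi₀⟩ := not_forall.mp hne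
  have : Nonempty ι := ⟨i₀⟩
  obtain ⟨j, hj⟩ := S18_nr_exists_max O c
  have hcjO : c j ∉ O := by
    intro hmem
    apply hi₀
    rw [← O.valuation_le_one_iff] at hmem ⊢
    exact (hj i₀).trans hmem
  have hcj : c j ≠ 0 := fun h0 => hcjO (h0 ▸ O.zero_mem)
  obtain ⟨hmem, hred⟩ := hd.red'_inv_eq_zero hcjO
  set y : O' := ⟨algebraMap F F' (c j)⁻¹, hmem⟩ * ⟨_, hc⟩ with hy
  have h1 := S18_nr_normalize hd bb b hb c j hj hcj y (by rw [hy]; rfl)
  apply h1
  rw [hy, map_mul, hred, zero_mul]

end basis

section main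

variable {O : ValuationSubring F} {red : O →+* Fk} {O' : ValuationSubring F'}
  {red' : O' →+* Fk'} (hd : S18_NormData O red O' red')

include hd

/-- the matrix of multiplication by `x ∈ O'` in a lifted basis has entries in `O` and reduces
to the matrix of multiplication by `red' x`. -/
theorem S18_nr_leftMulMatrix [FiniteDimensional F F']
    (hdeg : finrank Fk Fk' = finrank F F') (x : O') :
    ∃ (n : ℕ) (B : Basis (Fin n) F F') (bb : Basis (Fin n) Fk Fk')
      (M : Matrix (Fin n) (Fin n) O),
      Algebra.leftMulMatrix B (x : F') = M.map (fun a => (a : F)) ∧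
      Algebra.leftMulMatrix bb (red' x) = M.map red := by
  classical
  have : FiniteDimensional Fk Fk' :=
    Module.finite_of_finrank_pos (by rw [hdeg]; exact Module.finrank_pos)
  set n := finrank Fk Fk' with hn
  let bb : Basis (Fin n) Fk Fk' := Module.finBasis Fk Fk'
  have hex : ∀ i, ∃ y : O', red' y = bb i := fun i => hd.red'_surjective _
  choose b hb using hex
  have hli := S18_nr_linearIndependent hd bb b hb
  have hcard : Fintype.card (Fin n) = finrank F F' := by
    rw [Fintype.card_fin]; exact hdeg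
  have hnpos : 0 < n := by
    rw [hdeg]; exact Module.finrank_pos
  have : Nonempty (Fin n) := ⟨⟨0, hnpos⟩⟩
  let B : Basis (Fin n) F F' := basisOfLinearIndependentOfCardEqFinrank hli hcard
  have hB : ∀ i, B i = (b i : F') := fun i => by
    simp [B, coe_basisOfLinearIndependentOfCardEqFinrank]
  -- the entries
  have hmem : ∀ i j, Algebra.leftMulMatrix B (x : F') i j ∈ O := by
    intro i j
    refine S18_nr_coeff_mem hd bb b hb (fun i => Algebra.leftMulMatrix B (x : F') i j) ?_ i
    have h1 : (∑ i, Algebra.leftMulMatrix B (x : F') i j • (b i : F')) = (x : F') * (b j : F') := by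
      have h2 := B.sum_repr ((x : F') * B j)
      rw [← hB j, ← h2]
      refine Finset.sum_congr rfl fun i _ => ?_
      rw [Algebra.leftMulMatrix_eq_repr_mul, hB i]
    rw [h1]
    exact O'.mul_mem _ _ x.2 (b j).2
  let M : Matrix (Fin n) (Fin n) O := fun i j => ⟨Algebra.leftMulMatrix B (x : F') i j, hmem i j⟩
  refine ⟨n, B, bb, M, ?_, ?_⟩
  · ext i j
    rfl
  · ext i j
    rw [Algebra.leftMulMatrix_eq_repr_mul, Matrix.map_apply]
    -- `red' x * bb j = ∑ i, red (M i j) • bb i`
    have h1 : x * b j = ∑ i, hd.incl (M i j) * b i := by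
      apply Subtype.ext
      push_cast
      have h2 := B.sum_repr ((x : F') * B j)
      rw [hB j] at h2
      rw [← h2]
      refine Finset.sum_congr rfl fun i _ => ?_
      rw [S18_NormData.coe_incl, ← Algebra.smul_def, hB i]
      congr 1
      rw [← hB j, ← Algebra.leftMulMatrix_eq_repr_mul]
    have h3 : red' x * bb j = ∑ i, red (M i j) • bb i := by
      rw [← hb j, ← map_mul, h1, S18_nr_red_sum hd]
      refine Finset.sum_congr rfl fun i _ => by rw [hb]
    rw [h3]
    have h4 : bb.repr (∑ i, red (M i j) • bb i) = Finsupp.equivFunOnFinite.symm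
        (fun i => red (M i j)) := by
      apply bb.repr.symm.injective
      rw [LinearEquiv.symm_apply_apply, Basis.repr_symm_apply,
        Finsupp.linearCombination_apply, Finsupp.sum_fintype _ _ (by simp)]
      simp
    rw [h4]
    rfl

/-- **norm commutes with reduction** -/
theorem S18_norm_red [FiniteDimensional F F'] (hdeg : finrank Fk Fk' = finrank F F') (x : O') :
    ∃ h : Algebra.norm F (x : F') ∈ O,
      red ⟨Algebra.norm F (x : F'), h⟩ = Algebra.norm Fk (red' x) := by
  classical
  obtain ⟨n, B, bb, M, hM, hM'⟩ := S18_nr_leftMulMatrix hd hdeg x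
  have h1 : Algebra.norm F (x : F') = ((M.det : O) : F) := by
    rw [Algebra.norm_eq_matrix_det B, hM]
    have := (RingHom.map_det O.subtype M).symm
    simpa [RingHom.mapMatrix_apply] using this
  refine ⟨h1 ▸ M.det.2, ?_⟩
  have h2 : (⟨Algebra.norm F (x : F'), h1 ▸ M.det.2⟩ : O) = M.det := Subtype.ext h1
  rw [h2, Algebra.norm_eq_matrix_det bb, hM', RingHom.map_det]
  rfl

/-- **trace commutes with reduction** -/
theorem S18_trace_red [FiniteDimensional F F'] (hdeg : finrank Fk Fk' = finrank F F') (x : O') :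
    ∃ h : Algebra.trace F F' (x : F') ∈ O,
      red ⟨Algebra.trace F F' (x : F'), h⟩ = Algebra.trace Fk Fk' (red' x) := by
  classical
  obtain ⟨n, B, bb, M, hM, hM'⟩ := S18_nr_leftMulMatrix hd hdeg x
  have h1 : Algebra.trace F F' (x : F') = ((M.trace : O) : F) := by
    rw [Algebra.trace_eq_matrix_trace B, hM]
    simp [Matrix.trace]
  refine ⟨h1 ▸ M.trace.2, ?_⟩
  have h2 : (⟨Algebra.trace F F' (x : F'), h1 ▸ M.trace.2⟩ : O) = M.trace := Subtype.ext h1
  rw [h2, Algebra.trace_eq_matrix_trace bb, hM']
  simp [Matrix.trace, map_sum]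

end main

end Fermat.Agent.S18
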