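import Mathlib
import Fermat.Agent.S24.LocalRing
import Fermat.Agent.S24.GlobalA
import Fermat.Agent.S18.NormRed

/-!
# S18, package NORM (helper24), part 3: the integral lift of a uniformizer (Step 3)

Abstract assembly.  `F'/F` and `Fk'/Fk` finite extensions of function fields over `L`, `k`,
`(O, red)` and `(O', red')` compatible Gauss data (`S18_NormData`), `[Fk':Fk] = [F':F]`.

* `NM_isIntegral_norm`  : the norm of an element integral over `L[j]` is integral over `L[j]`.
* `NM_regular_of_isIntegral` : integral over `L[j]` ⇒ regular at the places where `j` is regular.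
* `NM_norm` : from ONTO on `F'` (chart `j`) and an element `w ∈ Fk'`, regular where `j̄` is
  regular, with `ord_Q (N w) = 1`: a function `n ∈ O`, regular where `j` is regular, with
  `ord_Q (red n) = 1`.
-/

set_option autoImplicit false

open AlgebraicCurve Module

namespace Fermat.Agent.S18

open Fermat.Agent.S24

section integral

variable {L F F' : Type*} [Field L] [Field F] [Field F'] [Algebra L F] [Algebra F F']
  [Algebra L F'] [IsScalarTower L F F']

/-- an element of `F'` integral over `L[j']`, `j'` the image of `j ∈ F`, is integral over the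
subalgebra `L[j]` of `F`. -/
theorem NM_isIntegral_of_adjoin (j : F) (f : F')
    (hf : IsIntegral (Algebra.adjoin L ({algebraMap F F' j} : Set F')) f) :
    IsIntegral (Algebra.adjoin L ({j} : Set F)) f := by
  obtain ⟨p, hp, hpf⟩ := hf
  set φ : F →ₐ[L] F' := IsScalarTower.toAlgHom L F F' with hφ
  have hmap : (Algebra.adjoin L ({j} : Set F)).map φ
      = Algebra.adjoin L ({algebraMap F F' j} : Set F') := by
    rw [AlgHom.map_adjoin, Set.image_singleton]
    rfl
  set p' : Polynomial F' :=
    p.map (algebraMap (Algebra.adjoin L ({algebraMap F F' j} : Set F')) F') with hp'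
  have hp'monic : p'.Monic := hp.map _
  have hp'f : p'.eval f = 0 := by
    rw [hp', Polynomial.eval_map]
    exact hpf
  have hlifts : p' ∈ Polynomial.lifts (algebraMap (Algebra.adjoin L ({j} : Set F)) F') := by
    rw [Polynomial.lifts_iff_coeff_lifts]
    intro n
    rw [hp', Polynomial.coeff_map]
    have hc : ((p.coeff n : Algebra.adjoin L ({algebraMap F F' j} : Set F')) : F')
        ∈ (Algebra.adjoin L ({j} : Set F)).map φ := by
      rw [hmap]
      exact (p.coeff n).2
    obtain ⟨r, hr, hrc⟩ := hc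
    exact ⟨⟨r, hr⟩, hrc⟩
  obtain ⟨q, hq, -, hqm⟩ := Polynomial.lifts_and_natDegree_eq_and_monic hlifts hp'monic
  refine ⟨q, hqm, ?_⟩
  rw [← Polynomial.eval_map, hq]
  exact hp'f

/-- the norm of an element integral over `L[j']` is integral over `L[j]`. -/
theorem NM_isIntegral_norm (j : F) (f : F')
    (hf : IsIntegral (Algebra.adjoin L ({algebraMap F F' j} : Set F')) f) :
    IsIntegral (Algebra.adjoin L ({j} : Set F)) (Algebra.norm F f) :=
  Algebra.isIntegral_norm F (NM_isIntegral_of_adjoin j f hf)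

/-- integral over `L[j]` ⇒ regular at the places where `j` is regular. -/
theorem NM_regular_of_isIntegral (j n : F) (hn : IsIntegral (Algebra.adjoin L ({j} : Set F)) n)
    (P : Place L F) (hP : 0 ≤ P.ord j) : 0 ≤ P.ord n := by
  rcases eq_or_ne n 0 with rfl | hn0
  · rw [Place.ord_zero]
  have hj : j ∈ P.toValuationSubring := by
    rcases eq_or_ne j 0 with rfl | hj0
    · exact zero_mem _
    · exact (BG_mem_iff_ord_nonneg P hj0).mpr hP
  exact (BG_mem_iff_ord_nonneg P hn0).mp (BL_mem_of_isIntegral P hj hn)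

end integral

section norm

variable {L F k Fk F' Fk' : Type*} [Field L] [Field F] [Field k] [Field Fk] [Field F']
  [Field Fk'] [Algebra L F] [Algebra F F'] [Algebra L F'] [IsScalarTower L F F']
  [Algebra k Fk] [Algebra Fk Fk'] [Algebra k Fk'] [IsScalarTower k Fk Fk']
  [FiniteDimensional F F']
  {O : ValuationSubring F} {red : O →+* Fk} {O' : ValuationSubring F'} {red' : O' →+* Fk'}

omit [IsScalarTower k Fk Fk'] in
/-- **NORM** (Step 3), abstract form. -/
theorem NM_norm (hd : S18_NormData O red O' red') (hdeg : finrank Fk Fk' = finrank F F')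
    (j : O)
    (hREG : ∀ f : F', (∀ P' : Place L F', 0 ≤ P'.ord (algebraMap F F' (j : F)) → 0 ≤ P'.ord f) →
      IsIntegral (Algebra.adjoin L ({algebraMap F F' (j : F)} : Set F')) f)
    (hONTO : ∀ w : Fk',
      (∀ Q' : Place k Fk', 0 ≤ Q'.ord (algebraMap Fk Fk' (red j)) → 0 ≤ Q'.ord w) →
      ∃ f : O', (∀ P' : Place L F', 0 ≤ P'.ord (algebraMap F F' (j : F)) → 0 ≤ P'.ord (f : F')) ∧
        red' f = w)
    (Q : Place k Fk) (w : Fk')
    (hw : ∀ Q' : Place k Fk', 0 ≤ Q'.ord (algebraMap Fk Fk' (red j)) → 0 ≤ Q'.ord w)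
    (hwQ : Q.ord (Algebra.norm Fk w) = 1) :
    ∃ n : O, (∀ P : Place L F, 0 ≤ P.ord (j : F) → 0 ≤ P.ord (n : F)) ∧ Q.ord (red n) = 1 := by
  obtain ⟨f, hfreg, hfw⟩ := hONTO w hw
  obtain ⟨hmem, hred⟩ := S18_norm_red hd hdeg f
  refine ⟨⟨Algebra.norm F (f : F'), hmem⟩, fun P hP => ?_, ?_⟩
  · exact NM_regular_of_isIntegral (j : F) _
      (NM_isIntegral_norm (j : F) (f : F') (hREG _ hfreg)) P hP
  · rw [hred, hfw]
    exact hwQ

end norm

end Fermat.Agent.S18
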