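import Mathlib
import Fermat.Prelude.Def_AlgebraicCurve_DivisorPushPull
import Fermat.Agent.Lib.FFSep
import Fermat.Agent.S24.LocalRing
import Fermat.Agent.S24.GlobalA
import Fermat.Agent.S24.ResidueField
import Fermat.Agent.S18.NormExist

/-!
# S18, package NORM (helper24), part 4: existence on the residue side, in terms of places

`K` algebraically closed (any characteristic), `F / K(x)` finite separable, `F' / F` finite
separable.

* `NM_ord_eq_one` : an element of `q ∖ q²` has order one at the place of the prime `q`.
* `NM_exists_of_prime` : for a Dedekind domain `R` with fraction field `F` and a height one prime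
  `w`, some `y ∈ F'` integral over `R` has `ord_w (N_{F'/F} y) = 1`  (from `NM_exists_intNorm`).
* `NM_exists_k` : for every place `Q` of `F` at which `x` is regular there is `w ∈ F'`, regular
  wherever `x` is regular, with `ord_Q (N_{F'/F} w) = 1`.
-/

set_option autoImplicit false

open AlgebraicCurve IntermediateField IsDedekindDomain Module
open scoped IntermediateField.algebraAdjoinAdjoin

namespace Fermat.Agent.S18

open Fermat.Agent.S24 Fermat.Agent.Lib

section abstract

variable {K F F' : Type*} [Field K] [Field F] [Field F'] [Algebra K F] [Algebra F F']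
  [Algebra K F'] [IsScalarTower K F F'] [FiniteDimensional F F'] [Algebra.IsSeparable F F']
  {R : Type*} [CommRing R] [IsDedekindDomain R] [Algebra R F] [IsFractionRing R F]
  [Algebra K R] [IsScalarTower K R F] [Algebra R F'] [IsScalarTower R F F']
  [IsScalarTower K R F']

/-- the order of an element of `q ∖ q²` at the place of `q`. -/
theorem NM_ord_eq_one (w : HeightOneSpectrum R) (b : R) (hb : b ∈ w.asIdeal)
    (hb2 : b ∉ w.asIdeal ^ 2) :
    (Place.ofHeightOneSpectrum (K := K) (F := F) w).ord (algebraMap R F b) = 1 := by
  rw [BG_ord_ofHeightOneSpectrum, HeightOneSpectrum.valuation_of_algebraMap]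
  have h1 : w.intValuation b ≤ WithZero.exp (-(1 : ℤ)) := by
    have := (w.intValuation_le_pow_iff_mem b 1).mpr (by rwa [pow_one])
    simpa using this
  have h2 : ¬ w.intValuation b ≤ WithZero.exp (-(2 : ℤ)) := by
    intro h
    apply hb2
    have := (w.intValuation_le_pow_iff_mem b 2).mp (by simpa using h)
    exact this
  have hb0 : b ≠ 0 := by
    rintro rfl
    exact hb2 (zero_mem _)
  have h0 : w.intValuation b ≠ 0 := w.intValuation_ne_zero b hb0
  have h3 : WithZero.log (w.intValuation b) ≤ -1 := by
    have := (WithZero.log_le_log h0 (WithZero.exp_ne_zero)).mpr h1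
    simpa using this
  have h4 : ¬ WithZero.log (w.intValuation b) ≤ -2 := by
    intro h
    apply h2
    rw [← WithZero.log_le_log h0 (WithZero.exp_ne_zero)]
    simpa using h
  omega

omit [IsScalarTower K F F'] in
/-- **NORM, existence** over a Dedekind domain `R` with fraction field `F`: for every height one
prime `w` of `R` there is `y ∈ F'`, integral over `R`, whose norm has order one at the place
of `w`. -/
theorem NM_exists_of_prime [IsAlgClosed K] (hF' : S24_IsFunctionField1 K F')
    (w : HeightOneSpectrum R) :
    ∃ y : F', IsIntegral R y ∧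
      (Place.ofHeightOneSpectrum (K := K) (F := F) w).ord (Algebra.norm F y) = 1 := by
  have hinj : Function.Injective (algebraMap R F') := by
    rw [IsScalarTower.algebraMap_eq R F F']
    exact (algebraMap F F').injective.comp (IsFractionRing.injective R F)
  have i0 : Module.IsTorsionFree R F' := isTorsionFree_iff_algebraMap_injective.mpr hinj
  have i3 : IsDedekindDomain (integralClosure R F') := integralClosure.isDedekindDomain R F F'
  have i4 : IsFractionRing (integralClosure R F') F' :=
    integralClosure.isFractionRing_of_finite_extension F F'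
  have i5 : Module.Finite R (integralClosure R F') :=
    IsIntegralClosure.finite R F F' (integralClosure R F')
  have hqmax : w.asIdeal.IsMaximal := w.isMaximal
  have hf : ∀ P : Ideal (integralClosure R F'), P.IsPrime → P.LiesOver w.asIdeal →
      P.inertiaDeg R = 1 := by
    intro P hP hPq
    have hP0 : P ≠ ⊥ := Ideal.ne_bot_of_liesOver_of_ne_bot w.ne_bot P
    have hPmax : P.IsMaximal := hP.isMaximal hP0
    exact BG_inertiaDeg_eq_one (K := K) w.asIdeal P
      (BG_quotient_surjective (K := K) (F := F') ⟨P, hP, hP0⟩ (S24_residue_surjective hF' _))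
  obtain ⟨y, hy1, hy2⟩ := NM_exists_intNorm w.asIdeal w.ne_bot hf
  refine ⟨(y : F'), y.2, ?_⟩
  have h := Algebra.algebraMap_intNorm (A := R) (K := F) (L := F') (B := integralClosure R F') y
  have h' : Algebra.norm F (y : F') = algebraMap R F (Algebra.intNorm R (integralClosure R F') y) :=
    h.symm
  rw [h']
  exact NM_ord_eq_one w _ hy1 hy2

end abstract

section places

variable {K F F' : Type*} [Field K] [Field F] [Field F'] [Algebra K F] [Algebra F F']
  [Algebra K F'] [IsScalarTower K F F'] [FiniteDimensional F F'] [Algebra.IsSeparable F F']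

/-- an element integral over a ring whose image lies in the valuation ring of a place lies in
the valuation ring. -/
theorem NM_mem_of_isIntegral {A : Type*} [CommRing A] [Algebra A F'] (v : Place K F')
    (hA : ∀ a : A, algebraMap A F' a ∈ v.toValuationSubring) {y : F'} (hy : IsIntegral A y) :
    y ∈ v.toValuationSubring := by
  obtain ⟨p, hp, hpy⟩ := hy
  let g : A →+* v.toValuationSubring :=
    (algebraMap A F').codRestrict v.toValuationSubring.toSubring hA
  have hint : IsIntegral v.toValuationSubring y := by
    refine ⟨p.map g, hp.map _, ?_⟩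
    rw [Polynomial.eval₂_map]
    exact hpy
  obtain ⟨z, hz⟩ := IsIntegrallyClosed.algebraMap_eq_of_integral hint
  rw [← hz]
  exact z.2

/-- **NORM, existence** (function field form): `K` algebraically closed, `F / K(x)` finite
separable, `F' / F` finite separable.  For every place `Q` of `F` at which `x` is regular there
is `w ∈ F'`, regular at all places of `F'` at which `x` is regular, with `ord_Q (N w) = 1`. -/
theorem NM_exists_k [IsAlgClosed K] (hF' : S24_IsFunctionField1 K F') {x : F}
    (hx : Transcendental K x) [FiniteDimensional K⟮x⟯ F] [Algebra.IsSeparable K⟮x⟯ F]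
    (Q : Place K F) (hQ : 0 ≤ Q.ord x) :
    ∃ w : F', (∀ Q' : Place K F', 0 ≤ Q'.ord (algebraMap F F' x) → 0 ≤ Q'.ord w) ∧
      Q.ord (Algebra.norm F w) = 1 := by
  have i1 := FFS_isDedekindDomain hx
  have i2 := BG_isFractionRing (K := K) (x := x)
  have hx0 : x ≠ 0 := fun h => hx (h ▸ isAlgebraic_zero)
  have hxQ : x ∈ Q.toValuationSubring := (BG_mem_iff_ord_nonneg Q hx0).mpr hQ
  obtain ⟨wQ, hwQ⟩ := BG_exists_heightOneSpectrum
    (B := integralClosure (Algebra.adjoin K ({x} : Set F)) F) Q
    (fun b => BL_mem_of_isIntegral Q hxQ (b := (b : F)) b.2)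
  obtain ⟨y, hyint, hyord⟩ := NM_exists_of_prime (K := K) (F := F) (F' := F')
    (R := integralClosure (Algebra.adjoin K ({x} : Set F)) F) hF' wQ
  rw [hwQ] at hyord
  refine ⟨y, fun Q' hQ' => ?_, hyord⟩
  rcases eq_or_ne y 0 with rfl | hy0
  · rw [Place.ord_zero]
  have hx'0 : algebraMap F F' x ≠ 0 := by
    rw [Ne, map_eq_zero]; exact hx0
  have hx'Q' : algebraMap F F' x ∈ Q'.toValuationSubring :=
    (BG_mem_iff_ord_nonneg Q' hx'0).mpr hQ'
  have hxr : x ∈ (Q'.restrict F).toValuationSubring := (Place.mem_restrict_iff Q').mpr hx'Q'
  refine (BG_mem_iff_ord_nonneg Q' hy0).mp (NM_mem_of_isIntegral Q' (fun b => ?_) hyint)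
  have hb : (b : F) ∈ (Q'.restrict F).toValuationSubring :=
    BL_mem_of_isIntegral _ hxr (b := (b : F)) b.2
  exact (Place.mem_restrict_iff Q').mp hb

end places

end Fermat.Agent.S18
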