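import Mathlib
import Fermat.Agent.S18.Spec

/-!
# S18, package SEMI (helper16), part 1: valued function fields and the cartesian lemma

`S18_Val L F k Fk` = the part of helper20's `S18_Spec` that does not mention places: a valuation
ring `A ⊂ L` with residue map `res : A → k`, a valuation ring `O ⊂ F` with residue map
`red : O → Fk` extending `res`, with the same value group.  (It is meant for `F' = F(μ)`, for
which no specialisation map of places is available, and for relative situations `F'/F`.)

Main results:
* `S18_L_subspace_basis`: Gaussian elimination over a valuation ring;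
* `S18_Val.mem_A_of_sum_mem`: a family of `O` with `k`-independent reductions is orthonormal;
* `S18_Val.exists_red_basis_of_le_span`: a subspace of the span of an orthonormal family has a
  basis in `O` with `k`-independent reductions.
-/

set_option autoImplicit false

open AlgebraicCurve

namespace Fermat.Agent.S18

section Pure

variable {L k : Type*} [Field L] [Field k]

/-- pivot: a finite family, not all zero, has an entry of maximal absolute value. -/
theorem S18_L_exists_pivot (A : ValuationSubring L) {I : Type*} [Finite I] (f : I → L)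
    (hf : f ≠ 0) : ∃ a₀, f a₀ ≠ 0 ∧ ∀ a, f a / f a₀ ∈ A := by
  classical
  have := Fintype.ofFinite I
  have hne : ∃ a, f a ≠ 0 := by
    by_contra h
    push Not at h
    exact hf (funext h)
  obtain ⟨a₁, ha₁⟩ := hne
  obtain ⟨a₀, -, hmax⟩ := Finset.exists_max_image Finset.univ (fun a => A.valuation (f a))
    ⟨a₁, Finset.mem_univ _⟩
  have h0 : f a₀ ≠ 0 := by
    intro h0
    have h1 := hmax a₁ (Finset.mem_univ _)
    rw [h0, map_zero] at h1
    exact ha₁ ((map_eq_zero A.valuation).mp (le_antisymm h1 zero_le))
  refine ⟨a₀, h0, fun a => ?_⟩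
  rw [← A.valuation_le_one_iff, map_div₀]
  have hv0 : A.valuation (f a₀) ≠ 0 := (map_ne_zero A.valuation).mpr h0
  exact (div_le_one₀ (zero_lt_iff.mpr hv0)).mpr (hmax a (Finset.mem_univ _))

/-- **Gaussian elimination over a valuation ring**: every subspace of `L^I` has a basis of integral
vectors whose reductions are linearly independent. -/
theorem S18_L_subspace_basis (A : ValuationSubring L) (res : A →+* k)
    {I : Type*} [Finite I] (V : Submodule L (I → L)) :
    ∃ (r : ℕ) (v : Fin r → (I → A)), (∀ b, (fun a => ((v b a : A) : L)) ∈ V) ∧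
      LinearIndependent k (fun b => fun a => res (v b a)) ∧
      V ≤ Submodule.span L (Set.range fun b => fun a => ((v b a : A) : L)) := by
  classical
  induction' h : Module.finrank L V using Nat.strong_induction_on with n ih generalizing V
  by_cases hV : V = ⊥
  · refine ⟨0, Fin.elim0, fun b => b.elim0, linearIndependent_empty_type, ?_⟩
    rw [hV]
    exact bot_le
  · obtain ⟨f, hfV, hf0⟩ := Submodule.exists_mem_ne_zero_of_ne_bot hV
    obtain ⟨a₀, ha₀, hpiv⟩ := S18_L_exists_pivot A f hf0
    set v₀ : I → A := fun a => ⟨f a / f a₀, hpiv a⟩ with hv₀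
    have hv₀V : (fun a => ((v₀ a : A) : L)) ∈ V := by
      have : (fun a => ((v₀ a : A) : L)) = (f a₀)⁻¹ • f := by
        funext a
        simp [hv₀, div_eq_inv_mul]
      rw [this]
      exact V.smul_mem _ hfV
    have hv₀a₀ : v₀ a₀ = 1 := by
      apply Subtype.ext
      simp [hv₀, div_self ha₀]
    set V' : Submodule L (I → L) :=
      V ⊓ LinearMap.ker (LinearMap.proj (R := L) (φ := fun _ => L) a₀) with hV'
    have hV'le : V' ≤ V := inf_le_left
    have hV'ne : V' ≠ V := by
      intro heq
      have : (fun a => ((v₀ a : A) : L)) ∈ V' := heq ▸ hv₀V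
      have h2 := (Submodule.mem_inf.mp this).2
      rw [LinearMap.mem_ker, LinearMap.proj_apply, hv₀a₀] at h2
      simp at h2
    have hlt : Module.finrank L V' < n := by
      rw [← h]
      exact Submodule.finrank_lt_finrank_of_lt (lt_of_le_of_ne hV'le hV'ne)
    obtain ⟨r, v', hv'V, hv'ind, hv'span⟩ := ih _ hlt V' rfl
    have hv'a₀ : ∀ b, v' b a₀ = 0 := by
      intro b
      have h2 := (Submodule.mem_inf.mp (hv'V b)).2
      rw [LinearMap.mem_ker, LinearMap.proj_apply] at h2
      exact Subtype.ext h2
    refine ⟨r + 1, Fin.cons v₀ v', ?_, ?_, ?_⟩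
    · intro b
      refine Fin.cases ?_ (fun b' => ?_) b
      · simpa using hv₀V
      · simpa using hV'le (hv'V b')
    · have hfun : (fun b : Fin (r + 1) => fun a =>
            res ((Fin.cons v₀ v' : Fin (r+1) → I → A) b a))
          = Fin.cons (fun a => res (v₀ a)) (fun b => fun a => res (v' b a)) := by
        funext b
        refine Fin.cases ?_ (fun b' => ?_) b
        · simp
        · simp
      rw [hfun, linearIndependent_finCons]
      refine ⟨hv'ind, fun hmem => ?_⟩
      have hvan : ∀ g ∈ Submodule.span k (Set.range fun b => fun a => res (v' b a)),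
          g a₀ = 0 := by
        intro g hg
        induction hg using Submodule.span_induction with
        | mem x hx =>
          obtain ⟨b, rfl⟩ := hx
          simp [hv'a₀ b]
        | zero => rfl
        | add x y _ _ hx hy => simp [hx, hy]
        | smul c x _ hx => simp [hx]
      have := hvan _ hmem
      simp [hv₀a₀] at this
    · intro g hg
      have hg' : g - g a₀ • (fun a => ((v₀ a : A) : L)) ∈ V' := by
        refine Submodule.mem_inf.mpr ⟨V.sub_mem hg (V.smul_mem _ hv₀V), ?_⟩
        rw [LinearMap.mem_ker, LinearMap.proj_apply]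
        simp [hv₀a₀]
      have hspan := hv'span hg'
      have hle : Submodule.span L (Set.range fun b => fun a => ((v' b a : A) : L)) ≤
          Submodule.span L (Set.range fun b => fun a =>
            (((Fin.cons v₀ v' : Fin (r+1) → I → A) b a : A) : L)) := by
        apply Submodule.span_mono
        rintro _ ⟨b, rfl⟩
        exact ⟨b.succ, by simp⟩
      have h1 := hle hspan
      have h2 : (fun a => ((v₀ a : A) : L)) ∈ Submodule.span L (Set.range fun b => fun a =>
            (((Fin.cons v₀ v' : Fin (r+1) → I → A) b a : A) : L)) :=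
        Submodule.subset_span ⟨0, by simp⟩
      have := Submodule.add_mem _ h1 (Submodule.smul_mem _ (g a₀) h2)
      simpa using this

end Pure

/-- valued function field: `S18_Spec` without the specialisation map of places. -/
structure S18_Val (L F k Fk : Type*) [Field L] [Field F] [Algebra L F] [Field k] [Field Fk]
    [Algebra k Fk] where
  /-- the valuation ring of the base field -/
  A : ValuationSubring L
  /-- its residue map -/
  res : A →+* k
  res_surjective : Function.Surjective res
  res_eq_zero_iff : ∀ a : A, res a = 0 ↔ ¬ IsUnit a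
  /-- the valuation ring of the big field -/
  O : ValuationSubring F
  /-- its residue map -/
  red : O →+* Fk
  red_surjective : Function.Surjective red
  red_ne_zero_iff : ∀ x : O, red x ≠ 0 ↔ IsUnit x
  algebraMap_mem_iff : ∀ a : L, algebraMap L F a ∈ O ↔ a ∈ A
  red_algebraMap : ∀ (a : L) (ha : a ∈ A) (haO : algebraMap L F a ∈ O),
    red ⟨algebraMap L F a, haO⟩ = algebraMap k Fk (res ⟨a, ha⟩)

variable {L F k Fk : Type*} [Field L] [Field F] [Algebra L F] [Field k] [Field Fk]
  [Algebra k Fk]

/-- forget the specialisation map. -/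
def S18_Spec.toVal (S : S18_Spec L F k Fk) : S18_Val L F k Fk where
  A := S.A
  res := S.res
  res_surjective := S.res_surjective
  res_eq_zero_iff := S.res_eq_zero_iff
  O := S.O
  red := S.red
  red_surjective := S.red_surjective
  red_ne_zero_iff := S.red_ne_zero_iff
  algebraMap_mem_iff := S.algebraMap_mem_iff
  red_algebraMap := S.red_algebraMap

namespace S18_Val

variable (S : S18_Val L F k Fk)

/-- constants of `A` as elements of `O`. -/
def const : S.A →+* S.O where
  toFun a := ⟨algebraMap L F a, (S.algebraMap_mem_iff a).2 a.2⟩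
  map_one' := by ext; simp
  map_mul' a b := by ext; simp
  map_zero' := by ext; simp
  map_add' a b := by ext; simp

@[simp] theorem coe_const (a : S.A) : ((S.const a : S.O) : F) = algebraMap L F a := rfl

theorem red_const (a : S.A) : S.red (S.const a) = algebraMap k Fk (S.res a) :=
  S.red_algebraMap a a.2 _

theorem red_eq_zero_iff (x : S.O) : S.red x = 0 ↔ ¬ IsUnit x := by
  rw [← S.red_ne_zero_iff, not_not]

theorem res_inv_eq_zero {a : L} (ha : a ∉ S.A) (hai : a⁻¹ ∈ S.A) : S.res ⟨a⁻¹, hai⟩ = 0 := by
  rw [S.res_eq_zero_iff]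
  rintro ⟨u, hu'⟩
  apply ha
  have ha0 : a ≠ 0 := fun h0 => ha (h0 ▸ S.A.zero_mem)
  have h5 : ((u : S.A) : L) * (((u⁻¹ : S.Aˣ) : S.A) : L) = 1 := by
    exact_mod_cast congrArg (fun z : S.A => (z : L)) u.mul_inv
  have h6 : ((u : S.A) : L) = a⁻¹ := congrArg Subtype.val hu'
  rw [h6] at h5
  have h7 : (((u⁻¹ : S.Aˣ) : S.A) : L) = a := by
    have := congrArg (fun z => a * z) h5
    simp only [mul_one, ← mul_assoc, mul_inv_cancel₀ ha0, one_mul] at this
    exact this
  rw [← h7]
  exact ((u⁻¹ : S.Aˣ) : S.A).2

/-- reduction of an `A`-linear combination. -/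
theorem red_sum {ι : Type*} (s : Finset ι) (c : ι → S.A) (v : ι → S.O) :
    S.red (∑ i ∈ s, S.const (c i) * v i) = ∑ i ∈ s, S.res (c i) • S.red (v i) := by
  rw [map_sum]
  refine Finset.sum_congr rfl fun i _ => ?_
  rw [map_mul, S.red_const, Algebra.smul_def]

/-- **orthonormality**: a finite family of `O` whose reductions are `k`-linearly independent
is orthonormal: a linear combination is integral iff its coefficients are. -/
theorem mem_A_of_sum_mem {ι : Type*} [Finite ι] (v : ι → S.O)
    (hv : LinearIndependent k (fun i => S.red (v i))) (c : ι → L)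
    (h : ∑ᶠ i, algebraMap L F (c i) * (v i : F) ∈ S.O) : ∀ i, c i ∈ S.A := by
  classical
  have := Fintype.ofFinite ι
  rw [finsum_eq_sum_of_fintype] at h
  by_contra hcon
  push Not at hcon
  obtain ⟨j, hj⟩ := hcon
  have hc0 : c ≠ 0 := by
    rintro rfl
    exact hj S.A.zero_mem
  obtain ⟨i₀, hi₀, hpiv⟩ := S18_L_exists_pivot S.A c hc0
  -- the pivot is not integral
  have hi₀A : c i₀ ∉ S.A := by
    intro hmem
    apply hj
    have := S.A.mul_mem _ _ (hpiv j) hmem
    rwa [div_mul_cancel₀ _ hi₀] at this
  have hinv : (c i₀)⁻¹ ∈ S.A := (S.A.mem_or_inv_mem (c i₀)).resolve_left hi₀A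
  set c' : ι → S.A := fun i => ⟨c i / c i₀, hpiv i⟩ with hc'
  have hsum : (∑ i, S.const (c' i) * v i : S.O) =
      S.const ⟨(c i₀)⁻¹, hinv⟩ * ⟨_, h⟩ := by
    apply Subtype.ext
    push_cast
    simp only [coe_const, hc']
    rw [Finset.mul_sum]
    refine Finset.sum_congr rfl fun i _ => ?_
    rw [map_div₀, map_inv₀]
    ring
  have hred : S.red (∑ i, S.const (c' i) * v i) = 0 := by
    rw [hsum, map_mul, S.red_const, S.res_inv_eq_zero hi₀A hinv, map_zero, zero_mul]
  rw [S.red_sum] at hred
  have := (Fintype.linearIndependent_iff.mp hv) (fun i => S.res (c' i)) hred i₀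
  have h1 : c' i₀ = 1 := by
    apply Subtype.ext
    simp [hc', div_self hi₀]
  rw [h1, map_one] at this
  exact one_ne_zero this

/-- a family of `O` with `k`-independent reductions is `L`-independent. -/
theorem linearIndependent_of_red {ι : Type*} [Finite ι] (v : ι → S.O)
    (hv : LinearIndependent k (fun i => S.red (v i))) :
    LinearIndependent L (fun i => (v i : F)) := by
  classical
  have := Fintype.ofFinite ι
  rw [Fintype.linearIndependent_iff]
  intro c hc
  by_contra hcon
  push Not at hcon
  have hc0 : c ≠ 0 := by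
    rintro rfl
    obtain ⟨i, hi⟩ := hcon
    exact hi rfl
  obtain ⟨i₀, hi₀, hpiv⟩ := S18_L_exists_pivot S.A c hc0
  set c' : ι → S.A := fun i => ⟨c i / c i₀, hpiv i⟩ with hc'
  have hsum : (∑ i, S.const (c' i) * v i : S.O) = 0 := by
    apply Subtype.ext
    push_cast
    simp only [coe_const, hc']
    have : ∑ i, algebraMap L F (c i / c i₀) * (v i : F) =
        algebraMap L F (c i₀)⁻¹ * ∑ i, c i • (v i : F) := by
      rw [Finset.mul_sum]
      refine Finset.sum_congr rfl fun i _ => ?_
      rw [map_div₀, map_inv₀, Algebra.smul_def]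
      ring
    rw [this, hc, mul_zero]
  have hred : S.red (∑ i, S.const (c' i) * v i) = 0 := by rw [hsum, map_zero]
  rw [S.red_sum] at hred
  have := (Fintype.linearIndependent_iff.mp hv) (fun i => S.res (c' i)) hred i₀
  have h1 : c' i₀ = 1 := by
    apply Subtype.ext
    simp [hc', div_self hi₀]
  rw [h1, map_one] at this
  exact one_ne_zero this

/-- the reduction of `V ∩ O`, a `k`-subspace of `Fk`. -/
def redSub (V : Submodule L F) : Submodule k Fk where
  carrier := {w | ∃ f : S.O, (f : F) ∈ V ∧ S.red f = w}
  add_mem' := by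
    rintro _ _ ⟨f, hf, rfl⟩ ⟨g, hg, rfl⟩
    exact ⟨f + g, V.add_mem hf hg, map_add _ _ _⟩
  zero_mem' := ⟨0, V.zero_mem, map_zero _⟩
  smul_mem' := by
    rintro γ _ ⟨f, hf, rfl⟩
    obtain ⟨a, rfl⟩ := S.res_surjective γ
    refine ⟨S.const a * f, ?_, ?_⟩
    · have : ((S.const a * f : S.O) : F) = (a : L) • (f : F) := by
        rw [Algebra.smul_def]; rfl
      rw [this]
      exact V.smul_mem _ hf
    · rw [map_mul, S.red_const, Algebra.smul_def]

theorem mem_redSub {V : Submodule L F} {w : Fk} :
    w ∈ S.redSub V ↔ ∃ f : S.O, (f : F) ∈ V ∧ S.red f = w := Iff.rfl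

/-- if `V` has a basis in `O` with independent reductions, then `red (V ∩ O)` is spanned by the
reductions. -/
theorem redSub_eq_span {r : ℕ} (V : Submodule L F) (v : Fin r → S.O)
    (hvV : ∀ b, (v b : F) ∈ V) (hv : LinearIndependent k (fun b => S.red (v b)))
    (hspan : V ≤ Submodule.span L (Set.range fun b => (v b : F))) :
    S.redSub V = Submodule.span k (Set.range fun b => S.red (v b)) := by
  classical
  apply le_antisymm
  · rintro _ ⟨f, hf, rfl⟩
    have h1 := hspan hf
    rw [Submodule.mem_span_range_iff_exists_fun] at h1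
    obtain ⟨c, hc⟩ := h1
    have hcA : ∀ b, c b ∈ S.A := by
      apply S.mem_A_of_sum_mem v hv c
      rw [finsum_eq_sum_of_fintype]
      have : ∑ i, algebraMap L F (c i) * (v i : F) = (f : F) := by
        rw [← hc]
        exact Finset.sum_congr rfl fun i _ => (Algebra.smul_def _ _).symm
      rw [this]
      exact f.2
    have hf' : f = ∑ b, S.const ⟨c b, hcA b⟩ * v b := by
      apply Subtype.ext
      push_cast
      rw [← hc]
      exact Finset.sum_congr rfl fun i _ => Algebra.smul_def _ _
    rw [hf', S.red_sum]
    exact Submodule.sum_mem _ fun b _ =>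
      Submodule.smul_mem _ _ (Submodule.subset_span ⟨b, rfl⟩)
  · rw [Submodule.span_le]
    rintro _ ⟨b, rfl⟩
    exact ⟨v b, hvV b, rfl⟩

/-- ... and its dimension is the dimension of `V`. -/
theorem finrank_redSub_of_basis {r : ℕ} (V : Submodule L F) (v : Fin r → S.O)
    (hvV : ∀ b, (v b : F) ∈ V) (hv : LinearIndependent k (fun b => S.red (v b)))
    (hspan : V ≤ Submodule.span L (Set.range fun b => (v b : F))) :
    Module.finrank k (S.redSub V) = Module.finrank L V := by
  rw [S.redSub_eq_span V v hvV hv hspan, finrank_span_eq_card hv]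
  have hVeq : V = Submodule.span L (Set.range fun b => (v b : F)) :=
    le_antisymm hspan (Submodule.span_le.mpr (by rintro _ ⟨b, rfl⟩; exact hvV b))
  rw [hVeq, finrank_span_eq_card (S.linearIndependent_of_red v hv)]

end S18_Val

end Fermat.Agent.S18
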