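import Mathlib
import Fermat.Agent.S18.LiftVal

/-!
# S18, package SEMI (helper16), part 2: the cartesian lemma (L1)

`S.IsCart x y` (degree preservation in polynomial form): `x ∈ O` has transcendental reduction,
`y₁..yₙ ∈ O` span `F` over `L(x)` and their reductions are independent over `k[red x]`.
Then every finite-dimensional `L`-subspace `V` of `F` has a basis in `O` with `k`-independent
reductions (`exists_red_basis`), hence `dim_k red (V ∩ O) = dim_L V` (`finrank_redSub`).
-/

set_option autoImplicit false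

open Polynomial

namespace Fermat.Agent.S18

variable {L F k Fk : Type*} [Field L] [Field F] [Algebra L F] [Field k] [Field Fk]
  [Algebra k Fk]

namespace S18_Val

variable (S : S18_Val L F k Fk)

/-- a subspace of the span of an orthonormal family has an orthonormal basis. -/
theorem exists_red_basis_of_le_span {I : Type*} [Finite I] (w : I → S.O)
    (hw : LinearIndependent k (fun a => S.red (w a))) (V : Submodule L F)
    (hV : V ≤ Submodule.span L (Set.range fun a => (w a : F))) :
    ∃ (r : ℕ) (v : Fin r → S.O), (∀ b, (v b : F) ∈ V) ∧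
      LinearIndependent k (fun b => S.red (v b)) ∧
      V ≤ Submodule.span L (Set.range fun b => (v b : F)) := by
  classical
  have := Fintype.ofFinite I
  set Φ : (I → L) →ₗ[L] F := Fintype.linearCombination L (fun a => (w a : F)) with hΦ
  have hΦapp : ∀ c : I → S.A, Φ (fun a => ((c a : S.A) : L)) =
      ((∑ a, S.const (c a) * w a : S.O) : F) := by
    intro c
    rw [hΦ, Fintype.linearCombination_apply]
    push_cast
    exact Finset.sum_congr rfl fun a _ => by rw [Algebra.smul_def, coe_const]
  obtain ⟨r, v₀, hv₀V, hv₀ind, hv₀span⟩ := S18_L_subspace_basis S.A S.res (V.comap Φ)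
  refine ⟨r, fun b => ∑ a, S.const (v₀ b a) * w a, ?_, ?_, ?_⟩
  · intro b
    have h1 : Φ (fun a => ((v₀ b a : S.A) : L)) ∈ V := hv₀V b
    rwa [hΦapp] at h1
  · set Φk : (I → k) →ₗ[k] Fk := Fintype.linearCombination k (fun a => S.red (w a)) with hΦk
    have hker : LinearMap.ker Φk = ⊥ := by
      rw [LinearMap.ker_eq_bot']
      intro c hc
      rw [hΦk, Fintype.linearCombination_apply] at hc
      exact funext (Fintype.linearIndependent_iff.mp hw c hc)
    have h2 := hv₀ind.map' Φk hker
    have h3 : (fun b => S.red (∑ a, S.const (v₀ b a) * w a)) =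
        Φk ∘ (fun b => fun a => S.res (v₀ b a)) := by
      funext b
      rw [S.red_sum, Function.comp_apply, hΦk, Fintype.linearCombination_apply]
    rw [h3]
    exact h2
  · intro g hg
    have hg' := hV hg
    rw [Submodule.mem_span_range_iff_exists_fun] at hg'
    obtain ⟨c, hc⟩ := hg'
    have hΦc : Φ c = g := by
      rw [hΦ, Fintype.linearCombination_apply]
      exact hc
    have hcV : c ∈ V.comap Φ := by
      rw [Submodule.mem_comap, hΦc]
      exact hg
    have h2 : Φ c ∈ (Submodule.span L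
        (Set.range fun b => fun a => ((v₀ b a : S.A) : L))).map Φ :=
      Submodule.mem_map_of_mem (hv₀span hcV)
    rw [Submodule.map_span, ← Set.range_comp, hΦc] at h2
    have h4 : (Φ ∘ fun b => fun a => ((v₀ b a : S.A) : L)) =
        fun b => ((∑ a, S.const (v₀ b a) * w a : S.O) : F) := by
      funext b
      exact hΦapp (v₀ b)
    rw [h4] at h2
    exact h2

/-- **degree preservation**, polynomial form. -/
structure IsCart (x : S.O) {n : ℕ} (y : Fin n → S.O) : Prop where
  transc : Transcendental k (S.red x)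
  span : ∀ f : F, ∃ (d : L[X]) (p : Fin n → L[X]), d ≠ 0 ∧
    aeval (x : F) d * f = ∑ i, aeval (x : F) (p i) * (y i : F)
  indep : ∀ p : Fin n → k[X], ∑ i, aeval (S.red x) (p i) * S.red (y i) = 0 → ∀ i, p i = 0

/-- the integral polynomial `∑ a_j X^j` evaluated at `x`, as an element of `O`. -/
theorem red_sum_pow (x : S.O) (m : ℕ) (a : Fin m → S.A) :
    S.red (∑ j : Fin m, S.const (a j) * x ^ (j : ℕ)) =
      aeval (S.red x) (∑ j : Fin m, C (S.res (a j)) * X ^ (j : ℕ)) := by
  rw [S.red_sum, map_sum]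
  refine Finset.sum_congr rfl fun j _ => ?_
  rw [map_mul, aeval_C, map_pow, map_pow, aeval_X, Algebra.smul_def]

/-- the powers of `x` have independent reductions. -/
theorem linearIndependent_pow {x : S.O} (hx : Transcendental k (S.red x)) (m : ℕ) :
    LinearIndependent k (fun j : Fin m => S.red (x ^ (j : ℕ))) := by
  classical
  rw [Fintype.linearIndependent_iff]
  intro γ hγ j₀
  have h1 : aeval (S.red x) (∑ j : Fin m, C (γ j) * X ^ (j : ℕ)) = 0 := by
    rw [map_sum, ← hγ]
    refine Finset.sum_congr rfl fun j _ => ?_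
    rw [map_mul, aeval_C, map_pow, aeval_X, map_pow, Algebra.smul_def]
  have h2 := (transcendental_iff.mp hx) _ h1
  have h3 := congrArg (fun p => p.coeff (j₀ : ℕ)) h2
  simp only [finsetSum_coeff, coeff_C_mul, coeff_X_pow, coeff_zero] at h3
  rw [Finset.sum_eq_single j₀] at h3
  · simpa using h3
  · intro j _ hj
    have : (j₀ : ℕ) ≠ (j : ℕ) := fun h => hj (Fin.ext h.symm)
    simp [this]
  · intro h
    exact absurd (Finset.mem_univ _) h

/-- **Gauss norm of a polynomial in `x`**: `d(x) = c · u` with `c` a constant and `u` a unit. -/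
theorem exists_const_mul_unit_aeval {x : S.O} (hx : Transcendental k (S.red x))
    (d : L[X]) (hd : d ≠ 0) :
    ∃ (c : L) (u : S.O), c ≠ 0 ∧ S.red u ≠ 0 ∧ aeval (x : F) d = algebraMap L F c * (u : F) := by
  classical
  set m := d.natDegree + 1 with hm
  set f : Fin m → L := fun j => d.coeff j with hf
  have hf0 : f ≠ 0 := by
    intro h
    have := congrFun h ⟨d.natDegree, Nat.lt_succ_self _⟩
    simp only [hf, Pi.zero_apply] at this
    exact hd (leadingCoeff_eq_zero.mp this)
  obtain ⟨j₀, hj₀, hpiv⟩ := S18_L_exists_pivot S.A f hf0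
  set a : Fin m → S.A := fun j => ⟨f j / f j₀, hpiv j⟩ with ha
  refine ⟨f j₀, ∑ j : Fin m, S.const (a j) * x ^ (j : ℕ), hj₀, ?_, ?_⟩
  · rw [S.red_sum_pow]
    intro h0
    have h2 := (transcendental_iff.mp hx) _ h0
    have h3 := congrArg (fun p => p.coeff (j₀ : ℕ)) h2
    simp only [finsetSum_coeff, coeff_C_mul, coeff_X_pow, coeff_zero] at h3
    rw [Finset.sum_eq_single j₀] at h3
    · have h1 : a j₀ = 1 := by
        apply Subtype.ext
        simp [ha, div_self hj₀]
      simp [h1] at h3
    · intro j _ hj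
      have : (j₀ : ℕ) ≠ (j : ℕ) := fun h => hj (Fin.ext h.symm)
      simp [this]
    · intro h
      exact absurd (Finset.mem_univ _) h
  · rw [aeval_eq_sum_range, Finset.sum_range]
    push_cast
    rw [Finset.mul_sum]
    refine Finset.sum_congr rfl fun j _ => ?_
    simp only [coe_const, ha, hf, Algebra.smul_def, map_div₀]
    have : algebraMap L F (d.coeff (j₀ : ℕ)) ≠ 0 := by
      simpa using hj₀
    field_simp

variable {S}

/-- the family `x^j y_i`, `i < n`, `j < m`. -/
def cartFam (x : S.O) {n : ℕ} (y : Fin n → S.O) (m : ℕ) : Fin n × Fin m → S.O :=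
  fun ij => x ^ (ij.2 : ℕ) * y ij.1

theorem IsCart.linearIndependent_cartFam {x : S.O} {n : ℕ} {y : Fin n → S.O}
    (hC : S.IsCart x y) (m : ℕ) :
    LinearIndependent k (fun ij => S.red (cartFam x y m ij)) := by
  classical
  rw [Fintype.linearIndependent_iff]
  intro γ hγ ij₀
  have h1 : ∑ i, aeval (S.red x) (∑ j : Fin m, C (γ (i, j)) * X ^ (j : ℕ)) * S.red (y i) = 0 := by
    rw [← hγ, Fintype.sum_prod_type]
    refine Finset.sum_congr rfl fun i _ => ?_
    rw [map_sum, Finset.sum_mul]
    refine Finset.sum_congr rfl fun j _ => ?_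
    simp only [cartFam, map_mul, aeval_C, map_pow, aeval_X, Algebra.smul_def]
    ring
  have h2 := hC.indep _ h1 ij₀.1
  have h3 := congrArg (fun p => p.coeff (ij₀.2 : ℕ)) h2
  simp only [finsetSum_coeff, coeff_C_mul, coeff_X_pow, coeff_zero] at h3
  rw [Finset.sum_eq_single ij₀.2] at h3
  · simpa using h3
  · intro j _ hj
    have : ((ij₀.2 : Fin m) : ℕ) ≠ (j : ℕ) := fun h => hj (Fin.ext h.symm)
    simp [this]
  · intro h
    exact absurd (Finset.mem_univ _) h

/-- `p(x) y_i` lies in the span of the `x^j y_i`, `j < m`, if `deg p < m`. -/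
theorem aeval_mul_mem_span_cartFam (x : S.O) {n : ℕ} (y : Fin n → S.O) (m : ℕ)
    (p : L[X]) (hp : p.natDegree < m) (i : Fin n) :
    aeval (x : F) p * (y i : F) ∈
      Submodule.span L (Set.range fun ij => (cartFam x y m ij : F)) := by
  rw [aeval_eq_sum_range, Finset.sum_mul]
  refine Submodule.sum_mem _ fun j hj => ?_
  rw [smul_mul_assoc]
  refine Submodule.smul_mem _ _ (Submodule.subset_span ?_)
  have hjm : j < m := lt_of_le_of_lt (Nat.lt_succ_iff.mp (Finset.mem_range.mp hj)) hp
  exact ⟨(i, ⟨j, hjm⟩), by simp [cartFam]⟩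

/-- a finite-dimensional subspace has a common denominator and a degree bound. -/
theorem IsCart.exists_denominator {x : S.O} {n : ℕ} {y : Fin n → S.O} (hC : S.IsCart x y)
    (V : Submodule L F) [FiniteDimensional L V] :
    ∃ (d : L[X]) (m : ℕ), d ≠ 0 ∧ ∀ f ∈ V, aeval (x : F) d * f ∈
      Submodule.span L (Set.range fun ij => (cartFam x y m ij : F)) := by
  classical
  obtain ⟨s, hs⟩ : V.FG := (Submodule.fg_iff_finiteDimensional V).mpr inferInstance
  choose d p hd hdp using hC.span
  set D : L[X] := ∏ f ∈ s, d f with hD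
  have hD0 : D ≠ 0 := Finset.prod_ne_zero_iff.mpr fun f _ => hd f
  set m : ℕ := (s.sup fun f => Finset.univ.sup fun i =>
    ((∏ g ∈ s.erase f, d g) * p f i).natDegree) + 1 with hm
  refine ⟨D, m, hD0, ?_⟩
  have hsub : (s : Set F) ⊆ (Submodule.comap (LinearMap.mulLeft L (aeval (x : F) D))
      (Submodule.span L (Set.range fun ij => (cartFam x y m ij : F))) : Set F) := by
    intro f hf
    have hf' : f ∈ s := hf
    rw [SetLike.mem_coe, Submodule.mem_comap, LinearMap.mulLeft_apply]
    have h1 : aeval (x : F) D * f =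
        ∑ i, aeval (x : F) ((∏ g ∈ s.erase f, d g) * p f i) * (y i : F) := by
      rw [hD, ← Finset.mul_prod_erase s d hf', map_mul, mul_comm (aeval (x : F) (d f)),
        mul_assoc, hdp f, Finset.mul_sum]
      refine Finset.sum_congr rfl fun i _ => ?_
      rw [map_mul, mul_assoc]
    rw [h1]
    refine Submodule.sum_mem _ fun i _ => aeval_mul_mem_span_cartFam x y m _ ?_ i
    rw [hm, Nat.lt_succ_iff]
    have h2 : ((∏ g ∈ s.erase f, d g) * p f i).natDegree ≤
        Finset.univ.sup fun i => ((∏ g ∈ s.erase f, d g) * p f i).natDegree :=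
      Finset.le_sup (f := fun i => ((∏ g ∈ s.erase f, d g) * p f i).natDegree)
        (Finset.mem_univ i)
    exact h2.trans (Finset.le_sup (f := fun f => Finset.univ.sup fun i =>
      ((∏ g ∈ s.erase f, d g) * p f i).natDegree) hf')
  intro f hf
  rw [← hs] at hf
  exact (Submodule.span_le.mpr hsub) hf

/-- **L1, the cartesian lemma**: every finite-dimensional subspace of `F` has a basis in `O`
whose reductions are `k`-linearly independent. -/
theorem IsCart.exists_red_basis {x : S.O} {n : ℕ} {y : Fin n → S.O} (hC : S.IsCart x y)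
    (V : Submodule L F) [FiniteDimensional L V] :
    ∃ (r : ℕ) (v : Fin r → S.O), (∀ b, (v b : F) ∈ V) ∧
      LinearIndependent k (fun b => S.red (v b)) ∧
      V ≤ Submodule.span L (Set.range fun b => (v b : F)) := by
  classical
  obtain ⟨d, m, hd0, hdV⟩ := hC.exists_denominator V
  obtain ⟨c, u, hc0, hu, hcu⟩ := S.exists_const_mul_unit_aeval hC.transc d hd0
  have huU : IsUnit u := (S.red_ne_zero_iff u).mp hu
  obtain ⟨uu, rfl⟩ := huU
  have huF : ((uu : S.O) : F) ≠ 0 := by
    intro h0
    apply hu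
    have : (uu : S.O) = 0 := Subtype.ext h0
    rw [this, map_zero]
  have hinv : (((uu⁻¹ : S.Oˣ) : S.O) : F) * ((uu : S.O) : F) = 1 := by
    have h := congrArg (fun z : S.O => (z : F)) uu.inv_mul
    exact h
  -- `V' = u • V`
  set V' : Submodule L F := V.map (LinearMap.mulLeft L ((uu : S.O) : F)) with hV'
  have hV'le : V' ≤ Submodule.span L (Set.range fun ij => (cartFam x y m ij : F)) := by
    rintro _ ⟨f, hf, rfl⟩
    have h1 := hdV f hf
    rw [hcu] at h1
    have h2 := Submodule.smul_mem _ c⁻¹ h1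
    rw [LinearMap.mulLeft_apply]
    convert h2 using 1
    rw [Algebra.smul_def, ← mul_assoc, ← mul_assoc, ← map_mul, inv_mul_cancel₀ hc0, map_one,
      one_mul]
  obtain ⟨r, v', hv'V, hv'ind, hv'span⟩ :=
    S.exists_red_basis_of_le_span (cartFam x y m) (hC.linearIndependent_cartFam m) V' hV'le
  refine ⟨r, fun b => ((uu⁻¹ : S.Oˣ) : S.O) * v' b, ?_, ?_, ?_⟩
  · intro b
    obtain ⟨f, hf, hfv⟩ := hv'V b
    rw [LinearMap.mulLeft_apply] at hfv
    have : ((((uu⁻¹ : S.Oˣ) : S.O) * v' b : S.O) : F) = f := by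
      push_cast
      rw [← hfv, ← mul_assoc, hinv, one_mul]
    rw [this]
    exact hf
  · have h1 : (fun b => S.red (((uu⁻¹ : S.Oˣ) : S.O) * v' b)) =
        (LinearMap.mulLeft k (S.red ((uu⁻¹ : S.Oˣ) : S.O))) ∘ fun b => S.red (v' b) := by
      funext b
      simp [map_mul]
    rw [h1]
    refine hv'ind.map' _ ?_
    rw [LinearMap.ker_eq_bot']
    intro w hw
    rw [LinearMap.mulLeft_apply] at hw
    have hne : S.red ((uu⁻¹ : S.Oˣ) : S.O) ≠ 0 :=
      (S.red_ne_zero_iff _).mpr (uu⁻¹).isUnit
    exact (mul_eq_zero.mp hw).resolve_left hne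
  · intro g hg
    have h1 : ((uu : S.O) : F) * g ∈ V' := ⟨g, hg, rfl⟩
    have h2 := hv'span h1
    have h3 := Submodule.mem_map_of_mem (f := LinearMap.mulLeft L (((uu⁻¹ : S.Oˣ) : S.O) : F)) h2
    rw [Submodule.map_span, ← Set.range_comp, LinearMap.mulLeft_apply, ← mul_assoc, hinv,
      one_mul] at h3
    have h4 : ((LinearMap.mulLeft L (((uu⁻¹ : S.Oˣ) : S.O) : F)) ∘ fun b => ((v' b : S.O) : F)) =
        fun b => ((((uu⁻¹ : S.Oˣ) : S.O) * v' b : S.O) : F) := by
      funext b
      simp
    rw [h4] at h3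
    exact h3

/-- **L1**: `dim_k red (V ∩ O) = dim_L V`. -/
theorem IsCart.finrank_redSub {x : S.O} {n : ℕ} {y : Fin n → S.O} (hC : S.IsCart x y)
    (V : Submodule L F) [FiniteDimensional L V] :
    Module.finrank k (S.redSub V) = Module.finrank L V := by
  obtain ⟨r, v, hvV, hv, hspan⟩ := hC.exists_red_basis V
  exact S.finrank_redSub_of_basis V v hvV hv hspan

/-- `red (V ∩ O)` is finite-dimensional. -/
theorem IsCart.finite_redSub {x : S.O} {n : ℕ} {y : Fin n → S.O} (hC : S.IsCart x y)
    (V : Submodule L F) [FiniteDimensional L V] : Module.Finite k (S.redSub V) := by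
  obtain ⟨r, v, hvV, hv, hspan⟩ := hC.exists_red_basis V
  rw [S.redSub_eq_span V v hvV hv hspan]
  exact FiniteDimensional.span_of_finite k (Set.finite_range _)

end S18_Val

end Fermat.Agent.S18
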