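import Mathlib
import Fermat.Agent.S18.LiftCart

/-!
# S18, package SEMI (helper16), part 3: integrality is preserved by reduction (INT)

Under degree preservation `S.IsCart x y`: if `z ∈ O` is integral over `L[x]`, then `red z` is
integral over `k[red x]` (`IsCart.isIntegral_red`).

Proof: `O = ⊕ O_x y_i` (`O_x` = Gauss ring of `L(x)`), so `z` is integral over `O_x`; the minimal
polynomial of `z` over `L(x)` has coefficients in `L[x] ∩ O_x = A[x]`.
-/

set_option autoImplicit false

open Polynomial IntermediateField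
open scoped IntermediateField.algebraAdjoinAdjoin

namespace Fermat.Agent.S18

variable {L F k Fk : Type*} [Field L] [Field F] [Algebra L F] [Field k] [Field Fk]
  [Algebra k Fk]

namespace S18_Val

variable {S : S18_Val L F k Fk}

theorem ne_zero_of_red_ne_zero {u : S.O} (hu : S.red u ≠ 0) : (u : F) ≠ 0 := by
  intro h0
  apply hu
  have : u = 0 := Subtype.ext h0
  rw [this, map_zero]

/-- `x` is transcendental over `L`. -/
theorem IsCart.transcendental_x {x : S.O} {n : ℕ} {y : Fin n → S.O} (hC : S.IsCart x y) :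
    Transcendental L (x : F) := by
  rw [transcendental_iff]
  intro d hd
  by_contra hd0
  obtain ⟨c, u, hc0, hu, hcu⟩ := S.exists_const_mul_unit_aeval hC.transc d hd0
  rw [hd] at hcu
  have h1 : algebraMap L F c ≠ 0 := by simpa using hc0
  exact (mul_ne_zero h1 (ne_zero_of_red_ne_zero hu)) hcu.symm

/-- a polynomial in `x` that lies in `O` has coefficients in `A`. -/
theorem coeff_mem_of_aeval_mem {x : S.O} (hx : Transcendental k (S.red x)) (q : L[X])
    (h : aeval (x : F) q ∈ S.O) : ∀ j, q.coeff j ∈ S.A := by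
  classical
  set m := q.natDegree + 1 with hm
  have key := S.mem_A_of_sum_mem (fun j : Fin m => x ^ (j : ℕ)) (S.linearIndependent_pow hx m)
    (fun j => q.coeff j) (by
      rw [finsum_eq_sum_of_fintype]
      have : ∑ j : Fin m, algebraMap L F (q.coeff j) * ((x ^ (j : ℕ) : S.O) : F) =
          aeval (x : F) q := by
        rw [aeval_eq_sum_range, Finset.sum_range]
        refine Finset.sum_congr rfl fun j _ => ?_
        rw [Algebra.smul_def]
        push_cast
        rfl
      rw [this]
      exact h)
  intro j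
  by_cases hj : j < m
  · exact key ⟨j, hj⟩
  · rw [coeff_eq_zero_of_natDegree_lt (by omega)]
    exact S.A.zero_mem

/-- the reduction of a polynomial in `x` lying in `O` is a polynomial in `red x`. -/
theorem red_aeval_mem_adjoin {x : S.O} (hx : Transcendental k (S.red x)) (q : L[X])
    (h : aeval (x : F) q ∈ S.O) :
    S.red ⟨aeval (x : F) q, h⟩ ∈ Algebra.adjoin k {S.red x} := by
  classical
  have hcoef := coeff_mem_of_aeval_mem hx q h
  set m := q.natDegree + 1 with hm
  have h1 : (⟨aeval (x : F) q, h⟩ : S.O) =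
      ∑ j : Fin m, S.const ⟨q.coeff j, hcoef j⟩ * x ^ (j : ℕ) := by
    apply Subtype.ext
    push_cast
    rw [aeval_eq_sum_range, Finset.sum_range]
    refine Finset.sum_congr rfl fun j _ => ?_
    rw [Algebra.smul_def, coe_const]
  rw [h1, S.red_sum_pow, Algebra.adjoin_singleton_eq_range_aeval]
  exact ⟨_, rfl⟩

/-- every element of `O` is a combination of the `y_i` with coefficients in `O ∩ L(x)`. -/
theorem IsCart.exists_repr {x : S.O} {n : ℕ} {y : Fin n → S.O} (hC : S.IsCart x y) (f : S.O) :
    ∃ a : Fin n → F, (∀ i, a i ∈ S.O) ∧ (∀ i, a i ∈ L⟮(x : F)⟯) ∧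
      (f : F) = ∑ i, a i * (y i : F) := by
  classical
  obtain ⟨d, p, hd0, hdp⟩ := hC.span (f : F)
  obtain ⟨c, u, hc0, hu, hcu⟩ := S.exists_const_mul_unit_aeval hC.transc d hd0
  have huF : (u : F) ≠ 0 := ne_zero_of_red_ne_zero hu
  have hcF : algebraMap L F c ≠ 0 := by simpa using hc0
  have hdF : aeval (x : F) d ≠ 0 := by rw [hcu]; exact mul_ne_zero hcF huF
  have huU : IsUnit u := (S.red_ne_zero_iff u).mp hu
  -- the coefficients of `p i / c` are integral
  set m : ℕ := (Finset.univ.sup fun i => (p i).natDegree) + 1 with hm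
  have hpm : ∀ i, (p i).natDegree < m := fun i => by
    rw [hm, Nat.lt_succ_iff]
    exact Finset.le_sup (f := fun i => (p i).natDegree) (Finset.mem_univ i)
  have key := S.mem_A_of_sum_mem (cartFam x y m) (hC.linearIndependent_cartFam m)
    (fun ij => (p ij.1).coeff ij.2 / c) (by
      rw [finsum_eq_sum_of_fintype]
      have : ∑ ij : Fin n × Fin m, algebraMap L F ((p ij.1).coeff ij.2 / c) *
          ((cartFam x y m ij : S.O) : F) = ((u * f : S.O) : F) := by
        rw [Fintype.sum_prod_type]
        have h2 : ∀ i, ∑ j : Fin m, algebraMap L F ((p i).coeff j / c) *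
            ((cartFam x y m (i, j) : S.O) : F) =
            (algebraMap L F c)⁻¹ * (aeval (x : F) (p i) * (y i : F)) := by
          intro i
          rw [aeval_eq_sum_range' (hpm i), Finset.sum_range, Finset.sum_mul, Finset.mul_sum]
          refine Finset.sum_congr rfl fun j _ => ?_
          simp only [cartFam, Algebra.smul_def, map_div₀]
          push_cast
          field_simp
        rw [Finset.sum_congr rfl fun i _ => h2 i, ← Finset.mul_sum, ← hdp, hcu]
        push_cast
        field_simp
      rw [this]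
      exact (u * f).2)
  have hcoefA : ∀ i, ∀ j, ((C c⁻¹ * p i).coeff j) ∈ S.A := by
    intro i j
    rw [coeff_C_mul]
    by_cases hj : j < m
    · have := key (i, ⟨j, hj⟩)
      simpa [div_eq_inv_mul] using this
    · rw [coeff_eq_zero_of_natDegree_lt (lt_of_lt_of_le (hpm i) (not_lt.mp hj)), mul_zero]
      exact S.A.zero_mem
  have hpO : ∀ i, aeval (x : F) (C c⁻¹ * p i) ∈ S.O := by
    intro i
    rw [aeval_eq_sum_range]
    refine S.O.toSubring.sum_mem fun j _ => ?_
    rw [Algebra.smul_def]
    exact S.O.mul_mem _ _ ((S.algebraMap_mem_iff _).2 (hcoefA i j)) (S.O.pow_mem x.2 _)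
  obtain ⟨uu, rfl⟩ := huU
  refine ⟨fun i => aeval (x : F) (p i) / aeval (x : F) d, fun i => ?_, fun i => ?_, ?_⟩
  · -- `= (p i / c)(x) * u⁻¹`
    have : aeval (x : F) (p i) / aeval (x : F) d =
        aeval (x : F) (C c⁻¹ * p i) * (((uu⁻¹ : S.Oˣ) : S.O) : F) := by
      have hinv : (((uu⁻¹ : S.Oˣ) : S.O) : F) = ((uu : S.O) : F)⁻¹ := by
        have h := congrArg (fun z : S.O => (z : F)) uu.inv_mul
        have h' : (((uu⁻¹ : S.Oˣ) : S.O) : F) * ((uu : S.O) : F) = 1 := h
        exact eq_inv_of_mul_eq_one_left h'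
      rw [hinv, hcu, map_mul, aeval_C, map_inv₀]
      field_simp
    show aeval (x : F) (p i) / aeval (x : F) d ∈ S.O
    rw [this]
    exact S.O.mul_mem _ _ (hpO i) ((uu⁻¹ : S.Oˣ) : S.O).2
  · have h1 : ∀ q : L[X], aeval (x : F) q ∈ L⟮(x : F)⟯ := by
      intro q
      have : aeval (x : F) q ∈ Algebra.adjoin L {(x : F)} := by
        rw [Algebra.adjoin_singleton_eq_range_aeval]
        exact ⟨q, rfl⟩
      exact algebra_adjoin_le_adjoin L _ this
    exact div_mem (h1 _) (h1 _)
  · have : ∑ i, aeval (x : F) (p i) / aeval (x : F) d * (y i : F) =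
        (aeval (x : F) d)⁻¹ * ∑ i, aeval (x : F) (p i) * (y i : F) := by
      rw [Finset.mul_sum]
      refine Finset.sum_congr rfl fun i _ => ?_
      field_simp
    rw [this, ← hdp, ← mul_assoc, inv_mul_cancel₀ hdF, one_mul]

/-- `L[x]` is integrally closed. -/
theorem isIntegrallyClosed_adjoin {x : F} (hx : Transcendental L x) :
    IsIntegrallyClosed (Algebra.adjoin L {x}) := by
  have e1 : L[X] ≃ₐ[L] (aeval (R := L) x).range :=
    AlgEquiv.ofInjective (aeval x) (transcendental_iff_injective.mp hx)
  have e2 : (aeval (R := L) x).range ≃ₐ[L] Algebra.adjoin L {x} :=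
    Subalgebra.equivOfEq _ _ (Algebra.adjoin_singleton_eq_range_aeval L x).symm
  exact IsIntegrallyClosed.of_equiv (e1.trans e2).toRingEquiv

/-- **INT**: integrality over `L[x]` is preserved by reduction. -/
theorem IsCart.isIntegral_red {x : S.O} {n : ℕ} {y : Fin n → S.O} (hC : S.IsCart x y)
    (z : S.O) (hz : IsIntegral (Algebra.adjoin L {(x : F)}) (z : F)) :
    IsIntegral (Algebra.adjoin k {S.red x}) (S.red z) := by
  classical
  have hxt := hC.transcendental_x
  let K' := L⟮(x : F)⟯
  let Ox : ValuationSubring K' := S.O.comap (algebraMap K' F)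
  let _ : Algebra Ox F := ((algebraMap K' F).comp Ox.subtype).toAlgebra
  have hST : IsScalarTower Ox K' F := IsScalarTower.of_algebraMap_eq (fun _ => rfl)
  have hOxmem : ∀ a : Ox, ((a : K') : F) ∈ S.O := fun a => a.2
  -- `z` is integral over `O_x`
  have hz2 : IsIntegral Ox (z : F) := by
    let N : Submodule Ox F := Submodule.span Ox (Set.range fun i => (y i : F))
    have hNO : ∀ f ∈ N, f ∈ S.O := by
      intro f hf
      induction hf using Submodule.span_induction with
      | mem g hg =>
        obtain ⟨i, rfl⟩ := hg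
        exact (y i).2
      | zero => exact S.O.zero_mem
      | add g h _ _ hg hh => exact S.O.add_mem _ _ hg hh
      | smul a g _ hg =>
        have : a • g = ((a : K') : F) * g := rfl
        rw [this]
        exact S.O.mul_mem _ _ (hOxmem a) hg
    have hON : ∀ f : S.O, (f : F) ∈ N := by
      intro f
      obtain ⟨a, haO, haK, hf⟩ := hC.exists_repr f
      rw [hf]
      refine Submodule.sum_mem _ fun i _ => ?_
      have : a i * (y i : F) = (⟨⟨a i, haK i⟩, haO i⟩ : Ox) • (y i : F) := rfl
      rw [this]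
      exact Submodule.smul_mem _ _ (Submodule.subset_span ⟨i, rfl⟩)
    refine isIntegral_of_smul_mem_submodule N ?_ (Submodule.fg_span (Set.finite_range _))
      (z : F) ?_
    · intro hbot
      have h1 : (1 : F) ∈ N := by simpa using hON 1
      rw [hbot, Submodule.mem_bot] at h1
      exact one_ne_zero h1
    · intro f hf
      have : (z : F) • f = ((z * ⟨f, hNO f hf⟩ : S.O) : F) := rfl
      rw [this]
      exact hON _
  have := isIntegrallyClosed_adjoin hxt
  have e1 := minpoly.isIntegrallyClosed_eq_field_fractions' K' hz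
  have e2 := minpoly.isIntegrallyClosed_eq_field_fractions' K' hz2
  -- the ring hom `O_x → O → Fk`
  let ι : Ox →+* S.O :=
    { toFun := fun a => ⟨((a : K') : F), hOxmem a⟩
      map_one' := rfl
      map_mul' := fun _ _ => rfl
      map_zero' := rfl
      map_add' := fun _ _ => rfl }
  let ρ : Ox →+* Fk := S.red.comp ι
  set P₂ := minpoly Ox (z : F) with hP₂
  have hP₂m : P₂.Monic := minpoly.monic hz2
  have hroot : eval₂ ρ (S.red z) P₂ = 0 := by
    have h1 : eval₂ ι z P₂ = 0 := by
      apply Subtype.ext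
      have h2 := Polynomial.hom_eval₂ P₂ ι S.O.subtype z
      have h3 : (S.O.subtype).comp ι = algebraMap Ox F := rfl
      rw [h3] at h2
      have h4 : eval₂ (algebraMap Ox F) (z : F) P₂ = 0 := minpoly.aeval Ox (z : F)
      have h5 : (S.O.subtype) z = (z : F) := rfl
      rw [h5, h4] at h2
      exact h2
    have h2 := Polynomial.hom_eval₂ P₂ ι S.red z
    rw [h1, map_zero] at h2
    exact h2.symm
  -- coefficients
  have hcoef : ∀ t, ρ (P₂.coeff t) ∈ Algebra.adjoin k {S.red x} := by
    intro t
    have h1 : (algebraMap Ox K' (P₂.coeff t) : K') =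
        algebraMap (Algebra.adjoin L {(x : F)}) K'
          ((minpoly (Algebra.adjoin L {(x : F)}) (z : F)).coeff t) := by
      have := congrArg (fun p => p.coeff t) (e2.symm.trans e1)
      simpa [coeff_map] using this
    have h2 : (((P₂.coeff t : Ox) : K') : F) ∈ Algebra.adjoin L {(x : F)} := by
      have h3 : (algebraMap Ox K' (P₂.coeff t) : K') = ((P₂.coeff t : Ox) : K') := rfl
      rw [← h3, h1]
      exact ((minpoly (Algebra.adjoin L {(x : F)}) (z : F)).coeff t).2
    rw [Algebra.adjoin_singleton_eq_range_aeval] at h2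
    obtain ⟨q, hq⟩ := h2
    have hqO : aeval (x : F) q ∈ S.O := by
      have : aeval (x : F) q = (((P₂.coeff t : Ox) : K') : F) := hq
      rw [this]
      exact hOxmem _
    have h4 := red_aeval_mem_adjoin hC.transc q hqO
    have h5 : ρ (P₂.coeff t) = S.red ⟨aeval (x : F) q, hqO⟩ := by
      change S.red (ι (P₂.coeff t)) = _
      congr 1
      apply Subtype.ext
      exact hq.symm
    rw [h5]
    exact h4
  -- lift the reduced polynomial to `k[red x]`
  have hmonic : (P₂.map ρ).Monic := hP₂m.map ρ
  have hlifts : P₂.map ρ ∈ Polynomial.lifts (algebraMap (Algebra.adjoin k {S.red x}) Fk) :=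
    (Polynomial.lifts_iff_coeff_lifts _).mpr fun t => by
      rw [coeff_map]
      exact ⟨⟨ρ (P₂.coeff t), hcoef t⟩, rfl⟩
  obtain ⟨q', hq'q, -, hq'monic⟩ := Polynomial.lifts_and_natDegree_eq_and_monic hlifts hmonic
  refine ⟨q', hq'monic, ?_⟩
  rw [Polynomial.eval₂_eq_eval_map, hq'q, Polynomial.eval_map]
  exact hroot

end S18_Val

end Fermat.Agent.S18
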