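import Mathlib
import Fermat.Agent.S18.Gauss
import Fermat.Agent.S18.LiftInt

/-!
# S18, package SEMI (helper16), part 4: bridges

* `S18_Gauss.toVal`: helper4's `S18_Gauss` gives an `S18_Val`;
* `IsCart.inv`: degree preservation for `x` gives degree preservation for `x⁻¹`;
* `IsCart.of_indep`, `IsCart.of_finrank`: numeric degree preservation
  (`[F : L(x)] ≤ n ≤ [Fk : k(red x)]`) gives `IsCart`.
-/

set_option autoImplicit false

open Polynomial IntermediateField

namespace Fermat.Agent.S18

variable {L F k Fk : Type*} [Field L] [Field F] [Algebra L F] [Field k] [Field Fk]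
  [Algebra k Fk]

/-- a Gauss datum is a valued function field. -/
def S18_Gauss.toVal (G : S18_Gauss L F k Fk) : S18_Val L F k Fk where
  A := G.A
  res := G.res
  res_surjective := G.res_surjective
  res_eq_zero_iff := G.res_eq_zero_iff
  O := G.O
  red := G.red
  red_surjective := G.red_surjective
  red_ne_zero_iff := G.red_ne_zero_iff
  algebraMap_mem_iff := G.algebraMap_mem_iff
  red_algebraMap := G.red_algebraMap

namespace S18_Val

variable {S : S18_Val L F k Fk}

/-- the family `x^j y_i` has independent reductions (from the independence over `k[red x]`). -/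
theorem linearIndependent_cartFam_of_indep {x : S.O} {n : ℕ} {y : Fin n → S.O}
    (hind : ∀ p : Fin n → k[X], ∑ i, aeval (S.red x) (p i) * S.red (y i) = 0 → ∀ i, p i = 0)
    (m : ℕ) : LinearIndependent k (fun ij => S.red (cartFam x y m ij)) := by
  classical
  rw [Fintype.linearIndependent_iff]
  intro γ hγ ij₀
  have h1 : ∑ i, aeval (S.red x) (∑ j : Fin m, C (γ (i, j)) * X ^ (j : ℕ)) * S.red (y i) = 0 := by
    rw [← hγ, Fintype.sum_prod_type]
    refine Finset.sum_congr rfl fun i _ => ?_
    rw [map_sum, Finset.sum_mul]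
    refine Finset.sum_congr rfl fun j _ => ?_
    simp only [cartFam, map_mul, aeval_C, map_pow, aeval_X, Algebra.smul_def]
    ring
  have h2 := hind _ h1 ij₀.1
  have h3 := congrArg (fun p => p.coeff (ij₀.2 : ℕ)) h2
  simp only [finsetSum_coeff, coeff_C_mul, coeff_X_pow, coeff_zero] at h3
  rw [Finset.sum_eq_single ij₀.2] at h3
  · simpa using h3
  · intro j _ hj
    have : ((ij₀.2 : Fin m) : ℕ) ≠ (j : ℕ) := fun h => hj (Fin.ext h.symm)
    simp [this]
  · intro h
    exact absurd (Finset.mem_univ _) h

/-- polynomial relations between the `y_i` are trivial. -/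
theorem eq_zero_of_sum_aeval_eq_zero {x : S.O} {n : ℕ} {y : Fin n → S.O}
    (hind : ∀ p : Fin n → k[X], ∑ i, aeval (S.red x) (p i) * S.red (y i) = 0 → ∀ i, p i = 0)
    (R : Fin n → L[X]) (hR : ∑ i, aeval (x : F) (R i) * (y i : F) = 0) : ∀ i, R i = 0 := by
  classical
  set m : ℕ := (Finset.univ.sup fun i => (R i).natDegree) + 1 with hm
  have hRm : ∀ i, (R i).natDegree < m := fun i => by
    rw [hm, Nat.lt_succ_iff]
    exact Finset.le_sup (f := fun i => (R i).natDegree) (Finset.mem_univ i)
  have hLI := S.linearIndependent_of_red (cartFam x y m)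
    (linearIndependent_cartFam_of_indep hind m)
  rw [Fintype.linearIndependent_iff] at hLI
  have h1 : ∑ ij : Fin n × Fin m, (R ij.1).coeff ij.2 • ((cartFam x y m ij : S.O) : F) = 0 := by
    rw [← hR, Fintype.sum_prod_type]
    refine Finset.sum_congr rfl fun i _ => ?_
    rw [aeval_eq_sum_range' (hRm i), Finset.sum_range, Finset.sum_mul]
    refine Finset.sum_congr rfl fun j _ => ?_
    simp only [cartFam, Algebra.smul_def]
    push_cast
    ring
  have h2 := hLI (fun ij => (R ij.1).coeff ij.2) h1
  intro i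
  ext j
  rw [coeff_zero]
  by_cases hj : j < m
  · exact h2 (i, ⟨j, hj⟩)
  · exact coeff_eq_zero_of_natDegree_lt (lt_of_lt_of_le (hRm i) (not_lt.mp hj))

/-- `x` is a unit of `O` under degree preservation. -/
theorem IsCart.isUnit_x {x : S.O} {n : ℕ} {y : Fin n → S.O} (hC : S.IsCart x y) : IsUnit x := by
  refine (S.red_ne_zero_iff x).mp fun h0 => ?_
  have := (transcendental_iff.mp hC.transc) X (by rw [aeval_X, h0])
  exact X_ne_zero this

/-- **degree preservation for `x⁻¹`**. -/
theorem IsCart.inv {x : S.O} {n : ℕ} {y : Fin n → S.O} (hC : S.IsCart x y) (x' : S.O)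
    (hx' : x' * x = 1) : S.IsCart x' y := by
  classical
  have h1 : (x' : F) * (x : F) = 1 := by
    have := congrArg (fun z : S.O => (z : F)) hx'
    simpa using this
  have h1k : S.red x' * S.red x = 1 := by rw [← map_mul, hx', map_one]
  refine ⟨?_, ?_, ?_⟩
  · -- transcendence
    intro halg
    apply hC.transc
    have h2 : S.red x = (S.red x')⁻¹ := by
      rw [eq_comm, inv_eq_iff_eq_inv]
      exact eq_inv_of_mul_eq_one_left h1k
    rw [h2]
    exact halg.inv
  · intro f
    obtain ⟨d, p, hd0, hdp⟩ := hC.span f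
    set M : ℕ := max d.natDegree (Finset.univ.sup fun i => (p i).natDegree) with hM
    have hdM : d.natDegree ≤ M := le_max_left _ _
    have hpM : ∀ i, (p i).natDegree ≤ M := fun i =>
      (Finset.le_sup (f := fun i => (p i).natDegree) (Finset.mem_univ i)).trans (le_max_right _ _)
    let _ : Invertible (x : F) := ⟨(x' : F), h1, by rw [mul_comm]; exact h1⟩
    have hinv : ⅟(x : F) = (x' : F) := rfl
    have key : ∀ q : L[X], q.natDegree ≤ M →
        aeval (x' : F) (reflect M q) = (x' : F) ^ M * aeval (x : F) q := by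
      intro q hq
      have h2 := eval₂_reflect_mul_pow (algebraMap L F) (x : F) M q hq
      rw [hinv] at h2
      rw [aeval_def, aeval_def, ← h2, mul_comm, mul_assoc, ← mul_pow, mul_comm (x : F), h1,
        one_pow, mul_one]
    refine ⟨reflect M d, fun i => reflect M (p i), ?_, ?_⟩
    · rwa [Ne, reflect_eq_zero_iff]
    · rw [key d hdM, mul_assoc, hdp, Finset.mul_sum]
      refine Finset.sum_congr rfl fun i _ => ?_
      rw [key (p i) (hpM i), mul_assoc]
  · intro p hp
    set M : ℕ := Finset.univ.sup fun i => (p i).natDegree with hM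
    have hpM : ∀ i, (p i).natDegree ≤ M := fun i =>
      Finset.le_sup (f := fun i => (p i).natDegree) (Finset.mem_univ i)
    let _ : Invertible (S.red x') := ⟨S.red x, by rw [mul_comm]; exact h1k, h1k⟩
    have hinv : ⅟(S.red x') = S.red x := rfl
    have key : ∀ q : k[X], q.natDegree ≤ M →
        aeval (S.red x) (reflect M q) = (S.red x) ^ M * aeval (S.red x') q := by
      intro q hq
      have h2 := eval₂_reflect_mul_pow (algebraMap k Fk) (S.red x') M q hq
      rw [hinv] at h2
      rw [aeval_def, aeval_def, ← h2, mul_comm, mul_assoc, ← mul_pow, h1k, one_pow, mul_one]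
    have h3 : ∑ i, aeval (S.red x) (reflect M (p i)) * S.red (y i) = 0 := by
      have : ∑ i, aeval (S.red x) (reflect M (p i)) * S.red (y i) =
          (S.red x) ^ M * ∑ i, aeval (S.red x') (p i) * S.red (y i) := by
        rw [Finset.mul_sum]
        refine Finset.sum_congr rfl fun i _ => ?_
        rw [key (p i) (hpM i), mul_assoc]
      rw [this, hp, mul_zero]
    intro i
    have := hC.indep _ h3 i
    rwa [reflect_eq_zero_iff] at this

/-- **numeric degree preservation ⇒ `IsCart`**, with prescribed reductions. -/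
theorem IsCart.of_indep (S : S18_Val L F k Fk) (x : S.O) (hx : Transcendental k (S.red x))
    {n : ℕ} [FiniteDimensional L⟮(x : F)⟯ F] (hn : Module.finrank L⟮(x : F)⟯ F ≤ n)
    (y : Fin n → S.O)
    (hind : ∀ p : Fin n → k[X], ∑ i, aeval (S.red x) (p i) * S.red (y i) = 0 → ∀ i, p i = 0) :
    S.IsCart x y := by
  classical
  refine ⟨hx, ?_, hind⟩
  -- the `y i` are independent over `L(x)`
  have hrepr : ∀ g : L⟮(x : F)⟯, ∃ P Q : L[X], aeval (x : F) Q ≠ 0 ∧
      (g : F) = aeval (x : F) P / aeval (x : F) Q := by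
    intro g
    obtain ⟨P, Q, hPQ⟩ := (mem_adjoin_simple_iff L (g : F)).mp g.2
    by_cases hQ : aeval (x : F) Q = 0
    · refine ⟨0, 1, by simp, ?_⟩
      rw [hPQ, hQ, div_zero, map_zero, zero_div]
    · exact ⟨P, Q, hQ, hPQ⟩
  have hLI : LinearIndependent L⟮(x : F)⟯ (fun i => (y i : F)) := by
    rw [Fintype.linearIndependent_iff]
    intro g hg
    choose P Q hQ hPQ using fun i => hrepr (g i)
    have h1 : ∑ i, aeval (x : F) (P i * ∏ j ∈ Finset.univ.erase i, Q j) * (y i : F) = 0 := by
      have h2 : ∀ i, aeval (x : F) (P i * ∏ j ∈ Finset.univ.erase i, Q j) * (y i : F) =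
          aeval (x : F) (∏ j, Q j) * (g i • (y i : F)) := by
        intro i
        rw [← Finset.mul_prod_erase Finset.univ Q (Finset.mem_univ i), map_mul, map_mul,
          IntermediateField.smul_def, smul_eq_mul, hPQ i]
        field_simp [hQ i]
      rw [Finset.sum_congr rfl fun i _ => h2 i, ← Finset.mul_sum, hg, mul_zero]
    have h3 := eq_zero_of_sum_aeval_eq_zero hind _ h1
    intro i
    have h4 : P i = 0 := by
      rcases mul_eq_zero.mp (h3 i) with h | h
      · exact h
      · exfalso
        rw [Finset.prod_eq_zero_iff] at h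
        obtain ⟨j, -, hj⟩ := h
        exact hQ j (by rw [hj, map_zero])
    apply Subtype.ext
    rw [hPQ i, h4, map_zero, zero_div]
    rfl
  have hcard : Fintype.card (Fin n) = Module.finrank L⟮(x : F)⟯ F := by
    refine le_antisymm ?_ (by simpa using hn)
    exact hLI.fintype_card_le_finrank
  have hspan := hLI.span_eq_top_of_card_eq_finrank' hcard
  intro f
  have hf : f ∈ Submodule.span L⟮(x : F)⟯ (Set.range fun i => (y i : F)) := by
    rw [hspan]; trivial
  rw [Submodule.mem_span_range_iff_exists_fun] at hf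
  obtain ⟨g, hg⟩ := hf
  choose P Q hQ hPQ using fun i => hrepr (g i)
  refine ⟨∏ j, Q j, fun i => P i * ∏ j ∈ Finset.univ.erase i, Q j, ?_, ?_⟩
  · rw [Finset.prod_ne_zero_iff]
    intro j _ hj
    exact hQ j (by rw [hj, map_zero])
  · rw [← hg, Finset.mul_sum]
    refine Finset.sum_congr rfl fun i _ => ?_
    rw [← Finset.mul_prod_erase Finset.univ Q (Finset.mem_univ i), map_mul, map_mul,
      IntermediateField.smul_def, smul_eq_mul, hPQ i]
    field_simp [hQ i]

/-- **numeric degree preservation ⇒ `IsCart`**: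
if `[F : L(x)] ≤ n ≤ [Fk : k(red x)]` then there is an orthonormal basis. -/
theorem IsCart.of_finrank (S : S18_Val L F k Fk) (x : S.O) (hx : Transcendental k (S.red x))
    (n : ℕ) [FiniteDimensional L⟮(x : F)⟯ F] (hn : Module.finrank L⟮(x : F)⟯ F ≤ n)
    (hnk : n ≤ Module.finrank k⟮S.red x⟯ Fk) :
    ∃ y : Fin n → S.O, S.IsCart x y := by
  classical
  obtain ⟨ybar, hybar⟩ := exists_linearIndependent_of_le_finrank hnk
  choose y hy using fun i => S.red_surjective (ybar i)
  refine ⟨y, IsCart.of_indep S x hx hn y ?_⟩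
  intro p hp
  rw [Fintype.linearIndependent_iff] at hybar
  have h1 : ∀ q : k[X], aeval (S.red x) q ∈ k⟮S.red x⟯ := by
    intro q
    have : aeval (S.red x) q ∈ Algebra.adjoin k {S.red x} := by
      rw [Algebra.adjoin_singleton_eq_range_aeval]
      exact ⟨q, rfl⟩
    exact algebra_adjoin_le_adjoin k _ this
  have h2 := hybar (fun i => ⟨aeval (S.red x) (p i), h1 _⟩) (by
    rw [← hp]
    refine Finset.sum_congr rfl fun i _ => ?_
    rw [IntermediateField.smul_def, smul_eq_mul, hy i])
  intro i
  have h3 := congrArg (fun z : k⟮S.red x⟯ => (z : Fk)) (h2 i)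
  exact (transcendental_iff.mp hx) _ h3

end S18_Val

end Fermat.Agent.S18
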