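import Mathlib
import Fermat.Agent.Lib.RiemannThm
import Fermat.Agent.S18.LiftVal
import Fermat.Agent.S24.GlobalA
import Fermat.Agent.S24.LocalRing

/-!
# S18, package SEMI (helper25): Deuring's genus inequality, assembly

`S : S18_Val L F k Fk` a valued function field (Gauss valuation ring `O ⊂ F`, residue map
`red : O → Fk`), `x ∈ O` with `red x ≠ 0`.  Under the hypotheses `S18_Val.SemiHyp S x`
(delivered by package L of helper16: the lattice lemma L1 and the integrality lemma INT, and by
package P0: "regular where `x` is regular ⇒ integral over `L[x]`"):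

* `S18_semi_red_mem`  : `f ∈ L(m (x)_∞) ∩ O ⇒ red f ∈ L_k(m (red x)_∞)`;
* `S18_semi_genus_le` : **Deuring**  `RR_genus k Fk ≤ RR_genus L F`;
* `S18_semi_onto`     : if also `RR_genus L F ≤ RR_genus k Fk`, then
  `red : L(m (x)_∞) ∩ O → L_k(m (red x)_∞)` is onto for `m ≫ 0`;
* `S18_semi_onto_integral` : in that case every element of `Fk` that is regular where `red x`
  is regular is the reduction of an element of `O` that is regular where `x` is regular.
-/

set_option autoImplicit false

open AlgebraicCurve IntermediateField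

namespace Fermat.Agent.S18

open Fermat.Agent.Lib Fermat.Agent.S24

variable {L F k Fk : Type*} [Field L] [Field F] [Algebra L F] [Field k] [Field Fk]
  [Algebra k Fk]

/-- the inputs of SEMI for the function `x`. -/
structure S18_Val.SemiHyp (S : S18_Val L F k Fk) (x : S.O) : Prop where
  /-- `x` has Gauss norm one -/
  red_ne : S.red x ≠ 0
  /-- INT for `x` -/
  int : ∀ z : S.O, IsIntegral (Algebra.adjoin L ({(x : F)} : Set F)) (z : F) →
    IsIntegral (Algebra.adjoin k ({S.red x} : Set Fk)) (S.red z)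
  /-- INT for `x⁻¹` -/
  int_inv : ∀ z : S.O, IsIntegral (Algebra.adjoin L ({(x : F)⁻¹} : Set F)) (z : F) →
    IsIntegral (Algebra.adjoin k ({(S.red x)⁻¹} : Set Fk)) (S.red z)
  /-- P0 for `x`: regular where `x` is regular ⇒ integral over `L[x]` -/
  reg : ∀ f : F, (∀ P : Place L F, 0 ≤ P.ord (x : F) → 0 ≤ P.ord f) →
    IsIntegral (Algebra.adjoin L ({(x : F)} : Set F)) f
  /-- P0 for `x⁻¹` -/
  reg_inv : ∀ f : F, (∀ P : Place L F, P.ord (x : F) ≤ 0 → 0 ≤ P.ord f) →
    IsIntegral (Algebra.adjoin L ({(x : F)⁻¹} : Set F)) f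
  /-- the lattice lemma L1 (the nontrivial inequality) -/
  lattice : ∀ V : Submodule L F, FiniteDimensional L V →
    Module.finrank L V ≤ Module.finrank k (S.redSub V)

section Basic

variable (S : S18_Val L F k Fk)

theorem S18_semi_nsmul_apply {K E : Type*} [Field K] [Field E] [Algebra K E]
    (m : ℕ) (D : Divisor K E) (v : Place K E) : (m • D) v = (m : ℤ) * D v := by
  rw [Finsupp.smul_apply, nsmul_eq_mul]

theorem S18_semi_ord_mul_inv_pow {K E : Type*} [Field K] [Field E] [Algebra K E]
    (v : Place K E) {f x : E} (hf : f ≠ 0) (hx : x ≠ 0) (m : ℕ) :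
    v.ord (f * x⁻¹ ^ m) = v.ord f - (m : ℤ) * v.ord x := by
  have hxm : x⁻¹ ^ m ≠ 0 := pow_ne_zero _ (inv_ne_zero hx)
  rw [v.ord_mul hf hxm, ← zpow_natCast, v.ord_zpow, v.ord_inv]
  ring

end Basic

section RedMem

variable (S : S18_Val L F k Fk) {x : S.O} (h : S.SemiHyp x)
  (hP : HasPrincipalDivisors L F) (hPk : HasPrincipalDivisors k Fk)

include h

/-- **SEMI (i)**: `red` maps `L(m (x)_∞) ∩ O` into `L_k(m (red x)_∞)`. -/
theorem S18_semi_red_mem (m : ℕ) (f : S.O)
    (hf : (f : F) ∈ riemannRochSpace (m • RR_poleDiv hP (x : F))) :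
    S.red f ∈ riemannRochSpace (m • RR_poleDiv hPk (S.red x)) := by
  rw [mem_riemannRochSpace_iff] at hf ⊢
  -- `x` is a unit of `O`
  have hxu : IsUnit x := (S.red_ne_zero_iff x).1 h.red_ne
  obtain ⟨xu, hxu'⟩ := hxu
  have hx0 : (x : F) ≠ 0 := by
    intro h0
    apply h.red_ne
    have : x = 0 := Subtype.ext h0
    rw [this, map_zero]
  have hxinv : ((xu⁻¹ : S.Oˣ) : S.O) * x = 1 := by rw [← hxu']; exact xu.inv_mul
  have hxinvF : (((xu⁻¹ : S.Oˣ) : S.O) : F) = (x : F)⁻¹ := by
    have h1 : (((xu⁻¹ : S.Oˣ) : S.O) : F) * (x : F) = 1 := by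
      exact_mod_cast congrArg (fun z : S.O => (z : F)) hxinv
    exact eq_inv_of_mul_eq_one_left h1
  have hredinv : S.red ((xu⁻¹ : S.Oˣ) : S.O) = (S.red x)⁻¹ := by
    have h1 := congrArg S.red hxinv
    rw [map_mul, map_one] at h1
    exact eq_inv_of_mul_eq_one_left h1
  intro Q
  by_cases hrf : S.red f = 0
  · exact Or.inl hrf
  right
  have hf0 : (f : F) ≠ 0 := by
    intro h0
    apply hrf
    have : f = 0 := Subtype.ext h0
    rw [this, map_zero]
  have hford : ∀ P : Place L F, -((m • RR_poleDiv hP (x : F)) P) ≤ P.ord (f : F) :=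
    fun P => (hf P).resolve_left hf0
  rw [S18_semi_nsmul_apply, RR_poleDiv_apply]
  rcases le_or_gt 0 (Q.ord (S.red x)) with hQ | hQ
  · -- `red x` regular at `Q`
    have hint : IsIntegral (Algebra.adjoin L ({(x : F)} : Set F)) (f : F) := by
      apply h.reg
      intro P hPx
      have := hford P
      rw [S18_semi_nsmul_apply, RR_poleDiv_apply, max_eq_right (by omega)] at this
      simpa using this
    have hint' := h.int f hint
    have hxQ : S.red x ∈ Q.toValuationSubring := (BG_mem_iff_ord_nonneg Q h.red_ne).2 hQ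
    have hmem := BL_mem_of_isIntegral Q hxQ hint'
    have := (BG_mem_iff_ord_nonneg Q hrf).1 hmem
    rw [max_eq_right (by omega)]
    simpa using this
  · -- `red x` has a pole at `Q`
    set g : S.O := f * ((xu⁻¹ : S.Oˣ) : S.O) ^ m with hg
    have hgF : (g : F) = (f : F) * (x : F)⁻¹ ^ m := by
      rw [hg]
      push_cast
      rw [hxinvF]
    have hgred : S.red g = S.red f * (S.red x)⁻¹ ^ m := by
      rw [hg, map_mul, map_pow, hredinv]
    have hint : IsIntegral (Algebra.adjoin L ({(x : F)⁻¹} : Set F)) (g : F) := by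
      apply h.reg_inv
      intro P hPx
      rw [hgF, S18_semi_ord_mul_inv_pow P hf0 hx0]
      have := hford P
      rw [S18_semi_nsmul_apply, RR_poleDiv_apply, max_eq_left (by omega)] at this
      linarith
    have hint' := h.int_inv g hint
    have hxinv0 : (S.red x)⁻¹ ≠ 0 := inv_ne_zero h.red_ne
    have hxQ : (S.red x)⁻¹ ∈ Q.toValuationSubring := by
      rw [BG_mem_iff_ord_nonneg Q hxinv0, Q.ord_inv]
      omega
    have hmem := BL_mem_of_isIntegral Q hxQ hint'
    have hg0 : S.red g ≠ 0 := by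
      rw [hgred]
      exact mul_ne_zero hrf (pow_ne_zero _ hxinv0)
    have := (BG_mem_iff_ord_nonneg Q hg0).1 hmem
    rw [hgred, S18_semi_ord_mul_inv_pow Q hrf h.red_ne] at this
    rw [max_eq_left (by omega)]
    linarith

/-- **SEMI (i)**, submodule form. -/
theorem S18_semi_redSub_le (m : ℕ) :
    S.redSub (riemannRochSpace (m • RR_poleDiv hP (x : F))) ≤
      riemannRochSpace (m • RR_poleDiv hPk (S.red x)) := by
  rintro y ⟨f, hf, rfl⟩
  exact S18_semi_red_mem S h hP hPk m f hf

end RedMem

section Genus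

variable (S : S18_Val L F k Fk) {x : S.O} (h : S.SemiHyp x)
  (hF : RR_Hyp L F) (hFk : RR_Hyp k Fk)

include h

/-- the chain of inequalities behind Deuring's theorem. -/
theorem S18_semi_finrank_le (m : ℕ) :
    Module.finrank L (riemannRochSpace (m • RR_poleDiv hF.principal (x : F))) ≤
      Module.finrank k (riemannRochSpace (m • RR_poleDiv hFk.principal (S.red x))) := by
  have hfin : FiniteDimensional L (riemannRochSpace (m • RR_poleDiv hF.principal (x : F))) :=
    RR_finite hF _
  have hfink : FiniteDimensional k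
      (riemannRochSpace (m • RR_poleDiv hFk.principal (S.red x))) := RR_finite hFk _
  exact (h.lattice _ hfin).trans
    (Submodule.finrank_mono (S18_semi_redSub_le S h hF.principal hFk.principal m))

/-- **SEMI (ii), Deuring's inequality**: the genus does not go up under reduction. -/
theorem S18_semi_genus_le
    (hdeg : (RR_poleDiv hFk.principal (S.red x)).degree ≤ (RR_poleDiv hF.principal (x : F)).degree)
    (hpos : 0 < (RR_poleDiv hFk.principal (S.red x)).degree) :
    RR_genus k Fk ≤ RR_genus L F := by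
  obtain ⟨c, hc⟩ := RR_riemann_eq hFk
  set Dk := RR_poleDiv hFk.principal (S.red x) with hDk
  set D := RR_poleDiv hF.principal (x : F) with hD
  set m : ℕ := c.toNat with hm
  have hmc : c ≤ (m : ℤ) := Int.self_le_toNat c
  have hdegm : ((m • Dk : Divisor k Fk)).degree = (m : ℤ) * Dk.degree := by
    rw [map_nsmul, nsmul_eq_mul]
  have hdegm' : ((m • D : Divisor L F)).degree = (m : ℤ) * D.degree := by
    rw [map_nsmul, nsmul_eq_mul]
  have h1 := hc (m • Dk) (by
    rw [hdegm]
    have : (m : ℤ) * 1 ≤ (m : ℤ) * Dk.degree :=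
      mul_le_mul_of_nonneg_left (by omega) (by positivity)
    linarith)
  have h2 := RR_riemann_ineq hF (m • D)
  have h3 := S18_semi_finrank_le S h hF hFk m
  have h3' : (Module.finrank L (riemannRochSpace (m • D)) : ℤ) ≤
      Module.finrank k (riemannRochSpace (m • Dk)) := by exact_mod_cast h3
  rw [hdegm] at h1
  rw [hdegm'] at h2
  have h4 : (m : ℤ) * Dk.degree ≤ (m : ℤ) * D.degree :=
    mul_le_mul_of_nonneg_left hdeg (by positivity)
  have : (RR_genus k Fk : ℤ) ≤ RR_genus L F := by linarith
  exact_mod_cast this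

/-- **SEMI (iii)**: in the equality case `red : L(m (x)_∞) ∩ O → L_k(m (red x)_∞)` is onto for
`m ≫ 0`. -/
theorem S18_semi_onto
    (hdeg : (RR_poleDiv hFk.principal (S.red x)).degree ≤ (RR_poleDiv hF.principal (x : F)).degree)
    (hpos : 0 < (RR_poleDiv hFk.principal (S.red x)).degree)
    (hg : RR_genus L F ≤ RR_genus k Fk) :
    ∃ m₀ : ℕ, ∀ m : ℕ, m₀ ≤ m →
      ∀ y ∈ riemannRochSpace (m • RR_poleDiv hFk.principal (S.red x)),
        ∃ f : S.O, (f : F) ∈ riemannRochSpace (m • RR_poleDiv hF.principal (x : F)) ∧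
          S.red f = y := by
  obtain ⟨c, hc⟩ := RR_riemann_eq hFk
  set Dk := RR_poleDiv hFk.principal (S.red x) with hDk
  set D := RR_poleDiv hF.principal (x : F) with hD
  refine ⟨c.toNat, fun m hm y hy => ?_⟩
  have hmc : c ≤ (m : ℤ) := (Int.self_le_toNat c).trans (by exact_mod_cast hm)
  have hdegm : ((m • Dk : Divisor k Fk)).degree = (m : ℤ) * Dk.degree := by
    rw [map_nsmul, nsmul_eq_mul]
  have hdegm' : ((m • D : Divisor L F)).degree = (m : ℤ) * D.degree := by
    rw [map_nsmul, nsmul_eq_mul]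
  have h1 := hc (m • Dk) (by
    rw [hdegm]
    have : (m : ℤ) * 1 ≤ (m : ℤ) * Dk.degree :=
      mul_le_mul_of_nonneg_left (by omega) (by positivity)
    linarith)
  have h2 := RR_riemann_ineq hF (m • D)
  rw [hdegm] at h1
  rw [hdegm'] at h2
  have h4 : (m : ℤ) * Dk.degree ≤ (m : ℤ) * D.degree :=
    mul_le_mul_of_nonneg_left hdeg (by positivity)
  have hfin : FiniteDimensional L (riemannRochSpace (m • D)) := RR_finite hF _
  have hfink : FiniteDimensional k (riemannRochSpace (m • Dk)) := RR_finite hFk _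
  have h5 := h.lattice _ hfin
  have h5' : (Module.finrank L (riemannRochSpace (m • D)) : ℤ) ≤
      Module.finrank k (S.redSub (riemannRochSpace (m • D))) := by exact_mod_cast h5
  have hle := S18_semi_redSub_le S h hF.principal hFk.principal m
  have hg' : (RR_genus L F : ℤ) ≤ RR_genus k Fk := by exact_mod_cast hg
  have h6 : Module.finrank k (riemannRochSpace (m • Dk)) ≤
      Module.finrank k (S.redSub (riemannRochSpace (m • D))) := by
    have : (Module.finrank k (riemannRochSpace (m • Dk)) : ℤ) ≤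
        Module.finrank k (S.redSub (riemannRochSpace (m • D))) := by linarith
    exact_mod_cast this
  have heq : S.redSub (riemannRochSpace (m • D)) = riemannRochSpace (m • Dk) :=
    Submodule.eq_of_le_of_finrank_le hle h6
  have hy' : y ∈ S.redSub (riemannRochSpace (m • D)) := heq ▸ hy
  obtain ⟨f, hf, hfy⟩ := hy'
  exact ⟨f, hf, hfy⟩

/-- **Step 2 (ONTO)**: in the equality case every element of `Fk` that is regular where `red x`
is regular lifts to an element of `O` that is regular where `x` is regular. -/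
theorem S18_semi_onto_integral
    (hdeg : (RR_poleDiv hFk.principal (S.red x)).degree ≤ (RR_poleDiv hF.principal (x : F)).degree)
    (hpos : 0 < (RR_poleDiv hFk.principal (S.red x)).degree)
    (hg : RR_genus L F ≤ RR_genus k Fk)
    (y : Fk) (hy : ∀ Q : Place k Fk, 0 ≤ Q.ord (S.red x) → 0 ≤ Q.ord y) :
    ∃ f : S.O, (∀ P : Place L F, 0 ≤ P.ord (x : F) → 0 ≤ P.ord (f : F)) ∧ S.red f = y := by
  classical
  obtain ⟨m₀, hm₀⟩ := S18_semi_onto S h hF hFk hdeg hpos hg
  set Dk := RR_poleDiv hFk.principal (S.red x) with hDk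
  -- a bound for the pole orders of `y`
  set m₁ : ℕ := ∑ Q ∈ Dk.support, (-(Q.ord y)).toNat with hm₁
  set m : ℕ := m₀ + m₁ with hm
  have hym : y ∈ riemannRochSpace (m • Dk) := by
    rw [mem_riemannRochSpace_iff]
    intro Q
    right
    rw [S18_semi_nsmul_apply, hDk, RR_poleDiv_apply]
    rcases le_or_gt 0 (Q.ord (S.red x)) with hQ | hQ
    · have := hy Q hQ
      rw [max_eq_right (by omega)]
      simpa using this
    · rw [max_eq_left (by omega)]
      have hQs : Q ∈ Dk.support := by
        rw [Finsupp.mem_support_iff, hDk, RR_poleDiv_apply, max_eq_left (by omega)]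
        omega
      have h1 : (-(Q.ord y)).toNat ≤ m₁ :=
        Finset.single_le_sum (f := fun Q => (-(Q.ord y)).toNat) (fun _ _ => Nat.zero_le _) hQs
      have h2 : -(Q.ord y) ≤ ((-(Q.ord y)).toNat : ℤ) := Int.self_le_toNat _
      have h3 : ((-(Q.ord y)).toNat : ℤ) ≤ (m : ℤ) := by
        have : (m₁ : ℤ) ≤ m := by rw [hm]; push_cast; omega
        exact (by exact_mod_cast h1 : ((-(Q.ord y)).toNat : ℤ) ≤ (m₁ : ℤ)).trans this
      have h4 : (m : ℤ) * 1 ≤ (m : ℤ) * (-(Q.ord (S.red x))) :=
        mul_le_mul_of_nonneg_left (by omega) (by positivity)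
      linarith
  obtain ⟨f, hf, hfy⟩ := hm₀ m (by omega) y hym
  refine ⟨f, fun P hPx => ?_, hfy⟩
  rw [mem_riemannRochSpace_iff] at hf
  rcases hf P with h0 | h0
  · rw [h0, Place.ord_zero]
  · rw [S18_semi_nsmul_apply, RR_poleDiv_apply, max_eq_right (by omega)] at h0
    simpa using h0

end Genus

end Fermat.Agent.S18
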