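import Mathlib
import Fermat.Agent.Lib.FFSep
import Fermat.Agent.S18.Semi
import Fermat.Agent.S18.LiftMore

/-!
# S18, package SEMI (helper25): the inputs of `S18_Val.SemiHyp`

* `S18_semi_isIntegral_of_regular` (P0): for `x` transcendental, `F / K(x)` finite separable:
  a function that is regular wherever `x` is regular is integral over `K[x]`;
* `S18_semi_isIntegral_of_regular_inv`: the same at infinity;
* `S18_Val.IsCart.semiHyp`: `S.SemiHyp x` from helper16's `S.IsCart x y`.
-/

set_option autoImplicit false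

open AlgebraicCurve IntermediateField IsDedekindDomain
open scoped IntermediateField.algebraAdjoinAdjoin

universe u v

namespace Fermat.Agent.S18

open Fermat.Agent.Lib Fermat.Agent.S24

section P0

variable {K : Type u} {F : Type v} [Field K] [Field F] [Algebra K F]

/-- **P0**: regular where `x` is regular ⇒ integral over `K[x]`. -/
theorem S18_semi_isIntegral_of_regular {x : F} (hx : Transcendental K x)
    [FiniteDimensional K⟮x⟯ F] [Algebra.IsSeparable K⟮x⟯ F] (f : F)
    (hf : ∀ P : Place K F, 0 ≤ P.ord x → 0 ≤ P.ord f) :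
    IsIntegral (Algebra.adjoin K ({x} : Set F)) f := by
  have := FFS_isDedekindDomain hx
  have := BG_isFractionRing (K := K) (x := x)
  rcases eq_or_ne f 0 with rfl | hf0
  · exact isIntegral_zero
  have hx0 : x ≠ 0 := fun h => hx (h ▸ isAlgebraic_zero)
  have hxint : IsIntegral (Algebra.adjoin K ({x} : Set F)) x :=
    (isIntegral_algebraMap (x := BL_gen (K := K) x))
  have key : ∀ w : HeightOneSpectrum (integralClosure (Algebra.adjoin K ({x} : Set F)) F),
      w.valuation F f ≤ 1 := by
    intro w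
    rw [← BG_mem_ofHeightOneSpectrum (K := K) w f, BG_mem_iff_ord_nonneg _ hf0]
    apply hf
    rw [← BG_mem_iff_ord_nonneg _ hx0, BG_mem_ofHeightOneSpectrum (K := K) w x]
    exact w.valuation_le_one (⟨x, hxint⟩ : integralClosure (Algebra.adjoin K ({x} : Set F)) F)
  obtain ⟨b, hb⟩ := HeightOneSpectrum.mem_integers_of_valuation_le_one F f key
  rw [← hb]
  exact b.2

/-- **P0 at infinity**: regular where `x⁻¹` is regular ⇒ integral over `K[x⁻¹]`. -/
theorem S18_semi_isIntegral_of_regular_inv {x : F} (hx : Transcendental K x)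
    [FiniteDimensional K⟮x⟯ F] [Algebra.IsSeparable K⟮x⟯ F] (f : F)
    (hf : ∀ P : Place K F, P.ord x ≤ 0 → 0 ≤ P.ord f) :
    IsIntegral (Algebra.adjoin K ({x⁻¹} : Set F)) f := by
  have hxi : Transcendental K x⁻¹ := BG_transcendental_inv hx
  have e : K⟮x⁻¹⟯ = K⟮x⟯ := BG_adjoin_inv x
  have hfin : FiniteDimensional K⟮x⁻¹⟯ F := e ▸ (inferInstance : FiniteDimensional K⟮x⟯ F)
  have hsep : Algebra.IsSeparable K⟮x⁻¹⟯ F := e ▸ (inferInstance : Algebra.IsSeparable K⟮x⟯ F)
  apply S18_semi_isIntegral_of_regular hxi f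
  intro P hP
  apply hf
  rw [P.ord_inv] at hP
  omega

end P0

section Constructor

variable {L F k Fk : Type*} [Field L] [Field F] [Algebra L F] [Field k] [Field Fk]
  [Algebra k Fk]

/-- **the inputs of SEMI from degree preservation**: if `(x, y)` is cartesian (helper16's
`IsCart`, i.e. `[F : L(x)] = [Fk : k(red x)]`) and `F / L(x)` is finite separable, then all
the hypotheses `SemiHyp` of the Deuring inequality hold. -/
theorem S18_Val.IsCart.semiHyp {S : S18_Val L F k Fk} {x : S.O} {n : ℕ} {y : Fin n → S.O}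
    (hC : S.IsCart x y) [FiniteDimensional L⟮(x : F)⟯ F] [Algebra.IsSeparable L⟮(x : F)⟯ F] :
    S.SemiHyp x := by
  have hxt : Transcendental L (x : F) := hC.transcendental_x
  obtain ⟨xu, hxu⟩ := hC.isUnit_x
  have hxinv : ((xu⁻¹ : S.Oˣ) : S.O) * x = 1 := by rw [← hxu]; exact xu.inv_mul
  have hxinvF : (((xu⁻¹ : S.Oˣ) : S.O) : F) = (x : F)⁻¹ := by
    have h1 : (((xu⁻¹ : S.Oˣ) : S.O) : F) * (x : F) = 1 := by
      exact_mod_cast congrArg (fun z : S.O => (z : F)) hxinv
    exact eq_inv_of_mul_eq_one_left h1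
  have hredinv : S.red ((xu⁻¹ : S.Oˣ) : S.O) = (S.red x)⁻¹ := by
    have h1 := congrArg S.red hxinv
    rw [map_mul, map_one] at h1
    exact eq_inv_of_mul_eq_one_left h1
  have hCi : S.IsCart ((xu⁻¹ : S.Oˣ) : S.O) y := hC.inv _ hxinv
  refine
    { red_ne := ?_
      int := fun z hz => hC.isIntegral_red z hz
      int_inv := ?_
      reg := fun f hf => S18_semi_isIntegral_of_regular hxt f hf
      reg_inv := fun f hf => S18_semi_isIntegral_of_regular_inv hxt f hf
      lattice := ?_ }
  · exact (S.red_ne_zero_iff x).2 hC.isUnit_x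
  · intro z hz
    have := hCi.isIntegral_red z (by rw [hxinvF]; exact hz)
    rwa [hredinv] at this
  · intro V hV
    exact (hC.finrank_redSub V).ge

end Constructor

end Fermat.Agent.S18
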