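import Mathlib
import Fermat.Agent.S18.Norm
import Fermat.Agent.S18.NormK
import Fermat.Agent.S18.SemiReg

/-!
# S18, package NORM (helper24), part 5: Step 3 assembled

`NM_step3`: for compatible Gauss data on `F ⊆ F'` with `[Fk':Fk] = [F':F]`, ONTO on `F'` in the
chart `j` gives, for every place `Q` of `Fk` at which `j̄ = red j` is regular, a function `n ∈ O`
which is regular wherever `j` is regular and whose reduction is a uniformizer at `Q`.
This is the hypothesis `hNORM` of `S18_Spec.LC_genus_le` (`S18/Loc.lean`).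
-/

set_option autoImplicit false

open AlgebraicCurve IntermediateField Module
open scoped IntermediateField.algebraAdjoinAdjoin

namespace Fermat.Agent.S18

open Fermat.Agent.S24

variable {L F k Fk F' Fk' : Type*} [Field L] [Field F] [Field k] [Field Fk] [Field F']
  [Field Fk'] [Algebra L F] [Algebra F F'] [Algebra L F'] [IsScalarTower L F F']
  [Algebra k Fk] [Algebra Fk Fk'] [Algebra k Fk'] [IsScalarTower k Fk Fk']
  [FiniteDimensional F F'] [FiniteDimensional Fk Fk'] [Algebra.IsSeparable Fk Fk']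
  {O : ValuationSubring F} {red : O →+* Fk} {O' : ValuationSubring F'} {red' : O' →+* Fk'}

/-- **NORM = Step 3.** -/
theorem NM_step3 [IsAlgClosed k] (hd : S18_NormData O red O' red')
    (hdeg : finrank Fk Fk' = finrank F F') (j : O)
    (hj' : Transcendental L (algebraMap F F' (j : F)))
    [FiniteDimensional L⟮algebraMap F F' (j : F)⟯ F']
    [Algebra.IsSeparable L⟮algebraMap F F' (j : F)⟯ F']
    (hFk' : S24_IsFunctionField1 k Fk')
    (hjk : Transcendental k (red j)) [FiniteDimensional k⟮red j⟯ Fk]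
    [Algebra.IsSeparable k⟮red j⟯ Fk]
    (hONTO : ∀ w : Fk',
      (∀ Q' : Place k Fk', 0 ≤ Q'.ord (algebraMap Fk Fk' (red j)) → 0 ≤ Q'.ord w) →
      ∃ f : O', (∀ P' : Place L F', 0 ≤ P'.ord (algebraMap F F' (j : F)) → 0 ≤ P'.ord (f : F')) ∧
        red' f = w)
    (Q : Place k Fk) (hQ : 0 ≤ Q.ord (red j)) :
    ∃ n : O, (∀ P : Place L F, 0 ≤ P.ord (j : F) → 0 ≤ P.ord (n : F)) ∧ Q.ord (red n) = 1 := by
  obtain ⟨w, hw, hwQ⟩ := NM_exists_k (K := k) (F := Fk) (F' := Fk') hFk' hjk Q hQ
  exact NM_norm hd hdeg j (fun f hf => S18_semi_isIntegral_of_regular hj' f hf) hONTO Q w hw hwQ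

end Fermat.Agent.S18
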