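import Mathlib
import Fermat.Agent.S18.NormStep
import Fermat.Agent.S18.AbhX0
import Fermat.Agent.S18.AsmHW

/-!
# S18, package NORM (helper24), part 6: the concrete NORM for `X₀(N)`

`F = ℚ̄(X₀(N))`, `F' = AX_FN N ℓ = F(μ)`, `E_k = AX_EN N A hgen ℓ` the residue field of the Gauss
valuation of `F'`.  Everything is **h-free**: only
`hgen : PrincipalGeneratedByIntegral A (residue A) N` is used.

* `NMX_normData` : the Gauss rings of `F ⊂ F'` form an `S18_NormData`.
* `NMX_norm_of_onto` : NORM (the hypothesis `hNORM` of `S18_asm_N`) from ONTO on `F'` in the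
  chart `j`, the degree equality `[E_k : F_k] = [F' : F]` and separability of `E_k / F_k`.
* `NMX_norm_specModL` : the same in the shape of `S18_asm_N` (for `h : ReductionInputsModL A N`).
-/

set_option autoImplicit false
set_option synthInstance.maxHeartbeats 400000
set_option maxHeartbeats 1000000

open HahnSeries IntermediateField AlgebraicCurve ModularCurve Module

namespace Fermat.Agent.S18

open Fermat.Agent.Lib Fermat.Agent.S24

variable (N : ℕ) [NeZero N] (A : ValuationSubring (AlgebraicClosure ℚ))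
  (hgen : PrincipalGeneratedByIntegral A (IsLocalRing.residue A) N) (ℓ : ℕ)

/-- the Gauss rings of `F ⊂ F'` form an `S18_NormData`. -/
theorem NMX_normData :
    S18_NormData (AX_G N A hgen).O (AX_G N A hgen).red (AX_GN N A hgen ℓ).O
      (AX_GN N A hgen ℓ).red where
  red_ne_zero_iff := (AX_G N A hgen).red_ne_zero_iff
  red'_surjective := (AX_GN N A hgen ℓ).red_surjective
  red'_ne_zero_iff := (AX_GN N A hgen ℓ).red_ne_zero_iff
  algebraMap_mem_iff x := GX_mem_O_iff (AX_G N A hgen) (AX_FN N ℓ) x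
  red'_algebraMap x _ := (GX_algebraMap_red (AX_G N A hgen) (AX_FN N ℓ) x).symm

/-- `red j = j̄`. -/
theorem NMX_red_jB :
    (AX_G N A hgen).red ⟨jB N, AX_jB_mem N A hgen⟩ = S18_jbar N (IsLocalRing.ResidueField A) :=
  Subtype.ext (AX_red_jB N A hgen)

variable {ℓ}

/-- **concrete NORM** from ONTO on `F'` in the chart `j`. -/
theorem NMX_norm_of_onto (hℓ : ℓ.Prime) (hℓN : ¬ ℓ ∣ N) (hA : A.LiesOverPrime ℓ)
    (hdeg : finrank ↥(modularFunctionFieldFullC (IsLocalRing.ResidueField A) N)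
      (AX_EN N A hgen ℓ) = finrank ↥(modularFunctionFieldBar N) (AX_FN N ℓ))
    (hsep : Algebra.IsSeparable ↥(modularFunctionFieldFullC (IsLocalRing.ResidueField A) N)
      (AX_EN N A hgen ℓ))
    (hEk : S24_IsFunctionField1 (IsLocalRing.ResidueField A) (AX_EN N A hgen ℓ))
    (hONTO : ∀ w : AX_EN N A hgen ℓ,
      (∀ Q' : Place (IsLocalRing.ResidueField A) (AX_EN N A hgen ℓ),
        0 ≤ Q'.ord (algebraMap ↥(modularFunctionFieldFullC (IsLocalRing.ResidueField A) N)
          (AX_EN N A hgen ℓ) (S18_jbar N (IsLocalRing.ResidueField A))) → 0 ≤ Q'.ord w) →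
      ∃ f : (AX_GN N A hgen ℓ).O,
        (∀ P' : Place (AlgebraicClosure ℚ) (AX_FN N ℓ),
          0 ≤ P'.ord (algebraMap ↥(modularFunctionFieldBar N) (AX_FN N ℓ) (jB N)) →
            0 ≤ P'.ord (f : AX_FN N ℓ)) ∧
        (AX_GN N A hgen ℓ).red f = w)
    (Q : Place (IsLocalRing.ResidueField A)
      ↥(modularFunctionFieldFullC (IsLocalRing.ResidueField A) N))
    (hQ : 0 ≤ Q.ord (S18_jbar N (IsLocalRing.ResidueField A))) :
    ∃ n : (AX_G N A hgen).O,
      (∀ P : Place (AlgebraicClosure ℚ) ↥(modularFunctionFieldBar N),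
        0 ≤ P.ord (jB N) → 0 ≤ P.ord (n : ↥(modularFunctionFieldBar N))) ∧
      Q.ord ((AX_G N A hgen).red n) = 1 := by
  have : IsAlgClosed (IsLocalRing.ResidueField A) := S18_residue_isAlgClosed A
  have : CharP (IsLocalRing.ResidueField A) ℓ := S18_residue_charP A ℓ hℓ hA
  have : Fact ℓ.Prime := ⟨hℓ⟩
  have hred := NMX_red_jB N A hgen
  -- instances on the `k`-side
  have hfk : FiniteDimensional
      (IsLocalRing.ResidueField A)⟮(AX_G N A hgen).red ⟨jB N, AX_jB_mem N A hgen⟩⟯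
      ↥(modularFunctionFieldFullC (IsLocalRing.ResidueField A) N) := by
    rw [hred]
    exact S18_finite_jbar N hℓ hℓN (S18_ψ A hℓ hA)
  have hsk : Algebra.IsSeparable
      (IsLocalRing.ResidueField A)⟮(AX_G N A hgen).red ⟨jB N, AX_jB_mem N A hgen⟩⟯
      ↥(modularFunctionFieldFullC (IsLocalRing.ResidueField A) N) := by
    rw [hred]
    exact S18_isSeparable_jbar N hℓN (S18_ψ A hℓ hA)
  have hjk : Transcendental (IsLocalRing.ResidueField A)
      ((AX_G N A hgen).red ⟨jB N, AX_jB_mem N A hgen⟩) := AX_red_jB_transcendental N A hgen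
  have hfinEk : FiniteDimensional ↥(modularFunctionFieldFullC (IsLocalRing.ResidueField A) N)
      (AX_EN N A hgen ℓ) := GX_finite (AX_G N A hgen) (AX_FN N ℓ)
  -- instances on the `ℚ̄`-side
  have hj' : Transcendental (AlgebraicClosure ℚ)
      (algebraMap ↥(modularFunctionFieldBar N) (AX_FN N ℓ) (jB N)) := by
    intro halg
    apply transcendental_jB N
    have h1 : (algebraMap ↥(modularFunctionFieldBar N) (AX_FN N ℓ) (jB N)) =
        (IsScalarTower.toAlgHom (AlgebraicClosure ℚ) ↥(modularFunctionFieldBar N)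
          (AX_FN N ℓ)) (jB N) := rfl
    rw [h1] at halg
    exact (isAlgebraic_algHom_iff _ (RingHom.injective _)).mp halg
  have hfin' : FiniteDimensional
      (AlgebraicClosure ℚ)⟮algebraMap ↥(modularFunctionFieldBar N) (AX_FN N ℓ) (jB N)⟯
      (AX_FN N ℓ) :=
    BL_finite_of_transcendental (ABH_N_finite N ℓ) hj'
  have : CharZero (AlgebraicClosure ℚ)⟮algebraMap ↥(modularFunctionFieldBar N)
      (AX_FN N ℓ) (jB N)⟯ :=
    charZero_of_injective_algebraMap (algebraMap (AlgebraicClosure ℚ) _).injective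
  have hONTO' : ∀ w : AX_EN N A hgen ℓ,
      (∀ Q' : Place (IsLocalRing.ResidueField A) (AX_EN N A hgen ℓ),
        0 ≤ Q'.ord (algebraMap ↥(modularFunctionFieldFullC (IsLocalRing.ResidueField A) N)
          (AX_EN N A hgen ℓ) ((AX_G N A hgen).red ⟨jB N, AX_jB_mem N A hgen⟩)) →
            0 ≤ Q'.ord w) →
      ∃ f : (AX_GN N A hgen ℓ).O,
        (∀ P' : Place (AlgebraicClosure ℚ) (AX_FN N ℓ),
          0 ≤ P'.ord (algebraMap ↥(modularFunctionFieldBar N) (AX_FN N ℓ) (jB N)) →
            0 ≤ P'.ord (f : AX_FN N ℓ)) ∧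
        (AX_GN N A hgen ℓ).red f = w := by
    rw [hred]
    exact hONTO
  have hQ' : 0 ≤ Q.ord ((AX_G N A hgen).red ⟨jB N, AX_jB_mem N A hgen⟩) := by
    rw [hred]
    exact hQ
  exact NM_step3 (L := AlgebraicClosure ℚ) (k := IsLocalRing.ResidueField A)
    (NMX_normData N A hgen ℓ) hdeg ⟨jB N, AX_jB_mem N A hgen⟩ hj' hEk hjk hONTO' Q hQ'

/-- **concrete NORM in the shape of `S18_asm_N`** (for `h : ReductionInputsModL A N`). -/
theorem NMX_norm_specModL (hℓ : ℓ.Prime) (hℓN : ¬ ℓ ∣ N) (hA : A.LiesOverPrime ℓ)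
    (h : ReductionInputsModL A N)
    (hdeg : finrank ↥(modularFunctionFieldFullC (IsLocalRing.ResidueField A) N)
      (AX_EN N A h.choose_spec.2 ℓ) = finrank ↥(modularFunctionFieldBar N) (AX_FN N ℓ))
    (hsep : Algebra.IsSeparable ↥(modularFunctionFieldFullC (IsLocalRing.ResidueField A) N)
      (AX_EN N A h.choose_spec.2 ℓ))
    (hEk : S24_IsFunctionField1 (IsLocalRing.ResidueField A) (AX_EN N A h.choose_spec.2 ℓ))
    (hONTO : ∀ w : AX_EN N A h.choose_spec.2 ℓ,
      (∀ Q' : Place (IsLocalRing.ResidueField A) (AX_EN N A h.choose_spec.2 ℓ),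
        0 ≤ Q'.ord (algebraMap ↥(modularFunctionFieldFullC (IsLocalRing.ResidueField A) N)
          (AX_EN N A h.choose_spec.2 ℓ) (S18_jbar N (IsLocalRing.ResidueField A))) →
            0 ≤ Q'.ord w) →
      ∃ f : (AX_GN N A h.choose_spec.2 ℓ).O,
        (∀ P' : Place (AlgebraicClosure ℚ) (AX_FN N ℓ),
          0 ≤ P'.ord (algebraMap ↥(modularFunctionFieldBar N) (AX_FN N ℓ) (jB N)) →
            0 ≤ P'.ord (f : AX_FN N ℓ)) ∧
        (AX_GN N A h.choose_spec.2 ℓ).red f = w) :
    ∀ Q : Place (IsLocalRing.ResidueField A)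
        ↥(modularFunctionFieldFullC (IsLocalRing.ResidueField A) N),
      0 ≤ Q.ord (S18_jbar N (IsLocalRing.ResidueField A)) →
      ∃ n : (S18_specModL N A h).O,
        (∀ P : Place (AlgebraicClosure ℚ) ↥(modularFunctionFieldBar N),
          0 ≤ P.ord (jB N) → 0 ≤ P.ord (n : ↥(modularFunctionFieldBar N))) ∧
        Q.ord ((S18_specModL N A h).red n) = 1 :=
  fun Q hQ => NMX_norm_of_onto N A h.choose_spec.2 hℓ hℓN hA hdeg hsep hEk hONTO Q hQ

end Fermat.Agent.S18
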