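import Fermat.Agent.S18.Sep
import Fermat.Agent.S18.SepDeg
import Fermat.Agent.Lib.FFBranch
import Fermat.Agent.S24.EvDegEq

/-!
# S18, package P0/SEP (helper2), part 4: exports for `k` = residue field of `A ⊂ ℚ̄` over `ℓ ∤ N`

`F = modularFunctionFieldBar N`, `j = jB N`, `F_k = modularFunctionFieldFullC k N`,
`j̄ = S18_jbar N k`.

* `S18_finrank_le_finrank_k` : `[F : ℚ̄(j)] ≤ [F_k : k(j̄)]`   (numeric DEG for `F` itself);
* `S18_psi_le_finrank_k`     : `ψ(N) ≤ [F_k : k(j̄)]`;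
* `S18_poles_sum_le`         : the pole sets of `j̄`, `j` and `Σ_{poles of j̄} ord ≤ Σ_{poles of j} ord`
                               (the hypothesis `hsum` of helper24's `LC_compat`);
* `S18_branch_k`             : outside a finite set `T₀`, `j̄` is regular and `j̄ - j̄(Q)` is a uniformizer;
* `S18_isSeparable_of_ord_k` : every `g ∈ F_k` with `ℓ ∤ ord_Q g` for some `Q` (e.g. a uniformizer)
                               is a separating element.
-/

set_option autoImplicit false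
set_option synthInstance.maxHeartbeats 400000
set_option maxHeartbeats 1000000

open HahnSeries IntermediateField AlgebraicCurve ModularCurve

namespace Fermat.Agent.S18

open Fermat.Agent.Lib Fermat.Agent.S24 Fermat.Agent.S28

section General

variable (N : ℕ) [NeZero N] {ℓ : ℕ} {k : Type*} [Field k] [IsAlgClosed k]
  [hℓ : Fact ℓ.Prime] [CharP k ℓ] (hℓN : ¬ ℓ ∣ N) (ψ : ↥(GaloisRep.ratLocalizedAt ℓ) →+* k)

include hℓN ψ

/-- **branch locus of `j̄`**: outside a finite set of places of `F_k`, `j̄` is regular and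
`j̄ - j̄(Q)` is a uniformizer. -/
theorem S18_branch_k :
    ∃ T₀ : Finset (Place k ↥(modularFunctionFieldFullC k N)),
      ∀ Q : Place k ↥(modularFunctionFieldFullC k N), Q ∉ T₀ →
        0 ≤ Q.ord (S18_jbar N k) ∧
        ∃ c : k, Q.ord (S18_jbar N k - algebraMap k ↥(modularFunctionFieldFullC k N) c) = 1 :=
  haveI := S18_finite_jbar N hℓ.out hℓN ψ
  haveI := S18_isSeparable_jbar N hℓN ψ
  FFS_exists_branch_finset (S18_transcendental_jbar N)

/-- the poles of `j̄` and the sum of their orders. -/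
theorem S18_poles_jbar :
    ∃ T : Finset (Place k ↥(modularFunctionFieldFullC k N)),
      (∀ Q, Q ∈ T ↔ Q.ord (S18_jbar N k) < 0) ∧
      ∑ Q ∈ T, Q.ord (S18_jbar N k) =
        -(Module.finrank k⟮S18_jbar N k⟯ ↥(modularFunctionFieldFullC k N) : ℤ) :=
  haveI := S18_finite_jbar N hℓ.out hℓN ψ
  haveI := S18_isSeparable_jbar N hℓN ψ
  ⟨FFS_poles (S18_transcendental_jbar N), FFS_mem_poles _, FFS_sum_poles _⟩

/-- every `g ∈ F_k` whose order at some place is prime to `ℓ` (e.g. a uniformizer) is a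
separating element. -/
theorem S18_isSeparable_of_ord_k {g : ↥(modularFunctionFieldFullC k N)}
    (Q : Place k ↥(modularFunctionFieldFullC k N)) (hQ : ¬ (ℓ : ℤ) ∣ Q.ord g) :
    Transcendental k g ∧ FiniteDimensional k⟮g⟯ ↥(modularFunctionFieldFullC k N) ∧
      Algebra.IsSeparable k⟮g⟯ ↥(modularFunctionFieldFullC k N) :=
  haveI := S18_finite_jbar N hℓ.out hℓN ψ
  SF_isSeparable_of_ord ℓ (S18_theta_jbar_ne_zero N k) Q hQ

/-- `[F : ℚ̄(j)] ≤ [F_k : k(j̄)]`. -/
theorem S18_finrank_le_finrank :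
    Module.finrank (AlgebraicClosure ℚ)⟮jB N⟯ ↥(modularFunctionFieldBar N) ≤
      Module.finrank k⟮S18_jbar N k⟯ ↥(modularFunctionFieldFullC k N) :=
  le_trans (finrank_le_card_cos N) (S18_card_cos_le_finrank N ℓ hℓN ψ)

/-- `ψ(N) ≤ [F_k : k(j̄)]`. -/
theorem S18_psi_le_finrank :
    dedekindPsi N ≤ Module.finrank k⟮S18_jbar N k⟯ ↥(modularFunctionFieldFullC k N) := by
  rw [← finrank_eq_psi N]
  exact S18_finrank_le_finrank N hℓN ψ

/-- the hypothesis `hsum` of `LC_compat` for `x = j`: pole sets of `j` and `j̄` with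
`Σ_{poles of j̄} ord_Q j̄ ≤ Σ_{poles of j} ord_P j`. -/
theorem S18_poles_sum_le :
    ∃ (Pl : Finset (Place (AlgebraicClosure ℚ) ↥(modularFunctionFieldBar N)))
      (T : Finset (Place k ↥(modularFunctionFieldFullC k N))),
      (∀ P, P ∈ Pl ↔ P.ord (jB N) < 0) ∧ (∀ Q, Q ∈ T ↔ Q.ord (S18_jbar N k) < 0) ∧
      ∑ Q ∈ T, Q.ord (S18_jbar N k) ≤ ∑ P ∈ Pl, P.ord (jB N) := by
  obtain ⟨T, hT, hsT⟩ := S18_poles_jbar N hℓN ψ
  have hfd := finiteDimensional_jB N
  have hsep := S24_isSeparable_jB N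
  refine ⟨FFS_poles (transcendental_jB N), T, FFS_mem_poles _, hT, ?_⟩
  rw [hsT, FFS_sum_poles]
  have := S18_finrank_le_finrank N hℓN ψ
  omega

end General

section Residue

variable (N : ℕ) [NeZero N] (A : ValuationSubring (AlgebraicClosure ℚ)) {ℓ : ℕ}
  (hℓ : ℓ.Prime) (hA : A.LiesOverPrime ℓ) (hℓN : ¬ ℓ ∣ N)

include hℓ hA hℓN

/-- numeric DEG for `F` itself at a place over `ℓ ∤ N`. -/
theorem S18_finrank_le_finrank_k :
    Module.finrank (AlgebraicClosure ℚ)⟮jB N⟯ ↥(modularFunctionFieldBar N) ≤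
      Module.finrank (IsLocalRing.ResidueField A)⟮S18_jbar N (IsLocalRing.ResidueField A)⟯
        ↥(modularFunctionFieldFullC (IsLocalRing.ResidueField A) N) :=
  haveI : IsAlgClosed (IsLocalRing.ResidueField A) := S18_residue_isAlgClosed A
  haveI : CharP (IsLocalRing.ResidueField A) ℓ := S18_residue_charP A ℓ hℓ hA
  haveI : Fact ℓ.Prime := ⟨hℓ⟩
  S18_finrank_le_finrank N hℓN (S18_ψ A hℓ hA)

theorem S18_psi_le_finrank_k :
    dedekindPsi N ≤
      Module.finrank (IsLocalRing.ResidueField A)⟮S18_jbar N (IsLocalRing.ResidueField A)⟯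
        ↥(modularFunctionFieldFullC (IsLocalRing.ResidueField A) N) :=
  haveI : IsAlgClosed (IsLocalRing.ResidueField A) := S18_residue_isAlgClosed A
  haveI : CharP (IsLocalRing.ResidueField A) ℓ := S18_residue_charP A ℓ hℓ hA
  haveI : Fact ℓ.Prime := ⟨hℓ⟩
  S18_psi_le_finrank N hℓN (S18_ψ A hℓ hA)

theorem S18_poles_sum_le_k :
    ∃ (Pl : Finset (Place (AlgebraicClosure ℚ) ↥(modularFunctionFieldBar N)))
      (T : Finset (Place (IsLocalRing.ResidueField A)
        ↥(modularFunctionFieldFullC (IsLocalRing.ResidueField A) N))),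
      (∀ P, P ∈ Pl ↔ P.ord (jB N) < 0) ∧
      (∀ Q, Q ∈ T ↔ Q.ord (S18_jbar N (IsLocalRing.ResidueField A)) < 0) ∧
      ∑ Q ∈ T, Q.ord (S18_jbar N (IsLocalRing.ResidueField A)) ≤ ∑ P ∈ Pl, P.ord (jB N) :=
  haveI : IsAlgClosed (IsLocalRing.ResidueField A) := S18_residue_isAlgClosed A
  haveI : CharP (IsLocalRing.ResidueField A) ℓ := S18_residue_charP A ℓ hℓ hA
  haveI : Fact ℓ.Prime := ⟨hℓ⟩
  S18_poles_sum_le N hℓN (S18_ψ A hℓ hA)

theorem S18_branch_res :
    ∃ T₀ : Finset (Place (IsLocalRing.ResidueField A)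
        ↥(modularFunctionFieldFullC (IsLocalRing.ResidueField A) N)),
      ∀ Q : Place (IsLocalRing.ResidueField A)
        ↥(modularFunctionFieldFullC (IsLocalRing.ResidueField A) N), Q ∉ T₀ →
        0 ≤ Q.ord (S18_jbar N (IsLocalRing.ResidueField A)) ∧
        ∃ c : IsLocalRing.ResidueField A,
          Q.ord (S18_jbar N (IsLocalRing.ResidueField A) -
            algebraMap (IsLocalRing.ResidueField A)
              ↥(modularFunctionFieldFullC (IsLocalRing.ResidueField A) N) c) = 1 :=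
  haveI : IsAlgClosed (IsLocalRing.ResidueField A) := S18_residue_isAlgClosed A
  haveI : CharP (IsLocalRing.ResidueField A) ℓ := S18_residue_charP A ℓ hℓ hA
  haveI : Fact ℓ.Prime := ⟨hℓ⟩
  S18_branch_k N hℓN (S18_ψ A hℓ hA)

end Residue

end Fermat.Agent.S18
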