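import Fermat.Agent.S18.SepAuxLib
import Fermat.Agent.S18.AuxX0
import Fermat.Agent.S18.SepK

/-!
# S18, package SEPP + DEGB (helper17), part 2: the residue field `E_k` of `F' = F(μ)`

`K = ℚ̄`, `F = modularFunctionFieldBar N`, `A ⊂ K` a valuation ring over `ℓ ∤ N`, `k` its residue
field, `F_k = modularFunctionFieldFullC k N`, `hgen : PrincipalGeneratedByIntegral A (residue A) N`
(NO map of places is used), `F' = AX_FN N ℓ`, `E_k = AX_EN N A hgen ℓ`, `μ = AX_muN N ℓ`,
`μ̄ = AX_mubarN N A hgen ℓ`, `j̄ = AX_jbarN N A hgen`.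

* `SP_jbarN_eq` : `j̄ = S18_jbar N k`;  `SP_finrank_jbarN` : `[F_k : k(j̄)] = [F : K(j)]`
  (`≥` is helper2's `S18_finrank_le_finrank_k`, `≤` is `SP_finrank_red_le`).
* `SP_mubarN_top` : `F_k(μ̄) = E_k` from `[F' : F] ≤ [F_k(μ̄) : F_k]`;  `SP_hdeg_of_le`.
* `SP_isSeparable_EN`, `SP_finite_mubarN`, `SP_isSeparable_mubarN`, `SP_RR_hyp_EN`.
* `SP_degbN` : `[E_k : k(μ̄)] = [F' : K(μ)]` from `hdeg : [E_k : F_k] = [F' : F]`.
-/

set_option autoImplicit false
set_option linter.unusedSectionVars false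
set_option linter.unusedVariables false
set_option linter.style.longLine false
set_option linter.style.haveILetI false
set_option synthInstance.maxHeartbeats 400000
set_option maxHeartbeats 1000000

open IntermediateField Polynomial AlgebraicCurve ModularCurve

namespace Fermat.Agent.S18

open Fermat.Agent.Lib Fermat.Agent.S24

variable (N : ℕ) [NeZero N] (A : ValuationSubring (AlgebraicClosure ℚ))
  (h : PrincipalGeneratedByIntegral A (IsLocalRing.residue A) N)

/-- `j̄ = red j` is helper2's `S18_jbar`. -/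
theorem SP_jbarN_eq : AX_jbarN N A h = S18_jbar N (IsLocalRing.ResidueField A) :=
  Subtype.ext (AX_red_jB N A h)

variable {ℓ : ℕ} [hℓ : Fact ℓ.Prime] (hA : A.LiesOverPrime ℓ) (hℓN : ¬ ℓ ∣ N)

include hA hℓN

/-- `F_k / k(j̄)` is finite. -/
theorem SP_finite_jbarN :
    FiniteDimensional (IsLocalRing.ResidueField A)⟮AX_jbarN N A h⟯
      ↥(modularFunctionFieldFullC (IsLocalRing.ResidueField A) N) := by
  rw [SP_jbarN_eq]
  exact S18_finite_jbar N hℓ.out hℓN (S18_ψ A hℓ.out hA)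

/-- `F_k / k(j̄)` is separable. -/
theorem SP_isSeparable_jbarN :
    Algebra.IsSeparable (IsLocalRing.ResidueField A)⟮AX_jbarN N A h⟯
      ↥(modularFunctionFieldFullC (IsLocalRing.ResidueField A) N) := by
  haveI : IsAlgClosed (IsLocalRing.ResidueField A) := S18_residue_isAlgClosed A
  haveI : CharP (IsLocalRing.ResidueField A) ℓ := S18_residue_charP A ℓ hℓ.out hA
  rw [SP_jbarN_eq]
  exact S18_isSeparable_jbar N hℓN (S18_ψ A hℓ.out hA)

/-- **DEG for `F` itself**: `[F_k : k(j̄)] = [F : K(j)]`. -/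
theorem SP_finrank_jbarN :
    Module.finrank (IsLocalRing.ResidueField A)⟮AX_jbarN N A h⟯
      ↥(modularFunctionFieldFullC (IsLocalRing.ResidueField A) N) =
    Module.finrank (AlgebraicClosure ℚ)⟮jB N⟯ ↥(modularFunctionFieldBar N) := by
  apply le_antisymm
  · haveI := finiteDimensional_jB N
    exact SP_finrank_red_le (AX_G N A h).toVal ⟨jB N, AX_jB_mem N A h⟩
      (AX_red_jB_transcendental N A h)
  · rw [SP_jbarN_eq]
    exact S18_finrank_le_finrank_k N A hℓ.out hA hℓN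

/-- `ψ(N) = [F_k : k(j̄)]`. -/
theorem SP_finrank_jbarN_eq_psi :
    Module.finrank (IsLocalRing.ResidueField A)⟮AX_jbarN N A h⟯
      ↥(modularFunctionFieldFullC (IsLocalRing.ResidueField A) N) = dedekindPsi N := by
  rw [SP_finrank_jbarN N A h hA hℓN, finrank_eq_psi]

omit hℓN in
theorem SP_M_ne_zero : ((AX_M ℓ : ℕ) : IsLocalRing.ResidueField A) ≠ 0 := AX_M_ne_zero A hA

omit hA hℓN hℓ in
theorem SP_M_ne_zero_K : ((AX_M ℓ : ℕ) : AlgebraicClosure ℚ) ≠ 0 := by
  have := (AX_M_prime ℓ).ne_zero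
  exact_mod_cast this

omit hℓN in
/-- `E_k / F_k` is finite. -/
theorem SP_finite_EN :
    FiniteDimensional ↥(modularFunctionFieldFullC (IsLocalRing.ResidueField A) N)
      (AX_EN N A h ℓ) :=
  GX_finite (AX_G N A h) (AX_FN N ℓ)

omit hℓN in
/-- **SEPP 1**: `E_k = F_k(μ̄)` as soon as `[F' : F] ≤ [F_k(μ̄) : F_k]`. -/
theorem SP_mubarN_top
    (hle : Module.finrank ↥(modularFunctionFieldBar N) (AX_FN N ℓ) ≤
      Module.finrank ↥(modularFunctionFieldFullC (IsLocalRing.ResidueField A) N)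
        (↥(modularFunctionFieldFullC (IsLocalRing.ResidueField A) N))⟮AX_mubarN N A h ℓ⟯) :
    (↥(modularFunctionFieldFullC (IsLocalRing.ResidueField A) N))⟮AX_mubarN N A h ℓ⟯ = ⊤ := by
  haveI := SP_finite_EN N A h hA (ℓ := ℓ)
  exact SP_adjoin_eq_top_of_finrank_le (le_trans (AX_finrank_leN N A h) hle)

omit hℓN in
/-- the same with the degree of the minimal polynomial of `μ̄`. -/
theorem SP_mubarN_top'
    (hle : Module.finrank ↥(modularFunctionFieldBar N) (AX_FN N ℓ) ≤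
      (minpoly ↥(modularFunctionFieldFullC (IsLocalRing.ResidueField A) N)
        (AX_mubarN N A h ℓ)).natDegree) :
    (↥(modularFunctionFieldFullC (IsLocalRing.ResidueField A) N))⟮AX_mubarN N A h ℓ⟯ = ⊤ := by
  haveI := SP_finite_EN N A h hA (ℓ := ℓ)
  refine SP_mubarN_top N A h hA ?_
  rw [IntermediateField.adjoin.finrank (IsIntegral.of_finite _ _)]
  exact hle

omit hℓN in
/-- **DEG** from the lower bound for `μ̄`: `[E_k : F_k] = [F' : F]`. -/
theorem SP_hdeg_of_le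
    (hle : Module.finrank ↥(modularFunctionFieldBar N) (AX_FN N ℓ) ≤
      Module.finrank ↥(modularFunctionFieldFullC (IsLocalRing.ResidueField A) N)
        (↥(modularFunctionFieldFullC (IsLocalRing.ResidueField A) N))⟮AX_mubarN N A h ℓ⟯) :
    Module.finrank ↥(modularFunctionFieldFullC (IsLocalRing.ResidueField A) N) (AX_EN N A h ℓ) =
      Module.finrank ↥(modularFunctionFieldBar N) (AX_FN N ℓ) := by
  haveI := SP_finite_EN N A h hA (ℓ := ℓ)
  refine le_antisymm (AX_finrank_leN N A h) (le_trans hle ?_)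
  exact Submodule.finrank_le (Subalgebra.toSubmodule (IntermediateField.toSubalgebra
    (↥(modularFunctionFieldFullC (IsLocalRing.ResidueField A) N))⟮AX_mubarN N A h ℓ⟯))

omit hℓN in
/-- `E_k = F_k(μ̄)` from `hdeg` and the lower bound `[F' : F] ≤ deg_{F_k} μ̄`. -/
theorem SP_mubarN_top_of_hdeg
    (hdeg : Module.finrank ↥(modularFunctionFieldFullC (IsLocalRing.ResidueField A) N)
      (AX_EN N A h ℓ) = Module.finrank ↥(modularFunctionFieldBar N) (AX_FN N ℓ))
    (hle : Module.finrank ↥(modularFunctionFieldBar N) (AX_FN N ℓ) ≤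
      (minpoly ↥(modularFunctionFieldFullC (IsLocalRing.ResidueField A) N)
        (AX_mubarN N A h ℓ)).natDegree) :
    (↥(modularFunctionFieldFullC (IsLocalRing.ResidueField A) N))⟮AX_mubarN N A h ℓ⟯ = ⊤ :=
  SP_mubarN_top' N A h hA hle

/-! ### Separability and `RR_Hyp` -/

/-- **SEPP 2a**: `E_k / F_k` is separable. -/
theorem SP_isSeparable_EN
    (htop : (↥(modularFunctionFieldFullC (IsLocalRing.ResidueField A) N))⟮AX_mubarN N A h ℓ⟯ = ⊤) :
    Algebra.IsSeparable ↥(modularFunctionFieldFullC (IsLocalRing.ResidueField A) N)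
      (AX_EN N A h ℓ) :=
  SP_isSeparable_top (k := IsLocalRing.ResidueField A) (AX_M_eq ℓ) (AX_M_ne_zero A hA)
    (AX_red_jB_transcendental N A h) (AX_mubarN_eval N A h hA) htop

/-- `E_k / k(j̄)` is finite. -/
theorem SP_finite_jbarN' :
    FiniteDimensional (IsLocalRing.ResidueField A)⟮algebraMap
      ↥(modularFunctionFieldFullC (IsLocalRing.ResidueField A) N) (AX_EN N A h ℓ)
        (AX_jbarN N A h)⟯ (AX_EN N A h ℓ) :=
  haveI := SP_finite_jbarN N A h hA hℓN
  haveI := SP_finite_EN N A h hA (ℓ := ℓ)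
  SP_finite_image (k := IsLocalRing.ResidueField A) (AX_jbarN N A h)

/-- `E_k / k(j̄)` is separable. -/
theorem SP_isSeparable_jbarN'
    (htop : (↥(modularFunctionFieldFullC (IsLocalRing.ResidueField A) N))⟮AX_mubarN N A h ℓ⟯ = ⊤) :
    Algebra.IsSeparable (IsLocalRing.ResidueField A)⟮algebraMap
      ↥(modularFunctionFieldFullC (IsLocalRing.ResidueField A) N) (AX_EN N A h ℓ)
        (AX_jbarN N A h)⟯ (AX_EN N A h ℓ) :=
  haveI := SP_isSeparable_jbarN N A h hA hℓN
  haveI := SP_isSeparable_EN N A h hA hℓN htop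
  SP_isSeparable_tower (K := IsLocalRing.ResidueField A) (F' := AX_EN N A h ℓ) (AX_jbarN N A h)

/-- **SEPP 2b**: `E_k / k(μ̄)` is finite. -/
theorem SP_finite_mubarN :
    FiniteDimensional (IsLocalRing.ResidueField A)⟮AX_mubarN N A h ℓ⟯ (AX_EN N A h ℓ) :=
  haveI := SP_finite_jbarN N A h hA hℓN
  haveI := SP_finite_EN N A h hA (ℓ := ℓ)
  SP_finite_mubar (k := IsLocalRing.ResidueField A) (AX_M_eq ℓ) (AX_M_ne_zero A hA)
    (AX_mubarN_eval N A h hA)

/-- **SEPP 2c**: `E_k / k(μ̄)` is separable. -/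
theorem SP_isSeparable_mubarN
    (htop : (↥(modularFunctionFieldFullC (IsLocalRing.ResidueField A) N))⟮AX_mubarN N A h ℓ⟯ = ⊤) :
    Algebra.IsSeparable (IsLocalRing.ResidueField A)⟮AX_mubarN N A h ℓ⟯ (AX_EN N A h ℓ) :=
  haveI := SP_isSeparable_jbarN N A h hA hℓN
  SP_isSeparable_mubar (k := IsLocalRing.ResidueField A) (AX_M_eq ℓ) (AX_M_ne_zero A hA)
    (AX_red_jB_transcendental N A h) (AX_mubarN_eval N A h hA) htop

/-- **SEPP 2d**: `RR_Hyp k E_k`. -/
theorem SP_RR_hyp_EN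
    (htop : (↥(modularFunctionFieldFullC (IsLocalRing.ResidueField A) N))⟮AX_mubarN N A h ℓ⟯ = ⊤) :
    RR_Hyp (IsLocalRing.ResidueField A) (AX_EN N A h ℓ) :=
  haveI : IsAlgClosed (IsLocalRing.ResidueField A) := S18_residue_isAlgClosed A
  haveI : CharP (IsLocalRing.ResidueField A) ℓ := S18_residue_charP A ℓ hℓ.out hA
  haveI := SP_finite_jbarN N A h hA hℓN
  haveI := SP_isSeparable_jbarN N A h hA hℓN
  haveI := SP_finite_EN N A h hA (ℓ := ℓ)
  SP_RR_hyp (k := IsLocalRing.ResidueField A) ℓ (AX_M_eq ℓ) (AX_M_ne_zero A hA)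
    (AX_red_jB_transcendental N A h) (AX_mubarN_eval N A h hA) htop

/-! ### DEGB -/

/-- **DEGB**: `[E_k : k(μ̄)] = [F' : K(μ)]` from `hdeg : [E_k : F_k] = [F' : F]`. -/
theorem SP_degbN
    (hdeg : Module.finrank ↥(modularFunctionFieldFullC (IsLocalRing.ResidueField A) N)
      (AX_EN N A h ℓ) = Module.finrank ↥(modularFunctionFieldBar N) (AX_FN N ℓ)) :
    Module.finrank (IsLocalRing.ResidueField A)⟮AX_mubarN N A h ℓ⟯ (AX_EN N A h ℓ) =
      Module.finrank (AlgebraicClosure ℚ)⟮AX_muN N ℓ⟯ (AX_FN N ℓ) :=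
  SP_degb (k := IsLocalRing.ResidueField A) (K := AlgebraicClosure ℚ) (AX_M_eq ℓ)
    (AX_M_ne_zero A hA) (SP_M_ne_zero_K (ℓ := ℓ)) (transcendental_jB N) (AX_muN_eval N)
    (AX_red_jB_transcendental N A h) (AX_mubarN_eval N A h hA)
    (SP_finrank_jbarN N A h hA hℓN) hdeg

/-- **DEGB**, numeric form: `AX_deg M · [E_k : k(μ̄)] = ψ(N) · [E_k : F_k]`. -/
theorem SP_finrank_mubarN :
    AX_deg (AX_M ℓ) *
        Module.finrank (IsLocalRing.ResidueField A)⟮AX_mubarN N A h ℓ⟯ (AX_EN N A h ℓ) =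
      dedekindPsi N *
        Module.finrank ↥(modularFunctionFieldFullC (IsLocalRing.ResidueField A) N)
          (AX_EN N A h ℓ) := by
  rw [← SP_finrank_jbarN_eq_psi N A h hA hℓN]
  exact SP_finrank_mubar (k := IsLocalRing.ResidueField A) (AX_M_eq ℓ) (AX_M_ne_zero A hA)
    (AX_red_jB_transcendental N A h) (AX_mubarN_eval N A h hA)

omit hA hℓN hℓ in
/-- char. 0 side: `AX_deg M · [F' : K(μ)] = ψ(N) · [F' : F]`. -/
theorem SP_finrank_muN :
    AX_deg (AX_M ℓ) * Module.finrank (AlgebraicClosure ℚ)⟮AX_muN N ℓ⟯ (AX_FN N ℓ) =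
      dedekindPsi N * Module.finrank ↥(modularFunctionFieldBar N) (AX_FN N ℓ) := by
  rw [← finrank_eq_psi N]
  exact SP_finrank_mubar (k := AlgebraicClosure ℚ) (AX_M_eq ℓ) (SP_M_ne_zero_K (ℓ := ℓ))
    (transcendental_jB N) (AX_muN_eval N)

end Fermat.Agent.S18
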