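import Mathlib
import Fermat.Agent.S18.NormX0
import Fermat.Agent.S18.DegFinal
import Fermat.Agent.S18.SepAux

/-!
# S18, package NORM (helper24), part 7: NORM for `X₀(N)` from ONTO on `F'` alone

`NMX_norm_final` : the hypothesis `hNORM` of `S18_asm_N` from ONTO on `F' = AX_FN N ℓ` in the chart
`j` only; the degree equality (DEG, helper12), separability (SEPP, helper17) and
`S24_IsFunctionField1 k E_k` are discharged here.  Everything is h-free.
-/

set_option autoImplicit false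
set_option synthInstance.maxHeartbeats 400000
set_option maxHeartbeats 1000000

open HahnSeries IntermediateField AlgebraicCurve ModularCurve Module

namespace Fermat.Agent.S18

open Fermat.Agent.Lib Fermat.Agent.S24

variable (N : ℕ) [NeZero N] (A : ValuationSubring (AlgebraicClosure ℚ))
  (hgen : PrincipalGeneratedByIntegral A (IsLocalRing.residue A) N) {ℓ : ℕ}

/-- `E_k` is a function field of one variable over `k`. -/
theorem NMX_isFunctionField1_EN (hℓ : ℓ.Prime) (hℓN : ¬ ℓ ∣ N) (hA : A.LiesOverPrime ℓ) :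
    S24_IsFunctionField1 (IsLocalRing.ResidueField A) (AX_EN N A hgen ℓ) := by
  have : Fact ℓ.Prime := ⟨hℓ⟩
  have := SP_finite_jbarN' N A hgen hA hℓN
  exact S24_isFunctionField1_of_isAlgebraic
    (algebraMap ↥(modularFunctionFieldFullC (IsLocalRing.ResidueField A) N) (AX_EN N A hgen ℓ)
      (AX_jbarN N A hgen)) (Algebra.IsAlgebraic.of_finite _ _)

/-- **concrete NORM** from ONTO on `F'` in the chart `j` only. -/
theorem NMX_norm_final (hℓ : ℓ.Prime) (hℓN : ¬ ℓ ∣ N) (hA : A.LiesOverPrime ℓ)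
    (hONTO : ∀ w : AX_EN N A hgen ℓ,
      (∀ Q' : Place (IsLocalRing.ResidueField A) (AX_EN N A hgen ℓ),
        0 ≤ Q'.ord (algebraMap ↥(modularFunctionFieldFullC (IsLocalRing.ResidueField A) N)
          (AX_EN N A hgen ℓ) (S18_jbar N (IsLocalRing.ResidueField A))) → 0 ≤ Q'.ord w) →
      ∃ f : (AX_GN N A hgen ℓ).O,
        (∀ P' : Place (AlgebraicClosure ℚ) (AX_FN N ℓ),
          0 ≤ P'.ord (algebraMap ↥(modularFunctionFieldBar N) (AX_FN N ℓ) (jB N)) →
            0 ≤ P'.ord (f : AX_FN N ℓ)) ∧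
        (AX_GN N A hgen ℓ).red f = w)
    (Q : Place (IsLocalRing.ResidueField A)
      ↥(modularFunctionFieldFullC (IsLocalRing.ResidueField A) N))
    (hQ : 0 ≤ Q.ord (S18_jbar N (IsLocalRing.ResidueField A))) :
    ∃ n : (AX_G N A hgen).O,
      (∀ P : Place (AlgebraicClosure ℚ) ↥(modularFunctionFieldBar N),
        0 ≤ P.ord (jB N) → 0 ≤ P.ord (n : ↥(modularFunctionFieldBar N))) ∧
      Q.ord ((AX_G N A hgen).red n) = 1 := by
  have : Fact ℓ.Prime := ⟨hℓ⟩
  exact NMX_norm_of_onto N A hgen hℓ hℓN hA (DG_finrank_eq N A hgen hA hℓN)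
    (SP_isSeparable_EN N A hgen hA hℓN (DG_adjoin_mubar_eq_top N A hgen hA hℓN))
    (NMX_isFunctionField1_EN N A hgen hℓ hℓN hA) hONTO Q hQ

/-- **S18 from ONTO on `F'` in the chart `j`.** -/
theorem NMX_S18_of_onto (hℓ : ℓ.Prime) (hℓN : ¬ ℓ ∣ N) (hA : A.LiesOverPrime ℓ)
    (h : ReductionInputsModL A N)
    (hONTO : ∀ w : AX_EN N A h.choose_spec.2 ℓ,
      (∀ Q' : Place (IsLocalRing.ResidueField A) (AX_EN N A h.choose_spec.2 ℓ),
        0 ≤ Q'.ord (algebraMap ↥(modularFunctionFieldFullC (IsLocalRing.ResidueField A) N)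
          (AX_EN N A h.choose_spec.2 ℓ) (S18_jbar N (IsLocalRing.ResidueField A))) →
            0 ≤ Q'.ord w) →
      ∃ f : (AX_GN N A h.choose_spec.2 ℓ).O,
        (∀ P' : Place (AlgebraicClosure ℚ) (AX_FN N ℓ),
          0 ≤ P'.ord (algebraMap ↥(modularFunctionFieldBar N) (AX_FN N ℓ) (jB N)) →
            0 ≤ P'.ord (f : AX_FN N ℓ)) ∧
        (AX_GN N A h.choose_spec.2 ℓ).red f = w)
    (m : ℕ) (hm : ¬ ℓ ∣ m) (z : JZero N) (hmz : m • z = 0) (hz : reductionModL A N z = 0) :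
    z = 0 :=
  S18_asm_N N A hℓ hℓN hA h
    (fun Q hQ => NMX_norm_final N A h.choose_spec.2 hℓ hℓN hA hONTO Q hQ) m hm z hmz hz

end Fermat.Agent.S18
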