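import Fermat.Agent.S18.CuspKQ
import Fermat.Agent.S18.CuspKR

/-!
# S18, package CUSP, half B, part B4: the same twist on both sides

The twist `t ↦ ζ t` permutes the embeddings `KE_embK N α` of `F` (char. 0, `ζ = zetaC N`) and the
embeddings `KE_embk … α` of `F_k` (char. `ℓ`, `ζ = KE_zbar N V`) in the same way:

* `KE_twist_transfer` : `tw (J_d α) = J_d β` over `ℂ` ⇒ the same over `k_V`;
* `KE_twist_same` : `(∀ f n, (embK β f).coeff n = zK^n * (embK α f).coeff n) →
    (∀ f n, (embk β f).coeff n = zk^n * (embk α f).coeff n)`.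
-/

set_option autoImplicit false
set_option linter.unusedSectionVars false
set_option linter.style.haveILetI false
set_option synthInstance.maxHeartbeats 400000
set_option maxHeartbeats 1000000

open ModularCurve
open scoped MatrixGroups
open CongruenceSubgroup
open Fermat.Agent.S28 Fermat.Agent.Lib Fermat.Agent.S24

noncomputable section

namespace Fermat.Agent.S18

section pstwist

/-- the twist `f(t) ↦ f(c t)` of power series. -/
def KE_psTw {R : Type*} [CommRing R] (c : R) (f : PowerSeries R) : PowerSeries R :=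
  PowerSeries.mk fun n => c ^ n * PowerSeries.coeff n f

@[simp]
theorem KE_coeff_psTw {R : Type*} [CommRing R] (c : R) (f : PowerSeries R) (n : ℕ) :
    PowerSeries.coeff n (KE_psTw c f) = c ^ n * PowerSeries.coeff n f := by
  simp [KE_psTw]

theorem KE_psTw_map {R S : Type*} [CommRing R] [CommRing S] (φ : R →+* S) (c : R)
    (f : PowerSeries R) :
    PowerSeries.map φ (KE_psTw c f) = KE_psTw (φ c) (PowerSeries.map φ f) := by
  ext n
  simp

theorem KE_twist_ofPS {L : Type*} [Field L] (ζ : L) (hζ : ζ ≠ 0) (f : PowerSeries L) :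
    CU_twist ζ hζ (HahnSeries.ofPowerSeries ℤ L f) =
      HahnSeries.ofPowerSeries ℤ L (KE_psTw ζ f) := by
  ext n
  rw [CU_twist_coeff]
  rcases lt_or_ge n 0 with hn | hn
  · rw [ofPowerSeries_coeff_of_neg _ hn, ofPowerSeries_coeff_of_neg _ hn, mul_zero]
  · obtain ⟨m, rfl⟩ := Int.eq_ofNat_of_zero_le hn
    rw [HahnSeries.ofPowerSeries_apply_coeff, HahnSeries.ofPowerSeries_apply_coeff,
      KE_coeff_psTw, zpow_natCast]

end pstwist

section transfer

variable {N : ℕ} [NeZero N]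

/-- the twist relation between two conjugates of `J_d`, cross-multiplied in `L[[t]]`. -/
theorem KE_twist_kcJ_iff {L : Type} [Field L] {z : L} (hz : IsPrimitiveRoot z N) (ζ : L)
    (hζ : ζ ≠ 0) (d : N.divisors) (α β : Cos N) :
    CU_twist ζ hζ (kcJ N L z d α) = kcJ N L z d β ↔
      KE_psTw ζ (cs L z N α (true, d)) * cs L z N β (false, d) =
        cs L z N β (true, d) * KE_psTw ζ (cs L z N α (false, d)) := by
  have h1 : CU_twist ζ hζ (kcY N L z (false, d) α) ≠ 0 :=
    (map_ne_zero (CU_twist ζ hζ)).mpr (kcY_ne_zero hz α _)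
  unfold kcJ
  rw [map_div₀, div_eq_div_iff h1 (kcY_ne_zero hz β _)]
  unfold kcY
  rw [KE_twist_ofPS, KE_twist_ofPS, ← map_mul, ← map_mul]
  exact (HahnSeries.ofPowerSeries_injective (Γ := ℤ) (R := L)).eq_iff

/-- **B4 (generators)**: a twist relation over `ℂ` holds over the residue field of `V`. -/
theorem KE_twist_transfer (V : ValuationSubring ℂ)
    (hzV : IsPrimitiveRoot (KE_zbar N V) N) (d : N.divisors) (α β : Cos N)
    (h : CU_twist (zetaC N) (kc_z_ne_zero (kcT1_isPrimitiveRoot_zetaC N))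
      (kcJ N ℂ (zetaC N) d α) = kcJ N ℂ (zetaC N) d β) :
    CU_twist (KE_zbar N V) (kc_z_ne_zero hzV)
      (kcJ N (IsLocalRing.ResidueField V) (KE_zbar N V) d α) =
      kcJ N (IsLocalRing.ResidueField V) (KE_zbar N V) d β := by
  rw [KE_twist_kcJ_iff (kcT1_isPrimitiveRoot_zetaC N)] at h
  rw [KE_twist_kcJ_iff hzV]
  set ι : V →+* ℂ := V.subtype with hι
  have hιi : Function.Injective ι := Subtype.val_injective
  set ρ : V →+* IsLocalRing.ResidueField V := IsLocalRing.residue V with hρ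
  have hcsC : ∀ (γ : Cos N) (g : Gen N),
      cs ℂ (zetaC N) N γ g = PowerSeries.map ι (cs V (KE_zetaV N V) N γ g) := fun γ g =>
    (map_cs ι (KE_zetaV N V) N γ g).symm
  have hcsk : ∀ (γ : Cos N) (g : Gen N),
      cs (IsLocalRing.ResidueField V) (KE_zbar N V) N γ g =
        PowerSeries.map ρ (cs V (KE_zetaV N V) N γ g) := fun γ g =>
    (map_cs ρ (KE_zetaV N V) N γ g).symm
  have hζC : zetaC N = ι (KE_zetaV N V) := rfl
  have hζk : KE_zbar N V = ρ (KE_zetaV N V) := rfl
  rw [hcsC, hcsC, hcsC, hcsC, hζC, ← KE_psTw_map, ← KE_psTw_map, ← map_mul, ← map_mul] at h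
  have hV := PowerSeries.map_injective ι hιi h
  rw [hcsk, hcsk, hcsk, hcsk, hζk, ← KE_psTw_map, ← KE_psTw_map, ← map_mul, ← map_mul, hV]

end transfer

section same

variable (N : ℕ) [NeZero N] {ℓ : ℕ} (hℓ : ℓ.Prime) (hℓN : ¬ ℓ ∣ N)
  (A : ValuationSubring (AlgebraicClosure ℚ)) (hA : A.LiesOverPrime ℓ)

theorem KE_zetaC_ne_zero : zetaC N ≠ 0 := kc_z_ne_zero (kcT1_isPrimitiveRoot_zetaC N)

include hℓ hℓN hA in
theorem KE_zbar_ne_zero : KE_zbar N (KE_V A) ≠ 0 :=
  kc_z_ne_zero (KE_hyp_kV N hℓ hℓN A hA).hz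

/-- the twist relation for the embeddings of `F_k`, from the relation at the generators. -/
theorem KE_embk_twist_of_gen (α β : Cos N)
    (h : ∀ d : N.divisors, CU_twist (KE_zbar N (KE_V A)) (KE_zbar_ne_zero N hℓ hℓN A hA)
      (kcJ N (IsLocalRing.ResidueField (KE_V A)) (KE_zbar N (KE_V A)) d α) =
      kcJ N (IsLocalRing.ResidueField (KE_V A)) (KE_zbar N (KE_V A)) d β) :
    letI := KE_algkV A
    KE_embk N hℓ hℓN A hA β =
      (CU_twistAlg (IsLocalRing.ResidueField A) (KE_zbar N (KE_V A))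
        (KE_zbar_ne_zero N hℓ hℓN A hA)).comp (KE_embk N hℓ hℓN A hA α) := by
  letI := KE_algkV A
  refine KE_algHom_ext _ _ fun d hne hd => ?_
  haveI := hne
  rw [AlgHom.comp_apply, KE_embk_jd N hℓ hℓN A hA β d hd, KE_embk_jd N hℓ hℓN A hA α d hd]
  exact (h ⟨d, Nat.mem_divisors.2 ⟨hd, NeZero.ne N⟩⟩).symm

/-- **B4**: if the twist by `ζ_N` carries the embedding `α` of `F` to the embedding `β`, then the
twist by `ζ̄_N` carries the embedding `α` of `F_k` to the embedding `β`. -/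
theorem KE_twist_same (α β : Cos N)
    (h : letI := KE_algQC
      ∀ (f : ↥(modularFunctionFieldBar N)) (n : ℤ),
        (KE_embK N β f).coeff n = zetaC N ^ n * (KE_embK N α f).coeff n) :
    letI := KE_algkV A
    ∀ (f : ↥(modularFunctionFieldFullC (IsLocalRing.ResidueField A) N)) (n : ℤ),
      (KE_embk N hℓ hℓN A hA β f).coeff n =
        KE_zbar N (KE_V A) ^ n * (KE_embk N hℓ hℓN A hA α f).coeff n := by
  letI := KE_algkV A
  have hgen : ∀ d : N.divisors, CU_twist (KE_zbar N (KE_V A)) (KE_zbar_ne_zero N hℓ hℓN A hA)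
      (kcJ N (IsLocalRing.ResidueField (KE_V A)) (KE_zbar N (KE_V A)) d α) =
      kcJ N (IsLocalRing.ResidueField (KE_V A)) (KE_zbar N (KE_V A)) d β := by
    intro d
    refine KE_twist_transfer (KE_V A) (KE_hyp_kV N hℓ hℓN A hA).hz d α β ?_
    haveI : NeZero (d : ℕ) := kc_neZero_of_mem_divisors N d
    have hd : (d : ℕ) ∣ N := Nat.dvd_of_mem_divisors d.2
    ext n
    rw [CU_twist_coeff]
    have h1 := h (jBar N (d : ℕ) hd) n
    rw [KE_embK_jBar N β (d : ℕ) hd, KE_embK_jBar N α (d : ℕ) hd] at h1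
    exact h1.symm
  intro f n
  rw [KE_embk_twist_of_gen N hℓ hℓN A hA α β hgen]
  rfl

end same

section hinv

variable (N : ℕ) [NeZero N] (L : Type) [Field L]

/-- `j̄⁻¹` is a series in `t^N`. -/
theorem KE_kcj_inv_coeff (n : ℤ) (hn : ((kcj N L)⁻¹).coeff n ≠ 0) : (N : ℤ) ∣ n := by
  by_contra hdvd
  apply hn
  rw [kcT9b_kcj, ← map_inv₀]
  exact qExpand_coeff_of_not_dvd _ _ hdvd

variable {N L}

/-- the hypothesis `hinv` of `CU_exists_perm` for `x₀ = j̄⁻¹`. -/
theorem KE_kcj_inv_hinv {z : L} (hz : IsPrimitiveRoot z N) (n : ℤ)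
    (hn : ((kcj N L)⁻¹).coeff n ≠ 0) : z ^ n = 1 := by
  obtain ⟨m, rfl⟩ := KE_kcj_inv_coeff N L n hn
  rw [zpow_mul, zpow_natCast, hz.pow_eq_one, one_zpow]

end hinv

end Fermat.Agent.S18
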