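import Mathlib
import Fermat.Agent.S18.CuspAx
import Fermat.Agent.S18.CuspKT
import Fermat.Agent.S18.MuLaurent
import Fermat.Agent.S18.MuSep
import Fermat.Agent.S24.Wiring
import Fermat.Agent.S24.EvDegEq
import Fermat.Agent.S18.RIDeg
import Fermat.Agent.S18.ResField
import Fermat.Agent.S18.Sep

/-!
# S18 (TRACK 3), package CUSP, final wiring: `#cusps(E_k) ≤ #cusps(F')`

`F = modularFunctionFieldBar N` over `ℚ̄`, `F_k = modularFunctionFieldFullC k N` over the residue
field `k` of `A ⊂ ℚ̄` (over `ℓ ∤ N`), `M ∈ {2, 3}`, `M ≠ ℓ`, `F' = F(μ)` with `R_M(μ) = j`,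
`E_k = F_k(μ̄)` with `R_M(μ̄) = j̄`.

* `CUF_side_count` : (one side, abstract) the number of poles of `j` on `F'` is
  `[F' : F] · Σ_γ 1 / lcm(|orbit_τ γ|, M)`, from a complete family of `t`-expansions of `F`
  (`emb γ j = kcj N L`) permuted by the twist `t ↦ z t` through `τ`;
* **`CUF_cusp_le`** : `#{poles of j̄ on E_k} ≤ #{poles of j on F'}` given `[E_k : F_k] ≤ [F' : F]`.
  It is free of the Gauss datum (no `h : ReductionInputsModL`): the inputs are helper10's K-core
  embeddings `KE_embK`, `KE_embk` with the same twist permutation (`KE_twist_same`), helper16's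
  `ML_splits`, `ML_twist_root`, helper2's `RIG_finrank_eq_card`, S24's `finrank_eq_card_cos`.
* auxiliary: `CUF_exists_primitiveRoot_pow` (a primitive `N`-th root of unity is the `M`-th power
  of a primitive `MN`-th root), `CUF_finite_tower`, `CUF_isSeparable_tower`,
  `CUF_finite_separable`.
-/

set_option autoImplicit false
set_option linter.style.haveILetI false
set_option linter.unusedSectionVars false
set_option synthInstance.maxHeartbeats 400000
set_option maxHeartbeats 1000000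

open IntermediateField Polynomial AlgebraicCurve ModularCurve

namespace Fermat.Agent.S18

open Fermat.Agent.Lib Fermat.Agent.S24 Fermat.Agent.S28

section Tower

variable {K E E' : Type*} [Field K] [Field E] [Field E'] [Algebra K E] [Algebra K E']
  [Algebra E E'] [IsScalarTower K E E']

noncomputable def CUF_adjoinEquiv (x : E) : K⟮x⟯ ≃+* K⟮algebraMap E E' x⟯ :=
  ((IntermediateField.equivMap K⟮x⟯ (IsScalarTower.toAlgHom K E E')).trans
    (IntermediateField.equivOfEq (CU_map_adjoin (K := K) (E' := E') x))).toRingEquiv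

theorem CUF_adjoinEquiv_comm (x : E) :
    (algebraMap K⟮algebraMap E E' x⟯ E').comp (CUF_adjoinEquiv (K := K) (E' := E') x : K⟮x⟯ →+* _) =
      ((RingEquiv.refl E' : E' ≃+* E') : E' →+* E').comp (algebraMap K⟮x⟯ E') := by
  ext r
  rfl

theorem CUF_finite_tower (x : E) [FiniteDimensional K⟮x⟯ E] [FiniteDimensional E E'] :
    FiniteDimensional K⟮algebraMap E E' x⟯ E' := by
  have h1 : 0 < Module.finrank K⟮x⟯ E := Module.finrank_pos
  have h2 : 0 < Module.finrank E E' := Module.finrank_pos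
  have h3 := CU_finrank_tower (K := K) (E' := E') x
  exact Module.finite_of_finrank_pos (by rw [← h3]; exact Nat.mul_pos h1 h2)

theorem CUF_isSeparable_tower (x : E) [Algebra.IsSeparable K⟮x⟯ E] [Algebra.IsSeparable E E'] :
    Algebra.IsSeparable K⟮algebraMap E E' x⟯ E' := by
  haveI : Algebra.IsSeparable K⟮x⟯ E' := Algebra.IsSeparable.trans K⟮x⟯ E E'
  exact Algebra.IsSeparable.of_equiv_equiv (CUF_adjoinEquiv (K := K) (E' := E') x)
    (RingEquiv.refl E') (CUF_adjoinEquiv_comm x)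

end Tower

section Simple

variable {F F' : Type*} [Field F] [Field F'] [Algebra F F']

theorem CUF_finite_of_adjoin {μ : F'} (hμ : IsIntegral F μ)
    (hgen : IntermediateField.adjoin F {μ} = ⊤) : FiniteDimensional F F' := by
  haveI : FiniteDimensional F F⟮μ⟯ := IntermediateField.adjoin.finiteDimensional hμ
  have h1 : FiniteDimensional F (⊤ : IntermediateField F F') := hgen ▸ this
  exact (IntermediateField.topEquiv (F := F) (E := F')).toLinearEquiv.finiteDimensional

theorem CUF_isSeparable_of_adjoin {μ : F'} (hμ : IsSeparable F μ)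
    (hgen : IntermediateField.adjoin F {μ} = ⊤) : Algebra.IsSeparable F F' := by
  haveI : Algebra.IsSeparable F F⟮μ⟯ :=
    (IntermediateField.isSeparable_adjoin_simple_iff_isSeparable F F').mpr hμ
  have h1 : Algebra.IsSeparable F (⊤ : IntermediateField F F') := hgen ▸ this
  exact AlgEquiv.Algebra.isSeparable (IntermediateField.topEquiv (F := F) (E := F'))

theorem CUF_finite_separable {M : ℕ} (hM : M = 2 ∨ M = 3) (hMF : (M : F) ≠ 0) {x : F}
    (hx0 : x ≠ 0) (hx1 : x ≠ 1728) {μ : F'}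
    (hμ : (AX_poly F' M (algebraMap F F' x)).eval μ = 0)
    (hgen : IntermediateField.adjoin F {μ} = ⊤) :
    FiniteDimensional F F' ∧ Algebra.IsSeparable F F' := by
  have hsep : (AX_poly F M x).Separable := MU_separable hM hMF hx0 hx1
  have hroot : aeval μ (AX_poly F M x) = 0 := by
    rw [aeval_def, eval₂_eq_eval_map, AX_poly_map]
    exact hμ
  have hne : AX_poly F M x ≠ 0 := hsep.ne_zero
  have hint : IsIntegral F μ := isAlgebraic_iff_isIntegral.mp ⟨_, hne, hroot⟩
  have hs : IsSeparable F μ := hsep.of_dvd (minpoly.dvd F μ hroot)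
  exact ⟨CUF_finite_of_adjoin hint hgen, CUF_isSeparable_of_adjoin hs hgen⟩

end Simple

section Series

variable (N : ℕ) [NeZero N] (L : Type) [Field L]

theorem CUF_qExpand_kcj (M : ℕ) [NeZero M] :
    qExpand L M (kcj N L) = qExpand L (M * N) (jqModC L) := by
  rw [kcT9b_kcj, qExpand_qExpand]
  rfl

theorem CUF_order_y (M : ℕ) [NeZero M] :
    (qExpand L M (kcj N L)).order = -((M * N : ℕ) : ℤ) := by
  rw [CU_order_qExpand, KE_order_kcj]
  push_cast
  ring

theorem CUF_lead_y (M : ℕ) [NeZero M] :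
    (qExpand L M (kcj N L)).coeff (qExpand L M (kcj N L)).order = 1 := by
  rw [CUF_order_y, CUF_qExpand_kcj]
  have h : -((M * N : ℕ) : ℤ) = ((M * N : ℕ) : ℤ) * (-1) := by ring
  rw [h, qExpand_coeff_mul]
  exact coeff_jqModC_neg_one L

theorem CUF_exp_y (M : ℕ) [NeZero M] (m : ℤ) (hm : (qExpand L M (kcj N L)).coeff m ≠ 0) :
    ((M * N : ℕ) : ℤ) ∣ m := by
  by_contra hd
  apply hm
  rw [CUF_qExpand_kcj]
  exact qExpand_coeff_of_not_dvd (M * N) _ hd

end Series

section Side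

variable {K F F' L : Type} [Field K] [IsAlgClosed K] [Field F] [Algebra K F] [Field F']
  [Algebra K F'] [Algebra F F'] [IsScalarTower K F F'] [Field L] [Algebra K L]

omit [IsAlgClosed K] in
theorem CUF_natCast_ne_zero (K : Type) [Field K] [Algebra K F] [Algebra K L] {M : ℕ}
    (hML : (M : L) ≠ 0) : (M : F) ≠ 0 := by
  have h1 : (M : K) ≠ 0 := by
    intro h
    apply hML
    have : ((M : ℕ) : L) = algebraMap K L (M : K) := by rw [map_natCast]
    rw [this, h, map_zero]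
  intro h
  apply h1
  have : ((M : ℕ) : F) = algebraMap K F (M : K) := by rw [map_natCast]
  rw [this] at h
  exact (algebraMap K F).injective (by rw [h, map_zero])

omit [IsAlgClosed K] in
theorem CUF_ne_of_transcendental {j : F} (hj : Transcendental K j) (c : ℕ) : j ≠ (c : F) := by
  intro h
  apply hj
  rw [h]
  have : ((c : ℕ) : F) = algebraMap K F (c : K) := by rw [map_natCast]
  rw [this]
  exact isAlgebraic_algebraMap _

/-- **CUSP, one side**: the number of poles of `j` on `F' = F(μ)`, `R_M(μ) = j`, from a complete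
family of `t`-expansions `emb : X → (F → L((t)))`, `emb γ j = j̄(t^N)`-shaped (`= kcj N L`),
permuted by the twist `t ↦ z t` through `τ`. -/
theorem CUF_side_count (M N : ℕ) [NeZero N] (hM : M = 2 ∨ M = 3) (hML : (M : L) ≠ 0)
    {j : F} (hj : Transcendental K j) [FiniteDimensional K⟮j⟯ F] [Algebra.IsSeparable K⟮j⟯ F]
    {μ : F'} (hμ : (AX_poly F' M (algebraMap F F' j)).eval μ = 0)
    (hgen : IntermediateField.adjoin F {μ} = ⊤)
    {X : Type} [Finite X] (emb : X → (F →ₐ[K] LaurentSeries L))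
    (hinj : Function.Injective emb) (hj₀ : ∀ γ, emb γ j = kcj N L)
    (hcard : Module.finrank K⟮j⟯ F = Nat.card X)
    (τ : Equiv.Perm X) (z : L)
    (htw : ∀ γ f (n : ℤ), (emb (τ γ) f).coeff n = z ^ n * (emb γ f).coeff n)
    (ζ : L) (hζ : IsPrimitiveRoot ζ (M * N)) (hζz : ζ ^ M = z)
    {ω : L} (hω : M = 3 → ω ^ 2 + ω + 1 = 0) :
    (Nat.card {v : Place K F' // v.ord (algebraMap F F' j) < 0} : ℚ) =
      (Module.finrank F F' : ℚ) * ∑ᶠ γ : X, (1 : ℚ) /
        ((Nat.lcm (Nat.card (MulAction.orbit (Subgroup.zpowers τ) γ)) M : ℕ) : ℚ) := by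
  have hMpos : 0 < M := by rcases hM with rfl | rfl <;> norm_num
  haveI : NeZero M := ⟨hMpos.ne'⟩
  have hN : 0 < N := Nat.pos_of_ne_zero (NeZero.ne N)
  have hMF : (M : F) ≠ 0 := CUF_natCast_ne_zero K hML
  have hj0 : j ≠ 0 := by
    have := CUF_ne_of_transcendental hj 0
    simpa using this
  have hj1 : j ≠ 1728 := by
    have := CUF_ne_of_transcendental hj 1728
    simpa using this
  obtain ⟨hfin, hsep⟩ := CUF_finite_separable hM hMF hj0 hj1 hμ hgen
  haveI := hfin
  haveI := hsep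
  haveI hfi : FiniteDimensional K⟮j⁻¹⟯ F := W_finite_inv j
  haveI hsi : Algebra.IsSeparable K⟮j⁻¹⟯ F := by
    have e := BG_adjoin_inv (K := K) j
    have hs : Algebra.IsSeparable K⟮j⟯ F := inferInstance
    exact e.symm ▸ hs
  haveI : FiniteDimensional K⟮algebraMap F F' j⁻¹⟯ F' := CUF_finite_tower (K := K) j⁻¹
  haveI : Algebra.IsSeparable K⟮algebraMap F F' j⁻¹⟯ F' := CUF_isSeparable_tower (K := K) j⁻¹
  have hx' : Transcendental K (algebraMap F F' j⁻¹) := by
    rw [transcendental_algebraMap_iff (algebraMap F F').injective]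
    intro h
    apply hj
    have := h.inv
    rwa [inv_inv] at this
  refine CU_ax_count M N hM hN hML hx' hμ hgen
    (fun γ => (CU_qExpandAlg K L M).comp (emb γ)) (CU_subst_injective emb M hinj)
    (qExpand L M (kcj N L)) (fun γ => ?_) (CUF_order_y N L M) ?_ τ ζ hζ
    (CU_subst_htw emb M τ ζ (by rw [hζz]; exact htw)) ?_ ?_
  · rw [AlgHom.comp_apply, hj₀ γ]
    rfl
  · rw [W_finrank_inv, hcard]
  · exact ML_splits hM hML hω N hN _ (CUF_order_y N L M) (CUF_lead_y N L M) (CUF_exp_y N L M)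
  · intro a ha ζ' hζ' hζ'1
    exact ML_twist_root hM hML hω N hN _ (CUF_order_y N L M) (CUF_lead_y N L M)
      (CUF_exp_y N L M) a ha ζ' hζ' hζ'1

end Side


section Roots

variable {L : Type*} [Field L]

/-- in an algebraically closed field, a primitive `N`-th root of unity is the `M`-th power of a
primitive `M N`-th root of unity. -/
theorem CUF_exists_primitiveRoot_pow [IsAlgClosed L] {M N : ℕ} (hMN : ((M * N : ℕ) : L) ≠ 0)
    {z : L} (hz : IsPrimitiveRoot z N) :
    ∃ ζ : L, IsPrimitiveRoot ζ (M * N) ∧ ζ ^ M = z := by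
  have hMN0 : M * N ≠ 0 := by
    rintro h
    rw [h] at hMN
    exact hMN Nat.cast_zero
  have hM0 : 0 < M := Nat.pos_of_ne_zero (fun h => hMN0 (by rw [h, zero_mul]))
  have hN0 : 0 < N := Nat.pos_of_ne_zero (fun h => hMN0 (by rw [h, mul_zero]))
  haveI : NeZero ((M * N : ℕ) : L) := ⟨hMN⟩
  haveI : NeZero (M * N) := ⟨hMN0⟩
  haveI : NeZero N := ⟨hN0.ne'⟩
  -- a primitive `MN`-th root
  obtain ⟨ζ₀, hζ₀⟩ : ∃ ζ₀ : L, IsPrimitiveRoot ζ₀ (M * N) := by
    have hdeg : (cyclotomic (M * N) L).degree ≠ 0 := by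
      rw [degree_cyclotomic]
      exact_mod_cast (Nat.totient_pos.mpr (Nat.pos_of_ne_zero hMN0)).ne'
    obtain ⟨ζ₀, h⟩ := IsAlgClosed.exists_root _ hdeg
    exact ⟨ζ₀, isRoot_cyclotomic_iff.mp h⟩
  have hw : IsPrimitiveRoot (ζ₀ ^ M) N := hζ₀.pow (Nat.pos_of_ne_zero hMN0) rfl
  obtain ⟨i, -, hi⟩ := hw.eq_pow_of_pow_eq_one hz.pow_eq_one
  have hcop : i.Coprime N := by
    rw [← hw.pow_iff_coprime hN0, hi]
    exact hz
  obtain ⟨u, hu⟩ := ZMod.unitsMap_surjective (Dvd.intro_left M rfl : N ∣ M * N)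
    (ZMod.unitOfCoprime i hcop)
  have hval : ((u : ZMod (M * N)).val : ZMod N) = (i : ZMod N) := by
    have h1 := congrArg (fun v : (ZMod N)ˣ => (v : ZMod N)) hu
    simp only [ZMod.unitsMap, Units.coe_map, MonoidHom.coe_coe, ZMod.castHom_apply,
      ZMod.coe_unitOfCoprime] at h1
    rw [← h1, ZMod.natCast_val]
  have hmod : (u : ZMod (M * N)).val ≡ i [MOD N] := (ZMod.natCast_eq_natCast_iff _ _ _).mp hval
  refine ⟨ζ₀ ^ (u : ZMod (M * N)).val, ?_, ?_⟩
  · exact (hζ₀.pow_iff_coprime (Nat.pos_of_ne_zero hMN0) _).mpr (ZMod.val_coe_unit_coprime u)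
  · rw [← pow_mul, mul_comm, pow_mul, ← hi]
    exact pow_eq_pow_of_modEq hmod hw.pow_eq_one

/-- a root of `ω² + ω + 1` in an algebraically closed field. -/
theorem CUF_exists_omega [IsAlgClosed L] : ∃ ω : L, ω ^ 2 + ω + 1 = 0 := by
  have hdeg : (X ^ 2 + X + 1 : L[X]).degree ≠ 0 := by
    have h : (X ^ 2 + X + 1 : L[X]).degree = 2 := by
      compute_degree!
    rw [h]; norm_num
  obtain ⟨ω, hω⟩ := IsAlgClosed.exists_root _ hdeg
  refine ⟨ω, ?_⟩
  simpa using hω

theorem CUF_natCast_ne_zero_of_charP (ℓ : ℕ) [CharP L ℓ] (hℓ : ℓ.Prime) {M N : ℕ}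
    (hM : M = 2 ∨ M = 3) (hMℓ : M ≠ ℓ) (hℓN : ¬ ℓ ∣ N) :
    (M : L) ≠ 0 ∧ ((M * N : ℕ) : L) ≠ 0 := by
  have h1 : ¬ ℓ ∣ M := by
    intro h
    rcases hM with rfl | rfl
    · exact hMℓ ((Nat.prime_dvd_prime_iff_eq hℓ Nat.prime_two).mp h).symm
    · exact hMℓ ((Nat.prime_dvd_prime_iff_eq hℓ Nat.prime_three).mp h).symm
  constructor
  · rwa [Ne, CharP.cast_eq_zero_iff L ℓ]
  · rw [Ne, CharP.cast_eq_zero_iff L ℓ, hℓ.dvd_mul]
    tauto

end Roots

section Final

variable (N : ℕ) [NeZero N] (A : ValuationSubring (AlgebraicClosure ℚ)) {ℓ : ℕ}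
  (hℓ : ℓ.Prime) (hA : A.LiesOverPrime ℓ) (hℓN : ¬ ℓ ∣ N)

include hℓ hA hℓN

/-- **CUSP, final**: `#cusps(E_k) ≤ #cusps(F')`, for `F' = F(μ)`, `E_k = F_k(μ̄)`,
`R_M(μ) = j`, `R_M(μ̄) = j̄`, `[E_k : F_k] ≤ [F' : F]`. -/
theorem CUF_cusp_le {M : ℕ} (hM : M = 2 ∨ M = 3) (hMℓ : M ≠ ℓ)
    {F' : Type} [Field F'] [Algebra (AlgebraicClosure ℚ) F']
    [Algebra ↥(modularFunctionFieldBar N) F']
    [IsScalarTower (AlgebraicClosure ℚ) ↥(modularFunctionFieldBar N) F']
    {μ : F'} (hμ : (AX_poly F' M (algebraMap ↥(modularFunctionFieldBar N) F' (jB N))).eval μ = 0)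
    (hgen : IntermediateField.adjoin ↥(modularFunctionFieldBar N) {μ} = ⊤)
    {Ek : Type} [Field Ek] [Algebra (IsLocalRing.ResidueField A) Ek]
    [Algebra ↥(modularFunctionFieldFullC (IsLocalRing.ResidueField A) N) Ek]
    [IsScalarTower (IsLocalRing.ResidueField A)
      ↥(modularFunctionFieldFullC (IsLocalRing.ResidueField A) N) Ek]
    {μk : Ek}
    (hμk : (AX_poly Ek M (algebraMap ↥(modularFunctionFieldFullC (IsLocalRing.ResidueField A) N)
      Ek (S18_jbar N (IsLocalRing.ResidueField A)))).eval μk = 0)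
    (hgenk : IntermediateField.adjoin
      ↥(modularFunctionFieldFullC (IsLocalRing.ResidueField A) N) {μk} = ⊤)
    (hle : Module.finrank ↥(modularFunctionFieldFullC (IsLocalRing.ResidueField A) N) Ek ≤
      Module.finrank ↥(modularFunctionFieldBar N) F') :
    Set.ncard {w : Place (IsLocalRing.ResidueField A) Ek |
        w.ord (algebraMap ↥(modularFunctionFieldFullC (IsLocalRing.ResidueField A) N) Ek
          (S18_jbar N (IsLocalRing.ResidueField A))) < 0} ≤
      Set.ncard {w : Place (AlgebraicClosure ℚ) F' |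
        w.ord (algebraMap ↥(modularFunctionFieldBar N) F' (jB N)) < 0} := by
  classical
  haveI : IsAlgClosed (IsLocalRing.ResidueField A) := S18_residue_isAlgClosed A
  haveI : CharP (IsLocalRing.ResidueField A) ℓ := S18_residue_charP A ℓ hℓ hA
  haveI : Fact ℓ.Prime := ⟨hℓ⟩
  haveI : Finite (Cos N) := Subgroup.finite_quotient_of_finiteIndex
  letI := KE_algQC
  letI := KE_algkV A
  haveI hfdK := finiteDimensional_jB N
  haveI hsepK := S24_isSeparable_jB N
  haveI hfdk := S18_finite_jbar N hℓ hℓN (S18_ψ A hℓ hA)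
  haveI hsepk := S18_isSeparable_jbar N hℓN (S18_ψ A hℓ hA)
  -- the permutation, from the `ℂ`-side
  have hzK := (KE_hyp_complex N).hz
  have hzk := (KE_hyp_kV N hℓ hℓN A hA).hz
  haveI : FiniteDimensional (AlgebraicClosure ℚ)⟮(jB N)⁻¹⟯ ↥(modularFunctionFieldBar N) :=
    W_finite_inv (jB N)
  haveI : Algebra.IsSeparable (AlgebraicClosure ℚ)⟮(jB N)⁻¹⟯ ↥(modularFunctionFieldBar N) := by
    have e := BG_adjoin_inv (K := AlgebraicClosure ℚ) (jB N)
    exact e.symm ▸ hsepK
  obtain ⟨τ, hτ⟩ := CU_exists_perm (x := (jB N)⁻¹) (KE_embK N) (KE_embK_injective N)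
    ((kcj N ℂ)⁻¹) (KE_embK_jB_inv N)
    (by rw [W_finrank_inv, finrank_eq_card_cos]) (zetaC N) (KE_zetaC_ne_zero N)
    (KE_kcj_inv_hinv hzK)
  have htwk : ∀ γ (f : ↥(modularFunctionFieldFullC (IsLocalRing.ResidueField A) N)) (n : ℤ),
      (KE_embk N hℓ hℓN A hA (τ γ) f).coeff n =
        KE_zbar N (KE_V A) ^ n * (KE_embk N hℓ hℓN A hA γ f).coeff n :=
    fun γ => KE_twist_same N hℓ hℓN A hA γ (τ γ) (hτ γ)
  -- roots of unity
  have hMN0 : M * N ≠ 0 := by
    have hMpos : 0 < M := by rcases hM with rfl | rfl <;> norm_num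
    exact (Nat.mul_pos hMpos (Nat.pos_of_ne_zero (NeZero.ne N))).ne'
  have hMLK : (M : ℂ) ≠ 0 := by
    rcases hM with rfl | rfl <;> norm_num
  have hMNK : ((M * N : ℕ) : ℂ) ≠ 0 := by exact_mod_cast hMN0
  obtain ⟨ζK, hζK, hζzK⟩ := CUF_exists_primitiveRoot_pow hMNK hzK
  obtain ⟨ωK, hωK⟩ := CUF_exists_omega (L := ℂ)
  haveI : IsAlgClosed (IsLocalRing.ResidueField (KE_V A)) := S18_residue_isAlgClosed (KE_V A)
  haveI : CharP (IsLocalRing.ResidueField (KE_V A)) ℓ :=
    charP_residueField_valuationSubring (KE_V A) ℓ hℓ (KE_hV hℓ hA)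
  obtain ⟨hMLk, hMNk⟩ := CUF_natCast_ne_zero_of_charP
    (L := IsLocalRing.ResidueField (KE_V A)) ℓ hℓ hM hMℓ hℓN
  obtain ⟨ζk, hζk, hζzk⟩ := CUF_exists_primitiveRoot_pow hMNk hzk
  obtain ⟨ωk, hωk⟩ := CUF_exists_omega (L := IsLocalRing.ResidueField (KE_V A))
  -- the two counts
  have h1 := CUF_side_count M N hM hMLK (transcendental_jB N) hμ hgen (KE_embK N)
    (KE_embK_injective N) (KE_embK_jB N) (finrank_eq_card_cos N) τ (zetaC N) hτ ζK hζK hζzK
    (fun _ => hωK)
  have h2 := CUF_side_count M N hM hMLk (S18_transcendental_jbar N) hμk hgenk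
    (KE_embk N hℓ hℓN A hA) (KE_embk_injective N hℓ hℓN A hA) (KE_embk_j N hℓ hℓN A hA)
    (RIG_finrank_eq_card N A hℓ hA hℓN) τ (KE_zbar N (KE_V A)) htwk ζk hζk hζzk
    (fun _ => hωk)
  exact CU_cusp_le_of_counts
    (fun γ => Nat.lcm (Nat.card (MulAction.orbit (Subgroup.zpowers τ) γ)) M) _ _ hle _ _ h1 h2

end Final

end Fermat.Agent.S18
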