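import Mathlib
import Fermat.Agent.S18.SemiReg

/-!
# S18, package SEMI (helper25): Deuring's inequality from degree preservation `IsCart`

For `S : S18_Val L F k Fk`, `x : S.O`, `y : Fin n → S.O` with `S.IsCart x y` (helper16):

* `S18_Val.IsCart.span_top`, `finrank_eq`        : `[F : L(x)] = n`;
* `S18_Val.red_mem_adjoin_of_mem`                : `red (O ∩ L(x)) ⊆ k(red x)`;
* `S18_Val.IsCart.span_red_top`, `finrank_red_eq`: `[Fk : k(red x)] = n`;
* `S18_semi_poleDiv_degree`                      : `deg (x)_∞ = [F : K(x)]` (separable case);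
* `S18_Val.IsCart.genus_le`                      : **Deuring** `RR_genus k Fk ≤ RR_genus L F`;
* `S18_Val.IsCart.onto_integral`                 : **ONTO** in the equality case.
-/

set_option autoImplicit false

open AlgebraicCurve IntermediateField Polynomial
open scoped IntermediateField.algebraAdjoinAdjoin

universe u v

namespace Fermat.Agent.S18

open Fermat.Agent.Lib Fermat.Agent.S24

section Degree

variable {K : Type u} {F : Type v} [Field K] [Field F] [Algebra K F] [IsAlgClosed K]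

/-- `deg (x)_∞ = [F : K(x)]` for a separating transcendental `x`. -/
theorem S18_semi_poleDiv_degree {x : F} (hx : Transcendental K x) [FiniteDimensional K⟮x⟯ F]
    [Algebra.IsSeparable K⟮x⟯ F] (hdeg : ∀ v : Place K F, v.deg = 1)
    (hP : HasPrincipalDivisors K F) :
    (RR_poleDiv hP x).degree = (Module.finrank K⟮x⟯ F : ℤ) := by
  classical
  have hsub : (RR_poleDiv hP x).support ⊆ FFS_poles hx := by
    intro v hv
    rw [FFS_mem_poles]
    rw [Finsupp.mem_support_iff, RR_poleDiv_apply] at hv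
    by_contra hcon
    exact hv (max_eq_right (by omega))
  rw [RR_degree_eq_sum_of_subset hdeg _ hsub]
  have h1 := FFS_sum_poles hx
  have h2 : ∑ v ∈ FFS_poles hx, RR_poleDiv hP x v = ∑ v ∈ FFS_poles hx, (-v.ord x) :=
    Finset.sum_congr rfl fun v hv => by
      rw [RR_poleDiv_apply]
      exact max_eq_left (by have := (FFS_mem_poles hx v).1 hv; omega)
  rw [h2, Finset.sum_neg_distrib, h1, neg_neg]

end Degree

variable {L F k Fk : Type*} [Field L] [Field F] [Algebra L F] [Field k] [Field Fk]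
  [Algebra k Fk]

namespace S18_Val

variable {S : S18_Val L F k Fk}

/-- elements of `L(x)` are quotients of polynomials in `x`. -/
theorem exists_aeval_div (x : F) (g : L⟮x⟯) : ∃ P Q : L[X], aeval x Q ≠ 0 ∧
    (g : F) = aeval x P / aeval x Q := by
  obtain ⟨P, Q, hPQ⟩ := (mem_adjoin_simple_iff L (g : F)).mp g.2
  by_cases hQ : aeval x Q = 0
  · refine ⟨0, 1, by simp, ?_⟩
    rw [hPQ, hQ, div_zero, map_zero, zero_div]
  · exact ⟨P, Q, hQ, hPQ⟩

/-- the `y i` are linearly independent over `L(x)`. -/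
theorem IsCart.linearIndependent {x : S.O} {n : ℕ} {y : Fin n → S.O} (hC : S.IsCart x y) :
    LinearIndependent L⟮(x : F)⟯ (fun i => (y i : F)) := by
  classical
  rw [Fintype.linearIndependent_iff]
  intro g hg
  choose P Q hQ hPQ using fun i => exists_aeval_div (x : F) (g i)
  have h1 : ∑ i, aeval (x : F) (P i * ∏ j ∈ Finset.univ.erase i, Q j) * (y i : F) = 0 := by
    have h2 : ∀ i, aeval (x : F) (P i * ∏ j ∈ Finset.univ.erase i, Q j) * (y i : F) =
        aeval (x : F) (∏ j, Q j) * (g i • (y i : F)) := by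
      intro i
      rw [← Finset.mul_prod_erase Finset.univ Q (Finset.mem_univ i), map_mul, map_mul,
        IntermediateField.smul_def, smul_eq_mul, hPQ i]
      field_simp [hQ i]
    rw [Finset.sum_congr rfl fun i _ => h2 i, ← Finset.mul_sum, hg, mul_zero]
  have h3 := eq_zero_of_sum_aeval_eq_zero hC.indep _ h1
  intro i
  have h4 : P i = 0 := by
    rcases mul_eq_zero.mp (h3 i) with h | h
    · exact h
    · exfalso
      rw [Finset.prod_eq_zero_iff] at h
      obtain ⟨j, -, hj⟩ := h
      exact hQ j (by rw [hj, map_zero])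
  apply Subtype.ext
  rw [hPQ i, h4, map_zero, zero_div]
  rfl

/-- the `y i` span `F` over `L(x)`. -/
theorem IsCart.span_top {x : S.O} {n : ℕ} {y : Fin n → S.O} (hC : S.IsCart x y) :
    Submodule.span L⟮(x : F)⟯ (Set.range fun i => (y i : F)) = ⊤ := by
  classical
  rw [eq_top_iff]
  intro f _
  obtain ⟨d, p, hd0, hdp⟩ := hC.span f
  have hxt := hC.transcendental_x
  have hd : aeval (x : F) d ≠ 0 := fun h =>
    hd0 ((transcendental_iff_injective.mp hxt) (by rw [h, map_zero]))
  have hmem : ∀ q : L[X], aeval (x : F) q ∈ L⟮(x : F)⟯ := by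
    intro q
    have : aeval (x : F) q ∈ Algebra.adjoin L {(x : F)} := by
      rw [Algebra.adjoin_singleton_eq_range_aeval]
      exact ⟨q, rfl⟩
    exact algebra_adjoin_le_adjoin L _ this
  have hf : f = ∑ i, (⟨aeval (x : F) (p i) / aeval (x : F) d,
      div_mem (hmem _) (hmem _)⟩ : L⟮(x : F)⟯) • (y i : F) := by
    have h1 : ∀ i, (⟨aeval (x : F) (p i) / aeval (x : F) d,
        div_mem (hmem _) (hmem _)⟩ : L⟮(x : F)⟯) • (y i : F) =
        (aeval (x : F) d)⁻¹ * (aeval (x : F) (p i) * (y i : F)) := by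
      intro i
      rw [IntermediateField.smul_def, smul_eq_mul]
      simp only [div_eq_mul_inv]
      ring
    rw [Finset.sum_congr rfl fun i _ => h1 i, ← Finset.mul_sum, ← hdp, ← mul_assoc,
      inv_mul_cancel₀ hd, one_mul]
  rw [hf]
  exact Submodule.sum_mem _ fun i _ =>
    Submodule.smul_mem _ _ (Submodule.subset_span ⟨i, rfl⟩)

theorem IsCart.finiteDimensional {x : S.O} {n : ℕ} {y : Fin n → S.O} (hC : S.IsCart x y) :
    FiniteDimensional L⟮(x : F)⟯ F :=
  Module.Finite.of_fg_top (by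
    rw [← hC.span_top]
    exact Submodule.fg_span (Set.finite_range _))

/-- `[F : L(x)] = n`. -/
theorem IsCart.finrank_eq {x : S.O} {n : ℕ} {y : Fin n → S.O} (hC : S.IsCart x y) :
    Module.finrank L⟮(x : F)⟯ F = n := by
  have h := finrank_span_eq_card hC.linearIndependent
  rw [hC.span_top, finrank_top, Fintype.card_fin] at h
  exact h

/-- the reduction of an element of `O ∩ L(x)` lies in `k(red x)`. -/
theorem red_mem_adjoin_of_mem {x : S.O} (hx : Transcendental k (S.red x)) (a : S.O)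
    (ha : (a : F) ∈ L⟮(x : F)⟯) : S.red a ∈ k⟮S.red x⟯ := by
  classical
  obtain ⟨P, Q, hQ, hPQ⟩ := exists_aeval_div (x : F) ⟨(a : F), ha⟩
  have hQ0 : Q ≠ 0 := fun h => hQ (by rw [h, map_zero])
  obtain ⟨c, u, hc0, hu, hcu⟩ := S.exists_const_mul_unit_aeval hx Q hQ0
  have hcF : algebraMap L F c ≠ 0 := by simpa using hc0
  have huF : (u : F) ≠ 0 := ne_zero_of_red_ne_zero hu
  -- `u = (c⁻¹ Q)(x)` and `a u = (c⁻¹ P)(x)`
  have h1 : aeval (x : F) (C c⁻¹ * Q) = (u : F) := by
    rw [map_mul, aeval_C, hcu, ← mul_assoc, ← map_mul, inv_mul_cancel₀ hc0, map_one, one_mul]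
  have h2 : aeval (x : F) (C c⁻¹ * P) = ((a * u : S.O) : F) := by
    have hPQ' : (a : F) = aeval (x : F) P / aeval (x : F) Q := hPQ
    have : aeval (x : F) P = (a : F) * aeval (x : F) Q := by
      rw [hPQ']; field_simp
    rw [map_mul, aeval_C, this, hcu, map_inv₀]
    push_cast
    field_simp
  have h1m : aeval (x : F) (C c⁻¹ * Q) ∈ S.O := by rw [h1]; exact u.2
  have h2m : aeval (x : F) (C c⁻¹ * P) ∈ S.O := by rw [h2]; exact (a * u).2
  have e1 : (⟨aeval (x : F) (C c⁻¹ * Q), h1m⟩ : S.O) = u := Subtype.ext h1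
  have e2 : (⟨aeval (x : F) (C c⁻¹ * P), h2m⟩ : S.O) = a * u := Subtype.ext h2
  have m1 := red_aeval_mem_adjoin hx _ h1m
  have m2 := red_aeval_mem_adjoin hx _ h2m
  rw [e1] at m1
  rw [e2, map_mul] at m2
  have m1' : S.red u ∈ k⟮S.red x⟯ := algebra_adjoin_le_adjoin k _ m1
  have m2' : S.red a * S.red u ∈ k⟮S.red x⟯ := algebra_adjoin_le_adjoin k _ m2
  have : S.red a = S.red a * S.red u / S.red u := by field_simp
  rw [this]
  exact div_mem m2' m1'

/-- the `red (y i)` span `Fk` over `k(red x)`. -/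
theorem IsCart.span_red_top {x : S.O} {n : ℕ} {y : Fin n → S.O} (hC : S.IsCart x y) :
    Submodule.span k⟮S.red x⟯ (Set.range fun i => S.red (y i)) = ⊤ := by
  classical
  rw [eq_top_iff]
  intro w _
  obtain ⟨f, rfl⟩ := S.red_surjective w
  obtain ⟨a, haO, haL, hfa⟩ := hC.exists_repr f
  have hf : f = ∑ i, (⟨a i, haO i⟩ : S.O) * y i := by
    apply Subtype.ext
    rw [hfa]
    push_cast
    rfl
  rw [hf, map_sum]
  refine Submodule.sum_mem _ fun i _ => ?_
  rw [map_mul]
  have hm : S.red ⟨a i, haO i⟩ ∈ k⟮S.red x⟯ := red_mem_adjoin_of_mem hC.transc _ (haL i)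
  have : S.red ⟨a i, haO i⟩ * S.red (y i) =
      (⟨S.red ⟨a i, haO i⟩, hm⟩ : k⟮S.red x⟯) • S.red (y i) := by
    rw [IntermediateField.smul_def, smul_eq_mul]
  rw [this]
  exact Submodule.smul_mem _ _ (Submodule.subset_span ⟨i, rfl⟩)

/-- the `red (y i)` are linearly independent over `k(red x)`. -/
theorem IsCart.linearIndependent_red {x : S.O} {n : ℕ} {y : Fin n → S.O} (hC : S.IsCart x y) :
    LinearIndependent k⟮S.red x⟯ (fun i => S.red (y i)) := by
  classical
  rw [Fintype.linearIndependent_iff]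
  intro g hg
  choose P Q hQ hPQ using fun i => exists_aeval_div (S.red x) (g i)
  have h1 : ∑ i, aeval (S.red x) (P i * ∏ j ∈ Finset.univ.erase i, Q j) * S.red (y i) = 0 := by
    have h2 : ∀ i, aeval (S.red x) (P i * ∏ j ∈ Finset.univ.erase i, Q j) * S.red (y i) =
        aeval (S.red x) (∏ j, Q j) * (g i • S.red (y i)) := by
      intro i
      rw [← Finset.mul_prod_erase Finset.univ Q (Finset.mem_univ i), map_mul, map_mul,
        IntermediateField.smul_def, smul_eq_mul, hPQ i]
      field_simp [hQ i]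
    rw [Finset.sum_congr rfl fun i _ => h2 i, ← Finset.mul_sum, hg, mul_zero]
  have h3 := hC.indep _ h1
  intro i
  have h4 : P i = 0 := by
    rcases mul_eq_zero.mp (h3 i) with h | h
    · exact h
    · exfalso
      rw [Finset.prod_eq_zero_iff] at h
      obtain ⟨j, -, hj⟩ := h
      exact hQ j (by rw [hj, map_zero])
  apply Subtype.ext
  rw [hPQ i, h4, map_zero, zero_div]
  rfl

theorem IsCart.finiteDimensional_red {x : S.O} {n : ℕ} {y : Fin n → S.O} (hC : S.IsCart x y) :
    FiniteDimensional k⟮S.red x⟯ Fk :=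
  Module.Finite.of_fg_top (by
    rw [← hC.span_red_top]
    exact Submodule.fg_span (Set.finite_range _))

/-- `[Fk : k(red x)] = n`. -/
theorem IsCart.finrank_red_eq {x : S.O} {n : ℕ} {y : Fin n → S.O} (hC : S.IsCart x y) :
    Module.finrank k⟮S.red x⟯ Fk = n := by
  have h := finrank_span_eq_card hC.linearIndependent_red
  rw [hC.span_red_top, finrank_top, Fintype.card_fin] at h
  exact h

end S18_Val

section Final

variable [IsAlgClosed L] [IsAlgClosed k]

omit [IsAlgClosed k] in
theorem S18_Val.IsCart.poleDiv_degree {S : S18_Val L F k Fk} {x : S.O} {n : ℕ}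
    {y : Fin n → S.O} (hC : S.IsCart x y) [Algebra.IsSeparable L⟮(x : F)⟯ F]
    (hF : RR_Hyp L F) :
    (RR_poleDiv hF.principal (x : F)).degree = (n : ℤ) := by
  have := hC.finiteDimensional
  rw [S18_semi_poleDiv_degree hC.transcendental_x hF.deg_one, hC.finrank_eq]

omit [IsAlgClosed L] in
theorem S18_Val.IsCart.poleDiv_degree_red {S : S18_Val L F k Fk} {x : S.O} {n : ℕ}
    {y : Fin n → S.O} (hC : S.IsCart x y) [Algebra.IsSeparable k⟮S.red x⟯ Fk]
    (hFk : RR_Hyp k Fk) :
    (RR_poleDiv hFk.principal (S.red x)).degree = (n : ℤ) := by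
  have := hC.finiteDimensional_red
  rw [S18_semi_poleDiv_degree hC.transc hFk.deg_one, hC.finrank_red_eq]

omit [IsAlgClosed L] [IsAlgClosed k] in
theorem S18_Val.IsCart.pos {S : S18_Val L F k Fk} {x : S.O} {n : ℕ}
    {y : Fin n → S.O} (hC : S.IsCart x y) : 0 < n := by
  have := hC.finiteDimensional
  have h := hC.finrank_eq
  have : 0 < Module.finrank L⟮(x : F)⟯ F := Module.finrank_pos
  omega

/-- **Deuring's inequality** from degree preservation. -/
theorem S18_Val.IsCart.genus_le {S : S18_Val L F k Fk} {x : S.O} {n : ℕ}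
    {y : Fin n → S.O} (hC : S.IsCart x y)
    [Algebra.IsSeparable L⟮(x : F)⟯ F] [Algebra.IsSeparable k⟮S.red x⟯ Fk]
    (hF : RR_Hyp L F) (hFk : RR_Hyp k Fk) : RR_genus k Fk ≤ RR_genus L F := by
  have := hC.finiteDimensional
  have h := hC.semiHyp
  have hpos := hC.pos
  refine S18_semi_genus_le S h hF hFk ?_ ?_
  · rw [hC.poleDiv_degree hF, hC.poleDiv_degree_red hFk]
  · rw [hC.poleDiv_degree_red hFk]
    exact_mod_cast hpos

/-- **ONTO** in the equality case: every function on the special fibre that is regular where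
`red x` is regular lifts to an integral function that is regular where `x` is regular. -/
theorem S18_Val.IsCart.onto_integral {S : S18_Val L F k Fk} {x : S.O} {n : ℕ}
    {y : Fin n → S.O} (hC : S.IsCart x y)
    [Algebra.IsSeparable L⟮(x : F)⟯ F] [Algebra.IsSeparable k⟮S.red x⟯ Fk]
    (hF : RR_Hyp L F) (hFk : RR_Hyp k Fk) (hg : RR_genus L F ≤ RR_genus k Fk)
    (w : Fk) (hw : ∀ Q : Place k Fk, 0 ≤ Q.ord (S.red x) → 0 ≤ Q.ord w) :
    ∃ f : S.O, (∀ P : Place L F, 0 ≤ P.ord (x : F) → 0 ≤ P.ord (f : F)) ∧ S.red f = w := by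
  have := hC.finiteDimensional
  have h := hC.semiHyp
  have hpos := hC.pos
  refine S18_semi_onto_integral S h hF hFk ?_ ?_ hg w hw
  · rw [hC.poleDiv_degree hF, hC.poleDiv_degree_red hFk]
  · rw [hC.poleDiv_degree_red hFk]
    exact_mod_cast hpos

/-- **ONTO**, Riemann–Roch space form. -/
theorem S18_Val.IsCart.onto {S : S18_Val L F k Fk} {x : S.O} {n : ℕ}
    {y : Fin n → S.O} (hC : S.IsCart x y)
    [Algebra.IsSeparable L⟮(x : F)⟯ F] [Algebra.IsSeparable k⟮S.red x⟯ Fk]
    (hF : RR_Hyp L F) (hFk : RR_Hyp k Fk) (hg : RR_genus L F ≤ RR_genus k Fk) :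
    ∃ m₀ : ℕ, ∀ m : ℕ, m₀ ≤ m →
      ∀ w ∈ riemannRochSpace (m • RR_poleDiv hFk.principal (S.red x)),
        ∃ f : S.O, (f : F) ∈ riemannRochSpace (m • RR_poleDiv hF.principal (x : F)) ∧
          S.red f = w := by
  have := hC.finiteDimensional
  have h := hC.semiHyp
  have hpos := hC.pos
  refine S18_semi_onto S h hF hFk ?_ ?_ hg
  · rw [hC.poleDiv_degree hF, hC.poleDiv_degree_red hFk]
  · rw [hC.poleDiv_degree_red hFk]
    exact_mod_cast hpos

end Final

end Fermat.Agent.S18
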