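import Fermat.Agent.Lib.DiffLocal
import Fermat.Agent.Lib.FFSep

/-!
# S18 (TRACK 3), package SQ-count: the degree of `div(dμ)` against the cusp set

`K` algebraically closed, `μ : F` transcendental, `F / K(μ)` finite separable, `C : Finset K`,
`cuspSet = {poles of μ} ∪ {zeros of μ - c, c ∈ C}`.  If `W = div(dμ)` then

* `SQ_degree_ge`: `(|C| - 1) n - |cuspSet| ≤ deg W` (any characteristic);
* `SQ_degree_eq`: equality in characteristic `0` if `dμ` has no zero off the cusp set.
-/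

set_option autoImplicit false

open AlgebraicCurve IntermediateField KaehlerDifferential

namespace Fermat.Agent.S18

open Fermat.Agent.S24 Fermat.Agent.Lib

variable {K F : Type*} [Field K] [Field F] [Algebra K F]

/-- the cusp set of `μ` relative to a finite set `C` of values. -/
def SQ_cuspSet (μ : F) (C : Finset K) : Set (Place K F) :=
  {v | v.ord μ < 0 ∨ ∃ c ∈ C, 0 < v.ord (μ - algebraMap K F c)}

theorem SQ_adjoin_sub (x : F) (c : K) : K⟮x - algebraMap K F c⟯ = K⟮x⟯ := by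
  apply le_antisymm
  · rw [adjoin_simple_le_iff]
    exact sub_mem (mem_adjoin_simple_self K x) (IntermediateField.algebraMap_mem _ c)
  · rw [adjoin_simple_le_iff]
    have h1 : x - algebraMap K F c ∈ K⟮x - algebraMap K F c⟯ := mem_adjoin_simple_self K _
    have h2 : algebraMap K F c ∈ K⟮x - algebraMap K F c⟯ := IntermediateField.algebraMap_mem _ c
    have := add_mem h1 h2
    simpa using this

theorem SQ_transcendental_sub {x : F} (hx : Transcendental K x) (c : K) :
    Transcendental K (x - algebraMap K F c) := by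
  intro h
  apply hx
  have h2 : IsAlgebraic K (algebraMap K F c) := isAlgebraic_algebraMap c
  have := h.add h2
  simpa using this

section

variable [IsAlgClosed K] {μ : F} (hμ : Transcendental K μ) [hfd : FiniteDimensional K⟮μ⟯ F]
  [hsep : Algebra.IsSeparable K⟮μ⟯ F]

include hμ hfd hsep

/-- the zeros of `μ - c`, with multiplicities adding up to `n = [F : K(μ)]`. -/
theorem SQ_zeros_sub (c : K) :
    ∃ Z : Finset (Place K F), (∀ v, v ∈ Z ↔ 0 < v.ord (μ - algebraMap K F c)) ∧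
      ∑ v ∈ Z, v.ord (μ - algebraMap K F c) = (Module.finrank K⟮μ⟯ F : ℤ) := by
  have e := SQ_adjoin_sub (K := K) μ c
  have h1 : FiniteDimensional K⟮μ - algebraMap K F c⟯ F := e ▸ hfd
  have h2 : Algebra.IsSeparable K⟮μ - algebraMap K F c⟯ F := e ▸ hsep
  have h3 : Module.finrank K⟮μ - algebraMap K F c⟯ F = Module.finrank K⟮μ⟯ F :=
    congrArg (fun E : IntermediateField K F => Module.finrank E F) e
  refine ⟨FFS_zeros (SQ_transcendental_sub hμ c), FFS_mem_zeros _, ?_⟩
  rw [FFS_sum_zeros, h3]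

/-- the poles of `μ`, with multiplicities adding up to `n = [F : K(μ)]`. -/
theorem SQ_poles :
    ∃ P : Finset (Place K F), (∀ v, v ∈ P ↔ v.ord μ < 0) ∧
      ∑ v ∈ P, v.ord μ = -(Module.finrank K⟮μ⟯ F : ℤ) :=
  ⟨FFS_poles hμ, FFS_mem_poles hμ, FFS_sum_poles hμ⟩

theorem SQ_D_ne_zero : D K F μ ≠ 0 := by
  intro h0
  obtain ⟨P, hP, hsum⟩ := SQ_poles hμ
  -- there is a pole
  have hne : P.Nonempty := by
    by_contra hem
    rw [Finset.not_nonempty_iff_eq_empty] at hem
    rw [hem, Finset.sum_empty] at hsum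
    have : 0 < Module.finrank K⟮μ⟯ F := Module.finrank_pos
    omega
  obtain ⟨v, hv⟩ := hne
  have hdeg := FD_deg_one μ v
  have h1 := FD_span_D (K := K) μ
  rw [h0] at h1
  have h2 := FD_D_t_ne_zero v hdeg
  have h3 : D K F (FD_t v) ∈ Submodule.span F {(0 : Ω[F⁄K])} := by rw [h1]; trivial
  rw [Submodule.span_zero_singleton, Submodule.mem_bot] at h3
  exact h2 h3

/-- the decomposition of `deg W` along the cusp set. -/
theorem SQ_decomp (C : Finset K) (W : Divisor K F) :
    ∃ (P : Finset (Place K F)) (Z : K → Finset (Place K F)) (R : Finset (Place K F)),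
      (∀ v, v ∈ P ↔ v.ord μ < 0) ∧
      (∀ c v, v ∈ Z c ↔ 0 < v.ord (μ - algebraMap K F c)) ∧
      (∀ v ∈ R, 0 ≤ v.ord μ ∧ ∀ c ∈ C, ¬ 0 < v.ord (μ - algebraMap K F c)) ∧
      ∑ v ∈ P, v.ord μ = -(Module.finrank K⟮μ⟯ F : ℤ) ∧
      (∀ c, ∑ v ∈ Z c, v.ord (μ - algebraMap K F c) = (Module.finrank K⟮μ⟯ F : ℤ)) ∧
      (Set.ncard (SQ_cuspSet μ C) : ℤ) = P.card + ∑ c ∈ C, ((Z c).card : ℤ) ∧
      W.degree = ∑ v ∈ P, W v + ∑ c ∈ C, ∑ v ∈ Z c, W v + ∑ v ∈ R, W v := by
  classical
  obtain ⟨P, hP, hPsum⟩ := SQ_poles hμ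
  choose Z hZ hZsum using fun c => SQ_zeros_sub hμ c
  have hdeg : ∀ v : Place K F, v.deg = 1 := fun v => FD_deg_one μ v
  -- disjointness
  have hPZ : ∀ c, Disjoint P (Z c) := by
    intro c
    rw [Finset.disjoint_left]
    intro v hvP hvZ
    rw [hP] at hvP
    rw [hZ] at hvZ
    have hμ0 : μ ≠ 0 := fun h => hμ (h ▸ isAlgebraic_zero)
    have h1 : v.adicValuation μ ≤ 1 := by
      have h2 : v.adicValuation (μ - algebraMap K F c) ≤ 1 := by
        rw [v.adicValuation_le_one_iff]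
        exact Or.inr hvZ.le
      have := Valuation.map_add v.adicValuation (μ - algebraMap K F c) (algebraMap K F c)
      rw [sub_add_cancel] at this
      exact this.trans (max_le h2 (v.adicValuation_algebraMap_le_one c))
    rcases v.adicValuation_le_one_iff.1 h1 with h | h
    · exact hμ0 h
    · omega
  have hZZ : ∀ c c', c ≠ c' → Disjoint (Z c) (Z c') := by
    intro c c' hcc
    rw [Finset.disjoint_left]
    intro v hv hv'
    rw [hZ] at hv hv'
    have h0 : μ - algebraMap K F c ≠ 0 := fun h => (SQ_transcendental_sub hμ c) (h ▸ isAlgebraic_zero)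
    have h0' : μ - algebraMap K F c' ≠ 0 :=
      fun h => (SQ_transcendental_sub hμ c') (h ▸ isAlgebraic_zero)
    have h3 : v.adicValuation (μ - algebraMap K F c) < 1 := by
      rw [v.adicValuation_eq_exp_neg_ord h0, ← WithZero.exp_zero, WithZero.exp_lt_exp]
      omega
    have h4 : v.adicValuation (μ - algebraMap K F c') < 1 := by
      rw [v.adicValuation_eq_exp_neg_ord h0', ← WithZero.exp_zero, WithZero.exp_lt_exp]
      omega
    have h5 : v.adicValuation (algebraMap K F (c - c')) < 1 := by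
      have : algebraMap K F (c - c') = (μ - algebraMap K F c') - (μ - algebraMap K F c) := by
        rw [map_sub]; ring
      rw [this]
      exact lt_of_le_of_lt (Valuation.map_sub _ _ _) (max_lt h4 h3)
    rw [FD_val_algebraMap v (sub_ne_zero.2 hcc)] at h5
    exact lt_irrefl _ h5
  have hpair : (C : Set K).PairwiseDisjoint Z := by
    intro c _ c' _ hcc
    exact hZZ c c' hcc
  have hPU : Disjoint P (C.biUnion Z) := by
    rw [Finset.disjoint_biUnion_right]
    intro c _
    exact hPZ c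
  set T := P ∪ C.biUnion Z with hT
  have hTmem : ∀ v, v ∈ T ↔ v ∈ SQ_cuspSet μ C := by
    intro v
    rw [hT, Finset.mem_union, Finset.mem_biUnion, hP]
    simp only [SQ_cuspSet, Set.mem_ofPred_eq, hZ]
  refine ⟨P, Z, W.support \ T, hP, hZ, ?_, hPsum, hZsum, ?_, ?_⟩
  · intro v hv
    rw [Finset.mem_sdiff, hTmem] at hv
    have hv2 := hv.2
    simp only [SQ_cuspSet, Set.mem_ofPred_eq, not_or, not_lt, not_exists, not_and] at hv2
    exact ⟨hv2.1, fun c hc => not_lt.2 (hv2.2 c hc)⟩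
  · have hset : SQ_cuspSet μ C = ↑T := by
      ext v
      rw [Finset.mem_coe, hTmem]
    rw [hset, Set.ncard_coe_finset, hT, Finset.card_union_of_disjoint hPU,
      Finset.card_biUnion (fun c hc c' hc' hcc => hZZ c c' hcc)]
    push_cast
    rfl
  · rw [RR_degree_eq_sum_of_subset hdeg W (s := T ∪ W.support) Finset.subset_union_right,
      ← Finset.union_sdiff_self_eq_union, Finset.sum_union Finset.disjoint_sdiff, hT,
      Finset.sum_union hPU, Finset.sum_biUnion hpair]

/-- **SQ-count, inequality** (any characteristic). -/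
theorem SQ_degree_ge (C : Finset K) (W : Divisor K F)
    (hW : ∀ v, W v = v.ordDifferential (D K F μ)) :
    ((C.card : ℤ) - 1) * Module.finrank K⟮μ⟯ F - (Set.ncard (SQ_cuspSet μ C) : ℤ) ≤ W.degree := by
  classical
  obtain ⟨P, Z, R, hP, hZ, hR, hPsum, hZsum, hcard, hdegW⟩ := SQ_decomp hμ C W
  have hdμ := SQ_D_ne_zero hμ
  have hμ0 : μ ≠ 0 := fun h => hμ (h ▸ isAlgebraic_zero)
  have h1 : ∑ v ∈ P, (v.ord μ - 1) ≤ ∑ v ∈ P, W v := by
    apply Finset.sum_le_sum
    intro v _
    rw [hW]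
    exact FD_ordDifferential_D_ge μ v (FD_deg_one μ v) hμ0 hdμ
  have h2 : ∀ c ∈ C, ∑ v ∈ Z c, (v.ord (μ - algebraMap K F c) - 1) ≤ ∑ v ∈ Z c, W v := by
    intro c _
    apply Finset.sum_le_sum
    intro v _
    rw [hW]
    exact FD_ordDifferential_D_of_sub_ge μ v (FD_deg_one μ v) hdμ
  have h3 : 0 ≤ ∑ v ∈ R, W v := by
    apply Finset.sum_nonneg
    intro v hv
    rw [hW]
    exact FD_ordDifferential_D_nonneg μ v (FD_deg_one μ v)
      ((BL_mem_iff_ord_nonneg v hμ0).2 (hR v hv).1)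
  have h4 : ∑ c ∈ C, ∑ v ∈ Z c, (v.ord (μ - algebraMap K F c) - 1) ≤
      ∑ c ∈ C, ∑ v ∈ Z c, W v := Finset.sum_le_sum h2
  have h5 : ∑ c ∈ C, ∑ v ∈ Z c, (v.ord (μ - algebraMap K F c) - 1) =
      (C.card : ℤ) * Module.finrank K⟮μ⟯ F - ∑ c ∈ C, ((Z c).card : ℤ) := by
    simp only [Finset.sum_sub_distrib, hZsum, Finset.sum_const, nsmul_eq_mul, mul_one]
  have h6 : ∑ v ∈ P, (v.ord μ - 1) = -(Module.finrank K⟮μ⟯ F : ℤ) - P.card := by
    rw [Finset.sum_sub_distrib, hPsum]
    simp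
  rw [hdegW, hcard]
  linarith

/-- **SQ-count, equality** (characteristic zero, `dμ` without zeros off the cusp set). -/
theorem SQ_degree_eq [CharZero K] (C : Finset K) (W : Divisor K F)
    (hW : ∀ v, W v = v.ordDifferential (D K F μ))
    (habh : ∀ v : Place K F, 0 ≤ v.ord μ → (∀ c ∈ C, ¬ 0 < v.ord (μ - algebraMap K F c)) →
      v.ordDifferential (D K F μ) = 0) :
    W.degree =
      ((C.card : ℤ) - 1) * Module.finrank K⟮μ⟯ F - (Set.ncard (SQ_cuspSet μ C) : ℤ) := by
  classical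
  obtain ⟨P, Z, R, hP, hZ, hR, hPsum, hZsum, hcard, hdegW⟩ := SQ_decomp hμ C W
  have h1 : ∑ v ∈ P, W v = ∑ v ∈ P, (v.ord μ - 1) := by
    apply Finset.sum_congr rfl
    intro v hv
    rw [hW]
    apply FD_ordDifferential_D μ v (FD_deg_one μ v)
    have := (hP v).1 hv
    exact_mod_cast (show v.ord μ ≠ 0 by omega)
  have h2 : ∀ c ∈ C, ∑ v ∈ Z c, W v = ∑ v ∈ Z c, (v.ord (μ - algebraMap K F c) - 1) := by
    intro c _
    apply Finset.sum_congr rfl
    intro v hv
    rw [hW]
    apply FD_ordDifferential_D_of_sub μ v (FD_deg_one μ v)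
    have := (hZ c v).1 hv
    exact_mod_cast (show v.ord (μ - algebraMap K F c) ≠ 0 by omega)
  have h3 : ∑ v ∈ R, W v = 0 := by
    apply Finset.sum_eq_zero
    intro v hv
    rw [hW]
    exact habh v (hR v hv).1 (hR v hv).2
  have h5 : ∑ c ∈ C, ∑ v ∈ Z c, (v.ord (μ - algebraMap K F c) - 1) =
      (C.card : ℤ) * Module.finrank K⟮μ⟯ F - ∑ c ∈ C, ((Z c).card : ℤ) := by
    simp only [Finset.sum_sub_distrib, hZsum, Finset.sum_const, nsmul_eq_mul, mul_one]
  have h6 : ∑ v ∈ P, (v.ord μ - 1) = -(Module.finrank K⟮μ⟯ F : ℤ) - P.card := by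
    rw [Finset.sum_sub_distrib, hPsum]
    simp
  rw [hdegW, hcard, h1, Finset.sum_congr rfl h2, h3, h5, h6]
  ring

end

end Fermat.Agent.S18
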