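import Mathlib
import Fermat.Agent.S18.SqCount
import Fermat.Agent.S18.MuOrd
import Fermat.Agent.S18.SemiCart

/-!
# S18 (TRACK 3), package SQZ (helper25): the SQUEEZE and the Step-1/2 wiring

* `SQZ_Hurwitz K F x` : the conclusion of Hurwitz' formula (`HW_hurwitz`, helper26) for `(F, x)`:
  `div(dx)` exists and has degree `2g − 2`.
* `SQZ_genus_le_of_hurwitz` : **SQUEEZE**.  In characteristic zero `F'/K(μ)` is unramified outside
  the cusp set (`habh`), on the special fibre `d ≥ e − 1`; same degree, same number of values `C`,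
  not more cusps on the special fibre  ⇒  `g(F') ≤ g(E_k)`.
* `SQZ_cuspSet_eq` : the cusp set of `μ` (values `MU_cusps`) is the set of poles of `j`
  (helper16's `MU_pole_iff`).
* `SQZ_genus_eq` : **Step 1**: SQUEEZE + Deuring (SEMI) ⇒ `g(F') = g(E_k)`.
* `SQZ_onto` : **Step 2**: ONTO in any chart `x` with `IsCart`, in the shape NORM consumes.
-/

set_option autoImplicit false

open AlgebraicCurve IntermediateField KaehlerDifferential

namespace Fermat.Agent.S18

open Fermat.Agent.Lib Fermat.Agent.S24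

/-- the conclusion of Hurwitz' formula for `(F, x)`: the divisor of `dx` exists and has degree
`2g − 2`. -/
def SQZ_Hurwitz (K F : Type*) [Field K] [Field F] [Algebra K F] (x : F) : Prop :=
  ∃ W : Divisor K F, (∀ v : Place K F, W v = v.ordDifferential (D K F x)) ∧
    W.degree = 2 * (RR_genus K F : ℤ) - 2

/-- pure arithmetic of the squeeze. -/
theorem SQZ_arith {g gk c ck n nk s sk : ℤ} (h0 : 2 * g - 2 = (c - 1) * n - s)
    (hk : (ck - 1) * nk - sk ≤ 2 * gk - 2) (hc : c = ck) (hn : n = nk) (hs : sk ≤ s) :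
    g ≤ gk := by
  subst hc hn
  linarith

/-- **SQUEEZE** (abstract): `RR_genus K F' ≤ RR_genus k Ek`. -/
theorem SQZ_genus_le_of_hurwitz
    {K F' : Type*} [Field K] [Field F'] [Algebra K F'] [IsAlgClosed K] [CharZero K]
    (μ : F') (hμ : Transcendental K μ) [FiniteDimensional K⟮μ⟯ F'] (C : Finset K)
    (hH : SQZ_Hurwitz K F' μ)
    (habh : ∀ v : Place K F', 0 ≤ v.ord μ → (∀ c ∈ C, ¬ 0 < v.ord (μ - algebraMap K F' c)) →
        v.ordDifferential (D K F' μ) = 0)
    {k Ek : Type*} [Field k] [Field Ek] [Algebra k Ek] [IsAlgClosed k]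
    (μb : Ek) (hμb : Transcendental k μb) [FiniteDimensional k⟮μb⟯ Ek]
    [Algebra.IsSeparable k⟮μb⟯ Ek] (Cb : Finset k)
    (hHk : SQZ_Hurwitz k Ek μb)
    (hcard : C.card = Cb.card) (hdeg : Module.finrank K⟮μ⟯ F' = Module.finrank k⟮μb⟯ Ek)
    (hcusp : Set.ncard (SQ_cuspSet μb Cb) ≤ Set.ncard (SQ_cuspSet μ C)) :
    RR_genus K F' ≤ RR_genus k Ek := by
  have : CharZero K⟮μ⟯ := charZero_of_injective_algebraMap (algebraMap K K⟮μ⟯).injective
  have : Algebra.IsSeparable K⟮μ⟯ F' := inferInstance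
  obtain ⟨W, hW, hWdeg⟩ := hH
  obtain ⟨Wk, hWk, hWkdeg⟩ := hHk
  have h1 := SQ_degree_eq hμ C W hW habh
  have h2 := SQ_degree_ge hμb Cb Wk hWk
  rw [hWdeg] at h1
  rw [hWkdeg] at h2
  have h3 : (RR_genus K F' : ℤ) ≤ RR_genus k Ek :=
    SQZ_arith h1 h2 (by exact_mod_cast hcard) (by exact_mod_cast hdeg) (by exact_mod_cast hcusp)
  exact_mod_cast h3

section Bridge

variable {K E : Type*} [Field K] [Field E] [Algebra K E] [DecidableEq K]

/-- **bridge**: the cusp set of `μ` is the set of poles of `j = R_M(μ)`. -/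
theorem SQZ_cuspSet_eq [IsAlgClosed K] (hE : S24_IsFunctionField1 K E) {M : ℕ}
    (hM : M = 2 ∨ M = 3) (hMK : (M : K) ≠ 0) {ω : K} (hω : M = 3 → ω ^ 2 + ω + 1 = 0)
    {μ j : E} (hμt : Transcendental K μ) (hμ : (AX_poly E M j).eval μ = 0) :
    SQ_cuspSet μ (MU_cusps M ω) = {w : Place K E | w.ord j < 0} := by
  ext w
  exact (MU_pole_iff hE hM hMK hω hμt hμ w).symm

end Bridge

section Wiring

variable {L F k Fk : Type*} [Field L] [Field F] [Algebra L F] [Field k] [Field Fk]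
  [Algebra k Fk] [IsAlgClosed L] [CharZero L] [IsAlgClosed k]

/-- **Step 1**: SQUEEZE (chart `μ`) + Deuring ⇒ the genus is preserved by reduction. -/
theorem SQZ_genus_eq {S : S18_Val L F k Fk} {μ : S.O} {n : ℕ} {y : Fin n → S.O}
    (hC : S.IsCart μ y) [Algebra.IsSeparable k⟮S.red μ⟯ Fk]
    (hF : RR_Hyp L F) (hFk : RR_Hyp k Fk)
    (hH : SQZ_Hurwitz L F (μ : F)) (hHk : SQZ_Hurwitz k Fk (S.red μ))
    (C : Finset L) (Cb : Finset k) (hcard : C.card = Cb.card)
    (habh : ∀ v : Place L F, 0 ≤ v.ord (μ : F) →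
        (∀ c ∈ C, ¬ 0 < v.ord ((μ : F) - algebraMap L F c)) →
        v.ordDifferential (D L F (μ : F)) = 0)
    (hcusp : Set.ncard (SQ_cuspSet (S.red μ) Cb) ≤ Set.ncard (SQ_cuspSet (μ : F) C)) :
    RR_genus L F = RR_genus k Fk := by
  have := hC.finiteDimensional
  have := hC.finiteDimensional_red
  have : CharZero L⟮(μ : F)⟯ :=
    charZero_of_injective_algebraMap (algebraMap L L⟮(μ : F)⟯).injective
  have : Algebra.IsSeparable L⟮(μ : F)⟯ F := inferInstance
  refine le_antisymm ?_ (hC.genus_le hF hFk)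
  exact SQZ_genus_le_of_hurwitz (μ : F) hC.transcendental_x C hH habh (S.red μ) hC.transc Cb hHk
    hcard (by rw [hC.finrank_eq, hC.finrank_red_eq]) hcusp

omit [CharZero L] in
/-- **Step 2 (ONTO)** in the chart `x` (any `x` with degree preservation `IsCart`), given the
genus inequality `hg` (from `SQZ_genus_eq`), in the shape consumed by NORM: `xF`, `xk` are the
names under which `x` and `red x` are known to the consumer. -/
theorem SQZ_onto {S : S18_Val L F k Fk} {x : S.O} {m : ℕ} {z : Fin m → S.O}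
    (hC : S.IsCart x z) [Algebra.IsSeparable L⟮(x : F)⟯ F] [Algebra.IsSeparable k⟮S.red x⟯ Fk]
    (hF : RR_Hyp L F) (hFk : RR_Hyp k Fk) (hg : RR_genus L F ≤ RR_genus k Fk)
    {xF : F} (hxF : (x : F) = xF) {xk : Fk} (hxk : S.red x = xk) :
    ∀ w : Fk, (∀ Q : Place k Fk, 0 ≤ Q.ord xk → 0 ≤ Q.ord w) →
      ∃ f : S.O, (∀ P : Place L F, 0 ≤ P.ord xF → 0 ≤ P.ord (f : F)) ∧ S.red f = w := by
  subst hxF hxk
  exact fun w hw => hC.onto_integral hF hFk hg w hw

/-- **Step 1 + Step 2**: SQUEEZE in the chart `μ`, ONTO in the chart `x`. -/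
theorem SQZ_step12 {S : S18_Val L F k Fk} {μ : S.O} {n : ℕ} {y : Fin n → S.O}
    (hCμ : S.IsCart μ y) [Algebra.IsSeparable k⟮S.red μ⟯ Fk]
    (hF : RR_Hyp L F) (hFk : RR_Hyp k Fk)
    (hH : SQZ_Hurwitz L F (μ : F)) (hHk : SQZ_Hurwitz k Fk (S.red μ))
    (C : Finset L) (Cb : Finset k) (hcard : C.card = Cb.card)
    (habh : ∀ v : Place L F, 0 ≤ v.ord (μ : F) →
        (∀ c ∈ C, ¬ 0 < v.ord ((μ : F) - algebraMap L F c)) →
        v.ordDifferential (D L F (μ : F)) = 0)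
    (hcusp : Set.ncard (SQ_cuspSet (S.red μ) Cb) ≤ Set.ncard (SQ_cuspSet (μ : F) C))
    {x : S.O} {m : ℕ} {z : Fin m → S.O} (hCx : S.IsCart x z)
    [Algebra.IsSeparable k⟮S.red x⟯ Fk]
    {xF : F} (hxF : (x : F) = xF) {xk : Fk} (hxk : S.red x = xk) :
    RR_genus L F = RR_genus k Fk ∧
    ∀ w : Fk, (∀ Q : Place k Fk, 0 ≤ Q.ord xk → 0 ≤ Q.ord w) →
      ∃ f : S.O, (∀ P : Place L F, 0 ≤ P.ord xF → 0 ≤ P.ord (f : F)) ∧ S.red f = w := by
  have hg := SQZ_genus_eq hCμ hF hFk hH hHk C Cb hcard habh hcusp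
  have := hCx.finiteDimensional
  have : CharZero L⟮(x : F)⟯ :=
    charZero_of_injective_algebraMap (algebraMap L L⟮(x : F)⟯).injective
  have : Algebra.IsSeparable L⟮(x : F)⟯ F := inferInstance
  exact ⟨hg, SQZ_onto hCx hF hFk hg.le hxF hxk⟩

end Wiring

end Fermat.Agent.S18
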