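import Mathlib
import Fermat.Agent.Lib.Hurwitz
import Fermat.Agent.S18.Squeeze

/-!
# S18 (TRACK 3), package SQZ (helper25): the SQUEEZE with Hurwitz' formula discharged

`HW_hurwitz` (helper26) gives `SQZ_Hurwitz K F x` for every separating transcendental `x`.

* `SQZ_hurwitz`   : `SQZ_Hurwitz K F x` from `RR_Hyp K F`.
* `SQZ_genus_le`  : **SQUEEZE**, helper4's statement.
* `SQZ_genus_eq'` : Step 1 on a valued function field with a cartesian chart `μ`.
* `SQZ_step12'`   : Step 1 + Step 2 (ONTO in the chart `x`).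
-/

set_option autoImplicit false

open AlgebraicCurve IntermediateField KaehlerDifferential

namespace Fermat.Agent.S18

open Fermat.Agent.Lib Fermat.Agent.S24

theorem SQZ_hurwitz {K F : Type*} [Field K] [Field F] [Algebra K F] [IsAlgClosed K]
    (h : RR_Hyp K F) (x : F) (hx : Transcendental K x)
    [FiniteDimensional K⟮x⟯ F] [Algebra.IsSeparable K⟮x⟯ F] : SQZ_Hurwitz K F x :=
  HW_hurwitz h x hx

/-- **SQUEEZE**: `RR_genus K F' ≤ RR_genus k Ek`. -/
theorem SQZ_genus_le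
    {K F' : Type*} [Field K] [Field F'] [Algebra K F'] [IsAlgClosed K] [CharZero K]
    (hF' : RR_Hyp K F')
    (μ : F') (hμ : Transcendental K μ) [FiniteDimensional K⟮μ⟯ F'] (C : Finset K)
    (habh : ∀ v : Place K F', 0 ≤ v.ord μ → (∀ c ∈ C, ¬ 0 < v.ord (μ - algebraMap K F' c)) →
        v.ordDifferential (D K F' μ) = 0)
    {k Ek : Type*} [Field k] [Field Ek] [Algebra k Ek] [IsAlgClosed k] (hEk : RR_Hyp k Ek)
    (μb : Ek) (hμb : Transcendental k μb) [FiniteDimensional k⟮μb⟯ Ek]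
    [Algebra.IsSeparable k⟮μb⟯ Ek] (Cb : Finset k)
    (hcard : C.card = Cb.card) (hdeg : Module.finrank K⟮μ⟯ F' = Module.finrank k⟮μb⟯ Ek)
    (hcusp : Set.ncard (SQ_cuspSet μb Cb) ≤ Set.ncard (SQ_cuspSet μ C)) :
    RR_genus K F' ≤ RR_genus k Ek := by
  have : CharZero K⟮μ⟯ := charZero_of_injective_algebraMap (algebraMap K K⟮μ⟯).injective
  have : Algebra.IsSeparable K⟮μ⟯ F' := inferInstance
  exact SQZ_genus_le_of_hurwitz μ hμ C (SQZ_hurwitz hF' μ hμ) habh μb hμb Cb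
    (SQZ_hurwitz hEk μb hμb) hcard hdeg hcusp

section Wiring

variable {L F k Fk : Type*} [Field L] [Field F] [Algebra L F] [Field k] [Field Fk]
  [Algebra k Fk] [IsAlgClosed L] [CharZero L] [IsAlgClosed k]

/-- **Step 1**: SQUEEZE (chart `μ`) + Deuring ⇒ the genus is preserved by reduction. -/
theorem SQZ_genus_eq' {S : S18_Val L F k Fk} {μ : S.O} {n : ℕ} {y : Fin n → S.O}
    (hC : S.IsCart μ y) [Algebra.IsSeparable k⟮S.red μ⟯ Fk]
    (hF : RR_Hyp L F) (hFk : RR_Hyp k Fk)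
    (C : Finset L) (Cb : Finset k) (hcard : C.card = Cb.card)
    (habh : ∀ v : Place L F, 0 ≤ v.ord (μ : F) →
        (∀ c ∈ C, ¬ 0 < v.ord ((μ : F) - algebraMap L F c)) →
        v.ordDifferential (D L F (μ : F)) = 0)
    (hcusp : Set.ncard (SQ_cuspSet (S.red μ) Cb) ≤ Set.ncard (SQ_cuspSet (μ : F) C)) :
    RR_genus L F = RR_genus k Fk := by
  have := hC.finiteDimensional
  have := hC.finiteDimensional_red
  have : CharZero L⟮(μ : F)⟯ :=
    charZero_of_injective_algebraMap (algebraMap L L⟮(μ : F)⟯).injective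
  have : Algebra.IsSeparable L⟮(μ : F)⟯ F := inferInstance
  exact SQZ_genus_eq hC hF hFk (SQZ_hurwitz hF (μ : F) hC.transcendental_x)
    (SQZ_hurwitz hFk (S.red μ) hC.transc) C Cb hcard habh hcusp

/-- **Step 1 + Step 2**: SQUEEZE in the chart `μ`, ONTO in the chart `x`. -/
theorem SQZ_step12' {S : S18_Val L F k Fk} {μ : S.O} {n : ℕ} {y : Fin n → S.O}
    (hCμ : S.IsCart μ y) [Algebra.IsSeparable k⟮S.red μ⟯ Fk]
    (hF : RR_Hyp L F) (hFk : RR_Hyp k Fk)
    (C : Finset L) (Cb : Finset k) (hcard : C.card = Cb.card)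
    (habh : ∀ v : Place L F, 0 ≤ v.ord (μ : F) →
        (∀ c ∈ C, ¬ 0 < v.ord ((μ : F) - algebraMap L F c)) →
        v.ordDifferential (D L F (μ : F)) = 0)
    (hcusp : Set.ncard (SQ_cuspSet (S.red μ) Cb) ≤ Set.ncard (SQ_cuspSet (μ : F) C))
    {x : S.O} {m : ℕ} {z : Fin m → S.O} (hCx : S.IsCart x z)
    [Algebra.IsSeparable k⟮S.red x⟯ Fk]
    {xF : F} (hxF : (x : F) = xF) {xk : Fk} (hxk : S.red x = xk) :
    RR_genus L F = RR_genus k Fk ∧
    ∀ w : Fk, (∀ Q : Place k Fk, 0 ≤ Q.ord xk → 0 ≤ Q.ord w) →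
      ∃ f : S.O, (∀ P : Place L F, 0 ≤ P.ord xF → 0 ≤ P.ord (f : F)) ∧ S.red f = w := by
  have := hCμ.finiteDimensional
  have := hCμ.finiteDimensional_red
  have : CharZero L⟮(μ : F)⟯ :=
    charZero_of_injective_algebraMap (algebraMap L L⟮(μ : F)⟯).injective
  have : Algebra.IsSeparable L⟮(μ : F)⟯ F := inferInstance
  exact SQZ_step12 hCμ hF hFk (SQZ_hurwitz hF (μ : F) hCμ.transcendental_x)
    (SQZ_hurwitz hFk (S.red μ) hCμ.transc) C Cb hcard habh hcusp hCx hxF hxk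

end Wiring

end Fermat.Agent.S18
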