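import Mathlib
import Fermat.Agent.S18.SqueezeH
import Fermat.Agent.S18.AbhX0
import Fermat.Agent.S18.CuspFinal
import Fermat.Agent.S18.SepAux
import Fermat.Agent.S18.DegFinal

/-!
# S18 (TRACK 3), package ONTO, concrete form at the auxiliary field `F' = F(μ)` (helper9)

`K = ℚ̄`, `F = modularFunctionFieldBar N`, `F' = AX_FN N ℓ`, `k` = residue field of `A`,
`F_k = modularFunctionFieldFullC k N`, `E_k = AX_EN N A h ℓ` (residue field of the Gauss valuation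
of `F'`), `h : PrincipalGeneratedByIntegral A (residue A) N` (NO map of places: h-free).

* `ONX_S`     : the valued function field `(F', E_k)`;  `ONX_mu`, `ONX_j` : `μ`, `j' ∈ O'`.
* `ONX_isCart_mu`, `ONX_isCart_j`, `ONX_isCart_j_inv` : degree preservation in the charts
  `μ`, `j'`, `1/j'`.
* `ONX_genus_eq` : `RR_genus K F' = RR_genus k E_k` (Step 1, SQUEEZE + Deuring).
* `ONX_onto`     : Step 2, in the shape consumed by `NM_step3`.
-/

set_option autoImplicit false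
set_option synthInstance.maxHeartbeats 400000
set_option maxHeartbeats 1000000

open Polynomial AlgebraicCurve IntermediateField KaehlerDifferential ModularCurve

namespace Fermat.Agent.S18

open Fermat.Agent.Lib Fermat.Agent.S24

variable (N : ℕ) [NeZero N] (A : ValuationSubring (AlgebraicClosure ℚ))
  (h : PrincipalGeneratedByIntegral A (IsLocalRing.residue A) N)

/-- the valued function field `(F', E_k)`. -/
noncomputable abbrev ONX_S (ℓ : ℕ) : S18_Val (AlgebraicClosure ℚ) (AX_FN N ℓ)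
    (IsLocalRing.ResidueField A) (AX_EN N A h ℓ) :=
  (AX_GN N A h ℓ).toVal

/-- `j' ∈ O'`. -/
theorem ONX_j_mem (ℓ : ℕ) :
    algebraMap ↥(modularFunctionFieldBar N) (AX_FN N ℓ) (jB N) ∈ (ONX_S N A h ℓ).O :=
  (GX_mem_O_iff (AX_G N A h) (AX_FN N ℓ) (jB N)).2 (AX_jB_mem N A h)

/-- `j'` as an element of `O'`. -/
noncomputable def ONX_j (ℓ : ℕ) : (ONX_S N A h ℓ).O :=
  ⟨algebraMap ↥(modularFunctionFieldBar N) (AX_FN N ℓ) (jB N), ONX_j_mem N A h ℓ⟩

theorem ONX_j_coe (ℓ : ℕ) : ((ONX_j N A h ℓ : (ONX_S N A h ℓ).O) : AX_FN N ℓ) =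
    algebraMap ↥(modularFunctionFieldBar N) (AX_FN N ℓ) (jB N) := rfl

/-- `red' j' = j̄'`. -/
theorem ONX_red_j (ℓ : ℕ) : (ONX_S N A h ℓ).red (ONX_j N A h ℓ) =
    algebraMap ↥(modularFunctionFieldFullC (IsLocalRing.ResidueField A) N) (AX_EN N A h ℓ)
      (AX_jbarN N A h) :=
  (GX_algebraMap_red (AX_G N A h) (AX_FN N ℓ) ⟨jB N, AX_jB_mem N A h⟩).symm

variable {ℓ : ℕ} [hℓ : Fact ℓ.Prime] (hA : A.LiesOverPrime ℓ) (hℓN : ¬ ℓ ∣ N)

/-- `μ` as an element of `O'`. -/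
noncomputable def ONX_mu : (ONX_S N A h ℓ).O := ⟨AX_muN N ℓ, AX_muN_mem N A h hA⟩

theorem ONX_mu_coe : ((ONX_mu N A h hA : (ONX_S N A h ℓ).O) : AX_FN N ℓ) = AX_muN N ℓ := rfl

/-- `red' μ = μ̄`. -/
theorem ONX_red_mu : (ONX_S N A h ℓ).red (ONX_mu N A h hA) = AX_mubarN N A h ℓ :=
  AX_red_muN N A h hA

/-! ### Degree preservation in the charts `μ`, `j'`, `1/j'` -/

include hℓN in
/-- **chart `μ`**: `[F' : K(μ)] = [E_k : k(μ̄)]`, in the `IsCart` form. -/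
theorem ONX_isCart_mu :
    ∃ y : Fin (Module.finrank (AlgebraicClosure ℚ)⟮AX_muN N ℓ⟯ (AX_FN N ℓ)) → (ONX_S N A h ℓ).O,
      (ONX_S N A h ℓ).IsCart (ONX_mu N A h hA) y := by
  have : FiniteDimensional (AlgebraicClosure ℚ)⟮((ONX_mu N A h hA : (ONX_S N A h ℓ).O) :
      AX_FN N ℓ)⟯ (AX_FN N ℓ) := ABH_N_finite N ℓ
  have hx : Transcendental (IsLocalRing.ResidueField A)
      ((ONX_S N A h ℓ).red (ONX_mu N A h hA)) := by
    rw [ONX_red_mu]
    exact AX_mubarN_transcendental N A h hA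
  refine S18_Val.IsCart.of_finrank (ONX_S N A h ℓ) (ONX_mu N A h hA) hx _ le_rfl ?_
  have h1 := SP_degbN N A h hA hℓN (DG_finrank_eq N A h hA hℓN)
  have h2 : Module.finrank (IsLocalRing.ResidueField A)⟮(ONX_S N A h ℓ).red (ONX_mu N A h hA)⟯
      (AX_EN N A h ℓ) =
      Module.finrank (IsLocalRing.ResidueField A)⟮AX_mubarN N A h ℓ⟯ (AX_EN N A h ℓ) := by
    rw [ONX_red_mu]
  rw [h2, h1]

include hA hℓN in
/-- `[F' : K(j')] = [E_k : k(j̄')]`. -/
theorem ONX_finrank_j :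
    Module.finrank (AlgebraicClosure ℚ)⟮algebraMap ↥(modularFunctionFieldBar N) (AX_FN N ℓ)
      (jB N)⟯ (AX_FN N ℓ) =
    Module.finrank (IsLocalRing.ResidueField A)⟮algebraMap
      ↥(modularFunctionFieldFullC (IsLocalRing.ResidueField A) N) (AX_EN N A h ℓ)
        (AX_jbarN N A h)⟯ (AX_EN N A h ℓ) := by
  rw [SP_finrank_tower (K := AlgebraicClosure ℚ) (F' := AX_FN N ℓ) (jB N),
    SP_finrank_tower (K := IsLocalRing.ResidueField A) (F' := AX_EN N A h ℓ) (AX_jbarN N A h),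
    SP_finrank_jbarN N A h hA hℓN, DG_finrank_eq N A h hA hℓN]

/-- `F' / K(j')` is finite. -/
theorem ONX_finite_j (ℓ : ℕ) :
    FiniteDimensional (AlgebraicClosure ℚ)⟮algebraMap ↥(modularFunctionFieldBar N) (AX_FN N ℓ)
      (jB N)⟯ (AX_FN N ℓ) := by
  have := finiteDimensional_jB N
  exact SP_finite_image (k := AlgebraicClosure ℚ) (E := AX_FN N ℓ) (jB N)

include hA hℓN in
/-- **chart `j'`**: degree preservation in the `IsCart` form. -/
theorem ONX_isCart_j :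
    ∃ y : Fin (Module.finrank (AlgebraicClosure ℚ)⟮algebraMap ↥(modularFunctionFieldBar N)
      (AX_FN N ℓ) (jB N)⟯ (AX_FN N ℓ)) → (ONX_S N A h ℓ).O,
      (ONX_S N A h ℓ).IsCart (ONX_j N A h ℓ) y := by
  have : FiniteDimensional (AlgebraicClosure ℚ)⟮((ONX_j N A h ℓ : (ONX_S N A h ℓ).O) :
      AX_FN N ℓ)⟯ (AX_FN N ℓ) := ONX_finite_j N ℓ
  have hx : Transcendental (IsLocalRing.ResidueField A)
      ((ONX_S N A h ℓ).red (ONX_j N A h ℓ)) := by
    rw [ONX_red_j]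
    exact SP_image_transcendental (AX_red_jB_transcendental N A h)
  refine S18_Val.IsCart.of_finrank (ONX_S N A h ℓ) (ONX_j N A h ℓ) hx _ le_rfl ?_
  have h2 : Module.finrank (IsLocalRing.ResidueField A)⟮(ONX_S N A h ℓ).red (ONX_j N A h ℓ)⟯
      (AX_EN N A h ℓ) =
      Module.finrank (IsLocalRing.ResidueField A)⟮algebraMap
        ↥(modularFunctionFieldFullC (IsLocalRing.ResidueField A) N) (AX_EN N A h ℓ)
          (AX_jbarN N A h)⟯ (AX_EN N A h ℓ) := by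
    rw [ONX_red_j]
  rw [h2, ← ONX_finrank_j N A h hA hℓN]

/-! ### Steps 1 and 2 -/

include hA hℓN in
/-- `E_k` is a function field of one variable over `k`. -/
theorem ONX_isFunctionField1_EN :
    S24_IsFunctionField1 (IsLocalRing.ResidueField A) (AX_EN N A h ℓ) := by
  have := SP_finite_mubarN N A h hA hℓN
  exact BL_isFunctionField1 (K := IsLocalRing.ResidueField A) (AX_mubarN N A h ℓ)

include hA hℓN in
/-- **CUSP** in the shape of the squeeze: `#cusps(E_k) ≤ #cusps(F')` as cusp sets of `μ̄`, `μ`. -/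
theorem ONX_cusp_le [DecidableEq (AlgebraicClosure ℚ)] [DecidableEq (IsLocalRing.ResidueField A)]
    {ω : AlgebraicClosure ℚ} (hω : ω ^ 2 + ω + 1 = 0)
    {ωk : IsLocalRing.ResidueField A} (hωk : ωk ^ 2 + ωk + 1 = 0) :
    Set.ncard (SQ_cuspSet (AX_mubarN N A h ℓ) (MU_cusps (AX_M ℓ) ωk)) ≤
      Set.ncard (SQ_cuspSet (AX_muN N ℓ) (MU_cusps (AX_M ℓ) ω)) := by
  have : IsAlgClosed (IsLocalRing.ResidueField A) := S18_residue_isAlgClosed A
  have htop := DG_adjoin_mubar_eq_top N A h hA hℓN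
  have hMK : ((AX_M ℓ : ℕ) : AlgebraicClosure ℚ) ≠ 0 := SP_M_ne_zero_K
  have hMk : ((AX_M ℓ : ℕ) : IsLocalRing.ResidueField A) ≠ 0 := AX_M_ne_zero A hA
  have hMF : ((AX_M ℓ : ℕ) : ↥(modularFunctionFieldBar N)) ≠ 0 := ABH_N_M_ne_zero N ℓ
  rw [SQZ_cuspSet_eq (ABH_N_isFunctionField1 N ℓ) (AX_M_eq ℓ) hMK (fun _ => hω)
      (ABH_N_transcendental N ℓ) (AX_muN_eval N),
    SQZ_cuspSet_eq (ONX_isFunctionField1_EN N A h hA hℓN) (AX_M_eq ℓ) hMk (fun _ => hωk)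
      (AX_mubarN_transcendental N A h hA) (AX_mubarN_eval N A h hA)]
  have hωF : AX_M ℓ = 3 → (algebraMap (AlgebraicClosure ℚ) ↥(modularFunctionFieldBar N) ω) ^ 2 +
      algebraMap (AlgebraicClosure ℚ) ↥(modularFunctionFieldBar N) ω + 1 = 0 := by
    intro _
    rw [← map_pow, ← map_add, ← map_one (algebraMap (AlgebraicClosure ℚ)
      ↥(modularFunctionFieldBar N)), ← map_add, hω, map_zero]
  have hgen := MU_adjoin_eq_top ↥(modularFunctionFieldBar N) (AX_M ℓ) (jB N) (AX_M_eq ℓ) hMF hωF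
  have hμk := AX_mubarN_eval N A h hA
  rw [SP_jbarN_eq] at hμk
  have key := CUF_cusp_le N A hℓ.out hA hℓN (AX_M_eq ℓ) (AX_M_ne ℓ) (AX_muN_eval N) hgen hμk htop
    (AX_finrank_leN N A h)
  rw [SP_jbarN_eq]
  exact key

include hA hℓN in
/-- **Steps 1 + 2 at `F'`**: the genus is preserved, and reduction is ONTO on functions regular
outside the cusps (chart `j'`). -/
theorem ONX_step12 :
    RR_genus (AlgebraicClosure ℚ) (AX_FN N ℓ) =
      RR_genus (IsLocalRing.ResidueField A) (AX_EN N A h ℓ) ∧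
    ∀ w : AX_EN N A h ℓ,
      (∀ Q : Place (IsLocalRing.ResidueField A) (AX_EN N A h ℓ),
        0 ≤ Q.ord (algebraMap ↥(modularFunctionFieldFullC (IsLocalRing.ResidueField A) N)
          (AX_EN N A h ℓ) (AX_jbarN N A h)) → 0 ≤ Q.ord w) →
      ∃ f : (AX_GN N A h ℓ).O,
        (∀ P : Place (AlgebraicClosure ℚ) (AX_FN N ℓ),
          0 ≤ P.ord (algebraMap ↥(modularFunctionFieldBar N) (AX_FN N ℓ) (jB N)) →
            0 ≤ P.ord (f : AX_FN N ℓ)) ∧
        (AX_GN N A h ℓ).red f = w := by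
  classical
  have : IsAlgClosed (IsLocalRing.ResidueField A) := S18_residue_isAlgClosed A
  have htop := DG_adjoin_mubar_eq_top N A h hA hℓN
  obtain ⟨yμ, hCμ⟩ := ONX_isCart_mu N A h hA hℓN
  obtain ⟨yj, hCj⟩ := ONX_isCart_j N A h hA hℓN
  have hsepμ : Algebra.IsSeparable
      (IsLocalRing.ResidueField A)⟮(ONX_S N A h ℓ).red (ONX_mu N A h hA)⟯ (AX_EN N A h ℓ) :=
    (ONX_red_mu N A h hA).symm ▸ SP_isSeparable_mubarN N A h hA hℓN htop
  have hsepj : Algebra.IsSeparable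
      (IsLocalRing.ResidueField A)⟮(ONX_S N A h ℓ).red (ONX_j N A h ℓ)⟯ (AX_EN N A h ℓ) :=
    (ONX_red_j N A h ℓ).symm ▸ SP_isSeparable_jbarN' N A h hA hℓN htop
  obtain ⟨ω, hω⟩ := CUF_exists_omega (L := AlgebraicClosure ℚ)
  obtain ⟨ωk, hωk⟩ := CUF_exists_omega (L := IsLocalRing.ResidueField A)
  have hMK : ((AX_M ℓ : ℕ) : AlgebraicClosure ℚ) ≠ 0 := SP_M_ne_zero_K
  have hMk : ((AX_M ℓ : ℕ) : IsLocalRing.ResidueField A) ≠ 0 := AX_M_ne_zero A hA
  have hcard : (MU_cusps (AX_M ℓ) ω).card = (MU_cusps (AX_M ℓ) ωk).card := by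
    rw [MU_card_cusps (AX_M_eq ℓ) hMK (fun _ => hω), MU_card_cusps (AX_M_eq ℓ) hMk (fun _ => hωk)]
  have hcusp : Set.ncard (SQ_cuspSet ((ONX_S N A h ℓ).red (ONX_mu N A h hA))
        (MU_cusps (AX_M ℓ) ωk)) ≤
      Set.ncard (SQ_cuspSet ((ONX_mu N A h hA : (ONX_S N A h ℓ).O) : AX_FN N ℓ)
        (MU_cusps (AX_M ℓ) ω)) := by
    rw [ONX_red_mu, ONX_mu_coe]
    exact ONX_cusp_le N A h hA hℓN hω hωk
  exact SQZ_step12' hCμ (ABH_N_rrHyp N ℓ) (SP_RR_hyp_EN N A h hA hℓN htop)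
    (MU_cusps (AX_M ℓ) ω) (MU_cusps (AX_M ℓ) ωk) hcard
    (fun v hv hc => ABH_N_ordDifferential N ℓ ω (fun _ => hω) v hv hc) hcusp hCj
    (ONX_j_coe N A h ℓ) (ONX_red_j N A h ℓ)

include hA hℓN in
/-- **Step 1 at `F'`**: the genus is preserved by reduction. -/
theorem ONX_genus_eq :
    RR_genus (AlgebraicClosure ℚ) (AX_FN N ℓ) =
      RR_genus (IsLocalRing.ResidueField A) (AX_EN N A h ℓ) :=
  (ONX_step12 N A h hA hℓN).1

include hA hℓN in
/-- **Step 2 at `F'`** (ONTO), in the shape consumed by `NM_step3`. -/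
theorem ONX_onto (w : AX_EN N A h ℓ)
    (hw : ∀ Q : Place (IsLocalRing.ResidueField A) (AX_EN N A h ℓ),
      0 ≤ Q.ord (algebraMap ↥(modularFunctionFieldFullC (IsLocalRing.ResidueField A) N)
        (AX_EN N A h ℓ) (AX_jbarN N A h)) → 0 ≤ Q.ord w) :
    ∃ f : (AX_GN N A h ℓ).O,
      (∀ P : Place (AlgebraicClosure ℚ) (AX_FN N ℓ),
        0 ≤ P.ord (algebraMap ↥(modularFunctionFieldBar N) (AX_FN N ℓ) (jB N)) →
          0 ≤ P.ord (f : AX_FN N ℓ)) ∧
      (AX_GN N A h ℓ).red f = w :=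
  (ONX_step12 N A h hA hℓN).2 w hw

end Fermat.Agent.S18
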