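import Fermat.Agent.S18.RiFinal
import Fermat.Agent.S18.OntoX0

/-!
# RI (helper20): `ReductionInputsModL A N` for every valuation ring `A ⊂ ℚ̄` over a prime `ℓ ∤ N`

`RI_main` : the reduction data of `X₀(N)` exist at every place over a prime `ℓ ∤ N`, with NO
hypothesis.  Chain: `RIG_hgen` (part (3), helper2), the Gauss datum `S18_gaussModL` (package V),
the auxiliary field `F' = F(μ)` (helper9), DEG / SEPP / CUSP / ABH / Hurwitz / SQUEEZE
(`ONX_genus_eq`: `g(F') = g(E_k)`, helper9 with helper12, helper17, helper28, helper10, helper4,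
helper26, helper25), RI-2 / RI-T / RI-SEP / RI-5 at the level `F'` (`RIL_exists_spec`),
descent RI-6 (`RID_exists_r'`, helper10), and the bridge to the Prelude form (`RIA_of_r`).
-/

set_option autoImplicit false
set_option synthInstance.maxHeartbeats 400000
set_option maxHeartbeats 1000000

open HahnSeries IntermediateField AlgebraicCurve ModularCurve

namespace Fermat.Agent.S18

open Fermat.Agent.Lib Fermat.Agent.S24

/-- **RI**: reduction data for `X₀(N)` exist at every place over a prime `ℓ ∤ N`. -/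
theorem RI_main (N : ℕ) [NeZero N] (A : ValuationSubring (AlgebraicClosure ℚ)) {ℓ : ℕ}
    (hℓ : ℓ.Prime) (hA : A.LiesOverPrime ℓ) (hℓN : ¬ ℓ ∣ N) : ReductionInputsModL A N :=
  haveI : Fact ℓ.Prime := ⟨hℓ⟩
  RIF_reductionInputs_of_genus N A hℓ hA hℓN
    (ONX_genus_eq N A (RIG_hgen N A hℓ hA hℓN) hA hℓN).le

/-- **RI**, in the order of binders used by TRACK 4 (`GR_RIStmt`). -/
theorem RI_main' (N : ℕ) [NeZero N] (ℓ : ℕ) (hℓ : ℓ.Prime) (hℓN : ¬ ℓ ∣ N)
    (A : ValuationSubring (AlgebraicClosure ℚ)) (hA : A.LiesOverPrime ℓ) :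
    ReductionInputsModL A N :=
  RI_main N A hℓ hA hℓN

end Fermat.Agent.S18
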