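import Mathlib
import Fermat.Agent.S18.Spec

/-!
# S18, package T (helper20), part A: valuation lemmas for the final argument

* `S18_ord_add_ge`, `S18_ord_pow`, `S18_ord_neg`, `S18_ord_sub_const_le`: ultrametric lemmas for
  `Place.ord`;
* `S18_Spec.inv_mem`, `S18_Spec.red_inv`, `S18_Spec.exists_unit_const`: units of the Gauss ring;
* `S18_Spec.ord_red_eq_of_const_mul` (Lemma B) and `S18_Spec.ord_red_ge` (Lemma A, comparison of
  Gauss norms: the reduction of a sum of two terms whose reductions have different orders at `Q`).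
-/

set_option autoImplicit false

open AlgebraicCurve

namespace Fermat.Agent.S18

section ord

variable {K F : Type*} [Field K] [Field F] [Algebra K F]

theorem S18_ord_ge_iff (v : Place K F) (f : F) (n : ℤ) :
    v.adicValuation f ≤ WithZero.exp (-n) ↔ f = 0 ∨ n ≤ v.ord f := by
  have h := v.adicValuation_le_exp_iff (f := f) (n := -n)
  rwa [neg_neg] at h

theorem S18_ord_add_ge (v : Place K F) {f g : F} {n : ℤ} (hfg : f + g ≠ 0)
    (hf : f = 0 ∨ n ≤ v.ord f) (hg : g = 0 ∨ n ≤ v.ord g) : n ≤ v.ord (f + g) := by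
  have h1 := (S18_ord_ge_iff v f n).mpr hf
  have h2 := (S18_ord_ge_iff v g n).mpr hg
  have h3 : v.adicValuation (f + g) ≤ WithZero.exp (-n) :=
    (Valuation.map_add _ _ _).trans (max_le h1 h2)
  exact ((S18_ord_ge_iff v _ n).mp h3).resolve_left hfg

theorem S18_ord_neg (v : Place K F) (f : F) : v.ord (-f) = v.ord f := by
  unfold Place.ord
  rw [Valuation.map_neg]

theorem S18_ord_sub_ge (v : Place K F) {f g : F} {n : ℤ} (hfg : f - g ≠ 0)
    (hf : f = 0 ∨ n ≤ v.ord f) (hg : g = 0 ∨ n ≤ v.ord g) : n ≤ v.ord (f - g) := by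
  rw [sub_eq_add_neg] at hfg ⊢
  refine S18_ord_add_ge v hfg hf ?_
  rcases hg with hg | hg
  · left; rw [hg, neg_zero]
  · right; rwa [S18_ord_neg]

theorem S18_ord_pow (v : Place K F) (f : F) (n : ℕ) : v.ord (f ^ n) = n * v.ord f := by
  rw [← zpow_natCast, v.ord_zpow]

/-- if `f` vanishes at `v` and `c` is a nonzero constant then `f - c` does not vanish at `v`. -/
theorem S18_ord_sub_const_le (v : Place K F) {f : F} (hf : 0 < v.ord f) {c : K} (hc : c ≠ 0) :
    v.ord (f - algebraMap K F c) ≤ 0 := by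
  by_contra hlt
  push Not at hlt
  have hcF : algebraMap K F c ≠ 0 := by rwa [Ne, map_eq_zero]
  have h1 : (1 : ℤ) ≤ v.ord (f - (f - algebraMap K F c)) := by
    refine S18_ord_sub_ge v ?_ (Or.inr hf) (Or.inr hlt)
    rw [sub_sub_cancel]
    exact hcF
  rw [sub_sub_cancel, S18_Spec.ord_algebraMap] at h1
  omega

end ord

namespace S18_Spec

variable {L F k Fk : Type*} [Field L] [Field F] [Algebra L F] [Field k] [Field Fk]
  [Algebra k Fk] (S : S18_Spec L F k Fk)

theorem inv_mem {x : S.O} (hx : S.red x ≠ 0) : ((x : F))⁻¹ ∈ S.O := by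
  obtain ⟨u, rfl⟩ := (S.red_ne_zero_iff x).mp hx
  have h5 : ((u : S.O) : F) * (((u⁻¹ : S.Oˣ) : S.O) : F) = 1 := by
    exact_mod_cast congrArg (fun z : S.O => (z : F)) u.mul_inv
  have h6 : (((u : S.O) : F))⁻¹ = (((u⁻¹ : S.Oˣ) : S.O) : F) := by
    rw [inv_eq_iff_eq_inv]
    exact eq_inv_of_mul_eq_one_left h5
  rw [h6]
  exact ((u⁻¹ : S.Oˣ) : S.O).2

theorem red_inv {x : S.O} (hx : S.red x ≠ 0) : S.red ⟨((x : F))⁻¹, S.inv_mem hx⟩ = (S.red x)⁻¹ := by
  have h0 : (x : F) ≠ 0 := S.ne_zero_of_red_ne_zero hx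
  have h1 : x * ⟨((x : F))⁻¹, S.inv_mem hx⟩ = 1 := by
    apply Subtype.ext
    show (x : F) * ((x : F))⁻¹ = 1
    exact mul_inv_cancel₀ h0
  have h2 := congrArg S.red h1
  rw [map_mul, map_one] at h2
  exact eq_inv_of_mul_eq_one_right h2

/-- the constants of `O`. -/
def const (a : S.A) : S.O := ⟨algebraMap L F (a : L), (S.algebraMap_mem_iff _).mpr a.2⟩

@[simp] theorem coe_const (a : S.A) : ((S.const a : S.O) : F) = algebraMap L F (a : L) := rfl

@[simp] theorem red_const (a : S.A) : S.red (S.const a) = algebraMap k Fk (S.res a) :=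
  S.red_algebraMap _ a.2 _

theorem algebraMap_k_injective : Function.Injective (algebraMap k Fk) :=
  (algebraMap k Fk).injective

/-- a unit of `O` with constant reduction can be rescaled to have reduction `1`. -/
theorem exists_red_eq_one (y : S.O) (c : k) (hy : S.red y ≠ 0) (hc : S.red y = algebraMap k Fk c) :
    ∃ y' : S.O, S.red y' = 1 ∧ ∀ P : Place L F, P.ord (y' : F) = P.ord (y : F) := by
  have hc0 : c ≠ 0 := by
    rintro rfl
    rw [map_zero] at hc
    exact hy hc
  obtain ⟨a, rfl⟩ := S.res_surjective c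
  have ha : IsUnit a := by
    by_contra hnu
    exact hc0 ((S.res_eq_zero_iff a).mpr hnu)
  obtain ⟨v, rfl⟩ := ha
  have hv0 : algebraMap L F (((v⁻¹ : S.Aˣ) : S.A) : L) ≠ 0 := by
    rw [Ne, map_eq_zero]
    intro h0
    have h5 : ((v : S.A) : L) * (((v⁻¹ : S.Aˣ) : S.A) : L) = 1 := by
      exact_mod_cast congrArg (fun z : S.A => (z : L)) v.mul_inv
    rw [h0, mul_zero] at h5
    exact zero_ne_one h5
  refine ⟨S.const ((v⁻¹ : S.Aˣ) : S.A) * y, ?_, fun P => ?_⟩
  · rw [map_mul, red_const, hc, ← map_mul, ← map_mul, Units.inv_mul, map_one, map_one]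
  · show P.ord (algebraMap L F (((v⁻¹ : S.Aˣ) : S.A) : L) * (y : F)) = _
    rw [P.ord_mul hv0 (S.ne_zero_of_red_ne_zero hy), ord_algebraMap, zero_add]

/-- **Lemma B**: if `c • w = R` with `w, R ∈ O` of nonzero reduction then `red w` and `red R`
differ by a nonzero constant. -/
theorem ord_red_eq_of_const_mul (c : L) (w R : S.O) (hw : S.red w ≠ 0) (hR : S.red R ≠ 0)
    (h : algebraMap L F c * (w : F) = (R : F)) (Q : Place k Fk) :
    Q.ord (S.red w) = Q.ord (S.red R) := by
  have hw0 : (w : F) ≠ 0 := S.ne_zero_of_red_ne_zero hw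
  have hcO : algebraMap L F c ∈ S.O := by
    have : algebraMap L F c = (R : F) * ((w : F))⁻¹ := by
      rw [← h, mul_assoc, mul_inv_cancel₀ hw0, mul_one]
    rw [this]
    exact S.O.mul_mem _ _ R.2 (S.inv_mem hw)
  have hcA : c ∈ S.A := (S.algebraMap_mem_iff c).mp hcO
  have h2 : S.const ⟨c, hcA⟩ * w = R := Subtype.ext h
  have h3 := congrArg S.red h2
  rw [map_mul, red_const] at h3
  have hc0 : algebraMap k Fk (S.res ⟨c, hcA⟩) ≠ 0 := by
    intro h0
    rw [h0, zero_mul] at h3
    exact hR h3.symm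
  rw [← h3, Q.ord_mul hc0 hw, ord_algebraMap, zero_add]

/-- **Lemma A** (comparison of Gauss norms). -/
theorem ord_red_ge (Q : Place k Fk) (n : ℤ) (f₁ f₂ ρ : S.O)
    (h₁ : S.red f₁ ≠ 0) (h₂ : S.red f₂ ≠ 0)
    (hn₁ : n < Q.ord (S.red f₁)) (hn₂ : Q.ord (S.red f₂) = n)
    (c₁ c₂ : L) (a' : S.A) (hres : S.res a' = 0)
    (c : L) (hc : c ≠ 0) (w : S.O) (hw : S.red w ≠ 0)
    (heq : algebraMap L F c * (w : F) = algebraMap L F c₁ * (f₁ : F) + algebraMap L F c₂ * (f₂ : F)
      + algebraMap L F c₂ * algebraMap L F (a' : L) * (ρ : F)) :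
    n ≤ Q.ord (S.red w) := by
  have hw0 : (w : F) ≠ 0 := S.ne_zero_of_red_ne_zero hw
  have hcF : algebraMap L F c ≠ 0 := by rwa [Ne, map_eq_zero]
  by_cases hcase : c₂ ≠ 0 ∧ c₁ / c₂ ∈ S.A
  · -- `m₀ = c₂`
    obtain ⟨hc2, hγ⟩ := hcase
    set γ : S.A := ⟨c₁ / c₂, hγ⟩ with hγdef
    set R : S.O := S.const γ * f₁ + f₂ + S.const a' * ρ with hRdef
    have hredR : S.red R = algebraMap k Fk (S.res γ) * S.red f₁ + S.red f₂ := by
      rw [hRdef, map_add, map_add, map_mul, map_mul, red_const, red_const, hres, map_zero,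
        zero_mul, add_zero]
    have hR0 : S.red R ≠ 0 := by
      rw [hredR]
      intro h0
      have h5 : algebraMap k Fk (S.res γ) * S.red f₁ = -S.red f₂ := by
        linear_combination h0
      have h6 : algebraMap k Fk (S.res γ) ≠ 0 := by
        intro h7
        rw [h7, zero_mul] at h5
        exact h₂ (neg_eq_zero.mp h5.symm)
      have h8 := congrArg Q.ord h5
      rw [Q.ord_mul h6 h₁, ord_algebraMap, zero_add, S18_ord_neg, hn₂] at h8
      omega
    have hRord : n ≤ Q.ord (S.red R) := by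
      have hR0' := hR0
      rw [hredR] at hR0' ⊢
      refine S18_ord_add_ge Q hR0' ?_ (Or.inr hn₂.ge)
      by_cases h6 : algebraMap k Fk (S.res γ) = 0
      · left; rw [h6, zero_mul]
      · right
        rw [Q.ord_mul h6 h₁, ord_algebraMap, zero_add]
        exact hn₁.le
    have hRF : algebraMap L F (c / c₂) * (w : F) = (R : F) := by
      show _ = algebraMap L F (c₁ / c₂) * (f₁ : F) + (f₂ : F) + algebraMap L F (a' : L) * (ρ : F)
      have hc2F : algebraMap L F c₂ ≠ 0 := by rwa [Ne, map_eq_zero]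
      rw [map_div₀, map_div₀]
      field_simp
      linear_combination heq
    rw [S.ord_red_eq_of_const_mul (c / c₂) w R hw hR0 hRF Q]
    exact hRord
  · -- `m₀ = c₁`
    have hc1 : c₁ ≠ 0 := by
      intro h1
      by_cases hc2 : c₂ = 0
      · rw [h1, hc2] at heq
        simp only [map_zero, zero_mul, add_zero] at heq
        exact (mul_ne_zero hcF hw0) heq
      · exact hcase ⟨hc2, by rw [h1, zero_div]; exact S.A.zero_mem⟩
    have hγ : c₂ / c₁ ∈ S.A := by
      by_cases hc2 : c₂ = 0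
      · rw [hc2, zero_div]; exact S.A.zero_mem
      · have h1 : c₁ / c₂ ∉ S.A := fun h => hcase ⟨hc2, h⟩
        have h2 := (S.A.mem_or_inv_mem (c₁ / c₂)).resolve_left h1
        rwa [inv_div] at h2
    have hγres : S.res ⟨c₂ / c₁, hγ⟩ = 0 := by
      by_cases hc2 : c₂ = 0
      · have : (⟨c₂ / c₁, hγ⟩ : S.A) = 0 := by
          apply Subtype.ext
          show c₂ / c₁ = 0
          rw [hc2, zero_div]
        rw [this, map_zero]
      · have h1 : c₁ / c₂ ∉ S.A := fun h => hcase ⟨hc2, h⟩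
        have h3 : ((c₁ / c₂)⁻¹) ∈ S.A := by rw [inv_div]; exact hγ
        have h4 := S.res_inv_eq_zero h1 h3
        have h5 : (⟨(c₁ / c₂)⁻¹, h3⟩ : S.A) = ⟨c₂ / c₁, hγ⟩ := by
          apply Subtype.ext
          show (c₁ / c₂)⁻¹ = c₂ / c₁
          rw [inv_div]
        rw [h5] at h4
        exact h4
    set γ : S.A := ⟨c₂ / c₁, hγ⟩ with hγdef
    set R : S.O := f₁ + S.const γ * f₂ + S.const γ * S.const a' * ρ with hRdef
    have hredR : S.red R = S.red f₁ := by
      rw [hRdef, map_add, map_add, map_mul, map_mul, map_mul, red_const, red_const, hres, hγres,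
        map_zero, zero_mul, zero_mul, zero_mul, add_zero, add_zero]
    have hR0 : S.red R ≠ 0 := by rw [hredR]; exact h₁
    have hRF : algebraMap L F (c / c₁) * (w : F) = (R : F) := by
      show _ = (f₁ : F) + algebraMap L F (c₂ / c₁) * (f₂ : F)
        + algebraMap L F (c₂ / c₁) * algebraMap L F (a' : L) * (ρ : F)
      have hc1F : algebraMap L F c₁ ≠ 0 := by rwa [Ne, map_eq_zero]
      rw [map_div₀, map_div₀]
      field_simp
      linear_combination heq
    rw [S.ord_red_eq_of_const_mul (c / c₁) w R hw hR0 hRF Q, hredR]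
    exact hn₁.le

end S18_Spec

end Fermat.Agent.S18
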