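import Mathlib
import Fermat.Agent.S18.FinalA

/-!
# S18, package LOC (helper24), part 1: specialisation respects poles

For a specialisation datum `S : S18_Spec L F k Fk` and `x ∈ O` with `red x ≠ 0` such that the pole
degree of `red x` is not smaller than the pole degree of `x` (for `x = j` both are `ψ(N)`), the
specialisation map `r` sends poles of `x` to poles of `red x`, and no zero of `x` is sent to a pole
of `red x` (`LC_compat`).  Only `V3` (`S18_Spec.mapDomain_div`) is used.

* `LC_mapDomain_apply`, `LC_sum_mapDomain`, `LC_mapDomain_congr`, `LC_mapDomain_le`: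
  fibre sums of `Finsupp.mapDomain`.
* `LC_degree_mapDomain`: `deg (r_* D) = deg D`.
* `S18_Spec.LC_compat`, and the translates `S18_Spec.LC_compat_sub` for `x - c`, `c ∈ A`.
-/

set_option autoImplicit false

open AlgebraicCurve

namespace Fermat.Agent.S18

section fibre

variable {α β : Type*}

/-- fibre-sum formula for `Finsupp.mapDomain`. -/
theorem LC_mapDomain_apply (r : α → β) (D : α →₀ ℤ) (Q : β) [DecidableEq β] :
    Finsupp.mapDomain r D Q = ∑ P ∈ D.support, if r P = Q then D P else 0 := by
  rw [Finsupp.mapDomain, Finsupp.sum_apply, Finsupp.sum]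
  refine Finset.sum_congr rfl fun P _ => ?_
  rw [Finsupp.single_apply]

/-- fibre-sum formula over any finset containing the support. -/
theorem LC_mapDomain_apply_of_subset (r : α → β) (D : α →₀ ℤ) (Q : β) [DecidableEq β]
    (s : Finset α) (hs : D.support ⊆ s) :
    Finsupp.mapDomain r D Q = ∑ P ∈ s, if r P = Q then D P else 0 := by
  rw [LC_mapDomain_apply]
  refine Finset.sum_subset hs fun P _ hP => ?_
  rw [Finsupp.notMem_support_iff.mp hP]
  simp

/-- sum of fibre sums over a finite set of targets. -/
theorem LC_sum_mapDomain (r : α → β) (D : α →₀ ℤ) (T : Finset β) [DecidableEq β] :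
    ∑ Q ∈ T, Finsupp.mapDomain r D Q = ∑ P ∈ D.support, if r P ∈ T then D P else 0 := by
  simp_rw [LC_mapDomain_apply]
  rw [Finset.sum_comm]
  refine Finset.sum_congr rfl fun P _ => ?_
  rw [Finset.sum_ite_eq]

/-- two divisors which agree on the fibre of `Q` have the same fibre sum at `Q`. -/
theorem LC_mapDomain_congr (r : α → β) (D D' : α →₀ ℤ) (Q : β)
    (h : ∀ P, r P = Q → D P = D' P) : Finsupp.mapDomain r D Q = Finsupp.mapDomain r D' Q := by
  classical
  rw [LC_mapDomain_apply_of_subset r D Q (D.support ∪ D'.support) Finset.subset_union_left,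
    LC_mapDomain_apply_of_subset r D' Q (D.support ∪ D'.support) Finset.subset_union_right]
  refine Finset.sum_congr rfl fun P _ => ?_
  split_ifs with hP
  · exact h P hP
  · rfl

/-- monotonicity of fibre sums. -/
theorem LC_mapDomain_le (r : α → β) (D D' : α →₀ ℤ) (Q : β)
    (h : ∀ P, r P = Q → D P ≤ D' P) : Finsupp.mapDomain r D Q ≤ Finsupp.mapDomain r D' Q := by
  classical
  rw [LC_mapDomain_apply_of_subset r D Q (D.support ∪ D'.support) Finset.subset_union_left,
    LC_mapDomain_apply_of_subset r D' Q (D.support ∪ D'.support) Finset.subset_union_right]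
  refine Finset.sum_le_sum fun P _ => ?_
  split_ifs with hP
  · exact h P hP
  · exact le_refl _

end fibre

section degree

variable {L F k Fk : Type*} [Field L] [Field F] [Algebra L F] [Field k] [Field Fk]
  [Algebra k Fk]

/-- the degree of a divisor all of whose places have degree one. -/
theorem LC_degree_eq_sum (hdeg : ∀ P : Place L F, P.deg = 1) (D : Divisor L F) :
    Divisor.degree D = ∑ P ∈ D.support, D P := by
  classical
  have h : Divisor.degree D = D.sum fun P n => n * (P.deg : ℤ) := by
    simp [Divisor.degree, Finsupp.liftAddHom_apply]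
  rw [h, Finsupp.sum]
  refine Finset.sum_congr rfl fun P _ => ?_
  rw [hdeg P]
  simp

/-- the degree over any finset containing the support. -/
theorem LC_degree_eq_sum_of_subset (hdeg : ∀ P : Place L F, P.deg = 1) (D : Divisor L F)
    (s : Finset (Place L F)) (hs : D.support ⊆ s) :
    Divisor.degree D = ∑ P ∈ s, D P := by
  rw [LC_degree_eq_sum hdeg]
  refine Finset.sum_subset hs fun P _ hP => ?_
  exact Finsupp.notMem_support_iff.mp hP

/-- `deg (r_* D) = deg D` for a degree-preserving map of places. -/
theorem LC_degree_mapDomain (r : Place L F → Place k Fk) (hr : ∀ P, (r P).deg = P.deg)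
    (D : Divisor L F) : Divisor.degree (Finsupp.mapDomain r D) = Divisor.degree D := by
  classical
  induction D using Finsupp.induction_linear with
  | zero => simp
  | add D₁ D₂ h₁ h₂ => rw [Finsupp.mapDomain_add, map_add, map_add, h₁, h₂]
  | single P n => rw [Finsupp.mapDomain_single, Divisor.degree_single, Divisor.degree_single, hr]

/-- comparison of degrees: if every fibre sum of `D` is at most the value of `E`, then
`deg D ≤ deg E`. -/
theorem LC_degree_le_of_mapDomain_le (r : Place L F → Place k Fk)
    (hr : ∀ P, (r P).deg = P.deg) (hdegk : ∀ Q : Place k Fk, Q.deg = 1)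
    (D : Divisor L F) (E : Divisor k Fk)
    (h : ∀ Q, Finsupp.mapDomain r D Q ≤ E Q) : Divisor.degree D ≤ Divisor.degree E := by
  classical
  rw [← LC_degree_mapDomain r hr D]
  rw [LC_degree_eq_sum_of_subset hdegk (Finsupp.mapDomain r D)
      ((Finsupp.mapDomain r D).support ∪ E.support) Finset.subset_union_left,
    LC_degree_eq_sum_of_subset hdegk E
      ((Finsupp.mapDomain r D).support ∪ E.support) Finset.subset_union_right]
  exact Finset.sum_le_sum fun Q _ => h Q

end degree

namespace S18_Spec

variable {L F k Fk : Type*} [Field L] [Field F] [Algebra L F] [Field k] [Field Fk]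
  [Algebra k Fk] (S : S18_Spec L F k Fk)

/-- **Specialisation respects poles.**  If the pole degree of `red x` is at least the pole degree
of `x`, then `r` maps poles of `x` to poles of `red x` and zeros of `x` to non-poles of `red x`. -/
theorem LC_compat (hPD : HasPrincipalDivisors L F) (x : S.O) (hx : S.red x ≠ 0)
    (Pl : Finset (Place L F)) (hPl : ∀ P, P ∈ Pl ↔ P.ord (x : F) < 0)
    (T : Finset (Place k Fk)) (hT : ∀ Q, Q ∈ T ↔ Q.ord (S.red x) < 0)
    (hsum : ∑ Q ∈ T, Q.ord (S.red x) ≤ ∑ P ∈ Pl, P.ord (x : F)) :
    (∀ P, P.ord (x : F) < 0 → (S.r P).ord (S.red x) < 0) ∧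
      (∀ P, 0 < P.ord (x : F) → 0 ≤ (S.r P).ord (S.red x)) := by
  classical
  have hx0 : (x : F) ≠ 0 := S.ne_zero_of_red_ne_zero hx
  obtain ⟨D, hD, -⟩ := hPD.exists_divisor (x : F) hx0
  have hV3 : ∀ Q, Finsupp.mapDomain S.r D Q = Q.ord (S.red x) := S.mapDomain_div x hx D hD
  -- the two sums over the support of `D`
  have h1 : ∑ Q ∈ T, Q.ord (S.red x) = ∑ P ∈ D.support, if S.r P ∈ T then D P else 0 := by
    rw [← LC_sum_mapDomain]
    exact Finset.sum_congr rfl fun Q _ => (hV3 Q).symm
  have h2 : ∑ P ∈ Pl, P.ord (x : F) = ∑ P ∈ D.support, if D P < 0 then D P else 0 := by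
    have hsub : Pl ⊆ D.support := by
      intro P hP
      rw [Finsupp.mem_support_iff, hD]
      have := (hPl P).mp hP
      omega
    rw [← Finset.sum_subset hsub (f := fun P => if D P < 0 then D P else 0)]
    · refine Finset.sum_congr rfl fun P hP => ?_
      have := (hPl P).mp hP
      rw [hD, if_pos this]
    · intro P _ hP
      rw [hPl, ← hD] at hP
      rw [if_neg hP]
  rw [h1, h2] at hsum
  -- termwise comparison
  have hterm : ∀ P ∈ D.support,
      (if D P < 0 then D P else 0) ≤ if S.r P ∈ T then D P else 0 := by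
    intro P _
    split_ifs <;> omega
  have heq : ∀ P ∈ D.support,
      (if D P < 0 then D P else 0) = if S.r P ∈ T then D P else 0 := by
    have hle : ∑ P ∈ D.support, (if D P < 0 then D P else 0)
        ≤ ∑ P ∈ D.support, if S.r P ∈ T then D P else 0 := Finset.sum_le_sum hterm
    have := (Finset.sum_eq_sum_iff_of_le hterm).mp (le_antisymm hle hsum)
    exact this
  refine ⟨fun P hP => ?_, fun P hP => ?_⟩
  · have hmem : P ∈ D.support := by
      rw [Finsupp.mem_support_iff, hD]; omega
    have h := heq P hmem
    rw [hD] at h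
    rw [if_pos hP] at h
    by_contra hn
    have hnT : S.r P ∉ T := fun hT' => hn ((hT _).mp hT')
    rw [if_neg hnT] at h
    omega
  · have hmem : P ∈ D.support := by
      rw [Finsupp.mem_support_iff, hD]; omega
    have h := heq P hmem
    rw [hD] at h
    rw [if_neg (by omega)] at h
    by_contra hn
    have hT' : S.r P ∈ T := (hT _).mpr (by omega)
    rw [if_pos hT'] at h
    omega

end S18_Spec

end Fermat.Agent.S18
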