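import Mathlib
import Fermat.Prelude.Def_AlgebraicCurve_CanonicalDivisor
import Fermat.Agent.S18.LocCusp

/-!
# S18, package LOC (helper24), part 2: local comparison of the divisors of `dj` and `dj̄`

Abstract over a specialisation datum `S : S18_Spec L F k Fk`.  `W` is the divisor of `dj` on `F`
(`W P = P.ordDifferential (D L F j)`), `Wk` the divisor of `dj̄` on `Fk`.

* `LC_Diff K F` : the local differential calculus used (package DIFF): `dCoord` generates,
  `d(uniformizer) ≠ 0` has order `0`, `ord_v(dy) ≥ ord_v(y) - 1` at poles.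
* `S18_Spec.LC_unif_on_disc` : a function of `O`, regular on the residue disc `Δ_Q` whose
  reduction is a uniformizer at `Q`, is a local parameter at every point of `Δ_Q`.
* `S18_Spec.LC_fin`  : at a finite place `Q`, `r_* W (Q) = Wk Q`.
* `S18_Spec.LC_cusp` : at a pole `Q` of `j̄`, `r_* W (Q) ≤ Wk Q`.
* `S18_Spec.LC_degree_le` : `deg W ≤ deg Wk`, hence (`LC_genus_le`) the genus comparison GC.
-/

set_option autoImplicit false

open AlgebraicCurve KaehlerDifferential

namespace Fermat.Agent.S18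

section ord

variable {K F : Type*} [Field K] [Field F] [Algebra K F]

theorem LC_ord_sub_const_nonneg (v : Place K F) {f : F} (hf : 0 ≤ v.ord f) (c : K) :
    0 ≤ v.ord (f - algebraMap K F c) := by
  by_cases h0 : f - algebraMap K F c = 0
  · rw [h0, Place.ord_zero]
  · refine S18_ord_sub_ge v h0 (Or.inr hf) (Or.inr ?_)
    rw [S18_Spec.ord_algebraMap]

theorem LC_ord_sub_const_of_neg (v : Place K F) {f : F} (hf : v.ord f < 0) (c : K) :
    v.ord (f - algebraMap K F c) = v.ord f := by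
  have hg0 : f - algebraMap K F c ≠ 0 := by
    intro h0
    rw [sub_eq_zero] at h0
    rw [h0, S18_Spec.ord_algebraMap] at hf
    exact lt_irrefl _ hf
  have hf0 : f ≠ 0 := by
    rintro rfl
    rw [Place.ord_zero] at hf
    exact lt_irrefl _ hf
  have h1 : v.ord f ≤ v.ord (f - algebraMap K F c) := by
    refine S18_ord_sub_ge v hg0 (Or.inr le_rfl) (Or.inr ?_)
    rw [S18_Spec.ord_algebraMap]
    exact hf.le
  by_contra hne
  have h2 : v.ord f + 1 ≤ v.ord (f - algebraMap K F c) := by omega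
  have h3 : v.ord f + 1 ≤ v.ord ((f - algebraMap K F c) + algebraMap K F c) := by
    refine S18_ord_add_ge v ?_ (Or.inr h2) (Or.inr ?_)
    · rw [sub_add_cancel]; exact hf0
    · rw [S18_Spec.ord_algebraMap]; omega
  rw [sub_add_cancel] at h3
  omega

/-- the local differential calculus at the places of a function field (package DIFF). -/
structure LC_Diff (K F : Type*) [Field K] [Field F] [Algebra K F] : Prop where
  gen : ∀ v : Place K F, v.DCoordGenerates
  nontrivial : Nontrivial Ω[F⁄K]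
  unif : ∀ (v : Place K F) (t : F), v.ord t = 1 →
    D K F t ≠ 0 ∧ v.ordDifferential (D K F t) = 0
  pole : ∀ (v : Place K F) (y : F), v.ord y < 0 → v.ord y - 1 ≤ v.ordDifferential (D K F y)

theorem LC_Diff.differentialCoeff_ne_zero (h : LC_Diff K F) (v : Place K F) {ω : Ω[F⁄K]}
    (hω : ω ≠ 0) : v.differentialCoeff ω ≠ 0 := by
  have := h.gen v
  intro h0
  apply hω
  rw [← v.differentialCoeff_smul_dCoord ω, h0, zero_smul]

theorem LC_Diff.ordDifferential_smul (h : LC_Diff K F) (v : Place K F) {c : F} (hc : c ≠ 0)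
    {ω : Ω[F⁄K]} (hω : ω ≠ 0) :
    v.ordDifferential (c • ω) = v.ord c + v.ordDifferential ω := by
  have := h.gen v
  have := h.nontrivial
  exact v.ordDifferential_smul hc (h.differentialCoeff_ne_zero v hω)

/-- `Ω[F/K]` is one-dimensional: every differential is a multiple of a nonzero one. -/
theorem LC_Diff.exists_eq_smul (h : LC_Diff K F) (v : Place K F) (ω η : Ω[F⁄K]) (hη : η ≠ 0) :
    ∃ f : F, ω = f • η := by
  have := h.gen v
  have hc := h.differentialCoeff_ne_zero v hη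
  have h1 := v.differentialCoeff_smul_dCoord ω
  have h2 := v.differentialCoeff_smul_dCoord η
  refine ⟨v.differentialCoeff ω * (v.differentialCoeff η)⁻¹, ?_⟩
  calc ω = v.differentialCoeff ω • v.dCoord := h1.symm
    _ = (v.differentialCoeff ω * (v.differentialCoeff η)⁻¹) •
          (v.differentialCoeff η • v.dCoord) := by
        rw [smul_smul, mul_assoc, inv_mul_cancel₀ hc, mul_one]
    _ = _ := by rw [h2]

theorem LC_D_sub_const (f : F) (c : K) : D K F (f - algebraMap K F c) = D K F f := by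
  rw [map_sub, Derivation.map_algebraMap, sub_zero]

end ord

namespace S18_Spec

variable {L F k Fk : Type*} [Field L] [Field F] [Algebra L F] [Field k] [Field Fk]
  [Algebra k Fk] (S : S18_Spec L F k Fk)

/-- the translate `x - c` of `x ∈ O` by a constant `c ∈ A`. -/
def LC_subConst (x : S.O) (c : L) (hc : c ∈ S.A) : S.O :=
  x - ⟨algebraMap L F c, (S.algebraMap_mem_iff c).2 hc⟩

@[simp]
theorem LC_subConst_coe (x : S.O) (c : L) (hc : c ∈ S.A) :
    ((S.LC_subConst x c hc : S.O) : F) = (x : F) - algebraMap L F c := rfl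

theorem LC_red_subConst (x : S.O) (c : L) (hc : c ∈ S.A) :
    S.red (S.LC_subConst x c hc) = S.red x - algebraMap k Fk (S.res ⟨c, hc⟩) := by
  rw [LC_subConst, map_sub, S.red_algebraMap c hc]

/-- a function of `O` which is regular on the residue disc of `Q` and whose reduction is a
uniformizer at `Q` is a local parameter at every point of the disc. -/
theorem LC_unif_on_disc (hPD : HasPrincipalDivisors L F)
    (hval : ∀ (P : Place L F) (y : F), 0 ≤ P.ord y →
      ∃ a : L, y = algebraMap L F a ∨ 0 < P.ord (y - algebraMap L F a))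
    (n : S.O) (Q : Place k Fk) (hn : Q.ord (S.red n) = 1)
    (hreg : ∀ P, S.r P = Q → 0 ≤ P.ord (n : F)) (P : Place L F) (hP : S.r P = Q) :
    ∃ a : L, P.ord ((n : F) - algebraMap L F a) = 1 := by
  classical
  have hn0 : S.red n ≠ 0 := by
    intro h0
    rw [h0, Place.ord_zero] at hn
    exact zero_ne_one hn
  -- the reduction of `n` is not a constant
  have hnc : ∀ c : k, S.red n ≠ algebraMap k Fk c := by
    intro c hc
    rw [hc, S18_Spec.ord_algebraMap] at hn
    exact zero_ne_one hn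
  obtain ⟨a, ha | ha⟩ := hval P (n : F) (hreg P hP)
  · exfalso
    have haO : algebraMap L F a ∈ S.O := ha ▸ n.2
    have haA : a ∈ S.A := (S.algebraMap_mem_iff a).1 haO
    have : n = ⟨algebraMap L F a, haO⟩ := Subtype.ext ha
    exact hnc _ (by rw [this, S.red_algebraMap a haA haO])
  · obtain ⟨haA, h | h⟩ := S.value_reduction hPD n Q hreg P hP a ha
    · exact absurd h (hnc _)
    · -- `res a = 0`
      have hres : S.res ⟨a, haA⟩ = 0 := by
        by_contra hne
        have := S18_ord_sub_const_le Q (f := S.red n) (by rw [hn]; exact one_pos) hne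
        omega
      refine ⟨a, ?_⟩
      set x : S.O := S.LC_subConst n a haA with hx
      have hxred : S.red x = S.red n := by
        rw [hx, LC_red_subConst, hres, map_zero, sub_zero]
      have hxred0 : S.red x ≠ 0 := by rw [hxred]; exact hn0
      obtain ⟨Dx, hDx, -⟩ := hPD.exists_divisor (x : F) (S.ne_zero_of_red_ne_zero hxred0)
      have hV3 := S.mapDomain_div x hxred0 Dx hDx Q
      rw [hxred, hn] at hV3
      have hxP : (x : F) = (n : F) - algebraMap L F a := rfl
      rw [← hxP]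
      by_contra hne
      have h2 : 2 ≤ P.ord (x : F) := by
        have : 0 < P.ord (x : F) := ha
        omega
      have hle := LC_mapDomain_le S.r (Finsupp.single P (2 : ℤ)) Dx Q (fun P' hP' => by
        rw [Finsupp.single_apply]
        split_ifs with hPP
        · rw [← hPP, hDx]; exact h2
        · rw [hDx, hxP]; exact LC_ord_sub_const_nonneg P' (hreg P' hP') a)
      rw [Finsupp.mapDomain_single, hP, Finsupp.single_eq_same, hV3] at hle
      omega

/-- **LOC at a finite place**: if `n ∈ O` is regular on the residue disc of `Q` and `red n` is a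
uniformizer at `Q`, then `r_* (div dj) (Q) = ord_Q (dj̄)`. -/
theorem LC_fin (hPD : HasPrincipalDivisors L F) (hF : LC_Diff L F) (hk : LC_Diff k Fk)
    (hval : ∀ (P : Place L F) (y : F), 0 ≤ P.ord y →
      ∃ a : L, y = algebraMap L F a ∨ 0 < P.ord (y - algebraMap L F a))
    (hDER : ∀ (y t : S.O) (f : F), D L F (y : F) = f • D L F (t : F) → D k Fk (S.red t) ≠ 0 →
      ∃ hf : f ∈ S.O, D k Fk (S.red y) = S.red ⟨f, hf⟩ • D k Fk (S.red t))
    (j : S.O) (hDjk : D k Fk (S.red j) ≠ 0)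
    (W : Divisor L F) (hW : ∀ P, W P = P.ordDifferential (D L F (j : F)))
    (Q : Place k Fk)
    (n : S.O) (hn : Q.ord (S.red n) = 1) (hreg : ∀ P, S.r P = Q → 0 ≤ P.ord (n : F)) :
    Finsupp.mapDomain S.r W Q = Q.ordDifferential (D k Fk (S.red j)) := by
  obtain ⟨P₀, hP₀⟩ := S.r_surjective hPD Q
  -- `dn ≠ 0` and `ord_P (dn) = 0` on the disc
  have hDn : ∀ P, S.r P = Q →
      D L F (n : F) ≠ 0 ∧ P.ordDifferential (D L F (n : F)) = 0 := by
    intro P hP
    obtain ⟨a, ha⟩ := S.LC_unif_on_disc hPD hval n Q hn hreg P hP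
    have := hF.unif P _ ha
    rwa [LC_D_sub_const] at this
  have hDn0 : D L F (n : F) ≠ 0 := (hDn P₀ hP₀).1
  obtain ⟨f, hf⟩ := hF.exists_eq_smul P₀ (D L F (j : F)) (D L F (n : F)) hDn0
  have hkn := hk.unif Q _ hn
  obtain ⟨hfO, hred⟩ := hDER j n f hf hkn.1
  have hredf0 : S.red ⟨f, hfO⟩ ≠ 0 := by
    intro h0
    rw [h0, zero_smul] at hred
    exact hDjk hred
  have hf0 : f ≠ 0 := S.ne_zero_of_red_ne_zero hredf0
  have hR : Q.ordDifferential (D k Fk (S.red j)) = Q.ord (S.red ⟨f, hfO⟩) := by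
    rw [hred, hk.ordDifferential_smul Q hredf0 hkn.1, hkn.2, add_zero]
  obtain ⟨Df, hDf, -⟩ := hPD.exists_divisor f hf0
  have hV3 := S.mapDomain_div ⟨f, hfO⟩ hredf0 Df hDf Q
  rw [hR, ← hV3]
  refine LC_mapDomain_congr S.r W Df Q fun P hP => ?_
  rw [hW, hDf, hf, hF.ordDifferential_smul P hf0 hDn0, (hDn P hP).2, add_zero]

/-- **LOC at a pole of `j̄`**: `r_* (div dj) (Q) ≤ ord_Q (dj̄)`. -/
theorem LC_cusp (hPD : HasPrincipalDivisors L F) (hk : LC_Diff k Fk)
    (hFpole : ∀ (P : Place L F) (y : F), P.ord y < 0 →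
      P.ordDifferential (D L F y) = P.ord y - 1)
    (j : S.O) (hj : S.red j ≠ 0)
    (W : Divisor L F) (hW : ∀ P, W P = P.ordDifferential (D L F (j : F)))
    (Q : Place k Fk) (hQ : Q.ord (S.red j) < 0)
    (hunr : ∀ P, S.r P = Q → 0 ≤ P.ord (j : F) → W P = 0) :
    Finsupp.mapDomain S.r W Q ≤ Q.ordDifferential (D k Fk (S.red j)) := by
  classical
  obtain ⟨Dj, hDj, -⟩ := hPD.exists_divisor (j : F) (S.ne_zero_of_red_ne_zero hj)
  have hV3 := S.mapDomain_div j hj Dj hDj Q
  -- a pole of `j` in the disc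
  have hex : ∃ P₀, S.r P₀ = Q ∧ P₀.ord (j : F) < 0 := by
    by_contra hno
    have hno' : ∀ P, S.r P = Q → 0 ≤ P.ord (j : F) := by
      intro P hP
      by_contra hlt
      exact hno ⟨P, hP, by omega⟩
    have := LC_mapDomain_le S.r 0 Dj Q (fun P hP => by
      rw [Finsupp.zero_apply, hDj]; exact hno' P hP)
    rw [Finsupp.mapDomain_zero, Finsupp.zero_apply, hV3] at this
    omega
  obtain ⟨P₀, hP₀, hP₀j⟩ := hex
  have hle := LC_mapDomain_le S.r W (Dj - Finsupp.single P₀ 1) Q (fun P hP => by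
    rw [Finsupp.sub_apply, hDj, Finsupp.single_apply]
    by_cases hPj : P.ord (j : F) < 0
    · rw [hW, hFpole P _ hPj]
      split_ifs <;> omega
    · rw [hunr P hP (by omega)]
      have hne : P₀ ≠ P := by
        rintro rfl
        exact hPj hP₀j
      rw [if_neg hne]
      omega)
  rw [Finsupp.mapDomain_sub, Finsupp.sub_apply, hV3, Finsupp.mapDomain_single, hP₀,
    Finsupp.single_eq_same] at hle
  exact hle.trans (hk.pole Q _ hQ)

/-- specialisation respects poles, for the translates `j - c`, `c ∈ A`: no zero of `j - c` is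
mapped to a pole of `red j`. -/
theorem LC_compat_sub (hPD : HasPrincipalDivisors L F) (j : S.O)
    (hjnc : ∀ c : k, S.red j ≠ algebraMap k Fk c)
    (Pl : Finset (Place L F)) (hPl : ∀ P, P ∈ Pl ↔ P.ord (j : F) < 0)
    (T : Finset (Place k Fk)) (hT : ∀ Q, Q ∈ T ↔ Q.ord (S.red j) < 0)
    (hsum : ∑ Q ∈ T, Q.ord (S.red j) ≤ ∑ P ∈ Pl, P.ord (j : F))
    (c : L) (hc : c ∈ S.A) (P : Place L F) (hP : 0 < P.ord ((j : F) - algebraMap L F c)) :
    0 ≤ (S.r P).ord (S.red j) := by
  set x : S.O := S.LC_subConst j c hc with hx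
  have hxred : S.red x = S.red j - algebraMap k Fk (S.res ⟨c, hc⟩) := S.LC_red_subConst j c hc
  have hxred0 : S.red x ≠ 0 := by
    rw [hxred, sub_ne_zero]
    exact hjnc _
  have hxF : (x : F) = (j : F) - algebraMap L F c := rfl
  have hPl' : ∀ P, P ∈ Pl ↔ P.ord (x : F) < 0 := by
    intro P
    rw [hPl, hxF]
    constructor
    · intro h
      rwa [LC_ord_sub_const_of_neg P h]
    · intro h
      by_contra hn
      have := LC_ord_sub_const_nonneg P (f := (j : F)) (by omega) c
      omega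
  have hT' : ∀ Q, Q ∈ T ↔ Q.ord (S.red x) < 0 := by
    intro Q
    rw [hT, hxred]
    constructor
    · intro h
      rwa [LC_ord_sub_const_of_neg Q h]
    · intro h
      by_contra hn
      have := LC_ord_sub_const_nonneg Q (f := S.red j) (by omega) (S.res ⟨c, hc⟩)
      omega
  have hsum' : ∑ Q ∈ T, Q.ord (S.red x) ≤ ∑ P ∈ Pl, P.ord (x : F) := by
    have h1 : ∑ Q ∈ T, Q.ord (S.red x) = ∑ Q ∈ T, Q.ord (S.red j) :=
      Finset.sum_congr rfl fun Q hQ => by
        rw [hxred, LC_ord_sub_const_of_neg Q ((hT Q).mp hQ)]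
    have h2 : ∑ P ∈ Pl, P.ord (x : F) = ∑ P ∈ Pl, P.ord (j : F) :=
      Finset.sum_congr rfl fun P hP => by
        rw [hxF, LC_ord_sub_const_of_neg P ((hPl P).mp hP)]
    rw [h1, h2]
    exact hsum
  have h := (S.LC_compat hPD x hxred0 Pl hPl' T hT' hsum').2 P hP
  by_contra hn
  have hlt : (S.r P).ord (S.red j) < 0 := by omega
  rw [hxred, LC_ord_sub_const_of_neg _ hlt] at h
  omega

/-- **LOC, global form**: `deg (div dj) ≤ deg (div dj̄)`. -/
theorem LC_degree_le (hPD : HasPrincipalDivisors L F) (hF : LC_Diff L F) (hk : LC_Diff k Fk)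
    (hdegk : ∀ Q : Place k Fk, Q.deg = 1)
    (hval : ∀ (P : Place L F) (y : F), 0 ≤ P.ord y →
      ∃ a : L, y = algebraMap L F a ∨ 0 < P.ord (y - algebraMap L F a))
    (hFpole : ∀ (P : Place L F) (y : F), P.ord y < 0 →
      P.ordDifferential (D L F y) = P.ord y - 1)
    (hDER : ∀ (y t : S.O) (f : F), D L F (y : F) = f • D L F (t : F) → D k Fk (S.red t) ≠ 0 →
      ∃ hf : f ∈ S.O, D k Fk (S.red y) = S.red ⟨f, hf⟩ • D k Fk (S.red t))
    (j : S.O) (hjnc : ∀ c : k, S.red j ≠ algebraMap k Fk c) (hDjk : D k Fk (S.red j) ≠ 0)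
    (Pl : Finset (Place L F)) (hPl : ∀ P, P ∈ Pl ↔ P.ord (j : F) < 0)
    (T : Finset (Place k Fk)) (hT : ∀ Q, Q ∈ T ↔ Q.ord (S.red j) < 0)
    (hsum : ∑ Q ∈ T, Q.ord (S.red j) ≤ ∑ P ∈ Pl, P.ord (j : F))
    (W : Divisor L F) (hW : ∀ P, W P = P.ordDifferential (D L F (j : F)))
    (Wk : Divisor k Fk) (hWk : ∀ Q, Wk Q = Q.ordDifferential (D k Fk (S.red j)))
    (hX0 : ∀ P : Place L F, 0 ≤ P.ord (j : F) → W P ≠ 0 →
      ∃ c : L, c ∈ S.A ∧ 0 < P.ord ((j : F) - algebraMap L F c))
    (hNORM : ∀ Q : Place k Fk, 0 ≤ Q.ord (S.red j) →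
      ∃ n : S.O, (∀ P : Place L F, 0 ≤ P.ord (j : F) → 0 ≤ P.ord (n : F)) ∧
        Q.ord (S.red n) = 1) :
    Divisor.degree W ≤ Divisor.degree Wk := by
  have hjred : S.red j ≠ 0 := by
    have := hjnc 0
    rwa [map_zero] at this
  have hA := (S.LC_compat hPD j hjred Pl hPl T hT hsum).1
  refine LC_degree_le_of_mapDomain_le S.r S.deg_r hdegk W Wk fun Q => ?_
  rw [hWk]
  by_cases hQ : Q.ord (S.red j) < 0
  · refine S.LC_cusp hPD hk hFpole j hjred W hW Q hQ fun P hP hPj => ?_
    by_contra hne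
    obtain ⟨c, hc, hpos⟩ := hX0 P hPj hne
    have := S.LC_compat_sub hPD j hjnc Pl hPl T hT hsum c hc P hpos
    rw [hP] at this
    omega
  · obtain ⟨n, hnreg, hn⟩ := hNORM Q (by omega)
    refine (S.LC_fin hPD hF hk hval hDER j hDjk W hW Q n hn fun P hP => ?_).le
    refine hnreg P ?_
    by_contra hlt
    have := hA P (by omega)
    rw [hP] at this
    exact hQ this

/-- **GC** from LOC and the Hurwitz formula on both sides. -/
theorem LC_genus_le (hPD : HasPrincipalDivisors L F) (hF : LC_Diff L F) (hk : LC_Diff k Fk)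
    (hdegk : ∀ Q : Place k Fk, Q.deg = 1)
    (hval : ∀ (P : Place L F) (y : F), 0 ≤ P.ord y →
      ∃ a : L, y = algebraMap L F a ∨ 0 < P.ord (y - algebraMap L F a))
    (hFpole : ∀ (P : Place L F) (y : F), P.ord y < 0 →
      P.ordDifferential (D L F y) = P.ord y - 1)
    (hDER : ∀ (y t : S.O) (f : F), D L F (y : F) = f • D L F (t : F) → D k Fk (S.red t) ≠ 0 →
      ∃ hf : f ∈ S.O, D k Fk (S.red y) = S.red ⟨f, hf⟩ • D k Fk (S.red t))
    (j : S.O) (hjnc : ∀ c : k, S.red j ≠ algebraMap k Fk c) (hDjk : D k Fk (S.red j) ≠ 0)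
    (Pl : Finset (Place L F)) (hPl : ∀ P, P ∈ Pl ↔ P.ord (j : F) < 0)
    (T : Finset (Place k Fk)) (hT : ∀ Q, Q ∈ T ↔ Q.ord (S.red j) < 0)
    (hsum : ∑ Q ∈ T, Q.ord (S.red j) ≤ ∑ P ∈ Pl, P.ord (j : F))
    (W : Divisor L F) (hW : ∀ P, W P = P.ordDifferential (D L F (j : F)))
    (Wk : Divisor k Fk) (hWk : ∀ Q, Wk Q = Q.ordDifferential (D k Fk (S.red j)))
    (hX0 : ∀ P : Place L F, 0 ≤ P.ord (j : F) → W P ≠ 0 →
      ∃ c : L, c ∈ S.A ∧ 0 < P.ord ((j : F) - algebraMap L F c))
    (hNORM : ∀ Q : Place k Fk, 0 ≤ Q.ord (S.red j) →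
      ∃ n : S.O, (∀ P : Place L F, 0 ≤ P.ord (j : F) → 0 ≤ P.ord (n : F)) ∧
        Q.ord (S.red n) = 1)
    (g gk : ℕ) (hg : Divisor.degree W = 2 * (g : ℤ) - 2)
    (hgk : Divisor.degree Wk = 2 * (gk : ℤ) - 2) : g ≤ gk := by
  have := S.LC_degree_le hPD hF hk hdegk hval hFpole hDER j hjnc hDjk Pl hPl T hT hsum W hW
    Wk hWk hX0 hNORM
  omega

end S18_Spec

end Fermat.Agent.S18
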