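import Fermat.Agent.S18.Final
import Fermat.Agent.S18.Loc

/-!
# S18, assembly (helper20), abstract part: KEY from LOC + NORM + Hurwitz

`S18_Spec.key_of_loc`: the final statement `S18_Spec.key` (no `p`-torsion in the kernel of
specialisation) with
* `GC` discharged by helper24's `S18_Spec.LC_genus_le` (package LOC) from the Hurwitz formula on
  both sides (package H), the local differential calculus (package DIFF, `LC_Diff`), DER, X0 and
  NORM;
* `H3` (integral local parameters at generic places) discharged by NORM + "specialisation respects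
  poles" (`S18_Spec.LC_compat`), with `T₀ =` the set of poles of `red j`.
-/

set_option autoImplicit false

open AlgebraicCurve KaehlerDifferential

namespace Fermat.Agent.S18

open Fermat.Agent.Lib

namespace S18_Spec

variable {L F k Fk : Type*} [Field L] [Field F] [Algebra L F] [Field k] [Field Fk]
  [Algebra k Fk] (S : S18_Spec L F k Fk)

/-- **H3 from NORM**: outside the poles of `red j` there are integral local parameters which are
regular on the residue disc. -/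
theorem H3_of_norm (hPD : HasPrincipalDivisors L F) (j : S.O) (hj : S.red j ≠ 0)
    (Pl : Finset (Place L F)) (hPl : ∀ P, P ∈ Pl ↔ P.ord (j : F) < 0)
    (T : Finset (Place k Fk)) (hT : ∀ Q, Q ∈ T ↔ Q.ord (S.red j) < 0)
    (hsum : ∑ Q ∈ T, Q.ord (S.red j) ≤ ∑ P ∈ Pl, P.ord (j : F))
    (hNORM : ∀ Q : Place k Fk, 0 ≤ Q.ord (S.red j) →
      ∃ n : S.O, (∀ P : Place L F, 0 ≤ P.ord (j : F) → 0 ≤ P.ord (n : F)) ∧
        Q.ord (S.red n) = 1)
    (Q : Place k Fk) (hQ : Q ∉ T) :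
    ∃ τ : S.O, Q.ord (S.red τ) = 1 ∧ ∀ P, S.r P = Q → 0 ≤ P.ord (τ : F) := by
  have hQ0 : 0 ≤ Q.ord (S.red j) := by
    by_contra hlt
    exact hQ ((hT Q).mpr (by omega))
  obtain ⟨n, hnreg, hn⟩ := hNORM Q hQ0
  refine ⟨n, hn, fun P hP => hnreg P ?_⟩
  by_contra hlt
  have := (S.LC_compat hPD j hj Pl hPl T hT hsum).1 P (by omega)
  rw [hP] at this
  omega

/-- **KEY from LOC + NORM + Hurwitz** (abstract assembly). -/
theorem key_of_loc (hF : RR_Hyp L F) (hk : RR_Hyp k Fk) [Infinite k]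
    (hDF : LC_Diff L F) (hDk : LC_Diff k Fk)
    (hFpole : ∀ (P : Place L F) (y : F), P.ord y < 0 →
      P.ordDifferential (D L F y) = P.ord y - 1)
    (hDER : ∀ (y t : S.O) (f : F), D L F (y : F) = f • D L F (t : F) → D k Fk (S.red t) ≠ 0 →
      ∃ hf : f ∈ S.O, D k Fk (S.red y) = S.red ⟨f, hf⟩ • D k Fk (S.red t))
    (j : S.O) (hjnc : ∀ c : k, S.red j ≠ algebraMap k Fk c) (hDjk : D k Fk (S.red j) ≠ 0)
    (Pl : Finset (Place L F)) (hPl : ∀ P, P ∈ Pl ↔ P.ord (j : F) < 0)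
    (T : Finset (Place k Fk)) (hT : ∀ Q, Q ∈ T ↔ Q.ord (S.red j) < 0)
    (hsum : ∑ Q ∈ T, Q.ord (S.red j) ≤ ∑ P ∈ Pl, P.ord (j : F))
    (W : Divisor L F) (hW : ∀ P, W P = P.ordDifferential (D L F (j : F)))
    (hg : Divisor.degree W = 2 * (RR_genus L F : ℤ) - 2)
    (Wk : Divisor k Fk) (hWk : ∀ Q, Wk Q = Q.ordDifferential (D k Fk (S.red j)))
    (hgk : Divisor.degree Wk = 2 * (RR_genus k Fk : ℤ) - 2)
    (hX0 : ∀ P : Place L F, 0 ≤ P.ord (j : F) → W P ≠ 0 →
      ∃ c : L, c ∈ S.A ∧ 0 < P.ord ((j : F) - algebraMap L F c))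
    (hNORM : ∀ Q : Place k Fk, 0 ≤ Q.ord (S.red j) →
      ∃ n : S.O, (∀ P : Place L F, 0 ≤ P.ord (j : F) → 0 ≤ P.ord (n : F)) ∧
        Q.ord (S.red n) = 1)
    (p : ℕ) (hp : (p : k) ≠ 0)
    (D₀ : Divisor L F) (hdeg : Divisor.degree D₀ = 0) (hmap : Finsupp.mapDomain S.r D₀ = 0)
    (u : S.O) (hu : S.red u = 1) (hdiv : ∀ P, (p : ℤ) * D₀ P = P.ord (u : F)) :
    D₀ ∈ Divisor.principal (K := L) (F := F) := by
  have hval : ∀ (P : Place L F) (y : F), 0 ≤ P.ord y →
      ∃ a : L, y = algebraMap L F a ∨ 0 < P.ord (y - algebraMap L F a) :=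
    fun P y hy => S18_exists_value P (hF.deg_one P) y hy
  have hjred : S.red j ≠ 0 := by
    intro h0
    exact hjnc 0 (by rw [h0, map_zero])
  have GC : RR_genus L F ≤ RR_genus k Fk :=
    S.LC_genus_le hF.principal hDF hDk hk.deg_one hval hFpole hDER j hjnc hDjk Pl hPl T hT hsum
      W hW Wk hWk hX0 hNORM (RR_genus L F) (RR_genus k Fk) hg hgk
  exact S.key hF hk GC p hp T
    (fun Q hQ => S.H3_of_norm hF.principal j hjred Pl hPl T hT hsum hNORM Q hQ)
    D₀ hdeg hmap u hu hdiv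

end S18_Spec

end Fermat.Agent.S18
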