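import Mathlib
import Fermat.Agent.S18.FinalA

/-!
# S18, package T (helper20), part B: the local estimate in a residue disc

* fibre lemmas for `Finsupp.mapDomain` (`S18_mapDomain_nonneg`, `S18_fibre_eq_zero`,
  `S18_fibre_single`, `S18_fibre_exists`);
* `S18_Spec.shift`: an integral function `τ` whose reduction is a uniformizer at `Q`, regular on
  the disc `Δ_Q = r⁻¹ Q`, is injective on the disc: `τ - τ(P₁)` has exactly one simple zero;
* `S18_Spec.local_bound`: if `div u = p (P₁ - P₀)` on the disc and `u - β = c • w` then `red w` has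
  at most a simple pole at `Q`.
-/

set_option autoImplicit false

open AlgebraicCurve

namespace Fermat.Agent.S18

open scoped Classical

section fibre

variable {α β : Type*}

theorem S18_mapDomain_nonneg (r : α → β) (D : α →₀ ℤ) (Q : β)
    (hnn : ∀ P, r P = Q → 0 ≤ D P) : 0 ≤ Finsupp.mapDomain r D Q := by
  classical
  rw [Finsupp.mapDomain, Finsupp.sum_apply, Finsupp.sum]
  refine Finset.sum_nonneg fun P _ => ?_
  rw [Finsupp.single_apply]
  split_ifs with h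
  · exact hnn P h
  · exact le_refl _

theorem S18_fibre_eq_zero (r : α → β) (D : α →₀ ℤ) (Q : β)
    (hnn : ∀ P, r P = Q → 0 ≤ D P) (h0 : Finsupp.mapDomain r D Q = 0) :
    ∀ P, r P = Q → D P = 0 := by
  intro P hP
  by_contra hne
  have hpos : 0 < D P := lt_of_le_of_ne (hnn P hP) (Ne.symm hne)
  have := S18_Spec.mapDomain_pos r D Q hnn P hP hpos
  omega

theorem S18_fibre_single (r : α → β) (D : α →₀ ℤ) (Q : β)
    (hnn : ∀ P, r P = Q → 0 ≤ D P) (h1 : Finsupp.mapDomain r D Q = 1) (P₀ : α) (hP₀ : r P₀ = Q)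
    (hpos : 0 < D P₀) : ∀ P, r P = Q → D P = if P = P₀ then 1 else 0 := by
  have hnn' : ∀ P, r P = Q → 0 ≤ (D - Finsupp.single P₀ (1 : ℤ) : α →₀ ℤ) P := by
    intro P hP
    rw [Finsupp.sub_apply, Finsupp.single_apply]
    split_ifs with h
    · subst h; omega
    · have := hnn P hP; omega
  have h0 : Finsupp.mapDomain r (D - Finsupp.single P₀ (1 : ℤ) : α →₀ ℤ) Q = 0 := by
    rw [Finsupp.mapDomain_sub, Finsupp.sub_apply, h1, Finsupp.mapDomain_single,
      Finsupp.single_apply, if_pos hP₀]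
    rfl
  intro P hP
  have h2 := S18_fibre_eq_zero r _ Q hnn' h0 P hP
  rw [Finsupp.sub_apply, Finsupp.single_apply] at h2
  by_cases h : P = P₀
  · rw [if_pos h]
    rw [if_pos h.symm] at h2
    omega
  · rw [if_neg h]
    rw [if_neg (Ne.symm h)] at h2
    omega

theorem S18_mapDomain_eq_zero_of_fibre (r : α → β) (D : α →₀ ℤ) (Q : β)
    (h : ∀ P, r P = Q → D P = 0) : Finsupp.mapDomain r D Q = 0 := by
  classical
  rw [Finsupp.mapDomain, Finsupp.sum_apply, Finsupp.sum]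
  refine Finset.sum_eq_zero fun P _ => ?_
  rw [Finsupp.single_apply]
  split_ifs with hP
  · exact h P hP
  · rfl

theorem S18_fibre_exists (r : α → β) (D : α →₀ ℤ) (Q : β)
    (hnn : ∀ P, r P = Q → 0 ≤ D P) (h1 : Finsupp.mapDomain r D Q = 1) :
    ∃ P₀, r P₀ = Q ∧ ∀ P, r P = Q → D P = if P = P₀ then 1 else 0 := by
  by_cases hex : ∃ P₀, r P₀ = Q ∧ D P₀ ≠ 0
  · obtain ⟨P₀, hP₀, hne⟩ := hex
    exact ⟨P₀, hP₀, S18_fibre_single r D Q hnn h1 P₀ hP₀
      (lt_of_le_of_ne (hnn P₀ hP₀) (Ne.symm hne))⟩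
  · push Not at hex
    rw [S18_mapDomain_eq_zero_of_fibre r D Q hex] at h1
    exact absurd h1 zero_ne_one

end fibre

namespace S18_Spec

variable {L F k Fk : Type*} [Field L] [Field F] [Algebra L F] [Field k] [Field Fk]
  [Algebra k Fk] (S : S18_Spec L F k Fk)

variable (hPD : HasPrincipalDivisors L F)

include hPD

/-- `ord_Q (red x) = ∑_{P ∈ Δ_Q} ord_P x ≥ 0` if `x` is regular on the disc. -/
theorem ord_red_nonneg (x : S.O) (hx : S.red x ≠ 0) (Q : Place k Fk)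
    (hreg : ∀ P, S.r P = Q → 0 ≤ P.ord (x : F)) : 0 ≤ Q.ord (S.red x) := by
  obtain ⟨D, hD, -⟩ := hPD.exists_divisor _ (S.ne_zero_of_red_ne_zero hx)
  rw [← S.mapDomain_div x hx D hD Q]
  exact S18_mapDomain_nonneg S.r D Q fun P hP => by rw [hD P]; exact hreg P hP

theorem ord_red_pos (x : S.O) (hx : S.red x ≠ 0) (Q : Place k Fk)
    (hreg : ∀ P, S.r P = Q → 0 ≤ P.ord (x : F)) (P₀ : Place L F) (hP₀ : S.r P₀ = Q)
    (hpos : 0 < P₀.ord (x : F)) : 0 < Q.ord (S.red x) := by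
  obtain ⟨D, hD, -⟩ := hPD.exists_divisor _ (S.ne_zero_of_red_ne_zero hx)
  rw [← S.mapDomain_div x hx D hD Q]
  exact mapDomain_pos S.r D Q (fun P hP => by rw [hD P]; exact hreg P hP) P₀ hP₀
    (by rw [hD P₀]; exact hpos)

/-- an integral function whose reduction is a uniformizer at `Q` and which is regular on the
disc of `Q` is injective on the disc. -/
theorem shift
    (H4 : ∀ (P : Place L F) (x : F), 0 ≤ P.ord x →
      ∃ a : L, x = algebraMap L F a ∨ 0 < P.ord (x - algebraMap L F a))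
    (Q : Place k Fk) (τ : S.O) (hτ : Q.ord (S.red τ) = 1)
    (hτreg : ∀ P, S.r P = Q → 0 ≤ P.ord (τ : F))
    (P₁ : Place L F) (hP₁ : S.r P₁ = Q) :
    ∃ a : S.A, S.res a = 0 ∧
      ∀ P, S.r P = Q → P.ord ((τ : F) - algebraMap L F (a : L)) = if P = P₁ then 1 else 0 := by
  have hτ0 : S.red τ ≠ 0 := by
    intro h0
    rw [h0, Place.ord_zero] at hτ
    exact zero_ne_one hτ
  have hnotconst : ∀ c : k, S.red τ ≠ algebraMap k Fk c := by
    intro c hc
    rw [hc, ord_algebraMap] at hτ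
    exact zero_ne_one hτ
  obtain ⟨a, ha⟩ := H4 P₁ (τ : F) (hτreg P₁ hP₁)
  have hpos : 0 < P₁.ord ((τ : F) - algebraMap L F a) := by
    rcases ha with ha | ha
    · exfalso
      have haO : algebraMap L F a ∈ S.O := ha ▸ τ.2
      have haA : a ∈ S.A := (S.algebraMap_mem_iff a).mp haO
      have : τ = S.const ⟨a, haA⟩ := Subtype.ext ha
      apply hnotconst (S.res ⟨a, haA⟩)
      rw [this, red_const]
    · exact ha
  obtain ⟨haA, hval⟩ := S.value_reduction hPD τ Q hτreg P₁ hP₁ a hpos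
  have hval' : 0 < Q.ord (S.red τ - algebraMap k Fk (S.res ⟨a, haA⟩)) :=
    hval.resolve_left (hnotconst _)
  have hres : S.res ⟨a, haA⟩ = 0 := by
    by_contra hne
    have := S18_ord_sub_const_le Q (f := S.red τ) (by rw [hτ]; exact one_pos) hne
    omega
  refine ⟨⟨a, haA⟩, hres, ?_⟩
  set τa : S.O := τ - S.const ⟨a, haA⟩ with hτa
  have hτaF : (τa : F) = (τ : F) - algebraMap L F a := rfl
  have hredτa : S.red τa = S.red τ := by
    rw [hτa, map_sub, red_const, hres, map_zero, sub_zero]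
  have hτa0 : S.red τa ≠ 0 := by rw [hredτa]; exact hτ0
  have hτaF0 : (τa : F) ≠ 0 := S.ne_zero_of_red_ne_zero hτa0
  obtain ⟨D, hD, -⟩ := hPD.exists_divisor _ hτaF0
  have hmap := S.mapDomain_div τa hτa0 D hD Q
  rw [hredτa, hτ] at hmap
  have hnn : ∀ P, S.r P = Q → 0 ≤ D P := by
    intro P hP
    rw [hD P, hτaF]
    refine S18_ord_sub_ge P (by rw [← hτaF]; exact hτaF0) (Or.inr (hτreg P hP)) (Or.inr ?_)
    rw [ord_algebraMap]
  have hfib := S18_fibre_single S.r D Q hnn hmap P₁ hP₁ (by rw [hD P₁, hτaF]; exact hpos)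
  intro P hP
  show P.ord ((τ : F) - algebraMap L F a) = _
  rw [← hτaF, ← hD P]
  exact hfib P hP


/-- **the local estimate**: if `div u = p (P₁ - P₀)` on the disc of `Q`, `red u = 1`, and
`u - β = c • w` with `w` a unit of `O`, then `red w` has at most a simple pole at `Q`. -/
theorem local_bound (p : ℕ) (hp : (p : k) ≠ 0)
    (H4 : ∀ (P : Place L F) (x : F), 0 ≤ P.ord x →
      ∃ a : L, x = algebraMap L F a ∨ 0 < P.ord (x - algebraMap L F a))
    (Q : Place k Fk) (τ : S.O) (hτ : Q.ord (S.red τ) = 1)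
    (hτreg : ∀ P, S.r P = Q → 0 ≤ P.ord (τ : F))
    (P₀ P₁ : Place L F) (hP₀ : S.r P₀ = Q) (hP₁ : S.r P₁ = Q)
    (u : S.O) (hu : S.red u = 1)
    (hord : ∀ P, S.r P = Q →
      P.ord (u : F) = (p : ℤ) * ((if P = P₁ then 1 else 0) - (if P = P₀ then 1 else 0)))
    (β : S.A) (c : L) (hc : c ≠ 0) (w : S.O) (hw : S.red w ≠ 0)
    (huw : (u : F) - algebraMap L F (β : L) = algebraMap L F c * (w : F)) :
    -1 ≤ Q.ord (S.red w) := by
  have hp0 : p ≠ 0 := by
    rintro rfl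
    exact hp Nat.cast_zero
  have hτ0 : S.red τ ≠ 0 := by
    intro h0
    rw [h0, Place.ord_zero] at hτ
    exact zero_ne_one hτ
  obtain ⟨a₀, ha₀, hord₀⟩ := S.shift hPD H4 Q τ hτ hτreg P₀ hP₀
  obtain ⟨a₁, ha₁, hord₁⟩ := S.shift hPD H4 Q τ hτ hτreg P₁ hP₁
  set τ₀ : S.O := τ - S.const a₀ with hτ₀
  set τ₁ : S.O := τ - S.const a₁ with hτ₁
  have hred₀ : S.red τ₀ = S.red τ := by
    rw [hτ₀, map_sub, red_const, ha₀, map_zero, sub_zero]
  have hred₁ : S.red τ₁ = S.red τ := by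
    rw [hτ₁, map_sub, red_const, ha₁, map_zero, sub_zero]
  have hτ₀0 : S.red τ₀ ≠ 0 := by rw [hred₀]; exact hτ0
  have hτ₁0 : S.red τ₁ ≠ 0 := by rw [hred₁]; exact hτ0
  have hτ₀F : (τ₀ : F) ≠ 0 := S.ne_zero_of_red_ne_zero hτ₀0
  have hτ₁F : (τ₁ : F) ≠ 0 := S.ne_zero_of_red_ne_zero hτ₁0
  have huF : (u : F) ≠ 0 := S.ne_zero_of_red_ne_zero (by rw [hu]; exact one_ne_zero)
  set a : S.A := a₁ - a₀ with hadef
  have ha : S.res a = 0 := by rw [hadef, map_sub, ha₀, ha₁, sub_zero]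
  have hτ₁eq : τ₁ = τ₀ + -(S.const a) := by
    apply Subtype.ext
    show (τ : F) - algebraMap L F (a₁ : L) =
      ((τ : F) - algebraMap L F (a₀ : L)) + -(algebraMap L F ((a₁ : L) - (a₀ : L)))
    rw [map_sub]
    ring
  obtain ⟨kk, hkk⟩ := Polynomial.powAddExpansion τ₀ (-(S.const a)) p
  rw [← hτ₁eq] at hkk
  set τ₁inv : S.O := ⟨((τ₁ : F))⁻¹, S.inv_mem hτ₁0⟩ with hτ₁inv
  have hinv : τ₁inv * τ₁ = 1 := by
    apply Subtype.ext
    show ((τ₁ : F))⁻¹ * (τ₁ : F) = 1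
    exact inv_mul_cancel₀ hτ₁F
  have hredinv : S.red τ₁inv = (S.red τ)⁻¹ := by
    rw [hτ₁inv, S.red_inv hτ₁0, hred₁]
  set ε : S.O := u * τ₀ ^ p * τ₁inv ^ p with hε
  have hεred : S.red ε = 1 := by
    rw [hε, map_mul, map_mul, map_pow, map_pow, hu, hred₀, hredinv, one_mul, ← mul_pow,
      mul_inv_cancel₀ hτ0, one_pow]
  have hεid : ε * τ₁ ^ p = u * τ₀ ^ p := by
    rw [hε, mul_assoc, ← mul_pow, hinv, one_pow, mul_one]
  have hε0 : S.red ε ≠ 0 := by rw [hεred]; exact one_ne_zero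
  have hεF : (ε : F) ≠ 0 := S.ne_zero_of_red_ne_zero hε0
  have hεord : ∀ P, S.r P = Q → P.ord (ε : F) = 0 := by
    intro P hP
    have h1 : (ε : F) = (u : F) * (τ₀ : F) ^ p * (((τ₁ : F))⁻¹) ^ p := rfl
    have h₀ := hord₀ P hP
    have h₁ := hord₁ P hP
    have h₂ := hord P hP
    rw [h1, P.ord_mul (mul_ne_zero huF (pow_ne_zero _ hτ₀F))
      (pow_ne_zero _ (inv_ne_zero hτ₁F)), P.ord_mul huF (pow_ne_zero _ hτ₀F), S18_ord_pow,
      S18_ord_pow, P.ord_inv]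
    have h₀' : P.ord (τ₀ : F) = if P = P₀ then 1 else 0 := h₀
    have h₁' : P.ord (τ₁ : F) = if P = P₁ then 1 else 0 := h₁
    rw [h₀', h₁', h₂]
    ring
  -- the main identity
  have hmain : (u - S.const β) * τ₀ ^ p = (ε - S.const β) * τ₀ ^ p
      + S.const a * (-((p : S.O) * ε * τ₀ ^ (p - 1))) + S.const a * S.const a * (ε * kk) := by
    linear_combination (-1 : S.O) * hεid + ε * hkk
  -- normal form of `ε - β`
  obtain ⟨c₁, e₁, he₁, he₁ord, hεβ⟩ : ∃ (c₁ : L) (e₁ : S.O), S.red e₁ ≠ 0 ∧ 0 ≤ Q.ord (S.red e₁) ∧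
      (ε : F) - algebraMap L F (β : L) = algebraMap L F c₁ * (e₁ : F) := by
    by_cases h0 : (ε : F) - algebraMap L F (β : L) = 0
    · refine ⟨0, 1, ?_, ?_, ?_⟩
      · rw [map_one]; exact one_ne_zero
      · rw [map_one, Place.ord_one]
      · rw [h0, map_zero, zero_mul]
    · obtain ⟨c₁, e₁, hc₁, he₁, heq⟩ := S.exists_const_mul_unit _ h0
      refine ⟨c₁, e₁, he₁, ?_, heq⟩
      refine S.ord_red_nonneg hPD e₁ he₁ Q fun P hP => ?_
      have hc₁F : algebraMap L F c₁ ≠ 0 := by rwa [Ne, map_eq_zero]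
      have he₁F : (e₁ : F) ≠ 0 := S.ne_zero_of_red_ne_zero he₁
      have h2 : P.ord ((ε : F) - algebraMap L F (β : L)) = P.ord (e₁ : F) := by
        rw [heq, P.ord_mul hc₁F he₁F, ord_algebraMap, zero_add]
      rw [← h2]
      refine S18_ord_sub_ge P h0 (Or.inr (hεord P hP).ge) (Or.inr ?_)
      rw [ord_algebraMap]
  -- apply Lemma A
  have hpk : algebraMap k Fk (p : k) ≠ 0 := by rwa [Ne, map_eq_zero]
  have hredf₂ : S.red (-((p : S.O) * ε * τ₀ ^ (p - 1)))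
      = -(algebraMap k Fk (p : k) * S.red τ ^ (p - 1)) := by
    rw [map_neg, map_mul, map_mul, map_pow, map_natCast, hεred, mul_one, hred₀, map_natCast]
  have hf₂0 : S.red (-((p : S.O) * ε * τ₀ ^ (p - 1))) ≠ 0 := by
    rw [hredf₂]
    exact neg_ne_zero.mpr (mul_ne_zero hpk (pow_ne_zero _ hτ0))
  have hf₂ord : Q.ord (S.red (-((p : S.O) * ε * τ₀ ^ (p - 1)))) = ((p - 1 : ℕ) : ℤ) := by
    rw [hredf₂, S18_ord_neg, Q.ord_mul hpk (pow_ne_zero _ hτ0), ord_algebraMap, zero_add,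
      S18_ord_pow, hτ, mul_one]
  have hf₁0 : S.red (e₁ * τ₀ ^ p) ≠ 0 := by
    rw [map_mul, map_pow, hred₀]
    exact mul_ne_zero he₁ (pow_ne_zero _ hτ0)
  have hf₁ord : ((p - 1 : ℕ) : ℤ) < Q.ord (S.red (e₁ * τ₀ ^ p)) := by
    rw [map_mul, map_pow, hred₀, Q.ord_mul he₁ (pow_ne_zero _ hτ0), S18_ord_pow, hτ, mul_one]
    have : ((p - 1 : ℕ) : ℤ) < (p : ℤ) := by
      have : p - 1 < p := Nat.sub_lt (Nat.pos_of_ne_zero hp0) one_pos
      exact_mod_cast this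
    omega
  have hw'0 : S.red (w * τ₀ ^ p) ≠ 0 := by
    rw [map_mul, map_pow, hred₀]
    exact mul_ne_zero hw (pow_ne_zero _ hτ0)
  have heq : algebraMap L F c * ((w * τ₀ ^ p : S.O) : F)
      = algebraMap L F c₁ * ((e₁ * τ₀ ^ p : S.O) : F)
        + algebraMap L F (a : L) * ((-((p : S.O) * ε * τ₀ ^ (p - 1)) : S.O) : F)
        + algebraMap L F (a : L) * algebraMap L F (a : L) * ((ε * kk : S.O) : F) := by
    have h1 : (((u - S.const β) * τ₀ ^ p : S.O) : F) = _ := congrArg (fun z : S.O => (z : F)) hmain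
    have h2 : (((u - S.const β) * τ₀ ^ p : S.O) : F)
        = ((u : F) - algebraMap L F (β : L)) * ((τ₀ ^ p : S.O) : F) := rfl
    have h3 : (((ε - S.const β) * τ₀ ^ p
        + S.const a * (-((p : S.O) * ε * τ₀ ^ (p - 1))) + S.const a * S.const a * (ε * kk) : S.O) : F)
        = ((ε : F) - algebraMap L F (β : L)) * ((τ₀ ^ p : S.O) : F)
          + algebraMap L F (a : L) * ((-((p : S.O) * ε * τ₀ ^ (p - 1)) : S.O) : F)
          + algebraMap L F (a : L) * algebraMap L F (a : L) * ((ε * kk : S.O) : F) := rfl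
    rw [h2, h3, huw, hεβ] at h1
    have h4 : ((w * τ₀ ^ p : S.O) : F) = (w : F) * ((τ₀ ^ p : S.O) : F) := rfl
    have h5 : ((e₁ * τ₀ ^ p : S.O) : F) = (e₁ : F) * ((τ₀ ^ p : S.O) : F) := rfl
    rw [h4, h5]
    linear_combination h1
  have hA := S.ord_red_ge Q ((p - 1 : ℕ) : ℤ) (e₁ * τ₀ ^ p) (-((p : S.O) * ε * τ₀ ^ (p - 1)))
    (ε * kk) hf₁0 hf₂0 hf₁ord hf₂ord c₁ (a : L) a ha c hc (w * τ₀ ^ p) hw'0 heq
  rw [map_mul, map_pow, hred₀, Q.ord_mul hw (pow_ne_zero _ hτ0), S18_ord_pow, hτ, mul_one] at hA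
  have : ((p - 1 : ℕ) : ℤ) = (p : ℤ) - 1 := by
    have : 1 ≤ p := Nat.pos_of_ne_zero hp0
    push_cast [Nat.cast_sub this]
    ring
  omega

end S18_Spec

end Fermat.Agent.S18
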