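import Mathlib
import Fermat.Agent.S18.FinalB

/-!
# S18, package T (helper20), part C: the final argument (abstract)

`S18_Spec.key_core`: the kernel of the specialisation map has no `p`-torsion (`p ≠ 0` in `k`),
given
* `H1`: every divisor of degree `g` on `F` has a nonzero section (Riemann on `F`, `g ≥ g_F`);
* `g` distinct non-special places `Q i` of `Fk` (`L_k(∑ Q i) = k`) and one more place `Qs`;
* for each `i` an integral function `τ` whose reduction is a uniformizer at `Q i` and which is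
  regular on the disc of `Q i`;
* `H4`/`H5`: the places of `F` have degree one (values exist).
-/

set_option autoImplicit false

open AlgebraicCurve

namespace Fermat.Agent.S18

open scoped Classical

namespace S18_Spec

variable {L F k Fk : Type*} [Field L] [Field F] [Algebra L F] [Field k] [Field Fk]
  [Algebra k Fk] (S : S18_Spec L F k Fk)

variable (hPD : HasPrincipalDivisors L F)

include hPD

/-- **package T, core**: see the module docstring. -/
theorem key_core (p : ℕ) (hp : (p : k) ≠ 0) (g : ℕ)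
    (H1 : ∀ D : Divisor L F, Divisor.degree D = g → ∃ x : F, x ≠ 0 ∧ ∀ P, -D P ≤ P.ord x)
    (H4 : ∀ (P : Place L F) (x : F), 0 ≤ P.ord x →
      ∃ a : L, x = algebraMap L F a ∨ 0 < P.ord (x - algebraMap L F a))
    (H5 : ∀ P : Place L F, P.deg = 1)
    (Q : Fin g → Place k Fk) (hQ : Function.Injective Q) (Qs : Place k Fk) (hQs : ∀ i, Q i ≠ Qs)
    (hLk : ∀ y : Fk, y ≠ 0 → (∀ Q', -(if ∃ i, Q i = Q' then 1 else 0 : ℤ) ≤ Q'.ord y) →
      ∃ c : k, y = algebraMap k Fk c)
    (Hτ : ∀ i, ∃ τ : S.O, (Q i).ord (S.red τ) = 1 ∧ ∀ P, S.r P = Q i → 0 ≤ P.ord (τ : F))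
    (D : Divisor L F) (hdeg : Divisor.degree D = 0) (hmap : Finsupp.mapDomain S.r D = 0)
    (u : S.O) (hu : S.red u = 1) (hdiv : ∀ P, (p : ℤ) * D P = P.ord (u : F)) :
    D ∈ Divisor.principal (K := L) (F := F) := by
  have hp0 : (p : ℤ) ≠ 0 := by
    intro h0
    have : p = 0 := by exact_mod_cast h0
    rw [this] at hp
    exact hp Nat.cast_zero
  have hrsurj := S.r_surjective hPD
  choose P0 hP0 using fun i => hrsurj (Q i)
  obtain ⟨Ps, hPs⟩ := hrsurj Qs
  -- the divisor `E = ∑ P0 i`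
  set E : Divisor L F := ∑ i, Finsupp.single (P0 i) (1 : ℤ) with hE
  have hEdeg : Divisor.degree E = g := by
    rw [hE, map_sum]
    simp [Divisor.degree_single, H5]
  have hsumQ : ∀ Q', (∑ i, if Q i = Q' then (1 : ℤ) else 0) = if ∃ i, Q i = Q' then 1 else 0 := by
    intro Q'
    split_ifs with h
    · obtain ⟨i, hi⟩ := h
      rw [Finset.sum_eq_single i]
      · rw [if_pos hi]
      · intro j _ hji
        rw [if_neg]
        intro hj
        exact hji (hQ (hj.trans hi.symm))
      · intro hi'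
        exact absurd (Finset.mem_univ i) hi'
    · push Not at h
      exact Finset.sum_eq_zero fun i _ => if_neg (h i)
  have hEmap : ∀ Q', Finsupp.mapDomain S.r E Q' = if ∃ i, Q i = Q' then 1 else 0 := by
    intro Q'
    rw [hE, Finsupp.mapDomain_finsetSum, Finsupp.finsetSum_apply]
    simp only [Finsupp.mapDomain_single, hP0, Finsupp.single_apply]
    exact hsumQ Q'
  have hEapp : ∀ i P, S.r P = Q i → E P = if P = P0 i then 1 else 0 := by
    intro i P hP
    rw [hE, Finsupp.finsetSum_apply]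
    simp only [Finsupp.single_apply]
    rw [Finset.sum_eq_single i]
    · by_cases h : P = P0 i
      · rw [if_pos h, if_pos h.symm]
      · rw [if_neg h, if_neg (Ne.symm h)]
    · intro j _ hji
      rw [if_neg]
      intro hj
      apply hji
      apply hQ
      rw [← hP0 j, hj, hP]
    · intro hi'
      exact absurd (Finset.mem_univ i) hi'
  have hEapp0 : ∀ P, (¬ ∃ i, Q i = S.r P) → E P = 0 := by
    intro P hP
    rw [hE, Finsupp.finsetSum_apply]
    simp only [Finsupp.single_apply]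
    refine Finset.sum_eq_zero fun i _ => if_neg ?_
    intro hi
    exact hP ⟨i, by rw [← hP0 i, hi]⟩
  -- Riemann on `F`
  obtain ⟨x, hx0, hx⟩ := H1 (D + E) (by rw [map_add, hdeg, hEdeg, zero_add])
  obtain ⟨cx, x', hcx, hx'red, hxeq⟩ := S.exists_const_mul_unit x hx0
  have hx'F : (x' : F) ≠ 0 := S.ne_zero_of_red_ne_zero hx'red
  have hcxF : algebraMap L F cx ≠ 0 := by rwa [Ne, map_eq_zero]
  have hx'ord : ∀ P : Place L F, P.ord (x' : F) = P.ord x := by
    intro P
    rw [hxeq, P.ord_mul hcxF hx'F, ord_algebraMap, zero_add]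
  obtain ⟨Dx, hDx, -⟩ := hPD.exists_divisor (x' : F) hx'F
  have hD'nn : ∀ P, 0 ≤ (D + E + Dx) P := by
    intro P
    have h1 := hx P
    rw [Finsupp.add_apply] at h1
    rw [Finsupp.add_apply, Finsupp.add_apply, hDx, hx'ord]
    omega
  have hD'map : ∀ Q', Finsupp.mapDomain S.r (D + E + Dx) Q'
      = (if ∃ i, Q i = Q' then 1 else 0) + Q'.ord (S.red x') := by
    intro Q'
    rw [Finsupp.mapDomain_add, Finsupp.mapDomain_add, hmap, Finsupp.add_apply, Finsupp.add_apply,
      hEmap, S.mapDomain_div x' hx'red Dx hDx Q', Finsupp.zero_apply, zero_add]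
  obtain ⟨cbar, hcbar⟩ := hLk (S.red x') hx'red (fun Q' => by
    have h1 := S18_mapDomain_nonneg S.r (D + E + Dx) Q' (fun P _ => hD'nn P)
    rw [hD'map] at h1
    omega)
  have hD'map' : ∀ Q', Finsupp.mapDomain S.r (D + E + Dx) Q'
      = if ∃ i, Q i = Q' then 1 else 0 := by
    intro Q'
    rw [hD'map, hcbar, ord_algebraMap, add_zero]
  obtain ⟨x1, hx1red, hx1ord⟩ := S.exists_red_eq_one x' cbar hx'red hcbar
  have hx1F : (x1 : F) ≠ 0 := S.ne_zero_of_red_ne_zero (by rw [hx1red]; exact one_ne_zero)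
  have huF : (u : F) ≠ 0 := S.ne_zero_of_red_ne_zero (by rw [hu]; exact one_ne_zero)
  -- the new function and the new divisor
  set u1 : S.O := u * x1 ^ p with hu1
  have hu1red : S.red u1 = 1 := by
    rw [hu1, map_mul, map_pow, hu, hx1red, one_pow, one_mul]
  have hu1ne : S.red u1 ≠ 0 := by rw [hu1red]; exact one_ne_zero
  have hu1ord : ∀ P : Place L F, P.ord (u1 : F) = (p : ℤ) * (D + Dx) P := by
    intro P
    have h1 : (u1 : F) = (u : F) * (x1 : F) ^ p := rfl
    rw [h1, P.ord_mul huF (pow_ne_zero _ hx1F), S18_ord_pow, hx1ord, ← hdiv P, ← hDx P,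
      Finsupp.add_apply]
    ring
  have hD1 : ∀ P, (D + Dx) P = (D + E + Dx) P - E P := by
    intro P
    simp only [Finsupp.add_apply]
    ring
  have hfib : ∀ i, ∃ P1, S.r P1 = Q i ∧ ∀ P, S.r P = Q i →
      (D + Dx) P = (if P = P1 then 1 else 0) - (if P = P0 i then 1 else 0) := by
    intro i
    obtain ⟨P1, hP1, hP1'⟩ := S18_fibre_exists S.r (D + E + Dx) (Q i) (fun P _ => hD'nn P)
      (by rw [hD'map', if_pos ⟨i, rfl⟩])
    refine ⟨P1, hP1, fun P hP => ?_⟩
    rw [hD1, hP1' P hP, hEapp i P hP]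
  have hfib0 : ∀ P, (¬ ∃ i, Q i = S.r P) → (D + Dx) P = 0 := by
    intro P hP
    have h1 := S18_fibre_eq_zero S.r (D + E + Dx) (S.r P) (fun P _ => hD'nn P)
      (by rw [hD'map', if_neg hP]) P rfl
    rw [hD1, h1, hEapp0 P hP, sub_zero]
  -- suppose `D` is not principal: then `u1` is not constant
  by_contra hnot
  have hnonconst : ∀ b : L, (u1 : F) ≠ algebraMap L F b := by
    intro b hb
    apply hnot
    have hD1zero : D + Dx = 0 := by
      ext P
      have h1 := hu1ord P
      rw [hb, ord_algebraMap] at h1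
      rcases mul_eq_zero.mp h1.symm with h2 | h2
      · exact absurd h2 hp0
      · rw [h2]; rfl
    have h3 : D = -Dx := eq_neg_of_add_eq_zero_left hD1zero
    rw [h3]
    exact neg_mem (⟨(x' : F), hx'F, hDx⟩ : Dx ∈ Divisor.principal (K := L) (F := F))
  have hnotQs : ∀ P, S.r P = Qs → ¬ ∃ i, Q i = S.r P := by
    intro P hP
    rw [hP]
    rintro ⟨i, hi⟩
    exact hQs i hi
  have hu1Qs : ∀ P, S.r P = Qs → P.ord (u1 : F) = 0 := by
    intro P hP
    rw [hu1ord, hfib0 P (hnotQs P hP), mul_zero]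
  obtain ⟨β, hβ⟩ := H4 Ps (u1 : F) (by rw [hu1Qs Ps hPs])
  have hβpos := hβ.resolve_left (hnonconst β)
  have hsub0 : (u1 : F) - algebraMap L F β ≠ 0 := sub_ne_zero.mpr (hnonconst β)
  obtain ⟨c, w, hc, hw, hcw⟩ := S.exists_const_mul_unit _ hsub0
  have hwF : (w : F) ≠ 0 := S.ne_zero_of_red_ne_zero hw
  have hcF : algebraMap L F c ≠ 0 := by rwa [Ne, map_eq_zero]
  have hword : ∀ P : Place L F, P.ord (w : F) = P.ord ((u1 : F) - algebraMap L F β) := by
    intro P
    rw [hcw, P.ord_mul hcF hwF, ord_algebraMap, zero_add]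
  obtain ⟨hβA, -⟩ := S.value_reduction hPD u1 Qs (fun P hP => (hu1Qs P hP).ge) Ps hPs β hβpos
  -- regularity of `w` on the discs outside the `Q i`
  have hwreg : ∀ P, (¬ ∃ i, Q i = S.r P) → 0 ≤ P.ord (w : F) := by
    intro P hP
    rw [hword]
    refine S18_ord_sub_ge P hsub0 (Or.inr ?_) (Or.inr ?_)
    · rw [hu1ord, hfib0 P hP, mul_zero]
    · rw [ord_algebraMap]
  -- `red w ∈ L_k(∑ Q i)`
  have hwL : ∀ Q', -(if ∃ i, Q i = Q' then 1 else 0 : ℤ) ≤ Q'.ord (S.red w) := by
    intro Q'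
    split_ifs with h
    · obtain ⟨i, rfl⟩ := h
      obtain ⟨τ, hτ, hτreg⟩ := Hτ i
      obtain ⟨P1, hP1, hD1fib⟩ := hfib i
      exact S.local_bound hPD p hp H4 (Q i) τ hτ hτreg (P0 i) P1 (hP0 i) hP1 u1 hu1red
        (fun P hP => by rw [hu1ord, hD1fib P hP]) ⟨β, hβA⟩ c hc w hw hcw
    · rw [neg_zero]
      exact S.ord_red_nonneg hPD w hw Q' fun P hP => hwreg P (by rw [hP]; exact h)
  obtain ⟨cw, hcw'⟩ := hLk (S.red w) hw hwL
  have hpos := S.ord_red_pos hPD w hw Qs (fun P hP => hwreg P (hnotQs P hP)) Ps hPs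
    (by rw [hword]; exact hβpos)
  rw [hcw', ord_algebraMap] at hpos
  exact lt_irrefl _ hpos

end S18_Spec

end Fermat.Agent.S18
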