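import Mathlib
import Fermat.Agent.S18.FinalC
import Fermat.Agent.Lib.RiemannNonspecial

/-!
# S18, package T (helper20): the final argument, in terms of package R (`RR_Hyp`, `RR_genus`)

`S18_Spec.key`: for a specialisation datum `S : S18_Spec L F k Fk` with Riemann's theorem on both
sides (`RR_Hyp`), `RR_genus L F ≤ RR_genus k Fk` (good reduction) and integral local parameters at
the places of `Fk` outside a finite set `T₀`, the kernel of the specialisation map on divisor
classes has no `p`-torsion for `p ≠ 0` in `k`.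
-/

set_option autoImplicit false

open AlgebraicCurve

namespace Fermat.Agent.S18

open scoped Classical

open Fermat.Agent.Lib

section value

variable {K F : Type*} [Field K] [Field F] [Algebra K F]

/-- values exist at places of degree one. -/
theorem S18_exists_value (P : Place K F) (hP : P.deg = 1) (x : F) (hx : 0 ≤ P.ord x) :
    ∃ a : K, x = algebraMap K F a ∨ 0 < P.ord (x - algebraMap K F a) := by
  obtain ⟨c, hc⟩ := RR_exists_const P hP (f := x) (P.adicValuation_le_one_iff.mpr (Or.inr hx))
  refine ⟨c, ?_⟩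
  by_cases h0 : x - algebraMap K F c = 0
  · left
    exact sub_eq_zero.mp h0
  · right
    rw [P.adicValuation_eq_exp_neg_ord h0, ← WithZero.exp_zero, WithZero.exp_lt_exp] at hc
    omega

/-- `L(D) = K` if `D ≥ 0` and `dim L(D) = 1`. -/
theorem S18_const_of_finrank_one (D : Divisor K F) (hD : 0 ≤ D)
    (hfr : Module.finrank K (riemannRochSpace D) = 1) (y : F)
    (hy : y ∈ riemannRochSpace D) : ∃ c : K, y = algebraMap K F c := by
  have h1 : (1 : F) ∈ riemannRochSpace D := by
    rw [mem_riemannRochSpace_iff]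
    intro v
    right
    rw [Place.ord_one]
    have := Finsupp.le_def.mp hD v
    simp only [Finsupp.zero_apply] at this
    omega
  have hnz : (⟨1, h1⟩ : riemannRochSpace D) ≠ 0 := by
    intro h0
    exact one_ne_zero (congrArg Subtype.val h0)
  obtain ⟨c, hc⟩ := (finrank_eq_one_iff_of_nonzero' _ hnz).mp hfr ⟨y, hy⟩
  refine ⟨c, ?_⟩
  have := congrArg Subtype.val hc
  simp only [Submodule.coe_smul] at this
  rw [← this, Algebra.smul_def, mul_one]

end value

namespace S18_Spec

variable {L F k Fk : Type*} [Field L] [Field F] [Algebra L F] [Field k] [Field Fk]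
  [Algebra k Fk] (S : S18_Spec L F k Fk)

/-- **package T**: the kernel of specialisation has no `p`-torsion. -/
theorem key (hF : RR_Hyp L F) (hk : RR_Hyp k Fk) [Infinite k]
    (GC : RR_genus L F ≤ RR_genus k Fk)
    (p : ℕ) (hp : (p : k) ≠ 0)
    (T₀ : Finset (Place k Fk))
    (H3 : ∀ Q : Place k Fk, Q ∉ T₀ →
      ∃ τ : S.O, Q.ord (S.red τ) = 1 ∧ ∀ P, S.r P = Q → 0 ≤ P.ord (τ : F))
    (D : Divisor L F) (hdeg : Divisor.degree D = 0) (hmap : Finsupp.mapDomain S.r D = 0)
    (u : S.O) (hu : S.red u = 1) (hdiv : ∀ P, (p : ℤ) * D P = P.ord (u : F)) :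
    D ∈ Divisor.principal (K := L) (F := F) := by
  obtain ⟨s, hcard, hdisj, hfr⟩ := RR_nonspecial_finset hk T₀ (RR_genus L F) GC
  let e : Fin (RR_genus L F) ≃ s := (s.equivFinOfCardEq hcard).symm
  have hinf := RR_infinite_places hk
  obtain ⟨Qs, hQs⟩ := Infinite.exists_notMem_finset s
  have hsum : (∑ P ∈ s, Finsupp.single P (1 : ℤ) : Divisor k Fk)
      = ∑ P : s, Finsupp.single (P : Place k Fk) (1 : ℤ) :=
    (Finset.sum_coe_sort s fun P => Finsupp.single P (1 : ℤ)).symm
  have happ : ∀ Q' : Place k Fk, (∑ P ∈ s, Finsupp.single P (1 : ℤ) : Divisor k Fk) Q'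
      = if ∃ i, (e i : Place k Fk) = Q' then 1 else 0 := by
    intro Q'
    rw [Finsupp.finsetSum_apply]
    simp only [Finsupp.single_apply]
    rw [Finset.sum_ite_eq' s Q' (fun _ => (1 : ℤ))]
    by_cases hQ' : Q' ∈ s
    · rw [if_pos hQ', if_pos]
      exact ⟨e.symm ⟨Q', hQ'⟩, by rw [Equiv.apply_symm_apply]⟩
    · rw [if_neg hQ', if_neg]
      rintro ⟨i, hi⟩
      exact hQ' (hi ▸ (e i).2)
  have hnn : (0 : Divisor k Fk) ≤ ∑ P ∈ s, Finsupp.single P (1 : ℤ) := by
    rw [Finsupp.le_def]
    intro Q'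
    rw [happ]
    simp only [Finsupp.zero_apply]
    split_ifs <;> omega
  refine S.key_core hF.principal p hp (RR_genus L F) ?_
    (fun P x hx => S18_exists_value P (hF.deg_one P) x hx) hF.deg_one
    (fun i => (e i : Place k Fk)) ?_ Qs ?_ ?_ ?_ D hdeg hmap u hu hdiv
  · -- Riemann on `F`
    intro D' hD'
    have h1 := RR_riemann_ineq hF D'
    rw [hD'] at h1
    have h2 : 0 < Module.finrank L (riemannRochSpace D') := by omega
    obtain ⟨z, hz0, hz⟩ := RR_exists_ne_zero_of_finrank_pos h2
    refine ⟨z, hz0, fun P => ?_⟩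
    exact ((mem_riemannRochSpace_iff.mp hz) P).resolve_left hz0
  · intro i i' hii
    exact e.injective (Subtype.ext hii)
  · intro i hi
    exact hQs (hi ▸ (e i).2)
  · intro y hy0 hy
    refine S18_const_of_finrank_one _ hnn hfr y ?_
    rw [mem_riemannRochSpace_iff]
    intro v
    right
    rw [happ]
    exact hy v
  · intro i
    refine H3 _ fun hi => ?_
    exact Finset.disjoint_left.mp hdisj (e i).2 hi

end S18_Spec

end Fermat.Agent.S18
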