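import Mathlib
import Fermat.Agent.Lib.FFSep
import Fermat.Agent.Lib.DiffLocal
import Fermat.Agent.S18.Final
import Fermat.Agent.S18.Loc

/-!
# S18, package LOC (helper24), part 3: the inputs of `LC_genus_le` from P0 / DIFF

`K` algebraically closed, `x` transcendental, `F / K(x)` finite separable.

* `LC_diff_of_sep` : `LC_Diff K F` (from helper21's `FD_*`, any characteristic).
* `LC_pole_eq_of_charZero` : `ord_v (dy) = ord_v y - 1` at poles, characteristic `0`.
* `LC_exists_value` : values at places.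
* `S18_Spec.LC_gc` : the genus comparison **GC** from DEG (for `F` itself), X0, DER, NORM and the
  Hurwitz formula on both sides.
-/

set_option autoImplicit false

open AlgebraicCurve IntermediateField KaehlerDifferential Module
open scoped IntermediateField.algebraAdjoinAdjoin

namespace Fermat.Agent.S18

open Fermat.Agent.Lib Fermat.Agent.S24

section inst

variable {K F : Type*} [Field K] [Field F] [Algebra K F] [IsAlgClosed K]
  {x : F} (hx : Transcendental K x) [FiniteDimensional K⟮x⟯ F] [Algebra.IsSeparable K⟮x⟯ F]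

include hx in
/-- a function field has a place. -/
theorem LC_exists_place : Nonempty (Place K F) := by
  by_contra hno
  have h := FFS_sum_zeros hx
  have hempty : FFS_zeros hx = ∅ := by
    rw [Finset.eq_empty_iff_forall_notMem]
    intro v _
    exact hno ⟨v⟩
  rw [hempty, Finset.sum_empty] at h
  have hpos : 0 < Module.finrank K⟮x⟯ F := Module.finrank_pos
  omega

include hx in
/-- **DIFF** as used by LOC. -/
theorem LC_diff_of_sep : LC_Diff K F where
  gen v := FD_dCoordGenerates x v (FD_deg_one x v)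
  nontrivial := by
    obtain ⟨v⟩ := LC_exists_place hx
    exact FD_nontrivial_kaehler v (FD_deg_one x v)
  unif v t ht := by
    have hg := FD_dCoordGenerates x v (FD_deg_one x v)
    have hn := FD_nontrivial_kaehler v (FD_deg_one x v)
    obtain ⟨u, hu0, -, hD⟩ := FD_D_unif x v (FD_deg_one x v) ht
    refine ⟨?_, ?_⟩
    · rw [hD]
      exact smul_ne_zero hu0 v.dCoord_ne_zero
    · rw [FD_ordDifferential_D x v (FD_deg_one x v) (by rw [ht]; simp), ht, sub_self]
  pole v y hy := by
    by_cases hdy : D K F y = 0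
    · have hg := FD_dCoordGenerates x v (FD_deg_one x v)
      have hn := FD_nontrivial_kaehler v (FD_deg_one x v)
      rw [hdy, Place.ordDifferential, v.differentialCoeff_zero, Place.ord_zero]
      omega
    · have hy0 : y ≠ 0 := by
        rintro rfl
        rw [Place.ord_zero] at hy
        exact lt_irrefl _ hy
      exact FD_ordDifferential_D_ge x v (FD_deg_one x v) hy0 hdy

/-- `ord_v (dy) = ord_v y - 1` at a pole, in characteristic `0`. -/
theorem LC_pole_eq_of_charZero [CharZero K] (x : F) [FiniteDimensional K⟮x⟯ F]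
    [Algebra.IsSeparable K⟮x⟯ F] (v : Place K F) (y : F) (hy : v.ord y < 0) :
    v.ordDifferential (D K F y) = v.ord y - 1 := by
  refine FD_ordDifferential_D x v (FD_deg_one x v) ?_
  have : v.ord y ≠ 0 := by omega
  exact_mod_cast this

/-- values at places. -/
theorem LC_exists_value (x : F) [FiniteDimensional K⟮x⟯ F] (P : Place K F) (y : F)
    (hy : 0 ≤ P.ord y) : ∃ a : K, y = algebraMap K F a ∨ 0 < P.ord (y - algebraMap K F a) :=
  S18_exists_value P (FD_deg_one x P) y hy

end inst

namespace S18_Spec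

variable {L F k Fk : Type*} [Field L] [Field F] [Algebra L F] [Field k] [Field Fk]
  [Algebra k Fk] (S : S18_Spec L F k Fk)

/-- **GC**: the genus of `F` is at most the genus of `Fk`.  Inputs: DEG for `F`
(`[F : L(j)] ≤ [Fk : k(j̄)]`), X0 (finite ramification only over values in `A`), DER, NORM, and
the Hurwitz formula for `dj`, `dj̄`. -/
theorem LC_gc [IsAlgClosed L] [CharZero L] [IsAlgClosed k]
    (hPD : HasPrincipalDivisors L F) (j : S.O)
    (hj : Transcendental L (j : F)) [FiniteDimensional L⟮(j : F)⟯ F]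
    [Algebra.IsSeparable L⟮(j : F)⟯ F]
    (hjk : Transcendental k (S.red j)) [FiniteDimensional k⟮S.red j⟯ Fk]
    [Algebra.IsSeparable k⟮S.red j⟯ Fk]
    (hDEG : finrank L⟮(j : F)⟯ F ≤ finrank k⟮S.red j⟯ Fk)
    (hX0 : ∀ (P : Place L F) (c : L), 0 < P.ord ((j : F) - algebraMap L F c) →
      P.ord ((j : F) - algebraMap L F c) = 1 ∨ c ∈ S.A)
    (hDER : ∀ (y t : S.O) (f : F), D L F (y : F) = f • D L F (t : F) → D k Fk (S.red t) ≠ 0 →
      ∃ hf : f ∈ S.O, D k Fk (S.red y) = S.red ⟨f, hf⟩ • D k Fk (S.red t))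
    (hNORM : ∀ Q : Place k Fk, 0 ≤ Q.ord (S.red j) →
      ∃ n : S.O, (∀ P : Place L F, 0 ≤ P.ord (j : F) → 0 ≤ P.ord (n : F)) ∧
        Q.ord (S.red n) = 1)
    (g gk : ℕ)
    (hW : ∃ W : Divisor L F, (∀ v : Place L F, W v = v.ordDifferential (D L F (j : F))) ∧
      Divisor.degree W = 2 * (g : ℤ) - 2)
    (hWk : ∃ W : Divisor k Fk, (∀ v : Place k Fk, W v = v.ordDifferential (D k Fk (S.red j))) ∧
      Divisor.degree W = 2 * (gk : ℤ) - 2) : g ≤ gk := by
  obtain ⟨W, hW1, hW2⟩ := hW
  obtain ⟨Wk, hWk1, hWk2⟩ := hWk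
  have hF : LC_Diff L F := LC_diff_of_sep hj
  have hk : LC_Diff k Fk := LC_diff_of_sep hjk
  have hval := fun (P : Place L F) (y : F) (hy : 0 ≤ P.ord y) => LC_exists_value (j : F) P y hy
  have hjnc : ∀ c : k, S.red j ≠ algebraMap k Fk c := by
    intro c hc
    apply hjk
    rw [hc]
    exact isAlgebraic_algebraMap c
  have hDjk : D k Fk (S.red j) ≠ 0 := by
    intro h0
    have hspan := FD_span_D (K := k) (S.red j)
    rw [h0, Submodule.span_zero_singleton] at hspan
    have hnt := hk.nontrivial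
    obtain ⟨ω, hω⟩ := exists_ne (0 : Ω[Fk⁄k])
    have : ω ∈ (⊥ : Submodule Fk Ω[Fk⁄k]) := hspan ▸ Submodule.mem_top
    exact hω ((Submodule.mem_bot Fk).mp this)
  have hsum : ∑ Q ∈ FFS_poles hjk, Q.ord (S.red j) ≤ ∑ P ∈ FFS_poles hj, P.ord (j : F) := by
    rw [FFS_sum_poles hjk, FFS_sum_poles hj]
    have : (finrank L⟮(j : F)⟯ F : ℤ) ≤ finrank k⟮S.red j⟯ Fk := by exact_mod_cast hDEG
    omega
  refine S.LC_genus_le hPD hF hk (fun Q => FD_deg_one (S.red j) Q) hval
    (fun P y hy => LC_pole_eq_of_charZero (j : F) P y hy) hDER j hjnc hDjk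
    (FFS_poles hj) (FFS_mem_poles hj) (FFS_poles hjk) (FFS_mem_poles hjk) hsum
    W hW1 Wk hWk1 ?_ hNORM g gk hW2 hWk2
  -- X0
  intro P hP hWP
  obtain ⟨c, hc | hc⟩ := hval P (j : F) hP
  · exfalso
    apply hj
    rw [hc]
    exact isAlgebraic_algebraMap c
  · rcases hX0 P c hc with h1 | hA
    · exfalso
      apply hWP
      rw [hW1, ← LC_D_sub_const (j : F) c]
      exact (hF.unif P _ h1).2
    · exact ⟨c, hA, hc⟩

end S18_Spec

end Fermat.Agent.S18
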