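import Fermat.Agent.S18.AsmX0
import Fermat.Agent.S18.LocInst
import Fermat.Agent.S18.SepK

/-!
# S18, assembly (helper20): the frozen statement from Hurwitz (H) and NORM only

`S18_asm_HN`: S18 from
* the Hurwitz formula for `dj` on `F` and for `dj̄` on `F_k` (package H, helper26),
* NORM (helper24): integral functions, regular at the finite places, reducing to a uniformizer at
  a given finite place of `F_k`.
All other inputs are discharged: DIFF in characteristic `ℓ` (`LC_diff_of_sep`, helper24/helper21),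
DEG for `F` (`S18_poles_sum_le_k`, helper2), P0/SEP, DER, X0, V, T.
-/

set_option autoImplicit false
set_option synthInstance.maxHeartbeats 400000
set_option maxHeartbeats 1000000

open HahnSeries IntermediateField AlgebraicCurve ModularCurve KaehlerDifferential

namespace Fermat.Agent.S18

open Fermat.Agent.Lib Fermat.Agent.S24

variable (N : ℕ) [NeZero N] (A : ValuationSubring (AlgebraicClosure ℚ)) {ℓ : ℕ}

/-- **DIFF** for `F_k`. -/
theorem S18_lcDiff_k (hℓ : ℓ.Prime) (hℓN : ¬ ℓ ∣ N) (hA : A.LiesOverPrime ℓ) :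
    LC_Diff (IsLocalRing.ResidueField A)
      ↥(modularFunctionFieldFullC (IsLocalRing.ResidueField A) N) := by
  have : IsAlgClosed (IsLocalRing.ResidueField A) := S18_residue_isAlgClosed A
  have : CharP (IsLocalRing.ResidueField A) ℓ := S18_residue_charP A ℓ hℓ hA
  have : Fact ℓ.Prime := ⟨hℓ⟩
  have := S18_finite_jbar N hℓ hℓN (S18_ψ A hℓ hA)
  have := S18_isSeparable_jbar N hℓN (S18_ψ A hℓ hA)
  exact LC_diff_of_sep (S18_transcendental_jbar (k := IsLocalRing.ResidueField A) N)

/-- **S18 from Hurwitz and NORM.** -/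
theorem S18_asm_HN (hℓ : ℓ.Prime) (hℓN : ¬ ℓ ∣ N) (hA : A.LiesOverPrime ℓ)
    -- package H on `F`
    (hHWF : ∃ W : Divisor (AlgebraicClosure ℚ) ↥(modularFunctionFieldBar N),
      (∀ P, W P = P.ordDifferential
        (D (AlgebraicClosure ℚ) ↥(modularFunctionFieldBar N) (jB N))) ∧
      Divisor.degree W =
        2 * (RR_genus (AlgebraicClosure ℚ) ↥(modularFunctionFieldBar N) : ℤ) - 2)
    -- package H on `F_k`
    (hHWk : ∃ Wk : Divisor (IsLocalRing.ResidueField A)
        ↥(modularFunctionFieldFullC (IsLocalRing.ResidueField A) N),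
      (∀ Q, Wk Q = Q.ordDifferential
        (D (IsLocalRing.ResidueField A)
          ↥(modularFunctionFieldFullC (IsLocalRing.ResidueField A) N)
          (S18_jbar N (IsLocalRing.ResidueField A)))) ∧
      Divisor.degree Wk = 2 * (RR_genus (IsLocalRing.ResidueField A)
        ↥(modularFunctionFieldFullC (IsLocalRing.ResidueField A) N) : ℤ) - 2)
    (h : ReductionInputsModL A N)
    -- package NORM
    (hNORM : ∀ Q : Place (IsLocalRing.ResidueField A)
        ↥(modularFunctionFieldFullC (IsLocalRing.ResidueField A) N),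
      0 ≤ Q.ord (S18_jbar N (IsLocalRing.ResidueField A)) →
      ∃ n : (S18_specModL N A h).O,
        (∀ P : Place (AlgebraicClosure ℚ) ↥(modularFunctionFieldBar N),
          0 ≤ P.ord (jB N) → 0 ≤ P.ord (n : ↥(modularFunctionFieldBar N))) ∧
        Q.ord ((S18_specModL N A h).red n) = 1)
    (m : ℕ) (hm : ¬ ℓ ∣ m) (z : JZero N) (hmz : m • z = 0) (hz : reductionModL A N z = 0) :
    z = 0 := by
  obtain ⟨Pl, T, hPl, hT, hsum⟩ := S18_poles_sum_le_k N A hℓ hA hℓN
  exact S18_asm N A hℓ hℓN hA (S18_lcDiff_k N A hℓ hℓN hA) hHWF hHWk Pl hPl T hT hsum h hNORM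
    m hm z hmz hz

end Fermat.Agent.S18
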