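import Fermat.Agent.S18.AsmHW

/-!
# S18, assembly: the frozen statement from NORM only

`S18_hurwitz_F`, `S18_hurwitz_k`, `S18_asm_N` live in `S18/AsmHW.lean` (helper26 and helper20 landed
the same three declarations within minutes of each other; this file only re-exports them so that
every declaration name stays unique).
-/
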