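import Fermat.Agent.S18.Der
import Fermat.Agent.S18.Reduce

/-!
# S18, package DER (helper20): the derivative commutes with reduction, Kähler form

* generic: for an intermediate field `E` of `M / K` and a `K`-derivation `d : M → V`:
  `S18_d_of_D` (`D x = f • D y ⇒ d x = f • d y`), and, if `Ω[E⁄K]` is cyclic and `d ≠ 0` on `E`,
  `S18_D_of_d`, `S18_d_ne_zero_of_D`;
* `S18_der`: **DER** for the specialisation datum `S18_specModL N A h` of `X₀(N)`.
-/

set_option autoImplicit false
set_option synthInstance.maxHeartbeats 400000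
set_option maxHeartbeats 1000000

open HahnSeries IntermediateField AlgebraicCurve ModularCurve KaehlerDifferential

namespace Fermat.Agent.S18

open Fermat.Agent.Lib

attribute [local instance 100000] Algebra.toModule

section generic

variable {K M : Type*} [Field K] [Field M] [Algebra K M] (E : IntermediateField K M)
  {V : Type*} [AddCommGroup V] [Module K V] [Module M V] [IsScalarTower K E V]
  (d : Derivation K M V)

/-- the `E`-linear map `Ω[E⁄K] → V` attached to a derivation `M → V`. -/
noncomputable def S18_derLift : Ω[E⁄K] →ₗ[E] V :=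
  (d.compAlgebraMap E).liftKaehlerDifferential

theorem S18_derLift_D (x : E) : S18_derLift E d (D K E x) = d (x : M) := by
  unfold S18_derLift
  rw [Derivation.liftKaehlerDifferential_comp_D]
  rfl

theorem S18_d_of_D {x y f : E} (h : D K E x = f • D K E y) :
    d (x : M) = (f : M) • d (y : M) := by
  have := congrArg (S18_derLift E d) h
  rw [map_smul, S18_derLift_D, S18_derLift_D] at this
  rw [this]
  rfl

variable [NoZeroSMulDivisors M V]
  (hΩ : ∃ ω₀ : Ω[E⁄K], ∀ ω : Ω[E⁄K], ∃ c : E, ω = c • ω₀) (g : E) (hg : d (g : M) ≠ 0)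

include hΩ hg

theorem S18_derLift_injective : Function.Injective (S18_derLift E d) := by
  rw [injective_iff_map_eq_zero]
  intro ω hω
  obtain ⟨ω₀, hω₀⟩ := hΩ
  obtain ⟨c, rfl⟩ := hω₀ ω
  rw [map_smul] at hω
  have hω' : (c : M) • S18_derLift E d ω₀ = 0 := hω
  rcases smul_eq_zero.mp hω' with hc | h0
  · have : c = 0 := Subtype.ext hc
    rw [this, zero_smul]
  · exfalso
    apply hg
    obtain ⟨c', hc'⟩ := hω₀ (D K E g)
    rw [← S18_derLift_D E d g, hc', map_smul, h0, smul_zero]

theorem S18_D_of_d {x y f : E} (h : d (x : M) = (f : M) • d (y : M)) :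
    D K E x = f • D K E y := by
  apply S18_derLift_injective E d hΩ g hg
  rw [map_smul, S18_derLift_D, S18_derLift_D, h]
  rfl

theorem S18_d_ne_zero_of_D {y : E} (h : D K E y ≠ 0) : d (y : M) ≠ 0 := by
  intro h0
  apply h
  apply S18_derLift_injective E d hΩ g hg
  rw [S18_derLift_D, h0, map_zero]

end generic



section concrete

variable (N : ℕ) [NeZero N] (A : ValuationSubring (AlgebraicClosure ℚ))
  (h : ReductionInputsModL A N)

/-- `θ j̄ ≠ 0`. -/
theorem S18_theta_j_ne_zero (k : Type*) [Field k] :
    LT_theta (jqModC k) ≠ 0 := by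
  refine LT_theta_ne_zero_of_coeff (-1) ?_
  rw [coeff_jqModC_neg_one]
  simp

/-- **DER**: the derivative commutes with reduction. -/
theorem S18_der
    (hΩ : ∃ ω₀ : Ω[↥(modularFunctionFieldFullC (IsLocalRing.ResidueField A) N)⁄
        IsLocalRing.ResidueField A],
      ∀ ω : Ω[↥(modularFunctionFieldFullC (IsLocalRing.ResidueField A) N)⁄
        IsLocalRing.ResidueField A],
        ∃ c : ↥(modularFunctionFieldFullC (IsLocalRing.ResidueField A) N), ω = c • ω₀)
    (y t : (S18_specModL N A h).O) (f : ↥(modularFunctionFieldBar N))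
    (hD : D (AlgebraicClosure ℚ) ↥(modularFunctionFieldBar N)
        (y : ↥(modularFunctionFieldBar N)) =
      f • D (AlgebraicClosure ℚ) ↥(modularFunctionFieldBar N) (t : ↥(modularFunctionFieldBar N)))
    (hne : D (IsLocalRing.ResidueField A)
      ↥(modularFunctionFieldFullC (IsLocalRing.ResidueField A) N)
        ((S18_specModL N A h).red t) ≠ 0) :
    ∃ hf : f ∈ (S18_specModL N A h).O,
      D (IsLocalRing.ResidueField A) ↥(modularFunctionFieldFullC (IsLocalRing.ResidueField A) N)
        ((S18_specModL N A h).red y) =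
      (S18_specModL N A h).red ⟨f, hf⟩ •
        D (IsLocalRing.ResidueField A)
          ↥(modularFunctionFieldFullC (IsLocalRing.ResidueField A) N)
          ((S18_specModL N A h).red t) := by
  have hg : LT_theta (((⟨jqModC (IsLocalRing.ResidueField A),
      jqModC_mem_full (IsLocalRing.ResidueField A) N⟩ :
        ↥(modularFunctionFieldFullC (IsLocalRing.ResidueField A) N)) :
          LaurentSeries (IsLocalRing.ResidueField A))) ≠ 0 :=
    S18_theta_j_ne_zero (IsLocalRing.ResidueField A)
  have hθ := S18_d_of_D (modularFunctionFieldBar N)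
    (LT_theta (R := AlgebraicClosure ℚ)) hD
  have hne' := S18_d_ne_zero_of_D (modularFunctionFieldFullC (IsLocalRing.ResidueField A) N)
    (LT_theta (R := IsLocalRing.ResidueField A)) hΩ _ hg hne
  obtain ⟨hO, hred⟩ := S18_der_theta A N (S18_hPD N) (S18_hconst N) h.choose_spec.2
    (y : ↥(modularFunctionFieldBar N)) (t : ↥(modularFunctionFieldBar N)) f y.2 t.2 hθ hne'
  refine ⟨hO, ?_⟩
  exact S18_D_of_d (modularFunctionFieldFullC (IsLocalRing.ResidueField A) N)
    (LT_theta (R := IsLocalRing.ResidueField A)) hΩ _ hg hred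

end concrete

end Fermat.Agent.S18
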