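import Fermat.Agent.S18.Reduce
import Fermat.Agent.S18.Final
import Fermat.Agent.S18.ResField
import Fermat.Agent.Lib.RiemannCharZero

/-!
# S18 (helper20): the statement of S18 from the remaining inputs

`S18_of_GC`: the frozen statement S18 follows from
* `hk : RR_Hyp k F_k` (package P0/SEP in characteristic `ℓ`),
* `GC : RR_genus ℚ̄ F ≤ RR_genus k F_k` (good reduction),
* `H3`: integral local parameters at the places of `F_k` outside a finite set `T₀`.
-/

set_option autoImplicit false
set_option synthInstance.maxHeartbeats 400000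
set_option maxHeartbeats 1000000

open HahnSeries IntermediateField AlgebraicCurve ModularCurve

namespace Fermat.Agent.S18

open Fermat.Agent.Lib

variable (N : ℕ) [NeZero N]

/-- Riemann's theorem holds for `F = ℚ̄(j(q^d) : d ∣ N)`. -/
theorem S18_hRR : RR_Hyp (AlgebraicClosure ℚ) ↥(modularFunctionFieldBar N) := by
  have := Fermat.Agent.S24.finiteDimensional_jB N
  exact RR_hyp_of_charZero (Fermat.Agent.S24.transcendental_jB N)

variable (A : ValuationSubring (AlgebraicClosure ℚ)) (h : ReductionInputsModL A N)

/-- **S18 from good reduction.** -/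
theorem S18_of_GC {ℓ : ℕ} (hℓ : ℓ.Prime) (hA : A.LiesOverPrime ℓ)
    (hk : RR_Hyp (IsLocalRing.ResidueField A)
      ↥(modularFunctionFieldFullC (IsLocalRing.ResidueField A) N))
    (GC : RR_genus (AlgebraicClosure ℚ) ↥(modularFunctionFieldBar N) ≤
      RR_genus (IsLocalRing.ResidueField A)
        ↥(modularFunctionFieldFullC (IsLocalRing.ResidueField A) N))
    (T₀ : Finset (Place (IsLocalRing.ResidueField A)
      ↥(modularFunctionFieldFullC (IsLocalRing.ResidueField A) N)))
    (H3 : ∀ Q : Place (IsLocalRing.ResidueField A)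
        ↥(modularFunctionFieldFullC (IsLocalRing.ResidueField A) N), Q ∉ T₀ →
      ∃ τ : (S18_specModL N A h).O, Q.ord ((S18_specModL N A h).red τ) = 1 ∧
        ∀ P, (S18_specModL N A h).r P = Q → 0 ≤ P.ord (τ : ↥(modularFunctionFieldBar N)))
    (m : ℕ) (hm : ¬ ℓ ∣ m) (z : JZero N) (hmz : m • z = 0) (hz : reductionModL A N z = 0) :
    z = 0 := by
  have : IsAlgClosed (IsLocalRing.ResidueField A) := S18_residue_isAlgClosed A
  have hmk : (m : IsLocalRing.ResidueField A) ≠ 0 := S18_residue_natCast_ne_zero A ℓ hℓ hA m hm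
  refine S18_of_key' N A h m z hmz hz ?_ ?_
  · intro g _ hg
    refine (RR_mem_zero_iff hk.deg_one hk.principal hk.nonempty.some).mp ?_
    rw [mem_riemannRochSpace_iff]
    intro v
    right
    rw [hg v]
    simp
  · intro D hdeg hmap u hu hdiv
    exact (S18_specModL N A h).key (S18_hRR N) hk GC m hmk T₀ H3 D hdeg hmap u hu hdiv

end Fermat.Agent.S18
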