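import Fermat.Agent.S18.Asm
import Fermat.Agent.S18.Wire
import Fermat.Agent.S18.DerD
import Fermat.Agent.S18.Sep
import Fermat.Agent.S18.X0
import Fermat.Agent.S24.LocalDiff

/-!
# S18, assembly (helper20), concrete part: the frozen statement from the package outputs

`S18_asm`: the statement of S18 from
* `hDk   : LC_Diff k F_k`                       (package DIFF in characteristic `ℓ`),
* `hHWF`, `hHWk` : the Hurwitz formula for `dj` on `F` and for `dj̄` on `F_k` (package H),
* `hsum` : the pole degree of `j̄` is at least the pole degree of `j` (DEG for `F`),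
* `hNORM`: integral functions, regular at the finite places, reducing to a uniformizer at a
  given finite place of `F_k` (package NORM).
Everything else (P0/SEP `S18_hk`, DER `S18_der`, X0 `X0_ramification`, the char-0 differential
calculus of S24, V, T) is discharged here.
-/

set_option autoImplicit false
set_option synthInstance.maxHeartbeats 400000
set_option maxHeartbeats 1000000

open HahnSeries IntermediateField AlgebraicCurve ModularCurve KaehlerDifferential

namespace Fermat.Agent.S18

open Fermat.Agent.Lib Fermat.Agent.S24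

attribute [local instance 100000] Algebra.toModule

variable (N : ℕ) [NeZero N] (A : ValuationSubring (AlgebraicClosure ℚ))

/-- `j` as an element of `B`. -/
noncomputable def S18_jBel : S18_B A N := ⟨jqNModC A 1, S18_jqN_mem_B A N (one_dvd N)⟩

theorem S18_Bι_jBel : S18_Bι A N (S18_jBel N A) = jB N := by
  apply Subtype.ext
  show coeffMap A.subtype (jqNModC A 1) = coeffEmb (AlgebraicClosure ℚ) (qExpand ℚ 1 jq)
  rw [coeffMap_jqNModC]
  have h1 : jqNModC (AlgebraicClosure ℚ) 1 = coeffEmb (AlgebraicClosure ℚ) (jqNModC ℚ 1) := by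
    rw [coeffEmb, coeffMap_jqNModC]
  rw [h1]
  rfl

theorem S18_Bρ_jBel : S18_Bρ A N (S18_jBel N A) = S18_jbar N (IsLocalRing.ResidueField A) := by
  apply Subtype.ext
  show coeffMap (IsLocalRing.residue A) (jqNModC A 1) = jqModC (IsLocalRing.ResidueField A)
  rw [coeffMap_jqNModC, jqNModC_one]

variable (h : ReductionInputsModL A N)

theorem S18_jB_mem_O : jB N ∈ (S18_specModL N A h).O := by
  show jB N ∈ S18_O A N
  rw [← S18_Bι_jBel N A]
  exact S18_Bι_mem_O A N _

/-- `j` as an element of the Gauss ring. -/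
noncomputable def S18_jO : (S18_specModL N A h).O := ⟨jB N, S18_jB_mem_O N A h⟩

@[simp] theorem S18_jO_coe : ((S18_jO N A h : (S18_specModL N A h).O) :
    ↥(modularFunctionFieldBar N)) = jB N := rfl

theorem S18_red_jO : (S18_specModL N A h).red (S18_jO N A h) =
    S18_jbar N (IsLocalRing.ResidueField A) := by
  show S18_red A N ⟨jB N, S18_jB_mem_O N A h⟩ = _
  have h1 : (⟨jB N, S18_jB_mem_O N A h⟩ : S18_O A N) =
      ⟨S18_Bι A N (S18_jBel N A), S18_Bι_mem_O A N _⟩ := by
    apply Subtype.ext
    exact (S18_Bι_jBel N A).symm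
  rw [h1, S18_red_Bι, S18_Bρ_jBel]

/-- the local differential calculus on `F` (characteristic `0`, from S24). -/
theorem S18_lcDiff_F : LC_Diff (AlgebraicClosure ℚ) ↥(modularFunctionFieldBar N) := by
  have hfd := finiteDimensional_jB N
  refine ⟨fun v => BL_dCoordGenerates (jB N) v, ?_, fun v t ht => ⟨?_, ?_⟩, fun v y hy => ?_⟩
  · obtain ⟨v⟩ := (S18_hRR N).nonempty
    exact BL_nontrivial_kaehler (jB N) v
  · have htr : Transcendental (AlgebraicClosure ℚ) t :=
      BL_transcendental_of_ord_ne_zero v (by rw [ht]; exact one_ne_zero)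
    have := BL_finite_of_transcendental hfd htr
    exact BL_D_ne_zero htr
  · rw [BL_ordDifferential_D (jB N) v (by rw [ht]; exact one_ne_zero), ht, sub_self]
  · rw [BL_ordDifferential_D_of_neg (jB N) v hy]

theorem S18_hFpole (P : Place (AlgebraicClosure ℚ) ↥(modularFunctionFieldBar N))
    (y : ↥(modularFunctionFieldBar N)) (hy : P.ord y < 0) :
    P.ordDifferential (D (AlgebraicClosure ℚ) ↥(modularFunctionFieldBar N) y) = P.ord y - 1 := by
  have hfd := finiteDimensional_jB N
  exact BL_ordDifferential_D_of_neg (jB N) P hy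

/-- **X0**: a finite place of `F` at which `dj` vanishes lies over `j = 0` or `j = 1728`. -/
theorem S18_hX0 (P : Place (AlgebraicClosure ℚ) ↥(modularFunctionFieldBar N))
    (hP : 0 ≤ P.ord (jB N))
    (hW : P.ordDifferential (D (AlgebraicClosure ℚ) ↥(modularFunctionFieldBar N) (jB N)) ≠ 0) :
    ∃ c : AlgebraicClosure ℚ, c ∈ A ∧
      0 < P.ord (jB N - algebraMap (AlgebraicClosure ℚ) ↥(modularFunctionFieldBar N) c) := by
  have hfd := finiteDimensional_jB N
  obtain ⟨c, hc⟩ := X0_exists_const N P hP
  have h1 := BL_ordDifferential_D_of_sub (jB N) P hc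
  refine ⟨c, ?_, hc⟩
  rcases X0_ramification N c P hc with h2 | ⟨rfl, -⟩ | ⟨rfl, -⟩
  · exfalso
    apply hW
    rw [h1, h2, sub_self]
  · have : (1728 : AlgebraicClosure ℚ) = ((1728 : ℕ) : AlgebraicClosure ℚ) := by norm_num
    rw [this]
    exact natCast_mem A 1728
  · exact A.zero_mem

section assembly

variable {ℓ : ℕ}

/-- **S18 from the package outputs.** -/
theorem S18_asm (hℓ : ℓ.Prime) (hℓN : ¬ ℓ ∣ N) (hA : A.LiesOverPrime ℓ)
    -- package DIFF, characteristic `ℓ`
    (hDk : LC_Diff (IsLocalRing.ResidueField A)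
      ↥(modularFunctionFieldFullC (IsLocalRing.ResidueField A) N))
    -- package H on `F`
    (hHWF : ∃ W : Divisor (AlgebraicClosure ℚ) ↥(modularFunctionFieldBar N),
      (∀ P, W P = P.ordDifferential
        (D (AlgebraicClosure ℚ) ↥(modularFunctionFieldBar N) (jB N))) ∧
      Divisor.degree W =
        2 * (RR_genus (AlgebraicClosure ℚ) ↥(modularFunctionFieldBar N) : ℤ) - 2)
    -- package H on `F_k`
    (hHWk : ∃ Wk : Divisor (IsLocalRing.ResidueField A)
        ↥(modularFunctionFieldFullC (IsLocalRing.ResidueField A) N),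
      (∀ Q, Wk Q = Q.ordDifferential
        (D (IsLocalRing.ResidueField A)
          ↥(modularFunctionFieldFullC (IsLocalRing.ResidueField A) N)
          (S18_jbar N (IsLocalRing.ResidueField A)))) ∧
      Divisor.degree Wk = 2 * (RR_genus (IsLocalRing.ResidueField A)
        ↥(modularFunctionFieldFullC (IsLocalRing.ResidueField A) N) : ℤ) - 2)
    -- DEG for `F`: pole degrees of `j̄` and `j`
    (Pl : Finset (Place (AlgebraicClosure ℚ) ↥(modularFunctionFieldBar N)))
    (hPl : ∀ P, P ∈ Pl ↔ P.ord (jB N) < 0)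
    (T : Finset (Place (IsLocalRing.ResidueField A)
      ↥(modularFunctionFieldFullC (IsLocalRing.ResidueField A) N)))
    (hT : ∀ Q, Q ∈ T ↔ Q.ord (S18_jbar N (IsLocalRing.ResidueField A)) < 0)
    (hsum : ∑ Q ∈ T, Q.ord (S18_jbar N (IsLocalRing.ResidueField A)) ≤ ∑ P ∈ Pl, P.ord (jB N))
    (h : ReductionInputsModL A N)
    -- package NORM
    (hNORM : ∀ Q : Place (IsLocalRing.ResidueField A)
        ↥(modularFunctionFieldFullC (IsLocalRing.ResidueField A) N),
      0 ≤ Q.ord (S18_jbar N (IsLocalRing.ResidueField A)) →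
      ∃ n : (S18_specModL N A h).O,
        (∀ P : Place (AlgebraicClosure ℚ) ↥(modularFunctionFieldBar N),
          0 ≤ P.ord (jB N) → 0 ≤ P.ord (n : ↥(modularFunctionFieldBar N))) ∧
        Q.ord ((S18_specModL N A h).red n) = 1)
    (m : ℕ) (hm : ¬ ℓ ∣ m) (z : JZero N) (hmz : m • z = 0) (hz : reductionModL A N z = 0) :
    z = 0 := by
  have hkC : IsAlgClosed (IsLocalRing.ResidueField A) := S18_residue_isAlgClosed A
  have hmk : (m : IsLocalRing.ResidueField A) ≠ 0 := S18_residue_natCast_ne_zero A ℓ hℓ hA m hm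
  have hk := S18_hk N A hℓ hA hℓN
  obtain ⟨W, hW, hg⟩ := hHWF
  obtain ⟨Wk, hWk, hgk⟩ := hHWk
  have hred := S18_red_jO N A h
  -- `j̄` is not constant
  have hjnc : ∀ c : IsLocalRing.ResidueField A, (S18_specModL N A h).red (S18_jO N A h) ≠
      algebraMap (IsLocalRing.ResidueField A)
        ↥(modularFunctionFieldFullC (IsLocalRing.ResidueField A) N) c := by
    intro c hc
    rw [hred] at hc
    have htr := S18_transcendental_jbar (k := IsLocalRing.ResidueField A) N
    rw [hc] at htr
    exact htr (isAlgebraic_algebraMap c)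
  -- `dj̄ ≠ 0`
  have hDjk : D (IsLocalRing.ResidueField A)
      ↥(modularFunctionFieldFullC (IsLocalRing.ResidueField A) N)
      ((S18_specModL N A h).red (S18_jO N A h)) ≠ 0 := by
    rw [hred]
    intro h0
    have h1 := S18_derLift_D (modularFunctionFieldFullC (IsLocalRing.ResidueField A) N)
      (LT_theta (R := IsLocalRing.ResidueField A)) (S18_jbar N (IsLocalRing.ResidueField A))
    rw [h0, map_zero] at h1
    exact S18_theta_jbar_ne_zero N (IsLocalRing.ResidueField A) h1.symm
  -- `Ω[F_k/k]` is cyclic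
  have hΩ : ∃ ω₀ : Ω[↥(modularFunctionFieldFullC (IsLocalRing.ResidueField A) N)⁄
        IsLocalRing.ResidueField A],
      ∀ ω : Ω[↥(modularFunctionFieldFullC (IsLocalRing.ResidueField A) N)⁄
        IsLocalRing.ResidueField A],
        ∃ c : ↥(modularFunctionFieldFullC (IsLocalRing.ResidueField A) N), ω = c • ω₀ := by
    obtain ⟨Q⟩ := hk.nonempty
    exact ⟨_, fun ω => hDk.exists_eq_smul Q ω _ hDjk⟩
  refine S18_of_key' N A h m z hmz hz ?_ ?_
  · intro g _ hg0
    refine (RR_mem_zero_iff hk.deg_one hk.principal hk.nonempty.some).mp ?_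
    rw [mem_riemannRochSpace_iff]
    intro v
    right
    rw [hg0 v]
    simp
  · intro D₀ hdeg hmap u hu hdiv
    refine (S18_specModL N A h).key_of_loc (S18_hRR N) hk (S18_lcDiff_F N) hDk (S18_hFpole N)
      (S18_der N A h hΩ) (S18_jO N A h) hjnc hDjk Pl hPl T (by rw [hred]; exact hT)
      (by rw [hred]; exact hsum) W hW hg Wk (by rw [hred]; exact hWk) hgk ?_
      (by rw [hred]; exact hNORM) m hmk D₀ hdeg hmap u hu hdiv
    intro P hP hWP
    rw [hW] at hWP
    exact S18_hX0 N A P hP hWP

end assembly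

end Fermat.Agent.S18
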