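import Fermat.Agent.S28.KCore.Main
import Fermat.Prelude.Def_ModularCurve_X0ModL

/-!
# S18, package CUSP, half B (concrete K-core embeddings), part B1

`L` a field, `z : L` a primitive `N`-th root of unity, `kcRl N L z` and `kcIl N L z` (the
K-core hypotheses (Rank)+(Conj) and (Int) over `L`; bundled as `KE_Hyp N L z`).  Then the
`L(j̄)`-algebra `kcQ N L z` of vectors of conjugate expansions is a field, every projection
`x ↦ x α` is injective on it, and the projection at `cos0` has an image containing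
`qExpand N (modularFunctionFieldFullC L N)`.  Hence

* `KE_emb h α : ↥(modularFunctionFieldFullC L N) →ₐ[L] LaurentSeries L`,
  `KE_emb h α = proj_α ∘ proj_{cos0}⁻¹ ∘ qExpand N`,
* `KE_emb_jd` : `KE_emb h α (j(q^d)) = kcJ N L z d α`,
* `KE_emb_j` : `KE_emb h α j = kcj N L`,
* `KE_emb_cos0` : `KE_emb h (cos0 N) f = qExpand L N f`,
* `KE_emb_injective` : `α ↦ KE_emb h α` is injective.
-/

set_option autoImplicit false
set_option linter.unusedSectionVars false
set_option linter.style.haveILetI false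

open ModularCurve
open scoped MatrixGroups
open CongruenceSubgroup
open Fermat.Agent.S28

noncomputable section

namespace Fermat.Agent.S18

section generic

variable (N : ℕ) [NeZero N] (L : Type) [Field L] (z : L)

/-- The K-core hypotheses over `L`. -/
structure KE_Hyp : Prop where
  hz : IsPrimitiveRoot z N
  hR : @kcRl N _ L _ z (Fintype.ofFinite _)
  hI : kcIl N L z

/-- `kcQ` as an `L`-subalgebra. -/
def KE_Q : Subalgebra L (Cos N → LaurentSeries L) := (kcQ N L z).restrictScalars L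

theorem KE_mem_Q {x : Cos N → LaurentSeries L} : x ∈ KE_Q N L z ↔ x ∈ kcQ N L z := Iff.rfl

/-- projection of `Q` at the conjugate `α`. -/
def KE_proj (α : Cos N) : ↥(KE_Q N L z) →ₐ[L] LaurentSeries L :=
  (Pi.evalAlgHom L (fun _ : Cos N => LaurentSeries L) α).comp (KE_Q N L z).val

theorem KE_proj_apply (α : Cos N) (x : ↥(KE_Q N L z)) :
    KE_proj N L z α x = (x : Cos N → LaurentSeries L) α := rfl

variable {N L z}

theorem KE_proj_injective (h : KE_Hyp N L z) (α : Cos N) :
    Function.Injective (KE_proj N L z α) := by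
  classical
  letI : Fintype (Cos N) := Fintype.ofFinite _
  rw [injective_iff_map_eq_zero]
  intro x hx
  have := kcT9_proj_injective h.hz (ac4 N) (kc_hdim N L z h.hz h.hR)
    (kc_integral N L z h.hz h.hI) x.1 x.2 α hx
  exact Subtype.ext this

/-- every component of an element of `Q` is algebraic over `L(j̄)`. -/
theorem KE_isAlgebraic (h : KE_Hyp N L z) {x : Cos N → LaurentSeries L} (hx : x ∈ kcQ N L z)
    (α : Cos N) : IsAlgebraic ↥(kcB N L) (x α) := by
  classical
  letI : Fintype (Cos N) := Fintype.ofFinite _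
  have hd := kc_hdim N L z h.hz h.hR (fun i => x ^ (i : ℕ))
    (fun i => Subalgebra.pow_mem _ hx _)
  rw [Fintype.not_linearIndependent_iff] at hd
  obtain ⟨g, hg, i₀, hi₀⟩ := hd
  refine ⟨∑ i : Fin (Fintype.card (Cos N) + 1), Polynomial.monomial (i : ℕ) (g i), ?_, ?_⟩
  · intro h0
    apply hi₀
    have h1 := congrArg (fun p => Polynomial.coeff p (i₀ : ℕ)) h0
    simp only [Polynomial.finsetSum_coeff, Polynomial.coeff_monomial, Polynomial.coeff_zero]
      at h1
    rw [Finset.sum_eq_single i₀] at h1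
    · simpa using h1
    · intro b _ hb
      rw [if_neg]
      intro hbi
      exact hb (Fin.ext hbi)
    · intro hi
      exact absurd (Finset.mem_univ _) hi
  · rw [map_sum]
    have h2 := congrFun hg α
    simp only [Finset.sum_apply, Pi.smul_apply, Pi.pow_apply, Pi.zero_apply] at h2
    rw [← h2]
    refine Finset.sum_congr rfl fun i _ => ?_
    rw [Polynomial.aeval_monomial, Algebra.smul_def]

/-- the inverse of a component at `cos0` of an element of `Q` is such a component. -/
theorem KE_inv_mem (h : KE_Hyp N L z) (y : LaurentSeries L)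
    (hy : y ∈ (KE_proj N L z (cos0 N)).range) : y⁻¹ ∈ (KE_proj N L z (cos0 N)).range := by
  obtain ⟨x, rfl⟩ := hy
  set S : Subalgebra ↥(kcB N L) (LaurentSeries L) :=
    (kcQ N L z).map (Pi.evalAlgHom ↥(kcB N L) (fun _ : Cos N => LaurentSeries L) (cos0 N))
    with hS
  have hxS : (x : Cos N → LaurentSeries L) (cos0 N) ∈ S := ⟨x.1, x.2, rfl⟩
  have hinv := Subalgebra.inv_mem_of_algebraic (A := S)
    (x := ⟨(x : Cos N → LaurentSeries L) (cos0 N), hxS⟩) (KE_isAlgebraic h x.2 (cos0 N))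
  obtain ⟨x', hx', hx'e⟩ := hinv
  exact ⟨⟨x', hx'⟩, hx'e⟩

/-- the image of `Q` under the projection at `cos0`: a subfield of `L((t))`. -/
def KE_Q0 (h : KE_Hyp N L z) : IntermediateField L (LaurentSeries L) :=
  Subalgebra.toIntermediateField (KE_proj N L z (cos0 N)).range (KE_inv_mem h)

theorem KE_mem_Q0 (h : KE_Hyp N L z) {y : LaurentSeries L} :
    y ∈ KE_Q0 h ↔ ∃ x : ↥(KE_Q N L z), (x : Cos N → LaurentSeries L) (cos0 N) = y := Iff.rfl

theorem KE_kcJ_mem_Q (d : N.divisors) : kcJ N L z d ∈ KE_Q N L z := by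
  rw [KE_mem_Q]
  unfold kcQ
  exact Algebra.subset_adjoin (Or.inl (Or.inl ⟨d, rfl⟩))

/-- `J_d(α₀) = j(t^(d N))`, in terms of `jqModC`. -/
theorem KE_kcJ_cos0 (h : KE_Hyp N L z) (d : ℕ) [NeZero d] (hd : d ∣ N) :
    kcJ N L z ⟨d, Nat.mem_divisors.2 ⟨hd, NeZero.ne N⟩⟩ (cos0 N) =
      qExpand L N (qExpand L d (jqModC L)) :=
  kcT9b_kcJ N L z h.hz ⟨d, Nat.mem_divisors.2 ⟨hd, NeZero.ne N⟩⟩

/-- `qExpand N` maps the modular function field into `Q₀`. -/
theorem KE_qExpand_mem (h : KE_Hyp N L z) (f : LaurentSeries L)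
    (hf : f ∈ modularFunctionFieldFullC L N) : qExpand L N f ∈ KE_Q0 h := by
  have hle : (modularFunctionFieldFullC L N).map (qExpandAlgHomC L N) ≤ KE_Q0 h := by
    rw [modularFunctionFieldFullC, IntermediateField.adjoin_map,
      IntermediateField.adjoin_le_iff]
    rintro _ ⟨_, ⟨d, hne, hdvd, rfl⟩, rfl⟩
    haveI := hne
    refine ⟨⟨_, KE_kcJ_mem_Q ⟨d, Nat.mem_divisors.2 ⟨hdvd, NeZero.ne N⟩⟩⟩, ?_⟩
    exact KE_kcJ_cos0 h d hdvd
  exact hle ⟨f, hf, rfl⟩

/-- the lift `proj_{cos0}⁻¹ ∘ qExpand N` of the modular function field to `Q`. -/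
def KE_lift (h : KE_Hyp N L z) : ↥(modularFunctionFieldFullC L N) →ₐ[L] ↥(KE_Q N L z) :=
  (AlgEquiv.ofInjective (KE_proj N L z (cos0 N))
      (KE_proj_injective h _)).symm.toAlgHom.comp
    (AlgHom.codRestrict ((qExpandAlgHomC L N).comp (modularFunctionFieldFullC L N).val)
      (KE_proj N L z (cos0 N)).range (fun f => KE_qExpand_mem h f.1 f.2))

theorem KE_lift_cos0 (h : KE_Hyp N L z) (f : ↥(modularFunctionFieldFullC L N)) :
    (KE_lift h f : Cos N → LaurentSeries L) (cos0 N) = qExpand L N (f : LaurentSeries L) := by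
  have h1 := (AlgEquiv.ofInjective (KE_proj N L z (cos0 N)) (KE_proj_injective h _)).apply_symm_apply
    (AlgHom.codRestrict ((qExpandAlgHomC L N).comp (modularFunctionFieldFullC L N).val)
      (KE_proj N L z (cos0 N)).range (fun f => KE_qExpand_mem h f.1 f.2) f)
  have h2 := congrArg Subtype.val h1
  rw [AlgEquiv.ofInjective_apply] at h2
  exact h2

/-- a vector of `Q` with the right component at `cos0` is the lift. -/
theorem KE_lift_eq (h : KE_Hyp N L z) (f : ↥(modularFunctionFieldFullC L N))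
    (x : ↥(KE_Q N L z))
    (hx : (x : Cos N → LaurentSeries L) (cos0 N) = qExpand L N (f : LaurentSeries L)) :
    KE_lift h f = x :=
  KE_proj_injective h (cos0 N) (by
    rw [KE_proj_apply, KE_proj_apply, KE_lift_cos0, hx])

/-- **the embeddings** of the modular function field over `L` into `L((t))`, `t = q^(1/N)`,
indexed by the cosets of `Γ₀(N)`. -/
def KE_emb (h : KE_Hyp N L z) (α : Cos N) :
    ↥(modularFunctionFieldFullC L N) →ₐ[L] LaurentSeries L :=
  (KE_proj N L z α).comp (KE_lift h)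

theorem KE_emb_apply (h : KE_Hyp N L z) (α : Cos N) (f : ↥(modularFunctionFieldFullC L N)) :
    KE_emb h α f = (KE_lift h f : Cos N → LaurentSeries L) α := rfl

/-- at the coset of the identity the embedding is `q ↦ t^N`. -/
theorem KE_emb_cos0 (h : KE_Hyp N L z) (f : ↥(modularFunctionFieldFullC L N)) :
    KE_emb h (cos0 N) f = qExpand L N (f : LaurentSeries L) :=
  KE_lift_cos0 h f

/-- the value of the embeddings at the generators `j(q^d)`. -/
theorem KE_emb_jd (h : KE_Hyp N L z) (α : Cos N) (d : ℕ) [NeZero d] (hd : d ∣ N) :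
    KE_emb h α ⟨qExpand L d (jqModC L), jqModCd_mem_full L N hd⟩ =
      kcJ N L z ⟨d, Nat.mem_divisors.2 ⟨hd, NeZero.ne N⟩⟩ α := by
  rw [KE_emb_apply, KE_lift_eq h _ ⟨_, KE_kcJ_mem_Q ⟨d, Nat.mem_divisors.2 ⟨hd, NeZero.ne N⟩⟩⟩
    (KE_kcJ_cos0 h d hd)]

/-- `J_1 = j̄` at every conjugate. -/
theorem KE_kcJ_one (α : Cos N) :
    kcJ N L z ⟨1, Nat.mem_divisors.2 ⟨one_dvd N, NeZero.ne N⟩⟩ α = kcj N L := by
  unfold kcJ
  have h1 : kcY N L z (true, ⟨1, Nat.mem_divisors.2 ⟨one_dvd N, NeZero.ne N⟩⟩) α =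
      HahnSeries.ofPowerSeries ℤ L (kcBase N L true) := kcT5_kcY_gen1 N L z true α
  have h2 : kcY N L z (false, ⟨1, Nat.mem_divisors.2 ⟨one_dvd N, NeZero.ne N⟩⟩) α =
      HahnSeries.ofPowerSeries ℤ L (kcBase N L false) := kcT5_kcY_gen1 N L z false α
  rw [h1, h2]
  rfl

/-- the value of the embeddings at `j`: the series `j̄ = j(t^N)`, for every conjugate. -/
theorem KE_emb_j (h : KE_Hyp N L z) (α : Cos N) :
    KE_emb h α ⟨jqModC L, jqModC_mem_full L N⟩ = kcj N L := by
  have h1 := KE_emb_jd h α 1 (one_dvd N)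
  rw [KE_kcJ_one α] at h1
  rw [← h1]
  congr 2
  exact (qExpand_one_apply _).symm

/-- equal embeddings have equal components on `Q'`. -/
theorem KE_eq_on_Q' (h : KE_Hyp N L z) {α β : Cos N} (hαβ : KE_emb h α = KE_emb h β)
    (x : Cos N → LaurentSeries L) (hx : x ∈ kcQ' N L z) : x α = x β := by
  unfold kcQ' at hx
  induction hx using Algebra.adjoin_induction with
  | mem x hx =>
    obtain ⟨d, rfl⟩ := hx
    haveI : NeZero (d : ℕ) := kc_neZero_of_mem_divisors N d
    have hd : (d : ℕ) ∣ N := Nat.dvd_of_mem_divisors d.2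
    have h1 := KE_emb_jd h α (d : ℕ) hd
    have h2 := KE_emb_jd h β (d : ℕ) hd
    rw [hαβ, h2] at h1
    exact h1.symm
  | algebraMap b => rfl
  | add x y _ _ hx hy => rw [Pi.add_apply, Pi.add_apply, hx, hy]
  | mul x y _ _ hx hy => rw [Pi.mul_apply, Pi.mul_apply, hx, hy]

/-- distinct cosets give distinct embeddings. -/
theorem KE_emb_injective (h : KE_Hyp N L z) : Function.Injective (KE_emb h) := by
  intro α β hαβ
  by_contra hne
  obtain ⟨x, hx, hxne⟩ := kc_hsep N L z h.hz (ac4 N) α β hne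
  exact hxne (KE_eq_on_Q' h hαβ x hx)

end generic

end Fermat.Agent.S18
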