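import Fermat.Agent.S18.CuspK
import Fermat.Agent.Lib.CuspTwist

/-!
# S18, package CUSP, half B, part B3 (generic): base fields

`K ⊂ L` fields (`[Algebra K L]`), `h : KE_Hyp N L z`.  The coefficient map `K((q)) → L((q))`
sends `modularFunctionFieldFullC K N` into `modularFunctionFieldFullC L N`; composing with
`KE_emb h α` gives

* `KE_embB h α : ↥(modularFunctionFieldFullC K N) →ₐ[K] LaurentSeries L`,
* `KE_embB_jd`, `KE_embB_j`, `KE_embB_cos0`, `KE_embB_injective`.

Also: `KE_sep` (the `J_d` separate the cosets), `KE_order_kcj` (`ord_t j̄ = -N`),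
`KE_algHom_ext` (two `K`-algebra maps on the modular function field agreeing at the `j(q^d)`
are equal).
-/

set_option autoImplicit false
set_option linter.unusedSectionVars false
set_option linter.style.haveILetI false
set_option synthInstance.maxHeartbeats 400000
set_option maxHeartbeats 1000000

open ModularCurve
open scoped MatrixGroups
open CongruenceSubgroup
open Fermat.Agent.S28 Fermat.Agent.Lib

noncomputable section

namespace Fermat.Agent.S18

section sep

variable {N : ℕ} [NeZero N] {L : Type} [Field L] {z : L}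

/-- vectors of `Q'` take equal values at `α`, `β` if the `J_d` do. -/
theorem KE_eq_of_kcJ_eq {α β : Cos N}
    (h : ∀ d : N.divisors, kcJ N L z d α = kcJ N L z d β)
    (x : Cos N → LaurentSeries L) (hx : x ∈ kcQ' N L z) : x α = x β := by
  unfold kcQ' at hx
  induction hx using Algebra.adjoin_induction with
  | mem x hx =>
    obtain ⟨d, rfl⟩ := hx
    exact h d
  | algebraMap b => rfl
  | add x y _ _ hx hy => rw [Pi.add_apply, Pi.add_apply, hx, hy]
  | mul x y _ _ hx hy => rw [Pi.mul_apply, Pi.mul_apply, hx, hy]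

/-- the `J_d` separate the cosets. -/
theorem KE_sep (hz : IsPrimitiveRoot z N) {α β : Cos N}
    (h : ∀ d : N.divisors, kcJ N L z d α = kcJ N L z d β) : α = β := by
  by_contra hne
  obtain ⟨x, hx, hxne⟩ := kc_hsep N L z hz (ac4 N) α β hne
  exact hxne (KE_eq_of_kcJ_eq h x hx)

end sep

section order

/-- the order of a power series, seen as a Laurent series. -/
theorem KE_order_ofPowerSeries {R : Type*} [Semiring R] (f : PowerSeries R) (m : ℕ)
    (hm : PowerSeries.coeff m f ≠ 0) (hlt : ∀ i < m, PowerSeries.coeff i f = 0) :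
    (HahnSeries.ofPowerSeries ℤ R f).order = (m : ℤ) := by
  have hc : (HahnSeries.ofPowerSeries ℤ R f).coeff (m : ℤ) ≠ 0 := by
    rw [HahnSeries.ofPowerSeries_apply_coeff]
    exact hm
  have hne : HahnSeries.ofPowerSeries ℤ R f ≠ 0 := HahnSeries.ne_zero_of_coeff_ne_zero hc
  refine le_antisymm (HahnSeries.order_le_of_coeff_ne_zero hc) ?_
  by_contra hlt'
  rw [not_le] at hlt'
  apply (mt HahnSeries.coeff_order_eq_zero.mp) hne
  rcases lt_or_ge (HahnSeries.ofPowerSeries ℤ R f).order 0 with h0 | h0
  · exact ofPowerSeries_coeff_of_neg f h0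
  · obtain ⟨i, hi⟩ := Int.eq_ofNat_of_zero_le h0
    rw [hi, HahnSeries.ofPowerSeries_apply_coeff]
    apply hlt
    rw [hi] at hlt'
    exact_mod_cast hlt'

variable (N : ℕ) [NeZero N] (L : Type) [Field L]

theorem KE_kcj_ne_zero : kcj N L ≠ 0 := fun h =>
  kc_kcj_transcendental N L (h ▸ isAlgebraic_zero)

/-- `ord_t j̄ = -N`. -/
theorem KE_order_kcj : (kcj N L).order = -(N : ℤ) := by
  have hD : HahnSeries.ofPowerSeries ℤ L (kcBase N L false) ≠ 0 :=
    kc_ofPS_ne_zero L (kc_kcBase_false_ne_zero N L)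
  have hE : HahnSeries.ofPowerSeries ℤ L (kcBase N L true) ≠ 0 :=
    kc_ofPS_ne_zero L (kc_kcBase_true_ne_zero N L)
  have h1 := kc_kcj_mul_D N L
  have h2 := congrArg HahnSeries.order h1
  rw [HahnSeries.order_mul (KE_kcj_ne_zero N L) hD] at h2
  have hoD : (HahnSeries.ofPowerSeries ℤ L (kcBase N L false)).order = (N : ℤ) := by
    have ho := kc_order_kcBase_false N L
    rw [PowerSeries.order_eq_nat] at ho
    exact KE_order_ofPowerSeries _ N ho.1 ho.2
  have hoE : (HahnSeries.ofPowerSeries ℤ L (kcBase N L true)).order = 0 := by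
    have h0 : PowerSeries.coeff 0 (kcBase N L true) ≠ 0 := by
      rw [PowerSeries.coeff_zero_eq_constantCoeff_apply, kc_constantCoeff_kcBase_true]
      exact one_ne_zero
    exact_mod_cast KE_order_ofPowerSeries _ 0 h0 (fun i hi => absurd hi (Nat.not_lt_zero i))
  rw [hoD, hoE] at h2
  omega

theorem KE_order_kcj_inv : ((kcj N L)⁻¹).order = (N : ℤ) := by
  have h1 : kcj N L * (kcj N L)⁻¹ = 1 := mul_inv_cancel₀ (KE_kcj_ne_zero N L)
  have h2 := congrArg HahnSeries.order h1
  rw [HahnSeries.order_mul (KE_kcj_ne_zero N L) (inv_ne_zero (KE_kcj_ne_zero N L)),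
    KE_order_kcj, HahnSeries.order_one] at h2
  omega

end order

section ext

variable {N : ℕ} [NeZero N] {K : Type} [Field K] {Ω : Type*} [Field Ω] [Algebra K Ω]

/-- two `K`-algebra maps on the modular function field agreeing at the generators `j(q^d)`
are equal. -/
theorem KE_algHom_ext (φ ψ : ↥(modularFunctionFieldFullC K N) →ₐ[K] Ω)
    (h : ∀ (d : ℕ) [NeZero d] (hd : d ∣ N),
      φ ⟨qExpand K d (jqModC K), jqModCd_mem_full K N hd⟩ =
        ψ ⟨qExpand K d (jqModC K), jqModCd_mem_full K N hd⟩) : φ = ψ := by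
  have key : ∀ (x : LaurentSeries K) (hx : x ∈ modularFunctionFieldFullC K N),
      φ ⟨x, hx⟩ = ψ ⟨x, hx⟩ := by
    intro x hx
    refine IntermediateField.adjoin_induction (F := K) (s := divisorExpansionsC K N)
      (p := fun x hx => φ (⟨x, hx⟩ : ↥(modularFunctionFieldFullC K N)) =
        ψ (⟨x, hx⟩ : ↥(modularFunctionFieldFullC K N))) ?_ ?_ ?_ ?_ ?_ hx
    · rintro x ⟨d, hne, hdvd, rfl⟩
      haveI := hne
      exact h d hdvd
    · intro c
      exact (φ.commutes c).trans (ψ.commutes c).symm
    · intro x y hx hy hx' hy'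
      have e : (⟨x + y, add_mem hx hy⟩ : ↥(modularFunctionFieldFullC K N)) =
          ⟨x, hx⟩ + ⟨y, hy⟩ := rfl
      rw [e, map_add, map_add, hx', hy']
    · intro x hx hx'
      have e : (⟨x⁻¹, inv_mem hx⟩ : ↥(modularFunctionFieldFullC K N)) = (⟨x, hx⟩)⁻¹ := rfl
      rw [e, map_inv₀, map_inv₀, hx']
    · intro x y hx hy hx' hy'
      have e : (⟨x * y, mul_mem hx hy⟩ : ↥(modularFunctionFieldFullC K N)) =
          ⟨x, hx⟩ * ⟨y, hy⟩ := rfl
      rw [e, map_mul, map_mul, hx', hy']
  ext f
  exact key f.1 f.2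

end ext

section base

variable (N : ℕ) [NeZero N] (K : Type) [Field K] (L : Type) [Field L] [Algebra K L]

/-- the coefficient map sends the modular function field over `K` into the one over `L`. -/
theorem KE_coeffMap_mem {f : LaurentSeries K} (hf : f ∈ modularFunctionFieldFullC K N) :
    coeffMap (algebraMap K L) f ∈ modularFunctionFieldFullC L N := by
  have hle : (modularFunctionFieldFullC K N).toSubfield ≤
      (modularFunctionFieldFullC L N).toSubfield.comap (coeffMap (algebraMap K L)) := by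
    rw [modularFunctionFieldFullC, IntermediateField.adjoin_toSubfield, Subfield.closure_le]
    rintro x (⟨c, rfl⟩ | ⟨d, hne, hdvd, rfl⟩)
    · show coeffMap (algebraMap K L) (algebraMap K (LaurentSeries K) c) ∈
        modularFunctionFieldFullC L N
      rw [algebraMap_laurentSeries_eq_single, coeffMap_single,
        ← algebraMap_laurentSeries_eq_single]
      exact (modularFunctionFieldFullC L N).algebraMap_mem _
    · haveI := hne
      show coeffMap (algebraMap K L) (qExpand K d (jqModC K)) ∈ modularFunctionFieldFullC L N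
      rw [coeffMap_qExpand, coeffMap_jqModC]
      exact jqModCd_mem_full L N hdvd
  exact hle hf

/-- the coefficient map between the modular function fields. -/
def KE_baseHom : ↥(modularFunctionFieldFullC K N) →+* ↥(modularFunctionFieldFullC L N) :=
  RingHom.codRestrict
    ((coeffMap (algebraMap K L)).comp (modularFunctionFieldFullC K N).val.toRingHom)
    (modularFunctionFieldFullC L N) (fun f => KE_coeffMap_mem N K L f.2)

theorem KE_baseHom_coe (f : ↥(modularFunctionFieldFullC K N)) :
    ((KE_baseHom N K L f : ↥(modularFunctionFieldFullC L N)) : LaurentSeries L) =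
      coeffMap (algebraMap K L) (f : LaurentSeries K) := rfl

theorem KE_baseHom_algebraMap (c : K) :
    KE_baseHom N K L (algebraMap K ↥(modularFunctionFieldFullC K N) c) =
      algebraMap L ↥(modularFunctionFieldFullC L N) (algebraMap K L c) := by
  apply Subtype.ext
  rw [KE_baseHom_coe]
  show coeffMap (algebraMap K L) (algebraMap K (LaurentSeries K) c) =
    algebraMap L (LaurentSeries L) (algebraMap K L c)
  rw [algebraMap_laurentSeries_eq_single, coeffMap_single, ← algebraMap_laurentSeries_eq_single]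

theorem KE_baseHom_jd (d : ℕ) [NeZero d] (hd : d ∣ N) :
    KE_baseHom N K L ⟨qExpand K d (jqModC K), jqModCd_mem_full K N hd⟩ =
      ⟨qExpand L d (jqModC L), jqModCd_mem_full L N hd⟩ := by
  apply Subtype.ext
  rw [KE_baseHom_coe]
  show coeffMap (algebraMap K L) (qExpand K d (jqModC K)) = qExpand L d (jqModC L)
  rw [coeffMap_qExpand, coeffMap_jqModC]

variable {N L} {z : L}

/-- **the embeddings over the base field `K ⊂ L`**: `F_K → F_L → L((t))`. -/
def KE_embB (h : KE_Hyp N L z) (α : Cos N) :
    ↥(modularFunctionFieldFullC K N) →ₐ[K] LaurentSeries L where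
  __ := ((KE_emb h α : ↥(modularFunctionFieldFullC L N) →+* LaurentSeries L)).comp
    (KE_baseHom N K L)
  commutes' c := by
    show KE_emb h α (KE_baseHom N K L (algebraMap K ↥(modularFunctionFieldFullC K N) c)) =
      algebraMap K (LaurentSeries L) c
    rw [KE_baseHom_algebraMap, AlgHom.commutes, CU_algebraMap_eq_C, CU_algebraMap_eq_C]
    rfl

theorem KE_embB_apply (h : KE_Hyp N L z) (α : Cos N) (f : ↥(modularFunctionFieldFullC K N)) :
    KE_embB K h α f = KE_emb h α (KE_baseHom N K L f) := rfl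

theorem KE_embB_cos0 (h : KE_Hyp N L z) (f : ↥(modularFunctionFieldFullC K N)) :
    KE_embB K h (cos0 N) f = qExpand L N (coeffMap (algebraMap K L) (f : LaurentSeries K)) := by
  rw [KE_embB_apply, KE_emb_cos0, KE_baseHom_coe]

theorem KE_embB_jd (h : KE_Hyp N L z) (α : Cos N) (d : ℕ) [NeZero d] (hd : d ∣ N) :
    KE_embB K h α ⟨qExpand K d (jqModC K), jqModCd_mem_full K N hd⟩ =
      kcJ N L z ⟨d, Nat.mem_divisors.2 ⟨hd, NeZero.ne N⟩⟩ α := by
  rw [KE_embB_apply, KE_baseHom_jd N K L d hd, KE_emb_jd h α d hd]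

theorem KE_embB_j (h : KE_Hyp N L z) (α : Cos N) :
    KE_embB K h α ⟨jqModC K, jqModC_mem_full K N⟩ = kcj N L := by
  have h1 := KE_embB_jd K h α 1 (one_dvd N)
  rw [KE_kcJ_one α] at h1
  rw [← h1]
  congr 2
  exact (qExpand_one_apply _).symm

theorem KE_embB_j_inv (h : KE_Hyp N L z) (α : Cos N) :
    KE_embB K h α (⟨jqModC K, jqModC_mem_full K N⟩)⁻¹ = (kcj N L)⁻¹ := by
  rw [map_inv₀, KE_embB_j]

theorem KE_embB_injective (h : KE_Hyp N L z) : Function.Injective (KE_embB K h) := by
  intro α β hαβ
  refine KE_sep h.hz fun d => ?_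
  haveI : NeZero (d : ℕ) := kc_neZero_of_mem_divisors N d
  have hd : (d : ℕ) ∣ N := Nat.dvd_of_mem_divisors d.2
  have h1 := KE_embB_jd K h α (d : ℕ) hd
  have h2 := KE_embB_jd K h β (d : ℕ) hd
  rw [hαβ, h2] at h1
  exact h1.symm

end base

end Fermat.Agent.S18
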