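import Fermat.Agent.S18.CuspKB
import Fermat.Agent.S18.CuspKC
import Fermat.Agent.S24.EvDefs

/-!
# S18, package CUSP, half B, part B3 (characteristic zero): the embeddings of
`F = modularFunctionFieldBar N` into `ℂ((t))`

`ℂ` is a `ℚ̄`-algebra through S24's `kEmb` (`KE_algQC`, a `def`, not an instance).

* `KE_embK N α : ↥(modularFunctionFieldBar N) →ₐ[ℚ̄] LaurentSeries ℂ`;
* `KE_embK_jBar` : `KE_embK N α (jBar N d hd) = kcJ N ℂ (zetaC N) ⟨d, _⟩ α`;
* `KE_embK_jB` : `KE_embK N α (jB N) = kcj N ℂ`;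
* `KE_embK_injective`.
-/

set_option autoImplicit false
set_option linter.unusedSectionVars false
set_option linter.style.haveILetI false
set_option synthInstance.maxHeartbeats 400000
set_option maxHeartbeats 1000000

open ModularCurve
open scoped MatrixGroups
open CongruenceSubgroup
open Fermat.Agent.S28 Fermat.Agent.Lib Fermat.Agent.S24

noncomputable section

namespace Fermat.Agent.S18

/-- `ℂ` as a `ℚ̄`-algebra, through the fixed embedding `kEmb` of S24. -/
@[reducible] def KE_algQC : Algebra (AlgebraicClosure ℚ) ℂ := kEmb.toAlgebra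

variable (N : ℕ) [NeZero N]

/-- `modularFunctionFieldBar N ⊂ modularFunctionFieldFullC ℚ̄ N`. -/
theorem KE_bar_le : modularFunctionFieldBar N ≤ modularFunctionFieldFullC (AlgebraicClosure ℚ) N := by
  show laurentBaseChange _ _ ≤ _
  rw [laurentBaseChange, IntermediateField.adjoin_le_iff]
  rintro _ ⟨y, hy, rfl⟩
  exact KE_coeffMap_mem N ℚ (AlgebraicClosure ℚ) hy

/-- the generator `j(q^d)` of `modularFunctionFieldBar N`, in terms of `jqModC`. -/
theorem KE_jBar_coe (d : ℕ) [NeZero d] (hd : d ∣ N) :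
    ((jBar N d hd : ↥(modularFunctionFieldBar N)) : LaurentSeries (AlgebraicClosure ℚ)) =
      qExpand (AlgebraicClosure ℚ) d (jqModC (AlgebraicClosure ℚ)) := by
  show coeffMap (algebraMap ℚ (AlgebraicClosure ℚ)) (qExpand ℚ d (jqModC ℚ)) = _
  rw [coeffMap_qExpand, coeffMap_jqModC]

theorem KE_inclusion_jBar (d : ℕ) [NeZero d] (hd : d ∣ N) :
    IntermediateField.inclusion (KE_bar_le N) (jBar N d hd) =
      ⟨qExpand (AlgebraicClosure ℚ) d (jqModC (AlgebraicClosure ℚ)),
        jqModCd_mem_full (AlgebraicClosure ℚ) N hd⟩ :=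
  Subtype.ext (KE_jBar_coe N d hd)

/-- **the embeddings of `F = modularFunctionFieldBar N` into `ℂ((t))`**, `t = q^(1/N)`. -/
def KE_embK (α : Cos N) :
    letI := KE_algQC
    ↥(modularFunctionFieldBar N) →ₐ[AlgebraicClosure ℚ] LaurentSeries ℂ :=
  letI := KE_algQC
  (KE_embB (AlgebraicClosure ℚ) (KE_hyp_complex N) α).comp
    (IntermediateField.inclusion (KE_bar_le N))

theorem KE_embK_apply (α : Cos N) (f : ↥(modularFunctionFieldBar N)) :
    letI := KE_algQC
    KE_embK N α f = KE_embB (AlgebraicClosure ℚ) (KE_hyp_complex N) α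
      (IntermediateField.inclusion (KE_bar_le N) f) := rfl

theorem KE_embK_jBar (α : Cos N) (d : ℕ) [NeZero d] (hd : d ∣ N) :
    letI := KE_algQC
    KE_embK N α (jBar N d hd) =
      kcJ N ℂ (zetaC N) ⟨d, Nat.mem_divisors.2 ⟨hd, NeZero.ne N⟩⟩ α := by
  letI := KE_algQC
  rw [KE_embK_apply, KE_inclusion_jBar,
    KE_embB_jd (AlgebraicClosure ℚ) (KE_hyp_complex N) α d hd]

theorem KE_embK_jB (α : Cos N) :
    letI := KE_algQC
    KE_embK N α (jB N) = kcj N ℂ := by
  letI := KE_algQC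
  have h1 := KE_embK_jBar N α 1 (one_dvd N)
  rw [KE_kcJ_one α] at h1
  exact h1

theorem KE_embK_jB_inv (α : Cos N) :
    letI := KE_algQC
    KE_embK N α (jB N)⁻¹ = (kcj N ℂ)⁻¹ := by
  letI := KE_algQC
  rw [map_inv₀, KE_embK_jB]

theorem KE_embK_cos0 (f : ↥(modularFunctionFieldBar N)) :
    letI := KE_algQC
    KE_embK N (cos0 N) f =
      qExpand ℂ N (coeffMap kEmb (f : LaurentSeries (AlgebraicClosure ℚ))) := by
  letI := KE_algQC
  rw [KE_embK_apply, KE_embB_cos0]
  rfl

theorem KE_embK_injective :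
    letI := KE_algQC
    Function.Injective (KE_embK N) := by
  letI := KE_algQC
  intro α β hαβ
  refine KE_sep (KE_hyp_complex N).hz fun d => ?_
  haveI : NeZero (d : ℕ) := kc_neZero_of_mem_divisors N d
  have hd : (d : ℕ) ∣ N := Nat.dvd_of_mem_divisors d.2
  have h1 := KE_embK_jBar N α (d : ℕ) hd
  have h2 := KE_embK_jBar N β (d : ℕ) hd
  rw [hαβ, h2] at h1
  exact h1.symm

end Fermat.Agent.S18
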