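import Fermat.Agent.S18.DegRoots
import Fermat.Agent.S18.MuLaurent
import Fermat.Agent.S18.MuSep
import Fermat.Prelude.Def_ModularCurve_X0ModL

/-!
# S18, package DEG-k, case (A): `M ≤ [E : F_k]` for every extension `E ∋ μ̄`, `R_M(μ̄) = j̄`

`F_k = modularFunctionFieldFullC k N ⊂ k((q))`.  We embed `F_k` into `Ω = k((u))` by `q ↦ u^M`;
the twist `u ↦ ζ u` (`ζ` a primitive `M`-th root of unity of `k`) fixes the image of `F_k`
pointwise, `AX_poly Ω M (j(u^M))` splits in `Ω` with simple roots (packages MU, MUL), and no root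
is fixed by the twist.  Hence (orbit argument, `DG_le_finrank_of_twist`) `M ∣ deg minpoly μ̄`.
-/

set_option autoImplicit false

open Polynomial ModularCurve Fermat.Agent.Lib

namespace Fermat.Agent.S18

section
variable (k : Type*) [Field k]

/-- `ord_q j = -1`. -/
theorem DG_A_order_jq : (jqModC k).order = -1 := by
  have hc : (jqModC k).coeff (-1) ≠ 0 := by
    rw [coeff_jqModC_neg_one]
    exact one_ne_zero
  refine le_antisymm (HahnSeries.order_le_of_coeff_ne_zero hc) ?_
  by_contra hlt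
  rw [not_le] at hlt
  have hne : jqModC k ≠ 0 := HahnSeries.ne_zero_of_coeff_ne_zero hc
  exact (mt HahnSeries.coeff_order_eq_zero.mp hne) (coeff_jqModC_of_lt k hlt)

variable {k}

/-- the order of `f(u^M)`. -/
theorem DG_A_order_qExpand (M : ℕ) [NeZero M] (f : LaurentSeries k) :
    (qExpand k M f).order = (M : ℤ) * f.order := by
  by_cases hf : f = 0
  · subst hf
    simp
  have hMpos : (0 : ℤ) < M := by exact_mod_cast Nat.pos_of_ne_zero (NeZero.ne M)
  have hq : qExpand k M f ≠ 0 := fun h => hf (qExpand_injective M (by rw [h, map_zero]))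
  apply le_antisymm
  · apply HahnSeries.order_le_of_coeff_ne_zero
    rw [qExpand_coeff_mul]
    exact fun h0 => hf (HahnSeries.coeff_order_eq_zero.mp h0)
  · have hc : (qExpand k M f).coeff (qExpand k M f).order ≠ 0 :=
      fun h0 => hq (HahnSeries.coeff_order_eq_zero.mp h0)
    by_cases hd : (M : ℤ) ∣ (qExpand k M f).order
    · obtain ⟨m, hm⟩ := hd
      rw [hm, qExpand_coeff_mul] at hc
      rw [hm]
      exact mul_le_mul_of_nonneg_left (HahnSeries.order_le_of_coeff_ne_zero hc) hMpos.le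
    · exact absurd (qExpand_coeff_of_not_dvd M f hd) hc

/-- iterating the twist. -/
theorem DG_A_twist_iterate (ζ : k) (hζ : ζ ≠ 0) (i : ℕ) (a : LaurentSeries k) (n : ℤ) :
    ((CU_twist ζ hζ)^[i] a).coeff n = (ζ ^ n) ^ i * a.coeff n := by
  induction i generalizing a with
  | zero => simp
  | succ i ih =>
    rw [Function.iterate_succ_apply, ih, CU_twist_coeff, pow_succ, mul_assoc]

/-- the primitive `M`-th root of unity used for the twist. -/
theorem DG_A_zeta {M : ℕ} (hM : M = 2 ∨ M = 3) (hMk : (M : k) ≠ 0) {ω : k}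
    (hω : M = 3 → ω ^ 2 + ω + 1 = 0) :
    ∃ ζ : k, ζ ≠ 0 ∧ ζ ^ M = 1 ∧ ζ ≠ 1 := by
  rcases hM with rfl | rfl
  · refine ⟨-1, neg_ne_zero.mpr one_ne_zero, by norm_num, fun h => hMk ?_⟩
    have h2 : (1 : k) + 1 = 0 := by
      nth_rewrite 1 [← h]
      exact neg_add_cancel 1
    push_cast
    rw [← h2]
    norm_num
  · have h := hω rfl
    refine ⟨ω, fun h0 => ?_, ?_, fun h1 => hMk ?_⟩
    · rw [h0] at h
      norm_num at h
    · have : ω ^ 3 - 1 = (ω - 1) * (ω ^ 2 + ω + 1) := by ring
      rw [h, mul_zero] at this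
      exact sub_eq_zero.mp this
    · rw [h1] at h
      push_cast
      rw [← h]
      norm_num

end

/-- **DEG-k, case (A)** (helper12's statement): if `E ⊇ F_k` contains a root `μ̄` of
`AX_poly M j̄`, then `M ≤ [E : F_k]`. -/
theorem DG_le_finrank_caseA (k : Type*) [Field k] (N : ℕ) [NeZero N] {M : ℕ}
    (hM : M = 2 ∨ M = 3) (hMk : (M : k) ≠ 0)
    {ω : k} (hω : M = 3 → ω ^ 2 + ω + 1 = 0)
    (jbar : ↥(modularFunctionFieldFullC k N)) (hj : (jbar : LaurentSeries k) = jqModC k)
    {E : Type*} [Field E] [Algebra ↥(modularFunctionFieldFullC k N) E]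
    [FiniteDimensional ↥(modularFunctionFieldFullC k N) E]
    (μ : E)
    (hμ : (AX_poly E M (algebraMap ↥(modularFunctionFieldFullC k N) E jbar)).eval μ = 0) :
    M ≤ Module.finrank ↥(modularFunctionFieldFullC k N) E := by
  have hMprime : M.Prime := by
    rcases hM with rfl | rfl
    · exact Nat.prime_two
    · exact Nat.prime_three
  have : Fact M.Prime := ⟨hMprime⟩
  have : NeZero M := ⟨hMprime.ne_zero⟩
  obtain ⟨ζ, hζ0, hζM, hζ1⟩ := DG_A_zeta hM hMk hω
  -- the embedding `q ↦ u^M`
  set ι : ↥(modularFunctionFieldFullC k N) →+* LaurentSeries k :=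
    (qExpand k M).comp (algebraMap ↥(modularFunctionFieldFullC k N) (LaurentSeries k)) with hι
  set y : LaurentSeries k := qExpand k M (jqModC k) with hy
  have hιj : ι jbar = y := by
    rw [hι, RingHom.comp_apply, hy]
    congr 1
  have hord : y.order = -((M * 1 : ℕ) : ℤ) := by
    rw [hy, DG_A_order_qExpand, DG_A_order_jq]
    push_cast
    ring
  have hlead : y.coeff y.order = 1 := by
    rw [hord, hy, show -((M * 1 : ℕ) : ℤ) = (M : ℤ) * (-1) by push_cast; ring,
      qExpand_coeff_mul, coeff_jqModC_neg_one]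
  have hexp : ∀ m : ℤ, y.coeff m ≠ 0 → ((M * 1 : ℕ) : ℤ) ∣ m := by
    intro m hm
    by_contra hnd
    rw [mul_one] at hnd
    exact hm (qExpand_coeff_of_not_dvd M _ hnd)
  have hPmap : (AX_poly ↥(modularFunctionFieldFullC k N) M jbar).map ι
      = AX_poly (LaurentSeries k) M y := by
    rw [AX_poly_map, hιj]
  -- `y` is not constant
  have hyC : ∀ c : k, y ≠ HahnSeries.C c := by
    intro c h
    have h1 := congrArg (fun g : LaurentSeries k => g.coeff ((M : ℤ) * (-1))) h
    simp only [hy, qExpand_coeff_mul, coeff_jqModC_neg_one] at h1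
    have hne : (M : ℤ) * (-1) ≠ 0 := by
      have : (0 : ℤ) < M := by exact_mod_cast hMprime.pos
      omega
    have h2 : (HahnSeries.C c : LaurentSeries k).coeff ((M : ℤ) * (-1)) = 0 :=
      HahnSeries.coeff_single_of_ne hne
    rw [h2] at h1
    exact one_ne_zero h1
  have hy0 : y ≠ 0 := fun h => hyC 0 (by rw [h, map_zero])
  have hy1 : y ≠ 1728 := fun h => hyC 1728 (by rw [h, map_ofNat])
  have hsplit : ((AX_poly ↥(modularFunctionFieldFullC k N) M jbar).map ι).Splits := by
    rw [hPmap]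
    exact ML_splits hM hMk hω 1 one_pos y hord hlead hexp
  have hsep : ((AX_poly ↥(modularFunctionFieldFullC k N) M jbar).map ι).Separable := by
    rw [hPmap]
    exact MU_separable hM (ML_natCast_ne_zero hMk) hy0 hy1
  refine DG_le_finrank_of_twist ι (CU_twist ζ hζ0) ?_ (AX_poly _ M jbar) hsplit hsep M ?_ ?_ μ ?_
  · -- the twist fixes the image of `ι`
    intro f
    rw [CU_twist_eq_self_iff]
    intro n hn
    by_cases hd : (M : ℤ) ∣ n
    · obtain ⟨m, rfl⟩ := hd
      rw [zpow_mul, zpow_natCast, hζM, one_zpow]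
    · exact absurd (qExpand_coeff_of_not_dvd M _ hd) hn
  · intro a _
    ext n
    have h1 : (ζ ^ n) ^ M = 1 := by
      rw [← zpow_natCast, ← zpow_mul, mul_comm, zpow_mul, zpow_natCast, hζM, one_zpow]
    rw [DG_A_twist_iterate, h1, one_mul]
  · intro a ha hfix
    rw [hPmap] at ha
    have := (ML_twist_root hM hMk hω 1 one_pos y hord hlead hexp a ha ζ hζ0
      (by rw [mul_one]; exact hζM)).mp hfix
    rw [pow_one] at this
    exact hζ1 this
  · rw [aeval_def, ← eval_map, AX_poly_map]
    exact hμ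

end Fermat.Agent.S18
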