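import Mathlib

/-!
# S18, package DEG: Hensel's lemma in `k⟦t⟧` (existence and uniqueness of lifts of simple roots)
-/

set_option autoImplicit false

open Polynomial

namespace Fermat.Agent.S18

section
variable {k : Type*} [Field k]

theorem DG_mem_span_X_iff (f : PowerSeries k) :
    f ∈ Ideal.span {(PowerSeries.X : PowerSeries k)} ↔ PowerSeries.constantCoeff f = 0 := by
  rw [Ideal.mem_span_singleton, PowerSeries.X_dvd_iff]

/-- evaluation commutes with the constant coefficient -/
theorem DG_constantCoeff_eval (H : (PowerSeries k)[X]) (a : PowerSeries k) :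
    PowerSeries.constantCoeff (H.eval a) =
      (H.map (PowerSeries.constantCoeff (R := k))).eval (PowerSeries.constantCoeff a) := by
  rw [eval_map]
  exact (Polynomial.eval₂_at_apply (PowerSeries.constantCoeff (R := k)) a).symm

/-- **Hensel, existence** in `k⟦t⟧`. -/
theorem DG_hensel_exists (H : (PowerSeries k)[X]) (hH : H.Monic) (a₀ : k)
    (h₁ : (H.map (PowerSeries.constantCoeff (R := k))).eval a₀ = 0)
    (h₂ : (H.map (PowerSeries.constantCoeff (R := k))).derivative.eval a₀ ≠ 0) :
    ∃ y : PowerSeries k, H.eval y = 0 ∧ PowerSeries.constantCoeff y = a₀ := by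
  have hens : HenselianRing (PowerSeries k) (Ideal.span {(PowerSeries.X : PowerSeries k)}) :=
    inferInstance
  have e₁ : H.eval (PowerSeries.C a₀) ∈ Ideal.span {(PowerSeries.X : PowerSeries k)} := by
    rw [DG_mem_span_X_iff, DG_constantCoeff_eval, PowerSeries.constantCoeff_C, h₁]
  have e₂ : IsUnit (Ideal.Quotient.mk (Ideal.span {(PowerSeries.X : PowerSeries k)})
      (H.derivative.eval (PowerSeries.C a₀))) := by
    apply IsUnit.map
    rw [PowerSeries.isUnit_iff_constantCoeff, DG_constantCoeff_eval, PowerSeries.constantCoeff_C,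
      ← derivative_map]
    exact isUnit_iff_ne_zero.mpr h₂
  obtain ⟨y, hy, hya⟩ := hens.is_henselian H hH (PowerSeries.C a₀) e₁ e₂
  refine ⟨y, hy, ?_⟩
  rw [DG_mem_span_X_iff, map_sub, PowerSeries.constantCoeff_C, sub_eq_zero] at hya
  exact hya

/-- **Hensel, uniqueness** in `k⟦t⟧`. -/
theorem DG_hensel_unique (H : (PowerSeries k)[X]) (y y' : PowerSeries k)
    (hy : H.eval y = 0) (hy' : H.eval y' = 0)
    (hc : PowerSeries.constantCoeff y' = PowerSeries.constantCoeff y)
    (hd : (H.map (PowerSeries.constantCoeff (R := k))).derivative.eval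
      (PowerSeries.constantCoeff y) ≠ 0) : y' = y := by
  obtain ⟨c, hc2⟩ := H.binomExpansion y (y' - y)
  rw [add_sub_cancel, hy, hy', zero_add] at hc2
  have hfac : (y' - y) * (H.derivative.eval y + c * (y' - y)) = 0 := by
    linear_combination -hc2
  have hunit : IsUnit (H.derivative.eval y + c * (y' - y)) := by
    rw [PowerSeries.isUnit_iff_constantCoeff, map_add, map_mul, map_sub, hc, sub_self, mul_zero,
      add_zero, DG_constantCoeff_eval, ← derivative_map]
    exact isUnit_iff_ne_zero.mpr hd
  rcases mul_eq_zero.mp hfac with h | h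
  · exact sub_eq_zero.mp h
  · exact absurd h hunit.ne_zero

end

end Fermat.Agent.S18
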