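import Fermat.Agent.S18.DegAbs

/-!
# S18, package DEG-k: the orbit argument on the roots

`ι : F_k → Ω` a field embedding, `σ : Ω → Ω` a ring endomorphism fixing `ι F_k` pointwise,
`P ∈ F_k[X]` such that `P.map ι` splits with simple roots, none of which is fixed by `σ`, all of
which are fixed by `σ^M` (`M` prime).  Then `M` divides the degree of every divisor of `P`;
in particular `M ∣ deg (minpoly F_k μ̄)` for every root `μ̄` of `P` in an extension of `F_k`.
-/

set_option autoImplicit false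

open Polynomial Module

namespace Fermat.Agent.S18

section
variable {Fk Ω : Type*} [Field Fk] [Field Ω]

/-- a ring endomorphism fixing the coefficients permutes the roots. -/
theorem DG_eval_twist (ι : Fk →+* Ω) (σ : Ω →+* Ω) (hσι : ∀ f, σ (ι f) = ι f) (A : Fk[X])
    (a : Ω) : (A.map ι).eval (σ a) = σ ((A.map ι).eval a) := by
  have hcomp : σ.comp ι = ι := RingHom.ext hσι
  rw [eval_map, eval_map, hom_eval₂, hcomp]

theorem DG_dvd_natDegree_of_twist (ι : Fk →+* Ω) (σ : Ω →+* Ω) (hσι : ∀ f, σ (ι f) = ι f)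
    (P A : Fk[X]) (hA : A ∣ P) (hsplit : (P.map ι).Splits) (hsep : (P.map ι).Separable)
    (M : ℕ) [Fact M.Prime]
    (hσM : ∀ a, (P.map ι).eval a = 0 → σ^[M] a = a)
    (hfix : ∀ a, (P.map ι).eval a = 0 → σ a ≠ a) : M ∣ A.natDegree := by
  classical
  have hP0 : P.map ι ≠ 0 := hsep.ne_zero
  have hAP : A.map ι ∣ P.map ι := Polynomial.map_dvd ι hA
  have hA0 : A.map ι ≠ 0 := ne_zero_of_dvd_ne_zero hP0 hAP
  have hAs : (A.map ι).Splits := hsplit.of_dvd hP0 hAP
  have hAsep : (A.map ι).Separable := hsep.of_dvd hAP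
  have hnd : (A.map ι).roots.Nodup := nodup_roots hAsep
  have hcard : (A.map ι).roots.toFinset.card = A.natDegree := by
    rw [Multiset.toFinset_card_of_nodup hnd, ← hAs.natDegree_eq_card_roots, natDegree_map]
  have hroot : ∀ r ∈ (A.map ι).roots.toFinset, (P.map ι).eval r = 0 := by
    intro r hr
    rw [Multiset.mem_toFinset, mem_roots hA0] at hr
    obtain ⟨Q, hQ⟩ := hAP
    rw [hQ, eval_mul, hr.eq_zero, zero_mul]
  rw [← hcard]
  refine DG_dvd_card_of_no_fixed _ σ M ?_ (fun r hr => hσM r (hroot r hr))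
    (fun r hr => hfix r (hroot r hr))
  intro r hr
  rw [Multiset.mem_toFinset, mem_roots hA0] at hr ⊢
  rw [IsRoot.def, DG_eval_twist ι σ hσι, hr.eq_zero, map_zero]

/-- **DEG-k, orbit form**: `M ∣ deg (minpoly F_k μ̄)`. -/
theorem DG_dvd_natDegree_minpoly {E : Type*} [Field E] [Algebra Fk E]
    (ι : Fk →+* Ω) (σ : Ω →+* Ω) (hσι : ∀ f, σ (ι f) = ι f)
    (P : Fk[X]) (hsplit : (P.map ι).Splits) (hsep : (P.map ι).Separable)
    (M : ℕ) [Fact M.Prime]
    (hσM : ∀ a, (P.map ι).eval a = 0 → σ^[M] a = a)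
    (hfix : ∀ a, (P.map ι).eval a = 0 → σ a ≠ a)
    (μ : E) (hμ : aeval μ P = 0) : M ∣ (minpoly Fk μ).natDegree :=
  DG_dvd_natDegree_of_twist ι σ hσι P _ (minpoly.dvd Fk μ hμ) hsplit hsep M hσM hfix

/-- **DEG-k, orbit form**: `M ≤ [E : F_k]`. -/
theorem DG_le_finrank_of_twist {E : Type*} [Field E] [Algebra Fk E] [FiniteDimensional Fk E]
    (ι : Fk →+* Ω) (σ : Ω →+* Ω) (hσι : ∀ f, σ (ι f) = ι f)
    (P : Fk[X]) (hsplit : (P.map ι).Splits) (hsep : (P.map ι).Separable)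
    (M : ℕ) [Fact M.Prime]
    (hσM : ∀ a, (P.map ι).eval a = 0 → σ^[M] a = a)
    (hfix : ∀ a, (P.map ι).eval a = 0 → σ a ≠ a)
    (μ : E) (hμ : aeval μ P = 0) : M ≤ finrank Fk E := by
  have h1 := DG_dvd_natDegree_minpoly ι σ hσι P hsplit hsep M hσM hfix μ hμ
  have hint : IsIntegral Fk μ := IsIntegral.of_finite Fk μ
  have h2 : 0 < (minpoly Fk μ).natDegree := minpoly.natDegree_pos hint
  exact (Nat.le_of_dvd h2 h1).trans (minpoly.natDegree_le μ)

end

end Fermat.Agent.S18
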