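import Fermat.Agent.S18.ValGauss
import Fermat.Agent.Lib.LaurentTheta

/-!
# S18, package DER (helper20): the derivative commutes with reduction

`θ = q d/dq` (`Fermat.Agent.Lib.LT_theta`) on `L((q))`, `A((q))`, `k((q))`.
* `S18_frac_mem_O`: an element `f` of `F` of the form `a / b`, `a, b ∈ A((q))` ARBITRARY integral
  series with `ρ b ≠ 0`, lies in the Gauss ring `O`, and `red f = ρ a / ρ b`;
* `S18_der_theta`: if `y, t ∈ O`, `f ∈ F`, `θ y = f · θ t` and `θ (red t) ≠ 0`, then `f ∈ O` and
  `θ (red y) = red f · θ (red t)`.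
-/

set_option autoImplicit false
set_option synthInstance.maxHeartbeats 400000
set_option maxHeartbeats 1000000

open HahnSeries IntermediateField AlgebraicCurve ModularCurve

namespace Fermat.Agent.S18

open Fermat.Agent.Lib

attribute [local instance 100000] Algebra.toModule

section quotientRule

variable {R : Type*} [CommRing R]

/-- the quotient rule: if `x * v = w` then `θ x * v ^ 2 = θ w * v - w * θ v`. -/
theorem S18_theta_quot {x v w : LaurentSeries R} (h : x * v = w) :
    LT_theta x * v ^ 2 = LT_theta w * v - w * LT_theta v := by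
  have h1 : LT_theta w = x * LT_theta v + v * LT_theta x := by
    rw [← h, Derivation.leibniz, smul_eq_mul, smul_eq_mul]
  rw [h1, ← h]
  ring

end quotientRule

variable {L : Type*} [Field L] [Algebra ℚ L] (A : ValuationSubring L) (N : ℕ)

omit [Algebra ℚ L] in
theorem S18_residue_inv_eq_zero {c : L} (hc : c ∉ A) (hci : c⁻¹ ∈ A) :
    IsLocalRing.residue A ⟨c⁻¹, hci⟩ = 0 := by
  rw [IsLocalRing.residue_eq_zero_iff, IsLocalRing.mem_maximalIdeal, mem_nonunits_iff]
  rintro ⟨u, hu'⟩
  apply hc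
  have hc0 : c ≠ 0 := fun h0 => hc (h0 ▸ A.zero_mem)
  have h5 : ((u : A) : L) * (((u⁻¹ : Aˣ) : A) : L) = 1 := by
    exact_mod_cast congrArg (fun z : A => (z : L)) u.mul_inv
  have h6 : ((u : A) : L) = c⁻¹ := congrArg Subtype.val hu'
  rw [h6] at h5
  have h7 : (((u⁻¹ : Aˣ) : A) : L) = c := by
    have := congrArg (fun z => c * z) h5
    simp only [mul_one, ← mul_assoc, mul_inv_cancel₀ hc0, one_mul] at this
    exact this
  rw [← h7]
  exact ((u⁻¹ : Aˣ) : A).2

variable (hPD : HasPrincipalDivisors L ↥(laurentBaseChange L (modularFunctionFieldFull N)))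
  (hconst : ∀ f : ↥(laurentBaseChange L (modularFunctionFieldFull N)), f ≠ 0 →
    (∀ P : Place L ↥(laurentBaseChange L (modularFunctionFieldFull N)), P.ord f = 0) →
    ∃ c : L, f = algebraMap L ↥(laurentBaseChange L (modularFunctionFieldFull N)) c)
  (hgen : PrincipalGeneratedByIntegral A (IsLocalRing.residue A) N)

include hPD hconst hgen

/-- **FRAC**: a fraction of integral series (not necessarily in `F`) that lies in `F` and has a
denominator of nonzero reduction lies in `O`, and its reduction is the fraction of the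
reductions. -/
theorem S18_frac_mem_O (f : ↥(laurentBaseChange L (modularFunctionFieldFull N)))
    (a b : LaurentSeries A) (hb : S18_ρ A b ≠ 0)
    (hf : (f : LaurentSeries L) * S18_ι A b = S18_ι A a) :
    ∃ hO : f ∈ S18_O A N,
      ((S18_red A N ⟨f, hO⟩ : ↥(modularFunctionFieldFullC (IsLocalRing.ResidueField A) N)) :
        LaurentSeries (IsLocalRing.ResidueField A)) = S18_ρ A a / S18_ρ A b := by
  rcases eq_or_ne f 0 with rfl | hf0
  · refine ⟨zero_mem _, ?_⟩
    have ha : a = 0 := by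
      apply S18_ι_injective A
      rw [← hf, map_zero]
      simp
    rw [ha, map_zero, zero_div]
    have h0 : (⟨0, zero_mem _⟩ : S18_O A N) = 0 := rfl
    rw [h0, map_zero]
    rfl
  obtain ⟨c, s₁, s₂, hc, h1, h2, h⟩ := S18_exists_rep A N hPD hconst hgen f hf0
  have h' : (f : LaurentSeries L) * S18_ι A s₂.1 =
      algebraMap L (LaurentSeries L) c * S18_ι A s₁.1 := congrArg Subtype.val h
  have h1' : S18_ρ A s₁.1 ≠ 0 := fun h0 => h1 (Subtype.ext h0)
  have h2' : S18_ρ A s₂.1 ≠ 0 := fun h0 => h2 (Subtype.ext h0)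
  by_cases hcA : c ∈ A
  · have hrep : f * S18_Bι A N s₂ = S18_Bι A N (S18_BC A N ⟨c, hcA⟩ * s₁) := by
      rw [map_mul, S18_Bι_BC, h]
    have hO : f ∈ S18_O A N := (S18_mem_O' A N).mpr ⟨S18_BC A N ⟨c, hcA⟩ * s₁, s₂, h2, hrep⟩
    refine ⟨hO, ?_⟩
    rw [S18_red_eq' A N hO h2 hrep]
    show S18_ρ A (HahnSeries.C (⟨c, hcA⟩ : A) * s₁.1) / S18_ρ A s₂.1 = _
    rw [div_eq_div_iff h2' hb]
    have key : HahnSeries.C (⟨c, hcA⟩ : A) * s₁.1 * b = a * s₂.1 := by
      apply S18_ι_injective A
      rw [map_mul, map_mul, map_mul, S18_ι_C]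
      linear_combination (S18_ι A s₂.1) * hf - (S18_ι A b) * h'
    have := congrArg (S18_ρ A) key
    rw [← map_mul, ← map_mul]
    exact this
  · exfalso
    have hci : c⁻¹ ∈ A := (A.mem_or_inv_mem c).resolve_left hcA
    have hres := S18_residue_inv_eq_zero A hcA hci
    have hcL : algebraMap L (LaurentSeries L) c ≠ 0 := by rwa [Ne, map_eq_zero]
    have key : s₁.1 * b = HahnSeries.C (⟨c⁻¹, hci⟩ : A) * a * s₂.1 := by
      apply S18_ι_injective A
      rw [map_mul, map_mul, map_mul, S18_ι_C]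
      show S18_ι A s₁.1 * S18_ι A b =
        algebraMap L (LaurentSeries L) c⁻¹ * S18_ι A a * S18_ι A s₂.1
      rw [map_inv₀]
      field_simp
      linear_combination (S18_ι A s₂.1) * hf - (S18_ι A b) * h'
    have := congrArg (S18_ρ A) key
    rw [map_mul, map_mul, map_mul, S18_ρ_C, hres, map_zero, zero_mul, zero_mul] at this
    exact (mul_ne_zero h1' hb) this

/-- **DER, θ-form**: the logarithmic derivative `θ y / θ t` of integral functions is integral
if `θ (red t) ≠ 0`, and commutes with reduction. -/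
theorem S18_der_theta (y t f : ↥(laurentBaseChange L (modularFunctionFieldFull N)))
    (hy : y ∈ S18_O A N) (ht : t ∈ S18_O A N)
    (hθ : LT_theta (y : LaurentSeries L) = (f : LaurentSeries L) * LT_theta (t : LaurentSeries L))
    (hne : LT_theta ((S18_red A N ⟨t, ht⟩ :
      ↥(modularFunctionFieldFullC (IsLocalRing.ResidueField A) N)) :
        LaurentSeries (IsLocalRing.ResidueField A)) ≠ 0) :
    ∃ hO : f ∈ S18_O A N,
      LT_theta ((S18_red A N ⟨y, hy⟩ :
        ↥(modularFunctionFieldFullC (IsLocalRing.ResidueField A) N)) :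
          LaurentSeries (IsLocalRing.ResidueField A)) =
      ((S18_red A N ⟨f, hO⟩ : ↥(modularFunctionFieldFullC (IsLocalRing.ResidueField A) N)) :
        LaurentSeries (IsLocalRing.ResidueField A)) *
      LT_theta ((S18_red A N ⟨t, ht⟩ :
        ↥(modularFunctionFieldFullC (IsLocalRing.ResidueField A) N)) :
          LaurentSeries (IsLocalRing.ResidueField A)) := by
  obtain ⟨s₁, hs1, s₂, hs2, hsne, hys⟩ := hy
  obtain ⟨t₁, ht1, t₂, ht2, htne, htt⟩ := ht
  have hredy := S18_red_eq A N hs1 hs2 hsne hys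
  have hredt := S18_red_eq A N ht1 ht2 htne htt
  set ybar : LaurentSeries (IsLocalRing.ResidueField A) := S18_ρ A s₁ / S18_ρ A s₂ with hybar
  set tbar : LaurentSeries (IsLocalRing.ResidueField A) := S18_ρ A t₁ / S18_ρ A t₂ with htbar
  rw [hredt] at hne
  simp only [hredy, hredt]
  -- the numerators of the derivatives
  set ay : LaurentSeries A := LT_theta s₁ * s₂ - s₁ * LT_theta s₂ with hay
  set at' : LaurentSeries A := LT_theta t₁ * t₂ - t₁ * LT_theta t₂ with hat
  have hιay : LT_theta (y : LaurentSeries L) * S18_ι A s₂ ^ 2 = S18_ι A ay := by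
    rw [S18_theta_quot hys, hay, map_sub, map_mul, map_mul]
    show _ = coeffMap A.subtype (LT_theta s₁) * _ - _ * coeffMap A.subtype (LT_theta s₂)
    rw [← LT_theta_coeffMap, ← LT_theta_coeffMap]
  have hιat : LT_theta (t : LaurentSeries L) * S18_ι A t₂ ^ 2 = S18_ι A at' := by
    rw [S18_theta_quot htt, hat, map_sub, map_mul, map_mul]
    show _ = coeffMap A.subtype (LT_theta t₁) * _ - _ * coeffMap A.subtype (LT_theta t₂)
    rw [← LT_theta_coeffMap, ← LT_theta_coeffMap]
  have hρay : LT_theta ybar * S18_ρ A s₂ ^ 2 = S18_ρ A ay := by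
    have h1 : ybar * S18_ρ A s₂ = S18_ρ A s₁ := by rw [hybar]; field_simp
    rw [S18_theta_quot h1, hay, map_sub, map_mul, map_mul]
    show _ = coeffMap (IsLocalRing.residue A) (LT_theta s₁) * _ -
      _ * coeffMap (IsLocalRing.residue A) (LT_theta s₂)
    rw [← LT_theta_coeffMap, ← LT_theta_coeffMap]
  have hρat : LT_theta tbar * S18_ρ A t₂ ^ 2 = S18_ρ A at' := by
    have h1 : tbar * S18_ρ A t₂ = S18_ρ A t₁ := by rw [htbar]; field_simp
    rw [S18_theta_quot h1, hat, map_sub, map_mul, map_mul]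
    show _ = coeffMap (IsLocalRing.residue A) (LT_theta t₁) * _ -
      _ * coeffMap (IsLocalRing.residue A) (LT_theta t₂)
    rw [← LT_theta_coeffMap, ← LT_theta_coeffMap]
  have hb : S18_ρ A (at' * s₂ ^ 2) ≠ 0 := by
    rw [map_mul, map_pow, ← hρat]
    exact mul_ne_zero (mul_ne_zero hne (pow_ne_zero _ htne)) (pow_ne_zero _ hsne)
  have hfab : (f : LaurentSeries L) * S18_ι A (at' * s₂ ^ 2) = S18_ι A (ay * t₂ ^ 2) := by
    rw [map_mul, map_mul, map_pow, map_pow, ← hιay, ← hιat, hθ]
    ring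
  obtain ⟨hO, hred⟩ := S18_frac_mem_O A N hPD hconst hgen f _ _ hb hfab
  refine ⟨hO, ?_⟩
  rw [hred, map_mul, map_mul, map_pow, map_pow, ← hρay, ← hρat]
  field_simp

end Fermat.Agent.S18
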