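import Fermat.Agent.S18.RIGen
import Fermat.Agent.S18.GaussModL
import Fermat.Agent.S18.Sep
import Fermat.Agent.S18.Wire

/-!
# S18 / RI, package RI-ASM (helper2), part 1: `ReductionInputsModL` from a specialisation map

`K = ℚ̄`, `A ⊂ K` a valuation ring over `ℓ ∤ N`, `k` its residue field,
`F = modularFunctionFieldBar N`, `F_k = modularFunctionFieldFullC k N`.

* `RIA_gauss N A hℓ hA hℓN : S18_Gauss K F k F_k` — the Gauss datum of `X₀(N)`, with NO hypothesis
  (`S18_gaussModL` fed with `RIG_hgen`);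
* `RIA_of_r` : `ReductionInputsModL A N` from ANY map of places `r` satisfying (2) for the units of
  the Gauss ring (`deg` is automatic: both fields of constants are algebraically closed; (3) is
  `RIG_hgen`);
* `RIA_of_exists_r` : the same with `∃ r`.
-/

set_option autoImplicit false
set_option synthInstance.maxHeartbeats 400000
set_option maxHeartbeats 1000000

open HahnSeries IntermediateField AlgebraicCurve ModularCurve

namespace Fermat.Agent.S18

open Fermat.Agent.Lib Fermat.Agent.S24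

section

variable (N : ℕ) [NeZero N] (A : ValuationSubring (AlgebraicClosure ℚ))
  {ℓ : ℕ} (hℓ : ℓ.Prime) (hA : A.LiesOverPrime ℓ) (hℓN : ¬ ℓ ∣ N)

/-- the Gauss datum of `X₀(N)` at a place over `ℓ ∤ N`, with no hypothesis. -/
noncomputable def RIA_gauss :
    S18_Gauss (AlgebraicClosure ℚ) ↥(modularFunctionFieldBar N)
      (IsLocalRing.ResidueField A) ↥(modularFunctionFieldFullC (IsLocalRing.ResidueField A) N) :=
  S18_gaussModL N A (RIG_hgen N A hℓ hA hℓN)

theorem RIA_gauss_A : (RIA_gauss N A hℓ hA hℓN).A = A := rfl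

theorem RIA_gauss_res : (RIA_gauss N A hℓ hA hℓN).res = IsLocalRing.residue A := rfl

theorem RIA_mem_gauss_O {f : ↥(modularFunctionFieldBar N)} :
    f ∈ (RIA_gauss N A hℓ hA hℓN).O ↔ f ∈ S18_O A N := Iff.rfl

/-- integral series lying in `F` are in the Gauss ring. -/
theorem RIA_Bι_mem (s : S18_B A N) : S18_Bι A N s ∈ (RIA_gauss N A hℓ hA hℓN).O :=
  S18_Bι_mem_O A N s

/-- the reduction of an integral series is the coefficientwise reduction. -/
theorem RIA_red_Bι (s : S18_B A N) :
    (RIA_gauss N A hℓ hA hℓN).red ⟨S18_Bι A N s, RIA_Bι_mem N A hℓ hA hℓN s⟩ = S18_Bρ A N s :=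
  S18_red_Bι A N s

/-- **RI-ASM, last step**: `ReductionInputsModL` from a map of places with property (2) on the
Gauss ring. -/
theorem RIA_of_r
    (r : Place (AlgebraicClosure ℚ) ↥(modularFunctionFieldBar N) →
      Place (IsLocalRing.ResidueField A)
        ↥(modularFunctionFieldFullC (IsLocalRing.ResidueField A) N))
    (hr : ∀ u : (RIA_gauss N A hℓ hA hℓN).O, (RIA_gauss N A hℓ hA hℓN).red u ≠ 0 →
      ∀ D : Divisor (AlgebraicClosure ℚ) ↥(modularFunctionFieldBar N),
        (∀ P, D P = P.ord (u : ↥(modularFunctionFieldBar N))) →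
        ∀ Q, Finsupp.mapDomain r D Q = Q.ord ((RIA_gauss N A hℓ hA hℓN).red u)) :
    ReductionInputsModL A N := by
  refine ⟨r, ⟨fun P => ?_, fun y hy hyk hne D hD Q => ?_⟩, RIG_hgen N A hℓ hA hℓN⟩
  · rw [(S18_hk N A hℓ hA hℓN).deg_one, (S18_hRR N).deg_one]
  · have h1 := hr ⟨S18_Bι A N ⟨y, hy, hyk⟩, RIA_Bι_mem N A hℓ hA hℓN ⟨y, hy, hyk⟩⟩
      (by
        rw [RIA_red_Bι]
        intro h0
        exact hne (congrArg Subtype.val h0))
      D hD Q
    rw [h1, RIA_red_Bι]
    rfl

/-- **RI-ASM, last step** (existential form). -/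
theorem RIA_of_exists_r
    (h : ∃ r : Place (AlgebraicClosure ℚ) ↥(modularFunctionFieldBar N) →
      Place (IsLocalRing.ResidueField A)
        ↥(modularFunctionFieldFullC (IsLocalRing.ResidueField A) N),
      ∀ u : (RIA_gauss N A hℓ hA hℓN).O, (RIA_gauss N A hℓ hA hℓN).red u ≠ 0 →
      ∀ D : Divisor (AlgebraicClosure ℚ) ↥(modularFunctionFieldBar N),
        (∀ P, D P = P.ord (u : ↥(modularFunctionFieldBar N))) →
        ∀ Q, Finsupp.mapDomain r D Q = Q.ord ((RIA_gauss N A hℓ hA hℓN).red u)) :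
    ReductionInputsModL A N := by
  obtain ⟨r, hr⟩ := h
  exact RIA_of_r N A hℓ hA hℓN r hr

end

end Fermat.Agent.S18
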