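import Fermat.Agent.S18.GaussModL
import Fermat.Agent.S18.Sep

/-!
# S18 / RI, package RI-BR (helper20), part 2: from property (2) for Gauss units to the Prelude form

Let `G := S18_gauss A N hPD hconst hgen` be the Gauss datum of `X₀(N)` (no map of places).
If `r : Pl(F) → Pl(F_k)` preserves degrees and satisfies
  (2)  `r_*(div u) = div (red u)` for every `u ∈ O` with `red u ≠ 0`,
then `r` is a place reduction in the sense of the Prelude (`IsPlaceReductionAlong`), hence
`ReductionInputsAlong A (residue A) N` holds (`RIB_reductionInputsAlong`).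

Over `ℚ̄`: `RIB_reductionInputsModL` (degrees are automatic: `RIB_reductionInputsModL'`).
-/

set_option autoImplicit false
set_option synthInstance.maxHeartbeats 400000
set_option maxHeartbeats 1000000

open HahnSeries IntermediateField AlgebraicCurve ModularCurve

namespace Fermat.Agent.S18

section General

variable {L : Type*} [Field L] [Algebra ℚ L] (A : ValuationSubring L) (N : ℕ) [NeZero N]
  (hPD : HasPrincipalDivisors L ↥(laurentBaseChange L (modularFunctionFieldFull N)))
  (hconst : ∀ f : ↥(laurentBaseChange L (modularFunctionFieldFull N)), f ≠ 0 →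
    (∀ P : Place L ↥(laurentBaseChange L (modularFunctionFieldFull N)), P.ord f = 0) →
    ∃ c : L, f = algebraMap L ↥(laurentBaseChange L (modularFunctionFieldFull N)) c)
  (hgen : PrincipalGeneratedByIntegral A (IsLocalRing.residue A) N)

/-- an integral series lying in `F` (with reduction in `F_k`) is an element of `O`. -/
theorem RIB_mem_O {y : LaurentSeries A}
    (hy : coeffMap A.subtype y ∈ laurentBaseChange L (modularFunctionFieldFull N))
    (hyk : coeffMap (IsLocalRing.residue A) y ∈
      modularFunctionFieldFullC (IsLocalRing.ResidueField A) N) :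
    (⟨coeffMap A.subtype y, hy⟩ : ↥(laurentBaseChange L (modularFunctionFieldFull N))) ∈
      (S18_gauss A N hPD hconst hgen).O :=
  S18_Bι_mem_O A N ⟨y, hy, hyk⟩

/-- its Gauss reduction is the coefficientwise reduction. -/
theorem RIB_red {y : LaurentSeries A}
    (hy : coeffMap A.subtype y ∈ laurentBaseChange L (modularFunctionFieldFull N))
    (hyk : coeffMap (IsLocalRing.residue A) y ∈
      modularFunctionFieldFullC (IsLocalRing.ResidueField A) N) :
    (S18_gauss A N hPD hconst hgen).red ⟨⟨coeffMap A.subtype y, hy⟩,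
      RIB_mem_O A N hPD hconst hgen hy hyk⟩ =
      (⟨coeffMap (IsLocalRing.residue A) y, hyk⟩ :
        ↥(modularFunctionFieldFullC (IsLocalRing.ResidueField A) N)) :=
  S18_red_Bι A N ⟨y, hy, hyk⟩

variable {A N hPD hconst hgen}

/-- **RI-BR**: property (2) for the Gauss units gives the Prelude's `IsPlaceReductionAlong`. -/
theorem RIB_isPlaceReductionAlong
    {r : Place L ↥(laurentBaseChange L (modularFunctionFieldFull N)) →
      Place (IsLocalRing.ResidueField A)
        ↥(modularFunctionFieldFullC (IsLocalRing.ResidueField A) N)}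
    (hdeg : ∀ P, (r P).deg = P.deg)
    (h2 : ∀ u : (S18_gauss A N hPD hconst hgen).O, (S18_gauss A N hPD hconst hgen).red u ≠ 0 →
      ∀ D : Divisor L ↥(laurentBaseChange L (modularFunctionFieldFull N)),
        (∀ P, D P = P.ord (u : ↥(laurentBaseChange L (modularFunctionFieldFull N)))) →
        ∀ Q, Finsupp.mapDomain r D Q = Q.ord ((S18_gauss A N hPD hconst hgen).red u)) :
    IsPlaceReductionAlong A (IsLocalRing.residue A) N r := by
  refine ⟨hdeg, fun y hy hyk hne D hD Q => ?_⟩
  have hred := RIB_red A N hPD hconst hgen hy hyk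
  have hne' : (S18_gauss A N hPD hconst hgen).red ⟨⟨coeffMap A.subtype y, hy⟩,
      RIB_mem_O A N hPD hconst hgen hy hyk⟩ ≠ 0 := by
    rw [hred]
    exact fun h0 => hne (congrArg Subtype.val h0)
  have := h2 ⟨⟨coeffMap A.subtype y, hy⟩, RIB_mem_O A N hPD hconst hgen hy hyk⟩ hne' D hD Q
  rw [this, hred]

/-- **RI-BR**: `ReductionInputsAlong` from a degree-preserving map of places with property (2). -/
theorem RIB_reductionInputsAlong
    (hex : ∃ r : Place L ↥(laurentBaseChange L (modularFunctionFieldFull N)) →
        Place (IsLocalRing.ResidueField A)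
          ↥(modularFunctionFieldFullC (IsLocalRing.ResidueField A) N),
      (∀ P, (r P).deg = P.deg) ∧
      ∀ u : (S18_gauss A N hPD hconst hgen).O, (S18_gauss A N hPD hconst hgen).red u ≠ 0 →
        ∀ D : Divisor L ↥(laurentBaseChange L (modularFunctionFieldFull N)),
          (∀ P, D P = P.ord (u : ↥(laurentBaseChange L (modularFunctionFieldFull N)))) →
          ∀ Q, Finsupp.mapDomain r D Q = Q.ord ((S18_gauss A N hPD hconst hgen).red u)) :
    ReductionInputsAlong A (IsLocalRing.residue A) N := by
  obtain ⟨r, hdeg, h2⟩ := hex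
  exact ⟨r, RIB_isPlaceReductionAlong hdeg h2, hgen⟩

end General

section ModL

variable {N : ℕ} [NeZero N] {A : ValuationSubring (AlgebraicClosure ℚ)}
  {hgen : PrincipalGeneratedByIntegral A (IsLocalRing.residue A) N}

/-- **RI-BR** over `ℚ̄`. -/
theorem RIB_reductionInputsModL
    (hex : ∃ r : Place (AlgebraicClosure ℚ) ↥(modularFunctionFieldBar N) →
        Place (IsLocalRing.ResidueField A)
          ↥(modularFunctionFieldFullC (IsLocalRing.ResidueField A) N),
      (∀ P, (r P).deg = P.deg) ∧
      ∀ u : (S18_gaussModL N A hgen).O, (S18_gaussModL N A hgen).red u ≠ 0 →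
        ∀ D : Divisor (AlgebraicClosure ℚ) ↥(modularFunctionFieldBar N),
          (∀ P, D P = P.ord (u : ↥(modularFunctionFieldBar N))) →
          ∀ Q, Finsupp.mapDomain r D Q = Q.ord ((S18_gaussModL N A hgen).red u)) :
    ReductionInputsModL A N :=
  RIB_reductionInputsAlong hex

/-- **RI-BR** over `ℚ̄`, for `ℓ ∤ N`: the degrees are automatic (all places have degree one). -/
theorem RIB_reductionInputsModL' {ℓ : ℕ} (hℓ : ℓ.Prime) (hA : A.LiesOverPrime ℓ) (hℓN : ¬ ℓ ∣ N)
    (hex : ∃ r : Place (AlgebraicClosure ℚ) ↥(modularFunctionFieldBar N) →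
        Place (IsLocalRing.ResidueField A)
          ↥(modularFunctionFieldFullC (IsLocalRing.ResidueField A) N),
      ∀ u : (S18_gaussModL N A hgen).O, (S18_gaussModL N A hgen).red u ≠ 0 →
        ∀ D : Divisor (AlgebraicClosure ℚ) ↥(modularFunctionFieldBar N),
          (∀ P, D P = P.ord (u : ↥(modularFunctionFieldBar N))) →
          ∀ Q, Finsupp.mapDomain r D Q = Q.ord ((S18_gaussModL N A hgen).red u)) :
    ReductionInputsModL A N := by
  obtain ⟨r, h2⟩ := hex
  refine RIB_reductionInputsModL (hgen := hgen) ⟨r, fun P => ?_, h2⟩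
  have h1 : P.deg = 1 := by
    have := Fermat.Agent.S24.finiteDimensional_jB N
    exact (Fermat.Agent.Lib.RR_hyp_of_charZero (Fermat.Agent.S24.transcendental_jB N)).deg_one P
  rw [h1]
  exact (S18_hk N A hℓ hA hℓN).deg_one (r P)

end ModL

end Fermat.Agent.S18
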