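import Mathlib
import Fermat.Agent.S18.Spec
import Fermat.Agent.Lib.FFSep

/-!
# S18, package RI-6 (helper10), part B: the centre property

For a specialisation datum `S : S18_Spec L F k Fk` (`L`, `k` algebraically closed) and a chart
`y ∈ O` (`F / L(y)` and `Fk / k(ȳ)` finite separable, `[F : L(y)] ≤ [Fk : k(ȳ)]`) the property
(2) `r_*(div y) = div ȳ` alone forces

* `RID_center_pole`  : poles of `y` specialise to poles of `ȳ`,
* `RID_center_zero`  : zeros of `y` specialise to zeros of `ȳ`,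
* `RID_center_value` : if `y(P) = a ∈ A` then `ȳ(r P) = res a`.

(Compare the pole divisors: `-[Fk:k(ȳ)] = ∑_{Q pole of ȳ} ord_Q ȳ = ∑_{r P pole of ȳ} ord_P y
 ≥ ∑_{P pole of y} ord_P y = -[F:L(y)]`, with equality iff every pole of `y` lies over a pole of
`ȳ`.)
-/

set_option autoImplicit false

open AlgebraicCurve IntermediateField Module

namespace Fermat.Agent.S18

open Fermat.Agent.S24 Fermat.Agent.Lib

section abstract

/-- sum of a pushed-forward divisor over a finite set of targets. -/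
theorem RID_sum_mapDomain {α β : Type*} (r : α → β) (D : α →₀ ℤ) (T : Finset β)
    [DecidablePred fun P => r P ∈ T] :
    ∑ Q ∈ T, Finsupp.mapDomain r D Q = ∑ P ∈ D.support.filter (fun P => r P ∈ T), D P := by
  classical
  simp only [Finsupp.mapDomain, Finsupp.sum, Finsupp.finsetSum_apply, Finsupp.single_apply]
  rw [Finset.sum_comm, Finset.sum_filter]
  refine Finset.sum_congr rfl fun P _ => ?_
  rw [Finset.sum_ite_eq]
  by_cases h : r P ∈ T
  · rw [if_pos h, if_pos h]
  · rw [if_neg h, if_neg h]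

/-- **centre property, abstract form**. -/
theorem RID_center_abs {α β : Type*} (r : α → β) (D : α →₀ ℤ) (E : β → ℤ)
    (h2 : ∀ Q, Finsupp.mapDomain r D Q = E Q)
    (Pol : Finset α) (hPol : ∀ P, P ∈ Pol ↔ D P < 0)
    (T : Finset β) (nL nk : ℤ) (hsL : ∑ P ∈ Pol, D P = -nL) (hsk : ∑ Q ∈ T, E Q = -nk)
    (hle : nL ≤ nk) (P₀ : α) (hP₀ : D P₀ < 0) : r P₀ ∈ T := by
  classical
  by_contra hT
  set U := D.support.filter (fun P => r P ∈ T) with hU
  have hsU : ∑ P ∈ U, D P = -nk := by
    rw [hU, ← RID_sum_mapDomain, ← hsk]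
    exact Finset.sum_congr rfl fun Q _ => h2 Q
  set W := U ∪ Pol with hW
  have h1 : ∑ P ∈ W, (if P ∈ U then D P else 0) = ∑ P ∈ U, D P := by
    rw [← Finset.sum_filter]
    apply Finset.sum_congr _ (fun _ _ => rfl)
    ext P
    simp only [Finset.mem_filter, hW, Finset.mem_union]
    tauto
  have h2' : ∑ P ∈ W, (if P ∈ Pol then D P else 0) = ∑ P ∈ Pol, D P := by
    rw [← Finset.sum_filter]
    apply Finset.sum_congr _ (fun _ _ => rfl)
    ext P
    simp only [Finset.mem_filter, hW, Finset.mem_union]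
    tauto
  have hP₀Pol : P₀ ∈ Pol := (hPol P₀).mpr hP₀
  have hP₀U : P₀ ∉ U := by
    intro h
    rw [hU, Finset.mem_filter] at h
    exact hT h.2
  have hlt : ∑ P ∈ W, (if P ∈ Pol then D P else 0) < ∑ P ∈ W, (if P ∈ U then D P else 0) := by
    apply Finset.sum_lt_sum
    · intro P _
      by_cases hp : P ∈ Pol <;> by_cases hu : P ∈ U
      · rw [if_pos hp, if_pos hu]
      · rw [if_pos hp, if_neg hu]
        exact ((hPol P).mp hp).le
      · rw [if_neg hp, if_pos hu]
        have := (hPol P).not.mp hp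
        omega
      · rw [if_neg hp, if_neg hu]
    · refine ⟨P₀, ?_, ?_⟩
      · rw [hW, Finset.mem_union]
        exact Or.inr hP₀Pol
      · rw [if_pos hP₀Pol, if_neg hP₀U]
        exact hP₀
  rw [h1, h2', hsU, hsL] at hlt
  omega

end abstract

section adjoin

variable {K F : Type*} [Field K] [Field F] [Algebra K F]

/-- `K(f - a) = K(f)`. -/
theorem RID_adjoin_sub (f : F) (a : K) : K⟮f - algebraMap K F a⟯ = K⟮f⟯ := by
  apply le_antisymm
  · rw [IntermediateField.adjoin_simple_le_iff]
    exact sub_mem (IntermediateField.mem_adjoin_simple_self K f) (IntermediateField.algebraMap_mem _ a)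
  · rw [IntermediateField.adjoin_simple_le_iff]
    have := add_mem (IntermediateField.mem_adjoin_simple_self K (f - algebraMap K F a))
      (IntermediateField.algebraMap_mem K⟮f - algebraMap K F a⟯ a)
    rwa [sub_add_cancel] at this

theorem RID_transcendental_sub {f : F} (hf : Transcendental K f) (a : K) :
    Transcendental K (f - algebraMap K F a) := by
  intro h
  apply hf
  have := h.add (isAlgebraic_algebraMap (R := K) (A := F) a)
  rwa [sub_add_cancel] at this

theorem RID_isSeparable_sub (f : F) (a : K) [h : Algebra.IsSeparable K⟮f⟯ F] :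
    Algebra.IsSeparable K⟮f - algebraMap K F a⟯ F := by
  have e : K⟮f - algebraMap K F a⟯ = K⟮f⟯ := RID_adjoin_sub f a
  exact e ▸ h

theorem RID_finite_sub (f : F) (a : K) [h : FiniteDimensional K⟮f⟯ F] :
    FiniteDimensional K⟮f - algebraMap K F a⟯ F := by
  have e : K⟮f - algebraMap K F a⟯ = K⟮f⟯ := RID_adjoin_sub f a
  exact e ▸ h

theorem RID_finrank_sub (f : F) (a : K) :
    finrank K⟮f - algebraMap K F a⟯ F = finrank K⟮f⟯ F :=
  congrArg (fun E : IntermediateField K F => finrank E F) (RID_adjoin_sub f a)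

theorem RID_finrank_inv (f : F) : finrank K⟮f⁻¹⟯ F = finrank K⟮f⟯ F :=
  congrArg (fun E : IntermediateField K F => finrank E F) (BG_adjoin_inv f)

end adjoin

section spec

variable {L F k Fk : Type*} [Field L] [Field F] [Algebra L F] [Field k] [Field Fk]
  [Algebra k Fk] (S : S18_Spec L F k Fk) [IsAlgClosed L] [IsAlgClosed k]

/-- **centre property** for poles, general form (`yF`, `yk` are names for `(y : F)`, `red y`). -/
theorem RID_center_pole' (y : S.O) (yF : F) (hyF : (y : F) = yF) (yk : Fk) (hyk : S.red y = yk)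
    (hy : Transcendental L yF) [FiniteDimensional L⟮yF⟯ F] [Algebra.IsSeparable L⟮yF⟯ F]
    (hk : Transcendental k yk) [FiniteDimensional k⟮yk⟯ Fk] [Algebra.IsSeparable k⟮yk⟯ Fk]
    (hdeg : finrank L⟮yF⟯ F ≤ finrank k⟮yk⟯ Fk) (P : Place L F) (hP : P.ord yF < 0) :
    (S.r P).ord yk < 0 := by
  subst hyF hyk
  obtain ⟨D, hD, -⟩ := FFS_exists_principal_divisor hy
  have hred : S.red y ≠ 0 := fun h => hk (h ▸ isAlgebraic_zero)
  have h2 := S.mapDomain_div y hred D hD
  have := RID_center_abs S.r D (fun Q => Q.ord (S.red y)) h2 (FFS_poles hy)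
    (fun P => by rw [FFS_mem_poles, hD]) (FFS_poles hk)
    (finrank L⟮(y : F)⟯ F : ℤ) (finrank k⟮S.red y⟯ Fk : ℤ)
    (by rw [← FFS_sum_poles hy]; exact Finset.sum_congr rfl fun P _ => hD P)
    (FFS_sum_poles hk) (by exact_mod_cast hdeg) P (by rw [hD]; exact hP)
  exact (FFS_mem_poles hk _).mp this

/-- **centre property** for zeros, general form. -/
theorem RID_center_zero' (y : S.O) (yF : F) (hyF : (y : F) = yF) (yk : Fk) (hyk : S.red y = yk)
    (hy : Transcendental L yF) [FiniteDimensional L⟮yF⟯ F] [Algebra.IsSeparable L⟮yF⟯ F]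
    (hk : Transcendental k yk) [FiniteDimensional k⟮yk⟯ Fk] [Algebra.IsSeparable k⟮yk⟯ Fk]
    (hdeg : finrank L⟮yF⟯ F ≤ finrank k⟮yk⟯ Fk) (P : Place L F) (hP : 0 < P.ord yF) :
    0 < (S.r P).ord yk := by
  subst hyF hyk
  obtain ⟨D, hD, -⟩ := FFS_exists_principal_divisor hy
  have hred : S.red y ≠ 0 := fun h => hk (h ▸ isAlgebraic_zero)
  have h2 := S.mapDomain_div y hred D hD
  have h2' : ∀ Q, Finsupp.mapDomain S.r (-D) Q = -Q.ord (S.red y) := by
    intro Q
    have h3 : Finsupp.mapDomain S.r (-D) = -Finsupp.mapDomain S.r D :=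
      (Finsupp.mapDomain.addMonoidHom S.r).map_neg D
    rw [h3, Finsupp.neg_apply, h2 Q]
  have := RID_center_abs S.r (-D) (fun Q => -Q.ord (S.red y)) h2' (FFS_zeros hy)
    (fun P => by rw [FFS_mem_zeros, Finsupp.neg_apply, hD]; omega) (FFS_zeros hk)
    (finrank L⟮(y : F)⟯ F : ℤ) (finrank k⟮S.red y⟯ Fk : ℤ)
    (by
      rw [← FFS_sum_zeros hy, ← Finset.sum_neg_distrib]
      exact Finset.sum_congr rfl fun P _ => by rw [Finsupp.neg_apply, hD P])
    (by rw [← FFS_sum_zeros hk, ← Finset.sum_neg_distrib])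
    (by exact_mod_cast hdeg) P (by rw [Finsupp.neg_apply, hD]; omega)
  exact (FFS_mem_zeros hk _).mp this

variable (y : S.O) (hy : Transcendental L (y : F)) [FiniteDimensional L⟮(y : F)⟯ F]
  [Algebra.IsSeparable L⟮(y : F)⟯ F] (hk : Transcendental k (S.red y))
  [FiniteDimensional k⟮S.red y⟯ Fk] [Algebra.IsSeparable k⟮S.red y⟯ Fk]
  (hdeg : finrank L⟮(y : F)⟯ F ≤ finrank k⟮S.red y⟯ Fk)

include hy hk hdeg

/-- **centre property**: poles of `y` specialise to poles of `red y`. -/
theorem RID_center_pole (P : Place L F) (hP : P.ord (y : F) < 0) : (S.r P).ord (S.red y) < 0 :=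
  RID_center_pole' S y _ rfl _ rfl hy hk hdeg P hP

/-- **centre property**: zeros of `y` specialise to zeros of `red y`. -/
theorem RID_center_zero (P : Place L F) (hP : 0 < P.ord (y : F)) : 0 < (S.r P).ord (S.red y) :=
  RID_center_zero' S y _ rfl _ rfl hy hk hdeg P hP

/-- **centre property**: if `y(P) = a ∈ A` then `(red y)(r P) = res a`. -/
theorem RID_center_value (a : L) (ha : a ∈ S.A) (P : Place L F)
    (hP : 0 < P.ord ((y : F) - algebraMap L F a)) :
    0 < (S.r P).ord (S.red y - algebraMap k Fk (S.res ⟨a, ha⟩)) := by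
  have haO : algebraMap L F a ∈ S.O := (S.algebraMap_mem_iff a).mpr ha
  have := RID_isSeparable_sub (K := L) (y : F) a
  have := RID_finite_sub (K := L) (y : F) a
  have := RID_isSeparable_sub (K := k) (S.red y) (S.res ⟨a, ha⟩)
  have := RID_finite_sub (K := k) (S.red y) (S.res ⟨a, ha⟩)
  refine RID_center_zero' S (y - ⟨algebraMap L F a, haO⟩) ((y : F) - algebraMap L F a) rfl
    (S.red y - algebraMap k Fk (S.res ⟨a, ha⟩))
    (by rw [map_sub, S.red_algebraMap a ha haO]) (RID_transcendental_sub hy a)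
    (RID_transcendental_sub hk _) ?_ P hP
  rw [RID_finrank_sub, RID_finrank_sub]
  exact hdeg

/-- if `y(P) = a ∈ A` then `red y` is regular at `r P`. -/
theorem RID_center_regular (a : L) (ha : a ∈ S.A) (P : Place L F)
    (hP : 0 < P.ord ((y : F) - algebraMap L F a)) : 0 ≤ (S.r P).ord (S.red y) := by
  have h1 := RID_center_value S y hy hk hdeg a ha P hP
  by_contra hneg
  rw [not_le] at hneg
  have h2 : (S.r P).adicValuation (S.red y - algebraMap k Fk (S.res ⟨a, ha⟩)) ≤ 1 :=
    (S.r P).adicValuation_le_one_iff.mpr (Or.inr h1.le)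
  have h3 : (S.r P).adicValuation (algebraMap k Fk (S.res ⟨a, ha⟩)) ≤ 1 :=
    (S.r P).adicValuation_algebraMap_le_one _
  have h4 : (S.r P).adicValuation (S.red y) ≤ 1 := by
    have := (Valuation.map_add _ _ _).trans (max_le h2 h3)
    rwa [sub_add_cancel] at this
  have hred : S.red y ≠ 0 := fun h => hk (h ▸ isAlgebraic_zero)
  have := ((S.r P).adicValuation_le_one_iff.mp h4).resolve_left hred
  omega

end spec

end Fermat.Agent.S18
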