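import Mathlib
import Fermat.Agent.S18.NormStep

/-!
# S18, package RI-6 (helper10), part A: a norm which separates two places

Variant of helper24's NORM (`NormExist`, `NormK`, `Norm`, `NormStep`): instead of a function whose
reduction is a uniformizer at one place `Q`, we produce a function whose reduction vanishes at
`Q₁` and does not vanish at `Q₂ ≠ Q₁`.

* `RID_exists_intNorm_sep` (Dedekind core, Mathlib only): `R ⊆ S` Dedekind, `S` finite
  torsion-free over `R`, `q₁ ≠ q₂` maximal ideals of `R`: some `y ∈ S` has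
  `N_{S/R}(y) ∈ q₁ ∖ q₂`.
* `RID_exists_k_sep` (function field form).
* `RID_sep` (lifted through ONTO + `S18_norm_red`).
-/

set_option autoImplicit false

open Ideal Module

namespace Fermat.Agent.S18

section dedekind

variable {R S : Type*} [CommRing R] [IsDedekindDomain R] [CommRing S] [IsDedekindDomain S]
  [Algebra R S] [Module.Finite R S] [Module.IsTorsionFree R S]

/-- **separating norm, Dedekind core**: for maximal ideals `q₁ ≠ q₂` of `R` there is `y ∈ S`
with `N_{S/R}(y) ∈ q₁` and `N_{S/R}(y) ∉ q₂`. -/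
theorem RID_exists_intNorm_sep (q₁ q₂ : Ideal R) [q₁.IsMaximal] [q₂.IsMaximal] (hne : q₁ ≠ q₂) :
    ∃ y : S, Algebra.intNorm R S y ∈ q₁ ∧ Algebra.intNorm R S y ∉ q₂ := by
  classical
  obtain ⟨P₀, hP₀max, hP₀q⟩ := exists_maximal_ideal_liesOver_of_isIntegral (S := S) q₁
  have hP₀prime : P₀.IsPrime := hP₀max.isPrime
  have hfin : (q₂.primesOver S).Finite := IsDedekindDomain.primesOver_finite q₂ S
  -- prime avoidance
  have hav : ¬ ((P₀ : Set S) ⊆ ⋃ i ∈ (↑hfin.toFinset : Set (Ideal S)), (i : Set S)) := by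
    rw [Ideal.subset_union_prime (s := hfin.toFinset) (f := fun i => i) ⊥ ⊥ (fun i hi _ _ => by
      rw [Set.Finite.mem_toFinset] at hi
      exact hi.1)]
    rintro ⟨i, hi, hle⟩
    rw [Set.Finite.mem_toFinset] at hi
    have hi1 : i.IsPrime := hi.1
    have hi2 : i.LiesOver q₂ := hi.2
    have h1 : P₀ = i := hP₀max.eq_of_le hi1.ne_top hle
    apply hne
    rw [hP₀q.over, hi2.over, h1]
  rw [Set.not_subset] at hav
  obtain ⟨y, hyP₀, hy⟩ := hav
  refine ⟨y, ?_, ?_⟩
  · have h1 : span {Algebra.intNorm R S y} ≤ q₁ := by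
      rw [← relNorm_singleton]
      have h2 : relNorm R (span {y}) ≤ relNorm R P₀ := by
        apply relNorm_mono
        rw [span_le, Set.singleton_subset_iff]
        exact hyP₀
      refine h2.trans ?_
      have h3 := relNorm_le_comap R P₀
      rw [hP₀q.over]
      exact h3
    exact h1 (mem_span_singleton_self _)
  · intro hmem
    have h1 : relNorm R (span {y}) ≤ q₂ := by
      rw [relNorm_singleton, span_le, Set.singleton_subset_iff]
      exact hmem
    obtain ⟨P, hP, hPq, hle⟩ := NM_exists_prime_of_relNorm_le q₂ (span {y}) h1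
    apply hy
    rw [Set.mem_iUnion₂]
    refine ⟨P, ?_, hle (mem_span_singleton_self y)⟩
    rw [Finset.mem_coe, Set.Finite.mem_toFinset]
    exact ⟨hP, hPq⟩

end dedekind

end Fermat.Agent.S18

open AlgebraicCurve IntermediateField IsDedekindDomain Module
open scoped IntermediateField.algebraAdjoinAdjoin

namespace Fermat.Agent.S18

open Fermat.Agent.S24 Fermat.Agent.Lib

section abstract

variable {K F F' : Type*} [Field K] [Field F] [Field F'] [Algebra K F] [Algebra F F']
  [Algebra K F'] [IsScalarTower K F F'] [FiniteDimensional F F'] [Algebra.IsSeparable F F']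
  {R : Type*} [CommRing R] [IsDedekindDomain R] [Algebra R F] [IsFractionRing R F]
  [Algebra K R] [IsScalarTower K R F] [Algebra R F'] [IsScalarTower R F F']
  [IsScalarTower K R F']

omit [Algebra F F'] [FiniteDimensional F F'] [Algebra.IsSeparable F F'] [Field F']
  [Algebra K F'] [IsScalarTower K F F'] [Algebra R F'] [IsScalarTower R F F']
  [IsScalarTower K R F'] in
/-- an element of `R` has positive order at the place of `w` iff it lies in `w`. -/
theorem RID_ord_pos_iff (w : HeightOneSpectrum R) (b : R) (hb : b ≠ 0) :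
    0 < (Place.ofHeightOneSpectrum (K := K) (F := F) w).ord (algebraMap R F b) ↔
      b ∈ w.asIdeal := by
  have hb0 : algebraMap R F b ≠ 0 := by
    rw [Ne, map_eq_zero_iff _ (IsFractionRing.injective R F)]
    exact hb
  rw [← BG_mem_nonunits_iff_ord_pos _ hb0]
  exact (BG_mem_asIdeal_iff (K := K) (F := F) w b).symm

omit [Algebra F F'] [FiniteDimensional F F'] [Algebra.IsSeparable F F'] [Field F']
  [Algebra K F'] [IsScalarTower K F F'] [Algebra R F'] [IsScalarTower R F F']
  [IsScalarTower K R F'] in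
/-- an element of `R` outside `w` has order zero at the place of `w`. -/
theorem RID_ord_eq_zero (w : HeightOneSpectrum R) (b : R) (hb : b ∉ w.asIdeal) :
    (Place.ofHeightOneSpectrum (K := K) (F := F) w).ord (algebraMap R F b) = 0 := by
  have hb0 : b ≠ 0 := by
    rintro rfl
    exact hb (zero_mem _)
  have hbF : algebraMap R F b ≠ 0 := by
    rw [Ne, map_eq_zero_iff _ (IsFractionRing.injective R F)]
    exact hb0
  have h1 : ¬ 0 < (Place.ofHeightOneSpectrum (K := K) (F := F) w).ord (algebraMap R F b) := by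
    rw [RID_ord_pos_iff w b hb0]
    exact hb
  have h2 : 0 ≤ (Place.ofHeightOneSpectrum (K := K) (F := F) w).ord (algebraMap R F b) := by
    rw [← BG_mem_iff_ord_nonneg _ hbF, BG_mem_ofHeightOneSpectrum]
    exact w.valuation_le_one b
  omega

omit [IsScalarTower K F F'] [Algebra K F'] [IsScalarTower K R F'] in
/-- **separating norm** over a Dedekind domain `R` with fraction field `F`: for height one primes
`w₁ ≠ w₂` of `R` there is `y ∈ F'`, integral over `R`, whose norm vanishes at `w₁` and is a unit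
at `w₂`. -/
theorem RID_exists_of_prime_sep (w₁ w₂ : HeightOneSpectrum R) (hne : w₁ ≠ w₂) :
    ∃ y : F', IsIntegral R y ∧
      0 < (Place.ofHeightOneSpectrum (K := K) (F := F) w₁).ord (Algebra.norm F y) ∧
      (Place.ofHeightOneSpectrum (K := K) (F := F) w₂).ord (Algebra.norm F y) = 0 := by
  have hinj : Function.Injective (algebraMap R F') := by
    rw [IsScalarTower.algebraMap_eq R F F']
    exact (algebraMap F F').injective.comp (IsFractionRing.injective R F)
  have i0 : Module.IsTorsionFree R F' := isTorsionFree_iff_algebraMap_injective.mpr hinj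
  have i3 : IsDedekindDomain (integralClosure R F') := integralClosure.isDedekindDomain R F F'
  have i4 : IsFractionRing (integralClosure R F') F' :=
    integralClosure.isFractionRing_of_finite_extension F F'
  have i5 : Module.Finite R (integralClosure R F') :=
    IsIntegralClosure.finite R F F' (integralClosure R F')
  have hq₁ : w₁.asIdeal.IsMaximal := w₁.isMaximal
  have hq₂ : w₂.asIdeal.IsMaximal := w₂.isMaximal
  have hne' : w₁.asIdeal ≠ w₂.asIdeal := fun h => hne (HeightOneSpectrum.ext h)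
  obtain ⟨y, hy1, hy2⟩ := RID_exists_intNorm_sep (S := integralClosure R F') w₁.asIdeal
    w₂.asIdeal hne'
  refine ⟨(y : F'), y.2, ?_⟩
  have h := Algebra.algebraMap_intNorm (A := R) (K := F) (L := F') (B := integralClosure R F') y
  have h' : Algebra.norm F (y : F') = algebraMap R F (Algebra.intNorm R (integralClosure R F') y) :=
    h.symm
  rw [h']
  have hn0 : Algebra.intNorm R (integralClosure R F') y ≠ 0 := by
    intro h0
    apply hy2
    rw [h0]
    exact zero_mem _
  exact ⟨(RID_ord_pos_iff w₁ _ hn0).mpr hy1, RID_ord_eq_zero w₂ _ hy2⟩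

end abstract

section places

variable {K F F' : Type*} [Field K] [Field F] [Field F'] [Algebra K F] [Algebra F F']
  [Algebra K F'] [IsScalarTower K F F'] [FiniteDimensional F F'] [Algebra.IsSeparable F F']

/-- **separating norm** (function field form): `F / K(x)` finite separable, `F' / F` finite
separable.  For places `Q₁ ≠ Q₂` of `F` at which `x` is regular there is `w ∈ F'`, regular at
all places of `F'` at which `x` is regular, with `0 < ord_{Q₁} (N w)` and `ord_{Q₂} (N w) = 0`. -/
theorem RID_exists_k_sep {x : F}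
    (hx : Transcendental K x) [FiniteDimensional K⟮x⟯ F] [Algebra.IsSeparable K⟮x⟯ F]
    (Q₁ Q₂ : Place K F) (hQ₁ : 0 ≤ Q₁.ord x) (hQ₂ : 0 ≤ Q₂.ord x) (hne : Q₁ ≠ Q₂) :
    ∃ w : F', (∀ Q' : Place K F', 0 ≤ Q'.ord (algebraMap F F' x) → 0 ≤ Q'.ord w) ∧
      0 < Q₁.ord (Algebra.norm F w) ∧ Q₂.ord (Algebra.norm F w) = 0 := by
  have i1 := FFS_isDedekindDomain hx
  have i2 := BG_isFractionRing (K := K) (x := x)
  have hx0 : x ≠ 0 := fun h => hx (h ▸ isAlgebraic_zero)
  have hxQ₁ : x ∈ Q₁.toValuationSubring := (BG_mem_iff_ord_nonneg Q₁ hx0).mpr hQ₁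
  have hxQ₂ : x ∈ Q₂.toValuationSubring := (BG_mem_iff_ord_nonneg Q₂ hx0).mpr hQ₂
  obtain ⟨w₁, hw₁⟩ := BG_exists_heightOneSpectrum
    (B := integralClosure (Algebra.adjoin K ({x} : Set F)) F) Q₁
    (fun b => BL_mem_of_isIntegral Q₁ hxQ₁ (b := (b : F)) b.2)
  obtain ⟨w₂, hw₂⟩ := BG_exists_heightOneSpectrum
    (B := integralClosure (Algebra.adjoin K ({x} : Set F)) F) Q₂
    (fun b => BL_mem_of_isIntegral Q₂ hxQ₂ (b := (b : F)) b.2)
  have hne' : w₁ ≠ w₂ := by
    rintro rfl
    exact hne (hw₁.symm.trans hw₂)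
  obtain ⟨y, hyint, hy1, hy2⟩ := RID_exists_of_prime_sep (K := K) (F := F) (F' := F')
    (R := integralClosure (Algebra.adjoin K ({x} : Set F)) F) w₁ w₂ hne'
  rw [hw₁] at hy1
  rw [hw₂] at hy2
  refine ⟨y, fun Q' hQ' => ?_, hy1, hy2⟩
  rcases eq_or_ne y 0 with rfl | hy0
  · rw [Place.ord_zero]
  have hx'0 : algebraMap F F' x ≠ 0 := by
    rw [Ne, map_eq_zero]; exact hx0
  have hx'Q' : algebraMap F F' x ∈ Q'.toValuationSubring :=
    (BG_mem_iff_ord_nonneg Q' hx'0).mpr hQ'
  have hxr : x ∈ (Q'.restrict F).toValuationSubring := (Place.mem_restrict_iff Q').mpr hx'Q'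
  refine (BG_mem_iff_ord_nonneg Q' hy0).mp (NM_mem_of_isIntegral Q' (fun b => ?_) hyint)
  have hb : (b : F) ∈ (Q'.restrict F).toValuationSubring :=
    BL_mem_of_isIntegral _ hxr (b := (b : F)) b.2
  exact (Place.mem_restrict_iff Q').mp hb

end places

section lifted

variable {L F k Fk F' Fk' : Type*} [Field L] [Field F] [Field k] [Field Fk] [Field F']
  [Field Fk'] [Algebra L F] [Algebra F F'] [Algebra L F'] [IsScalarTower L F F']
  [Algebra k Fk] [Algebra Fk Fk'] [Algebra k Fk'] [IsScalarTower k Fk Fk']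
  [FiniteDimensional F F'] [FiniteDimensional Fk Fk'] [Algebra.IsSeparable Fk Fk']
  {O : ValuationSubring F} {red : O →+* Fk} {O' : ValuationSubring F'} {red' : O' →+* Fk'}

/-- **RI-6, step A**: for compatible Gauss data on `F ⊆ F'` with `[Fk':Fk] = [F':F]`, ONTO on `F'`
in the chart `j` gives, for places `Q₁ ≠ Q₂` of `Fk` at which `j̄ = red j` is regular, a function
`n ∈ O` which is regular wherever `j` is regular and whose reduction vanishes at `Q₁` and is a
unit at `Q₂`. -/
theorem RID_sep (hd : S18_NormData O red O' red')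
    (hdeg : finrank Fk Fk' = finrank F F') (j : O)
    (hj' : Transcendental L (algebraMap F F' (j : F)))
    [FiniteDimensional L⟮algebraMap F F' (j : F)⟯ F']
    [Algebra.IsSeparable L⟮algebraMap F F' (j : F)⟯ F']
    (hjk : Transcendental k (red j)) [FiniteDimensional k⟮red j⟯ Fk]
    [Algebra.IsSeparable k⟮red j⟯ Fk]
    (hONTO : ∀ w : Fk',
      (∀ Q' : Place k Fk', 0 ≤ Q'.ord (algebraMap Fk Fk' (red j)) → 0 ≤ Q'.ord w) →
      ∃ f : O', (∀ P' : Place L F', 0 ≤ P'.ord (algebraMap F F' (j : F)) → 0 ≤ P'.ord (f : F')) ∧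
        red' f = w)
    (Q₁ Q₂ : Place k Fk) (hQ₁ : 0 ≤ Q₁.ord (red j)) (hQ₂ : 0 ≤ Q₂.ord (red j))
    (hne : Q₁ ≠ Q₂) :
    ∃ n : O, (∀ P : Place L F, 0 ≤ P.ord (j : F) → 0 ≤ P.ord (n : F)) ∧
      0 < Q₁.ord (red n) ∧ Q₂.ord (red n) = 0 := by
  obtain ⟨w, hw, hw1, hw2⟩ := RID_exists_k_sep (K := k) (F := Fk) (F' := Fk') hjk Q₁ Q₂ hQ₁ hQ₂ hne
  obtain ⟨f, hfreg, hfw⟩ := hONTO w hw
  obtain ⟨hmem, hred⟩ := S18_norm_red hd hdeg f
  refine ⟨⟨Algebra.norm F (f : F'), hmem⟩, fun P hP => ?_, ?_, ?_⟩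
  · exact NM_regular_of_isIntegral (j : F) _
      (NM_isIntegral_norm (j : F) (f : F')
        (S18_semi_isIntegral_of_regular hj' (f : F') hfreg)) P hP
  · rw [hred, hfw]
    exact hw1
  · rw [hred, hfw]
    exact hw2

end lifted

end Fermat.Agent.S18
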