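import Mathlib
import Fermat.Agent.S18.RiDescSep
import Fermat.Agent.S18.RiDescCenter
import Fermat.Agent.S18.FinalA
import Fermat.Agent.Lib.RiemannBasic
import Fermat.Agent.S24.ResidueField

/-!
# S18, package RI-6 (helper10), part C: descent of the specialisation map `F' → F`

Setting: function fields `E ⊆ E'` over `L`, `Ek ⊆ Ek'` over `k` (`L`, `k` algebraically closed),
a specialisation datum `S' : S18_Spec L E' k Ek'` on the big field (output of RI-5) and a
valuation ring `O ⊂ E` with residue map `red : O → Ek` compatible with `S'`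
(`hd : S18_NormData O red S'.O S'.red`), degree preservation `[Ek':Ek] = [E':E]`, a chart
`x ∈ O` (and its inverse `xi`) with ONTO on `E'`.

* `RID_restrict_eq_of_chart` : in one chart, two places of `E'` over the same place of `E` whose
  common value of the chart function lies in `A` have specialisations with the same restriction
  to `Ek`.
* `RID_exists_r` : the descended map `r : Pl(E) → Pl(Ek)`, `r (P'|E) = (r' P')|Ek`, with (2):
  `r_*(div u) = div (red u)` for units `u` of `O`.
-/

set_option autoImplicit false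

open AlgebraicCurve IntermediateField Module

namespace Fermat.Agent.S18

open Fermat.Agent.S24 Fermat.Agent.Lib

section ord

variable {K F F' : Type*} [Field K] [Field F] [Field F'] [Algebra K F] [Algebra K F']
  [Algebra F F'] [IsScalarTower K F F'] [Algebra.IsIntegral F F']

theorem RID_ord_pos_restrict (w : Place K F') (f : F) :
    0 < w.ord (algebraMap F F' f) ↔ 0 < (w.restrict F).ord f := by
  rw [w.ord_restrict f]
  have he : (0 : ℤ) < (w.ramificationIndex F : ℤ) := by
    exact_mod_cast w.ramificationIndex_pos (F := F)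
  exact mul_pos_iff_of_pos_left he

theorem RID_ord_nonneg_restrict (w : Place K F') (f : F) :
    0 ≤ w.ord (algebraMap F F' f) ↔ 0 ≤ (w.restrict F).ord f := by
  rw [w.ord_restrict f]
  have he : (0 : ℤ) < (w.ramificationIndex F : ℤ) := by
    exact_mod_cast w.ramificationIndex_pos (F := F)
  exact mul_nonneg_iff_of_pos_left he

theorem RID_ord_eq_zero_restrict (w : Place K F') (f : F) :
    w.ord (algebraMap F F' f) = 0 ↔ (w.restrict F).ord f = 0 := by
  rw [w.ord_restrict f]
  have he : (0 : ℤ) < (w.ramificationIndex F : ℤ) := by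
    exact_mod_cast w.ramificationIndex_pos (F := F)
  rw [mul_eq_zero]
  constructor
  · rintro (h | h)
    · omega
    · exact h
  · exact fun h => Or.inr h

omit [Algebra K F] [IsScalarTower K F F'] [Algebra.IsIntegral F F'] [Field F] [Algebra F F'] in
theorem RID_ord_pos_of_val_lt (v : Place K F') {f : F'} (hf : f ≠ 0)
    (h : v.adicValuation f < 1) : 0 < v.ord f := by
  rw [v.adicValuation_eq_exp_neg_ord hf, ← WithZero.exp_zero, WithZero.exp_lt_exp] at h
  omega

end ord

section chart

variable {L E E' k Ek Ek' : Type*} [Field L] [Field E] [Field E'] [Field k] [Field Ek]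
  [Field Ek'] [Algebra L E] [Algebra E E'] [Algebra L E'] [IsScalarTower L E E']
  [Algebra k Ek] [Algebra Ek Ek'] [Algebra k Ek'] [IsScalarTower k Ek Ek']
  [FiniteDimensional E E'] [FiniteDimensional Ek Ek'] [Algebra.IsSeparable Ek Ek']
  [IsAlgClosed L] [IsAlgClosed k]

/-- **RI-6, one chart**: two places of `E'` over the same place of `E`, at which the chart
function `j` takes a value `a ∈ A`, have specialisations with the same restriction to `Ek`. -/
theorem RID_restrict_eq_of_chart (S' : S18_Spec L E' k Ek') {O : ValuationSubring E}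
    {red : O →+* Ek} (hd : S18_NormData O red S'.O S'.red)
    (hdeg : finrank Ek Ek' = finrank E E') [HasPrincipalDivisors L E']
    (j : O) (j' : S'.O) (hjj' : (j' : E') = algebraMap E E' (j : E))
    (hj' : Transcendental L (j' : E')) [FiniteDimensional L⟮(j' : E')⟯ E']
    [Algebra.IsSeparable L⟮(j' : E')⟯ E']
    (hjk' : Transcendental k (S'.red j')) [FiniteDimensional k⟮S'.red j'⟯ Ek']
    [Algebra.IsSeparable k⟮S'.red j'⟯ Ek']
    (hdegj : finrank L⟮(j' : E')⟯ E' ≤ finrank k⟮S'.red j'⟯ Ek')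
    [FiniteDimensional k⟮red j⟯ Ek] [Algebra.IsSeparable k⟮red j⟯ Ek]
    (hONTO : ∀ w : Ek', (∀ Q' : Place k Ek', 0 ≤ Q'.ord (S'.red j') → 0 ≤ Q'.ord w) →
      ∃ f : S'.O, (∀ P' : Place L E', 0 ≤ P'.ord (j' : E') → 0 ≤ P'.ord (f : E')) ∧
        S'.red f = w)
    (P₁ P₂ : Place L E') (hP : P₁.restrict E = P₂.restrict E)
    (a : L) (ha : a ∈ S'.A) (hval : 0 < P₁.ord ((j' : E') - algebraMap L E' a)) :
    (S'.r P₁).restrict Ek = (S'.r P₂).restrict Ek := by
  classical
  have hjeq : j' = hd.incl j := Subtype.ext hjj'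
  have hred : S'.red j' = algebraMap Ek Ek' (red j) := by rw [hjeq]; exact hd.red'_incl j
  have hjk : Transcendental k (red j) := by
    intro h
    apply hjk'
    rw [hred]
    exact h.algebraMap
  -- the value at `P₂`
  have hsub : (j' : E') - algebraMap L E' a = algebraMap E E' ((j : E) - algebraMap L E a) := by
    rw [map_sub, ← IsScalarTower.algebraMap_apply, hjj']
  have hval₂ : 0 < P₂.ord ((j' : E') - algebraMap L E' a) := by
    rw [hsub, RID_ord_pos_restrict] at hval ⊢
    rwa [← hP]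
  -- regularity of `red j'` at the images
  have hreg₁ : 0 ≤ (S'.r P₁).ord (S'.red j') :=
    RID_center_regular S' j' hj' hjk' hdegj a ha P₁ hval
  have hreg₂ : 0 ≤ (S'.r P₂).ord (S'.red j') :=
    RID_center_regular S' j' hj' hjk' hdegj a ha P₂ hval₂
  by_contra hne
  have hQ₁ : 0 ≤ ((S'.r P₁).restrict Ek).ord (red j) := by
    rw [← RID_ord_nonneg_restrict, ← hred]
    exact hreg₁
  have hQ₂ : 0 ≤ ((S'.r P₂).restrict Ek).ord (red j) := by
    rw [← RID_ord_nonneg_restrict, ← hred]
    exact hreg₂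
  have i1 : FiniteDimensional L⟮algebraMap E E' (j : E)⟯ E' := by
    rw [← hjj']; infer_instance
  have i2 : Algebra.IsSeparable L⟮algebraMap E E' (j : E)⟯ E' := by
    rw [← hjj']; infer_instance
  obtain ⟨n, hnreg, hn1, hn2⟩ := RID_sep hd hdeg j (by rw [← hjj']; exact hj') hjk
    (by rw [← hred, ← hjj']; exact hONTO) _ _ hQ₁ hQ₂ hne
  -- `n` as an element of `O'`
  set n' : S'.O := hd.incl n with hn'
  have hn'red : S'.red n' = algebraMap Ek Ek' (red n) := hd.red'_incl n
  have hn'coe : (n' : E') = algebraMap E E' (n : E) := rfl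
  have hredn0 : red n ≠ 0 := by
    intro h
    rw [h, Place.ord_zero] at hn1
    exact lt_irrefl _ hn1
  have hn'0 : S'.red n' ≠ 0 := by
    rw [hn'red, Ne, map_eq_zero]
    exact hredn0
  have hord₁ : 0 < (S'.r P₁).ord (S'.red n') := by
    rw [hn'red, RID_ord_pos_restrict]
    exact hn1
  have hord₂ : (S'.r P₂).ord (S'.red n') = 0 := by
    rw [hn'red, RID_ord_eq_zero_restrict]
    exact hn2
  have hn'reg : ∀ P : Place L E', 0 ≤ P.ord (j' : E') → 0 ≤ P.ord (n' : E') := by
    intro P hPj
    rw [hn'coe, RID_ord_nonneg_restrict]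
    apply hnreg
    rw [← RID_ord_nonneg_restrict, ← hjj']
    exact hPj
  have hdisc : ∀ Q' : Place k Ek', 0 ≤ Q'.ord (S'.red j') →
      ∀ P, S'.r P = Q' → 0 ≤ P.ord (n' : E') := by
    intro Q' hQ' P hPQ
    apply hn'reg
    by_contra hneg
    rw [not_le] at hneg
    have := RID_center_pole S' j' hj' hjk' hdegj P hneg
    rw [hPQ] at this
    omega
  -- the value `b` of `n` at `P₁`
  have hE' : S24_IsFunctionField1 L E' :=
    S24_isFunctionField1_of_isAlgebraic (j' : E') (Algebra.IsAlgebraic.of_finite _ _)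
  have hdeg1 : P₁.deg = 1 := S24_deg_eq_one hE' P₁
  have hn'v : P₁.adicValuation (n' : E') ≤ 1 :=
    P₁.adicValuation_le_one_iff.mpr (Or.inr (hdisc _ hreg₁ P₁ rfl))
  obtain ⟨b, hb⟩ := RR_exists_const P₁ hdeg1 hn'v
  have hnb : (n' : E') - algebraMap L E' b ≠ 0 := by
    intro h0
    have hnb' : (n' : E') = algebraMap L E' b := sub_eq_zero.mp h0
    have hbO : algebraMap L E' b ∈ S'.O := hnb' ▸ n'.2
    have hbA : b ∈ S'.A := (S'.algebraMap_mem_iff b).mp hbO
    have h3 : S'.red n' = algebraMap k Ek' (S'.res ⟨b, hbA⟩) := by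
      rw [← S'.red_algebraMap b hbA hbO]
      congr 1
      exact Subtype.ext hnb'
    rw [h3, S18_Spec.ord_algebraMap] at hord₁
    exact lt_irrefl _ hord₁
  have hb₁ : 0 < P₁.ord ((n' : E') - algebraMap L E' b) := RID_ord_pos_of_val_lt P₁ hnb hb
  have hsubn : (n' : E') - algebraMap L E' b =
      algebraMap E E' ((n : E) - algebraMap L E b) := by
    rw [map_sub, ← IsScalarTower.algebraMap_apply, hn'coe]
  have hb₂ : 0 < P₂.ord ((n' : E') - algebraMap L E' b) := by
    rw [hsubn, RID_ord_pos_restrict] at hb₁ ⊢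
    rwa [← hP]
  obtain ⟨hbA, h1⟩ := S'.value_reduction inferInstance n' (S'.r P₁) (hdisc _ hreg₁) P₁ rfl b hb₁
  obtain ⟨_, h2⟩ := S'.value_reduction inferInstance n' (S'.r P₂) (hdisc _ hreg₂) P₂ rfl b hb₂
  have hres0 : S'.res ⟨b, hbA⟩ = 0 := by
    by_contra hc
    rcases h1 with h1 | h1
    · rw [h1, S18_Spec.ord_algebraMap] at hord₁
      exact lt_irrefl _ hord₁
    · have := S18_ord_sub_const_le (S'.r P₁) hord₁ hc
      omega
  rw [hres0, map_zero, sub_zero] at h2
  rcases h2 with h2 | h2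
  · exact hn'0 h2
  · omega

end chart

section pushpull

variable {K F F' : Type*} [Field K] [Field F] [Field F'] [Algebra K F] [Algebra K F']
  [Algebra F F'] [IsScalarTower K F F'] [Algebra.IsIntegral F F'] [HasPrincipalDivisors K F']

/-- `restrict_* (pullback D) = m • D` if `∑_{w | v} e(w | v) = m` for all `v`. -/
theorem RID_mapDomain_pullback (m : ℤ)
    (hFI : ∀ v : Place K F, ∑ w ∈ v.fiber F', (w.ramificationIndex F : ℤ) = m)
    (D : Divisor K F) :
    Finsupp.mapDomain (fun w : Place K F' => w.restrict F) (Divisor.pullback F' D) = m • D := by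
  classical
  induction D using Finsupp.induction with
  | zero => simp
  | single_add v n D _ _ ih =>
    rw [map_add, Finsupp.mapDomain_add, ih, smul_add]
    congr 1
    rw [Divisor.pullback_single, Finsupp.mapDomain_finsetSum]
    have h1 : ∀ w ∈ v.fiber F', Finsupp.mapDomain (fun w : Place K F' => w.restrict F)
        (Finsupp.single w (n * (w.ramificationIndex F : ℤ))) =
        Finsupp.single v (n * (w.ramificationIndex F : ℤ)) := by
      intro w hw
      rw [Finsupp.mapDomain_single, Place.mem_fiber.mp hw]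
    rw [Finset.sum_congr rfl h1, ← Finsupp.single_finsetSum, ← Finset.mul_sum, hFI v,
      Finsupp.smul_single, smul_eq_mul, mul_comm]

end pushpull

section main

variable {L E E' k Ek Ek' : Type*} [Field L] [Field E] [Field E'] [Field k] [Field Ek]
  [Field Ek'] [Algebra L E] [Algebra E E'] [Algebra L E'] [IsScalarTower L E E']
  [Algebra k Ek] [Algebra Ek Ek'] [Algebra k Ek'] [IsScalarTower k Ek Ek']
  [FiniteDimensional E E'] [FiniteDimensional Ek Ek'] [Algebra.IsSeparable Ek Ek']
  [IsAlgClosed L] [IsAlgClosed k]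

/-- **RI-6, well-definedness**: places of `E'` over the same place of `E` have specialisations
with the same restriction to `Ek`. -/
theorem RID_restrict_eq (S' : S18_Spec L E' k Ek') {O : ValuationSubring E}
    {red : O →+* Ek} (hd : S18_NormData O red S'.O S'.red)
    (hdeg : finrank Ek Ek' = finrank E E') [HasPrincipalDivisors L E']
    (x xi : O) (hxi : xi * x = 1) (x' xi' : S'.O)
    (hxx' : (x' : E') = algebraMap E E' (x : E)) (hxixi' : (xi' : E') = algebraMap E E' (xi : E))
    (hx' : Transcendental L (x' : E')) [FiniteDimensional L⟮(x' : E')⟯ E']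
    [Algebra.IsSeparable L⟮(x' : E')⟯ E']
    (hxk' : Transcendental k (S'.red x')) [FiniteDimensional k⟮S'.red x'⟯ Ek']
    [Algebra.IsSeparable k⟮S'.red x'⟯ Ek']
    (hdegx : finrank L⟮(x' : E')⟯ E' ≤ finrank k⟮S'.red x'⟯ Ek')
    [FiniteDimensional k⟮red x⟯ Ek] [Algebra.IsSeparable k⟮red x⟯ Ek]
    (hONTO : ∀ w : Ek', (∀ Q' : Place k Ek', 0 ≤ Q'.ord (S'.red x') → 0 ≤ Q'.ord w) →
      ∃ f : S'.O, (∀ P' : Place L E', 0 ≤ P'.ord (x' : E') → 0 ≤ P'.ord (f : E')) ∧
        S'.red f = w)
    (hONTOi : ∀ w : Ek', (∀ Q' : Place k Ek', 0 ≤ Q'.ord (S'.red xi') → 0 ≤ Q'.ord w) →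
      ∃ f : S'.O, (∀ P' : Place L E', 0 ≤ P'.ord (xi' : E') → 0 ≤ P'.ord (f : E')) ∧
        S'.red f = w)
    (P₁ P₂ : Place L E') (hP : P₁.restrict E = P₂.restrict E) :
    (S'.r P₁).restrict Ek = (S'.r P₂).restrict Ek := by
  classical
  have hx'0 : (x' : E') ≠ 0 := fun h => hx' (h ▸ isAlgebraic_zero)
  -- the inverse chart
  have hxiE : (xi : E) * (x : E) = 1 := by
    have := congrArg (fun z : O => (z : E)) hxi
    simpa using this
  have hxi'x' : (xi' : E') * (x' : E') = 1 := by
    rw [hxx', hxixi', ← map_mul, hxiE, map_one]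
  have hxi'inv : (xi' : E') = (x' : E')⁻¹ := eq_inv_of_mul_eq_one_left hxi'x'
  have hxi'S : xi' * x' = 1 := Subtype.ext hxi'x'
  have hredxi' : S'.red xi' = (S'.red x')⁻¹ := by
    apply eq_inv_of_mul_eq_one_left
    rw [← map_mul, hxi'S, map_one]
  have hredxi : red xi = (red x)⁻¹ := by
    apply eq_inv_of_mul_eq_one_left
    rw [← map_mul, hxi, map_one]
  have hxi'tr : Transcendental L (xi' : E') := by
    rw [hxi'inv]; exact BG_transcendental_inv hx'
  have hxik'tr : Transcendental k (S'.red xi') := by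
    rw [hredxi']; exact BG_transcendental_inv hxk'
  have i1 : FiniteDimensional L⟮(xi' : E')⟯ E' := by
    rw [hxi'inv]; exact FFS_finite_inv (K := L) (x' : E')
  have i2 : Algebra.IsSeparable L⟮(xi' : E')⟯ E' := by
    rw [hxi'inv]; exact FFS_isSeparable_inv (K := L) (x' : E')
  have i3 : FiniteDimensional k⟮S'.red xi'⟯ Ek' := by
    rw [hredxi']; exact FFS_finite_inv (K := k) (S'.red x')
  have i4 : Algebra.IsSeparable k⟮S'.red xi'⟯ Ek' := by
    rw [hredxi']; exact FFS_isSeparable_inv (K := k) (S'.red x')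
  have i5 : FiniteDimensional k⟮red xi⟯ Ek := by
    rw [hredxi]; exact FFS_finite_inv (K := k) (red x)
  have i6 : Algebra.IsSeparable k⟮red xi⟯ Ek := by
    rw [hredxi]; exact FFS_isSeparable_inv (K := k) (red x)
  have hdegxi : finrank L⟮(xi' : E')⟯ E' ≤ finrank k⟮S'.red xi'⟯ Ek' := by
    have e1 : finrank L⟮(xi' : E')⟯ E' = finrank L⟮(x' : E')⟯ E' := by
      rw [hxi'inv]; exact RID_finrank_inv _
    have e2 : finrank k⟮S'.red xi'⟯ Ek' = finrank k⟮S'.red x'⟯ Ek' := by
      rw [hredxi']; exact RID_finrank_inv _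
    rw [e1, e2]
    exact hdegx
  have hE' : S24_IsFunctionField1 L E' :=
    S24_isFunctionField1_of_isAlgebraic (x' : E') (Algebra.IsAlgebraic.of_finite _ _)
  have hdeg1 : P₁.deg = 1 := S24_deg_eq_one hE' P₁
  by_cases hpole : P₁.ord (x' : E') < 0
  · -- pole of `x`: chart `xi`, value `0`
    refine RID_restrict_eq_of_chart S' hd hdeg xi xi' hxixi' hxi'tr hxik'tr hdegxi hONTOi P₁ P₂ hP
      0 S'.A.zero_mem ?_
    rw [map_zero, sub_zero, hxi'inv, Place.ord_inv]
    omega
  · rw [not_lt] at hpole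
    have hv : P₁.adicValuation (x' : E') ≤ 1 := P₁.adicValuation_le_one_iff.mpr (Or.inr hpole)
    obtain ⟨c, hc⟩ := RR_exists_const P₁ hdeg1 hv
    have hxc : (x' : E') - algebraMap L E' c ≠ 0 := fun h =>
      RID_transcendental_sub hx' c (h ▸ isAlgebraic_zero)
    have hcpos : 0 < P₁.ord ((x' : E') - algebraMap L E' c) := RID_ord_pos_of_val_lt P₁ hxc hc
    by_cases hcA : c ∈ S'.A
    · exact RID_restrict_eq_of_chart S' hd hdeg x x' hxx' hx' hxk' hdegx hONTO P₁ P₂ hP c hcA
        hcpos
    · have hc0 : c ≠ 0 := fun h => hcA (h ▸ S'.A.zero_mem)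
      have hciA : c⁻¹ ∈ S'.A := (S'.A.mem_or_inv_mem c).resolve_left hcA
      refine RID_restrict_eq_of_chart S' hd hdeg xi xi' hxixi' hxi'tr hxik'tr hdegxi hONTOi P₁ P₂
        hP c⁻¹ hciA ?_
      have hcE : algebraMap L E' c ≠ 0 := by rwa [Ne, map_eq_zero]
      have hord0 : P₁.ord (x' : E') = 0 := by
        have h1 : ¬ 0 < P₁.ord (x' : E') := fun h => by
          have := S18_ord_sub_const_le P₁ h hc0
          omega
        omega
      have hid : (xi' : E') - algebraMap L E' c⁻¹ =
          -((x' : E') - algebraMap L E' c) * ((x' : E')⁻¹ * (algebraMap L E' c)⁻¹) := by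
        rw [hxi'inv, map_inv₀]
        field_simp
        ring
      rw [hid, P₁.ord_mul (neg_ne_zero.mpr hxc)
        (mul_ne_zero (inv_ne_zero hx'0) (inv_ne_zero hcE)), S18_ord_neg,
        P₁.ord_mul (inv_ne_zero hx'0) (inv_ne_zero hcE), Place.ord_inv, Place.ord_inv, hord0,
        S18_Spec.ord_algebraMap]
      omega

/-- **RI-6** (descent of the specialisation map): the map `r' : Pl(E') → Pl(Ek')` of a
specialisation datum on `E'` descends to `r : Pl(E) → Pl(Ek)`, and `r` satisfies (2) for the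
valuation ring `O = O' ∩ E`. -/
theorem RID_exists_r (S' : S18_Spec L E' k Ek') {O : ValuationSubring E}
    {red : O →+* Ek} (hd : S18_NormData O red S'.O S'.red)
    (hdeg : finrank Ek Ek' = finrank E E')
    [HasPrincipalDivisors L E'] [HasPrincipalDivisors k Ek'] [HasPrincipalDivisors k Ek]
    (hFI : ∀ P : Place L E, ∑ P' ∈ P.fiber E', (P'.ramificationIndex E : ℤ) = finrank E E')
    (hFIk : ∀ Q : Place k Ek, ∑ Q' ∈ Q.fiber Ek', (Q'.ramificationIndex Ek : ℤ) = finrank Ek Ek')
    (x xi : O) (hxi : xi * x = 1) (x' xi' : S'.O)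
    (hxx' : (x' : E') = algebraMap E E' (x : E)) (hxixi' : (xi' : E') = algebraMap E E' (xi : E))
    (hx' : Transcendental L (x' : E')) [FiniteDimensional L⟮(x' : E')⟯ E']
    [Algebra.IsSeparable L⟮(x' : E')⟯ E']
    (hxk' : Transcendental k (S'.red x')) [FiniteDimensional k⟮S'.red x'⟯ Ek']
    [Algebra.IsSeparable k⟮S'.red x'⟯ Ek']
    (hdegx : finrank L⟮(x' : E')⟯ E' ≤ finrank k⟮S'.red x'⟯ Ek')
    [FiniteDimensional k⟮red x⟯ Ek] [Algebra.IsSeparable k⟮red x⟯ Ek]
    (hONTO : ∀ w : Ek', (∀ Q' : Place k Ek', 0 ≤ Q'.ord (S'.red x') → 0 ≤ Q'.ord w) →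
      ∃ f : S'.O, (∀ P' : Place L E', 0 ≤ P'.ord (x' : E') → 0 ≤ P'.ord (f : E')) ∧
        S'.red f = w)
    (hONTOi : ∀ w : Ek', (∀ Q' : Place k Ek', 0 ≤ Q'.ord (S'.red xi') → 0 ≤ Q'.ord w) →
      ∃ f : S'.O, (∀ P' : Place L E', 0 ≤ P'.ord (xi' : E') → 0 ≤ P'.ord (f : E')) ∧
        S'.red f = w) :
    ∃ r : Place L E → Place k Ek, (∀ P, (r P).deg = P.deg) ∧
      (∀ u : O, red u ≠ 0 → ∀ D : Divisor L E, (∀ P, D P = P.ord (u : E)) →
        ∀ Q, Finsupp.mapDomain r D Q = Q.ord (red u)) ∧
      ∀ P' : Place L E', r (P'.restrict E) = (S'.r P').restrict Ek := by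
  classical
  have hmpos : 0 < finrank E E' := finrank_pos
  have hsurj : ∀ P : Place L E, ∃ P' : Place L E', P'.restrict E = P := by
    intro P
    have hne : (P.fiber E').Nonempty := by
      by_contra h
      rw [Finset.not_nonempty_iff_eq_empty] at h
      have := hFI P
      rw [h, Finset.sum_empty] at this
      omega
    obtain ⟨P', hP'⟩ := hne
    exact ⟨P', Place.mem_fiber.mp hP'⟩
  have hwd := RID_restrict_eq S' hd hdeg x xi hxi x' xi' hxx' hxixi' hx' hxk' hdegx hONTO hONTOi
  set r : Place L E → Place k Ek := fun P => (S'.r (hsurj P).choose).restrict Ek with hr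
  have hcompat : ∀ P' : Place L E', r (P'.restrict E) = (S'.r P').restrict Ek := fun P' =>
    hwd _ _ (hsurj (P'.restrict E)).choose_spec
  have hE' : S24_IsFunctionField1 L E' :=
    S24_isFunctionField1_of_isAlgebraic (x' : E') (Algebra.IsAlgebraic.of_finite _ _)
  refine ⟨r, fun P => ?_, fun u hu D hD Q => ?_, hcompat⟩
  · obtain ⟨P', rfl⟩ := hsurj P
    rw [hcompat P']
    have h1 : P'.deg = 1 := S24_deg_eq_one hE' P'
    have h2 : (S'.r P').deg = 1 := by rw [S'.deg_r, h1]
    have h3 := P'.deg_restrict_mul_inertiaDeg (F := E)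
    have h4 := (S'.r P').deg_restrict_mul_inertiaDeg (F := Ek)
    rw [h1] at h3
    rw [h2] at h4
    rw [Nat.eq_one_of_mul_eq_one_right h3, Nat.eq_one_of_mul_eq_one_right h4]
  · have hm : (finrank E E' : ℤ) ≠ 0 := by omega
    set D' := Divisor.pullback E' D with hD'def
    have hD' : ∀ P', D' P' = P'.ord ((hd.incl u : S'.O) : E') := fun P' =>
      Divisor.pullback_apply_eq_ord hD P'
    have hu' : S'.red (hd.incl u) ≠ 0 := by
      rw [hd.red'_incl, Ne, map_eq_zero]
      exact hu
    have h2' := S'.mapDomain_div (hd.incl u) hu' D' hD'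
    obtain ⟨Dk, hDk, -⟩ := HasPrincipalDivisors.exists_divisor (K := k) (red u) hu
    have hpull : Finsupp.mapDomain S'.r D' = Divisor.pullback Ek' Dk := by
      ext Q'
      rw [h2' Q', hd.red'_incl, Divisor.pullback_apply_eq_ord hDk]
    have hcomp : (fun Q' : Place k Ek' => Q'.restrict Ek) ∘ S'.r =
        r ∘ (fun P' : Place L E' => P'.restrict E) := by
      funext P'
      exact (hcompat P').symm
    have h3 : Finsupp.mapDomain r ((finrank E E' : ℤ) • D) = (finrank Ek Ek' : ℤ) • Dk := by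
      rw [← RID_mapDomain_pullback _ hFI D, ← Finsupp.mapDomain_comp, ← hcomp,
        Finsupp.mapDomain_comp, hpull, RID_mapDomain_pullback _ hFIk Dk]
    have h4 := DFunLike.congr_fun h3 Q
    rw [Finsupp.mapDomain_smul, Finsupp.smul_apply, Finsupp.smul_apply, hdeg, hDk, smul_eq_mul,
      smul_eq_mul] at h4
    exact mul_left_cancel₀ hm h4

end main

end Fermat.Agent.S18
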