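import Mathlib
import Fermat.Agent.S18.RiDesc

/-!
# S18, package RI-6 (helper10), part D: the fundamental identity `∑_{w | v} e(w | v) = [F' : F]`

`K` algebraically closed, `F / K(x)` finite separable, `F' / F` finite separable.

* `RID_FI_of_prime` : Dedekind form (`R` Dedekind with fraction field `F`, `v` the place of a
  height one prime of `R`), from Mathlib's `Ideal.sum_ramification_inertia_eq_finrank` and the
  dictionary places ↔ height one primes of S24 (helper13).
* `RID_FI` : `∑ w ∈ v.fiber F', e(w | v) = [F' : F]` for every place `v` of `F`.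
* `RID_fundamentalIdentity` : the Prelude class `FundamentalIdentity K F F'`.
* `RID_exists_r'` : `RID_exists_r` without the hypotheses `hFI`, `hFIk`.
-/

set_option autoImplicit false

open AlgebraicCurve IntermediateField IsDedekindDomain Module
open scoped IntermediateField.algebraAdjoinAdjoin

namespace Fermat.Agent.S18

open Fermat.Agent.S24 Fermat.Agent.Lib

section abstract

variable {K F : Type*} [Field K] [Field F] [Algebra K F]
  {B : Type*} [CommRing B] [IsDedekindDomain B] [Algebra B F] [IsFractionRing B F]
  [Algebra K B] [IsScalarTower K B F]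

/-- membership in a power of a height one prime in terms of `ord`. -/
theorem RID_mem_pow_iff (w : HeightOneSpectrum B) (b : B) (n : ℕ) :
    b ∈ w.asIdeal ^ n ↔
      b = 0 ∨ (n : ℤ) ≤ (Place.ofHeightOneSpectrum (K := K) (F := F) w).ord (algebraMap B F b) := by
  rcases eq_or_ne b 0 with rfl | hb
  · simp
  rw [or_iff_right hb, ← w.intValuation_le_pow_iff_mem, BG_ord_ofHeightOneSpectrum,
    HeightOneSpectrum.valuation_of_algebraMap]
  have h0 : w.intValuation b ≠ 0 := w.intValuation_ne_zero b hb
  rw [← WithZero.log_le_log h0 WithZero.exp_ne_zero, WithZero.log_exp]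
  omega

/-- a uniformizer in `B`. -/
theorem RID_exists_uniformizer (w : HeightOneSpectrum B) :
    ∃ π : B, (Place.ofHeightOneSpectrum (K := K) (F := F) w).ord (algebraMap B F π) = 1 := by
  obtain ⟨π, hπ⟩ := w.intValuation_exists_uniformizer
  refine ⟨π, ?_⟩
  rw [BG_ord_ofHeightOneSpectrum, HeightOneSpectrum.valuation_of_algebraMap, hπ, WithZero.log_exp]
  omega

end abstract

section relative

variable {K F F' : Type*} [Field K] [Field F] [Field F'] [Algebra K F] [Algebra F F']
  [Algebra K F'] [IsScalarTower K F F'] [FiniteDimensional F F'] [Algebra.IsSeparable F F']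
  {R : Type*} [CommRing R] [IsDedekindDomain R] [Algebra R F] [IsFractionRing R F]
  [Algebra K R] [IsScalarTower K R F] [Algebra R F'] [IsScalarTower R F F']
  [IsScalarTower K R F']

/-- **fundamental identity**, Dedekind form: for the place `v` of a height one prime of `R`,
`∑_{w | v} e(w | v) = [F' : F]`. -/
theorem RID_FI_of_prime [IsAlgClosed K] [HasPrincipalDivisors K F']
    (hF' : S24_IsFunctionField1 K F') (p : HeightOneSpectrum R) :
    ∑ w ∈ (Place.ofHeightOneSpectrum (K := K) (F := F) p).fiber F',
      (w.ramificationIndex F : ℤ) = (finrank F F' : ℤ) := by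
  classical
  have hinj : Function.Injective (algebraMap R F') := by
    rw [IsScalarTower.algebraMap_eq R F F']
    exact (algebraMap F F').injective.comp (IsFractionRing.injective R F)
  have i0 : Module.IsTorsionFree R F' := isTorsionFree_iff_algebraMap_injective.mpr hinj
  have i3 : IsDedekindDomain (integralClosure R F') := integralClosure.isDedekindDomain R F F'
  have i4 : IsFractionRing (integralClosure R F') F' :=
    integralClosure.isFractionRing_of_finite_extension F F'
  have i5 : Module.Finite R (integralClosure R F') :=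
    IsIntegralClosure.finite R F F' (integralClosure R F')
  set v := Place.ofHeightOneSpectrum (K := K) (F := F) p with hv
  have hpmax : p.asIdeal.IsMaximal := p.isMaximal
  have hfin : (p.asIdeal.primesOver (integralClosure R F')).Finite :=
    IsDedekindDomain.primesOver_finite p.asIdeal (integralClosure R F')
  let _ : Fintype (p.asIdeal.primesOver (integralClosure R F')) := hfin.fintype
  have hne : ∀ q : p.asIdeal.primesOver (integralClosure R F'), q.1 ≠ ⊥ := fun q => by
    have : q.1.LiesOver p.asIdeal := q.2.2
    exact Ideal.ne_bot_of_liesOver_of_ne_bot p.ne_bot q.1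
  -- compatibility of the two embeddings of `R` in `F'`
  have hcomm : ∀ b : R, algebraMap (integralClosure R F') F'
      (algebraMap R (integralClosure R F') b) = algebraMap F F' (algebraMap R F b) := by
    intro b
    rw [← IsScalarTower.algebraMap_apply R (integralClosure R F') F',
      ← IsScalarTower.algebraMap_apply R F F']
  have hSinj : Function.Injective (algebraMap R (integralClosure R F')) := by
    intro a b hab
    apply hinj
    rw [IsScalarTower.algebraMap_apply R (integralClosure R F') F', hab,
      ← IsScalarTower.algebraMap_apply R (integralClosure R F') F']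
  -- the key equivalence
  have key : ∀ (P : HeightOneSpectrum (integralClosure R F')) (b : R), b ≠ 0 →
      (algebraMap R (integralClosure R F') b ∈ P.asIdeal ↔
        0 < ((Place.ofHeightOneSpectrum (K := K) (F := F') P).restrict F).ord
          (algebraMap R F b)) := by
    intro P b hb
    have hb' : algebraMap R (integralClosure R F') b ≠ 0 := by
      rw [Ne, map_eq_zero_iff _ hSinj]
      exact hb
    rw [← RID_ord_pos_restrict, ← hcomm, RID_ord_pos_iff P _ hb']
  let W : p.asIdeal.primesOver (integralClosure R F') →
      HeightOneSpectrum (integralClosure R F') := fun q => ⟨q.1, q.2.1, hne q⟩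
  let g : p.asIdeal.primesOver (integralClosure R F') → Place K F' :=
    fun q => Place.ofHeightOneSpectrum (K := K) (F := F') (W q)
  have hg : Function.Injective g := by
    intro q q' h
    have := BG_ofHeightOneSpectrum_injective (K := K) (F := F') h
    exact Subtype.ext (congrArg HeightOneSpectrum.asIdeal this)
  -- the restriction of `g q` is `v`
  have hres : ∀ q, (g q).restrict F = v := by
    intro q
    obtain ⟨p₂, hp₂⟩ := BG_exists_heightOneSpectrum (B := R) ((g q).restrict F) (fun b => by
      rw [Place.mem_restrict_iff, ← hcomm, BG_mem_ofHeightOneSpectrum]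
      exact (W q).valuation_le_one _)
    rw [← hp₂, hv]
    congr 1
    apply HeightOneSpectrum.ext
    ext b
    rcases eq_or_ne b 0 with rfl | hb
    · simp
    have hlo : q.1.LiesOver p.asIdeal := q.2.2
    rw [← RID_ord_pos_iff (K := K) (F := F) p₂ b hb, hp₂, ← key (W q) b hb]
    exact (Ideal.mem_of_liesOver q.1 p.asIdeal b).symm
  -- every place over `v` is a `g q`
  have hsurj : ∀ w : Place K F', w.restrict F = v → ∃ q, g q = w := by
    intro w hw
    have hR : ∀ a : R, algebraMap R F' a ∈ w.toValuationSubring := by
      intro a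
      rw [IsScalarTower.algebraMap_apply R F F', ← Place.mem_restrict_iff, hw, hv,
        BG_mem_ofHeightOneSpectrum]
      exact p.valuation_le_one a
    obtain ⟨P, hP⟩ := BG_exists_heightOneSpectrum (B := integralClosure R F') w
      (fun s => NM_mem_of_isIntegral w hR s.2)
    have hover : P.asIdeal.under R = p.asIdeal := by
      ext b
      rcases eq_or_ne b 0 with rfl | hb
      · simp
      rw [Ideal.under_def, Ideal.mem_comap, key P b hb, hP, hw, hv, RID_ord_pos_iff p b hb]
    refine ⟨⟨P.asIdeal, P.isPrime, ⟨hover.symm⟩⟩, ?_⟩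
    rw [← hP]
  have hfib : v.fiber F' = Finset.univ.map ⟨g, hg⟩ := by
    ext w
    simp only [Place.mem_fiber, Finset.mem_map, Finset.mem_univ, true_and,
      Function.Embedding.coeFn_mk]
    constructor
    · intro hw
      exact hsurj w hw
    · rintro ⟨q, rfl⟩
      exact hres q
  rw [hfib, Finset.sum_map]
  simp only [Function.Embedding.coeFn_mk]
  -- ramification indices
  have he : ∀ q : p.asIdeal.primesOver (integralClosure R F'),
      q.1.ramificationIdx R = (g q).ramificationIndex F := by
    intro q
    have hprime : q.1.IsPrime := q.2.1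
    have hlo : q.1.LiesOver p.asIdeal := q.2.2
    have hord : ∀ b : R, (g q).ord (algebraMap (integralClosure R F') F'
        (algebraMap R (integralClosure R F') b)) =
        ((g q).ramificationIndex F : ℤ) * v.ord (algebraMap R F b) := by
      intro b
      rw [hcomm, (g q).ord_restrict, hres q]
    have hle : p.asIdeal.map (algebraMap R (integralClosure R F')) ≤
        q.1 ^ ((g q).ramificationIndex F) := by
      rw [Ideal.map_le_iff_le_comap]
      intro b hb
      rw [Ideal.mem_comap]
      rcases eq_or_ne b 0 with rfl | hb0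
      · simp
      rw [RID_mem_pow_iff (K := K) (F := F') (W q)]
      right
      rw [hord]
      have h1 : 0 < v.ord (algebraMap R F b) := (RID_ord_pos_iff p b hb0).mpr hb
      have h2 : (0 : ℤ) ≤ ((g q).ramificationIndex F : ℤ) := Int.natCast_nonneg _
      nlinarith
    have hgt : ¬ p.asIdeal.map (algebraMap R (integralClosure R F')) ≤
        q.1 ^ ((g q).ramificationIndex F + 1) := by
      intro h
      obtain ⟨π, hπ⟩ := RID_exists_uniformizer (K := K) (F := F) p
      have hπ0 : π ≠ 0 := by
        rintro rfl
        rw [map_zero, Place.ord_zero] at hπ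
        exact zero_ne_one hπ
      have hπmem : π ∈ p.asIdeal := (RID_ord_pos_iff (K := K) (F := F) p π hπ0).mp (by omega)
      have h1 := h (Ideal.mem_map_of_mem _ hπmem)
      rw [RID_mem_pow_iff (K := K) (F := F') (W q)] at h1
      rcases h1 with h1 | h1
      · rw [map_eq_zero_iff _ hSinj] at h1
        exact hπ0 h1
      · rw [hord, hπ] at h1
        push_cast at h1
        omega
    rw [← Ideal.ramificationIdx'_eq_ramificationIdx p.asIdeal q.1 p.ne_bot]
    exact Ideal.ramificationIdx'_spec hle hgt
  have hf : ∀ q : p.asIdeal.primesOver (integralClosure R F'), q.1.inertiaDeg R = 1 := by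
    intro q
    have hprime : q.1.IsPrime := q.2.1
    have hlo : q.1.LiesOver p.asIdeal := q.2.2
    have hPmax : q.1.IsMaximal := hprime.isMaximal (hne q)
    exact BG_inertiaDeg_eq_one (K := K) p.asIdeal q.1
      (BG_quotient_surjective (K := K) (F := F') (W q) (S24_residue_surjective hF' _))
  have hsum := Ideal.sum_ramification_inertia_eq_finrank p.asIdeal (integralClosure R F')
  have hrank : finrank F F' = finrank R (integralClosure R F') :=
    IsFractionRing.finrank_eq R F (integralClosure R F') F'
  rw [hrank, ← hsum]
  push_cast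
  refine Finset.sum_congr rfl fun q _ => ?_
  rw [he q, hf q, Nat.cast_one, mul_one]

end relative

section places

variable {K F F' : Type*} [Field K] [Field F] [Field F'] [Algebra K F] [Algebra F F']
  [Algebra K F'] [IsScalarTower K F F'] [FiniteDimensional F F'] [Algebra.IsSeparable F F']
  [IsAlgClosed K] [HasPrincipalDivisors K F']

/-- the fundamental identity at the places where the chart `x` is regular. -/
theorem RID_FI_of_nonneg (hF' : S24_IsFunctionField1 K F') {x : F} (hx : Transcendental K x)
    [FiniteDimensional K⟮x⟯ F] [Algebra.IsSeparable K⟮x⟯ F] (v : Place K F) (hv : 0 ≤ v.ord x) :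
    ∑ w ∈ v.fiber F', (w.ramificationIndex F : ℤ) = (finrank F F' : ℤ) := by
  have i1 := FFS_isDedekindDomain hx
  have i2 := BG_isFractionRing (K := K) (x := x)
  have hx0 : x ≠ 0 := fun h => hx (h ▸ isAlgebraic_zero)
  have hxv : x ∈ v.toValuationSubring := (BG_mem_iff_ord_nonneg v hx0).mpr hv
  obtain ⟨p, hp⟩ := BG_exists_heightOneSpectrum
    (B := integralClosure (Algebra.adjoin K ({x} : Set F)) F) v
    (fun b => BL_mem_of_isIntegral v hxv (b := (b : F)) b.2)
  rw [← hp]
  exact RID_FI_of_prime (K := K) (F := F) (F' := F') hF' p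

/-- **fundamental identity**: `K` algebraically closed, `F / K(x)` finite separable, `F' / F`
finite separable: `∑_{w | v} e(w | v) = [F' : F]` for every place `v` of `F`. -/
theorem RID_FI (hF' : S24_IsFunctionField1 K F') {x : F} (hx : Transcendental K x)
    [FiniteDimensional K⟮x⟯ F] [Algebra.IsSeparable K⟮x⟯ F] (v : Place K F) :
    ∑ w ∈ v.fiber F', (w.ramificationIndex F : ℤ) = (finrank F F' : ℤ) := by
  by_cases hv : 0 ≤ v.ord x
  · exact RID_FI_of_nonneg hF' hx v hv
  · have := FFS_isSeparable_inv (K := K) x
    have := FFS_finite_inv (K := K) x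
    refine RID_FI_of_nonneg hF' (BG_transcendental_inv hx) v ?_
    rw [Place.ord_inv]
    omega

/-- the Prelude class `FundamentalIdentity`. -/
theorem RID_fundamentalIdentity (hF' : S24_IsFunctionField1 K F') {x : F}
    (hx : Transcendental K x) [FiniteDimensional K⟮x⟯ F] [Algebra.IsSeparable K⟮x⟯ F] :
    FundamentalIdentity K F F' where
  sum_ramificationIndex_mul_deg v := by
    have hF : S24_IsFunctionField1 K F :=
      S24_isFunctionField1_of_isAlgebraic x (Algebra.IsAlgebraic.of_finite _ _)
    rw [S24_deg_eq_one hF v, Nat.cast_one, mul_one, ← RID_FI hF' hx v]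
    refine Finset.sum_congr rfl fun w _ => ?_
    rw [S24_deg_eq_one hF' w, Nat.cast_one, mul_one]

end places

section final

variable {L E E' k Ek Ek' : Type*} [Field L] [Field E] [Field E'] [Field k] [Field Ek]
  [Field Ek'] [Algebra L E] [Algebra E E'] [Algebra L E'] [IsScalarTower L E E']
  [Algebra k Ek] [Algebra Ek Ek'] [Algebra k Ek'] [IsScalarTower k Ek Ek']
  [FiniteDimensional E E'] [FiniteDimensional Ek Ek'] [Algebra.IsSeparable Ek Ek']
  [IsAlgClosed L] [IsAlgClosed k]

/-- **RI-6** (descent of the specialisation map), with the fundamental identity proved from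
separability. -/
theorem RID_exists_r' (S' : S18_Spec L E' k Ek') {O : ValuationSubring E}
    {red : O →+* Ek} (hd : S18_NormData O red S'.O S'.red)
    (hdeg : finrank Ek Ek' = finrank E E')
    [HasPrincipalDivisors L E'] [HasPrincipalDivisors k Ek'] [HasPrincipalDivisors k Ek]
    [Algebra.IsSeparable E E']
    (x xi : O) (hxi : xi * x = 1) (x' xi' : S'.O)
    (hxx' : (x' : E') = algebraMap E E' (x : E)) (hxixi' : (xi' : E') = algebraMap E E' (xi : E))
    (hx' : Transcendental L (x' : E')) [FiniteDimensional L⟮(x' : E')⟯ E']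
    [Algebra.IsSeparable L⟮(x' : E')⟯ E']
    (hxk' : Transcendental k (S'.red x')) [FiniteDimensional k⟮S'.red x'⟯ Ek']
    [Algebra.IsSeparable k⟮S'.red x'⟯ Ek']
    (hdegx : finrank L⟮(x' : E')⟯ E' ≤ finrank k⟮S'.red x'⟯ Ek')
    [FiniteDimensional L⟮(x : E)⟯ E] [Algebra.IsSeparable L⟮(x : E)⟯ E]
    [FiniteDimensional k⟮red x⟯ Ek] [Algebra.IsSeparable k⟮red x⟯ Ek]
    (hONTO : ∀ w : Ek', (∀ Q' : Place k Ek', 0 ≤ Q'.ord (S'.red x') → 0 ≤ Q'.ord w) →
      ∃ f : S'.O, (∀ P' : Place L E', 0 ≤ P'.ord (x' : E') → 0 ≤ P'.ord (f : E')) ∧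
        S'.red f = w)
    (hONTOi : ∀ w : Ek', (∀ Q' : Place k Ek', 0 ≤ Q'.ord (S'.red xi') → 0 ≤ Q'.ord w) →
      ∃ f : S'.O, (∀ P' : Place L E', 0 ≤ P'.ord (xi' : E') → 0 ≤ P'.ord (f : E')) ∧
        S'.red f = w) :
    ∃ r : Place L E → Place k Ek, (∀ P, (r P).deg = P.deg) ∧
      (∀ u : O, red u ≠ 0 → ∀ D : Divisor L E, (∀ P, D P = P.ord (u : E)) →
        ∀ Q, Finsupp.mapDomain r D Q = Q.ord (red u)) ∧
      ∀ P' : Place L E', r (P'.restrict E) = (S'.r P').restrict Ek := by
  have hE' : S24_IsFunctionField1 L E' :=
    S24_isFunctionField1_of_isAlgebraic (x' : E') (Algebra.IsAlgebraic.of_finite _ _)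
  have hEk' : S24_IsFunctionField1 k Ek' :=
    S24_isFunctionField1_of_isAlgebraic (S'.red x') (Algebra.IsAlgebraic.of_finite _ _)
  have hx : Transcendental L (x : E) := by
    intro h
    apply hx'
    rw [hxx']
    exact h.algebraMap
  have hjeq : x' = hd.incl x := Subtype.ext hxx'
  have hred : S'.red x' = algebraMap Ek Ek' (red x) := by rw [hjeq]; exact hd.red'_incl x
  have hxk : Transcendental k (red x) := by
    intro h
    apply hxk'
    rw [hred]
    exact h.algebraMap
  exact RID_exists_r S' hd hdeg (RID_FI hE' hx) (RID_FI hEk' hxk) x xi hxi x' xi' hxx' hxixi' hx'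
    hxk' hdegx hONTO hONTOi

end final

end Fermat.Agent.S18
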