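import Mathlib
import Fermat.Agent.S18.RiDescFI
import Fermat.Agent.S18.RiNormOrd
import Fermat.Prelude.Def_AlgebraicCurve_Correspondence

/-!
# The norm formula for divisors: `∑_{w | v} ord_w f = ord_v (N_{F'/F} f)`  (helper10)

`K` algebraically closed, `F / K(x)` finite separable, `F' / F` finite separable.

* `RID_norm_of_prime` : Dedekind form, for `f` integral over `R` (from helper21's
  `RIN_emultiplicity_relNorm` and the dictionary places ↔ height one primes).
* `RID_norm_formula`  : `∑ w ∈ v.fiber F', w.ord f = v.ord (Algebra.norm F f)` for all `f ≠ 0`.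
* `RID_inertiaDeg_eq_one`, `RID_pushforwardNormFormula` : the Prelude property
  `Divisor.PushforwardNormFormula K F F'` (an input of `HeckeInputsAlong`, S37).
-/

set_option autoImplicit false
set_option linter.style.haveILetI false

open AlgebraicCurve IntermediateField IsDedekindDomain Module
open scoped IntermediateField.algebraAdjoinAdjoin

namespace Fermat.Agent.S18

open Fermat.Agent.S24 Fermat.Agent.Lib

section relative

variable {K F F' : Type*} [Field K] [Field F] [Field F'] [Algebra K F] [Algebra F F']
  [Algebra K F'] [IsScalarTower K F F'] [FiniteDimensional F F'] [Algebra.IsSeparable F F']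
  {R : Type*} [CommRing R] [IsDedekindDomain R] [Algebra R F] [IsFractionRing R F]
  [Algebra K R] [IsScalarTower K R F] [Algebra R F'] [IsScalarTower R F F']
  [IsScalarTower K R F']

/-- **norm formula**, Dedekind form: for `s ∈ F'` integral over `R` and the place `v` of a height
one prime of `R`, `∑_{w | v} ord_w s = ord_v (N s)`. -/
theorem RID_norm_of_prime [IsAlgClosed K] [HasPrincipalDivisors K F']
    (hF' : S24_IsFunctionField1 K F') (p : HeightOneSpectrum R) (s : F') (hs : IsIntegral R s)
    (hs0 : s ≠ 0) :
    ∑ w ∈ (Place.ofHeightOneSpectrum (K := K) (F := F) p).fiber F', w.ord s =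
      (Place.ofHeightOneSpectrum (K := K) (F := F) p).ord (Algebra.norm F s) := by
  classical
  have hinj : Function.Injective (algebraMap R F') := by
    rw [IsScalarTower.algebraMap_eq R F F']
    exact (algebraMap F F').injective.comp (IsFractionRing.injective R F)
  have i0 : Module.IsTorsionFree R F' := isTorsionFree_iff_algebraMap_injective.mpr hinj
  have i3 : IsDedekindDomain (integralClosure R F') := integralClosure.isDedekindDomain R F F'
  have i4 : IsFractionRing (integralClosure R F') F' :=
    integralClosure.isFractionRing_of_finite_extension F F'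
  have i5 : Module.Finite R (integralClosure R F') :=
    IsIntegralClosure.finite R F F' (integralClosure R F')
  set v := Place.ofHeightOneSpectrum (K := K) (F := F) p with hv
  have hpmax : p.asIdeal.IsMaximal := p.isMaximal
  have hfin : (p.asIdeal.primesOver (integralClosure R F')).Finite :=
    IsDedekindDomain.primesOver_finite p.asIdeal (integralClosure R F')
  set T : Finset (Ideal (integralClosure R F')) := hfin.toFinset with hT
  have hTmem : ∀ P, P ∈ T ↔ P.IsPrime ∧ P.LiesOver p.asIdeal := by
    intro P
    rw [hT, Set.Finite.mem_toFinset]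
    rfl
  have hne : ∀ P ∈ T, P ≠ ⊥ := by
    intro P hP
    obtain ⟨h1, h2⟩ := (hTmem P).1 hP
    exact Ideal.ne_bot_of_liesOver_of_ne_bot p.ne_bot P
  have hcomm : ∀ b : R, algebraMap (integralClosure R F') F'
      (algebraMap R (integralClosure R F') b) = algebraMap F F' (algebraMap R F b) := by
    intro b
    rw [← IsScalarTower.algebraMap_apply R (integralClosure R F') F',
      ← IsScalarTower.algebraMap_apply R F F']
  have hSinj : Function.Injective (algebraMap R (integralClosure R F')) := by
    intro a b hab
    apply hinj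
    rw [IsScalarTower.algebraMap_apply R (integralClosure R F') F', hab,
      ← IsScalarTower.algebraMap_apply R (integralClosure R F') F']
  have key : ∀ (P : HeightOneSpectrum (integralClosure R F')) (b : R), b ≠ 0 →
      (algebraMap R (integralClosure R F') b ∈ P.asIdeal ↔
        0 < ((Place.ofHeightOneSpectrum (K := K) (F := F') P).restrict F).ord
          (algebraMap R F b)) := by
    intro P b hb
    have hb' : algebraMap R (integralClosure R F') b ≠ 0 := by
      rw [Ne, map_eq_zero_iff _ hSinj]
      exact hb
    rw [← RID_ord_pos_restrict, ← hcomm, RID_ord_pos_iff P _ hb']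
  have hinert : ∀ P : Ideal (integralClosure R F'), P.IsPrime → P.LiesOver p.asIdeal →
      P.inertiaDeg R = 1 := by
    intro P hP hPq
    have hP0 : P ≠ ⊥ := Ideal.ne_bot_of_liesOver_of_ne_bot p.ne_bot P
    have hPmax : P.IsMaximal := hP.isMaximal hP0
    exact BG_inertiaDeg_eq_one (K := K) p.asIdeal P
      (BG_quotient_surjective (K := K) (F := F') ⟨P, hP, hP0⟩ (S24_residue_surjective hF' _))
  -- the element
  set b : integralClosure R F' := ⟨s, hs⟩ with hb
  have hb0 : b ≠ 0 := by
    intro h
    apply hs0
    have := congrArg Subtype.val h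
    exact this
  have hspan0 : (Ideal.span {b} : Ideal (integralClosure R F')) ≠ 0 := by
    rw [Ne, Ideal.zero_eq_bot, Ideal.span_singleton_eq_bot]
    exact hb0
  have hD := RIN_emultiplicity_relNorm p.asIdeal p.ne_bot hinert T hTmem (Ideal.span {b}) hspan0
  rw [Ideal.relNorm_singleton] at hD
  have hnorm : Algebra.norm F s =
      algebraMap R F (Algebra.intNorm R (integralClosure R F') b) :=
    (Algebra.algebraMap_intNorm (A := R) (K := F) (L := F') (B := integralClosure R F') b).symm
  have hn0 : Algebra.intNorm R (integralClosure R F') b ≠ 0 := by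
    intro h0
    have h1 : Algebra.norm F s = 0 := by rw [hnorm, h0, map_zero]
    rw [Algebra.norm_eq_zero_iff] at h1
    exact hs0 h1
  have hnspan0 : (Ideal.span {Algebra.intNorm R (integralClosure R F') b} : Ideal R) ≠ 0 := by
    rw [Ne, Ideal.zero_eq_bot, Ideal.span_singleton_eq_bot]
    exact hn0
  have hpprime : Prime p.asIdeal := Ideal.prime_of_isPrime p.ne_bot p.isPrime
  have hfmp : FiniteMultiplicity p.asIdeal
      (Ideal.span {Algebra.intNorm R (integralClosure R F') b}) :=
    FiniteMultiplicity.of_prime_left hpprime hnspan0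
  rw [hfmp.emultiplicity_eq_multiplicity] at hD
  have hsum : ∑ P ∈ T, emultiplicity P (Ideal.span {b}) =
      ((∑ P ∈ T, multiplicity P (Ideal.span {b}) : ℕ) : ℕ∞) := by
    rw [Nat.cast_sum]
    apply Finset.sum_congr rfl
    intro P hP
    obtain ⟨h1, h2⟩ := (hTmem P).1 hP
    have hPprime : Prime P := Ideal.prime_of_isPrime (hne P hP) h1
    have hfm : FiniteMultiplicity P (Ideal.span {b}) :=
      FiniteMultiplicity.of_prime_left hPprime hspan0
    exact hfm.emultiplicity_eq_multiplicity
  rw [hsum, ENat.natCast_inj] at hD
  rw [hnorm, hv, RIN_ord_eq_multiplicity (K := K) (F := F) p _ hn0, hD, Nat.cast_sum]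
  symm
  refine Finset.sum_bij
    (fun P hP => Place.ofHeightOneSpectrum (K := K) (F := F')
      (⟨P, ((hTmem P).1 hP).1, hne P hP⟩ : HeightOneSpectrum (integralClosure R F')))
    ?_ ?_ ?_ ?_
  · -- lands in the fibre
    intro P hP
    rw [Place.mem_fiber]
    obtain ⟨h1, h2⟩ := (hTmem P).1 hP
    set W : HeightOneSpectrum (integralClosure R F') := ⟨P, h1, hne P hP⟩ with hW
    obtain ⟨p₂, hp₂⟩ := BG_exists_heightOneSpectrum (B := R)
      ((Place.ofHeightOneSpectrum (K := K) (F := F') W).restrict F) (fun b => by
        rw [Place.mem_restrict_iff, ← hcomm, BG_mem_ofHeightOneSpectrum]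
        exact W.valuation_le_one _)
    rw [← hp₂]
    congr 1
    apply HeightOneSpectrum.ext
    ext c
    rcases eq_or_ne c 0 with rfl | hc
    · simp
    rw [← RID_ord_pos_iff (K := K) (F := F) p₂ c hc, hp₂, ← key W c hc]
    exact (Ideal.mem_of_liesOver P p.asIdeal c).symm
  · intro P hP P' hP' h
    have := BG_ofHeightOneSpectrum_injective (K := K) (F := F') h
    exact congrArg HeightOneSpectrum.asIdeal this
  · intro w hw
    rw [Place.mem_fiber] at hw
    have hR : ∀ a : R, algebraMap R F' a ∈ w.toValuationSubring := by
      intro a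
      rw [IsScalarTower.algebraMap_apply R F F', ← Place.mem_restrict_iff, hw,
        BG_mem_ofHeightOneSpectrum]
      exact p.valuation_le_one a
    obtain ⟨P, hP⟩ := BG_exists_heightOneSpectrum (B := integralClosure R F') w
      (fun s => NM_mem_of_isIntegral w hR s.2)
    have hover : P.asIdeal.under R = p.asIdeal := by
      ext c
      rcases eq_or_ne c 0 with rfl | hc
      · simp
      rw [Ideal.under_def, Ideal.mem_comap, key P c hc, hP, hw, RID_ord_pos_iff p c hc]
    refine ⟨P.asIdeal, (hTmem _).2 ⟨P.isPrime, ⟨hover.symm⟩⟩, ?_⟩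
    rw [← hP]
  · intro P hP
    obtain ⟨h1, h2⟩ := (hTmem P).1 hP
    have := RIN_ord_eq_multiplicity (K := K) (F := F')
      (⟨P, h1, hne P hP⟩ : HeightOneSpectrum (integralClosure R F')) b hb0
    rw [← this]
    rfl

/-- **norm formula**, Dedekind form, for every `f ≠ 0`. -/
theorem RID_norm_of_prime' [IsAlgClosed K] [HasPrincipalDivisors K F']
    (hF' : S24_IsFunctionField1 K F') (p : HeightOneSpectrum R) (f : F') (hf : f ≠ 0) :
    ∑ w ∈ (Place.ofHeightOneSpectrum (K := K) (F := F) p).fiber F', w.ord f =
      (Place.ofHeightOneSpectrum (K := K) (F := F) p).ord (Algebra.norm F f) := by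
  have hinj : Function.Injective (algebraMap R F') := by
    rw [IsScalarTower.algebraMap_eq R F F']
    exact (algebraMap F F').injective.comp (IsFractionRing.injective R F)
  have halg : IsAlgebraic R f :=
    (IsFractionRing.isAlgebraic_iff R F F').mpr (Algebra.IsAlgebraic.isAlgebraic f)
  obtain ⟨y, hy0, hint⟩ := halg.exists_integral_multiple
  have hr0 : algebraMap R F' y ≠ 0 := by
    rw [Ne, map_eq_zero_iff _ hinj]
    exact hy0
  have hsmul : y • f = algebraMap R F' y * f := Algebra.smul_def y f
  rw [hsmul] at hint
  have hs0 : algebraMap R F' y * f ≠ 0 := mul_ne_zero hr0 hf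
  have h1 := RID_norm_of_prime (K := K) (F := F) hF' p _ hint hs0
  have h2 := RID_norm_of_prime (K := K) (F := F) hF' p _
    (isIntegral_algebraMap (R := R) (A := F') (x := y)) hr0
  have hN0 : Algebra.norm F (algebraMap R F' y) ≠ 0 := Algebra.norm_ne_zero_iff.mpr hr0
  have hNf0 : Algebra.norm F f ≠ 0 := Algebra.norm_ne_zero_iff.mpr hf
  rw [map_mul, Place.ord_mul _ hN0 hNf0] at h1
  have h3 : ∑ w ∈ (Place.ofHeightOneSpectrum (K := K) (F := F) p).fiber F',
      w.ord (algebraMap R F' y * f) =
      ∑ w ∈ (Place.ofHeightOneSpectrum (K := K) (F := F) p).fiber F',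
        w.ord (algebraMap R F' y) +
      ∑ w ∈ (Place.ofHeightOneSpectrum (K := K) (F := F) p).fiber F', w.ord f := by
    rw [← Finset.sum_add_distrib]
    exact Finset.sum_congr rfl fun w _ => w.ord_mul hr0 hf
  rw [h3, h2] at h1
  omega

end relative

section places

variable {K F F' : Type*} [Field K] [Field F] [Field F'] [Algebra K F] [Algebra F F']
  [Algebra K F'] [IsScalarTower K F F'] [FiniteDimensional F F'] [Algebra.IsSeparable F F']
  [IsAlgClosed K] [HasPrincipalDivisors K F']

/-- the norm formula at the places where the chart `x` is regular. -/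
theorem RID_norm_formula_of_nonneg (hF' : S24_IsFunctionField1 K F') {x : F}
    (hx : Transcendental K x) [FiniteDimensional K⟮x⟯ F] [Algebra.IsSeparable K⟮x⟯ F]
    (v : Place K F) (hv : 0 ≤ v.ord x) (f : F') (hf : f ≠ 0) :
    ∑ w ∈ v.fiber F', w.ord f = v.ord (Algebra.norm F f) := by
  have i1 := FFS_isDedekindDomain hx
  have i2 := BG_isFractionRing (K := K) (x := x)
  have hx0 : x ≠ 0 := fun h => hx (h ▸ isAlgebraic_zero)
  have hxv : x ∈ v.toValuationSubring := (BG_mem_iff_ord_nonneg v hx0).mpr hv
  obtain ⟨p, hp⟩ := BG_exists_heightOneSpectrum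
    (B := integralClosure (Algebra.adjoin K ({x} : Set F)) F) v
    (fun b => BL_mem_of_isIntegral v hxv (b := (b : F)) b.2)
  rw [← hp]
  exact RID_norm_of_prime' (K := K) (F := F) (F' := F') hF' p f hf

/-- **norm formula**: `K` algebraically closed, `F / K(x)` finite separable, `F' / F` finite
separable: `∑_{w | v} ord_w f = ord_v (N_{F'/F} f)` for every place `v` of `F` and `f ≠ 0`. -/
theorem RID_norm_formula (hF' : S24_IsFunctionField1 K F') {x : F} (hx : Transcendental K x)
    [FiniteDimensional K⟮x⟯ F] [Algebra.IsSeparable K⟮x⟯ F] (v : Place K F) (f : F')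
    (hf : f ≠ 0) :
    ∑ w ∈ v.fiber F', w.ord f = v.ord (Algebra.norm F f) := by
  by_cases hv : 0 ≤ v.ord x
  · exact RID_norm_formula_of_nonneg hF' hx v hv f hf
  · have := FFS_isSeparable_inv (K := K) x
    have := FFS_finite_inv (K := K) x
    refine RID_norm_formula_of_nonneg hF' (BG_transcendental_inv hx) v ?_ f hf
    rw [Place.ord_inv]
    omega

omit [FiniteDimensional F F'] [Algebra.IsSeparable F F'] [HasPrincipalDivisors K F'] in
/-- over an algebraically closed field all inertia degrees are one. -/
theorem RID_inertiaDeg_eq_one [Algebra.IsIntegral F F'] (hF' : S24_IsFunctionField1 K F')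
    (w : Place K F') : w.inertiaDeg F = 1 := by
  have h1 := w.deg_restrict_mul_inertiaDeg (F := F)
  rw [S24_deg_eq_one hF' w] at h1
  exact Nat.eq_one_of_mul_eq_one_left h1

/-- the Prelude property `Divisor.PushforwardNormFormula` (`div (N f) = pushforward (div f)`). -/
theorem RID_pushforwardNormFormula (hF' : S24_IsFunctionField1 K F') {x : F}
    (hx : Transcendental K x) [FiniteDimensional K⟮x⟯ F] [Algebra.IsSeparable K⟮x⟯ F] :
    Divisor.PushforwardNormFormula K F F' := by
  classical
  intro f hf D hD v
  rw [Divisor.pushforward_apply, ← RID_norm_formula hF' hx v f hf, ← Finset.sum_filter]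
  have h1 : ∀ w ∈ D.support.filter (fun w => w.restrict F = v),
      D w * (w.inertiaDeg F : ℤ) = w.ord f := by
    intro w _
    rw [RID_inertiaDeg_eq_one hF' w, Nat.cast_one, mul_one, hD]
  rw [Finset.sum_congr rfl h1]
  apply Finset.sum_subset
  · intro w hw
    rw [Finset.mem_filter] at hw
    exact Place.mem_fiber.mpr hw.2
  · intro w hw hnot
    rw [Place.mem_fiber] at hw
    rw [Finset.mem_filter, not_and_or] at hnot
    rcases hnot with h | h
    · rw [Finsupp.mem_support_iff, not_not] at h
      rw [← hD, h]
    · exact absurd hw h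

end places

section along

variable {K F F' : Type*} [Field K] [Field F] [Field F'] [Algebra K F] [Algebra K F']
  [IsAlgClosed K] [CharZero K] [HasPrincipalDivisors K F']

/-- the Prelude property `FundamentalIdentityAlong` in characteristic zero. -/
theorem RID_fundamentalIdentityAlong (φ : F →ₐ[K] F') (hφ : φ.toRingHom.IsIntegral)
    (hfin : FiniteAlong K φ) (hF' : S24_IsFunctionField1 K F') {x : F}
    (hx : Transcendental K x) [FiniteDimensional K⟮x⟯ F] :
    FundamentalIdentityAlong K φ hφ := by
  letI := algebraAlong φ
  haveI := isScalarTower_along φ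
  haveI := isIntegral_along φ hφ
  haveI : Module.Finite F F' := hfin
  haveI : CharZero F := charZero_of_injective_algebraMap (algebraMap K F).injective
  haveI : CharZero K⟮x⟯ := charZero_of_injective_algebraMap (algebraMap K K⟮x⟯).injective
  exact RID_fundamentalIdentity hF' hx

/-- the Prelude property `NormFormulaAlong` in characteristic zero. -/
theorem RID_normFormulaAlong (φ : F →ₐ[K] F') (hfin : FiniteAlong K φ)
    (hF' : S24_IsFunctionField1 K F') {x : F}
    (hx : Transcendental K x) [FiniteDimensional K⟮x⟯ F] :
    NormFormulaAlong K φ hfin := by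
  letI := algebraAlong φ
  haveI := isScalarTower_along φ
  haveI : Module.Finite F F' := hfin
  haveI : CharZero F := charZero_of_injective_algebraMap (algebraMap K F).injective
  haveI : CharZero K⟮x⟯ := charZero_of_injective_algebraMap (algebraMap K K⟮x⟯).injective
  exact RID_pushforwardNormFormula hF' hx

end along

end Fermat.Agent.S18
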