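import Fermat.Agent.S18.SepAux
import Fermat.Agent.S18.DegFinal

/-!
# S18, package SEPP + DEGB (helper17), part 3: unconditional form

The results of `S18/SepAux.lean` with the hypotheses `htop`, `hdeg` discharged by helper12's
`DG_adjoin_mubar_eq_top`, `DG_finrank_eq` (`S18/DegFinal.lean`).  All `h`-free (`hgen` only).
-/

set_option autoImplicit false
set_option linter.unusedSectionVars false
set_option linter.unusedVariables false
set_option linter.style.longLine false
set_option synthInstance.maxHeartbeats 400000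
set_option maxHeartbeats 1000000

open IntermediateField Polynomial AlgebraicCurve ModularCurve

namespace Fermat.Agent.S18

open Fermat.Agent.Lib Fermat.Agent.S24

variable (N : ℕ) [NeZero N] (A : ValuationSubring (AlgebraicClosure ℚ))
  (h : PrincipalGeneratedByIntegral A (IsLocalRing.residue A) N)
  {ℓ : ℕ} [hℓ : Fact ℓ.Prime] (hA : A.LiesOverPrime ℓ) (hℓN : ¬ ℓ ∣ N)

include hA hℓN

/-- `E_k / F_k` is separable. -/
theorem SPF_isSeparable_EN :
    Algebra.IsSeparable ↥(modularFunctionFieldFullC (IsLocalRing.ResidueField A) N)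
      (AX_EN N A h ℓ) :=
  SP_isSeparable_EN N A h hA hℓN (DG_adjoin_mubar_eq_top N A h hA hℓN)

/-- `E_k / k(μ̄)` is separable. -/
theorem SPF_isSeparable_mubarN :
    Algebra.IsSeparable (IsLocalRing.ResidueField A)⟮AX_mubarN N A h ℓ⟯ (AX_EN N A h ℓ) :=
  SP_isSeparable_mubarN N A h hA hℓN (DG_adjoin_mubar_eq_top N A h hA hℓN)

/-- `E_k / k(j̄)` is separable. -/
theorem SPF_isSeparable_jbarN :
    Algebra.IsSeparable (IsLocalRing.ResidueField A)⟮algebraMap
      ↥(modularFunctionFieldFullC (IsLocalRing.ResidueField A) N) (AX_EN N A h ℓ)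
        (AX_jbarN N A h)⟯ (AX_EN N A h ℓ) :=
  SP_isSeparable_jbarN' N A h hA hℓN (DG_adjoin_mubar_eq_top N A h hA hℓN)

/-- **`RR_Hyp k E_k`**. -/
theorem SPF_RR_hyp_EN : RR_Hyp (IsLocalRing.ResidueField A) (AX_EN N A h ℓ) :=
  SP_RR_hyp_EN N A h hA hℓN (DG_adjoin_mubar_eq_top N A h hA hℓN)

/-- **DEGB**: `[E_k : k(μ̄)] = [F' : K(μ)]`. -/
theorem SPF_degbN :
    Module.finrank (IsLocalRing.ResidueField A)⟮AX_mubarN N A h ℓ⟯ (AX_EN N A h ℓ) =
      Module.finrank (AlgebraicClosure ℚ)⟮AX_muN N ℓ⟯ (AX_FN N ℓ) :=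
  SP_degbN N A h hA hℓN (DG_finrank_eq N A h hA hℓN)

/-- **DEGB in the chart `j`**: `[E_k : k(j̄)] = [F' : K(j)]`. -/
theorem SPF_degb_jN :
    Module.finrank (IsLocalRing.ResidueField A)⟮algebraMap
      ↥(modularFunctionFieldFullC (IsLocalRing.ResidueField A) N) (AX_EN N A h ℓ)
        (AX_jbarN N A h)⟯ (AX_EN N A h ℓ) =
      Module.finrank (AlgebraicClosure ℚ)⟮algebraMap ↥(modularFunctionFieldBar N) (AX_FN N ℓ)
        (jB N)⟯ (AX_FN N ℓ) := by
  rw [SP_finrank_tower, SP_finrank_tower, SP_finrank_jbarN N A h hA hℓN,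
    DG_finrank_eq N A h hA hℓN]

end Fermat.Agent.S18
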