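import Fermat.Agent.S18.RiTwo
import Fermat.Agent.S18.RiAsm
import Fermat.Agent.S18.DegFinal
import Fermat.Agent.S18.SepAuxFinal
import Fermat.Agent.S18.AbhX0

/-!
# RI, package RI-ASM (helper20), part 3: `ReductionInputsModL A N` for `ℓ ∤ N`

`K = ℚ̄`, `A ⊂ K` a valuation ring over `ℓ ∤ N`, `k` its residue field, `F`, `F_k` the function
fields of `X₀(N)` over `K`, `k`;  `F' = AX_FN N ℓ = F(μ)`, `E_k = AX_EN N A hgen ℓ` the residue
field of the Gauss valuation of `F'`.

* `RIF_normData` : the Gauss extension `GX_O G F'` is compatible with `G.O` (`S18_NormData`).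
* `RIF_isCart_j` : the chart `j` is Cartesian on `F'` (DEG for `F` and DEG for `F'/F`).
* `RIF_main_of_genus` : `ReductionInputsModL A N` from `g(F') ≤ g(E_k)` (the output of SQUEEZE).
-/

set_option autoImplicit false
set_option linter.unusedSectionVars false
set_option synthInstance.maxHeartbeats 400000
set_option maxHeartbeats 1000000

open HahnSeries IntermediateField AlgebraicCurve ModularCurve Module

namespace Fermat.Agent.S18

open Fermat.Agent.Lib Fermat.Agent.S24

section abstract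

variable {L F k Fk : Type*} [Field L] [Field F] [Algebra L F] [Field k] [Field Fk]
  [Algebra k Fk] (G : S18_Gauss L F k Fk)
  (F' : Type*) [Field F'] [Algebra F F']

/-- the Gauss extension is compatible with the Gauss datum. -/
theorem RIF_normData : S18_NormData G.O G.red (GX_O G F') (GX_red G F') where
  red_ne_zero_iff := G.red_ne_zero_iff
  red'_surjective := GX_red_surjective G F'
  red'_ne_zero_iff := GX_red_ne_zero_iff G F'
  algebraMap_mem_iff := GX_mem_O_iff G F'
  red'_algebraMap x _ := (GX_algebraMap_red G F' x).symm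

end abstract

section concrete

variable (N : ℕ) [NeZero N] (A : ValuationSubring (AlgebraicClosure ℚ))
  (h : PrincipalGeneratedByIntegral A (IsLocalRing.residue A) N)
  {ℓ : ℕ} [hℓ : Fact ℓ.Prime] (hA : A.LiesOverPrime ℓ) (hℓN : ¬ ℓ ∣ N)

/-- the compatibility of the Gauss data of `F` and `F'`. -/
theorem RIF_hd : S18_NormData (AX_G N A h).O (AX_G N A h).red
    (AX_GN N A h ℓ).O (AX_GN N A h ℓ).red :=
  RIF_normData (AX_G N A h) (AX_FN N ℓ)

/-- `j` as an element of the Gauss ring of `F`. -/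
noncomputable def RIF_j : (AX_G N A h).O := ⟨jB N, AX_jB_mem N A h⟩

theorem RIF_red_j : (AX_G N A h).red (RIF_j N A h) = AX_jbarN N A h := rfl

/-- `j` as an element of the Gauss ring of `F'`. -/
noncomputable def RIF_j' : (AX_GN N A h ℓ).toVal.O := (RIF_hd N A h (ℓ := ℓ)).incl (RIF_j N A h)

theorem RIF_coe_j' : ((RIF_j' N A h (ℓ := ℓ) : (AX_GN N A h ℓ).toVal.O) : AX_FN N ℓ) =
    algebraMap ↥(modularFunctionFieldBar N) (AX_FN N ℓ) (jB N) := rfl

theorem RIF_red_j' : (AX_GN N A h ℓ).toVal.red (RIF_j' N A h (ℓ := ℓ)) =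
    algebraMap ↥(modularFunctionFieldFullC (IsLocalRing.ResidueField A) N) (AX_EN N A h ℓ)
      (AX_jbarN N A h) :=
  (RIF_hd N A h (ℓ := ℓ)).red'_incl (RIF_j N A h)

/-- `j` is a unit of the Gauss ring. -/
theorem RIF_isUnit_j : IsUnit (RIF_j N A h) := by
  rw [← (AX_G N A h).red_ne_zero_iff]
  intro h0
  exact AX_red_jB_transcendental N A h (h0 ▸ isAlgebraic_zero)

include hA hℓN

/-- **the chart `j` is Cartesian on `F'`.** -/
theorem RIF_isCart_j : ∃ (n : ℕ) (y : Fin n → (AX_GN N A h ℓ).toVal.O),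
    (AX_GN N A h ℓ).toVal.IsCart (RIF_j' N A h (ℓ := ℓ)) y := by
  have hfdF := finiteDimensional_jB N
  have hfd : FiniteDimensional (AlgebraicClosure ℚ)⟮algebraMap ↥(modularFunctionFieldBar N)
      (AX_FN N ℓ) (jB N)⟯ (AX_FN N ℓ) :=
    SP_finite_image (k := AlgebraicClosure ℚ) (E := AX_FN N ℓ) (jB N)
  have hfd' : FiniteDimensional
      (AlgebraicClosure ℚ)⟮((RIF_j' N A h (ℓ := ℓ) : (AX_GN N A h ℓ).toVal.O) : AX_FN N ℓ)⟯
      (AX_FN N ℓ) := hfd
  have htr : Transcendental (IsLocalRing.ResidueField A)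
      ((AX_GN N A h ℓ).toVal.red (RIF_j' N A h (ℓ := ℓ))) := by
    rw [RIF_red_j']
    intro halg
    apply AX_red_jB_transcendental N A h
    exact (isAlgebraic_algebraMap_iff (algebraMap
      ↥(modularFunctionFieldFullC (IsLocalRing.ResidueField A) N) (AX_EN N A h ℓ)).injective).mp
      halg
  have hdeg := SPF_degb_jN N A h hA hℓN
  obtain ⟨y, hy⟩ := S18_Val.IsCart.of_finrank (AX_GN N A h ℓ).toVal (RIF_j' N A h (ℓ := ℓ)) htr
    (Module.finrank (AlgebraicClosure ℚ)⟮algebraMap ↥(modularFunctionFieldBar N)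
      (AX_FN N ℓ) (jB N)⟯ (AX_FN N ℓ)) le_rfl (by rw [RIF_red_j', hdeg])
  exact ⟨_, y, hy⟩

/-- **RI for `X₀(N)` from the genus inequality on `F'`**: a map of places of `F` with property
(2) for the units of the Gauss ring. -/
theorem RIF_exists_r_of_genus
    (hg' : RR_genus (AlgebraicClosure ℚ) (AX_FN N ℓ) ≤
      RR_genus (IsLocalRing.ResidueField A) (AX_EN N A h ℓ)) :
    ∃ r : Place (AlgebraicClosure ℚ) ↥(modularFunctionFieldBar N) →
        Place (IsLocalRing.ResidueField A)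
          ↥(modularFunctionFieldFullC (IsLocalRing.ResidueField A) N),
      (∀ P, (r P).deg = P.deg) ∧
      ∀ u : (AX_G N A h).O, (AX_G N A h).red u ≠ 0 →
        ∀ D : Divisor (AlgebraicClosure ℚ) ↥(modularFunctionFieldBar N),
          (∀ P, D P = P.ord (u : ↥(modularFunctionFieldBar N))) →
          ∀ Q, Finsupp.mapDomain r D Q = Q.ord ((AX_G N A h).red u) := by
  have hk : IsAlgClosed (IsLocalRing.ResidueField A) := S18_residue_isAlgClosed A
  have hchar : CharP (IsLocalRing.ResidueField A) ℓ := S18_residue_charP A ℓ hℓ.out hA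
  have hfinE : FiniteDimensional ↥(modularFunctionFieldFullC (IsLocalRing.ResidueField A) N)
      (AX_EN N A h ℓ) := DG_finite_EN N A h ℓ
  have hsepE : Algebra.IsSeparable ↥(modularFunctionFieldFullC (IsLocalRing.ResidueField A) N)
      (AX_EN N A h ℓ) := SPF_isSeparable_EN N A h hA hℓN
  obtain ⟨n, y, hC⟩ := RIF_isCart_j N A h hA hℓN
  obtain ⟨xi, hxi⟩ := (RIF_isUnit_j N A h).exists_left_inv
  have hsepj' : Algebra.IsSeparable (IsLocalRing.ResidueField A)⟮(AX_GN N A h ℓ).toVal.red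
      ((RIF_hd N A h (ℓ := ℓ)).incl (RIF_j N A h))⟯ (AX_EN N A h ℓ) := by
    have h1 := SPF_isSeparable_jbarN N A h hA hℓN
    have h2 := RIF_red_j' N A h (ℓ := ℓ)
    unfold RIF_j' at h2
    rw [h2]
    exact h1
  have hfdF : FiniteDimensional (AlgebraicClosure ℚ)⟮((RIF_j N A h : (AX_G N A h).O) :
      ↥(modularFunctionFieldBar N))⟯ ↥(modularFunctionFieldBar N) := finiteDimensional_jB N
  have hfdk : FiniteDimensional (IsLocalRing.ResidueField A)⟮(AX_G N A h).red (RIF_j N A h)⟯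
      ↥(modularFunctionFieldFullC (IsLocalRing.ResidueField A) N) :=
    SP_finite_jbarN N A h hA hℓN
  have hsepk : Algebra.IsSeparable (IsLocalRing.ResidueField A)⟮(AX_G N A h).red (RIF_j N A h)⟯
      ↥(modularFunctionFieldFullC (IsLocalRing.ResidueField A) N) :=
    SP_isSeparable_jbarN N A h hA hℓN
  exact RIF_exists_r' ℓ (AX_GN N A h ℓ) (RIF_hd N A h) (DG_finrank_eq N A h hA hℓN)
    (RIF_j N A h) xi hxi hC (ABH_N_rrHyp N ℓ) (SPF_RR_hyp_EN N A h hA hℓN) hg'
    (S18_hk N A hℓ.out hA hℓN)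

end concrete

section final

variable (N : ℕ) [NeZero N] (A : ValuationSubring (AlgebraicClosure ℚ))
  {ℓ : ℕ} (hℓ : ℓ.Prime) (hA : A.LiesOverPrime ℓ) (hℓN : ¬ ℓ ∣ N)

/-- **RI from SQUEEZE**: `ReductionInputsModL A N` for `ℓ ∤ N` from the genus inequality
`g(F') ≤ g(E_k)` on the auxiliary field. -/
theorem RIF_reductionInputs_of_genus
    (hg' : RR_genus (AlgebraicClosure ℚ) (AX_FN N ℓ) ≤
      RR_genus (IsLocalRing.ResidueField A) (AX_EN N A (RIG_hgen N A hℓ hA hℓN) ℓ)) :
    ReductionInputsModL A N := by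
  have : Fact ℓ.Prime := ⟨hℓ⟩
  obtain ⟨r, -, hr⟩ := RIF_exists_r_of_genus N A (RIG_hgen N A hℓ hA hℓN) hA hℓN hg'
  exact RIA_of_r N A hℓ hA hℓN r hr

end final

end Fermat.Agent.S18
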