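import Mathlib

/-!
# RI-N3: Gauss root counting in `A[X]` (helper3)

`A ⊂ L` a valuation ring of an algebraically closed field, `res : A → k` a ring hom whose kernel
is the set of non-units.  For `p ∈ A[X]` with nonzero reduction `p̄` and `c ∈ k`:
the multiplicity of `c` as a root of `p̄` equals the number of roots `a ∈ A` of `p`
(with multiplicity) whose residue is `c`.

Main statements: `RIG3_card_filter`, `RIG3_roots` (finset-sum form), `RIG3_roots_int`.
-/

set_option autoImplicit false

open Polynomial

namespace Fermat.Agent.S18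

section

variable {L k : Type*} [Field L] [Field k] (A : ValuationSubring L) (res : A →+* k)

/-- the predicate "`a ∈ A` and `res a = c`" on `L` -/
def RIG3_inDisc (c : k) (a : L) : Prop := ∃ h : a ∈ A, res ⟨a, h⟩ = c

theorem RIG3_inDisc_coe (c : k) (a : A) : RIG3_inDisc A res c (a : L) ↔ res a = c := by
  constructor
  · rintro ⟨h, hc⟩
    exact hc
  · intro h
    exact ⟨a.2, h⟩

theorem RIG3_map_subtype_injective :
    Function.Injective (Polynomial.map (A.subtype : A →+* L)) :=
  Polynomial.map_injective _ Subtype.val_injective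

/-- a non-member of `A` has its inverse in `A`, with zero residue -/
theorem RIG3_inv_mem_of_not_mem (hres : ∀ a : A, res a = 0 ↔ ¬ IsUnit a) {a : L} (ha : a ∉ A) :
    ∃ h : a⁻¹ ∈ A, res ⟨a⁻¹, h⟩ = 0 := by
  have hinv : a⁻¹ ∈ A := (A.mem_or_inv_mem a).resolve_left ha
  refine ⟨hinv, (hres _).2 ?_⟩
  intro hu
  obtain ⟨b, hb⟩ := hu.exists_right_inv
  have ha0 : a ≠ 0 := fun h => ha (h ▸ A.zero_mem)
  have h1 : a⁻¹ * (b : L) = 1 := congrArg Subtype.val hb
  have h2 : (b : L) = a := by
    field_simp at h1
    exact h1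
  exact ha (h2 ▸ b.2)

/-- the set of polynomials over `L` that lift to `A[X]` with reduction `1` -/
def RIG3_oneLift (f : L[X]) : Prop :=
  ∃ g : A[X], g.map (A.subtype : A →+* L) = f ∧ g.map res = 1

theorem RIG3_oneLift_one : RIG3_oneLift A res (1 : L[X]) :=
  ⟨1, by simp, by simp⟩

theorem RIG3_oneLift_mul {f g : L[X]} (hf : RIG3_oneLift A res f) (hg : RIG3_oneLift A res g) :
    RIG3_oneLift A res (f * g) := by
  obtain ⟨f', hf1, hf2⟩ := hf
  obtain ⟨g', hg1, hg2⟩ := hg
  exact ⟨f' * g', by rw [Polynomial.map_mul, hf1, hg1], by rw [Polynomial.map_mul, hf2, hg2, one_mul]⟩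

theorem RIG3_oneLift_factor (hres : ∀ a : A, res a = 0 ↔ ¬ IsUnit a) {a : L} (ha : a ∉ A) :
    RIG3_oneLift A res (1 - C a⁻¹ * X) := by
  obtain ⟨h, h0⟩ := RIG3_inv_mem_of_not_mem A res hres ha
  refine ⟨1 - C ⟨a⁻¹, h⟩ * X, ?_, ?_⟩
  · simp
  · simp [h0]

/-- Case "no root in `A`": the reduction is constant. -/
theorem RIG3_const_of_no_root [IsAlgClosed L] (hres : ∀ a : A, res a = 0 ↔ ¬ IsUnit a)
    (p : A[X]) (hno : ∀ a ∈ (p.map (A.subtype : A →+* L)).roots, a ∉ A) :
    p.map res = C (res (p.coeff 0)) := by
  classical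
  set P : L[X] := p.map (A.subtype : A →+* L) with hP
  -- product formula
  have hsplit : P = C P.leadingCoeff * (P.roots.map (X - C ·)).prod :=
    (IsAlgClosed.splits P).eq_prod_roots
  -- rewrite each factor
  have hfac : ∀ a ∈ P.roots, (X - C a : L[X]) = C (-a) * (1 - C a⁻¹ * X) := by
    intro a ha
    have ha0 : a ≠ 0 := fun h => hno a ha (h ▸ A.zero_mem)
    rw [mul_sub, mul_one, ← mul_assoc, ← C_mul, neg_mul, mul_inv_cancel₀ ha0, C_neg, C_neg, C_1]
    ring
  have hprod : (P.roots.map (X - C ·)).prod
      = C ((P.roots.map (fun a => -a)).prod) * (P.roots.map (fun a => (1 - C a⁻¹ * X : L[X]))).prod := by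
    have h1 : P.roots.map (X - C ·) = P.roots.map (fun a => C (-a) * (1 - C a⁻¹ * X : L[X])) :=
      Multiset.map_congr rfl hfac
    rw [h1, Multiset.prod_map_mul]
    congr 1
    have h2 : P.roots.map (fun a => (C (-a) : L[X]))
        = (P.roots.map (fun a => -a)).map (C : L →+* L[X]) := (Multiset.map_map _ _ _).symm
    rw [h2]
    exact (map_multiset_prod (C : L →+* L[X]) _).symm
  -- the second product lifts with reduction one
  have hone : RIG3_oneLift A res (P.roots.map (fun a => (1 - C a⁻¹ * X : L[X]))).prod := by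
    refine Multiset.prod_induction (RIG3_oneLift A res) _ (fun a b => RIG3_oneLift_mul A res)
      (RIG3_oneLift_one A res) ?_
    intro f hf
    obtain ⟨a, ha, rfl⟩ := Multiset.mem_map.1 hf
    exact RIG3_oneLift_factor A res hres (hno a ha)
  obtain ⟨g, hg1, hg2⟩ := hone
  -- `P = C u * g` with `u = P.coeff 0`
  set u : L := P.leadingCoeff * (P.roots.map (fun a => -a)).prod with hu
  have hPu : P = C u * g.map (A.subtype : A →+* L) := by
    rw [hg1, hu, C_mul, mul_assoc, ← hprod]
    exact hsplit
  have hg0 : (g.map (A.subtype : A →+* L)).coeff 0 = 1 := by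
    -- `g` is a product of factors `1 - b X`
    rw [hg1]
    rw [Polynomial.coeff_zero_eq_eval_zero, Polynomial.eval_multiset_prod]
    simp
  have hu0 : u = P.coeff 0 := by
    have := congrArg (fun f : L[X] => f.coeff 0) hPu
    simp only [Polynomial.coeff_C_mul] at this
    rw [hg0, mul_one] at this
    exact this.symm
  have hcoe : P.coeff 0 = ((p.coeff 0 : A) : L) := by
    rw [hP, Polynomial.coeff_map]
    rfl
  have hp : p = C (p.coeff 0) * g := by
    apply RIG3_map_subtype_injective A
    rw [Polynomial.map_mul, Polynomial.map_C, ← hP]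
    rw [hPu, hu0, hcoe]
    rfl
  conv_lhs => rw [hp]
  rw [Polynomial.map_mul, Polynomial.map_C, hg2, mul_one]

/-- **Gauss root counting**, multiset form. -/
theorem RIG3_card_filter [IsAlgClosed L] (hres : ∀ a : A, res a = 0 ↔ ¬ IsUnit a)
    (p : A[X]) (hp : p.map res ≠ 0) (c : k) [DecidablePred (RIG3_inDisc A res c)] :
    (p.map res).rootMultiplicity c =
      Multiset.card ((p.map (A.subtype : A →+* L)).roots.filter (RIG3_inDisc A res c)) := by
  classical
  induction hn : p.natDegree using Nat.strong_induction_on generalizing p with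
  | _ n ih =>
    by_cases hroot : ∃ a ∈ (p.map (A.subtype : A →+* L)).roots, a ∈ A
    · -- a root in `A`: split off the factor
      obtain ⟨a, ha, haA⟩ := hroot
      have hp0 : p ≠ 0 := fun h => hp (by rw [h, Polynomial.map_zero])
      have hroot' : p.IsRoot ⟨a, haA⟩ := by
        have h1 : (p.map (A.subtype : A →+* L)).IsRoot a := Polynomial.isRoot_of_mem_roots ha
        have h2 : (p.map (A.subtype : A →+* L)).eval ((A.subtype : A →+* L) ⟨a, haA⟩) = 0 := h1
        rw [Polynomial.eval_map, Polynomial.eval₂_hom] at h2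
        exact Subtype.val_injective (by simpa using h2)
      obtain ⟨q, hq⟩ := Polynomial.dvd_iff_isRoot.2 hroot'
      have hq0 : q ≠ 0 := fun h => hp0 (by rw [hq, h, mul_zero])
      have hdeg : p.natDegree = q.natDegree + 1 := by
        rw [hq, Polynomial.natDegree_mul (Polynomial.X_sub_C_ne_zero _) hq0,
          Polynomial.natDegree_X_sub_C, add_comm]
      have hqres : q.map res ≠ 0 := by
        intro h
        apply hp
        rw [hq, Polynomial.map_mul, h, mul_zero]
      have ihq := ih q.natDegree (by omega) q hqres rfl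
      have hL : p.map res = (X - C (res ⟨a, haA⟩)) * q.map res := by
        rw [hq, Polynomial.map_mul, Polynomial.map_sub, Polynomial.map_X, Polynomial.map_C]
      have hLne : (X - C (res ⟨a, haA⟩)) * q.map res ≠ 0 := by
        rw [← hL]; exact hp
      have hR : p.map (A.subtype : A →+* L) = (X - C a) * q.map (A.subtype : A →+* L) := by
        rw [hq, Polynomial.map_mul, Polynomial.map_sub, Polynomial.map_X, Polynomial.map_C]
        rfl
      have hRne : (X - C a) * q.map (A.subtype : A →+* L) ≠ 0 := by
        rw [← hR]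
        intro h
        exact hp0 (RIG3_map_subtype_injective A (by rw [h, Polynomial.map_zero]))
      rw [hL, Polynomial.rootMultiplicity_mul hLne, Polynomial.rootMultiplicity_X_sub_C, ihq, hR,
        Polynomial.roots_mul hRne, Polynomial.roots_X_sub_C, Multiset.filter_add,
        Multiset.card_add]
      congr 1
      by_cases hc : res ⟨a, haA⟩ = c
      · have hin : RIG3_inDisc A res c a := ⟨haA, hc⟩
        rw [if_pos hc.symm, Multiset.filter_singleton, if_pos hin, Multiset.card_singleton]
      · have hin : ¬ RIG3_inDisc A res c a := fun ⟨_, h⟩ => hc h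
        rw [if_neg (fun h => hc h.symm), Multiset.filter_singleton, if_neg hin]
        rfl
    · -- no root in `A`
      have hno : ∀ a ∈ (p.map (A.subtype : A →+* L)).roots, a ∉ A := by
        intro a ha haA
        exact hroot ⟨a, ha, haA⟩
      have hconst := RIG3_const_of_no_root A res hres p hno
      rw [hconst, Polynomial.rootMultiplicity_C]
      symm
      rw [Multiset.card_eq_zero, Multiset.filter_eq_nil]
      rintro a ha ⟨haA, -⟩
      exact hno a ha haA

/-- **Gauss root counting** (RI-N3), in the shape fixed by the RI captain. -/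
theorem RIG3_roots {L k : Type*} [Field L] [Field k] [IsAlgClosed L] (A : ValuationSubring L)
    (res : A →+* k) (hres : ∀ a : A, res a = 0 ↔ ¬ IsUnit a) (p : Polynomial A)
    (hp : p.map res ≠ 0) (c : k) [DecidableEq L]
    [DecidablePred (fun a : L => ∃ h : a ∈ A, res ⟨a, h⟩ = c)] :
    ((p.map res).rootMultiplicity c) =
      ∑ a ∈ (p.map A.subtype).roots.toFinset.filter (fun a => ∃ h : a ∈ A, res ⟨a, h⟩ = c),
        (p.map A.subtype).rootMultiplicity a := by
  let hdec : DecidablePred (RIG3_inDisc A res c) :=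
    fun a => (inferInstance : Decidable (∃ h : a ∈ A, res ⟨a, h⟩ = c))
  have h := RIG3_card_filter A res hres p hp c
  rw [h, ← Multiset.toFinset_sum_count_eq, Multiset.toFinset_filter]
  have hset : Finset.filter (RIG3_inDisc A res c) (map A.subtype p).roots.toFinset =
      (p.map A.subtype).roots.toFinset.filter (fun a => ∃ h : a ∈ A, res ⟨a, h⟩ = c) := by
    ext a
    simp only [Finset.mem_filter, RIG3_inDisc]
  refine Finset.sum_congr hset ?_
  intro a ha
  have hin : RIG3_inDisc A res c a := (Finset.mem_filter.1 ha).2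
  rw [Multiset.count_filter_of_pos hin, Polynomial.count_roots]

/-- `RIG3_roots` with values in `ℤ`. -/
theorem RIG3_roots_int {L k : Type*} [Field L] [Field k] [IsAlgClosed L] (A : ValuationSubring L)
    (res : A →+* k) (hres : ∀ a : A, res a = 0 ↔ ¬ IsUnit a) (p : Polynomial A)
    (hp : p.map res ≠ 0) (c : k) [DecidableEq L]
    [DecidablePred (fun a : L => ∃ h : a ∈ A, res ⟨a, h⟩ = c)] :
    (((p.map res).rootMultiplicity c : ℕ) : ℤ) =
      ∑ a ∈ (p.map A.subtype).roots.toFinset.filter (fun a => ∃ h : a ∈ A, res ⟨a, h⟩ = c),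
        ((p.map A.subtype).rootMultiplicity a : ℤ) := by
  rw [RIG3_roots A res hres p hp c]
  push_cast
  rfl

end

end Fermat.Agent.S18
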