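import Mathlib
import Fermat.Agent.S18.SemiCart
import Fermat.Agent.S18.NormRed

/-!
# RI, package RI-T (helper24), part 1: definitions and the norm polynomial (N1)

Abstract over a valued function field `S : S18_Val L F k Fk` with a cartesian chart
`hC : S.IsCart x y`.

* `S18_Val.RI_disc S x c P` : the place `P` lies in the residue disc of `c : k` in the chart `x`
  (`x(P) ∈ A` and `res x(P) = c`).
* `S18_Val.RI_reg S x f`    : `f` is regular wherever `x` is regular.
* `S18_Val.RIT_normData`    : the Gauss valuation ring of `L(x)` and `O` form an `S18_NormData`.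
* `S18_Val.RIT_norm_poly`   : (N1) for `f ∈ O` integral over `L[x]`, the norm `N_{F/L(x)} f` is
  `p(x)` with `p ∈ A[X]`, and `N_{Fk/k(x̄)} (red f) = p̄(x̄)`.
-/

set_option autoImplicit false

open AlgebraicCurve IntermediateField Polynomial Module
open scoped IntermediateField.algebraAdjoinAdjoin

namespace Fermat.Agent.S18

variable {L F k Fk : Type*} [Field L] [Field F] [Algebra L F] [Field k] [Field Fk]
  [Algebra k Fk]

namespace S18_Val

variable (S : S18_Val L F k Fk)

/-- the residue disc of `c : k` in the chart `x`: places `P` with `x(P) ∈ A`, `res x(P) = c`. -/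
def RI_disc (x : F) (c : k) (P : Place L F) : Prop :=
  ∃ a : S.A, S.res a = c ∧ 0 < P.ord (x - algebraMap L F (a : L))

/-- `f` is regular wherever `x` is regular. -/
def RI_reg (_S : S18_Val L F k Fk) (x f : F) : Prop :=
  ∀ P : Place L F, 0 ≤ P.ord x → 0 ≤ P.ord f

/-- the Gauss valuation ring of `L(x)`. -/
def RIT_Ox (x : F) : ValuationSubring L⟮x⟯ := S.O.comap (algebraMap L⟮x⟯ F)

theorem RIT_mem_Ox {x : F} (a : L⟮x⟯) : a ∈ S.RIT_Ox x ↔ (a : F) ∈ S.O := Iff.rfl

/-- the reduction map of the Gauss valuation ring of `L(x)`. -/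
def RIT_redx {x : S.O} (hx : Transcendental k (S.red x)) :
    S.RIT_Ox (x : F) →+* k⟮S.red x⟯ where
  toFun a := ⟨S.red ⟨((a : L⟮(x : F)⟯) : F), a.2⟩,
    S.red_mem_adjoin_of_mem hx ⟨((a : L⟮(x : F)⟯) : F), a.2⟩ (a : L⟮(x : F)⟯).2⟩
  map_one' := by
    apply Subtype.ext
    exact S.red.map_one
  map_mul' a b := by
    apply Subtype.ext
    exact S.red.map_mul ⟨((a : L⟮(x : F)⟯) : F), a.2⟩ ⟨((b : L⟮(x : F)⟯) : F), b.2⟩
  map_zero' := by
    apply Subtype.ext
    exact S.red.map_zero
  map_add' a b := by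
    apply Subtype.ext
    exact S.red.map_add ⟨((a : L⟮(x : F)⟯) : F), a.2⟩ ⟨((b : L⟮(x : F)⟯) : F), b.2⟩

theorem RIT_redx_coe {x : S.O} (hx : Transcendental k (S.red x)) (a : S.RIT_Ox (x : F)) :
    ((S.RIT_redx hx a : k⟮S.red x⟯) : Fk) = S.red ⟨((a : L⟮(x : F)⟯) : F), a.2⟩ := rfl

/-- the pair (Gauss ring of `L(x)`, `O`) is an `S18_NormData`. -/
theorem RIT_normData {x : S.O} (hx : Transcendental k (S.red x)) :
    S18_NormData (S.RIT_Ox (x : F)) (S.RIT_redx hx) S.O S.red where
  red_ne_zero_iff a := by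
    constructor
    · intro h
      have h1 : S.red ⟨((a : L⟮(x : F)⟯) : F), a.2⟩ ≠ 0 := by
        intro h0
        apply h
        apply Subtype.ext
        rw [RIT_redx_coe, h0]
        rfl
      obtain ⟨u, hu⟩ := (S.red_ne_zero_iff _).1 h1
      have h2 : ((u : S.O) : F) * (((u⁻¹ : S.Oˣ) : S.O) : F) = 1 := by
        exact_mod_cast congrArg (fun z : S.O => (z : F)) u.mul_inv
      have h3 : ((u : S.O) : F) = ((a : L⟮(x : F)⟯) : F) := congrArg Subtype.val hu
      have ha0 : ((a : L⟮(x : F)⟯) : F) ≠ 0 := by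
        intro h0
        rw [h3, h0, zero_mul] at h2
        exact zero_ne_one h2
      have h4 : (((u⁻¹ : S.Oˣ) : S.O) : F) = (((a : L⟮(x : F)⟯)⁻¹ : L⟮(x : F)⟯) : F) := by
        rw [IntermediateField.coe_inv]
        rw [h3] at h2
        exact eq_inv_of_mul_eq_one_right h2
      have h5 : (a : L⟮(x : F)⟯)⁻¹ ∈ S.RIT_Ox (x : F) := by
        rw [RIT_mem_Ox, ← h4]
        exact ((u⁻¹ : S.Oˣ) : S.O).2
      have ha0' : (a : L⟮(x : F)⟯) ≠ 0 := by
        intro h0
        apply ha0
        rw [h0]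
        rfl
      refine ⟨⟨a, ⟨(a : L⟮(x : F)⟯)⁻¹, h5⟩, ?_, ?_⟩, rfl⟩
      · apply Subtype.ext
        exact mul_inv_cancel₀ ha0'
      · apply Subtype.ext
        exact inv_mul_cancel₀ ha0'
    · intro h
      exact (h.map (S.RIT_redx hx)).ne_zero
  red'_surjective := S.red_surjective
  red'_ne_zero_iff := S.red_ne_zero_iff
  algebraMap_mem_iff _ := Iff.rfl
  red'_algebraMap _ _ := rfl

variable {S} in
/-- **(N1)** the norm polynomial of an element of `O` integral over `L[x]`: it has coefficients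
in `A` and reduces to the norm polynomial of the reduction. -/
theorem IsCart.RIT_norm_poly {n : ℕ} {x : S.O} {y : Fin n → S.O} (hC : S.IsCart x y)
    [FiniteDimensional L⟮(x : F)⟯ F] (f : S.O)
    (hint : IsIntegral (Algebra.adjoin L ({(x : F)} : Set F)) (f : F)) :
    ∃ p : Polynomial S.A,
      algebraMap L⟮(x : F)⟯ F (Algebra.norm L⟮(x : F)⟯ (f : F)) =
        aeval (x : F) (p.map (algebraMap S.A L)) ∧
      algebraMap k⟮S.red x⟯ Fk (Algebra.norm k⟮S.red x⟯ (S.red f)) =
        aeval (S.red x) (p.map S.res) := by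
  have hx := hC.transc
  have hxL : Transcendental L (x : F) := hC.transcendental_x
  have hdeg : finrank k⟮S.red x⟯ Fk = finrank L⟮(x : F)⟯ F := by
    rw [hC.finrank_red_eq, hC.finrank_eq]
  obtain ⟨hmem, hred⟩ := S18_norm_red (S.RIT_normData hx) hdeg f
  -- the norm is a polynomial in `x`
  have hNint : IsIntegral (Algebra.adjoin L ({(x : F)} : Set F))
      (Algebra.norm L⟮(x : F)⟯ (f : F)) := Algebra.isIntegral_norm L⟮(x : F)⟯ hint
  have hic : IsIntegrallyClosed (Algebra.adjoin L ({(x : F)} : Set F)) :=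
    S18_Val.isIntegrallyClosed_adjoin hxL
  obtain ⟨a, ha⟩ := IsIntegrallyClosed.isIntegral_iff.mp hNint
  obtain ⟨q, hq⟩ := Fermat.Agent.S24.BL_exists_aeval (K := L) (x : F) a
  have hN : algebraMap L⟮(x : F)⟯ F (Algebra.norm L⟮(x : F)⟯ (f : F)) = aeval (x : F) q := by
    rw [← ha, hq]
    rw [← IsScalarTower.algebraMap_apply (Algebra.adjoin L ({(x : F)} : Set F)) L⟮(x : F)⟯ F]
    show ((aeval (Fermat.Agent.S24.BL_gen (K := L) (x : F)) q :
      Algebra.adjoin L ({(x : F)} : Set F)) : F) = _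
    rw [Fermat.Agent.S24.BL_aeval_gen_coe]
  -- its coefficients are in `A`
  have hqO : aeval (x : F) q ∈ S.O := by
    rw [← hN]
    exact hmem
  have hcoeff := S.coeff_mem_of_aeval_mem hx q hqO
  obtain ⟨p, hp⟩ : ∃ p : Polynomial S.A, p.map (algebraMap S.A L) = q := by
    have : q ∈ Polynomial.lifts (algebraMap S.A L) := by
      rw [Polynomial.lifts_iff_coeff_lifts]
      intro i
      exact ⟨⟨q.coeff i, hcoeff i⟩, rfl⟩
    obtain ⟨p, hp⟩ := this
    exact ⟨p, hp⟩
  refine ⟨p, by rw [hp]; exact hN, ?_⟩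
  -- reduction
  have h1 : algebraMap k⟮S.red x⟯ Fk (Algebra.norm k⟮S.red x⟯ (S.red f)) =
      S.red ⟨algebraMap L⟮(x : F)⟯ F (Algebra.norm L⟮(x : F)⟯ (f : F)), hmem⟩ := by
    rw [← hred]
    rfl
  rw [h1]
  -- `red (p(x)) = p̄(x̄)`
  have h2 : (⟨algebraMap L⟮(x : F)⟯ F (Algebra.norm L⟮(x : F)⟯ (f : F)), hmem⟩ : S.O) =
      Polynomial.eval₂ S.const x p := by
    apply Subtype.ext
    show algebraMap L⟮(x : F)⟯ F (Algebra.norm L⟮(x : F)⟯ (f : F)) =
      ((Polynomial.eval₂ S.const x p : S.O) : F)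
    rw [hN, ← hp]
    rw [Polynomial.aeval_def, Polynomial.eval₂_map]
    have h3 : ∀ r : Polynomial S.A, ((Polynomial.eval₂ S.const x r : S.O) : F) =
        Polynomial.eval₂ ((algebraMap L F).comp (algebraMap S.A L)) (x : F) r := by
      intro r
      induction r using Polynomial.induction_on' with
      | add r s hr hs =>
        rw [Polynomial.eval₂_add, Polynomial.eval₂_add]
        push_cast
        rw [hr, hs]
      | monomial i a =>
        rw [Polynomial.eval₂_monomial, Polynomial.eval₂_monomial]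
        rfl
    exact (h3 p).symm
  rw [h2, Polynomial.hom_eval₂, Polynomial.aeval_def, Polynomial.eval₂_map]
  congr 1
  ext a
  exact S.red_const a

end S18_Val

end Fermat.Agent.S18
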