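import Mathlib
import Fermat.Agent.S18.RiT
import Fermat.Agent.S18.Norm

/-!
# RI, package RI-GEN (helper3): every Gauss unit is a quotient of chart-regular Gauss units

Abstract over a valued function field `S : S18_Val L F k Fk` with a cartesian chart
`hC : S.IsCart x y`.

* `S18_Val.IsCart.RIGEN_exists_int` : for every `u ∈ O` with `red u ≠ 0` there are `v, d ∈ O`
  with `red v ≠ 0`, `red d ≠ 0`, both integral over `L[x]`, `d` a polynomial in `x`,
  and `u * d = v`.
* `S18_Val.IsCart.RIGEN_exists` : the same with "regular wherever `x` is regular"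
  (`S.RI_reg x ·`) instead of integrality.
-/

set_option autoImplicit false

open AlgebraicCurve IntermediateField Polynomial Module
open scoped IntermediateField.algebraAdjoinAdjoin

namespace Fermat.Agent.S18

open Fermat.Agent.S24

variable {L F k Fk : Type*} [Field L] [Field F] [Algebra L F] [Field k] [Field Fk]
  [Algebra k Fk]

namespace S18_Val

variable {S : S18_Val L F k Fk}

/-- a polynomial in `x` is integral over `L[x]`. -/
theorem RIGEN_isIntegral_aeval (x : F) (q : L[X]) :
    IsIntegral (Algebra.adjoin L ({x} : Set F)) (aeval x q) := by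
  have h : aeval x q ∈ Algebra.adjoin L ({x} : Set F) := by
    rw [Algebra.adjoin_singleton_eq_range_aeval]
    exact ⟨q, rfl⟩
  exact isIntegral_algebraMap (R := Algebra.adjoin L ({x} : Set F)) (x := ⟨aeval x q, h⟩)

/-- multiplying by a constant preserves integrality over `L[x]`. -/
theorem RIGEN_isIntegral_const_mul (x : F) (c : L) {f : F}
    (hf : IsIntegral (Algebra.adjoin L ({x} : Set F)) f) :
    IsIntegral (Algebra.adjoin L ({x} : Set F)) (algebraMap L F c * f) := by
  have h : algebraMap L F c = aeval x (C c : L[X]) := by rw [aeval_C]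
  rw [h]
  exact (RIGEN_isIntegral_aeval x (C c)).mul hf

/-- **RI-GEN**, integral form. -/
theorem IsCart.RIGEN_exists_int {n : ℕ} {x : S.O} {y : Fin n → S.O} (hC : S.IsCart x y)
    (u : S.O) (hu : S.red u ≠ 0) :
    ∃ (v d : S.O) (q : L[X]), S.red v ≠ 0 ∧ S.red d ≠ 0 ∧
      IsIntegral (Algebra.adjoin L ({(x : F)} : Set F)) (v : F) ∧
      (d : F) = aeval (x : F) q ∧ (u : F) * (d : F) = (v : F) := by
  classical
  have := hC.finiteDimensional
  -- `u` is algebraic over `L[x]`
  have halg1 : IsAlgebraic L⟮(x : F)⟯ (u : F) :=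
    (Algebra.IsAlgebraic.of_finite L⟮(x : F)⟯ F).isAlgebraic (u : F)
  have halg : IsAlgebraic (Algebra.adjoin L ({(x : F)} : Set F)) (u : F) :=
    (IsFractionRing.isAlgebraic_iff (Algebra.adjoin L ({(x : F)} : Set F)) L⟮(x : F)⟯ F).2 halg1
  obtain ⟨g, hg0, hgint⟩ := halg.exists_integral_multiple
  obtain ⟨q, hq⟩ := BL_exists_aeval (K := L) (x : F) g
  have hgF : (g : F) = aeval (x : F) q := by
    rw [hq]
    exact BL_aeval_gen_coe (K := L) (x : F) q
  have hq0 : q ≠ 0 := by
    intro h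
    apply hg0
    rw [hq, h, map_zero]
  obtain ⟨c, d, hc0, hd, hcd⟩ := S.exists_const_mul_unit_aeval hC.transc q hq0
  have hcF : algebraMap L F c ≠ 0 := by simpa using hc0
  -- `d = c⁻¹ q(x)`
  have hdq : (d : F) = aeval (x : F) (C c⁻¹ * q) := by
    rw [map_mul, aeval_C, hcd, ← mul_assoc, ← map_mul, inv_mul_cancel₀ hc0, map_one, one_mul]
  refine ⟨u * d, d, C c⁻¹ * q, ?_, hd, ?_, hdq, ?_⟩
  · rw [map_mul]
    exact mul_ne_zero hu hd
  · -- `u * d = c⁻¹ * (g • u)`
    have h1 : ((u * d : S.O) : F) = algebraMap L F c⁻¹ * (g • (u : F)) := by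
      have h2 : g • (u : F) = (g : F) * (u : F) := rfl
      rw [h2, hgF, hcd, map_inv₀]
      show (u : F) * (d : F) = _
      field_simp
    rw [h1]
    exact RIGEN_isIntegral_const_mul (x : F) c⁻¹ hgint
  · rfl

/-- **RI-GEN**: every Gauss unit `u` is `v / d` with `v`, `d` Gauss units that are regular
wherever `x` is regular. -/
theorem IsCart.RIGEN_exists {n : ℕ} {x : S.O} {y : Fin n → S.O} (hC : S.IsCart x y)
    (u : S.O) (hu : S.red u ≠ 0) :
    ∃ v d : S.O, S.red v ≠ 0 ∧ S.red d ≠ 0 ∧ S.RI_reg (x : F) (v : F) ∧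
      S.RI_reg (x : F) (d : F) ∧ (u : F) * (d : F) = (v : F) := by
  obtain ⟨v, d, q, hv, hd, hvint, hdq, huv⟩ := hC.RIGEN_exists_int u hu
  refine ⟨v, d, hv, hd, ?_, ?_, huv⟩
  · intro P hP
    exact NM_regular_of_isIntegral (x : F) (v : F) hvint P hP
  · intro P hP
    refine NM_regular_of_isIntegral (x : F) (d : F) ?_ P hP
    rw [hdq]
    exact RIGEN_isIntegral_aeval (x : F) q

/-- **RI-GEN**, denominator form: `d` and `u * d` are Gauss units regular wherever `x` is. -/
theorem IsCart.RIGEN_exists_den {n : ℕ} {x : S.O} {y : Fin n → S.O} (hC : S.IsCart x y)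
    (u : S.O) (hu : S.red u ≠ 0) :
    ∃ d : S.O, S.red d ≠ 0 ∧ S.red (u * d) ≠ 0 ∧ S.RI_reg (x : F) (d : F) ∧
      S.RI_reg (x : F) ((u * d : S.O) : F) := by
  obtain ⟨v, d, hv, hd, hvreg, hdreg, huv⟩ := hC.RIGEN_exists u hu
  have hvd : v = u * d := Subtype.ext huv.symm
  refine ⟨d, hd, ?_, hdreg, ?_⟩
  · rw [← hvd]
    exact hv
  · rw [← hvd]
    exact hvreg

/-- additivity of `ord` along `u * d = v` (all nonzero). -/
theorem RIGEN_ord_eq {K E : Type*} [Field K] [Field E] [Algebra K E] (P : Place K E)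
    {u d v : E} (hu : u ≠ 0) (hd : d ≠ 0) (h : u * d = v) : P.ord u = P.ord v - P.ord d := by
  rw [← h, P.ord_mul hu hd]
  ring

end S18_Val

end Fermat.Agent.S18
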