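import Fermat.Agent.S18.RiT
import Fermat.Agent.S18.LiftMore
import Fermat.Agent.S18.Norm
import Fermat.Agent.S18.Final
import Fermat.Agent.S18.LocCusp
import Fermat.Agent.S18.SemiCart

/-!
# RI, package RI-5 (helper20): gluing the two charts `x`, `x⁻¹`; all Gauss units

`S : S18_Val L F k Fk`, `x ∈ O` a chart (`hC : S.IsCart x y`), `x' = x⁻¹`.

* `S18_Val.RIG5_int x P`: `P` is an integral point of the chart `x` (`x(P) ∈ A`).
* `S18_Val.RIG5_Chart x r`: `r` is a reduction of places in the chart `x`: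
  `fin` (`x̄(r P) = res x(P)`) and `sum` (property (2) for the Gauss units which are regular where
  `x` is, at the places `Q` where `x̄` is regular).  This is the output of RI-SEP (helper25).
* `S18_Val.RIG5_glue`: from a reduction in the chart `x` and one in the chart `x⁻¹`, a map
  `r : Pl(F) → Pl(Fk)` with property (2) for **all** Gauss units:
  `r_*(div u) = div (red u)` for `u ∈ O`, `red u ≠ 0`.

No consistency between the two charts is needed: `r := r₁` on the integral points of `x` and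
`r := r₂` elsewhere; the fibres of `r` over `{x̄ ≠ ∞}` lie in the chart `x`, those over
`{x̄ = ∞}` in the chart `x⁻¹`.
-/

set_option autoImplicit false

open AlgebraicCurve IntermediateField Polynomial
open scoped IntermediateField.algebraAdjoinAdjoin

namespace Fermat.Agent.S18

variable {L F k Fk : Type*} [Field L] [Field F] [Algebra L F] [Field k] [Field Fk]
  [Algebra k Fk]

/-- a nonzero constant has order `0`. -/
theorem RIG5_ord_pos_const (P : Place L F) {c : L} (hc : 0 < P.ord (algebraMap L F c)) :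
    False := by
  rw [S18_Spec.ord_algebraMap] at hc
  exact lt_irrefl _ hc

/-- a constant which is a sum of two functions vanishing at `P` is zero. -/
theorem RIG5_const_eq_zero (P : Place L F) {c : L} {f g : F}
    (h : algebraMap L F c = f + g) (hf : f = 0 ∨ 0 < P.ord f) (hg : g = 0 ∨ 0 < P.ord g) :
    c = 0 := by
  by_contra hc
  have hcF : algebraMap L F c ≠ 0 := by rwa [Ne, map_eq_zero]
  have h1 : (1 : ℤ) ≤ P.ord (f + g) := by
    refine S18_ord_add_ge P (h ▸ hcF) ?_ ?_
    · rcases hf with hf | hf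
      · exact Or.inl hf
      · exact Or.inr hf
    · rcases hg with hg | hg
      · exact Or.inl hg
      · exact Or.inr hg
  rw [← h, S18_Spec.ord_algebraMap] at h1
  omega

/-- regular at `P` if congruent to a constant. -/
theorem RIG5_ord_nonneg_of_sub_pos (P : Place L F) {x : F} {a : L}
    (h : 0 < P.ord (x - algebraMap L F a)) : 0 ≤ P.ord x := by
  rcases eq_or_ne x 0 with rfl | hx0
  · rw [Place.ord_zero]
  have h1 : x = (x - algebraMap L F a) + algebraMap L F a := by ring
  rw [h1] at hx0 ⊢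
  refine S18_ord_add_ge P hx0 (Or.inr h.le) ?_
  rcases eq_or_ne a 0 with rfl | ha
  · left; rw [map_zero]
  · right; rw [S18_Spec.ord_algebraMap]

namespace S18_Val

variable (S : S18_Val L F k Fk)

/-- `P` is an integral point of the chart `x`: `x(P) ∈ A`. -/
def RIG5_int (x : F) (P : Place L F) : Prop :=
  ∃ a : S.A, 0 < P.ord (x - algebraMap L F (a : L))

/-- `r` is a reduction of places in the chart `x` (only the values of `r` at the integral points
of the chart matter). -/
structure RIG5_Chart (x : S.O) (r : Place L F → Place k Fk) : Prop where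
  /-- `x̄(r P) = res x(P)` -/
  fin : ∀ (P : Place L F) (a : S.A), 0 < P.ord ((x : F) - algebraMap L F (a : L)) →
    0 < (r P).ord (S.red x - algebraMap k Fk (S.res a))
  /-- property (2) in the chart -/
  sum : ∀ f : S.O, S.RI_reg (x : F) (f : F) → S.red f ≠ 0 →
    ∀ Q : Place k Fk, 0 ≤ Q.ord (S.red x) → ∀ s : Finset (Place L F),
      (∀ P, P ∈ s ↔ S.RIG5_int (x : F) P ∧ r P = Q ∧ P.ord (f : F) ≠ 0) →
      ∑ P ∈ s, P.ord (f : F) = Q.ord (S.red f)

variable {S}

section Cover

variable {x x' : S.O} (hx' : x' * x = 1)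

include hx'

theorem RIG5_mul_eq_one : (x' : F) * (x : F) = 1 := by
  have := congrArg (fun z : S.O => (z : F)) hx'
  simpa using this

theorem RIG5_red_mul_eq_one : S.red x' * S.red x = 1 := by
  rw [← map_mul, hx', map_one]

theorem RIG5_coe_inv : (x' : F) = ((x : F))⁻¹ :=
  eq_inv_of_mul_eq_one_left (RIG5_mul_eq_one hx')

theorem RIG5_red_inv : S.red x' = (S.red x)⁻¹ :=
  eq_inv_of_mul_eq_one_left (RIG5_red_mul_eq_one hx')

/-- **cover**: a place which is not an integral point of `x` is an integral point of `x⁻¹`, with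
value in the maximal ideal. -/
theorem RIG5_cover (hdeg : ∀ P : Place L F, P.deg = 1) (hxt : Transcendental L (x : F))
    (P : Place L F) (hP : ¬ S.RIG5_int (x : F) P) :
    ∃ a : S.A, S.res a = 0 ∧ 0 < P.ord ((x' : F) - algebraMap L F (a : L)) := by
  have hinv := RIG5_coe_inv hx'
  by_cases h : 0 ≤ P.ord (x : F)
  · obtain ⟨a, ha | ha⟩ := S18_exists_value P (hdeg P) (x : F) h
    · exact absurd (ha ▸ isAlgebraic_algebraMap a) hxt
    · have haA : a ∉ S.A := fun haA => hP ⟨⟨a, haA⟩, ha⟩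
      have ha0 : a ≠ 0 := fun h0 => haA (h0 ▸ S.A.zero_mem)
      have hai : a⁻¹ ∈ S.A := (S.A.mem_or_inv_mem a).resolve_left haA
      refine ⟨⟨a⁻¹, hai⟩, S.res_inv_eq_zero haA hai, ?_⟩
      -- `ord x = 0`
      have hx0 : (x : F) ≠ 0 := fun h0 => hxt (h0 ▸ isAlgebraic_zero)
      have hle : P.ord (x : F) ≤ 0 := by
        have := S18_ord_sub_const_le P ha (c := -a) (neg_ne_zero.mpr ha0)
        rwa [map_neg, sub_neg_eq_add, sub_add_cancel] at this
      have hord : P.ord (x : F) = 0 := le_antisymm hle h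
      have hxa : (x : F) - algebraMap L F a ≠ 0 := by
        intro h0
        rw [h0, Place.ord_zero] at ha
        exact lt_irrefl _ ha
      have haF : algebraMap L F a ≠ 0 := by rwa [Ne, map_eq_zero]
      have key : (x' : F) - algebraMap L F a⁻¹ =
          -(((x : F) - algebraMap L F a) * ((x : F))⁻¹ * (algebraMap L F a)⁻¹) := by
        rw [hinv, map_inv₀]
        field_simp
        ring
      show 0 < P.ord ((x' : F) - algebraMap L F a⁻¹)
      rw [key, S18_ord_neg, P.ord_mul (mul_ne_zero hxa (inv_ne_zero hx0)) (inv_ne_zero haF),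
        P.ord_mul hxa (inv_ne_zero hx0), P.ord_inv, P.ord_inv, hord, S18_Spec.ord_algebraMap]
      omega
  · refine ⟨0, map_zero _, ?_⟩
    rw [ZeroMemClass.coe_zero, map_zero, sub_zero, hinv, P.ord_inv]
    omega

/-- **overlap**: at a common integral point of `x` and `x⁻¹` the values are inverse to each
other. -/
theorem RIG5_overlap (P : Place L F) (a a' : S.A)
    (ha : 0 < P.ord ((x : F) - algebraMap L F (a : L)))
    (ha' : 0 < P.ord ((x' : F) - algebraMap L F (a' : L))) : a * a' = 1 := by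
  have hmul := RIG5_mul_eq_one hx'
  have h1 : algebraMap L F (1 - (a : L) * (a' : L)) =
      ((x : F) - algebraMap L F (a : L)) * (x' : F) +
        algebraMap L F (a : L) * ((x' : F) - algebraMap L F (a' : L)) := by
    rw [map_sub, map_mul, map_one]
    linear_combination (-1 : F) * hmul
  have hx'reg : 0 ≤ P.ord (x' : F) := RIG5_ord_nonneg_of_sub_pos P ha'
  have hx'0 : (x' : F) ≠ 0 := fun h0 => by rw [h0, zero_mul] at hmul; exact zero_ne_one hmul
  have hxa : (x : F) - algebraMap L F (a : L) ≠ 0 := by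
    intro h0
    rw [h0, Place.ord_zero] at ha
    exact lt_irrefl _ ha
  have hxa' : (x' : F) - algebraMap L F (a' : L) ≠ 0 := by
    intro h0
    rw [h0, Place.ord_zero] at ha'
    exact lt_irrefl _ ha'
  have h2 := RIG5_const_eq_zero P h1
    (Or.inr (by rw [P.ord_mul hxa hx'0]; omega))
    (by
      rcases eq_or_ne (a : L) 0 with h0 | h0
      · left; rw [h0, map_zero, zero_mul]
      · right
        rw [P.ord_mul (by rwa [Ne, map_eq_zero]) hxa', S18_Spec.ord_algebraMap, zero_add]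
        exact ha')
  apply Subtype.ext
  show (a : L) * (a' : L) = 1
  exact (sub_eq_zero.mp h2).symm

end Cover

section Glue

open Classical in
/-- the glued map: `r₁` on the integral points of the chart `x`, `r₂` elsewhere. -/
noncomputable def RIG5_r (S : S18_Val L F k Fk) (x : F) (r₁ r₂ : Place L F → Place k Fk) :
    Place L F → Place k Fk :=
  fun P => if S.RIG5_int x P then r₁ P else r₂ P

theorem RIG5_r_of_int {x : F} {r₁ r₂ : Place L F → Place k Fk} {P : Place L F}
    (hP : S.RIG5_int x P) : S.RIG5_r x r₁ r₂ P = r₁ P := by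
  rw [RIG5_r, if_pos hP]

theorem RIG5_r_of_not_int {x : F} {r₁ r₂ : Place L F → Place k Fk} {P : Place L F}
    (hP : ¬ S.RIG5_int x P) : S.RIG5_r x r₁ r₂ P = r₂ P := by
  rw [RIG5_r, if_neg hP]

variable {x x' : S.O} (hx' : x' * x = 1) {r₁ r₂ : Place L F → Place k Fk}
  (h₁ : S.RIG5_Chart x r₁) (h₂ : S.RIG5_Chart x' r₂)

include h₁ in
/-- if `x̄ - c` vanishes at `Q` then `x̄` is regular at `Q`. -/
theorem RIG5_fin_nonneg (P : Place L F) (hP : S.RIG5_int (x : F) P) :
    0 ≤ (r₁ P).ord (S.red x) := by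
  obtain ⟨a, ha⟩ := hP
  exact RIG5_ord_nonneg_of_sub_pos (r₁ P) (h₁.fin P a ha)

include hx' h₂ in
/-- **fibres over `{x̄ ≠ ∞}`** lie in the chart `x`. -/
theorem RIG5_fibre_fin (hdeg : ∀ P : Place L F, P.deg = 1) (hxt : Transcendental L (x : F))
    (Q : Place k Fk) (hQ : 0 ≤ Q.ord (S.red x)) (P : Place L F)
    (hP : S.RIG5_r (x : F) r₁ r₂ P = Q) : S.RIG5_int (x : F) P := by
  by_contra hnot
  rw [RIG5_r_of_not_int hnot] at hP
  obtain ⟨a, hres, ha⟩ := RIG5_cover hx' hdeg hxt P hnot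
  have h1 := h₂.fin P a ha
  rw [hP, hres, map_zero, sub_zero, RIG5_red_inv hx', Q.ord_inv] at h1
  omega

include hx' h₁ h₂ in
/-- **fibres over `{x̄ = ∞}`** are the fibres of `r₂` on the integral points of `x⁻¹`. -/
theorem RIG5_fibre_inf (hdeg : ∀ P : Place L F, P.deg = 1) (hxt : Transcendental L (x : F))
    (Q : Place k Fk) (hQ : Q.ord (S.red x) < 0) (P : Place L F) :
    S.RIG5_r (x : F) r₁ r₂ P = Q ↔ S.RIG5_int (x' : F) P ∧ r₂ P = Q := by
  constructor
  · intro hP
    have hnot : ¬ S.RIG5_int (x : F) P := by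
      intro hint
      rw [RIG5_r_of_int hint] at hP
      have := RIG5_fin_nonneg h₁ P hint
      rw [hP] at this
      omega
    rw [RIG5_r_of_not_int hnot] at hP
    obtain ⟨a, -, ha⟩ := RIG5_cover hx' hdeg hxt P hnot
    exact ⟨⟨a, ha⟩, hP⟩
  · rintro ⟨⟨a', ha'⟩, hP⟩
    have hnot : ¬ S.RIG5_int (x : F) P := by
      rintro ⟨a, ha⟩
      have haa' : a * a' = 1 := RIG5_overlap hx' P a a' ha ha'
      have hres : S.res a * S.res a' = 1 := by rw [← map_mul, haa', map_one]
      have hres0 : S.res a' ≠ 0 := right_ne_zero_of_mul_eq_one hres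
      have h1 := h₂.fin P a' ha'
      rw [hP] at h1
      -- `ord_Q x̄' > 0`
      have h2 : 0 < Q.ord (S.red x') := by
        rw [RIG5_red_inv hx', Q.ord_inv]
        omega
      have h3 := S18_ord_sub_const_le Q h2 hres0
      omega
    rw [RIG5_r_of_not_int hnot]
    exact hP

include hx' h₁ h₂ in
/-- property (2) for a Gauss unit which is regular where `x` is, at a place where `x̄` is
regular. -/
theorem RIG5_reg_fin (hdeg : ∀ P : Place L F, P.deg = 1) (hxt : Transcendental L (x : F))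
    (f : S.O) (hreg : S.RI_reg (x : F) (f : F)) (hf : S.red f ≠ 0)
    (D : Divisor L F) (hD : ∀ P, D P = P.ord (f : F))
    (Q : Place k Fk) (hQ : 0 ≤ Q.ord (S.red x)) :
    Finsupp.mapDomain (S.RIG5_r (x : F) r₁ r₂) D Q = Q.ord (S.red f) := by
  classical
  rw [LC_mapDomain_apply, ← Finset.sum_filter]
  have hs : ∀ P, P ∈ D.support.filter (fun P => S.RIG5_r (x : F) r₁ r₂ P = Q) ↔
      S.RIG5_int (x : F) P ∧ r₁ P = Q ∧ P.ord (f : F) ≠ 0 := by
    intro P
    rw [Finset.mem_filter, Finsupp.mem_support_iff, hD]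
    constructor
    · rintro ⟨h0, hP⟩
      have hint := RIG5_fibre_fin hx' h₂ hdeg hxt Q hQ P hP
      rw [RIG5_r_of_int hint] at hP
      exact ⟨hint, hP, h0⟩
    · rintro ⟨hint, hP, h0⟩
      rw [RIG5_r_of_int hint]
      exact ⟨h0, hP⟩
  rw [← h₁.sum f hreg hf Q hQ _ hs]
  exact Finset.sum_congr rfl fun P _ => hD P

include hx' h₁ h₂ in
/-- property (2) for a Gauss unit which is regular where `x⁻¹` is, at a pole of `x̄`. -/
theorem RIG5_reg_inf (hdeg : ∀ P : Place L F, P.deg = 1) (hxt : Transcendental L (x : F))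
    (f : S.O) (hreg : S.RI_reg (x' : F) (f : F)) (hf : S.red f ≠ 0)
    (D : Divisor L F) (hD : ∀ P, D P = P.ord (f : F))
    (Q : Place k Fk) (hQ : Q.ord (S.red x) < 0) :
    Finsupp.mapDomain (S.RIG5_r (x : F) r₁ r₂) D Q = Q.ord (S.red f) := by
  classical
  rw [LC_mapDomain_apply, ← Finset.sum_filter]
  have hs : ∀ P, P ∈ D.support.filter (fun P => S.RIG5_r (x : F) r₁ r₂ P = Q) ↔
      S.RIG5_int (x' : F) P ∧ r₂ P = Q ∧ P.ord (f : F) ≠ 0 := by
    intro P
    rw [Finset.mem_filter, Finsupp.mem_support_iff, hD,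
      RIG5_fibre_inf hx' h₁ h₂ hdeg hxt Q hQ P]
    tauto
  have hQ' : 0 ≤ Q.ord (S.red x') := by
    rw [RIG5_red_inv hx', Q.ord_inv]
    omega
  rw [← h₂.sum f hreg hf Q hQ' _ hs]
  exact Finset.sum_congr rfl fun P _ => hD P

end Glue

section Frac

/-- a polynomial in `x` is regular where `x` is. -/
theorem RIG5_reg_aeval (x : F) (p : L[X]) (P : Place L F) (hP : 0 ≤ P.ord x) :
    0 ≤ P.ord (aeval x p) := by
  refine NM_regular_of_isIntegral x _ ?_ P hP
  have hmem : aeval x p ∈ Algebra.adjoin L ({x} : Set F) := by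
    rw [Algebra.adjoin_singleton_eq_range_aeval]
    exact ⟨p, rfl⟩
  exact isIntegral_algebraMap (x := (⟨aeval x p, hmem⟩ : Algebra.adjoin L ({x} : Set F)))

/-- **clearing denominators**: every Gauss unit is a quotient of two Gauss units which are
regular where `x` is regular. -/
theorem IsCart.RIG5_exists_frac {n : ℕ} {x : S.O} {y : Fin n → S.O} (hC : S.IsCart x y)
    (u : S.O) (hu : S.red u ≠ 0) :
    ∃ f g : S.O, S.RI_reg (x : F) (f : F) ∧ S.RI_reg (x : F) (g : F) ∧
      S.red f ≠ 0 ∧ S.red g ≠ 0 ∧ f = u * g := by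
  have hfd := hC.finiteDimensional
  have halg : Algebra.IsAlgebraic L⟮(x : F)⟯ F := Algebra.IsAlgebraic.of_finite _ _
  have halg' : IsAlgebraic (Algebra.adjoin L ({(x : F)} : Set F)) (u : F) :=
    (IsFractionRing.isAlgebraic_iff (Algebra.adjoin L ({(x : F)} : Set F)) L⟮(x : F)⟯ F).2
      (Algebra.IsAlgebraic.isAlgebraic (u : F))
  obtain ⟨z, hz0, hz⟩ := halg'.exists_integral_multiple
  obtain ⟨p, hp⟩ : ∃ p : L[X], aeval (x : F) p = (z : F) := by
    have h1 : (z : F) ∈ Algebra.adjoin L ({(x : F)} : Set F) := z.2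
    have h2 : (z : F) ∈ (aeval (R := L) (x : F)).range := by
      rw [← Algebra.adjoin_singleton_eq_range_aeval]; exact h1
    exact h2
  have hp0 : p ≠ 0 := by
    rintro rfl
    apply hz0
    apply Subtype.ext
    rw [← hp]
    simp
  obtain ⟨c, v, hc, hv, hcv⟩ := S.exists_const_mul_unit_aeval hC.transc p hp0
  have hcF : algebraMap L F c ≠ 0 := by rwa [Ne, map_eq_zero]
  have hv0 : (v : F) ≠ 0 := S.ne_zero_of_red_ne_zero hv
  have hu0 : (u : F) ≠ 0 := S.ne_zero_of_red_ne_zero hu
  refine ⟨u * v, v, ?_, ?_, ?_, hv, rfl⟩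
  · -- `u v = c⁻¹ (p(x) u)` and `p(x) u` is integral over `L[x]`
    intro P hP
    have h1 : 0 ≤ P.ord ((z : F) * (u : F)) := by
      refine NM_regular_of_isIntegral (x : F) _ ?_ P hP
      rwa [Algebra.smul_def] at hz
    rw [← hp, hcv, mul_assoc, P.ord_mul hcF (mul_ne_zero hv0 hu0), S18_Spec.ord_algebraMap,
      zero_add, mul_comm] at h1
    exact h1
  · intro P hP
    have h1 := RIG5_reg_aeval (x : F) p P hP
    rw [hcv, P.ord_mul hcF hv0, S18_Spec.ord_algebraMap, zero_add] at h1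
    exact h1
  · rw [map_mul]
    exact mul_ne_zero hu hv

end Frac

section Main

variable {x x' : S.O} (hx' : x' * x = 1) {r₁ r₂ : Place L F → Place k Fk}

/-- additivity: property (2) for `f` and `g` gives property (2) for `u = f / g`. -/
theorem RIG5_of_frac (hPD : HasPrincipalDivisors L F) (r : Place L F → Place k Fk)
    (Q : Place k Fk) (u f g : S.O) (hf : S.red f ≠ 0) (hg : S.red g ≠ 0) (hfug : f = u * g)
    (Hf : ∀ D : Divisor L F, (∀ P, D P = P.ord (f : F)) →
      Finsupp.mapDomain r D Q = Q.ord (S.red f))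
    (Hg : ∀ D : Divisor L F, (∀ P, D P = P.ord (g : F)) →
      Finsupp.mapDomain r D Q = Q.ord (S.red g))
    (D : Divisor L F) (hD : ∀ P, D P = P.ord (u : F)) :
    Finsupp.mapDomain r D Q = Q.ord (S.red u) := by
  have hf0 : (f : F) ≠ 0 := S.ne_zero_of_red_ne_zero hf
  have hg0 : (g : F) ≠ 0 := S.ne_zero_of_red_ne_zero hg
  have hfug' : (f : F) = (u : F) * (g : F) := by rw [hfug]; rfl
  have hu0 : (u : F) ≠ 0 := by
    intro h0
    rw [h0, zero_mul] at hfug'
    exact hf0 hfug'
  have hru : S.red u ≠ 0 := by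
    intro h0
    rw [hfug, map_mul, h0, zero_mul] at hf
    exact hf rfl
  obtain ⟨Df, hDf, -⟩ := hPD.exists_divisor (f : F) hf0
  obtain ⟨Dg, hDg, -⟩ := hPD.exists_divisor (g : F) hg0
  have hsum : D + Dg = Df := by
    ext P
    rw [Finsupp.add_apply, hD, hDg, hDf, hfug', P.ord_mul hu0 hg0]
  have h1 : Finsupp.mapDomain r D Q + Finsupp.mapDomain r Dg Q = Finsupp.mapDomain r Df Q := by
    rw [← Finsupp.add_apply, ← Finsupp.mapDomain_add, hsum]
  rw [Hf Df hDf, Hg Dg hDg, hfug, map_mul, Q.ord_mul hru hg] at h1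
  omega

include hx' in
/-- **RI-5**: gluing the reductions of places in the charts `x` and `x⁻¹`: property (2) for all
Gauss units. -/
theorem IsCart.RIG5_glue {n : ℕ} {y : Fin n → S.O} (hC : S.IsCart x y)
    (hdeg : ∀ P : Place L F, P.deg = 1) (hPD : HasPrincipalDivisors L F)
    (h₁ : S.RIG5_Chart x r₁) (h₂ : S.RIG5_Chart x' r₂) :
    ∃ r : Place L F → Place k Fk, ∀ u : S.O, S.red u ≠ 0 → ∀ D : Divisor L F,
      (∀ P, D P = P.ord (u : F)) → ∀ Q, Finsupp.mapDomain r D Q = Q.ord (S.red u) := by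
  have hxt : Transcendental L (x : F) := hC.transcendental_x
  have hC' : S.IsCart x' y := hC.inv x' hx'
  refine ⟨S.RIG5_r (x : F) r₁ r₂, fun u hu D hD Q => ?_⟩
  by_cases hQ : 0 ≤ Q.ord (S.red x)
  · obtain ⟨f, g, hfreg, hgreg, hf, hg, hfug⟩ := hC.RIG5_exists_frac u hu
    exact RIG5_of_frac hPD _ Q u f g hf hg hfug
      (fun D' hD' => RIG5_reg_fin hx' h₁ h₂ hdeg hxt f hfreg hf D' hD' Q hQ)
      (fun D' hD' => RIG5_reg_fin hx' h₁ h₂ hdeg hxt g hgreg hg D' hD' Q hQ) D hD
  · obtain ⟨f, g, hfreg, hgreg, hf, hg, hfug⟩ := hC'.RIG5_exists_frac u hu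
    exact RIG5_of_frac hPD _ Q u f g hf hg hfug
      (fun D' hD' => RIG5_reg_inf hx' h₁ h₂ hdeg hxt f hfreg hf D' hD' Q (not_le.mp hQ))
      (fun D' hD' => RIG5_reg_inf hx' h₁ h₂ hdeg hxt g hgreg hg D' hD' Q (not_le.mp hQ)) D hD

include hx' in
/-- **RI-5**, with degrees (all places of degree one on both sides). -/
theorem IsCart.RIG5_glue' {n : ℕ} {y : Fin n → S.O} (hC : S.IsCart x y)
    (hdeg : ∀ P : Place L F, P.deg = 1) (hdegk : ∀ Q : Place k Fk, Q.deg = 1)
    (hPD : HasPrincipalDivisors L F)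
    (h₁ : S.RIG5_Chart x r₁) (h₂ : S.RIG5_Chart x' r₂) :
    ∃ r : Place L F → Place k Fk, (∀ P, (r P).deg = P.deg) ∧
      ∀ u : S.O, S.red u ≠ 0 → ∀ D : Divisor L F,
        (∀ P, D P = P.ord (u : F)) → ∀ Q, Finsupp.mapDomain r D Q = Q.ord (S.red u) := by
  obtain ⟨r, hr⟩ := hC.RIG5_glue hx' hdeg hPD h₁ h₂
  exact ⟨r, fun P => by rw [hdeg P, hdegk (r P)], hr⟩

end Main

end S18_Val

end Fermat.Agent.S18
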