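import Fermat.Agent.S18.RiSep
import Fermat.Agent.S18.RiGlue

/-!
# RI, package RI-ASM (helper20), part 1: the reduction of places at ONE level

`RIL_exists_r`: for a Gauss datum `G` on a function field `E / L` (`L`, `k` algebraically closed,
`char L = 0`, `char k = ℓ`) with a chart `x` (`IsCart x y`, i.e. `[E : L(x)] = [E_k : k(x̄)]`),
`E_k / k(x̄)` separable, Riemann's theorem on both sides and `g(E) ≤ g(E_k)`, there is a map of
places `r : Pl(E) → Pl(E_k)`, preserving degrees, with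

  (2)  `r_*(div u) = div (red u)`  for all Gauss units `u`.

Proof: `RIS_chart` (helper25) in the charts `x` and `x⁻¹`, glued by `RIG5_glue'`.
-/

set_option autoImplicit false

open AlgebraicCurve IntermediateField Polynomial

namespace Fermat.Agent.S18

open Fermat.Agent.Lib Fermat.Agent.S24

variable {L E k Ek : Type*} [Field L] [Field E] [Algebra L E] [Field k] [Field Ek]
  [Algebra k Ek]

/-- **RI at one level** (`S18_Val` form of the conclusion). -/
theorem RIL_exists_r_val [IsAlgClosed L] [CharZero L] [IsAlgClosed k] (ℓ : ℕ)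
    [Fact ℓ.Prime] [CharP k ℓ] (G : S18_Gauss L E k Ek) {n : ℕ} {x : G.toVal.O}
    {y : Fin n → G.toVal.O} (hC : G.toVal.IsCart x y)
    [Algebra.IsSeparable k⟮G.toVal.red x⟯ Ek]
    (hE : RR_Hyp L E) (hEk : RR_Hyp k Ek) (hg : RR_genus L E ≤ RR_genus k Ek) :
    ∃ r : Place L E → Place k Ek, (∀ P, (r P).deg = P.deg) ∧
      ∀ u : G.toVal.O, G.toVal.red u ≠ 0 → ∀ D : Divisor L E,
        (∀ P, D P = P.ord (u : E)) → ∀ Q, Finsupp.mapDomain r D Q = Q.ord (G.toVal.red u) := by
  obtain ⟨x', hx'⟩ := hC.isUnit_x.exists_left_inv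
  have hC' : G.toVal.IsCart x' y := hC.inv x' hx'
  have hredinv : G.toVal.red x' = (G.toVal.red x)⁻¹ := S18_Val.RIG5_red_inv hx'
  have hsep' : Algebra.IsSeparable k⟮G.toVal.red x'⟯ Ek := by
    rw [hredinv]
    exact FFS_isSeparable_inv (G.toVal.red x)
  obtain ⟨r₁, hfin₁, hsum₁⟩ := RIS_chart ℓ G hC hE hEk hg
  obtain ⟨r₂, hfin₂, hsum₂⟩ := RIS_chart ℓ G hC' hE hEk hg
  exact hC.RIG5_glue' hx' hE.deg_one hEk.deg_one hE.principal
    (r₁ := r₁) (r₂ := r₂) ⟨hfin₁, hsum₁⟩ ⟨hfin₂, hsum₂⟩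

/-- **RI at one level**: the reduction map of places of a Gauss datum with a chart. -/
theorem RIL_exists_r [IsAlgClosed L] [CharZero L] [IsAlgClosed k] (ℓ : ℕ)
    [Fact ℓ.Prime] [CharP k ℓ] (G : S18_Gauss L E k Ek) {n : ℕ} {x : G.toVal.O}
    {y : Fin n → G.toVal.O} (hC : G.toVal.IsCart x y)
    [Algebra.IsSeparable k⟮G.toVal.red x⟯ Ek]
    (hE : RR_Hyp L E) (hEk : RR_Hyp k Ek) (hg : RR_genus L E ≤ RR_genus k Ek) :
    ∃ r : Place L E → Place k Ek, (∀ P, (r P).deg = P.deg) ∧
      ∀ u : G.O, G.red u ≠ 0 → ∀ D : Divisor L E,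
        (∀ P, D P = P.ord (u : E)) → ∀ Q, Finsupp.mapDomain r D Q = Q.ord (G.red u) :=
  RIL_exists_r_val ℓ G hC hE hEk hg

/-- the specialisation datum (`S18_Spec`) of a Gauss datum with a chart. -/
theorem RIL_exists_spec [IsAlgClosed L] [CharZero L] [IsAlgClosed k] (ℓ : ℕ)
    [Fact ℓ.Prime] [CharP k ℓ] (G : S18_Gauss L E k Ek) {n : ℕ} {x : G.toVal.O}
    {y : Fin n → G.toVal.O} (hC : G.toVal.IsCart x y)
    [Algebra.IsSeparable k⟮G.toVal.red x⟯ Ek]
    (hE : RR_Hyp L E) (hEk : RR_Hyp k Ek) (hg : RR_genus L E ≤ RR_genus k Ek) :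
    ∃ S : S18_Spec L E k Ek, S.toGauss = G := by
  obtain ⟨r, hdeg, h2⟩ := RIL_exists_r ℓ G hC hE hEk hg
  exact ⟨{ A := G.A
           res := G.res
           res_surjective := G.res_surjective
           res_eq_zero_iff := G.res_eq_zero_iff
           O := G.O
           red := G.red
           red_surjective := G.red_surjective
           red_ne_zero_iff := G.red_ne_zero_iff
           algebraMap_mem_iff := G.algebraMap_mem_iff
           red_algebraMap := G.red_algebraMap
           exists_const_mul_unit := G.exists_const_mul_unit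
           r := r
           deg_r := hdeg
           mapDomain_div := h2 }, rfl⟩

end Fermat.Agent.S18
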