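import Fermat.Agent.S18.SemiCart
import Fermat.Agent.Lib.DiffTDLocal

/-!
# S18 / RI, package RI-2 (helper26): reduction of integral affine points

Abstract setting: a Gauss datum `G : S18_Gauss L E k Ek` with a cartesian chart `x`
(`G.toVal.IsCart x y`).  `R_x` = functions of `O` regular where `x` is regular (= integral over
`L[x]`), `B_k` = functions of `Ek` regular where `x̄ = red x` is regular.

* `RIM_exists_monic` : `f ∈ R_x` is a root of a monic polynomial with coefficients in `A[x]`;
* `RIM_value_mem`    : (V) if `x(P) ∈ A` then `f(P) ∈ A` for all `f ∈ R_x`;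
* `RIM_value_res_eq_zero` : (V') if moreover `red f = 0` then `f(P) ∈ 𝔪_A`;
* `RIM_exists_place` : (DEF + ★) given ONTO (`red : R_x → B_k` surjective), for every place `P`
  with `x(P) ∈ A` there is a place `Q` of `Ek`, finite for `x̄`, with
  `(red f)(Q) = res (f(P))` for all `f ∈ R_x`;
* `RIM_place_unique` : such a `Q` is unique.
-/

set_option autoImplicit false

open AlgebraicCurve IntermediateField Polynomial IsDedekindDomain
open scoped IntermediateField.algebraAdjoinAdjoin

namespace Fermat.Agent.S18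

open Fermat.Agent.Lib Fermat.Agent.S24

variable {L E k Ek : Type*} [Field L] [Field E] [Algebra L E] [Field k] [Field Ek]
  [Algebra k Ek]

/-! ### congruences modulo the maximal ideal of a place -/

/-- `u ≡ u'` modulo the maximal ideal of `P`, both regular at `P`. -/
def RIM_Cong (P : Place L E) (u u' : E) : Prop :=
  P.adicValuation u ≤ 1 ∧ P.adicValuation u' ≤ 1 ∧ P.adicValuation (u - u') < 1

namespace RIM_Cong

variable {P : Place L E} {u u' w w' : E}

theorem const (P : Place L E) (c : L) : RIM_Cong P (algebraMap L E c) (algebraMap L E c) :=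
  ⟨FDT_val_algebraMap_le P c, FDT_val_algebraMap_le P c, by rw [sub_self, map_zero]; exact zero_lt_one⟩

theorem of_val (ha : P.adicValuation u' ≤ 1) (h : P.adicValuation (u - u') < 1) :
    RIM_Cong P u u' := by
  refine ⟨?_, ha, h⟩
  have : u = (u - u') + u' := by ring
  rw [this]
  exact (Valuation.map_add _ _ _).trans (max_le h.le ha)

theorem add (h : RIM_Cong P u u') (h' : RIM_Cong P w w') : RIM_Cong P (u + w) (u' + w') := by
  refine ⟨(Valuation.map_add _ _ _).trans (max_le h.1 h'.1),
    (Valuation.map_add _ _ _).trans (max_le h.2.1 h'.2.1), ?_⟩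
  have : u + w - (u' + w') = (u - u') + (w - w') := by ring
  rw [this]
  exact lt_of_le_of_lt (Valuation.map_add _ _ _) (max_lt h.2.2 h'.2.2)

theorem mul (h : RIM_Cong P u u') (h' : RIM_Cong P w w') : RIM_Cong P (u * w) (u' * w') := by
  refine ⟨?_, ?_, ?_⟩
  · rw [map_mul]; exact mul_le_one' h.1 h'.1
  · rw [map_mul]; exact mul_le_one' h.2.1 h'.2.1
  · have : u * w - u' * w' = (u - u') * w + u' * (w - w') := by ring
    rw [this]
    refine lt_of_le_of_lt (Valuation.map_add _ _ _) (max_lt ?_ ?_)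
    · rw [map_mul]
      calc P.adicValuation (u - u') * P.adicValuation w
          ≤ P.adicValuation (u - u') * 1 := mul_le_mul_right h'.1 _
        _ = P.adicValuation (u - u') := mul_one _
        _ < 1 := h.2.2
    · rw [map_mul]
      calc P.adicValuation u' * P.adicValuation (w - w')
          ≤ 1 * P.adicValuation (w - w') := mul_le_mul_left h.2.1 _
        _ = P.adicValuation (w - w') := one_mul _
        _ < 1 := h'.2.2

theorem pow (h : RIM_Cong P u u') (m : ℕ) : RIM_Cong P (u ^ m) (u' ^ m) := by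
  induction m with
  | zero =>
    simp only [pow_zero]
    have := RIM_Cong.const P (1 : L)
    rwa [map_one] at this
  | succ m ih =>
    rw [pow_succ, pow_succ]
    exact ih.mul h

theorem sum {ι : Type*} (s : Finset ι) {f g : ι → E} (h : ∀ i ∈ s, RIM_Cong P (f i) (g i)) :
    RIM_Cong P (∑ i ∈ s, f i) (∑ i ∈ s, g i) := by
  classical
  induction s using Finset.induction_on with
  | empty =>
    simp only [Finset.sum_empty]
    have := RIM_Cong.const P (0 : L)
    rwa [map_zero] at this
  | insert a s ha ih =>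
    rw [Finset.sum_insert ha, Finset.sum_insert ha]
    exact (h a (Finset.mem_insert_self a s)).add
      (ih fun i hi => h i (Finset.mem_insert_of_mem hi))

theorem aeval (h : RIM_Cong P u u') (p : L[X]) :
    RIM_Cong P (Polynomial.aeval u p) (Polynomial.aeval u' p) := by
  rw [Polynomial.aeval_eq_sum_range, Polynomial.aeval_eq_sum_range]
  refine RIM_Cong.sum _ fun i _ => ?_
  rw [Algebra.smul_def, Algebra.smul_def]
  exact (RIM_Cong.const P _).mul (h.pow i)

end RIM_Cong

/-! ### (V): values at integral points -/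

section Val

variable {S : S18_Val L E k Ek}

/-- an element of `O` integral over `L[x]` is a root of a monic polynomial with coefficients
in `A[x]`. -/
theorem RIM_exists_monic {x : S.O} {n : ℕ} {y : Fin n → S.O} (hC : S.IsCart x y)
    (z : S.O) (hz : IsIntegral (Algebra.adjoin L {(x : E)}) (z : E)) :
    ∃ (m : ℕ) (c : ℕ → L[X]), (∀ i j, (c i).coeff j ∈ S.A) ∧
      (z : E) ^ m + ∑ i ∈ Finset.range m, aeval (x : E) (c i) * (z : E) ^ i = 0 := by
  classical
  have hxt := hC.transcendental_x
  let K' := L⟮(x : E)⟯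
  let Ox : ValuationSubring K' := S.O.comap (algebraMap K' E)
  let _ : Algebra Ox E := ((algebraMap K' E).comp Ox.subtype).toAlgebra
  have hST : IsScalarTower Ox K' E := IsScalarTower.of_algebraMap_eq (fun _ => rfl)
  have hOxmem : ∀ a : Ox, ((a : K') : E) ∈ S.O := fun a => a.2
  -- `z` is integral over `O_x`
  have hz2 : IsIntegral Ox (z : E) := by
    let N : Submodule Ox E := Submodule.span Ox (Set.range fun i => (y i : E))
    have hNO : ∀ f ∈ N, f ∈ S.O := by
      intro f hf
      induction hf using Submodule.span_induction with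
      | mem g hg =>
        obtain ⟨i, rfl⟩ := hg
        exact (y i).2
      | zero => exact S.O.zero_mem
      | add g h _ _ hg hh => exact S.O.add_mem _ _ hg hh
      | smul a g _ hg =>
        have : a • g = ((a : K') : E) * g := rfl
        rw [this]
        exact S.O.mul_mem _ _ (hOxmem a) hg
    have hON : ∀ f : S.O, (f : E) ∈ N := by
      intro f
      obtain ⟨a, haO, haK, hf⟩ := hC.exists_repr f
      rw [hf]
      refine Submodule.sum_mem _ fun i _ => ?_
      have : a i * (y i : E) = (⟨⟨a i, haK i⟩, haO i⟩ : Ox) • (y i : E) := rfl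
      rw [this]
      exact Submodule.smul_mem _ _ (Submodule.subset_span ⟨i, rfl⟩)
    refine isIntegral_of_smul_mem_submodule N ?_ (Submodule.fg_span (Set.finite_range _))
      (z : E) ?_
    · intro hbot
      have h1 : (1 : E) ∈ N := by simpa using hON 1
      rw [hbot, Submodule.mem_bot] at h1
      exact one_ne_zero h1
    · intro f hf
      have : (z : E) • f = ((z * ⟨f, hNO f hf⟩ : S.O) : E) := rfl
      rw [this]
      exact hON _
  have := S18_Val.isIntegrallyClosed_adjoin (L := L) hxt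
  have e1 := minpoly.isIntegrallyClosed_eq_field_fractions' K' hz
  have e2 := minpoly.isIntegrallyClosed_eq_field_fractions' K' hz2
  set P₂ := minpoly Ox (z : E) with hP₂
  have hP₂m : P₂.Monic := minpoly.monic hz2
  -- coefficients
  have hcoef : ∀ t, ∃ q : L[X], (∀ j, q.coeff j ∈ S.A) ∧
      aeval (x : E) q = (((P₂.coeff t : Ox) : K') : E) := by
    intro t
    have h1 : (algebraMap Ox K' (P₂.coeff t) : K') =
        algebraMap (Algebra.adjoin L {(x : E)}) K'
          ((minpoly (Algebra.adjoin L {(x : E)}) (z : E)).coeff t) := by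
      have := congrArg (fun p => p.coeff t) (e2.symm.trans e1)
      simpa [coeff_map] using this
    have h2 : (((P₂.coeff t : Ox) : K') : E) ∈ Algebra.adjoin L {(x : E)} := by
      have h3 : (algebraMap Ox K' (P₂.coeff t) : K') = ((P₂.coeff t : Ox) : K') := rfl
      rw [← h3, h1]
      exact ((minpoly (Algebra.adjoin L {(x : E)}) (z : E)).coeff t).2
    rw [Algebra.adjoin_singleton_eq_range_aeval] at h2
    obtain ⟨q, hq⟩ := h2
    have hqO : aeval (x : E) q ∈ S.O := by
      have : aeval (x : E) q = (((P₂.coeff t : Ox) : K') : E) := hq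
      rw [this]
      exact hOxmem _
    exact ⟨q, S18_Val.coeff_mem_of_aeval_mem hC.transc q hqO, hq⟩
  choose c hcA hc using hcoef
  refine ⟨P₂.natDegree, c, hcA, ?_⟩
  have h0 : aeval (z : E) P₂ = 0 := minpoly.aeval Ox (z : E)
  rw [Polynomial.aeval_eq_sum_range, Finset.sum_range_succ, hP₂m.coeff_natDegree, one_smul,
    add_comm] at h0
  rw [← h0]
  congr 1
  refine Finset.sum_congr rfl fun i _ => ?_
  rw [hc i]
  rfl

/-- **(V)**: if `x(P) = a ∈ A` and `z ∈ O` is integral over `L[x]`, then `z(P) ∈ A`. -/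
theorem RIM_value_mem {x : S.O} {n : ℕ} {y : Fin n → S.O} (hC : S.IsCart x y)
    (z : S.O) (hz : IsIntegral (Algebra.adjoin L {(x : E)}) (z : E))
    (P : Place L E) {a b : L} (ha : a ∈ S.A)
    (hPa : P.adicValuation ((x : E) - algebraMap L E a) < 1)
    (hPb : P.adicValuation ((z : E) - algebraMap L E b) < 1) : b ∈ S.A := by
  classical
  obtain ⟨m, c, hcA, hrel⟩ := RIM_exists_monic hC z hz
  have hx : RIM_Cong P (x : E) (algebraMap L E a) :=
    RIM_Cong.of_val (FDT_val_algebraMap_le P a) hPa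
  have hzc : RIM_Cong P (z : E) (algebraMap L E b) :=
    RIM_Cong.of_val (FDT_val_algebraMap_le P b) hPb
  have key : RIM_Cong P ((z : E) ^ m + ∑ i ∈ Finset.range m, aeval (x : E) (c i) * (z : E) ^ i)
      (algebraMap L E b ^ m + ∑ i ∈ Finset.range m,
        aeval (algebraMap L E a) (c i) * algebraMap L E b ^ i) :=
    (hzc.pow m).add (RIM_Cong.sum _ fun i _ => (hx.aeval (c i)).mul (hzc.pow i))
  set g : L := b ^ m + ∑ i ∈ Finset.range m, (c i).eval a * b ^ i with hg
  have hgE : algebraMap L E b ^ m + ∑ i ∈ Finset.range m,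
      aeval (algebraMap L E a) (c i) * algebraMap L E b ^ i = algebraMap L E g := by
    rw [hg, map_add, map_pow, map_sum]
    congr 1
    refine Finset.sum_congr rfl fun i _ => ?_
    rw [map_mul, map_pow, Polynomial.aeval_algebraMap_apply, Polynomial.coe_aeval_eq_eval]
  have key' := key.2.2
  rw [hrel, hgE, zero_sub, Valuation.map_neg] at key'
  have hg0 : g = 0 := by
    by_contra hne
    have := FDT_val_algebraMap P hne
    rw [this] at key'
    exact lt_irrefl _ key'
  -- `b` is integral over `A`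
  have hint : IsIntegral S.A b := by
    let G : S.A[X] := X ^ m + ∑ i ∈ Finset.range m,
      C (⟨(c i).eval a, by
        rw [Polynomial.eval_eq_sum_range]
        exact Subring.sum_mem _ fun j _ =>
          S.A.mul_mem _ _ (hcA i j) (Subring.pow_mem _ ha j)⟩ : S.A) * X ^ i
    refine ⟨G, ?_, ?_⟩
    · apply Polynomial.monic_X_pow_add
      refine lt_of_le_of_lt (Polynomial.degree_sum_le _ _) ?_
      refine (Finset.sup_lt_iff (WithBot.bot_lt_coe m)).2 ?_
      intro i hi
      refine lt_of_le_of_lt (Polynomial.degree_C_mul_X_pow_le _ _) ?_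
      exact WithBot.coe_lt_coe.2 (Finset.mem_range.1 hi)
    · simp only [G, Polynomial.eval₂_add, Polynomial.eval₂_pow, Polynomial.eval₂_X,
        Polynomial.eval₂_finsetSum, Polynomial.eval₂_mul, Polynomial.eval₂_C]
      exact hg0
  exact (IsIntegrallyClosed.isIntegral_iff (R := S.A) (K := L)).1 hint |>.elim
    (fun r hr => hr ▸ r.2)

end Val

section Val'

variable (G : S18_Gauss L E k Ek)

/-- **(V')**: if moreover `red z = 0`, then `z(P)` is a non-unit of `A`. -/
theorem RIM_value_res_eq_zero {x : G.O} {n : ℕ} {y : Fin n → G.O} (hC : G.toVal.IsCart x y)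
    (z : G.O) (hz : IsIntegral (Algebra.adjoin L {(x : E)}) (z : E)) (hred : G.red z = 0)
    (P : Place L E) {a b : L} (ha : a ∈ G.A)
    (hPa : P.adicValuation ((x : E) - algebraMap L E a) < 1)
    (hPb : P.adicValuation ((z : E) - algebraMap L E b) < 1) (hb : b ∈ G.A) :
    G.res ⟨b, hb⟩ = 0 := by
  rcases eq_or_ne (z : E) 0 with hz0 | hz0
  · rw [hz0, zero_sub, Valuation.map_neg] at hPb
    have hb0 : b = 0 := by
      by_contra hne
      rw [FDT_val_algebraMap P hne] at hPb
      exact lt_irrefl _ hPb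
    have : (⟨b, hb⟩ : G.A) = 0 := Subtype.ext hb0
    rw [this, map_zero]
  · obtain ⟨c, hcA, u, hc0, hres, hu, hzu⟩ := G.exists_nonunit_mul_unit hz0 hred
    have hcE : algebraMap L E c ≠ 0 := by
      rw [Ne, map_eq_zero_iff _ (algebraMap L E).injective]; exact hc0
    -- `u = c⁻¹ z` is integral over `L[x]`
    have hu_eq : (u : E) = algebraMap L E c⁻¹ * (z : E) := by
      rw [hzu, ← mul_assoc, ← map_mul, inv_mul_cancel₀ hc0, map_one, one_mul]
    have huint : IsIntegral (Algebra.adjoin L {(x : E)}) (u : E) := by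
      rw [hu_eq]
      have h1 : IsIntegral (Algebra.adjoin L {(x : E)}) (algebraMap L E c⁻¹) := by
        have : algebraMap L E c⁻¹ = algebraMap (Algebra.adjoin L {(x : E)}) E
            (algebraMap L (Algebra.adjoin L {(x : E)}) c⁻¹) := rfl
        rw [this]
        exact isIntegral_algebraMap
      exact h1.mul hz
    have hPu : P.adicValuation ((u : E) - algebraMap L E (c⁻¹ * b)) < 1 := by
      have : (u : E) - algebraMap L E (c⁻¹ * b) =
          algebraMap L E c⁻¹ * ((z : E) - algebraMap L E b) := by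
        rw [hu_eq, map_mul]; ring
      rw [this, map_mul, FDT_val_algebraMap P (inv_ne_zero hc0), one_mul]
      exact hPb
    have hmem : c⁻¹ * b ∈ G.A :=
      RIM_value_mem (S := G.toVal) hC u huint P ha hPa hPu
    have hb' : (⟨b, hb⟩ : G.A) = ⟨c, hcA⟩ * ⟨c⁻¹ * b, hmem⟩ := by
      apply Subtype.ext
      show b = c * (c⁻¹ * b)
      rw [← mul_assoc, mul_inv_cancel₀ hc0, one_mul]
    rw [hb', map_mul, hres, zero_mul]

end Val'

/-! ### (DEF): the reduction of an integral affine point -/

section Def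

variable [IsAlgClosed L] [IsAlgClosed k] (G : S18_Gauss L E k Ek)
  {x : G.O} {n : ℕ} {y : Fin n → G.O}

/-- constants of `A` as elements of `O`. -/
def RIM_const (a : L) (ha : a ∈ G.A) : G.O := ⟨algebraMap L E a, G.algebraMap_mem ha⟩

omit [IsAlgClosed L] [IsAlgClosed k] in
theorem RIM_red_const (a : L) (ha : a ∈ G.A) :
    G.red (RIM_const G a ha) = algebraMap k Ek (G.res ⟨a, ha⟩) :=
  G.red_algebraMap a ha _

omit [IsAlgClosed L] [IsAlgClosed k] in
theorem RIM_isIntegral_const (x : E) (a : L) :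
    IsIntegral (Algebra.adjoin L {x}) (algebraMap L E a) := by
  have : algebraMap L E a = algebraMap (Algebra.adjoin L {x}) E
      (algebraMap L (Algebra.adjoin L {x}) a) := rfl
  rw [this]
  exact isIntegral_algebraMap

omit [IsAlgClosed L] [IsAlgClosed k] in
/-- integral over `L[x]` ⇒ regular at the places where `x` is regular. -/
theorem RIM_val_le_of_isIntegral {K F : Type*} [Field K] [Field F] [Algebra K F]
    (P : Place K F) {x f : F} (hx : P.adicValuation x ≤ 1)
    (hf : IsIntegral (Algebra.adjoin K {x}) f) : P.adicValuation f ≤ 1 :=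
  (FDT_val_le_one_iff P f).2 (BL_mem_of_isIntegral P ((FDT_val_le_one_iff P x).1 hx) hf)

omit [IsAlgClosed L] [IsAlgClosed k] in
theorem RIM_val_lt_of_mem_nonunits {K F : Type*} [Field K] [Field F] [Algebra K F]
    (Q : Place K F) {f : F} (h : f ∈ Q.toValuationSubring.nonunits) :
    Q.adicValuation f < 1 := by
  rcases eq_or_ne f 0 with rfl | hf
  · rw [map_zero]; exact zero_lt_one
  · exact (FDT_val_lt_one_iff Q hf).2 ((BG_mem_nonunits_iff_ord_pos Q hf).1 h)

omit [IsAlgClosed L] [IsAlgClosed k] in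
theorem RIM_mem_nonunits_of_val_lt {K F : Type*} [Field K] [Field F] [Algebra K F]
    (Q : Place K F) {f : F} (hf : f ≠ 0) (h : Q.adicValuation f < 1) :
    f ∈ Q.toValuationSubring.nonunits :=
  (BG_mem_nonunits_iff_ord_pos Q hf).2 ((FDT_val_lt_one_iff Q hf).1 h)

/-- **(★)**: `Q` is a reduction of `P` in the chart `x`: `(red f)(Q) = res (f(P))` for all
`f ∈ O` regular where `x` is regular. -/
def RIM_Star (G : S18_Gauss L E k Ek) (x : G.O) (P : Place L E) (Q : Place k Ek) : Prop :=
  ∀ f : G.O, (∀ P' : Place L E, 0 ≤ P'.ord (x : E) → 0 ≤ P'.ord (f : E)) →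
    ∀ b : L, P.adicValuation ((f : E) - algebraMap L E b) < 1 →
      ∃ hb : b ∈ G.A, Q.adicValuation (G.red f - algebraMap k Ek (G.res ⟨b, hb⟩)) < 1

omit [IsAlgClosed k] in
/-- **(DEF + ★)** the reduction `Q = r(P)` of an integral affine point `P` of the chart `x`. -/
theorem RIM_exists_place (hC : G.toVal.IsCart x y)
    [Algebra.IsSeparable L⟮(x : E)⟯ E] [Algebra.IsSeparable k⟮G.red x⟯ Ek]
    (honto : ∀ w : Ek, (∀ Q : Place k Ek, 0 ≤ Q.ord (G.red x) → 0 ≤ Q.ord w) →
      ∃ f : G.O, (∀ P : Place L E, 0 ≤ P.ord (x : E) → 0 ≤ P.ord (f : E)) ∧ G.red f = w)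
    (P : Place L E) {a : L} (ha : a ∈ G.A)
    (hPa : P.adicValuation ((x : E) - algebraMap L E a) < 1) :
    ∃ Q : Place k Ek, 0 ≤ Q.ord (G.red x) ∧ RIM_Star G x P Q := by
  classical
  have hxt : Transcendental L (x : E) := hC.transcendental_x
  have hxk : Transcendental k (G.red x) := hC.transc
  have hfd : FiniteDimensional L⟮(x : E)⟯ E := hC.finiteDimensional
  have hfdk : FiniteDimensional k⟮G.red x⟯ Ek := hC.finiteDimensional_red
  have hPx : P.adicValuation (x : E) ≤ 1 :=
    (RIM_Cong.of_val (FDT_val_algebraMap_le P a) hPa).1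
  have hdegP : P.deg = 1 :=
    S24_deg_eq_one (S24_isFunctionField1_of_isAlgebraic (x : E)
      (Algebra.IsAlgebraic.of_finite _ _)) P
  -- regular ⇒ integral (over `L`), integral ⇒ regular (over `k`)
  have hreg : ∀ f : E, (∀ P' : Place L E, 0 ≤ P'.ord (x : E) → 0 ≤ P'.ord f) →
      IsIntegral (Algebra.adjoin L {(x : E)}) f :=
    fun f hf => S18_semi_isIntegral_of_regular hxt f hf
  have hregk : ∀ w : Ek, IsIntegral (Algebra.adjoin k {G.red x}) w →
      ∀ Q : Place k Ek, 0 ≤ Q.ord (G.red x) → 0 ≤ Q.ord w := by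
    intro w hw Q hQ
    rw [FDT_ord_nonneg_iff] at hQ ⊢
    exact BL_mem_of_isIntegral Q hQ hw
  -- lifting integral elements
  have hlift : ∀ w : Ek, IsIntegral (Algebra.adjoin k {G.red x}) w →
      ∃ f : G.O, IsIntegral (Algebra.adjoin L {(x : E)}) (f : E) ∧ G.red f = w := by
    intro w hw
    obtain ⟨f, hf, hfw⟩ := honto w (hregk w hw)
    exact ⟨f, hreg _ hf, hfw⟩
  have hV := fun (z : G.O) (hz : IsIntegral (Algebra.adjoin L {(x : E)}) (z : E)) (b : L)
      (hb : P.adicValuation ((z : E) - algebraMap L E b) < 1) =>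
    RIM_value_mem (S := G.toVal) hC z hz P ha hPa hb
  have hV' := fun (z : G.O) (hz : IsIntegral (Algebra.adjoin L {(x : E)}) (z : E))
      (hred : G.red z = 0) (b : L)
      (hb : P.adicValuation ((z : E) - algebraMap L E b) < 1) (hbA : b ∈ G.A) =>
    RIM_value_res_eq_zero G hC z hz hred P ha hPa hb hbA
  have hDed := FFS_isDedekindDomain hxk
  have hFrac := BG_isFractionRing (K := k) (F := Ek) (x := G.red x)
  -- the ideal `𝔮 = red (R_x ∩ 𝔪_P)`
  let 𝔮 : Ideal (integralClosure (Algebra.adjoin k {G.red x}) Ek) :=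
    { carrier := {w | ∃ f : G.O, IsIntegral (Algebra.adjoin L {(x : E)}) (f : E) ∧
        P.adicValuation (f : E) < 1 ∧ G.red f = (w : Ek)}
      zero_mem' := ⟨0, isIntegral_zero, by simp, by simp⟩
      add_mem' := by
        rintro w w' ⟨f, hf, hfv, hfr⟩ ⟨g, hg, hgv, hgr⟩
        refine ⟨f + g, hf.add hg, ?_, ?_⟩
        · exact lt_of_le_of_lt (Valuation.map_add _ _ _) (max_lt hfv hgv)
        · rw [map_add, hfr, hgr]; rfl
      smul_mem' := by
        rintro c w ⟨f, hf, hfv, hfr⟩
        obtain ⟨g, hg, hgc⟩ := hlift (c : Ek) c.2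
        refine ⟨g * f, hg.mul hf, ?_, ?_⟩
        · show P.adicValuation ((g : E) * (f : E)) < 1
          rw [map_mul]
          calc P.adicValuation (g : E) * P.adicValuation (f : E)
              ≤ 1 * P.adicValuation (f : E) :=
                mul_le_mul_left (RIM_val_le_of_isIntegral P hPx hg) _
            _ = P.adicValuation (f : E) := one_mul _
            _ < 1 := hfv
        · rw [map_mul, hgc, hfr]; rfl }
  have hmem𝔮 : ∀ w : integralClosure (Algebra.adjoin k {G.red x}) Ek, w ∈ 𝔮 ↔
      ∃ f : G.O, IsIntegral (Algebra.adjoin L {(x : E)}) (f : E) ∧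
        P.adicValuation (f : E) < 1 ∧ G.red f = (w : Ek) := fun w => Iff.rfl
  -- key: an element of `R_x` with value `b` at `P` reduces into `𝔮` after subtracting `res b`
  have hkey : ∀ (f : G.O), IsIntegral (Algebra.adjoin L {(x : E)}) (f : E) →
      ∀ (b : L) (hb : P.adicValuation ((f : E) - algebraMap L E b) < 1) (hbA : b ∈ G.A)
        (w : integralClosure (Algebra.adjoin k {G.red x}) Ek),
        (w : Ek) = G.red f - algebraMap k Ek (G.res ⟨b, hbA⟩) → w ∈ 𝔮 := by
    intro f hf b hb hbA w hw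
    refine ⟨f - RIM_const G b hbA, hf.sub (RIM_isIntegral_const _ b), hb, ?_⟩
    rw [map_sub, RIM_red_const, hw]
  have hprime : 𝔮.IsPrime := by
    constructor
    · -- `1 ∉ 𝔮`
      rw [Ideal.ne_top_iff_one]
      rintro ⟨f, hf, hfv, hfr⟩
      have h1 : G.red (f - 1) = 0 := by
        rw [map_sub, map_one, hfr]
        exact sub_self _
      have h2 : P.adicValuation (((f - 1 : G.O) : E) - algebraMap L E (-1)) < 1 := by
        have : ((f - 1 : G.O) : E) - algebraMap L E (-1) = (f : E) := by
          rw [map_neg, map_one]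
          push_cast
          ring
        rw [this]
        exact hfv
      have h3 : (-1 : L) ∈ G.A := G.A.neg_mem _ G.A.one_mem
      have h4 := hV' (f - 1) (hf.sub isIntegral_one) h1 (-1) h2 h3
      have h5 : (⟨-1, h3⟩ : G.A) = -1 := rfl
      rw [h5, map_neg, map_one, neg_eq_zero] at h4
      exact one_ne_zero h4
    · intro w w' ⟨g, hg, hgv, hgr⟩
      obtain ⟨f, hf, hfw⟩ := hlift (w : Ek) w.2
      obtain ⟨f', hf', hfw'⟩ := hlift (w' : Ek) w'.2
      obtain ⟨b, hb⟩ := RR_exists_const P hdegP (RIM_val_le_of_isIntegral P hPx hf)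
      obtain ⟨b', hb'⟩ := RR_exists_const P hdegP (RIM_val_le_of_isIntegral P hPx hf')
      have hbA := hV f hf b hb
      have hbA' := hV f' hf' b' hb'
      have hc : RIM_Cong P (f : E) (algebraMap L E b) :=
        RIM_Cong.of_val (FDT_val_algebraMap_le P b) hb
      have hc' : RIM_Cong P (f' : E) (algebraMap L E b') :=
        RIM_Cong.of_val (FDT_val_algebraMap_le P b') hb'
      have hz : P.adicValuation (((f * f' - g : G.O) : E) - algebraMap L E (b * b')) < 1 := by
        have h1 := (hc.mul hc').2.2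
        have : ((f * f' - g : G.O) : E) - algebraMap L E (b * b') =
            ((f : E) * (f' : E) - algebraMap L E b * algebraMap L E b') - (g : E) := by
          rw [map_mul]
          push_cast
          ring
        rw [this]
        refine lt_of_le_of_lt (Valuation.map_sub _ _ _) (max_lt h1 hgv)
      have hred0 : G.red (f * f' - g) = 0 := by
        rw [map_sub, map_mul, hfw, hfw', hgr]
        exact sub_self _
      have hbb := hV' (f * f' - g) ((hf.mul hf').sub hg) hred0 (b * b') hz
        (G.A.mul_mem _ _ hbA hbA')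
      have hbb' : G.res ⟨b, hbA⟩ * G.res ⟨b', hbA'⟩ = 0 := by
        rw [← map_mul]
        exact hbb
      rcases mul_eq_zero.1 hbb' with h0 | h0
      · left
        exact hkey f hf b hb hbA w (by rw [h0, map_zero, sub_zero, hfw])
      · right
        exact hkey f' hf' b' hb' hbA' w' (by rw [h0, map_zero, sub_zero, hfw'])
  -- `x̄ - res a ∈ 𝔮`, nonzero
  have hxint : IsIntegral (Algebra.adjoin k {G.red x}) (G.red x) :=
    isIntegral_algebraMap (x := (⟨G.red x, Algebra.subset_adjoin rfl⟩ :
      Algebra.adjoin k {G.red x}))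
  have hxa_int : IsIntegral (Algebra.adjoin k {G.red x})
      (G.red x - algebraMap k Ek (G.res ⟨a, ha⟩)) :=
    hxint.sub (RIM_isIntegral_const _ _)
  have hxL_int : IsIntegral (Algebra.adjoin L {(x : E)}) (x : E) :=
    isIntegral_algebraMap (x := (⟨(x : E), Algebra.subset_adjoin rfl⟩ :
      Algebra.adjoin L {(x : E)}))
  have hne : 𝔮 ≠ ⊥ := by
    intro hbot
    have h1 : (⟨_, hxa_int⟩ : integralClosure (Algebra.adjoin k {G.red x}) Ek) ∈ 𝔮 :=
      hkey x hxL_int a hPa ha _ rfl
    rw [hbot, Ideal.mem_bot] at h1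
    have h2 : G.red x - algebraMap k Ek (G.res ⟨a, ha⟩) = 0 := congrArg Subtype.val h1
    apply hxk
    rw [sub_eq_zero.1 h2]
    exact isAlgebraic_algebraMap _
  let w₀ : HeightOneSpectrum (integralClosure (Algebra.adjoin k {G.red x}) Ek) :=
    ⟨𝔮, hprime, hne⟩
  refine ⟨Place.ofHeightOneSpectrum (K := k) (F := Ek) w₀, ?_, ?_⟩
  · rw [FDT_ord_nonneg_iff, BG_mem_ofHeightOneSpectrum]
    exact w₀.valuation_le_one (⟨G.red x, hxint⟩ :
      integralClosure (Algebra.adjoin k {G.red x}) Ek)
  · intro f hf b hb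
    have hfint := hreg _ hf
    have hbA := hV f hfint b hb
    refine ⟨hbA, ?_⟩
    have hwint : IsIntegral (Algebra.adjoin k {G.red x})
        (G.red f - algebraMap k Ek (G.res ⟨b, hbA⟩)) :=
      (S18_Val.IsCart.isIntegral_red hC f hfint).sub (RIM_isIntegral_const _ _)
    have h1 : (⟨_, hwint⟩ : integralClosure (Algebra.adjoin k {G.red x}) Ek) ∈ w₀.asIdeal :=
      hkey f hfint b hb hbA _ rfl
    rw [BG_mem_asIdeal_iff (K := k) (F := Ek)] at h1
    exact RIM_val_lt_of_mem_nonunits _ h1

omit [IsAlgClosed k] in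
/-- **uniqueness** of the reduction of a finite place. -/
theorem RIM_place_unique (hC : G.toVal.IsCart x y)
    [Algebra.IsSeparable k⟮G.red x⟯ Ek]
    (honto : ∀ w : Ek, (∀ Q : Place k Ek, 0 ≤ Q.ord (G.red x) → 0 ≤ Q.ord w) →
      ∃ f : G.O, (∀ P : Place L E, 0 ≤ P.ord (x : E) → 0 ≤ P.ord (f : E)) ∧ G.red f = w)
    (P : Place L E) (hPx : 0 ≤ P.ord (x : E)) (Q Q' : Place k Ek)
    (hQ : 0 ≤ Q.ord (G.red x)) (hQ' : 0 ≤ Q'.ord (G.red x))
    (hS : RIM_Star G x P Q) (hS' : RIM_Star G x P Q') : Q = Q' := by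
  classical
  have hxk : Transcendental k (G.red x) := hC.transc
  have hfd : FiniteDimensional L⟮(x : E)⟯ E := hC.finiteDimensional
  have hfdk : FiniteDimensional k⟮G.red x⟯ Ek := hC.finiteDimensional_red
  have hdegP : P.deg = 1 :=
    S24_deg_eq_one (S24_isFunctionField1_of_isAlgebraic (x : E)
      (Algebra.IsAlgebraic.of_finite _ _)) P
  have hDed := FFS_isDedekindDomain hxk
  have hFrac := BG_isFractionRing (K := k) (F := Ek) (x := G.red x)
  have hB : ∀ (Q₀ : Place k Ek), 0 ≤ Q₀.ord (G.red x) →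
      ∀ b : integralClosure (Algebra.adjoin k {G.red x}) Ek,
        algebraMap (integralClosure (Algebra.adjoin k {G.red x}) Ek) Ek b ∈
          Q₀.toValuationSubring := by
    intro Q₀ hQ₀ b
    exact BL_mem_of_isIntegral Q₀ ((FDT_ord_nonneg_iff Q₀ _).1 hQ₀) b.2
  obtain ⟨w, hw⟩ := BG_exists_heightOneSpectrum Q (hB Q hQ)
  obtain ⟨w', hw'⟩ := BG_exists_heightOneSpectrum Q' (hB Q' hQ')
  have hle : w.asIdeal ≤ w'.asIdeal := by
    intro β hβ
    rcases eq_or_ne β 0 with rfl | hβ0
    · exact Ideal.zero_mem _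
    have hβE : (β : Ek) ≠ 0 := fun h => hβ0 (Subtype.ext h)
    have hβreg : ∀ Q₀ : Place k Ek, 0 ≤ Q₀.ord (G.red x) → 0 ≤ Q₀.ord (β : Ek) := by
      intro Q₀ hQ₀
      rw [FDT_ord_nonneg_iff]
      exact hB Q₀ hQ₀ β
    obtain ⟨f, hf, hfβ⟩ := honto (β : Ek) hβreg
    have hfP : P.adicValuation (f : E) ≤ 1 :=
      (FDT_val_le_one_iff P _).2 ((FDT_ord_nonneg_iff P _).1 (hf P hPx))
    obtain ⟨b, hb⟩ := RR_exists_const P hdegP hfP
    obtain ⟨hbA, h1⟩ := hS f hf b hb
    obtain ⟨hbA2, h2⟩ := hS' f hf b hb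
    rw [hfβ] at h1 h2
    have h3 : Q.adicValuation (β : Ek) < 1 := by
      have := (BG_mem_asIdeal_iff (K := k) (F := Ek) w β).1 hβ
      rw [hw] at this
      exact RIM_val_lt_of_mem_nonunits Q this
    have h4 : G.res ⟨b, hbA⟩ = 0 := by
      by_contra hne
      have h5 := FDT_val_algebraMap Q hne
      have h6 : algebraMap k Ek (G.res ⟨b, hbA⟩) =
          (β : Ek) - ((β : Ek) - algebraMap k Ek (G.res ⟨b, hbA⟩)) := by ring
      rw [h6] at h5
      have h7 := lt_of_le_of_lt (Valuation.map_sub Q.adicValuation (β : Ek)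
        ((β : Ek) - algebraMap k Ek (G.res ⟨b, hbA⟩))) (max_lt h3 h1)
      rw [h5] at h7
      exact lt_irrefl _ h7
    rw [h4, map_zero, sub_zero] at h2
    rw [BG_mem_asIdeal_iff (K := k) (F := Ek), hw']
    exact RIM_mem_nonunits_of_val_lt Q' hβE h2
  have heq : w.asIdeal = w'.asIdeal := w.isMaximal.eq_of_le w'.isPrime.ne_top hle
  have hww : w = w' := IsDedekindDomain.HeightOneSpectrum.ext heq
  rw [← hw, ← hw', hww]

/-- **(DEF + ★)**, with ONTO discharged by `IsCart.onto_integral` (genus equality). -/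
theorem RIM_exists_place' (hC : G.toVal.IsCart x y)
    [Algebra.IsSeparable L⟮(x : E)⟯ E] [Algebra.IsSeparable k⟮G.red x⟯ Ek]
    (hE : RR_Hyp L E) (hEk : RR_Hyp k Ek) (hg : RR_genus L E ≤ RR_genus k Ek)
    (P : Place L E) {a : L} (ha : a ∈ G.A)
    (hPa : P.adicValuation ((x : E) - algebraMap L E a) < 1) :
    ∃ Q : Place k Ek, 0 ≤ Q.ord (G.red x) ∧ RIM_Star G x P Q := by
  have hsep : Algebra.IsSeparable k⟮G.toVal.red x⟯ Ek :=
    inferInstanceAs (Algebra.IsSeparable k⟮G.red x⟯ Ek)
  exact RIM_exists_place G hC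
    (fun w hw => S18_Val.IsCart.onto_integral hC hE hEk hg w hw) P ha hPa

end Def

end Fermat.Agent.S18
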