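import Mathlib
import Fermat.Agent.Lib.FFSep
import Fermat.Agent.Lib.RiemannThm
import Fermat.Agent.S18.FinalA
import Fermat.Agent.S18.AbhLocal
import Fermat.Agent.S18.SemiCart

/-!
# S18, package RI-SEP (helper25), part A: values at places and the charts `x ^ m + t g`

One function field `F / K`.

* `RIS_Reg K x f` : `f` is regular wherever `x` is regular.
* `RIS_Val P f a` : the value of `f` at the place `P` is the constant `a`.
* `RIS_ord_chart_of_pole`, `RIS_ord_chart_nonneg`: the poles of `x ^ m + t g`
  (`g` regular where `x` is, with poles of order `< m` relative to `x`) are those of `x`,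
  with orders multiplied by `m`.
* `RIS_chart_finrank` : hence `[F : K(x ^ m + t g)] = m [F : K(x)]`.
-/

set_option autoImplicit false

open AlgebraicCurve IntermediateField Polynomial

namespace Fermat.Agent.S18

open Fermat.Agent.Lib Fermat.Agent.S24

section Val

variable {K F : Type*} [Field K] [Field F] [Algebra K F]

/-- `f` is regular wherever `x` is regular. -/
def RIS_Reg (K : Type*) {F : Type*} [Field K] [Field F] [Algebra K F] (x f : F) : Prop :=
  ∀ P : Place K F, 0 ≤ P.ord x → 0 ≤ P.ord f

/-- the value of `f` at `P` is `a`. -/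
def RIS_Val (P : Place K F) (f : F) (a : K) : Prop :=
  f - algebraMap K F a ∈ P.toValuationSubring.nonunits

theorem RIS_Val.mem {P : Place K F} {f : F} {a : K} (h : RIS_Val P f a) :
    f ∈ P.toValuationSubring := by
  have h1 : f - algebraMap K F a ∈ P.toValuationSubring :=
    ValuationSubring.nonunits_subset h
  have h2 := P.toValuationSubring.add_mem _ _ h1 (P.algebraMap_mem' a)
  simpa using h2

theorem RIS_val_const (P : Place K F) (a : K) : RIS_Val P (algebraMap K F a) a := by
  unfold RIS_Val
  rw [sub_self]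
  exact P.toValuationSubring.nonunits.zero_mem

theorem RIS_Val.add {P : Place K F} {f g : F} {a b : K} (hf : RIS_Val P f a)
    (hg : RIS_Val P g b) : RIS_Val P (f + g) (a + b) := by
  unfold RIS_Val at *
  have := P.toValuationSubring.nonunits.add_mem hf hg
  rw [map_add]
  convert this using 1
  ring

theorem RIS_Val.sub {P : Place K F} {f g : F} {a b : K} (hf : RIS_Val P f a)
    (hg : RIS_Val P g b) : RIS_Val P (f - g) (a - b) := by
  unfold RIS_Val at *
  have := P.toValuationSubring.nonunits.sub_mem hf hg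
  rw [map_sub]
  convert this using 1
  ring

theorem RIS_Val.mul {P : Place K F} {f g : F} {a b : K} (hf : RIS_Val P f a)
    (hg : RIS_Val P g b) : RIS_Val P (f * g) (a * b) := by
  have hgm := hg.mem
  unfold RIS_Val at *
  have h1 := S24_mul_mem_nonunits _ hf hgm
  have h2 := S24_mul_mem_nonunits _ hg (P.algebraMap_mem' a)
  have := P.toValuationSubring.nonunits.add_mem h1 h2
  rw [map_mul]
  convert this using 1
  ring

theorem RIS_Val.pow {P : Place K F} {f : F} {a : K} (hf : RIS_Val P f a) (n : ℕ) :
    RIS_Val P (f ^ n) (a ^ n) := by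
  induction n with
  | zero =>
    simp only [pow_zero]
    have := RIS_val_const P (1 : K)
    rwa [map_one] at this
  | succ n ih =>
    rw [pow_succ, pow_succ]
    exact ih.mul hf

/-- a constant that vanishes at a place is zero. -/
theorem RIS_const_eq_zero (P : Place K F) {a : K}
    (h : algebraMap K F a ∈ P.toValuationSubring.nonunits) : a = 0 := by
  by_contra ha
  have hne : algebraMap K F a ≠ 0 := by rwa [Ne, map_eq_zero]
  have := (BG_mem_nonunits_iff_ord_pos P hne).1 h
  rw [S18_Spec.ord_algebraMap] at this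
  exact lt_irrefl _ this

theorem RIS_Val.unique {P : Place K F} {f : F} {a b : K} (ha : RIS_Val P f a)
    (hb : RIS_Val P f b) : a = b := by
  have := hb.sub ha
  unfold RIS_Val at this
  rw [sub_self, zero_sub, ← map_neg] at this
  have h0 := RIS_const_eq_zero P this
  have : a - b = 0 := by simpa using h0
  exact sub_eq_zero.1 this

theorem RIS_val_iff_ord (P : Place K F) {f : F} {a : K} (hne : f - algebraMap K F a ≠ 0) :
    RIS_Val P f a ↔ 0 < P.ord (f - algebraMap K F a) :=
  BG_mem_nonunits_iff_ord_pos P hne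

theorem RIS_exists_val [IsAlgClosed K] (hF : S24_IsFunctionField1 K F) (P : Place K F)
    {f : F} (hf : f ∈ P.toValuationSubring) : ∃ a : K, RIS_Val P f a :=
  ABH_exists_const hF P hf

theorem RIS_mem_of_ord_nonneg (P : Place K F) {f : F} (hf : 0 ≤ P.ord f) :
    f ∈ P.toValuationSubring := by
  rcases eq_or_ne f 0 with rfl | h0
  · exact zero_mem _
  · exact (BG_mem_iff_ord_nonneg P h0).2 hf

theorem RIS_ord_nonneg_of_mem (P : Place K F) {f : F} (hf : f ∈ P.toValuationSubring) :
    0 ≤ P.ord f := by
  rcases eq_or_ne f 0 with rfl | h0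
  · rw [Place.ord_zero]
  · exact (BG_mem_iff_ord_nonneg P h0).1 hf

end Val

section Ord

variable {K F : Type*} [Field K] [Field F] [Algebra K F]

/-- the ultrametric equality. -/
theorem RIS_ord_add_eq (v : Place K F) {a b : F} (ha : a ≠ 0)
    (hb : b = 0 ∨ v.ord a < v.ord b) : a + b ≠ 0 ∧ v.ord (a + b) = v.ord a := by
  rcases hb with rfl | hb
  · rw [add_zero]; exact ⟨ha, rfl⟩
  have hab : a + b ≠ 0 := by
    intro h
    have : a = -b := eq_neg_of_add_eq_zero_left h
    rw [this, S18_ord_neg] at hb
    exact lt_irrefl _ hb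
  refine ⟨hab, le_antisymm ?_ ?_⟩
  · by_contra hlt
    push Not at hlt
    have h1 : v.ord a + 1 ≤ v.ord ((a + b) - b) :=
      S18_ord_sub_ge v (by rwa [add_sub_cancel_right]) (Or.inr (by omega)) (Or.inr (by omega))
    rw [add_sub_cancel_right] at h1
    omega
  · exact S18_ord_add_ge v hab (Or.inr le_rfl) (Or.inr hb.le)

theorem RIS_ord_const_mul (v : Place K F) {t : K} (ht : t ≠ 0) (g : F) :
    v.ord (algebraMap K F t * g) = v.ord g := by
  rcases eq_or_ne g 0 with rfl | hg
  · rw [mul_zero]
  · have htF : algebraMap K F t ≠ 0 := by rwa [Ne, map_eq_zero]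
    rw [v.ord_mul htF hg, S18_Spec.ord_algebraMap, zero_add]

variable (x g : F) (m m' : ℕ) (t : K)

/-- at a pole of `x`: `ord (x ^ m + t g) = m ord x` if the poles of `g` have order
`≤ m' < m` relative to `x`. -/
theorem RIS_ord_chart_of_pole (hm : m' < m) (v : Place K F) (hv : v.ord x < 0)
    (hg : (m' : ℤ) * v.ord x ≤ v.ord g) :
    x ^ m + algebraMap K F t * g ≠ 0 ∧
      v.ord (x ^ m + algebraMap K F t * g) = (m : ℤ) * v.ord x := by
  have hx0 : x ≠ 0 := by rintro rfl; simp at hv
  have hxm : x ^ m ≠ 0 := pow_ne_zero _ hx0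
  have hlt : (m : ℤ) * v.ord x < (m' : ℤ) * v.ord x := by
    have : (m' : ℤ) < m := by exact_mod_cast hm
    nlinarith
  have key := RIS_ord_add_eq v (a := x ^ m) (b := algebraMap K F t * g) hxm (by
    by_cases h0 : algebraMap K F t * g = 0
    · exact Or.inl h0
    · right
      have ht0 : t ≠ 0 := by
        rintro rfl
        rw [map_zero, zero_mul] at h0
        exact h0 rfl
      rw [RIS_ord_const_mul v ht0, S18_ord_pow]
      omega)
  rw [S18_ord_pow] at key
  exact key

/-- at a regular point of `x`, `x ^ m + t g` is regular. -/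
theorem RIS_ord_chart_nonneg (v : Place K F) (hv : 0 ≤ v.ord x) (hg : 0 ≤ v.ord g) :
    0 ≤ v.ord (x ^ m + algebraMap K F t * g) := by
  have h1 : x ^ m ∈ v.toValuationSubring := pow_mem (RIS_mem_of_ord_nonneg v hv) m
  have h2 : algebraMap K F t * g ∈ v.toValuationSubring :=
    mul_mem (v.algebraMap_mem' t) (RIS_mem_of_ord_nonneg v hg)
  exact RIS_ord_nonneg_of_mem v (add_mem h1 h2)

end Ord

section Degree

variable {K F : Type*} [Field K] [Field F] [Algebra K F] [IsAlgClosed K]

omit [IsAlgClosed K] in
/-- if the poles of `x'` are those of `x` with orders multiplied by `m`, then the pole divisor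
of `x'` is `m` times that of `x`. -/
theorem RIS_poleDiv_eq (hP : HasPrincipalDivisors K F) {x x' : F} {m : ℕ}
    (hpole : ∀ v : Place K F, v.ord x < 0 → v.ord x' = (m : ℤ) * v.ord x)
    (hreg : ∀ v : Place K F, 0 ≤ v.ord x → 0 ≤ v.ord x') :
    RR_poleDiv hP x' = m • RR_poleDiv hP x := by
  ext v
  rw [RR_poleDiv_apply, S18_semi_nsmul_apply, RR_poleDiv_apply]
  rcases lt_or_ge (v.ord x) 0 with h | h
  · rw [hpole v h, max_eq_left (by nlinarith [Int.natCast_nonneg m] : (0 : ℤ) ≤ -(↑m * v.ord x)),
      max_eq_left (by omega)]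
    ring
  · rw [max_eq_right (by have := hreg v h; omega), max_eq_right (by omega), mul_zero]

/-- **degree of the new chart**. -/
theorem RIS_chart_finrank (hdeg : ∀ v : Place K F, v.deg = 1) (hP : HasPrincipalDivisors K F)
    {x x' : F} (hx : Transcendental K x) [FiniteDimensional K⟮x⟯ F]
    [Algebra.IsSeparable K⟮x⟯ F] (hx' : Transcendental K x') [FiniteDimensional K⟮x'⟯ F]
    [Algebra.IsSeparable K⟮x'⟯ F] {m : ℕ}
    (hpole : ∀ v : Place K F, v.ord x < 0 → v.ord x' = (m : ℤ) * v.ord x)
    (hreg : ∀ v : Place K F, 0 ≤ v.ord x → 0 ≤ v.ord x') :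
    Module.finrank K⟮x'⟯ F = m * Module.finrank K⟮x⟯ F := by
  have h1 := S18_semi_poleDiv_degree hx hdeg hP
  have h2 := S18_semi_poleDiv_degree hx' hdeg hP
  rw [RIS_poleDiv_eq hP hpole hreg, map_nsmul, nsmul_eq_mul, h1] at h2
  exact_mod_cast h2.symm

/-- an element with a pole is transcendental, and `F` is finite over `K(x')`. -/
theorem RIS_chart_transcendental {x x' : F} (hx : Transcendental K x)
    [FiniteDimensional K⟮x⟯ F] [Algebra.IsSeparable K⟮x⟯ F] {m : ℕ} (hm : 0 < m)
    (hpole : ∀ v : Place K F, v.ord x < 0 → v.ord x' = (m : ℤ) * v.ord x) :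
    Transcendental K x' := by
  -- `x` has a pole
  have hsum := FFS_sum_poles hx
  have hpos : 0 < Module.finrank K⟮x⟯ F := Module.finrank_pos
  have hne : (FFS_poles hx).Nonempty := by
    by_contra hem
    rw [Finset.not_nonempty_iff_eq_empty] at hem
    rw [hem, Finset.sum_empty] at hsum
    have : (0 : ℤ) < Module.finrank K⟮x⟯ F := by exact_mod_cast hpos
    omega
  obtain ⟨v, hv⟩ := hne
  rw [FFS_mem_poles] at hv
  apply RR_transcendental_of_pole v
  rw [hpole v hv]
  have : (0 : ℤ) < m := by exact_mod_cast hm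
  nlinarith

end Degree

end Fermat.Agent.S18
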