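import Mathlib
import Fermat.Agent.Lib.SepDeriv
import Fermat.Agent.S18.SqCount
import Fermat.Agent.S18.RiSepA

/-!
# S18, package RI-SEP (helper25), part B: separability of the new chart, CRT, choice of `t`

One function field `E / k`, `k` algebraically closed.

* `RIS_bad_sep_subsingleton` : in characteristic `ℓ ∤ m`, `d (x ^ m + t g) = 0` for at most one `t`.
* `RIS_isSeparable_chart`    : `d x' ≠ 0 ⇒ E / k(x')` separable (char `ℓ`).
* `RIS_exists_crt`           : `ḡ` regular where `x` is, `ḡ(Q₀) = 1`, `ḡ(Q) = 0` on `Z ∖ {Q₀}`.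
* `RIS_exists_avoid`         : an element of an infinite field outside a finite set and a
  subsingleton.
-/

set_option autoImplicit false

open AlgebraicCurve IntermediateField KaehlerDifferential IsDedekindDomain
open scoped IntermediateField.algebraAdjoinAdjoin

namespace Fermat.Agent.S18

open Fermat.Agent.Lib Fermat.Agent.S24

section Sep

variable {k E : Type*} [Field k] [Field E] [Algebra k E]

/-- `d (x ^ m + t g) = m x ^ (m - 1) dx + t dg`. -/
theorem RIS_D_chart (x g : E) (m : ℕ) (t : k) :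
    D k E (x ^ m + algebraMap k E t * g) = (m : E) • (x ^ (m - 1) • D k E x) + t • D k E g := by
  rw [map_add, Derivation.leibniz_pow, Derivation.leibniz, Derivation.map_algebraMap, smul_zero,
    add_zero, algebraMap_smul, ← Nat.cast_smul_eq_nsmul E]

/-- in characteristic `ℓ ∤ m`, `d (x ^ m + t g) = 0` for at most one `t`, if `dx ≠ 0`. -/
theorem RIS_bad_sep_subsingleton (ℓ : ℕ) [CharP E ℓ] {x : E} (hx : D k E x ≠ 0)
    (hx0 : x ≠ 0) (g : E) {m : ℕ} (hm : ¬ ℓ ∣ m) :
    {t : k | D k E (x ^ m + algebraMap k E t * g) = 0}.Subsingleton := by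
  intro t ht t' ht'
  change D k E _ = 0 at ht ht'
  rw [RIS_D_chart] at ht ht'
  by_contra hne
  have h1 : (t - t') • D k E g = 0 := by
    rw [sub_smul]
    have := congrArg₂ (· - ·) ht ht'
    simpa using this
  have hg : D k E g = 0 := by
    rcases smul_eq_zero.1 h1 with h | h
    · exact absurd (sub_eq_zero.1 h) hne
    · exact h
  rw [hg, smul_zero, add_zero] at ht
  have hmE : (m : E) ≠ 0 := by
    intro h
    exact hm ((CharP.cast_eq_zero_iff E ℓ m).1 h)
  rcases smul_eq_zero.1 ht with h | h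
  · exact hmE h
  · rcases smul_eq_zero.1 h with h' | h'
    · exact pow_ne_zero _ hx0 h'
    · exact hx h'

/-- **separability of a chart** in characteristic `ℓ`. -/
theorem RIS_isSeparable_chart [IsAlgClosed k] (ℓ : ℕ) [Fact ℓ.Prime] [CharP k ℓ]
    {x' : E} (hd : D k E x' ≠ 0) [FiniteDimensional k⟮x'⟯ E] :
    Algebra.IsSeparable k⟮x'⟯ E := by
  have : CharP E ℓ := charP_of_injective_algebraMap (algebraMap k E).injective ℓ
  have : Algebra.IsAlgebraic k⟮x'⟯ E := Algebra.IsAlgebraic.of_finite _ _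
  exact SD_algebra_isSeparable ℓ (D k E) hd

end Sep

section Avoid

/-- in an infinite type there is an element outside a finite set and a subsingleton. -/
theorem RIS_exists_avoid {k : Type*} [Infinite k] {s u : Set k} (hs : s.Finite)
    (hu : u.Subsingleton) : ∃ t : k, t ∉ s ∧ t ∉ u := by
  have hfin : (s ∪ u).Finite := hs.union hu.finite
  obtain ⟨t, ht⟩ := hfin.infinite_compl.nonempty
  exact ⟨t, fun h => ht (Or.inl h), fun h => ht (Or.inr h)⟩

end Avoid

section CRT

variable {k E : Type*} [Field k] [Field E] [Algebra k E]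

/-- **CRT**: a function regular where `x` is regular with value `1` at `Q₀` and `0` at the other
places of a finite set of places at which `x` is regular. -/
theorem RIS_exists_crt {x : E} (hx : Transcendental k x) [FiniteDimensional k⟮x⟯ E]
    [Algebra.IsSeparable k⟮x⟯ E] (Z : Finset (Place k E)) (hZ : ∀ Q ∈ Z, 0 ≤ Q.ord x)
    (Q₀ : Place k E) (hQ₀ : Q₀ ∈ Z) :
    ∃ g : E, RIS_Reg k x g ∧ RIS_Val Q₀ g 1 ∧ ∀ Q ∈ Z, Q ≠ Q₀ → RIS_Val Q g 0 := by
  classical
  have i1 := FFS_isDedekindDomain hx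
  have i2 := BG_isFractionRing (K := k) (x := x)
  have hx0 : x ≠ 0 := fun h => hx (h ▸ isAlgebraic_zero)
  -- the height one primes of the places in `Z`
  have hw : ∀ Q : Place k E, 0 ≤ Q.ord x →
      ∃ w : HeightOneSpectrum (integralClosure (Algebra.adjoin k ({x} : Set E)) E),
        Place.ofHeightOneSpectrum (K := k) (F := E) w = Q := by
    intro Q hQ
    have hxQ : x ∈ Q.toValuationSubring := (BG_mem_iff_ord_nonneg Q hx0).mpr hQ
    exact BG_exists_heightOneSpectrum Q (fun b => BL_mem_of_isIntegral Q hxQ b.2)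
  let W : Place k E → Ideal (integralClosure (Algebra.adjoin k ({x} : Set E)) E) := fun Q =>
    if h : 0 ≤ Q.ord x then (hw Q h).choose.asIdeal else ⊤
  have hW : ∀ Q (h : 0 ≤ Q.ord x), W Q = (hw Q h).choose.asIdeal := fun Q h => dif_pos h
  have hWspec : ∀ Q (h : 0 ≤ Q.ord x),
      Place.ofHeightOneSpectrum (K := k) (F := E) (hw Q h).choose = Q :=
    fun Q h => (hw Q h).choose_spec
  obtain ⟨b, hb⟩ := IsDedekindDomain.exists_forall_sub_mem_ideal (s := Z) W (fun _ => 1)
    (fun Q hQ => by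
      rw [hW Q (hZ Q hQ)]
      exact (hw Q (hZ Q hQ)).choose.prime)
    (fun Q hQ Q' hQ' hne heq => by
      apply hne
      rw [hW Q (hZ Q hQ), hW Q' (hZ Q' hQ')] at heq
      have h1 : (hw Q (hZ Q hQ)).choose = (hw Q' (hZ Q' hQ')).choose :=
        HeightOneSpectrum.ext heq
      rw [← hWspec Q (hZ Q hQ), ← hWspec Q' (hZ Q' hQ'), h1])
    (fun Q => if (Q : Place k E) = Q₀ then 1 else 0)
  refine ⟨(b : E), ?_, ?_, ?_⟩
  · intro P hP
    have hxP : x ∈ P.toValuationSubring := (BG_mem_iff_ord_nonneg P hx0).mpr hP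
    exact RIS_ord_nonneg_of_mem P (BL_mem_of_isIntegral P hxP b.2)
  · have h1 := hb Q₀ hQ₀
    rw [pow_one, hW Q₀ (hZ Q₀ hQ₀), if_pos rfl, BG_mem_asIdeal_iff (K := k) (F := E),
      hWspec Q₀ (hZ Q₀ hQ₀)] at h1
    unfold RIS_Val
    rw [map_one]
    simpa using h1
  · intro Q hQ hne
    have h1 := hb Q hQ
    rw [pow_one, hW Q (hZ Q hQ), if_neg hne, sub_zero, BG_mem_asIdeal_iff (K := k) (F := E),
      hWspec Q (hZ Q hQ)] at h1
    unfold RIS_Val
    rw [map_zero, sub_zero]
    exact h1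

end CRT

end Fermat.Agent.S18
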