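import Mathlib
import Fermat.Agent.S18.RiT
import Fermat.Agent.S18.RiNormOrd
import Fermat.Agent.S18.RiGaussRoots
import Fermat.Agent.S18.SemiReg
import Fermat.Agent.S18.FinalA

/-!
# RI, package RI-T (helper24), part 2: the fibre sum identity (T)

`S : S18_Val L F k Fk`, `L`, `k` algebraically closed, `hC : S.IsCart x y`, `F / L(x)` and
`Fk / k(x̄)` separable.  For `f ∈ O` regular wherever `x` is regular, with `red f ≠ 0`, and
`c ∈ k`:

  `∑_{P in the residue disc of c} ord_P f = ∑_{Q : x̄(Q) = c} ord_Q (red f)`   (`RIT_fibre_sum`).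

Proof: `N_{F/L(x)} f = p(x)`, `p ∈ A[X]`, `N (red f) = p̄(x̄)` (N1, `RIT_norm_poly`); the norm–ord
formula on both sides (N2, helper21 `RIN_norm_ord`); counting the roots of `p` in a residue disc
(N3, helper3 `RIG3_roots`).
-/

set_option autoImplicit false

open AlgebraicCurve IntermediateField Polynomial Module
open scoped IntermediateField.algebraAdjoinAdjoin

namespace Fermat.Agent.S18

variable {L F k Fk : Type*} [Field L] [Field F] [Algebra L F] [Field k] [Field Fk]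
  [Algebra k Fk]

/-- a place cannot be a zero of `x - a` and of `x - b` for constants `a ≠ b`. -/
theorem RIT_value_unique (P : Place L F) (x : F) {a b : L}
    (ha : 0 < P.ord (x - algebraMap L F a)) (hb : 0 < P.ord (x - algebraMap L F b)) : a = b := by
  by_contra hab
  have h1 := S18_ord_sub_const_le P ha (c := b - a) (sub_ne_zero.mpr fun h => hab h.symm)
  have h2 : x - algebraMap L F a - algebraMap L F (b - a) = x - algebraMap L F b := by
    rw [map_sub]; ring
  rw [h2] at h1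
  omega

/-- a zero of `x - a` is a place where `x` is regular. -/
theorem RIT_ord_nonneg_of_sub_pos (P : Place L F) {x : F} {a : L}
    (h : 0 < P.ord (x - algebraMap L F a)) : 0 ≤ P.ord x := by
  by_contra hlt
  push Not at hlt
  have hx0 : x ≠ 0 := by
    rintro rfl
    rw [Place.ord_zero] at hlt
    exact lt_irrefl _ hlt
  have h1 : (0 : ℤ) ≤ P.ord (x - algebraMap L F a + algebraMap L F a) := by
    refine S18_ord_add_ge P ?_ (Or.inr h.le) (Or.inr ?_)
    · rw [sub_add_cancel]; exact hx0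
    · rw [S18_Spec.ord_algebraMap]
  rw [sub_add_cancel] at h1
  omega

/-- the zeros of a nonzero function form a finite set. -/
theorem RIT_exists_zeros (hPD : HasPrincipalDivisors L F) (g : F) (hg : g ≠ 0) :
    ∃ s : Finset (Place L F), ∀ P, P ∈ s ↔ 0 < P.ord g := by
  classical
  obtain ⟨D, hD, -⟩ := hPD.exists_divisor g hg
  refine ⟨D.support.filter (fun P => 0 < D P), fun P => ?_⟩
  rw [Finset.mem_filter, Finsupp.mem_support_iff, hD]
  constructor
  · exact fun h => h.2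
  · exact fun h => ⟨h.ne', h⟩

namespace S18_Val

variable {S : S18_Val L F k Fk}

/-- **(T)** the fibre sum identity. -/
theorem IsCart.RIT_fibre_sum [IsAlgClosed L] [IsAlgClosed k] {n : ℕ} {x : S.O}
    {y : Fin n → S.O} (hC : S.IsCart x y)
    [FiniteDimensional L⟮(x : F)⟯ F] [Algebra.IsSeparable L⟮(x : F)⟯ F]
    [FiniteDimensional k⟮S.red x⟯ Fk] [Algebra.IsSeparable k⟮S.red x⟯ Fk]
    (hPD : HasPrincipalDivisors L F) (hPDk : HasPrincipalDivisors k Fk)
    (f : S.O) (hreg : S.RI_reg (x : F) (f : F)) (hf : S.red f ≠ 0) (c : k)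
    (s : Finset (Place L F)) (hs : ∀ P, P ∈ s ↔ S.RI_disc (x : F) c P ∧ P.ord (f : F) ≠ 0)
    (t : Finset (Place k Fk))
    (ht : ∀ Q, Q ∈ t ↔ 0 < Q.ord (S.red x - algebraMap k Fk c) ∧ Q.ord (S.red f) ≠ 0) :
    ∑ P ∈ s, P.ord (f : F) = ∑ Q ∈ t, Q.ord (S.red f) := by
  classical
  have hx := hC.transc
  have hxL : Transcendental L (x : F) := hC.transcendental_x
  have hint : IsIntegral (Algebra.adjoin L ({(x : F)} : Set F)) (f : F) :=
    S18_semi_isIntegral_of_regular hxL (f : F) hreg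
  have hintk := hC.isIntegral_red f hint
  obtain ⟨p, hpL, hpk⟩ := hC.RIT_norm_poly f hint
  have hAm : algebraMap S.A L = S.A.subtype := rfl
  rw [hAm] at hpL
  have hf0 : (f : F) ≠ 0 := S.ne_zero_of_red_ne_zero hf
  -- the reduced norm polynomial is nonzero
  have hpk0 : p.map S.res ≠ 0 := by
    intro h0
    rw [h0, map_zero] at hpk
    have h1 : Algebra.norm k⟮S.red x⟯ (S.red f) = 0 :=
      (algebraMap k⟮S.red x⟯ Fk).injective (by rw [hpk, map_zero])
    exact hf (Algebra.norm_eq_zero_iff.mp h1)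
  have hp0 : p ≠ 0 := by
    rintro rfl
    exact hpk0 (Polynomial.map_zero _)
  have hpL0 : p.map S.A.subtype ≠ 0 :=
    (Polynomial.map_ne_zero_iff (Subtype.val_injective)).mpr hp0
  -- finite sets of zeros
  have hxa : ∀ a : L, (x : F) - algebraMap L F a ≠ 0 := by
    intro a h0
    apply hxL
    rw [sub_eq_zero] at h0
    rw [h0]
    exact isAlgebraic_algebraMap a
  have hxc : S.red x - algebraMap k Fk c ≠ 0 := by
    intro h0
    apply hx
    rw [sub_eq_zero] at h0
    rw [h0]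
    exact isAlgebraic_algebraMap c
  have hfin : ∀ a : L, ∃ sa : Finset (Place L F),
      ∀ P, P ∈ sa ↔ 0 < P.ord ((x : F) - algebraMap L F a) :=
    fun a => RIT_exists_zeros hPD _ (hxa a)
  choose sa hsa using hfin
  obtain ⟨tc, htc⟩ := RIT_exists_zeros hPDk _ hxc
  -- N2 on both sides
  have hN2L : ∀ a : L, ((p.map S.A.subtype).rootMultiplicity a : ℤ) = ∑ P ∈ sa a, P.ord (f : F) :=
    fun a => RIN_norm_ord hxL (f : F) hf0 hint _ hpL a (sa a) (hsa a)
  have hN2k : ((p.map S.res).rootMultiplicity c : ℤ) = ∑ Q ∈ tc, Q.ord (S.red f) :=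
    RIN_norm_ord hx (S.red f) hf hintk _ hpk c tc htc
  -- N3
  have hN3 := RIG3_roots S.A S.res S.res_eq_zero_iff p hpk0 c
  -- regularity
  have hpos : ∀ a P, P ∈ sa a → 0 ≤ P.ord (f : F) := fun a P hP =>
    hreg P (RIT_ord_nonneg_of_sub_pos P ((hsa a P).mp hP))
  -- right hand side
  have hR : ∑ Q ∈ tc, Q.ord (S.red f) = ∑ Q ∈ t, Q.ord (S.red f) := by
    have h1 : t = tc.filter (fun Q => Q.ord (S.red f) ≠ 0) := by
      ext Q
      rw [ht, Finset.mem_filter, htc]
    rw [h1, Finset.sum_filter_ne_zero]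
  -- left hand side
  have hsU : s = ((p.map S.A.subtype).roots.toFinset.filter
      (fun a => ∃ h : a ∈ S.A, S.res ⟨a, h⟩ = c)).biUnion
      (fun a => (sa a).filter (fun P => P.ord (f : F) ≠ 0)) := by
    ext P
    rw [hs, Finset.mem_biUnion]
    constructor
    · rintro ⟨⟨a, hac, haP⟩, hP0⟩
      have hPa : P ∈ sa (a : L) := (hsa _ P).mpr haP
      refine ⟨(a : L), ?_, Finset.mem_filter.mpr ⟨hPa, hP0⟩⟩
      rw [Finset.mem_filter, Multiset.mem_toFinset, Polynomial.mem_roots hpL0]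
      refine ⟨?_, a.2, hac⟩
      rw [← Polynomial.rootMultiplicity_pos hpL0]
      have h1 : 0 < P.ord (f : F) := lt_of_le_of_ne (hpos _ P hPa) (Ne.symm hP0)
      have h2 : P.ord (f : F) ≤ ∑ P' ∈ sa (a : L), P'.ord (f : F) :=
        Finset.single_le_sum (f := fun P' : Place L F => P'.ord (f : F))
          (fun P' hP' => hpos _ P' hP') hPa
      have h3 := hN2L (a : L)
      omega
    · rintro ⟨a, haR, haP⟩
      rw [Finset.mem_filter] at haR haP
      obtain ⟨-, haA, hac⟩ := haR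
      exact ⟨⟨⟨a, haA⟩, hac, (hsa a P).mp haP.1⟩, haP.2⟩
  have hL : ∑ P ∈ s, P.ord (f : F) = ∑ a ∈ (p.map S.A.subtype).roots.toFinset.filter
      (fun a => ∃ h : a ∈ S.A, S.res ⟨a, h⟩ = c), ∑ P ∈ sa a, P.ord (f : F) := by
    rw [hsU, Finset.sum_biUnion]
    · exact Finset.sum_congr rfl fun a _ => Finset.sum_filter_ne_zero _
    · intro a _ b _ hab
      rw [Function.onFun, Finset.disjoint_left]
      intro P hPa hPb
      rw [Finset.mem_filter] at hPa hPb
      exact hab (RIT_value_unique P (x : F) ((hsa a P).mp hPa.1) ((hsa b P).mp hPb.1))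
  rw [hL, ← hR, ← hN2k, hN3]
  push_cast
  exact Finset.sum_congr rfl fun a _ => (hN2L a).symm

/-- **(T)**, existence form: the two finite index sets exist. -/
theorem IsCart.RIT_fibre_sum' [IsAlgClosed L] [IsAlgClosed k] {n : ℕ} {x : S.O}
    {y : Fin n → S.O} (hC : S.IsCart x y)
    [FiniteDimensional L⟮(x : F)⟯ F] [Algebra.IsSeparable L⟮(x : F)⟯ F]
    [FiniteDimensional k⟮S.red x⟯ Fk] [Algebra.IsSeparable k⟮S.red x⟯ Fk]
    (hPD : HasPrincipalDivisors L F) (hPDk : HasPrincipalDivisors k Fk)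
    (f : S.O) (hreg : S.RI_reg (x : F) (f : F)) (hf : S.red f ≠ 0) (c : k) :
    ∃ (s : Finset (Place L F)) (t : Finset (Place k Fk)),
      (∀ P, P ∈ s ↔ S.RI_disc (x : F) c P ∧ P.ord (f : F) ≠ 0) ∧
      (∀ Q, Q ∈ t ↔ 0 < Q.ord (S.red x - algebraMap k Fk c) ∧ Q.ord (S.red f) ≠ 0) ∧
      ∑ P ∈ s, P.ord (f : F) = ∑ Q ∈ t, Q.ord (S.red f) := by
  classical
  obtain ⟨D, hD, -⟩ := hPD.exists_divisor (f : F) (S.ne_zero_of_red_ne_zero hf)
  obtain ⟨Dk, hDk, -⟩ := hPDk.exists_divisor (S.red f) hf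
  have hs : ∀ P, P ∈ D.support.filter (fun P => S.RI_disc (x : F) c P) ↔
      S.RI_disc (x : F) c P ∧ P.ord (f : F) ≠ 0 := by
    intro P
    rw [Finset.mem_filter, Finsupp.mem_support_iff, hD, and_comm]
  have ht : ∀ Q, Q ∈ Dk.support.filter
      (fun Q => 0 < Q.ord (S.red x - algebraMap k Fk c)) ↔
      0 < Q.ord (S.red x - algebraMap k Fk c) ∧ Q.ord (S.red f) ≠ 0 := by
    intro Q
    rw [Finset.mem_filter, Finsupp.mem_support_iff, hDk, and_comm]
  exact ⟨_, _, hs, ht, hC.RIT_fibre_sum hPD hPDk f hreg hf c _ hs _ ht⟩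

/-- corollary of (T): a zero of a regular Gauss unit in the residue disc of `c` forces a zero
of the reduction over `c`. -/
theorem IsCart.RIT_pos [IsAlgClosed L] [IsAlgClosed k] {n : ℕ} {x : S.O}
    {y : Fin n → S.O} (hC : S.IsCart x y)
    [FiniteDimensional L⟮(x : F)⟯ F] [Algebra.IsSeparable L⟮(x : F)⟯ F]
    [FiniteDimensional k⟮S.red x⟯ Fk] [Algebra.IsSeparable k⟮S.red x⟯ Fk]
    (hPD : HasPrincipalDivisors L F) (hPDk : HasPrincipalDivisors k Fk)
    (f : S.O) (hreg : S.RI_reg (x : F) (f : F)) (hf : S.red f ≠ 0) (c : k)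
    (P : Place L F) (hP : S.RI_disc (x : F) c P) (hfP : 0 < P.ord (f : F)) :
    ∃ Q : Place k Fk, 0 < Q.ord (S.red x - algebraMap k Fk c) ∧ 0 < Q.ord (S.red f) := by
  classical
  obtain ⟨s, t, hs, ht, hsum⟩ := hC.RIT_fibre_sum' hPD hPDk f hreg hf c
  have hnn : ∀ P' ∈ s, 0 ≤ P'.ord (f : F) := by
    intro P' hP'
    obtain ⟨⟨a, -, haP⟩, -⟩ := (hs P').mp hP'
    exact hreg P' (RIT_ord_nonneg_of_sub_pos P' haP)
  have hPs : P ∈ s := (hs P).mpr ⟨hP, hfP.ne'⟩
  have h1 : 0 < ∑ P' ∈ s, P'.ord (f : F) :=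
    lt_of_lt_of_le hfP (Finset.single_le_sum (f := fun P' : Place L F => P'.ord (f : F)) hnn hPs)
  rw [hsum] at h1
  by_contra hcon
  push Not at hcon
  have h2 : ∑ Q ∈ t, Q.ord (S.red f) ≤ 0 :=
    Finset.sum_nonpos fun Q hQ => hcon Q ((ht Q).mp hQ).1
  omega

/-- corollary of (T): **values**.  If `f ∈ O` is regular wherever `x` is and takes the value
`b` at a place `P` with `x(P) ∈ A`, then `b ∈ A`. -/
theorem IsCart.RIT_value_mem [IsAlgClosed L] [IsAlgClosed k] {n : ℕ} {x : S.O}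
    {y : Fin n → S.O} (hC : S.IsCart x y)
    [FiniteDimensional L⟮(x : F)⟯ F] [Algebra.IsSeparable L⟮(x : F)⟯ F]
    [FiniteDimensional k⟮S.red x⟯ Fk] [Algebra.IsSeparable k⟮S.red x⟯ Fk]
    (hPD : HasPrincipalDivisors L F) (hPDk : HasPrincipalDivisors k Fk)
    (f : S.O) (hreg : S.RI_reg (x : F) (f : F)) (c : k)
    (P : Place L F) (hP : S.RI_disc (x : F) c P) (b : L)
    (hb : 0 < P.ord ((f : F) - algebraMap L F b)) : b ∈ S.A := by
  by_contra hbA
  have hb0 : b ≠ 0 := fun h0 => hbA (h0 ▸ S.A.zero_mem)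
  have hbi : b⁻¹ ∈ S.A := (S.A.mem_or_inv_mem b).resolve_left hbA
  have hres := S.res_inv_eq_zero hbA hbi
  -- `u = b⁻¹ f - 1`
  set u : S.O := S.const ⟨b⁻¹, hbi⟩ * f - 1 with hu
  have hured : S.red u = -1 := by
    rw [hu, map_sub, map_mul, map_one, S.red_const, hres, map_zero, zero_mul, zero_sub]
  have huF : (u : F) = algebraMap L F b⁻¹ * ((f : F) - algebraMap L F b) := by
    show algebraMap L F b⁻¹ * (f : F) - 1 = _
    rw [mul_sub, ← map_mul, inv_mul_cancel₀ hb0, map_one]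
  have hc0 : algebraMap L F b⁻¹ ≠ 0 := by
    rw [Ne, map_eq_zero]
    exact inv_ne_zero hb0
  have hz0 : (f : F) - algebraMap L F b ≠ 0 := by
    intro h0
    rw [h0, Place.ord_zero] at hb
    exact lt_irrefl _ hb
  have hord : ∀ P' : Place L F, P'.ord (u : F) = P'.ord ((f : F) - algebraMap L F b) := by
    intro P'
    rw [huF, P'.ord_mul hc0 hz0, S18_Spec.ord_algebraMap, zero_add]
  have hureg : S.RI_reg (x : F) (u : F) := by
    intro P' hP'
    rw [hord]
    by_cases h0 : 0 ≤ P'.ord (f : F)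
    · exact S18_ord_sub_ge P' hz0 (Or.inr h0) (Or.inr (by rw [S18_Spec.ord_algebraMap]))
    · exact absurd (hreg P' hP') h0
  obtain ⟨Q, -, hQ⟩ := hC.RIT_pos hPD hPDk u hureg (by rw [hured]; exact neg_ne_zero.mpr one_ne_zero)
    c P hP (by rw [hord]; exact hb)
  rw [hured, S18_ord_neg, Place.ord_one] at hQ
  exact lt_irrefl _ hQ

end S18_Val

end Fermat.Agent.S18
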