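import Mathlib
import Fermat.Agent.S18.RiSepB
import Fermat.Agent.S18.RiTSum
import Fermat.Agent.S18.RiMap

/-!
# S18, package RI-SEP (helper25), part C: property (2) in one chart

`S : S18_Val L E k Ek`, `L` algebraically closed of characteristic `0`, `k` algebraically closed
of characteristic `ℓ`, `hC : S.IsCart x y`, `Ek / k(x̄)` separable, genus equality.
Let `r` be a reduction of places in the chart `x` (property (★) on the integral points of the
chart).  Then for every `f ∈ O` regular where `x` is regular, `red f ≠ 0`, and every place `Q₀`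
of `Ek` at which `x̄` is regular,

  `∑_{P integral point, r P = Q₀} ord_P f = ord_{Q₀} (red f)`          (`IsCart.RIS_sum`).

Proof: change of chart.  Choose `ḡ` regular where `x̄` is, with `ḡ(Q₀) = 1` and `ḡ(Q) = 0` at the
finitely many other relevant places (CRT), lift it to `g ∈ O` (ONTO), and put
`x' = x ^ m + t g` with `m` large, `ℓ ∤ m`, `t` generic.  Then `x'` is again a chart (degree
`m n` on both sides, separable), the fibre of `x̄'` through `Q₀` contains no other relevant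
place, and the fibre sum identity (T) of helper24 for the chart `x'` is the claim.
-/

set_option autoImplicit false

open AlgebraicCurve IntermediateField KaehlerDifferential
open scoped IntermediateField.algebraAdjoinAdjoin

namespace Fermat.Agent.S18

open Fermat.Agent.Lib Fermat.Agent.S24

section OneField

variable {K F : Type*} [Field K] [Field F] [Algebra K F]

/-- a function regular where `x` is regular lies in `L(m (x)_∞)` for all large `m`. -/
theorem RIS_reg_mem_rr (hP : HasPrincipalDivisors K F) {x w : F} (hw : RIS_Reg K x w) :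
    ∃ m₁ : ℕ, ∀ m, m₁ ≤ m → w ∈ riemannRochSpace (m • RR_poleDiv hP x) := by
  classical
  set Dk := RR_poleDiv hP x with hDk
  refine ⟨∑ Q ∈ Dk.support, (-(Q.ord w)).toNat, fun m hm => ?_⟩
  rw [mem_riemannRochSpace_iff]
  intro Q
  right
  rw [S18_semi_nsmul_apply, hDk, RR_poleDiv_apply]
  rcases le_or_gt 0 (Q.ord x) with hQ | hQ
  · have := hw Q hQ
    rw [max_eq_right (by omega)]
    simpa using this
  · rw [max_eq_left (by omega)]
    have hQs : Q ∈ Dk.support := by
      rw [Finsupp.mem_support_iff, hDk, RR_poleDiv_apply, max_eq_left (by omega)]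
      omega
    have h1 : (-(Q.ord w)).toNat ≤ ∑ Q ∈ Dk.support, (-(Q.ord w)).toNat :=
      Finset.single_le_sum (f := fun Q => (-(Q.ord w)).toNat) (fun _ _ => Nat.zero_le _) hQs
    have h2 : -(Q.ord w) ≤ ((-(Q.ord w)).toNat : ℤ) := Int.self_le_toNat _
    have h3 : ((-(Q.ord w)).toNat : ℤ) ≤ (m : ℤ) := by
      exact_mod_cast h1.trans hm
    have h4 : (m : ℤ) * 1 ≤ (m : ℤ) * (-(Q.ord x)) :=
      mul_le_mul_of_nonneg_left (by omega) (by positivity)
    linarith

/-- membership in `L(m' (x)_∞)` as pole order bounds. -/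
theorem RIS_ord_of_mem_rr (hP : HasPrincipalDivisors K F) {x g : F} {m' : ℕ}
    (hg : g ∈ riemannRochSpace (m' • RR_poleDiv hP x)) (v : Place K F) :
    (v.ord x < 0 → (m' : ℤ) * v.ord x ≤ v.ord g) ∧ (0 ≤ v.ord x → 0 ≤ v.ord g) := by
  rw [mem_riemannRochSpace_iff] at hg
  rcases hg v with h0 | h0
  · rw [h0, Place.ord_zero]
    refine ⟨fun hv => ?_, fun _ => le_rfl⟩
    have : (0 : ℤ) ≤ m' := Int.natCast_nonneg _
    nlinarith
  · rw [S18_semi_nsmul_apply, RR_poleDiv_apply] at h0
    refine ⟨fun hv => ?_, fun hv => ?_⟩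
    · rw [max_eq_left (by omega)] at h0
      linarith
    · rw [max_eq_right (by omega)] at h0
      simpa using h0

/-- for a transcendental `x`: value `a` at `P` iff `x - a` vanishes at `P`. -/
theorem RIS_val_iff_ord_of_transcendental (P : Place K F) {x : F} (hx : Transcendental K x)
    (a : K) : RIS_Val P x a ↔ 0 < P.ord (x - algebraMap K F a) :=
  RIS_val_iff_ord P (fun h => SQ_transcendental_sub hx a (h ▸ isAlgebraic_zero))

/-- the value of the chart `x ^ m + t g`. -/
theorem RIS_val_chart {P : Place K F} {x g : F} {a b : K} (hx : RIS_Val P x a)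
    (hg : RIS_Val P g b) (m : ℕ) (t : K) :
    RIS_Val P (x ^ m + algebraMap K F t * g) (a ^ m + t * b) :=
  (hx.pow m).add ((RIS_val_const P t).mul hg)

/-- valuation form of `RIS_Val`. -/
theorem RIS_val_iff_adic (P : Place K F) (f : F) (a : K) :
    RIS_Val P f a ↔ P.adicValuation (f - algebraMap K F a) < 1 := by
  constructor
  · exact fun h => RIM_val_lt_of_mem_nonunits P h
  · intro h
    rcases eq_or_ne (f - algebraMap K F a) 0 with h0 | h0
    · unfold RIS_Val
      rw [h0]
      exact P.toValuationSubring.nonunits.zero_mem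
    · exact RIM_mem_nonunits_of_val_lt P h0 h

/-- a prime `ℓ` does not divide both `m' + 1` and `m' + 2`. -/
theorem RIS_exists_exponent (ℓ : ℕ) (hℓ : ℓ.Prime) (m' : ℕ) :
    ∃ m : ℕ, m' < m ∧ ¬ ℓ ∣ m := by
  by_cases h : ℓ ∣ m' + 1
  · refine ⟨m' + 2, by omega, fun h2 => ?_⟩
    have h3 : ℓ ∣ (m' + 2) - (m' + 1) := Nat.dvd_sub h2 h
    have h4 : (m' + 2) - (m' + 1) = 1 := by omega
    rw [h4] at h3
    exact hℓ.one_lt.ne' (Nat.dvd_one.1 h3)
  · exact ⟨m' + 1, by omega, h⟩

/-- in characteristic `0` every chart is separable. -/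
theorem RIS_isSeparable_of_charZero [CharZero K] (x : F) [FiniteDimensional K⟮x⟯ F] :
    Algebra.IsSeparable K⟮x⟯ F := by
  have : CharZero K⟮x⟯ := charZero_of_injective_algebraMap (algebraMap K K⟮x⟯).injective
  have : Algebra.IsAlgebraic K⟮x⟯ F := Algebra.IsAlgebraic.of_finite _ _
  exact Algebra.IsAlgebraic.isSeparable_of_perfectField

/-- if the poles of `x'` are those of `x` (orders multiplied by `m > 0`) and `x'` is regular
where `x` is, then `x` and `x'` are regular at the same places. -/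
theorem RIS_reg_iff {x x' : F} {m : ℕ} (hm : 0 < m)
    (hpole : ∀ v : Place K F, v.ord x < 0 → v.ord x' = (m : ℤ) * v.ord x)
    (hreg : ∀ v : Place K F, 0 ≤ v.ord x → 0 ≤ v.ord x') (v : Place K F) :
    0 ≤ v.ord x' ↔ 0 ≤ v.ord x := by
  constructor
  · intro h
    by_contra hlt
    push Not at hlt
    rw [hpole v hlt] at h
    have : (0 : ℤ) < m := by exact_mod_cast hm
    nlinarith
  · exact hreg v

end OneField

section Chart

variable {L E k Ek : Type*} [Field L] [Field E] [Algebra L E] [Field k] [Field Ek]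
  [Algebra k Ek] {S : S18_Val L E k Ek}

/-- **the new chart** `x' = x ^ m + t g`: for `ḡ` regular where `x̄` is and finite sets
`sbad m ⊆ k` there are `m`, `t̄ ∉ sbad m` and a chart `x'` with
`red x' = x̄ ^ m + t̄ ḡ`, separable on the special fibre, with the same poles as `x`. -/
theorem S18_Val.IsCart.RIS_new_chart [IsAlgClosed L] [CharZero L] [IsAlgClosed k] (ℓ : ℕ)
    [Fact ℓ.Prime] [CharP k ℓ] {n : ℕ} {x : S.O} {y : Fin n → S.O} (hC : S.IsCart x y)
    [Algebra.IsSeparable k⟮S.red x⟯ Ek]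
    (hE : RR_Hyp L E) (hEk : RR_Hyp k Ek) (hg : RR_genus L E ≤ RR_genus k Ek)
    (gbar : Ek) (hgbar : RIS_Reg k (S.red x) gbar) (sbad : ℕ → Set k)
    (hsbad : ∀ m, (sbad m).Finite) :
    ∃ (m : ℕ) (tbar : k) (x' : S.O) (n' : ℕ) (y' : Fin n' → S.O),
      tbar ∉ sbad m ∧ S.IsCart x' y' ∧ Algebra.IsSeparable k⟮S.red x'⟯ Ek ∧
      S.red x' = (S.red x) ^ m + algebraMap k Ek tbar * gbar ∧
      (∀ v : Place L E, 0 ≤ v.ord (x' : E) ↔ 0 ≤ v.ord (x : E)) ∧
      (∀ v : Place k Ek, 0 ≤ v.ord (S.red x') ↔ 0 ≤ v.ord (S.red x)) := by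
  classical
  have hxk : Transcendental k (S.red x) := hC.transc
  have hxL : Transcendental L (x : E) := hC.transcendental_x
  have hfd : FiniteDimensional L⟮(x : E)⟯ E := hC.finiteDimensional
  have hfdk : FiniteDimensional k⟮S.red x⟯ Ek := hC.finiteDimensional_red
  have hsepL : Algebra.IsSeparable L⟮(x : E)⟯ E := RIS_isSeparable_of_charZero _
  -- ONTO
  obtain ⟨m₀, hm₀⟩ := hC.onto hE hEk hg
  obtain ⟨m₁, hm₁⟩ := RIS_reg_mem_rr hEk.principal hgbar
  obtain ⟨g, hgL, hgred⟩ := hm₀ (m₀ + m₁) (by omega) gbar (hm₁ _ (by omega))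
  obtain ⟨m, hm, hℓm⟩ := RIS_exists_exponent ℓ Fact.out (m₀ + m₁)
  have hm0 : 0 < m := by omega
  -- the choice of `t`
  have hD : D k Ek (S.red x) ≠ 0 := SQ_D_ne_zero hxk
  have hx0 : S.red x ≠ 0 := fun h => hxk (h ▸ isAlgebraic_zero)
  have : CharP Ek ℓ := charP_of_injective_algebraMap (algebraMap k Ek).injective ℓ
  have hsub := RIS_bad_sep_subsingleton (k := k) ℓ hD hx0 gbar hℓm
  obtain ⟨tbar, ht1, ht2⟩ := RIS_exists_avoid (hsbad m) hsub
  obtain ⟨t, ht⟩ := S.res_surjective tbar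
  set x' : S.O := x ^ m + S.const t * g with hx'
  have hx'E : (x' : E) = (x : E) ^ m + algebraMap L E (t : L) * (g : E) := rfl
  have hx'red : S.red x' = (S.red x) ^ m + algebraMap k Ek tbar * gbar := by
    rw [hx', map_add, map_pow, map_mul, S.red_const, ht, hgred]
  -- poles, `L`-side
  have hpoleL : ∀ v : Place L E, v.ord (x : E) < 0 →
      v.ord (x' : E) = (m : ℤ) * v.ord (x : E) := by
    intro v hv
    rw [hx'E]
    exact (RIS_ord_chart_of_pole (x : E) (g : E) m (m₀ + m₁) (t : L) hm v hv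
      ((RIS_ord_of_mem_rr hE.principal hgL v).1 hv)).2
  have hregL : ∀ v : Place L E, 0 ≤ v.ord (x : E) → 0 ≤ v.ord (x' : E) := by
    intro v hv
    rw [hx'E]
    exact RIS_ord_chart_nonneg (x : E) (g : E) m (t : L) v hv
      ((RIS_ord_of_mem_rr hE.principal hgL v).2 hv)
  -- poles, `k`-side
  have hgk := hm₁ (m₀ + m₁) (by omega)
  have hpolek : ∀ v : Place k Ek, v.ord (S.red x) < 0 →
      v.ord (S.red x') = (m : ℤ) * v.ord (S.red x) := by
    intro v hv
    rw [hx'red]
    exact (RIS_ord_chart_of_pole (S.red x) gbar m (m₀ + m₁) tbar hm v hv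
      ((RIS_ord_of_mem_rr hEk.principal hgk v).1 hv)).2
  have hregk : ∀ v : Place k Ek, 0 ≤ v.ord (S.red x) → 0 ≤ v.ord (S.red x') := by
    intro v hv
    rw [hx'red]
    exact RIS_ord_chart_nonneg (S.red x) gbar m tbar v hv (hgbar v hv)
  -- transcendence and finiteness
  have hx'L : Transcendental L (x' : E) := RIS_chart_transcendental hxL hm0 hpoleL
  have hx'k : Transcendental k (S.red x') := RIS_chart_transcendental hxk hm0 hpolek
  have hfd' : FiniteDimensional L⟮(x' : E)⟯ E := BL_finite_of_transcendental hfd hx'L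
  have hfdk' : FiniteDimensional k⟮S.red x'⟯ Ek := BL_finite_of_transcendental hfdk hx'k
  have hsepL' : Algebra.IsSeparable L⟮(x' : E)⟯ E := RIS_isSeparable_of_charZero _
  have hDx' : D k Ek (S.red x') ≠ 0 := by
    rw [hx'red]
    exact ht2
  have hsepk' : Algebra.IsSeparable k⟮S.red x'⟯ Ek := RIS_isSeparable_chart ℓ hDx'
  -- degrees
  have hdL : Module.finrank L⟮(x' : E)⟯ E = m * n := by
    rw [RIS_chart_finrank hE.deg_one hE.principal hxL hx'L hpoleL hregL, hC.finrank_eq]
  have hdk : Module.finrank k⟮S.red x'⟯ Ek = m * n := by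
    rw [RIS_chart_finrank hEk.deg_one hEk.principal hxk hx'k hpolek hregk, hC.finrank_red_eq]
  obtain ⟨y', hC'⟩ := S18_Val.IsCart.of_finrank S x' hx'k (m * n) hdL.le hdk.ge
  exact ⟨m, tbar, x', m * n, y', ht1, hC', hsepk', hx'red, RIS_reg_iff hm0 hpoleL hregL,
    RIS_reg_iff hm0 hpolek hregk⟩

end Chart

section Main

variable {L E k Ek : Type*} [Field L] [Field E] [Algebra L E] [Field k] [Field Ek]
  [Algebra k Ek] {S : S18_Val L E k Ek}

/-- `P` is an integral point of the chart `x`. -/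
def S18_Val.RIS_Int (S : S18_Val L E k Ek) (x : E) (P : Place L E) : Prop :=
  ∃ a : S.A, 0 < P.ord (x - algebraMap L E (a : L))

/-- (★): `Q` is a reduction of `P` in the chart `x`: `(red f)(Q) = res (f(P))` for all `f ∈ O`
regular where `x` is regular. -/
def S18_Val.RIS_Star (S : S18_Val L E k Ek) (x : E) (P : Place L E) (Q : Place k Ek) : Prop :=
  ∀ f : S.O, S.RI_reg x (f : E) → ∀ b : S.A, RIS_Val P (f : E) (b : L) →
    RIS_Val Q (S.red f) (S.res b)

/-- **property (2) in one chart**. -/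
theorem S18_Val.IsCart.RIS_sum [IsAlgClosed L] [CharZero L] [IsAlgClosed k] (ℓ : ℕ)
    [Fact ℓ.Prime] [CharP k ℓ] {n : ℕ} {x : S.O} {y : Fin n → S.O} (hC : S.IsCart x y)
    [Algebra.IsSeparable k⟮S.red x⟯ Ek]
    (hE : RR_Hyp L E) (hEk : RR_Hyp k Ek) (hg : RR_genus L E ≤ RR_genus k Ek)
    (r : Place L E → Place k Ek)
    (hr : ∀ P : Place L E, S.RIS_Int (x : E) P →
      0 ≤ (r P).ord (S.red x) ∧ S.RIS_Star (x : E) P (r P))
    (f : S.O) (hreg : S.RI_reg (x : E) (f : E)) (hf : S.red f ≠ 0)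
    (Q₀ : Place k Ek) (hQ₀ : 0 ≤ Q₀.ord (S.red x))
    (s : Finset (Place L E))
    (hs : ∀ P, P ∈ s ↔ (∃ a : S.A, 0 < P.ord ((x : E) - algebraMap L E (a : L))) ∧
      r P = Q₀ ∧ P.ord (f : E) ≠ 0) :
    ∑ P ∈ s, P.ord (f : E) = Q₀.ord (S.red f) := by
  classical
  have hxk : Transcendental k (S.red x) := hC.transc
  have hxL : Transcendental L (x : E) := hC.transcendental_x
  have hfd : FiniteDimensional L⟮(x : E)⟯ E := hC.finiteDimensional
  have hfdk : FiniteDimensional k⟮S.red x⟯ Ek := hC.finiteDimensional_red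
  have hsepL : Algebra.IsSeparable L⟮(x : E)⟯ E := RIS_isSeparable_of_charZero _
  have hF1 : S24_IsFunctionField1 L E :=
    S24_isFunctionField1_of_isAlgebraic (x : E) (Algebra.IsAlgebraic.of_finite _ _)
  have hFk1 : S24_IsFunctionField1 k Ek :=
    S24_isFunctionField1_of_isAlgebraic (S.red x) (Algebra.IsAlgebraic.of_finite _ _)
  have hf0 : (f : E) ≠ 0 := S.ne_zero_of_red_ne_zero hf
  obtain ⟨D, hD, -⟩ := hE.principal.exists_divisor (f : E) hf0
  obtain ⟨Dk, hDk, -⟩ := hEk.principal.exists_divisor (S.red f) hf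
  -- the relevant finite set of places
  set Z : Finset (Place k Ek) :=
    (((D.support.filter (fun P => S.RIS_Int (x : E) P)).image r ∪ Dk.support) ∪ {Q₀}).filter
      (fun Q => 0 ≤ Q.ord (S.red x)) with hZdef
  have hZ : ∀ Q ∈ Z, 0 ≤ Q.ord (S.red x) := fun Q hQ => (Finset.mem_filter.1 hQ).2
  have hQ₀Z : Q₀ ∈ Z := by
    rw [hZdef, Finset.mem_filter]
    exact ⟨Finset.mem_union_right _ (Finset.mem_singleton_self _), hQ₀⟩
  obtain ⟨gbar, hgreg, hg1, hg0⟩ := RIS_exists_crt hxk Z hZ Q₀ hQ₀Z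
  -- the values of `x̄`
  have hval : ∀ Q : Place k Ek, 0 ≤ Q.ord (S.red x) → ∃ c : k, RIS_Val Q (S.red x) c :=
    fun Q hQ => RIS_exists_val hFk1 Q (RIS_mem_of_ord_nonneg Q hQ)
  let cval : Place k Ek → k := fun Q =>
    if h : 0 ≤ Q.ord (S.red x) then (hval Q h).choose else 0
  have hcval : ∀ Q : Place k Ek, 0 ≤ Q.ord (S.red x) → RIS_Val Q (S.red x) (cval Q) := by
    intro Q hQ
    have : cval Q = (hval Q hQ).choose := dif_pos hQ
    rw [this]
    exact (hval Q hQ).choose_spec
  -- the new chart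
  obtain ⟨m, tbar, x', n', y', htbar, hC', hsepk', hx'red, hregL, hregk⟩ :=
    hC.RIS_new_chart ℓ hE hEk hg gbar hgreg
      (fun m => ((Z.image fun Q => cval Q ^ m - cval Q₀ ^ m : Finset k) : Set k))
      (fun m => Finset.finite_toSet _)
  have hx'L : Transcendental L (x' : E) := hC'.transcendental_x
  have hx'k : Transcendental k (S.red x') := hC'.transc
  have hfd' : FiniteDimensional L⟮(x' : E)⟯ E := hC'.finiteDimensional
  have hfdk' : FiniteDimensional k⟮S.red x'⟯ Ek := hC'.finiteDimensional_red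
  have hsepL' : Algebra.IsSeparable L⟮(x' : E)⟯ E := RIS_isSeparable_of_charZero _
  set c' : k := cval Q₀ ^ m + tbar with hc'
  -- values of `x̄'`
  have hvalQ₀ : RIS_Val Q₀ (S.red x') c' := by
    rw [hx'red, hc']
    have := RIS_val_chart (hcval Q₀ hQ₀) hg1 m tbar
    rwa [mul_one] at this
  have hvalQ : ∀ Q ∈ Z, Q ≠ Q₀ → ¬ RIS_Val Q (S.red x') c' := by
    intro Q hQ hne hv
    have h1 := RIS_val_chart (hcval Q (hZ Q hQ)) (hg0 Q hQ hne) m tbar
    rw [← hx'red, mul_zero, add_zero] at h1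
    have h2 := h1.unique hv
    apply htbar
    rw [Finset.coe_image, Set.mem_image]
    refine ⟨Q, hQ, ?_⟩
    rw [h2, hc']
    ring
  -- regularity
  have hreg' : S.RI_reg (x' : E) (f : E) := fun P hP => hreg P ((hregL P).1 hP)
  have hregx : S.RI_reg (x' : E) (x : E) := fun P hP => (hregL P).1 hP
  have hregx' : S.RI_reg (x : E) (x' : E) := fun P hP => (hregL P).2 hP
  -- (T) for the chart `x'`
  obtain ⟨s', t', hs', ht', hsum⟩ :=
    hC'.RIT_fibre_sum' hE.principal hEk.principal f hreg' hf c'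
  -- the right hand side
  have hR : ∑ Q ∈ t', Q.ord (S.red f) = Q₀.ord (S.red f) := by
    refine Finset.sum_eq_single Q₀ (fun Q hQ hne => ?_) (fun hQ₀t => ?_)
    · exfalso
      obtain ⟨hQ1, hQ2⟩ := (ht' Q).1 hQ
      have hQx' : 0 ≤ Q.ord (S.red x') := RIT_ord_nonneg_of_sub_pos Q hQ1
      have hQx : 0 ≤ Q.ord (S.red x) := (hregk Q).1 hQx'
      have hQZ : Q ∈ Z := by
        rw [hZdef, Finset.mem_filter]
        refine ⟨Finset.mem_union_left _ (Finset.mem_union_right _ ?_), hQx⟩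
        rw [Finsupp.mem_support_iff, hDk]
        exact hQ2
      exact hvalQ Q hQZ hne ((RIS_val_iff_ord_of_transcendental Q hx'k c').2 hQ1)
    · by_contra hne
      exact hQ₀t ((ht' Q₀).2
        ⟨(RIS_val_iff_ord_of_transcendental Q₀ hx'k c').1 hvalQ₀, hne⟩)
  -- the left hand side
  have hL : s = s' := by
    ext P
    rw [hs, hs']
    constructor
    · rintro ⟨⟨a, ha⟩, hrP, hfP⟩
      refine ⟨?_, hfP⟩
      have hPx : 0 ≤ P.ord (x : E) := RIT_ord_nonneg_of_sub_pos P ha
      have hPx' : 0 ≤ P.ord (x' : E) := (hregL P).2 hPx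
      obtain ⟨b, hb⟩ := RIS_exists_val hF1 P (RIS_mem_of_ord_nonneg P hPx')
      have hb' : 0 < P.ord ((x' : E) - algebraMap L E b) :=
        (RIS_val_iff_ord_of_transcendental P hx'L b).1 hb
      have hbA : b ∈ S.A :=
        hC.RIT_value_mem hE.principal hEk.principal x' hregx' (S.res a) P ⟨a, rfl, ha⟩ b hb'
      obtain ⟨-, hstar⟩ := hr P ⟨a, ha⟩
      have h1 : RIS_Val (r P) (S.red x') (S.res ⟨b, hbA⟩) := hstar x' hregx' ⟨b, hbA⟩ hb
      rw [hrP] at h1
      exact ⟨⟨b, hbA⟩, h1.unique hvalQ₀, hb'⟩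
    · rintro ⟨⟨b, hbc, hb⟩, hfP⟩
      have hPx' : 0 ≤ P.ord (x' : E) := RIT_ord_nonneg_of_sub_pos P hb
      have hPx : 0 ≤ P.ord (x : E) := (hregL P).1 hPx'
      obtain ⟨a, ha⟩ := RIS_exists_val hF1 P (RIS_mem_of_ord_nonneg P hPx)
      have ha' : 0 < P.ord ((x : E) - algebraMap L E a) :=
        (RIS_val_iff_ord_of_transcendental P hxL a).1 ha
      have haA : a ∈ S.A :=
        hC'.RIT_value_mem hE.principal hEk.principal x hregx c' P ⟨b, hbc, hb⟩ a ha'
      have hInt : S.RIS_Int (x : E) P := ⟨⟨a, haA⟩, ha'⟩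
      obtain ⟨hrfin, hstar⟩ := hr P hInt
      have h1 : RIS_Val (r P) (S.red x') (S.res b) :=
        hstar x' hregx' b ((RIS_val_iff_ord_of_transcendental P hx'L b).2 hb)
      rw [hbc] at h1
      have hrZ : r P ∈ Z := by
        rw [hZdef, Finset.mem_filter]
        refine ⟨Finset.mem_union_left _ (Finset.mem_union_left _
          (Finset.mem_image.2 ⟨P, ?_, rfl⟩)), hrfin⟩
        rw [Finset.mem_filter, Finsupp.mem_support_iff, hD]
        exact ⟨hfP, hInt⟩
      refine ⟨⟨⟨a, haA⟩, ha'⟩, ?_, hfP⟩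
      by_contra hne
      exact hvalQ (r P) hrZ hne h1
  rw [hL, hsum, hR]

/-- **the chart theorem**, abstract form: if every integral point of the chart `x` has a
reduction satisfying (★), then there is a map of places `r` with `fin` and `sum`
(= the two fields of helper20's `RIG5_Chart S x r`). -/
theorem S18_Val.IsCart.RIS_chart_of_star [IsAlgClosed L] [CharZero L] [IsAlgClosed k] (ℓ : ℕ)
    [Fact ℓ.Prime] [CharP k ℓ] {n : ℕ} {x : S.O} {y : Fin n → S.O} (hC : S.IsCart x y)
    [Algebra.IsSeparable k⟮S.red x⟯ Ek]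
    (hE : RR_Hyp L E) (hEk : RR_Hyp k Ek) (hg : RR_genus L E ≤ RR_genus k Ek)
    (hstar : ∀ P : Place L E, S.RIS_Int (x : E) P →
      ∃ Q : Place k Ek, 0 ≤ Q.ord (S.red x) ∧ S.RIS_Star (x : E) P Q) :
    ∃ r : Place L E → Place k Ek,
      (∀ (P : Place L E) (a : S.A), 0 < P.ord ((x : E) - algebraMap L E (a : L)) →
        0 < (r P).ord (S.red x - algebraMap k Ek (S.res a))) ∧
      (∀ f : S.O, S.RI_reg (x : E) (f : E) → S.red f ≠ 0 →
        ∀ Q : Place k Ek, 0 ≤ Q.ord (S.red x) →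
          ∀ s : Finset (Place L E),
            (∀ P, P ∈ s ↔ (∃ a : S.A, 0 < P.ord ((x : E) - algebraMap L E (a : L))) ∧
              r P = Q ∧ P.ord (f : E) ≠ 0) →
            ∑ P ∈ s, P.ord (f : E) = Q.ord (S.red f)) := by
  classical
  have hne : Nonempty (Place k Ek) := hEk.nonempty
  have hxk : Transcendental k (S.red x) := hC.transc
  have hxL : Transcendental L (x : E) := hC.transcendental_x
  let r : Place L E → Place k Ek := fun P =>
    if h : S.RIS_Int (x : E) P then (hstar P h).choose else Classical.arbitrary _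
  have hr : ∀ P : Place L E, S.RIS_Int (x : E) P →
      0 ≤ (r P).ord (S.red x) ∧ S.RIS_Star (x : E) P (r P) := by
    intro P hP
    have : r P = (hstar P hP).choose := dif_pos hP
    rw [this]
    exact (hstar P hP).choose_spec
  refine ⟨r, fun P a ha => ?_, fun f hreg hf Q hQ s hs =>
    hC.RIS_sum ℓ hE hEk hg r hr f hreg hf Q hQ s hs⟩
  have h1 := (hr P ⟨a, ha⟩).2 x (fun _ h => h) a
    ((RIS_val_iff_ord_of_transcendental P hxL (a : L)).2 ha)
  exact (RIS_val_iff_ord_of_transcendental (r P) hxk (S.res a)).1 h1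

end Main

section Gauss

variable {L E k Ek : Type*} [Field L] [Field E] [Algebra L E] [Field k] [Field Ek]
  [Algebra k Ek]

/-- helper26's (★) (valuation form) gives (★) in the `RIS_Val` language. -/
theorem RIS_star_of_RIM [IsAlgClosed L] [IsAlgClosed k] (G : S18_Gauss L E k Ek) (x : G.O)
    (P : Place L E) (Q : Place k Ek)
    (h : RIM_Star G x P Q) : G.toVal.RIS_Star (x : E) P Q := by
  intro f hreg b hb
  obtain ⟨hbA, h1⟩ := h f hreg (b : L) ((RIS_val_iff_adic P (f : E) (b : L)).1 hb)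
  exact (RIS_val_iff_adic Q _ _).2 h1

/-- **the chart theorem** (package RI-SEP): for a Gauss datum `G` and a chart `x` (`IsCart`),
separable on the special fibre, with genus equality, there is a map of places `r` with

* `fin`: `x̄(r P) = res (x(P))` at the integral points `P` of the chart, and
* `sum`: `∑_{P integral, r P = Q} ord_P f = ord_Q (red f)` for all `f ∈ O` regular where `x` is
  regular with `red f ≠ 0`, and all `Q` at which `x̄` is regular.

These are exactly the two fields of helper20's `RIG5_Chart G.toVal x r`. -/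
theorem RIS_chart [IsAlgClosed L] [CharZero L] [IsAlgClosed k] (ℓ : ℕ)
    [Fact ℓ.Prime] [CharP k ℓ] (G : S18_Gauss L E k Ek) {n : ℕ} {x : G.toVal.O}
    {y : Fin n → G.toVal.O} (hC : G.toVal.IsCart x y)
    [Algebra.IsSeparable k⟮G.toVal.red x⟯ Ek]
    (hE : RR_Hyp L E) (hEk : RR_Hyp k Ek) (hg : RR_genus L E ≤ RR_genus k Ek) :
    ∃ r : Place L E → Place k Ek,
      (∀ (P : Place L E) (a : G.toVal.A), 0 < P.ord ((x : E) - algebraMap L E (a : L)) →
        0 < (r P).ord (G.toVal.red x - algebraMap k Ek (G.toVal.res a))) ∧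
      (∀ f : G.toVal.O, G.toVal.RI_reg (x : E) (f : E) → G.toVal.red f ≠ 0 →
        ∀ Q : Place k Ek, 0 ≤ Q.ord (G.toVal.red x) →
          ∀ s : Finset (Place L E),
            (∀ P, P ∈ s ↔ (∃ a : G.toVal.A, 0 < P.ord ((x : E) - algebraMap L E (a : L))) ∧
              r P = Q ∧ P.ord (f : E) ≠ 0) →
            ∑ P ∈ s, P.ord (f : E) = Q.ord (G.toVal.red f)) := by
  have hfd : FiniteDimensional L⟮(x : E)⟯ E := hC.finiteDimensional
  have hsepL : Algebra.IsSeparable L⟮(x : E)⟯ E := RIS_isSeparable_of_charZero _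
  have hsepk : Algebra.IsSeparable k⟮G.red x⟯ Ek :=
    inferInstanceAs (Algebra.IsSeparable k⟮G.toVal.red x⟯ Ek)
  refine hC.RIS_chart_of_star ℓ hE hEk hg fun P hP => ?_
  obtain ⟨a, ha⟩ := hP
  have hxL : Transcendental L (x : E) := hC.transcendental_x
  have hPa : P.adicValuation ((x : E) - algebraMap L E (a : L)) < 1 :=
    (RIS_val_iff_adic P _ _).1 ((RIS_val_iff_ord_of_transcendental P hxL (a : L)).2 ha)
  obtain ⟨Q, hQ, hS⟩ := RIM_exists_place' G hC hE hEk hg P a.2 hPa
  exact ⟨Q, hQ, RIS_star_of_RIM G x P Q hS⟩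

end Gauss

end Fermat.Agent.S18
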