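import Mathlib
import Fermat.Agent.S18.RiSep
import Fermat.Agent.S18.RiGlue

/-!
# S18, package RI-SEP (helper25) + RI-5 (helper20): property (2) for all Gauss units

`RIS_chart'`  : `∃ r, G.toVal.RIG5_Chart x r` for one chart.
`RIS_property2` : for a Gauss datum `G` with a chart `x` (and `x' = x⁻¹`), separable on the
special fibre, genus inequality `g_L ≤ g_k`: there is a map of places `r`, preserving degrees,
with `r_* div(u) = div(red u)` for every Gauss unit `u`.
-/

set_option autoImplicit false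

open AlgebraicCurve IntermediateField
open scoped IntermediateField.algebraAdjoinAdjoin

namespace Fermat.Agent.S18

open Fermat.Agent.Lib Fermat.Agent.S24

variable {L E k Ek : Type*} [Field L] [Field E] [Algebra L E] [Field k] [Field Ek]
  [Algebra k Ek]

/-- the chart theorem in helper20's packaging. -/
theorem RIS_chart' [IsAlgClosed L] [CharZero L] [IsAlgClosed k] (ℓ : ℕ)
    [Fact ℓ.Prime] [CharP k ℓ] (G : S18_Gauss L E k Ek) {n : ℕ} {x : G.toVal.O}
    {y : Fin n → G.toVal.O} (hC : G.toVal.IsCart x y)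
    [Algebra.IsSeparable k⟮G.toVal.red x⟯ Ek]
    (hE : RR_Hyp L E) (hEk : RR_Hyp k Ek) (hg : RR_genus L E ≤ RR_genus k Ek) :
    ∃ r : Place L E → Place k Ek, G.toVal.RIG5_Chart x r := by
  obtain ⟨r, h1, h2⟩ := RIS_chart ℓ G hC hE hEk hg
  exact ⟨r, ⟨h1, h2⟩⟩

/-- **property (2) for all Gauss units** from one chart `x` and its inverse. -/
theorem RIS_property2 [IsAlgClosed L] [CharZero L] [IsAlgClosed k] (ℓ : ℕ)
    [Fact ℓ.Prime] [CharP k ℓ] (G : S18_Gauss L E k Ek) {n : ℕ} {x x' : G.toVal.O}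
    {y : Fin n → G.toVal.O} (hC : G.toVal.IsCart x y) (hx' : x' * x = 1)
    [Algebra.IsSeparable k⟮G.toVal.red x⟯ Ek]
    (hE : RR_Hyp L E) (hEk : RR_Hyp k Ek) (hg : RR_genus L E ≤ RR_genus k Ek) :
    ∃ r : Place L E → Place k Ek, (∀ P, (r P).deg = P.deg) ∧
      ∀ u : G.toVal.O, G.toVal.red u ≠ 0 → ∀ D : Divisor L E,
        (∀ P, D P = P.ord (u : E)) → ∀ Q, Finsupp.mapDomain r D Q = Q.ord (G.toVal.red u) := by
  have hC' : G.toVal.IsCart x' y := hC.inv x' hx'
  have hfdk : FiniteDimensional k⟮G.toVal.red x⟯ Ek := hC.finiteDimensional_red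
  have hsep' : Algebra.IsSeparable k⟮G.toVal.red x'⟯ Ek := by
    have h := FFS_isSeparable_inv (K := k) (F := Ek) (G.toVal.red x)
    rwa [← S18_Val.RIG5_red_inv hx'] at h
  obtain ⟨r₁, h₁⟩ := RIS_chart' ℓ G hC hE hEk hg
  obtain ⟨r₂, h₂⟩ := RIS_chart' ℓ G hC' hE hEk hg
  exact hC.RIG5_glue' hx' hE.deg_one hEk.deg_one hE.principal h₁ h₂

end Fermat.Agent.S18
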