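import Fermat.Agent.S18.RiLevel
import Fermat.Agent.S18.RiDesc
import Fermat.Agent.S18.RiDescFI

/-!
# RI, package RI-ASM (helper20), part 2: the two-level theorem

Function fields `E ⊆ E'` over `L`, `Ek ⊆ Ek'` over `k`; a Gauss datum `G'` on `E'` and a valuation
ring `O = O' ∩ E` with residue map `red` (`hd : S18_NormData O red G'.O G'.red`);
`[Ek' : Ek] = [E' : E]`; a chart `x ∈ O` which is Cartesian on `E'`; `Ek' / k(x̄)` separable;
Riemann's theorem for `E'`, `Ek'` and `g(E') ≤ g(Ek')`.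

Then (`RIF_exists_r`) there is a map of places `r : Pl(E) → Pl(Ek)`, preserving degrees, with

  (2)  `r_*(div u) = div (red u)`  for all units `u` of `O`.

Proof: `RIL_exists_spec` (RI at the level `E'`: RI-2, RI-T, RI-SEP, RI-5) and `RID_exists_r`
(descent, RI-6, helper10).
-/

set_option autoImplicit false

open AlgebraicCurve IntermediateField Module

namespace Fermat.Agent.S18

open Fermat.Agent.Lib Fermat.Agent.S24

variable {L E E' k Ek Ek' : Type*} [Field L] [Field E] [Field E'] [Field k] [Field Ek]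
  [Field Ek'] [Algebra L E] [Algebra E E'] [Algebra L E'] [IsScalarTower L E E']
  [Algebra k Ek] [Algebra Ek Ek'] [Algebra k Ek'] [IsScalarTower k Ek Ek']
  [FiniteDimensional E E'] [FiniteDimensional Ek Ek'] [Algebra.IsSeparable Ek Ek']
  [IsAlgClosed L] [IsAlgClosed k]

/-- **RI, two levels**: the reduction map of places of `E` from the data on `E'`. -/
theorem RIF_exists_r [CharZero L] (ℓ : ℕ) [Fact ℓ.Prime] [CharP k ℓ]
    (G' : S18_Gauss L E' k Ek') {O : ValuationSubring E} {red : O →+* Ek}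
    (hd : S18_NormData O red G'.O G'.red)
    (hdeg : finrank Ek Ek' = finrank E E')
    [HasPrincipalDivisors L E'] [HasPrincipalDivisors k Ek'] [HasPrincipalDivisors k Ek]
    (hFI : ∀ P : Place L E, ∑ P' ∈ P.fiber E', (P'.ramificationIndex E : ℤ) = finrank E E')
    (hFIk : ∀ Q : Place k Ek, ∑ Q' ∈ Q.fiber Ek', (Q'.ramificationIndex Ek : ℤ) = finrank Ek Ek')
    (x xi : O) (hxi : xi * x = 1)
    {n : ℕ} {y : Fin n → G'.toVal.O} (hC' : G'.toVal.IsCart (hd.incl x) y)
    [Algebra.IsSeparable k⟮G'.toVal.red (hd.incl x)⟯ Ek']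
    (hE' : RR_Hyp L E') (hEk' : RR_Hyp k Ek') (hg' : RR_genus L E' ≤ RR_genus k Ek')
    [FiniteDimensional k⟮red x⟯ Ek] [Algebra.IsSeparable k⟮red x⟯ Ek] :
    ∃ r : Place L E → Place k Ek, (∀ P, (r P).deg = P.deg) ∧
      ∀ u : O, red u ≠ 0 → ∀ D : Divisor L E, (∀ P, D P = P.ord (u : E)) →
        ∀ Q, Finsupp.mapDomain r D Q = Q.ord (red u) := by
  obtain ⟨S', hS'⟩ := RIL_exists_spec ℓ G' hC' hE' hEk' hg'
  subst hS'
  -- the inverse chart on `E'`
  have hd' : S18_NormData O red S'.O S'.red := hd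
  have hxi' : (hd'.incl xi : S'.O) * hd'.incl x = 1 := by
    apply Subtype.ext
    show algebraMap E E' (xi : E) * algebraMap E E' (x : E) = 1
    rw [← map_mul]
    have := congrArg (fun z : O => (z : E)) hxi
    simp only [MulMemClass.coe_mul, OneMemClass.coe_one] at this
    rw [this, map_one]
  have hC : S'.toVal.IsCart (hd'.incl x) y := hC'
  have hCi : S'.toVal.IsCart (hd'.incl xi) y := hC.inv _ hxi'
  have hredinv : S'.red (hd'.incl xi) = (S'.red (hd'.incl x))⁻¹ :=
    S18_Val.RIG5_red_inv (S := S'.toVal) hxi'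
  have hsep : Algebra.IsSeparable k⟮S'.red (hd'.incl x)⟯ Ek' :=
    inferInstanceAs (Algebra.IsSeparable k⟮S'.toGauss.toVal.red (hd.incl x)⟯ Ek')
  have hsepi : Algebra.IsSeparable k⟮S'.red (hd'.incl xi)⟯ Ek' := by
    rw [hredinv]
    exact FFS_isSeparable_inv (S'.red (hd'.incl x))
  have hfd : FiniteDimensional L⟮((hd'.incl x : S'.O) : E')⟯ E' := hC.finiteDimensional
  have hfdi : FiniteDimensional L⟮((hd'.incl xi : S'.O) : E')⟯ E' := hCi.finiteDimensional
  have hsepL : Algebra.IsSeparable L⟮((hd'.incl x : S'.O) : E')⟯ E' :=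
    RIS_isSeparable_of_charZero _
  have hsepLi : Algebra.IsSeparable L⟮((hd'.incl xi : S'.O) : E')⟯ E' :=
    RIS_isSeparable_of_charZero _
  have hfdk : FiniteDimensional k⟮S'.red (hd'.incl x)⟯ Ek' := hC.finiteDimensional_red
  have hONTO : ∀ w : Ek', (∀ Q' : Place k Ek', 0 ≤ Q'.ord (S'.red (hd'.incl x)) → 0 ≤ Q'.ord w) →
      ∃ f : S'.O, (∀ P' : Place L E', 0 ≤ P'.ord ((hd'.incl x : S'.O) : E') →
        0 ≤ P'.ord (f : E')) ∧ S'.red f = w :=
    haveI : Algebra.IsSeparable k⟮S'.toVal.red (hd'.incl x)⟯ Ek' := hsep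
    hC.onto_integral hE' hEk' hg'
  have hONTOi : ∀ w : Ek', (∀ Q' : Place k Ek', 0 ≤ Q'.ord (S'.red (hd'.incl xi)) →
      0 ≤ Q'.ord w) →
      ∃ f : S'.O, (∀ P' : Place L E', 0 ≤ P'.ord ((hd'.incl xi : S'.O) : E') →
        0 ≤ P'.ord (f : E')) ∧ S'.red f = w :=
    haveI : Algebra.IsSeparable k⟮S'.toVal.red (hd'.incl xi)⟯ Ek' := hsepi
    hCi.onto_integral hE' hEk' hg'
  have hdegx : finrank L⟮((hd'.incl x : S'.O) : E')⟯ E' ≤
      finrank k⟮S'.red (hd'.incl x)⟯ Ek' := by
    have h1 := hC.finrank_eq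
    have h2 := hC.finrank_red_eq
    exact le_of_eq (h1.trans h2.symm)
  obtain ⟨r, hr1, hr2, -⟩ := RID_exists_r S' hd' hdeg hFI hFIk x xi hxi (hd'.incl x)
    (hd'.incl xi) rfl rfl hC.transcendental_x hC.transc hdegx hONTO hONTOi
  exact ⟨r, hr1, hr2⟩

/-- **RI, two levels**, with the fundamental identity discharged (`RID_FI`, helper10). -/
theorem RIF_exists_r' [CharZero L] (ℓ : ℕ) [Fact ℓ.Prime] [CharP k ℓ]
    (G' : S18_Gauss L E' k Ek') {O : ValuationSubring E} {red : O →+* Ek}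
    (hd : S18_NormData O red G'.O G'.red)
    (hdeg : finrank Ek Ek' = finrank E E')
    (x xi : O) (hxi : xi * x = 1)
    {n : ℕ} {y : Fin n → G'.toVal.O} (hC' : G'.toVal.IsCart (hd.incl x) y)
    [Algebra.IsSeparable k⟮G'.toVal.red (hd.incl x)⟯ Ek']
    (hE' : RR_Hyp L E') (hEk' : RR_Hyp k Ek') (hg' : RR_genus L E' ≤ RR_genus k Ek')
    (hEk : RR_Hyp k Ek)
    [FiniteDimensional L⟮(x : E)⟯ E]
    [FiniteDimensional k⟮red x⟯ Ek] [Algebra.IsSeparable k⟮red x⟯ Ek] :
    ∃ r : Place L E → Place k Ek, (∀ P, (r P).deg = P.deg) ∧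
      ∀ u : O, red u ≠ 0 → ∀ D : Divisor L E, (∀ P, D P = P.ord (u : E)) →
        ∀ Q, Finsupp.mapDomain r D Q = Q.ord (red u) := by
  have hPD' : HasPrincipalDivisors L E' := hE'.principal
  have hPDk' : HasPrincipalDivisors k Ek' := hEk'.principal
  have hPDk : HasPrincipalDivisors k Ek := hEk.principal
  have hsepL : Algebra.IsSeparable L⟮(x : E)⟯ E := RIS_isSeparable_of_charZero _
  have hcz : CharZero E := charZero_of_injective_algebraMap (algebraMap L E).injective
  have hsepE : Algebra.IsSeparable E E' := Algebra.IsAlgebraic.isSeparable_of_perfectField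
  have hfdL' : FiniteDimensional L⟮((hd.incl x : G'.toVal.O) : E')⟯ E' := hC'.finiteDimensional
  have hF' : S24_IsFunctionField1 L E' :=
    S24_isFunctionField1_of_isAlgebraic ((hd.incl x : G'.toVal.O) : E')
      (Algebra.IsAlgebraic.of_finite _ _)
  have hFk' : S24_IsFunctionField1 k Ek' :=
    haveI := hC'.finiteDimensional_red
    S24_isFunctionField1_of_isAlgebraic (G'.toVal.red (hd.incl x))
      (Algebra.IsAlgebraic.of_finite _ _)
  have hxt : Transcendental L (x : E) := by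
    intro halg
    apply hC'.transcendental_x
    exact halg.algebraMap (A := E')
  have hxkt : Transcendental k (red x) := by
    intro halg
    apply hC'.transc
    have h1 : G'.toVal.red (hd.incl x) = algebraMap Ek Ek' (red x) := hd.red'_incl x
    rw [h1]
    exact halg.algebraMap (A := Ek')
  exact RIF_exists_r ℓ G' hd hdeg (fun P => RID_FI hF' hxt P) (fun Q => RID_FI hFk' hxkt Q)
    x xi hxi hC' hE' hEk' hg'

end Fermat.Agent.S18
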