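import Mathlib
import Fermat.Agent.Lib.SepAbs
import Fermat.Agent.S18.DegGal
import Fermat.Agent.S18.MuLocal
import Fermat.Agent.S18.LiftMore

/-!
# S18, package SEPP + DEGB (helper17), part 1: generic field theory

* `SP_towerEquiv x : K⟮x⟯ ≃ₐ[K] K⟮algebraMap F F' x⟯`, `SP_finrank_tower`, `SP_isSeparable_tower`:
  the tower `K(x) ⊆ F ⊆ F'` seen inside `F'`.
* `SP_x_mem_adjoin`: if `R_M(μ) = x` then `x ∈ k(μ)`.
* `SP_finrank_mu`: `[E : k(x)] = AX_deg M * [E : k(μ)]`.
* `SP_isSeparable_of_adjoin_eq_top`, `SP_adjoin_eq_top_of_finrank_le`.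
-/

set_option autoImplicit false
set_option linter.unusedSectionVars false
set_option linter.unusedVariables false
set_option linter.style.longLine false

open IntermediateField Polynomial

namespace Fermat.Agent.S18

open Fermat.Agent.Lib Fermat.Agent.S24

section tower

variable {K : Type*} {F : Type*} {F' : Type*} [Field K] [Field F] [Field F']
  [Algebra K F] [Algebra K F'] [Algebra F F'] [IsScalarTower K F F']

/-- `K(x) ≃ K(x')`, `x'` the image of `x` in `F'`. -/
noncomputable def SP_towerEquiv (x : F) : K⟮x⟯ ≃ₐ[K] K⟮algebraMap F F' x⟯ :=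
  (IntermediateField.equivMap K⟮x⟯ (IsScalarTower.toAlgHom K F F')).trans
    (IntermediateField.equivOfEq (by
      rw [IntermediateField.adjoin_map, Set.image_singleton]
      rfl))

theorem SP_towerEquiv_coe (x : F) (r : K⟮x⟯) :
    ((SP_towerEquiv (F' := F') x r : K⟮algebraMap F F' x⟯) : F') = algebraMap F F' (r : F) :=
  rfl

/-- `[F' : K(x')] = [F : K(x)] · [F' : F]`. -/
theorem SP_finrank_tower (x : F) :
    Module.finrank K⟮algebraMap F F' x⟯ F' = Module.finrank K⟮x⟯ F * Module.finrank F F' := by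
  have hrank := rank_eq_of_equiv_equiv (R := K⟮x⟯) (R' := K⟮algebraMap F F' x⟯) (M := F')
    (M₁ := F') (SP_towerEquiv (F' := F') x) (AddEquiv.refl F')
    (SP_towerEquiv (F' := F') x).bijective (by
      intro r m
      simp only [AddEquiv.refl_apply]
      rw [IntermediateField.smul_def, IntermediateField.smul_def, SP_towerEquiv_coe,
        Algebra.smul_def, smul_eq_mul])
  have h1 : Module.finrank K⟮x⟯ F' = Module.finrank K⟮algebraMap F F' x⟯ F' := by
    unfold Module.finrank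
    rw [hrank]
  rw [← h1, Module.finrank_mul_finrank]

/-- `F' / K(x')` is separable if `F / K(x)` and `F' / F` are. -/
theorem SP_isSeparable_tower (x : F) [Algebra.IsSeparable K⟮x⟯ F] [Algebra.IsSeparable F F'] :
    Algebra.IsSeparable K⟮algebraMap F F' x⟯ F' := by
  have h1 : Algebra.IsSeparable K⟮x⟯ F' := Algebra.IsSeparable.trans K⟮x⟯ F F'
  refine Algebra.IsSeparable.of_equiv_equiv (SP_towerEquiv (F' := F') x).toRingEquiv
    (RingEquiv.refl F') ?_
  ext r
  rfl

end tower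

section mu

variable {k : Type*} {E : Type*} [Field k] [Field E] [Algebra k E] {M : ℕ}

/-- if `R_M(μ) = x` then `x = num R_M(μ) / den R_M(μ) ∈ k(μ)`. -/
theorem SP_x_mem_adjoin (hM : M = 2 ∨ M = 3) (hME : (M : E) ≠ 0) {x μ : E}
    (h0 : (AX_poly E M x).eval μ = 0) : x ∈ k⟮μ⟯ := by
  have hden : MU_denE M μ ≠ 0 := MU_denE_ne_zero hM hME h0
  rw [MU_eval_eq] at h0
  have hx : x = MU_numE M μ / MU_denE M μ := by
    rw [eq_div_iff hden]
    linear_combination -h0
  rw [hx, IntermediateField.mem_adjoin_simple_iff]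
  exact ⟨MU_numP k M, MU_denP k M, by rw [MU_aeval_numP, MU_aeval_denP]⟩

theorem SP_natCast_ne_zero (hMk : (M : k) ≠ 0) : (M : E) ≠ 0 := by
  have : ((M : ℕ) : E) = algebraMap k E (M : k) := by rw [map_natCast]
  rw [this]
  exact fun h => hMk ((algebraMap k E).injective (by rw [h, map_zero]))

/-- `k(x)(μ) = k(μ)` as subfields of `E`. -/
theorem SP_restrictScalars_adjoin (hM : M = 2 ∨ M = 3) (hMk : (M : k) ≠ 0) {x μ : E}
    (h0 : (AX_poly E M x).eval μ = 0) :
    (k⟮x⟯⟮μ⟯).restrictScalars k = k⟮μ⟯ := by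
  rw [IntermediateField.adjoin_adjoin_left]
  apply le_antisymm
  · rw [IntermediateField.adjoin_le_iff]
    rintro y (hy | hy)
    · rw [Set.mem_singleton_iff] at hy
      rw [hy]
      exact SP_x_mem_adjoin hM (SP_natCast_ne_zero hMk) h0
    · rw [Set.mem_singleton_iff] at hy
      rw [hy]
      exact IntermediateField.mem_adjoin_simple_self k μ
  · exact IntermediateField.adjoin.mono k _ _ Set.subset_union_right

/-- `k(x) ⊆ k(μ)`. -/
theorem SP_adjoin_le (hM : M = 2 ∨ M = 3) (hMk : (M : k) ≠ 0) {x μ : E}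
    (h0 : (AX_poly E M x).eval μ = 0) : k⟮x⟯ ≤ k⟮μ⟯ := by
  rw [IntermediateField.adjoin_simple_le_iff]
  exact SP_x_mem_adjoin hM (SP_natCast_ne_zero hMk) h0

/-- **Lüroth degree**: `[E : k(x)] = AX_deg M · [E : k(μ)]` if `R_M(μ) = x`. -/
theorem SP_finrank_mu (hM : M = 2 ∨ M = 3) (hMk : (M : k) ≠ 0) {x μ : E}
    (hx : Transcendental k x) (h0 : (AX_poly E M x).eval μ = 0) :
    Module.finrank k⟮x⟯ E = AX_deg M * Module.finrank k⟮μ⟯ E := by
  have h1 : Module.finrank k⟮x⟯ (k⟮x⟯⟮μ⟯) = AX_deg M := DG_gal_finrank_simple hM hMk hx h0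
  have h2 := Module.finrank_mul_finrank k⟮x⟯ (k⟮x⟯⟮μ⟯) E
  have h3 : Module.finrank (k⟮x⟯⟮μ⟯) E = Module.finrank ((k⟮x⟯⟮μ⟯).restrictScalars k) E := rfl
  have h4 : Module.finrank ((k⟮x⟯⟮μ⟯).restrictScalars k) E = Module.finrank k⟮μ⟯ E :=
    congrArg (fun T : IntermediateField k E => Module.finrank T E)
      (SP_restrictScalars_adjoin hM hMk h0)
  rw [← h2, h1, h3, h4]

end mu

section top

variable {Fk : Type*} {E : Type*} [Field Fk] [Field E] [Algebra Fk E]

/-- `E = Fk(μ)` with `μ` separable over `Fk` ⇒ `E / Fk` separable. -/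
theorem SP_isSeparable_of_adjoin_eq_top {μ : E} (htop : Fk⟮μ⟯ = ⊤) (hsep : IsSeparable Fk μ) :
    Algebra.IsSeparable Fk E := by
  have h1 : Algebra.IsSeparable Fk Fk⟮μ⟯ :=
    (IntermediateField.isSeparable_adjoin_simple_iff_isSeparable Fk E).2 hsep
  refine ⟨fun y => ?_⟩
  have hy : y ∈ Fk⟮μ⟯ := by rw [htop]; trivial
  have h2 : IsSeparable Fk (⟨y, hy⟩ : Fk⟮μ⟯) := Algebra.IsSeparable.isSeparable Fk _
  unfold IsSeparable at h2 ⊢
  rwa [IntermediateField.minpoly_eq] at h2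

/-- `[E : Fk] ≤ [Fk(μ) : Fk]` ⇒ `E = Fk(μ)`. -/
theorem SP_adjoin_eq_top_of_finrank_le [FiniteDimensional Fk E] {μ : E}
    (h : Module.finrank Fk E ≤ Module.finrank Fk Fk⟮μ⟯) : Fk⟮μ⟯ = ⊤ := by
  refine IntermediateField.eq_of_le_of_finrank_le le_top ?_
  rw [IntermediateField.finrank_top']
  exact h

end top

section gen

variable {k : Type*} {E : Type*} [Field k] [Field E] [Algebra k E] {M : ℕ}

/-- if `R_M(μ) = x` and `x` is transcendental, so is `μ`. -/
theorem SP_mu_transcendental (hM : M = 2 ∨ M = 3) (hMk : (M : k) ≠ 0) {x μ : E}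
    (hx : Transcendental k x) (h0 : (AX_poly E M x).eval μ = 0) : Transcendental k μ := by
  intro halg
  have h1 : Algebra.IsAlgebraic k k⟮μ⟯ :=
    IntermediateField.isAlgebraic_adjoin_simple halg.isIntegral
  have h2 := SP_x_mem_adjoin (k := k) hM (SP_natCast_ne_zero hMk) h0
  have h3 : IsAlgebraic k (⟨_, h2⟩ : k⟮μ⟯) := h1.isAlgebraic _
  have h4 : IsAlgebraic k x := by
    have := h3.algHom (k⟮μ⟯.val)
    exact this
  exact hx h4

/-- `E / k(μ)` is finite if `E / k(x)` is, `R_M(μ) = x`. -/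
theorem SP_finite_mu (hM : M = 2 ∨ M = 3) (hMk : (M : k) ≠ 0) {x μ : E}
    (h0 : (AX_poly E M x).eval μ = 0) [FiniteDimensional k⟮x⟯ E] :
    FiniteDimensional k⟮μ⟯ E := by
  have h1 : FiniteDimensional (k⟮x⟯⟮μ⟯) E := inferInstance
  have h2 : FiniteDimensional ((k⟮x⟯⟮μ⟯).restrictScalars k) E := h1
  have h3 := SP_restrictScalars_adjoin hM hMk h0
  exact h3 ▸ h2

/-- `E / k(μ)` is separable if `E / k(x)` is, `R_M(μ) = x`. -/
theorem SP_isSeparable_mu (hM : M = 2 ∨ M = 3) (hMk : (M : k) ≠ 0) {x μ : E}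
    (h0 : (AX_poly E M x).eval μ = 0) [Algebra.IsSeparable k⟮x⟯ E] :
    Algebra.IsSeparable k⟮μ⟯ E := by
  have h1 : Algebra.IsSeparable (k⟮x⟯⟮μ⟯) E := inferInstance
  have h2 : Algebra.IsSeparable ((k⟮x⟯⟮μ⟯).restrictScalars k) E := h1
  have h3 := SP_restrictScalars_adjoin hM hMk h0
  exact h3 ▸ h2

end gen

/-! ### The abstract package: `k ⊆ k(j̄) ⊆ F_k ⊆ E = F_k(μ̄)` -/

section package

variable {k : Type*} {Fk : Type*} {E : Type*} [Field k] [Field Fk] [Field E] [Algebra k Fk]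
  [Algebra Fk E] [Algebra k E] [IsScalarTower k Fk E] {M : ℕ}

/-- `μ̄` is separable over `F_k` (`j̄` transcendental over `k`). -/
theorem SP_root_isSeparable (hM : M = 2 ∨ M = 3) (hMk : (M : k) ≠ 0) {jb : Fk}
    (hjb : Transcendental k jb) {mb : E}
    (hmb : (AX_poly E M (algebraMap Fk E jb)).eval mb = 0) : IsSeparable Fk mb := by
  have h1 : (AX_poly Fk M jb).Separable := DG_gal_separable hM hMk hjb
  have h2 : aeval mb (AX_poly Fk M jb) = 0 := by
    rw [aeval_def, eval₂_eq_eval_map, AX_poly_map]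
    exact hmb
  exact h1.of_dvd (minpoly.dvd Fk mb h2)

/-- **SEPP (2a)**: `E / F_k` is separable if `E = F_k(μ̄)`. -/
theorem SP_isSeparable_top (hM : M = 2 ∨ M = 3) (hMk : (M : k) ≠ 0) {jb : Fk}
    (hjb : Transcendental k jb) {mb : E}
    (hmb : (AX_poly E M (algebraMap Fk E jb)).eval mb = 0) (htop : Fk⟮mb⟯ = ⊤) :
    Algebra.IsSeparable Fk E :=
  SP_isSeparable_of_adjoin_eq_top htop (SP_root_isSeparable hM hMk hjb hmb)

theorem SP_image_transcendental {jb : Fk} (hjb : Transcendental k jb) :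
    Transcendental k (algebraMap Fk E jb) := fun h =>
  hjb ((isAlgebraic_algebraMap_iff (algebraMap Fk E).injective).1 h)

/-- `E / k(j̄)` is finite. -/
theorem SP_finite_image (jb : Fk) [FiniteDimensional k⟮jb⟯ Fk] [FiniteDimensional Fk E] :
    FiniteDimensional k⟮algebraMap Fk E jb⟯ E := by
  have h := SP_finrank_tower (K := k) (F' := E) jb
  have h1 : 0 < Module.finrank k⟮jb⟯ Fk := Module.finrank_pos
  have h2 : 0 < Module.finrank Fk E := Module.finrank_pos
  exact Module.finite_of_finrank_pos (by rw [h]; exact Nat.mul_pos h1 h2)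

/-- **SEPP (2b)**: `E / k(μ̄)` is finite. -/
theorem SP_finite_mubar (hM : M = 2 ∨ M = 3) (hMk : (M : k) ≠ 0) {jb : Fk}
    [FiniteDimensional k⟮jb⟯ Fk] [FiniteDimensional Fk E] {mb : E}
    (hmb : (AX_poly E M (algebraMap Fk E jb)).eval mb = 0) : FiniteDimensional k⟮mb⟯ E :=
  haveI := SP_finite_image (k := k) (E := E) jb
  SP_finite_mu hM hMk hmb

/-- **SEPP (2c)**: `E / k(μ̄)` is separable. -/
theorem SP_isSeparable_mubar (hM : M = 2 ∨ M = 3) (hMk : (M : k) ≠ 0) {jb : Fk}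
    (hjb : Transcendental k jb) [Algebra.IsSeparable k⟮jb⟯ Fk] {mb : E}
    (hmb : (AX_poly E M (algebraMap Fk E jb)).eval mb = 0) (htop : Fk⟮mb⟯ = ⊤) :
    Algebra.IsSeparable k⟮mb⟯ E :=
  haveI := SP_isSeparable_top hM hMk hjb hmb htop
  haveI := SP_isSeparable_tower (K := k) (F' := E) jb
  SP_isSeparable_mu hM hMk hmb

/-- **SEPP (2d)**: `RR_Hyp k E`. -/
theorem SP_RR_hyp [IsAlgClosed k] (ℓ : ℕ) [Fact ℓ.Prime] [CharP k ℓ] (hM : M = 2 ∨ M = 3)
    (hMk : (M : k) ≠ 0) {jb : Fk} (hjb : Transcendental k jb) [FiniteDimensional k⟮jb⟯ Fk]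
    [Algebra.IsSeparable k⟮jb⟯ Fk] [FiniteDimensional Fk E] {mb : E}
    (hmb : (AX_poly E M (algebraMap Fk E jb)).eval mb = 0) (htop : Fk⟮mb⟯ = ⊤) :
    RR_Hyp k E :=
  haveI := SP_finite_mubar (k := k) hM hMk hmb
  haveI := SP_isSeparable_mubar hM hMk hjb hmb htop
  SA_RR_hyp ℓ (SP_mu_transcendental hM hMk (SP_image_transcendental hjb) hmb)

/-- **DEGB, one side**: `AX_deg M · [E : k(μ̄)] = [F_k : k(j̄)] · [E : F_k]`. -/
theorem SP_finrank_mubar (hM : M = 2 ∨ M = 3) (hMk : (M : k) ≠ 0) {jb : Fk}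
    (hjb : Transcendental k jb) {mb : E}
    (hmb : (AX_poly E M (algebraMap Fk E jb)).eval mb = 0) :
    AX_deg M * Module.finrank k⟮mb⟯ E = Module.finrank k⟮jb⟯ Fk * Module.finrank Fk E := by
  rw [← SP_finrank_mu hM hMk (SP_image_transcendental hjb) hmb, SP_finrank_tower]

/-- **DEGB** (abstract): two towers `K(j) ⊆ F ⊆ F' ∋ μ` and `k(j̄) ⊆ F_k ⊆ E ∋ μ̄` with equal
degrees have `[E : k(μ̄)] = [F' : K(μ)]`. -/
theorem SP_degb {K : Type*} {F : Type*} {F' : Type*} [Field K] [Field F] [Field F']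
    [Algebra K F] [Algebra F F'] [Algebra K F'] [IsScalarTower K F F']
    (hM : M = 2 ∨ M = 3) (hMk : (M : k) ≠ 0) (hMK : (M : K) ≠ 0)
    {j : F} (hj : Transcendental K j) {μ : F'}
    (hμ : (AX_poly F' M (algebraMap F F' j)).eval μ = 0)
    {jb : Fk} (hjb : Transcendental k jb) {mb : E}
    (hmb : (AX_poly E M (algebraMap Fk E jb)).eval mb = 0)
    (hF : Module.finrank k⟮jb⟯ Fk = Module.finrank K⟮j⟯ F)
    (hdeg : Module.finrank Fk E = Module.finrank F F') :
    Module.finrank k⟮mb⟯ E = Module.finrank K⟮μ⟯ F' := by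
  have h1 := SP_finrank_mubar hM hMk hjb hmb
  have h2 := SP_finrank_mubar hM hMK hj hμ
  rw [hF, hdeg, ← h2] at h1
  exact Nat.eq_of_mul_eq_mul_left (AX_deg_pos M) h1

end package

/-! ### Reduction does not raise the degree -/

section reduction

variable {L F k Fk : Type*} [Field L] [Field F] [Algebra L F] [Field k] [Field Fk]
  [Algebra k Fk]

/-- lifts of `k(x̄)`-independent elements of `F_k` are `L(x)`-independent. -/
theorem SP_linearIndependent_lift (S : S18_Val L F k Fk) (x : S.O)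
    (hx : Transcendental k (S.red x)) {n : ℕ} (y : Fin n → S.O)
    (hy : LinearIndependent k⟮S.red x⟯ (fun i => S.red (y i))) :
    LinearIndependent L⟮(x : F)⟯ (fun i => (y i : F)) := by
  classical
  have hind : ∀ p : Fin n → k[X], ∑ i, aeval (S.red x) (p i) * S.red (y i) = 0 →
      ∀ i, p i = 0 := by
    intro p hp
    rw [Fintype.linearIndependent_iff] at hy
    have h1 : ∀ q : k[X], aeval (S.red x) q ∈ k⟮S.red x⟯ := by
      intro q
      have : aeval (S.red x) q ∈ Algebra.adjoin k {S.red x} := by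
        rw [Algebra.adjoin_singleton_eq_range_aeval]
        exact ⟨q, rfl⟩
      exact algebra_adjoin_le_adjoin k _ this
    have h2 := hy (fun i => ⟨aeval (S.red x) (p i), h1 _⟩) (by
      rw [← hp]
      refine Finset.sum_congr rfl fun i _ => ?_
      rw [IntermediateField.smul_def, smul_eq_mul])
    intro i
    have h3 := congrArg (fun z : k⟮S.red x⟯ => (z : Fk)) (h2 i)
    exact (transcendental_iff.mp hx) _ h3
  have hrepr : ∀ g : L⟮(x : F)⟯, ∃ P Q : L[X], aeval (x : F) Q ≠ 0 ∧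
      (g : F) = aeval (x : F) P / aeval (x : F) Q := by
    intro g
    obtain ⟨P, Q, hPQ⟩ := (mem_adjoin_simple_iff L (g : F)).mp g.2
    by_cases hQ : aeval (x : F) Q = 0
    · refine ⟨0, 1, by simp, ?_⟩
      rw [hPQ, hQ, div_zero, map_zero, zero_div]
    · exact ⟨P, Q, hQ, hPQ⟩
  rw [Fintype.linearIndependent_iff]
  intro g hg
  choose P Q hQ hPQ using fun i => hrepr (g i)
  have h1 : ∑ i, aeval (x : F) (P i * ∏ j ∈ Finset.univ.erase i, Q j) * (y i : F) = 0 := by
    have h2 : ∀ i, aeval (x : F) (P i * ∏ j ∈ Finset.univ.erase i, Q j) * (y i : F) =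
        aeval (x : F) (∏ j, Q j) * (g i • (y i : F)) := by
      intro i
      rw [← Finset.mul_prod_erase Finset.univ Q (Finset.mem_univ i), map_mul, map_mul,
        IntermediateField.smul_def, smul_eq_mul, hPQ i]
      field_simp [hQ i]
    rw [Finset.sum_congr rfl fun i _ => h2 i, ← Finset.mul_sum, hg, mul_zero]
  have h3 := S18_Val.eq_zero_of_sum_aeval_eq_zero hind _ h1
  intro i
  have h4 : P i = 0 := by
    rcases mul_eq_zero.mp (h3 i) with h | h
    · exact h
    · exfalso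
      rw [Finset.prod_eq_zero_iff] at h
      obtain ⟨j, -, hj⟩ := h
      exact hQ j (by rw [hj, map_zero])
  apply Subtype.ext
  rw [hPQ i, h4, map_zero, zero_div]
  rfl

/-- **reduction does not raise the degree**: `[F_k : k(x̄)] ≤ [F : L(x)]`. -/
theorem SP_finrank_red_le (S : S18_Val L F k Fk) (x : S.O) (hx : Transcendental k (S.red x))
    [FiniteDimensional L⟮(x : F)⟯ F] :
    Module.finrank k⟮S.red x⟯ Fk ≤ Module.finrank L⟮(x : F)⟯ F := by
  classical
  obtain ⟨ybar, hybar⟩ := exists_linearIndependent_of_le_finrank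
    (le_refl (Module.finrank k⟮S.red x⟯ Fk))
  choose y hy using fun i => S.red_surjective (ybar i)
  have h1 : LinearIndependent k⟮S.red x⟯ (fun i => S.red (y i)) := by
    have : (fun i => S.red (y i)) = ybar := funext hy
    rw [this]
    exact hybar
  have h2 := SP_linearIndependent_lift S x hx y h1
  simpa using h2.fintype_card_le_finrank

end reduction

end Fermat.Agent.S18
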