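import Mathlib
import Fermat.Prelude.Def_ModularCurve_X0ModL
import Fermat.Prelude.Def_FLTPrelim_Ramification
import Fermat.Agent.S28.KCore.HInt
import Fermat.Agent.S28.IntRel
import Fermat.Agent.Lib.LaurentTheta

/-!
# S18, package P0/SEP (helper2), part 1: `F_k / k(j̄)` is finite

`k` a field with a ring homomorphism `ψ : ℤ_(ℓ) → k`, `ℓ ∤ N`.  The modular equations with
coefficients in `ℤ_(ℓ)` (S28, `kcT10b_rel_laurent`) reduce to `k((q))`:

* `S18_jd_rel`     : `j̄(q^d)` satisfies a monic equation over `k[j̄]` (`d ∣ N`);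
* `S18_jd_isIntegral`, `S18_finite_jbar` : `F_k = k(j̄(q^d) : d ∣ N)` is finite over `k(j̄)`.
-/

set_option autoImplicit false
set_option synthInstance.maxHeartbeats 400000
set_option maxHeartbeats 1000000

open HahnSeries IntermediateField ModularCurve

namespace Fermat.Agent.S18

open Fermat.Agent.S28

section Transfer

variable {R S : Type*} [CommRing R] [CommRing S]

theorem S18_coeffMap_C (f : R →+* S) (r : R) :
    coeffMap f (HahnSeries.C r : LaurentSeries R) = HahnSeries.C (f r) := by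
  exact coeffMap_single f 0 r

/-- the modular relation, as an element of `R((q))`. -/
noncomputable def S18_relElt (R : Type*) [CommRing R] (d : ℕ) [NeZero d] (n : ℕ)
    (r : Fin n → Fin (n + 1) → R) : LaurentSeries R :=
  (qExpand R d (jqModC R)) ^ n + ∑ κ : Fin n, ∑ i : Fin (n + 1),
    HahnSeries.C (r κ i) * ((jqModC R) ^ (i : ℕ) * (qExpand R d (jqModC R)) ^ (κ : ℕ))

theorem S18_coeffMap_relElt (f : R →+* S) (d : ℕ) [NeZero d] (n : ℕ)
    (r : Fin n → Fin (n + 1) → R) :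
    coeffMap f (S18_relElt R d n r) = S18_relElt S d n (fun κ i => f (r κ i)) := by
  simp only [S18_relElt, map_add, map_pow, map_sum, map_mul, coeffMap_qExpand, coeffMap_jqModC,
    S18_coeffMap_C]

theorem S18_coeffMap_injective {f : R →+* S} (hf : Function.Injective f) :
    Function.Injective (coeffMap f) := by
  intro x y h
  ext n
  have := congrArg (fun z => z.coeff n) h
  simp only [coeffMap_coeff] at this
  exact hf this

end Transfer

section Rel

variable (N : ℕ) [NeZero N] (ℓ : ℕ)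

/-- **the modular equation in characteristic `ℓ`**: for `d ∣ N`, `ℓ ∤ N`, the series `j̄(q^d)`
satisfies a monic equation with coefficients in `k[j̄]`. -/
theorem S18_jd_rel (hℓ : ℓ.Prime) (hℓN : ¬ ℓ ∣ N) {k : Type*} [CommRing k]
    (ψ : ↥(GaloisRep.ratLocalizedAt ℓ) →+* k) (d : ℕ) [NeZero d] (hd : d ∣ N) :
    ∃ (n : ℕ) (c : Fin n → Fin (n + 1) → k), S18_relElt k d n c = 0 := by
  have hdN : d ∈ N.divisors := Nat.mem_divisors.2 ⟨hd, NeZero.ne N⟩
  obtain ⟨n, r', hr', hrel⟩ := kcT10b_rel_laurent N ℓ hℓ hℓN ⟨d, hdN⟩ (ac3 N ⟨d, hdN⟩).1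
  let r : Fin n → Fin (n + 1) → ↥(GaloisRep.ratLocalizedAt ℓ) := fun κ i => ⟨r' κ i, hr' κ i⟩
  have h0 : S18_relElt ℚ d n (fun κ i => (GaloisRep.ratLocalizedAt ℓ).subtype (r κ i)) = 0 := hrel
  rw [← S18_coeffMap_relElt] at h0
  have h1 : S18_relElt ↥(GaloisRep.ratLocalizedAt ℓ) d n r = 0 := by
    apply S18_coeffMap_injective (f := (GaloisRep.ratLocalizedAt ℓ).subtype)
      Subtype.val_injective
    rw [h0, map_zero]
  refine ⟨n, fun κ i => ψ (r κ i), ?_⟩
  rw [← S18_coeffMap_relElt, h1, map_zero]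

end Rel

section Psi

variable {L : Type*} [Field L] [CharZero L] (A : ValuationSubring L) {ℓ : ℕ}

/-- integers prime to `ℓ` are units of a valuation ring lying over `ℓ`. -/
theorem S18_inv_natCast_mem (hℓ : ℓ.Prime) (hA : A.LiesOverPrime ℓ) (m : ℕ) (hm : ¬ ℓ ∣ m) :
    ((m : L))⁻¹ ∈ A := by
  have hℓv : A.valuation (ℓ : L) < 1 := (A.mem_nonunits_iff).mp hA
  have hint : ∀ z : ℤ, A.valuation (z : L) ≤ 1 := fun z =>
    (A.valuation_le_one_iff _).2 (intCast_mem A z)
  have hmv : A.valuation (m : L) ≤ 1 := by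
    have := hint (m : ℤ)
    simpa using this
  have hm1 : A.valuation (m : L) = 1 := by
    by_contra hne
    have hlt : A.valuation (m : L) < 1 := lt_of_le_of_ne hmv hne
    have hcop : IsCoprime (m : ℤ) (ℓ : ℤ) := by
      rw [Int.isCoprime_iff_gcd_eq_one, Int.gcd_natCast_natCast]
      exact ((Nat.Prime.coprime_iff_not_dvd hℓ).2 hm).symm
    obtain ⟨u, w, huw⟩ := hcop
    have h1 : ((u : L)) * (m : L) + (w : L) * (ℓ : L) = 1 := by exact_mod_cast huw
    have h2 : A.valuation ((u : L) * (m : L)) < 1 := by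
      rw [map_mul]
      exact mul_lt_one_of_nonneg_of_lt_one_right (hint u) zero_le hlt
    have h3 : A.valuation ((w : L) * (ℓ : L)) < 1 := by
      rw [map_mul]
      exact mul_lt_one_of_nonneg_of_lt_one_right (hint w) zero_le hℓv
    have h4 := Valuation.map_add_lt _ h2 h3
    rw [h1, map_one] at h4
    exact lt_irrefl _ h4
  rw [← A.valuation_le_one_iff, map_inv₀, hm1, inv_one]

/-- `ℤ_(ℓ) ⊆ A`. -/
theorem S18_ratLoc_mem (hℓ : ℓ.Prime) (hA : A.LiesOverPrime ℓ) {r : ℚ}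
    (hr : r ∈ GaloisRep.ratLocalizedAt ℓ) : ((r : ℚ) : L) ∈ A := by
  have hden : ¬ ℓ ∣ r.den := by
    have h1 : r.den.Coprime ℓ := hr
    intro hdvd
    have := Nat.Coprime.eq_one_of_dvd h1.symm hdvd
    exact hℓ.one_lt.ne' this
  have h1 := S18_inv_natCast_mem A hℓ hA r.den hden
  have h2 : ((r.num : ℤ) : L) ∈ A := intCast_mem A r.num
  have h3 : ((r : ℚ) : L) = (r.num : L) * ((r.den : L))⁻¹ := by
    rw [← div_eq_mul_inv]
    exact Rat.cast_def r
  rw [h3]
  exact A.mul_mem _ _ h2 h1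

/-- the inclusion `ℤ_(ℓ) → A`. -/
noncomputable def S18_ψA (hℓ : ℓ.Prime) (hA : A.LiesOverPrime ℓ) :
    ↥(GaloisRep.ratLocalizedAt ℓ) →+* A where
  toFun r := ⟨((r : ℚ) : L), S18_ratLoc_mem A hℓ hA r.2⟩
  map_one' := Subtype.ext (by simp)
  map_mul' r s := Subtype.ext (by simp)
  map_zero' := Subtype.ext (by simp)
  map_add' r s := Subtype.ext (by simp)

/-- the reduction `ℤ_(ℓ) → k`. -/
noncomputable def S18_ψ (hℓ : ℓ.Prime) (hA : A.LiesOverPrime ℓ) :
    ↥(GaloisRep.ratLocalizedAt ℓ) →+* IsLocalRing.ResidueField A :=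
  (IsLocalRing.residue A).comp (S18_ψA A hℓ hA)

end Psi

section Finite

variable (N : ℕ) [NeZero N] {ℓ : ℕ} (k : Type*) [Field k]

/-- `j̄` as an element of `F_k`. -/
noncomputable def S18_jbar : ↥(modularFunctionFieldFullC k N) :=
  ⟨jqModC k, jqModC_mem_full k N⟩

@[simp]
theorem S18_jbar_coe : ((S18_jbar N k : ↥(modularFunctionFieldFullC k N)) : LaurentSeries k) =
    jqModC k := rfl

/-- `j̄(q^d)` as an element of `F_k`. -/
noncomputable def S18_jdbar (d : N.divisors) : ↥(modularFunctionFieldFullC k N) :=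
  haveI := kc_neZero_of_mem_divisors N d
  ⟨qExpand k (d : ℕ) (jqModC k), jqModCd_mem_full k N (Nat.dvd_of_mem_divisors d.2)⟩

variable {k}

/-- `j̄(q^d)` is integral over `k(j̄)`. -/
theorem S18_jd_isIntegral (hℓ : ℓ.Prime) (hℓN : ¬ ℓ ∣ N)
    (ψ : ↥(GaloisRep.ratLocalizedAt ℓ) →+* k) (d : N.divisors) :
    IsIntegral k⟮S18_jbar N k⟯ (S18_jdbar N k d) := by
  have := kc_neZero_of_mem_divisors N d
  obtain ⟨n, c, hrel⟩ := S18_jd_rel N ℓ hℓ hℓN ψ (d : ℕ) (Nat.dvd_of_mem_divisors d.2)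
  set x : ↥(modularFunctionFieldFullC k N) := S18_jbar N k with hx
  have hxmem : x ∈ k⟮x⟯ := mem_adjoin_simple_self k x
  let X : k⟮x⟯ := ⟨x, hxmem⟩
  let a : Fin n → k⟮x⟯ := fun κ => ∑ i : Fin (n + 1), algebraMap k k⟮x⟯ (c κ i) * X ^ (i : ℕ)
  refine ⟨Polynomial.X ^ n + ∑ κ : Fin n, Polynomial.C (a κ) * Polynomial.X ^ (κ : ℕ),
    Polynomial.monic_X_pow_add (Polynomial.degree_sum_fin_lt a), ?_⟩
  rw [Polynomial.eval₂_add, Polynomial.eval₂_pow, Polynomial.eval₂_X, Polynomial.eval₂_finsetSum]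
  simp only [Polynomial.eval₂_mul, Polynomial.eval₂_C, Polynomial.eval₂_pow, Polynomial.eval₂_X]
  apply Subtype.ext
  have ha : ∀ κ, ((algebraMap k⟮x⟯ ↥(modularFunctionFieldFullC k N) (a κ) :
      ↥(modularFunctionFieldFullC k N)) : LaurentSeries k) =
      ∑ i : Fin (n + 1), HahnSeries.C (c κ i) * (jqModC k) ^ (i : ℕ) := by
    intro κ
    simp only [a, map_sum, map_mul, map_pow]
    rw [IntermediateField.coe_sum]
    refine Finset.sum_congr rfl fun i _ => ?_
    rw [IntermediateField.coe_mul, IntermediateField.coe_pow]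
    have h1 : ((algebraMap k⟮x⟯ ↥(modularFunctionFieldFullC k N) (algebraMap k k⟮x⟯ (c κ i)) :
        ↥(modularFunctionFieldFullC k N)) : LaurentSeries k) =
        algebraMap k (LaurentSeries k) (c κ i) := rfl
    rw [h1, Fermat.Agent.Lib.LT_algebraMap_eq]
    rfl
  rw [IntermediateField.coe_add, IntermediateField.coe_pow, IntermediateField.coe_sum]
  simp only [IntermediateField.coe_mul, IntermediateField.coe_pow, ha]
  rw [IntermediateField.coe_zero, ← hrel, S18_relElt]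
  congr 1
  refine Finset.sum_congr rfl fun κ _ => ?_
  rw [Finset.sum_mul]
  refine Finset.sum_congr rfl fun i _ => ?_
  rw [mul_assoc]
  rfl

variable (k) in
/-- `F_k` is generated over `k(j̄)` by the `j̄(q^d)`, `d ∣ N`. -/
theorem S18_adjoin_eq_top :
    IntermediateField.adjoin k⟮S18_jbar N k⟯ (Set.range (S18_jdbar N k)) = ⊤ := by
  rw [eq_top_iff]
  intro x _
  have hle : modularFunctionFieldFullC k N ≤ IntermediateField.lift
      ((IntermediateField.adjoin k⟮S18_jbar N k⟯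
        (Set.range (S18_jdbar N k))).restrictScalars k) := by
    show IntermediateField.adjoin k (divisorExpansionsC k N) ≤ _
    rw [IntermediateField.adjoin_le_iff]
    rintro _ ⟨d, hne, hdvd, rfl⟩
    have hdN : d ∈ N.divisors := Nat.mem_divisors.2 ⟨hdvd, NeZero.ne N⟩
    have hmem : S18_jdbar N k ⟨d, hdN⟩ ∈ IntermediateField.adjoin k⟮S18_jbar N k⟯
        (Set.range (S18_jdbar N k)) :=
      IntermediateField.subset_adjoin _ _ ⟨⟨d, hdN⟩, rfl⟩
    exact (IntermediateField.mem_lift (S18_jdbar N k ⟨d, hdN⟩)).2 hmem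
  exact (IntermediateField.mem_lift x).1 (hle x.2)

/-- **`F_k / k(j̄)` is finite** (`ℓ ∤ N`, `k` any field receiving `ℤ_(ℓ)`). -/
theorem S18_finite_jbar (hℓ : ℓ.Prime) (hℓN : ¬ ℓ ∣ N)
    (ψ : ↥(GaloisRep.ratLocalizedAt ℓ) →+* k) :
    FiniteDimensional k⟮S18_jbar N k⟯ ↥(modularFunctionFieldFullC k N) := by
  have h1 : FiniteDimensional k⟮S18_jbar N k⟯
      ↥(IntermediateField.adjoin k⟮S18_jbar N k⟯ (Set.range (S18_jdbar N k))) := by
    have : Finite (Set.range (S18_jdbar N k)) := Set.finite_range _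
    apply IntermediateField.finiteDimensional_adjoin
    rintro _ ⟨d, rfl⟩
    exact S18_jd_isIntegral N hℓ hℓN ψ d
  rw [S18_adjoin_eq_top] at h1
  exact (IntermediateField.topEquiv (F := k⟮S18_jbar N k⟯)
    (E := ↥(modularFunctionFieldFullC k N))).toLinearEquiv.finiteDimensional

end Finite

end Fermat.Agent.S18
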