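import Mathlib
import Fermat.Prelude.Def_ModularCurve_ReductionModL

/-!
# S18, package V (helper20), part 1: the Gauss valuation ring of `F = L(j(q^d) : d ∣ N) ⊂ L((q))`

`A ⊂ L` a valuation subring with residue field `k`.
* `S18_ι A : A((q)) →+* L((q))`, `S18_ρ A : A((q)) →+* k((q))` (inclusion and reduction);
* `S18_B A N ⊂ A((q))`: the integral series `y` with `ι y ∈ F` and `ρ y ∈ F_k`;
* `S18_O A N ⊂ F`: the fractions `s₁ / s₂`, `s_i ∈ B`, `ρ s₂ ≠ 0` (the Gauss valuation ring);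
* `S18_red A N : S18_O A N →+* F_k`, `s₁ / s₂ ↦ ρ s₁ / ρ s₂`.
-/

set_option autoImplicit false

open HahnSeries IntermediateField AlgebraicCurve ModularCurve

namespace Fermat.Agent.S18

variable {L : Type*} [Field L] [Algebra ℚ L] (A : ValuationSubring L) (N : ℕ)

/-- the inclusion `A((q)) → L((q))` -/
noncomputable abbrev S18_ι : LaurentSeries A →+* LaurentSeries L := coeffMap A.subtype

/-- the reduction `A((q)) → k((q))` -/
noncomputable abbrev S18_ρ : LaurentSeries A →+* LaurentSeries (IsLocalRing.ResidueField A) :=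
  coeffMap (IsLocalRing.residue A)

omit [Algebra ℚ L] in
theorem S18_ι_injective : Function.Injective (S18_ι A) := by
  intro x y h
  ext n
  have := congrArg (fun z => z.coeff n) h
  simpa using this

/-- the ring of integral series lying in `F`, with reduction in `F_k` -/
noncomputable def S18_B : Subring (LaurentSeries A) :=
  ((laurentBaseChange L (modularFunctionFieldFull N)).toSubfield.toSubring.comap (S18_ι A)) ⊓
  ((modularFunctionFieldFullC (IsLocalRing.ResidueField A) N).toSubfield.toSubring.comap (S18_ρ A))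

theorem S18_mem_B {y : LaurentSeries A} :
    y ∈ S18_B A N ↔ S18_ι A y ∈ laurentBaseChange L (modularFunctionFieldFull N) ∧
      S18_ρ A y ∈ modularFunctionFieldFullC (IsLocalRing.ResidueField A) N :=
  Iff.rfl

/-- the Gauss valuation ring of `F` -/
noncomputable def S18_O : Subring ↥(laurentBaseChange L (modularFunctionFieldFull N)) where
  carrier := {f | ∃ s₁ ∈ S18_B A N, ∃ s₂ ∈ S18_B A N, S18_ρ A s₂ ≠ 0 ∧
    (f : LaurentSeries L) * S18_ι A s₂ = S18_ι A s₁}
  zero_mem' := ⟨0, zero_mem _, 1, one_mem _, by simp, by simp⟩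
  one_mem' := ⟨1, one_mem _, 1, one_mem _, by simp, by simp⟩
  add_mem' := by
    rintro f g ⟨s₁, h1, s₂, h2, hne, hf⟩ ⟨t₁, k1, t₂, k2, kne, hg⟩
    refine ⟨s₁ * t₂ + t₁ * s₂, add_mem (mul_mem h1 k2) (mul_mem k1 h2), s₂ * t₂, mul_mem h2 k2,
      ?_, ?_⟩
    · rw [map_mul]
      exact mul_ne_zero hne kne
    · simp only [map_add, map_mul, AddMemClass.coe_add]
      rw [← hf, ← hg]
      ring
  mul_mem' := by
    rintro f g ⟨s₁, h1, s₂, h2, hne, hf⟩ ⟨t₁, k1, t₂, k2, kne, hg⟩
    refine ⟨s₁ * t₁, mul_mem h1 k1, s₂ * t₂, mul_mem h2 k2, ?_, ?_⟩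
    · rw [map_mul]
      exact mul_ne_zero hne kne
    · simp only [map_mul, MulMemClass.coe_mul]
      rw [← hf, ← hg]
      ring
  neg_mem' := by
    rintro f ⟨s₁, h1, s₂, h2, hne, hf⟩
    refine ⟨-s₁, neg_mem h1, s₂, h2, hne, ?_⟩
    simp only [map_neg, NegMemClass.coe_neg]
    rw [← hf]
    ring

theorem S18_mem_O {f : ↥(laurentBaseChange L (modularFunctionFieldFull N))} :
    f ∈ S18_O A N ↔ ∃ s₁ ∈ S18_B A N, ∃ s₂ ∈ S18_B A N, S18_ρ A s₂ ≠ 0 ∧
      (f : LaurentSeries L) * S18_ι A s₂ = S18_ι A s₁ :=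
  Iff.rfl

open Classical in
/-- the reduction of an element of `O`, as a Laurent series over `k` (junk value `0` outside
`O`) -/
noncomputable def S18_redFun (f : ↥(laurentBaseChange L (modularFunctionFieldFull N))) :
    LaurentSeries (IsLocalRing.ResidueField A) :=
  if h : f ∈ S18_O A N then S18_ρ A h.choose / S18_ρ A h.choose_spec.2.choose else 0

theorem S18_redFun_eq {f : ↥(laurentBaseChange L (modularFunctionFieldFull N))}
    {s₁ s₂ : LaurentSeries A} (h1 : s₁ ∈ S18_B A N) (h2 : s₂ ∈ S18_B A N)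
    (hne : S18_ρ A s₂ ≠ 0) (hf : (f : LaurentSeries L) * S18_ι A s₂ = S18_ι A s₁) :
    S18_redFun A N f = S18_ρ A s₁ / S18_ρ A s₂ := by
  have hO : f ∈ S18_O A N := ⟨s₁, h1, s₂, h2, hne, hf⟩
  rw [S18_redFun, dif_pos hO]
  have hspec := hO.choose_spec.2.choose_spec
  have e1 : (f : LaurentSeries L) * S18_ι A hO.choose_spec.2.choose = S18_ι A hO.choose :=
    hspec.2.2
  have hkey : s₁ * hO.choose_spec.2.choose = hO.choose * s₂ := by
    apply S18_ι_injective A
    rw [map_mul, map_mul]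
    linear_combination (-(S18_ι A hO.choose_spec.2.choose)) * hf + (S18_ι A s₂) * e1
  have hkey' := congrArg (S18_ρ A) hkey
  rw [map_mul, map_mul] at hkey'
  rw [div_eq_div_iff hspec.2.1 hne]
  exact hkey'.symm

theorem S18_redFun_mem (f : ↥(laurentBaseChange L (modularFunctionFieldFull N))) :
    S18_redFun A N f ∈ modularFunctionFieldFullC (IsLocalRing.ResidueField A) N := by
  by_cases hO : f ∈ S18_O A N
  · obtain ⟨s₁, h1, s₂, h2, hne, hf⟩ := hO
    rw [S18_redFun_eq A N h1 h2 hne hf]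
    exact div_mem h1.2 h2.2
  · rw [S18_redFun, dif_neg hO]
    exact zero_mem _

/-- the reduction map `O → F_k` -/
noncomputable def S18_red :
    S18_O A N →+* ↥(modularFunctionFieldFullC (IsLocalRing.ResidueField A) N) where
  toFun f := ⟨S18_redFun A N f.1, S18_redFun_mem A N f.1⟩
  map_zero' := by
    apply Subtype.ext
    show S18_redFun A N 0 = 0
    rw [S18_redFun_eq A N (zero_mem _) (one_mem _) (by simp) (by simp)]
    simp
  map_one' := by
    apply Subtype.ext
    show S18_redFun A N 1 = 1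
    rw [S18_redFun_eq A N (one_mem _) (one_mem _) (by simp) (by simp)]
    simp
  map_add' := by
    rintro ⟨f, s₁, h1, s₂, h2, hne, hf⟩ ⟨g, t₁, k1, t₂, k2, kne, hg⟩
    apply Subtype.ext
    show S18_redFun A N (f + g) = S18_redFun A N f + S18_redFun A N g
    rw [S18_redFun_eq A N h1 h2 hne hf, S18_redFun_eq A N k1 k2 kne hg,
      S18_redFun_eq A N (add_mem (mul_mem h1 k2) (mul_mem k1 h2)) (mul_mem h2 k2)
        (by rw [map_mul]; exact mul_ne_zero hne kne)
        (by simp only [map_add, map_mul, AddMemClass.coe_add]; rw [← hf, ← hg]; ring)]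
    simp only [map_add, map_mul]
    field_simp
  map_mul' := by
    rintro ⟨f, s₁, h1, s₂, h2, hne, hf⟩ ⟨g, t₁, k1, t₂, k2, kne, hg⟩
    apply Subtype.ext
    show S18_redFun A N (f * g) = S18_redFun A N f * S18_redFun A N g
    rw [S18_redFun_eq A N h1 h2 hne hf, S18_redFun_eq A N k1 k2 kne hg,
      S18_redFun_eq A N (mul_mem h1 k1) (mul_mem h2 k2)
        (by rw [map_mul]; exact mul_ne_zero hne kne)
        (by simp only [map_mul, MulMemClass.coe_mul]; rw [← hf, ← hg]; ring)]
    simp only [map_mul]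
    field_simp

theorem S18_red_eq {f : ↥(laurentBaseChange L (modularFunctionFieldFull N))}
    {s₁ s₂ : LaurentSeries A} (h1 : s₁ ∈ S18_B A N) (h2 : s₂ ∈ S18_B A N)
    (hne : S18_ρ A s₂ ≠ 0) (hf : (f : LaurentSeries L) * S18_ι A s₂ = S18_ι A s₁) :
    ((S18_red A N ⟨f, ⟨s₁, h1, s₂, h2, hne, hf⟩⟩ :
      ↥(modularFunctionFieldFullC (IsLocalRing.ResidueField A) N)) :
        LaurentSeries (IsLocalRing.ResidueField A)) = S18_ρ A s₁ / S18_ρ A s₂ :=
  S18_redFun_eq A N h1 h2 hne hf

end Fermat.Agent.S18
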