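import Fermat.Agent.S18.ValGauss

/-!
# S18, package V (helper20), part 4: `red` is onto (V2), reduction of divisors (V3)
-/

set_option autoImplicit false
set_option synthInstance.maxHeartbeats 400000

open HahnSeries IntermediateField AlgebraicCurve ModularCurve

namespace Fermat.Agent.S18

variable {L : Type*} [Field L] [Algebra ℚ L] (A : ValuationSubring L) (N : ℕ)

/-- the generators `j(q^d)`, `d ∣ N`, as elements of `B`. -/
theorem S18_jqN_mem_B [NeZero N] {d : ℕ} [NeZero d] (hd : d ∣ N) : jqNModC A d ∈ S18_B A N := by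
  refine ⟨?_, ?_⟩
  · show coeffMap A.subtype (jqNModC A d) ∈ laurentBaseChange L (modularFunctionFieldFull N)
    rw [coeffMap_jqNModC]
    have h1 : jqNModC L d = coeffEmb L (jqNModC ℚ d) := by
      rw [coeffEmb, coeffMap_jqNModC]
    rw [h1]
    exact coeffEmb_mem_laurentBaseChange L (jqd_mem_full N hd)
  · show coeffMap (IsLocalRing.residue A) (jqNModC A d) ∈
      modularFunctionFieldFullC (IsLocalRing.ResidueField A) N
    rw [coeffMap_jqNModC]
    exact jqModCd_mem_full (IsLocalRing.ResidueField A) N hd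

/-- **V2**: the reduction map `O → F_k` is onto. -/
theorem S18_red_surjective [NeZero N] : Function.Surjective (S18_red A N) := by
  -- the range of `red` as an intermediate field
  let T : IntermediateField (IsLocalRing.ResidueField A)
      (LaurentSeries (IsLocalRing.ResidueField A)) :=
    { carrier := {x | ∃ f : S18_O A N,
        ((S18_red A N f : ↥(modularFunctionFieldFullC (IsLocalRing.ResidueField A) N)) :
          LaurentSeries (IsLocalRing.ResidueField A)) = x}
      mul_mem' := by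
        rintro _ _ ⟨f, rfl⟩ ⟨g, rfl⟩
        exact ⟨f * g, by rw [map_mul]; rfl⟩
      one_mem' := ⟨1, by rw [map_one]; rfl⟩
      add_mem' := by
        rintro _ _ ⟨f, rfl⟩ ⟨g, rfl⟩
        exact ⟨f + g, by rw [map_add]; rfl⟩
      zero_mem' := ⟨0, by rw [map_zero]; rfl⟩
      algebraMap_mem' := by
        intro c
        obtain ⟨a, rfl⟩ := IsLocalRing.residue_surjective c
        exact ⟨⟨_, (S18_algebraMap_mem_O_iff A N a).mpr a.2⟩, by rw [S18_red_algebraMap]; rfl⟩
      inv_mem' := by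
        rintro _ ⟨⟨f, hf⟩, rfl⟩
        by_cases h0 : S18_red A N ⟨f, hf⟩ = 0
        · refine ⟨0, ?_⟩
          rw [map_zero, h0]
          simp
        · exact ⟨⟨f⁻¹, S18_inv_mem_O A N hf h0⟩, by rw [S18_red_inv A N hf h0]; rfl⟩ }
  have hle : modularFunctionFieldFullC (IsLocalRing.ResidueField A) N ≤ T := by
    rw [modularFunctionFieldFullC, IntermediateField.adjoin_le_iff]
    rintro x ⟨d, hd0, hd, rfl⟩
    have hB : jqNModC A d ∈ S18_B A N := S18_jqN_mem_B A N hd
    refine ⟨⟨S18_Bι A N ⟨_, hB⟩, S18_Bι_mem_O A N _⟩, ?_⟩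
    rw [S18_red_Bι]
    show coeffMap (IsLocalRing.residue A) (jqNModC A d) = _
    rw [coeffMap_jqNModC]
    rfl
  intro y
  obtain ⟨f, hf⟩ := hle y.2
  exact ⟨f, Subtype.ext hf⟩

/-- positivity of a fibre sum. -/
theorem S18_mapDomain_pos {α β : Type*} (r : α → β) (D : α →₀ ℤ) (Q : β)
    (hnn : ∀ P, r P = Q → 0 ≤ D P) (P₀ : α) (hP₀ : r P₀ = Q) (hpos : 0 < D P₀) :
    0 < Finsupp.mapDomain r D Q := by
  classical
  rw [Finsupp.mapDomain, Finsupp.sum_apply, Finsupp.sum]
  have hmem : P₀ ∈ D.support := Finsupp.mem_support_iff.mpr hpos.ne'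
  refine Finset.sum_pos' (fun P _ => ?_) ⟨P₀, hmem, ?_⟩
  · rw [Finsupp.single_apply]
    split_ifs with h
    · exact hnn P h
    · exact le_refl _
  · rw [Finsupp.single_apply, if_pos hP₀]
    exact hpos

section

variable {A N}
variable {r : Place L ↥(laurentBaseChange L (modularFunctionFieldFull N)) →
  Place (IsLocalRing.ResidueField A) ↥(modularFunctionFieldFullC (IsLocalRing.ResidueField A) N)}
  (hr : IsPlaceReductionAlong A (IsLocalRing.residue A) N r)
  (hPD : HasPrincipalDivisors L ↥(laurentBaseChange L (modularFunctionFieldFull N)))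

include hr hPD

/-- **V3**: for a unit `x` of `O`: `r_*(div x) = div (red x)`. -/
theorem S18_mapDomain_div {x : ↥(laurentBaseChange L (modularFunctionFieldFull N))}
    (hx : x ∈ S18_O A N) (hred : S18_red A N ⟨x, hx⟩ ≠ 0)
    (D : Divisor L ↥(laurentBaseChange L (modularFunctionFieldFull N)))
    (hD : ∀ P, D P = P.ord x)
    (Q : Place (IsLocalRing.ResidueField A)
      ↥(modularFunctionFieldFullC (IsLocalRing.ResidueField A) N)) :
    Finsupp.mapDomain r D Q = Q.ord (S18_red A N ⟨x, hx⟩) := by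
  obtain ⟨s₁, s₂, h2, h⟩ := (S18_mem_O' A N).mp hx
  have h1 : S18_Bρ A N s₁ ≠ 0 := by
    intro h0
    apply hred
    rw [S18_red_eq' A N hx h2 h, h0, zero_div]
  have hs1 := S18_Bι_ne_zero A N h1
  have hs2 := S18_Bι_ne_zero A N h2
  have hx0 : x ≠ 0 := by
    rintro rfl
    rw [zero_mul] at h
    exact hs1 h.symm
  obtain ⟨D₁, hD₁, -⟩ := hPD.exists_divisor _ hs1
  obtain ⟨D₂, hD₂, -⟩ := hPD.exists_divisor _ hs2
  have hDD : D = D₁ - D₂ := by
    ext P
    rw [Finsupp.sub_apply, hD P, hD₁ P, hD₂ P, ← h, P.ord_mul hx0 hs2]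
    ring
  have e1 := hr.2 s₁.1 s₁.2.1 s₁.2.2 (fun h0 => h1 (Subtype.ext h0)) D₁ hD₁ Q
  have e2 := hr.2 s₂.1 s₂.2.1 s₂.2.2 (fun h0 => h2 (Subtype.ext h0)) D₂ hD₂ Q
  rw [hDD, Finsupp.mapDomain_sub, Finsupp.sub_apply, e1, e2, S18_red_eq' A N hx h2 h, div_eq_mul_inv,
    Q.ord_mul h1 (inv_ne_zero h2), Q.ord_inv]
  rfl

end

end Fermat.Agent.S18
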