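import Fermat.Agent.S18.ValRep

/-!
# S18, package V (helper20), part 3: V1 (representation `f = c · s₁ / s₂`), V2 (`O` is a valuation
ring with residue field `F_k`)
-/

set_option autoImplicit false
set_option synthInstance.maxHeartbeats 400000

open HahnSeries IntermediateField AlgebraicCurve ModularCurve

namespace Fermat.Agent.S18

variable {L : Type*} [Field L] [Algebra ℚ L] (A : ValuationSubring L) (N : ℕ)

/-- **V1a**: every element of the closure of the integral principal divisors is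
`div s₁ - div s₂`. -/
theorem S18_closure_rep {D : Divisor L ↥(laurentBaseChange L (modularFunctionFieldFull N))}
    (hD : D ∈ AddSubgroup.closure (integralPrincipalDivisors A (IsLocalRing.residue A) N)) :
    ∃ s₁ s₂ : S18_B A N, S18_Bρ A N s₁ ≠ 0 ∧ S18_Bρ A N s₂ ≠ 0 ∧
      ∀ P : Place L ↥(laurentBaseChange L (modularFunctionFieldFull N)),
        D P = P.ord (S18_Bι A N s₁) - P.ord (S18_Bι A N s₂) := by
  induction hD using AddSubgroup.closure_induction with
  | mem E hE =>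
    obtain ⟨y, hy, hyk, hne, hE⟩ := hE
    refine ⟨⟨y, hy, hyk⟩, 1, fun h => hne (congrArg Subtype.val h), ?_, fun P => ?_⟩
    · rw [map_one]; exact one_ne_zero
    · rw [map_one, Place.ord_one, sub_zero]
      exact hE P
  | zero =>
    refine ⟨1, 1, ?_, ?_, fun P => ?_⟩
    · rw [map_one]; exact one_ne_zero
    · rw [map_one]; exact one_ne_zero
    · simp
  | add E E' _ _ hE hE' =>
    obtain ⟨s₁, s₂, h1, h2, hs⟩ := hE
    obtain ⟨t₁, t₂, k1, k2, ht⟩ := hE'
    refine ⟨s₁ * t₁, s₂ * t₂, ?_, ?_, fun P => ?_⟩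
    · rw [map_mul]; exact mul_ne_zero h1 k1
    · rw [map_mul]; exact mul_ne_zero h2 k2
    · rw [Finsupp.add_apply, hs P, ht P, map_mul, map_mul,
        P.ord_mul (S18_Bι_ne_zero A N h1) (S18_Bι_ne_zero A N k1),
        P.ord_mul (S18_Bι_ne_zero A N h2) (S18_Bι_ne_zero A N k2)]
      ring
  | neg E _ hE =>
    obtain ⟨s₁, s₂, h1, h2, hs⟩ := hE
    refine ⟨s₂, s₁, h2, h1, fun P => ?_⟩
    rw [Finsupp.neg_apply, hs P]
    ring

section

variable (hPD : HasPrincipalDivisors L ↥(laurentBaseChange L (modularFunctionFieldFull N)))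
  (hconst : ∀ f : ↥(laurentBaseChange L (modularFunctionFieldFull N)), f ≠ 0 →
    (∀ P : Place L ↥(laurentBaseChange L (modularFunctionFieldFull N)), P.ord f = 0) →
    ∃ c : L, f = algebraMap L ↥(laurentBaseChange L (modularFunctionFieldFull N)) c)
  (hgen : PrincipalGeneratedByIntegral A (IsLocalRing.residue A) N)

include hPD hconst hgen

/-- **V1**: every `f ∈ F^×` is `c · s₁ / s₂` with `c ∈ L^×`, `s_i ∈ B`, `ρ s_i ≠ 0`. -/
theorem S18_exists_rep (f : ↥(laurentBaseChange L (modularFunctionFieldFull N))) (hf : f ≠ 0) :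
    ∃ (c : L) (s₁ s₂ : S18_B A N), c ≠ 0 ∧ S18_Bρ A N s₁ ≠ 0 ∧ S18_Bρ A N s₂ ≠ 0 ∧
      f * S18_Bι A N s₂ =
        algebraMap L ↥(laurentBaseChange L (modularFunctionFieldFull N)) c * S18_Bι A N s₁ := by
  obtain ⟨D, hD, -⟩ := hPD.exists_divisor f hf
  have hDp : D ∈ Divisor.principal (K := L)
      (F := ↥(laurentBaseChange L (modularFunctionFieldFull N))) := ⟨f, hf, hD⟩
  obtain ⟨s₁, s₂, h1, h2, hs⟩ := S18_closure_rep A N (hgen hDp)
  have hs1 := S18_Bι_ne_zero A N h1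
  have hs2 := S18_Bι_ne_zero A N h2
  have hg0 : f * S18_Bι A N s₂ * (S18_Bι A N s₁)⁻¹ ≠ 0 :=
    mul_ne_zero (mul_ne_zero hf hs2) (inv_ne_zero hs1)
  obtain ⟨c, hc⟩ := hconst _ hg0 (fun P => by
    rw [P.ord_mul (mul_ne_zero hf hs2) (inv_ne_zero hs1), P.ord_mul hf hs2, P.ord_inv, ← hD P,
      hs P]
    ring)
  refine ⟨c, s₁, s₂, ?_, h1, h2, ?_⟩
  · rintro rfl
    rw [map_zero] at hc
    exact hg0 hc
  · rw [← hc]
    field_simp

/-- **V2** (totality): `O` is a valuation ring of `F`. -/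
theorem S18_mem_O_or_inv (f : ↥(laurentBaseChange L (modularFunctionFieldFull N))) :
    f ∈ S18_O A N ∨ f⁻¹ ∈ S18_O A N := by
  rcases eq_or_ne f 0 with rfl | hf
  · exact Or.inl (zero_mem _)
  obtain ⟨c, s₁, s₂, hc, h1, h2, h⟩ := S18_exists_rep A N hPD hconst hgen f hf
  have hs1 := S18_Bι_ne_zero A N h1
  have hs2 := S18_Bι_ne_zero A N h2
  rcases A.mem_or_inv_mem c with hcA | hcA
  · left
    refine (S18_mem_O' A N).mpr ⟨S18_BC A N ⟨c, hcA⟩ * s₁, s₂, h2, ?_⟩
    rw [map_mul, S18_Bι_BC, h]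
  · right
    refine (S18_mem_O' A N).mpr ⟨S18_BC A N ⟨c⁻¹, hcA⟩ * s₂, s₁, h1, ?_⟩
    rw [map_mul, S18_Bι_BC]
    have hcF : algebraMap L ↥(laurentBaseChange L (modularFunctionFieldFull N)) c ≠ 0 := by
      rwa [Ne, map_eq_zero]
    show f⁻¹ * S18_Bι A N s₁ =
      algebraMap L ↥(laurentBaseChange L (modularFunctionFieldFull N)) c⁻¹ * S18_Bι A N s₂
    rw [map_inv₀]
    field_simp
    rw [mul_comm, ← h]

/-- **V2** (value group): every `f ∈ F^×` is a constant times a unit of `O`. -/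
theorem S18_exists_const_mul_unit (f : ↥(laurentBaseChange L (modularFunctionFieldFull N)))
    (hf : f ≠ 0) :
    ∃ (c : L) (u : ↥(laurentBaseChange L (modularFunctionFieldFull N))) (hu : u ∈ S18_O A N),
      c ≠ 0 ∧ S18_red A N ⟨u, hu⟩ ≠ 0 ∧
        f = algebraMap L ↥(laurentBaseChange L (modularFunctionFieldFull N)) c * u := by
  obtain ⟨c, s₁, s₂, hc, h1, h2, h⟩ := S18_exists_rep A N hPD hconst hgen f hf
  have hs1 := S18_Bι_ne_zero A N h1
  have hs2 := S18_Bι_ne_zero A N h2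
  have hu : S18_Bι A N s₁ / S18_Bι A N s₂ ∈ S18_O A N :=
    (S18_mem_O' A N).mpr ⟨s₁, s₂, h2, by field_simp⟩
  refine ⟨c, _, hu, hc, ?_, ?_⟩
  · rw [S18_red_eq' A N hu h2 (by field_simp)]
    exact div_ne_zero h1 h2
  · field_simp
    exact h

/-- the Gauss valuation ring as a `ValuationSubring`. -/
noncomputable def S18_Ov : ValuationSubring ↥(laurentBaseChange L (modularFunctionFieldFull N)) :=
  { S18_O A N with
    mem_or_inv_mem' := S18_mem_O_or_inv A N hPD hconst hgen }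

theorem S18_mem_Ov {f : ↥(laurentBaseChange L (modularFunctionFieldFull N))} :
    f ∈ S18_Ov A N hPD hconst hgen ↔ f ∈ S18_O A N := Iff.rfl

/-- every integral series lying in `F` has its reduction in `F_k`. -/
theorem S18_mem_B_of_ι_mem {y : LaurentSeries A}
    (hy : S18_ι A y ∈ laurentBaseChange L (modularFunctionFieldFull N)) : y ∈ S18_B A N := by
  refine ⟨hy, ?_⟩
  show S18_ρ A y ∈ modularFunctionFieldFullC (IsLocalRing.ResidueField A) N
  by_cases hρ : S18_ρ A y = 0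
  · rw [hρ]; exact zero_mem _
  have hy0 : (⟨S18_ι A y, hy⟩ : ↥(laurentBaseChange L (modularFunctionFieldFull N))) ≠ 0 := by
    intro h0
    apply hρ
    have : S18_ι A y = 0 := congrArg Subtype.val h0
    have : y = 0 := S18_ι_injective A (by rw [this, map_zero])
    rw [this, map_zero]
  obtain ⟨c, s₁, s₂, hc, h1, h2, h⟩ := S18_exists_rep A N hPD hconst hgen _ hy0
  have h' : S18_ι A y * S18_ι A s₂.1 = algebraMap L (LaurentSeries L) c * S18_ι A s₁.1 :=
    congrArg Subtype.val h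
  have h1' : S18_ρ A s₁.1 ≠ 0 := fun h0 => h1 (Subtype.ext h0)
  have h2' : S18_ρ A s₂.1 ≠ 0 := fun h0 => h2 (Subtype.ext h0)
  have hcA : c ∈ A := by
    by_contra hcA
    have hci : c⁻¹ ∈ A := (A.mem_or_inv_mem c).resolve_left hcA
    have hnu : ¬ IsUnit (⟨c⁻¹, hci⟩ : A) := by
      rintro ⟨u, hu'⟩
      apply hcA
      have h5 : ((u : A) : L) * (((u⁻¹ : Aˣ) : A) : L) = 1 := by
        exact_mod_cast congrArg (fun z : A => (z : L)) u.mul_inv
      have h6 : ((u : A) : L) = c⁻¹ := congrArg Subtype.val hu'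
      rw [h6] at h5
      have h7 : (((u⁻¹ : Aˣ) : A) : L) = c := by
        have := congrArg (fun z => c * z) h5
        simp only [mul_one, ← mul_assoc, mul_inv_cancel₀ hc, one_mul] at this
        exact this
      rw [← h7]
      exact ((u⁻¹ : Aˣ) : A).2
    have hres : IsLocalRing.residue A ⟨c⁻¹, hci⟩ = 0 := by
      rwa [IsLocalRing.residue_eq_zero_iff, IsLocalRing.mem_maximalIdeal, mem_nonunits_iff]
    have h3 : HahnSeries.C (⟨c⁻¹, hci⟩ : A) * y * s₂.1 = s₁.1 := by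
      apply S18_ι_injective A
      rw [map_mul, map_mul, S18_ι_C, mul_assoc, h', ← mul_assoc, ← map_mul]
      simp [hc]
    have h4 := congrArg (S18_ρ A) h3
    rw [map_mul, map_mul, S18_ρ_C, hres, map_zero, zero_mul, zero_mul] at h4
    exact h1' h4.symm
  have h3 : y * s₂.1 = HahnSeries.C (⟨c, hcA⟩ : A) * s₁.1 := by
    apply S18_ι_injective A
    rw [map_mul, map_mul, S18_ι_C, h']
  have h4 := congrArg (S18_ρ A) h3
  rw [map_mul, map_mul] at h4
  have h5 : S18_ρ A y = S18_ρ A (HahnSeries.C (⟨c, hcA⟩ : A)) * S18_ρ A s₁.1 / S18_ρ A s₂.1 := by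
    rw [eq_div_iff h2', h4]
  rw [h5]
  exact div_mem (mul_mem (S18_C_mem_B A N _).2 s₁.2.2) s₂.2.2

end

end Fermat.Agent.S18
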