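import Fermat.Agent.S18.ValDefs

/-!
# S18, package V (helper20), part 2: the Gauss valuation ring is a valuation ring (V1, V2)

Inputs (as hypotheses; true for `L = ℚ̄` by the S24 package BG):
* `hPD : HasPrincipalDivisors L F`;
* `hconst`: a nonzero `f ∈ F` without zeros and poles is a constant;
* `hgen : PrincipalGeneratedByIntegral A (residue A) N` (part (3) of `ReductionInputsModL`).
-/

set_option autoImplicit false
set_option synthInstance.maxHeartbeats 400000

open HahnSeries IntermediateField AlgebraicCurve ModularCurve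

namespace Fermat.Agent.S18

variable {L : Type*} [Field L] [Algebra ℚ L] (A : ValuationSubring L) (N : ℕ)

/-- `B → F` -/
noncomputable def S18_Bι : S18_B A N →+* ↥(laurentBaseChange L (modularFunctionFieldFull N)) where
  toFun s := ⟨S18_ι A s.1, s.2.1⟩
  map_zero' := Subtype.ext (map_zero _)
  map_one' := Subtype.ext (map_one _)
  map_add' _ _ := Subtype.ext (map_add _ _ _)
  map_mul' _ _ := Subtype.ext (map_mul _ _ _)

/-- `B → F_k` -/
noncomputable def S18_Bρ :
    S18_B A N →+* ↥(modularFunctionFieldFullC (IsLocalRing.ResidueField A) N) where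
  toFun s := ⟨S18_ρ A s.1, s.2.2⟩
  map_zero' := Subtype.ext (map_zero _)
  map_one' := Subtype.ext (map_one _)
  map_add' _ _ := Subtype.ext (map_add _ _ _)
  map_mul' _ _ := Subtype.ext (map_mul _ _ _)

@[simp] theorem S18_Bι_coe (s : S18_B A N) :
    ((S18_Bι A N s : ↥(laurentBaseChange L (modularFunctionFieldFull N))) : LaurentSeries L) =
      S18_ι A s.1 := rfl

@[simp] theorem S18_Bρ_coe (s : S18_B A N) :
    ((S18_Bρ A N s : ↥(modularFunctionFieldFullC (IsLocalRing.ResidueField A) N)) :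
      LaurentSeries (IsLocalRing.ResidueField A)) = S18_ρ A s.1 := rfl

theorem S18_Bι_injective : Function.Injective (S18_Bι A N) := by
  intro s t h
  apply Subtype.ext
  apply S18_ι_injective A
  exact congrArg Subtype.val h

theorem S18_Bι_ne_zero {s : S18_B A N} (hs : S18_Bρ A N s ≠ 0) : S18_Bι A N s ≠ 0 := by
  intro h
  apply hs
  have : s = 0 := S18_Bι_injective A N (by rw [h, map_zero])
  rw [this, map_zero]

omit [Algebra ℚ L] in
/-- `ι` of a constant series -/
theorem S18_ι_C (a : A) : S18_ι A (HahnSeries.C a) = algebraMap L (LaurentSeries L) (a : L) := by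
  rw [algebraMap_laurentSeries_eq_single]
  show coeffMap A.subtype (HahnSeries.single 0 a) = _
  rw [coeffMap_single]
  rfl

omit [Algebra ℚ L] in
/-- `ρ` of a constant series -/
theorem S18_ρ_C (a : A) : S18_ρ A (HahnSeries.C a) =
    algebraMap (IsLocalRing.ResidueField A) (LaurentSeries (IsLocalRing.ResidueField A))
      (IsLocalRing.residue A a) := by
  rw [algebraMap_laurentSeries_eq_single]
  show coeffMap (IsLocalRing.residue A) (HahnSeries.single 0 a) = _
  rw [coeffMap_single]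

theorem S18_C_mem_B (a : A) : HahnSeries.C a ∈ S18_B A N := by
  refine ⟨?_, ?_⟩
  · show S18_ι A (HahnSeries.C a) ∈ laurentBaseChange L (modularFunctionFieldFull N)
    rw [S18_ι_C]
    exact (laurentBaseChange L (modularFunctionFieldFull N)).algebraMap_mem _
  · show S18_ρ A (HahnSeries.C a) ∈ modularFunctionFieldFullC (IsLocalRing.ResidueField A) N
    rw [S18_ρ_C]
    exact (modularFunctionFieldFullC (IsLocalRing.ResidueField A) N).algebraMap_mem _

/-- constants of `A` as elements of `B` -/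
noncomputable def S18_BC (a : A) : S18_B A N := ⟨HahnSeries.C a, S18_C_mem_B A N a⟩

theorem S18_Bι_BC (a : A) : S18_Bι A N (S18_BC A N a) =
    algebraMap L ↥(laurentBaseChange L (modularFunctionFieldFull N)) (a : L) :=
  Subtype.ext (S18_ι_C A a)

theorem S18_Bρ_BC (a : A) : S18_Bρ A N (S18_BC A N a) =
    algebraMap (IsLocalRing.ResidueField A)
      ↥(modularFunctionFieldFullC (IsLocalRing.ResidueField A) N) (IsLocalRing.residue A a) :=
  Subtype.ext (S18_ρ_C A a)

/-- membership in `O` in terms of `B`. -/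
theorem S18_mem_O' {f : ↥(laurentBaseChange L (modularFunctionFieldFull N))} :
    f ∈ S18_O A N ↔ ∃ s₁ s₂ : S18_B A N, S18_Bρ A N s₂ ≠ 0 ∧ f * S18_Bι A N s₂ = S18_Bι A N s₁ := by
  constructor
  · rintro ⟨s₁, h1, s₂, h2, hne, hf⟩
    exact ⟨⟨s₁, h1⟩, ⟨s₂, h2⟩, fun h => hne (congrArg Subtype.val h), Subtype.ext hf⟩
  · rintro ⟨s₁, s₂, hne, hf⟩
    exact ⟨s₁.1, s₁.2, s₂.1, s₂.2, fun h => hne (Subtype.ext h), congrArg Subtype.val hf⟩

theorem S18_red_eq' {f : ↥(laurentBaseChange L (modularFunctionFieldFull N))}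
    (hf : f ∈ S18_O A N) {s₁ s₂ : S18_B A N} (hne : S18_Bρ A N s₂ ≠ 0)
    (h : f * S18_Bι A N s₂ = S18_Bι A N s₁) :
    S18_red A N ⟨f, hf⟩ = S18_Bρ A N s₁ / S18_Bρ A N s₂ := by
  apply Subtype.ext
  have := S18_redFun_eq A N s₁.2 s₂.2 (fun h => hne (Subtype.ext h)) (congrArg Subtype.val h)
  exact this

theorem S18_Bι_mem_O (s : S18_B A N) : S18_Bι A N s ∈ S18_O A N :=
  (S18_mem_O' A N).mpr ⟨s, 1, by rw [map_one]; exact one_ne_zero, by rw [map_one, mul_one]⟩

theorem S18_red_Bι (s : S18_B A N) :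
    S18_red A N ⟨S18_Bι A N s, S18_Bι_mem_O A N s⟩ = S18_Bρ A N s := by
  rw [S18_red_eq' A N _ (s₁ := s) (s₂ := 1) (by rw [map_one]; exact one_ne_zero)
    (by rw [map_one, mul_one]), map_one, div_one]

/-- a constant lies in `O` iff it lies in `A`. -/
theorem S18_algebraMap_mem_O_iff (a : L) :
    algebraMap L ↥(laurentBaseChange L (modularFunctionFieldFull N)) a ∈ S18_O A N ↔ a ∈ A := by
  constructor
  · rintro ⟨s₁, -, s₂, -, hne, hf⟩
    -- some coefficient of `s₂` is a unit
    obtain ⟨n, hn⟩ : ∃ n, (S18_ρ A s₂).coeff n ≠ 0 := by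
      by_contra hcon
      push Not at hcon
      exact hne (HahnSeries.ext (funext hcon))
    have hu : IsUnit (s₂.coeff n) := by
      by_contra hnu
      apply hn
      show IsLocalRing.residue A (s₂.coeff n) = 0
      rwa [IsLocalRing.residue_eq_zero_iff, IsLocalRing.mem_maximalIdeal, mem_nonunits_iff]
    have hcoe : ((algebraMap L ↥(laurentBaseChange L (modularFunctionFieldFull N)) a :
        ↥(laurentBaseChange L (modularFunctionFieldFull N))) : LaurentSeries L) =
        algebraMap L (LaurentSeries L) a := rfl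
    rw [hcoe, algebraMap_laurentSeries_eq_single] at hf
    have hc := congrArg (fun z => z.coeff n) hf
    simp only [coeffMap_coeff, HahnSeries.coeff_single_zero_mul,
      ValuationSubring.subtype_apply] at hc
    obtain ⟨u, hu'⟩ := hu
    have h2 : a = (s₁.coeff n : L) * ((u⁻¹ : Aˣ) : A) := by
      have h3 : ((s₂.coeff n : A) : L) * (((u⁻¹ : Aˣ) : A) : L) = 1 := by
        rw [← hu']
        exact_mod_cast congrArg (fun z : A => (z : L)) u.mul_inv
      calc a = a * (((s₂.coeff n : A) : L) * (((u⁻¹ : Aˣ) : A) : L)) := by rw [h3, mul_one]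
        _ = _ := by rw [← mul_assoc, hc]
    rw [h2]
    exact A.mul_mem _ _ (s₁.coeff n).2 ((u⁻¹ : Aˣ) : A).2
  · intro ha
    exact (S18_mem_O' A N).mpr ⟨S18_BC A N ⟨a, ha⟩, 1, by rw [map_one]; exact one_ne_zero,
      by rw [map_one, mul_one, S18_Bι_BC]⟩

theorem S18_red_algebraMap (a : A) :
    S18_red A N ⟨algebraMap L ↥(laurentBaseChange L (modularFunctionFieldFull N)) (a : L),
      (S18_algebraMap_mem_O_iff A N a).mpr a.2⟩ =
    algebraMap (IsLocalRing.ResidueField A)
      ↥(modularFunctionFieldFullC (IsLocalRing.ResidueField A) N) (IsLocalRing.residue A a) := by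
  rw [S18_red_eq' A N _ (s₁ := S18_BC A N a) (s₂ := 1) (by rw [map_one]; exact one_ne_zero)
    (by rw [map_one, mul_one, S18_Bι_BC]), map_one, div_one, S18_Bρ_BC]

/-- the units of `O` are the elements with nonzero reduction. -/
theorem S18_inv_mem_O {f : ↥(laurentBaseChange L (modularFunctionFieldFull N))}
    (hf : f ∈ S18_O A N) (hred : S18_red A N ⟨f, hf⟩ ≠ 0) : f⁻¹ ∈ S18_O A N := by
  obtain ⟨s₁, s₂, hne, h⟩ := (S18_mem_O' A N).mp hf
  have h1 : S18_Bρ A N s₁ ≠ 0 := by
    intro h0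
    apply hred
    rw [S18_red_eq' A N hf hne h, h0, zero_div]
  have hs1 : S18_Bι A N s₁ ≠ 0 := S18_Bι_ne_zero A N h1
  have hs2 : S18_Bι A N s₂ ≠ 0 := S18_Bι_ne_zero A N hne
  have hf0 : f ≠ 0 := by
    rintro rfl
    rw [zero_mul] at h
    exact hs1 h.symm
  refine (S18_mem_O' A N).mpr ⟨s₂, s₁, h1, ?_⟩
  rw [← h]
  field_simp

theorem S18_red_inv {f : ↥(laurentBaseChange L (modularFunctionFieldFull N))}
    (hf : f ∈ S18_O A N) (hred : S18_red A N ⟨f, hf⟩ ≠ 0) :
    S18_red A N ⟨f⁻¹, S18_inv_mem_O A N hf hred⟩ = (S18_red A N ⟨f, hf⟩)⁻¹ := by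
  have h1 : S18_red A N ⟨f⁻¹, S18_inv_mem_O A N hf hred⟩ * S18_red A N ⟨f, hf⟩ = 1 := by
    rw [← map_mul]
    have hf0 : f ≠ 0 := by
      rintro rfl
      exact hred (map_zero _)
    have : (⟨f⁻¹, S18_inv_mem_O A N hf hred⟩ : S18_O A N) * ⟨f, hf⟩ = 1 :=
      Subtype.ext (inv_mul_cancel₀ hf0)
    rw [this, map_one]
  exact eq_inv_of_mul_eq_one_left h1

end Fermat.Agent.S18
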