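import Fermat.Agent.S18.ValDiv
import Fermat.Agent.S18.Spec

/-!
# S18, package V (helper20), part 5: the specialisation datum of `X₀(N)` from
`ReductionInputsModL`
-/

set_option autoImplicit false
set_option synthInstance.maxHeartbeats 400000
set_option maxHeartbeats 1000000

open HahnSeries IntermediateField AlgebraicCurve ModularCurve

namespace Fermat.Agent.S18

variable {L : Type*} [Field L] [Algebra ℚ L] (A : ValuationSubring L) (N : ℕ) [NeZero N]
  (hPD : HasPrincipalDivisors L ↥(laurentBaseChange L (modularFunctionFieldFull N)))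
  (hconst : ∀ f : ↥(laurentBaseChange L (modularFunctionFieldFull N)), f ≠ 0 →
    (∀ P : Place L ↥(laurentBaseChange L (modularFunctionFieldFull N)), P.ord f = 0) →
    ∃ c : L, f = algebraMap L ↥(laurentBaseChange L (modularFunctionFieldFull N)) c)
  (hgen : PrincipalGeneratedByIntegral A (IsLocalRing.residue A) N)
  (r : Place L ↥(laurentBaseChange L (modularFunctionFieldFull N)) →
    Place (IsLocalRing.ResidueField A)
      ↥(modularFunctionFieldFullC (IsLocalRing.ResidueField A) N))
  (hr : IsPlaceReductionAlong A (IsLocalRing.residue A) N r)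

/-- the reduction map on the valuation subring `S18_Ov`. -/
noncomputable def S18_redv : ↥(S18_Ov A N hPD hconst hgen) →+*
    ↥(modularFunctionFieldFullC (IsLocalRing.ResidueField A) N) where
  toFun x := S18_red A N ⟨x.1, x.2⟩
  map_zero' := (S18_red A N).map_zero
  map_one' := (S18_red A N).map_one
  map_add' x y := (S18_red A N).map_add ⟨x.1, x.2⟩ ⟨y.1, y.2⟩
  map_mul' x y := (S18_red A N).map_mul ⟨x.1, x.2⟩ ⟨y.1, y.2⟩

omit [NeZero N] in
theorem S18_redv_apply (x : ↥(S18_Ov A N hPD hconst hgen)) :
    S18_redv A N hPD hconst hgen x = S18_red A N ⟨x.1, x.2⟩ := rfl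

/-- **Package V**: the specialisation datum of `X₀(N)`. -/
noncomputable def S18_spec : S18_Spec L ↥(laurentBaseChange L (modularFunctionFieldFull N))
    (IsLocalRing.ResidueField A) ↥(modularFunctionFieldFullC (IsLocalRing.ResidueField A) N) where
  A := A
  res := IsLocalRing.residue A
  res_surjective := IsLocalRing.residue_surjective
  res_eq_zero_iff a := by
    rw [IsLocalRing.residue_eq_zero_iff, IsLocalRing.mem_maximalIdeal, mem_nonunits_iff]
  O := S18_Ov A N hPD hconst hgen
  red := S18_redv A N hPD hconst hgen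
  red_surjective := by
    intro y
    obtain ⟨x, hx⟩ := S18_red_surjective A N y
    exact ⟨⟨x.1, x.2⟩, hx⟩
  red_ne_zero_iff := by
    intro x
    constructor
    · intro hx
      have hx0 : (x : ↥(laurentBaseChange L (modularFunctionFieldFull N))) ≠ 0 := by
        intro h0
        apply hx
        have : x = 0 := Subtype.ext h0
        rw [this, map_zero]
      have hinv := S18_inv_mem_O A N x.2 hx
      refine ⟨⟨x, ⟨_, hinv⟩, ?_, ?_⟩, rfl⟩
      · exact Subtype.ext (mul_inv_cancel₀ hx0)
      · exact Subtype.ext (inv_mul_cancel₀ hx0)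
    · intro hx
      exact (hx.map (S18_redv A N hPD hconst hgen)).ne_zero
  algebraMap_mem_iff := S18_algebraMap_mem_O_iff A N
  red_algebraMap := by
    intro a ha haO
    exact S18_red_algebraMap A N ⟨a, ha⟩
  exists_const_mul_unit := by
    intro f hf
    obtain ⟨c, u, hu, hc, hred, h⟩ := S18_exists_const_mul_unit A N hPD hconst hgen f hf
    exact ⟨c, ⟨u, hu⟩, hc, hred, h⟩
  r := r
  deg_r := hr.1
  mapDomain_div := by
    intro x hx D hD Q
    exact S18_mapDomain_div hr hPD x.2 hx D hD Q

end Fermat.Agent.S18
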